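import Mathlib

/-!
# S14 cluster: shared definitions (class field theory "lite")

Everything here is about a finite Galois extension `M/E` of number fields.

* `IsUnramifiedEverywhere E M` : all inertia groups at finite primes are trivial.
* `frobAt E M 𝔭` : a Frobenius element at the prime `𝔭` of `𝓞 E` (junk value `1` when no
  nonzero prime of `𝓞 M` lies over `𝔭`); canonical when `M/E` is abelian and unramified at `𝔭`.
* `artinMap E M : (Ideal (𝓞 E))⁰ →* Gal(M/E)` : the Artin map on nonzero integral ideals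
  (for `M/E` abelian).
* `normClasses E M` : the subgroup of `ClassGroup (𝓞 E)` generated by the classes of the relative
  norms of the nonzero ideals of `𝓞 M`.
* `HasReciprocity E M` : the Artin map kills the nonzero principal ideals.
* `cycloAut K p a` : the automorphism `ζ ↦ ζ ^ a` of a `p`-th cyclotomic field `K/ℚ`.
-/

set_option autoImplicit false

open scoped NumberField IsMulCommutative nonZeroDivisors

namespace Fermat.Agent.S14

section Defs

variable (E M : Type*) [Field E] [NumberField E] [Field M] [NumberField M] [Algebra E M]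

/-- `M/E` is unramified at every finite prime: every inertia group is trivial. -/
def IsUnramifiedEverywhere : Prop :=
  ∀ (P : Ideal (𝓞 M)), P.IsPrime → P ≠ ⊥ →
    ∀ σ : Gal(M/E), (∀ x : 𝓞 M, σ • x - x ∈ P) → σ = 1

/-- A Frobenius element attached to the prime `𝔭` of `𝓞 E`
(junk value `1` if no nonzero prime of `𝓞 M` lies over `𝔭`). -/
noncomputable def frobAt [IsGalois E M] (𝔭 : Ideal (𝓞 E)) : Gal(M/E) :=
  open Classical in
  if h : ∃ P : Ideal (𝓞 M), P.IsPrime ∧ P ≠ ⊥ ∧ P.under (𝓞 E) = 𝔭 then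
    haveI := h.choose_spec.1
    haveI : Finite (𝓞 M ⧸ h.choose) := Ideal.finiteQuotientOfFreeOfNeBot _ h.choose_spec.2.1
    arithFrobAt (𝓞 E) Gal(M/E) h.choose
  else 1

/-- The Artin map of an abelian extension on nonzero integral ideals:
`𝔞 ↦ ∏ frobAt 𝔭 ^ v_𝔭(𝔞)`. -/
noncomputable def artinMap [IsAbelianGalois E M] : (Ideal (𝓞 E))⁰ →* Gal(M/E) where
  toFun 𝔞 :=
    ((UniqueFactorizationMonoid.normalizedFactors (𝔞 : Ideal (𝓞 E))).map (frobAt E M)).prod
  map_one' := by
    have h : ((1 : (Ideal (𝓞 E))⁰) : Ideal (𝓞 E)) = 1 := rfl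
    simp only [h, UniqueFactorizationMonoid.normalizedFactors_one, Multiset.map_zero,
      Multiset.prod_zero]
  map_mul' 𝔞 𝔟 := by
    have ha : (𝔞 : Ideal (𝓞 E)) ≠ 0 := nonZeroDivisors.coe_ne_zero 𝔞
    have hb : (𝔟 : Ideal (𝓞 E)) ≠ 0 := nonZeroDivisors.coe_ne_zero 𝔟
    simp [UniqueFactorizationMonoid.normalizedFactors_mul ha hb]

lemma artinMap_apply [IsAbelianGalois E M] (𝔞 : (Ideal (𝓞 E))⁰) :
    artinMap E M 𝔞 =
      ((UniqueFactorizationMonoid.normalizedFactors (𝔞 : Ideal (𝓞 E))).map (frobAt E M)).prod :=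
  rfl

/-- The subgroup of the class group of `E` generated by the classes of the relative norms of the
nonzero ideals of `𝓞 M`. -/
noncomputable def normClasses : Subgroup (ClassGroup (𝓞 E)) :=
  Subgroup.closure {c | ∃ (𝔄 : (Ideal (𝓞 M))⁰) (𝔞 : (Ideal (𝓞 E))⁰),
    (𝔞 : Ideal (𝓞 E)) = Ideal.relNorm (𝓞 E) (𝔄 : Ideal (𝓞 M)) ∧ c = ClassGroup.mk0 𝔞}

/-- Reciprocity: the Artin map is trivial on nonzero principal ideals. -/
def HasReciprocity [IsAbelianGalois E M] : Prop :=
  ∀ 𝔞 : (Ideal (𝓞 E))⁰, (𝔞 : Ideal (𝓞 E)).IsPrincipal → artinMap E M 𝔞 = 1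

end Defs

section Cyclo

variable (K : Type*) [Field K] [NumberField K] (p : ℕ) [Fact p.Prime]
  [IsCyclotomicExtension {p} ℚ K]

/-- The automorphism `ζ ↦ ζ ^ a` of the `p`-th cyclotomic field `K` over `ℚ`. -/
noncomputable def cycloAut (a : (ZMod p)ˣ) : Gal(K/ℚ) :=
  haveI : NeZero p := ⟨(Fact.out : p.Prime).ne_zero⟩
  (IsCyclotomicExtension.autEquivPow K
    (Polynomial.cyclotomic.irreducible_rat (Fact.out : p.Prime).pos)).symm a

end Cyclo

end Fermat.Agent.S14
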