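import Mathlib
import Fermat.Agent.S14.Defs

/-!
# S14 (1): basic properties of the Frobenius `frobAt` and the Artin map `artinMap`
of `Fermat/Agent/S14/Defs.lean` (helper12)

Main results (for `M/E` an abelian extension of number fields):

* `isArithFrobAt_frobAt` : `frobAt E M 𝔭` is an arithmetic Frobenius at every prime over `𝔭`.
* `eq_frobAt_of_isArithFrobAt` : uniqueness at primes with trivial inertia.
* `artinMap_prime`, `isArithFrobAt_artinMap` : the value of the Artin map at a prime.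
* `frobAt_eq_one_iff_card`, `frobAt_eq_one_iff_ncard` : the Frobenius is trivial iff the prime
  splits completely.
-/

set_option autoImplicit false
set_option linter.unusedSectionVars false
set_option linter.style.haveILetI false
set_option linter.overlappingInstances false

open scoped NumberField IsMulCommutative nonZeroDivisors Pointwise

namespace Fermat.Agent.S14.helper12

open Fermat.Agent.S14

variable (E M : Type*) [Field E] [NumberField E] [Field M] [NumberField M] [Algebra E M]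

/-- In a finite field `k`, if every element satisfies `y ^ q = y` with `2 ≤ q`, then `#k ≤ q`. -/
lemma card_le_of_forall_pow_eq {k : Type*} [Field k] [Finite k] {q : ℕ} (hq : 2 ≤ q)
    (h : ∀ y : k, y ^ q = y) : Nat.card k ≤ q := by
  classical
  haveI := Fintype.ofFinite k
  rw [Nat.card_eq_fintype_card]
  let f : Polynomial k := Polynomial.X ^ q - Polynomial.X
  have hf : f ≠ 0 := by
    apply FiniteField.X_pow_card_sub_X_ne_zero k
    omega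
  have hdeg : f.natDegree = q := FiniteField.X_pow_card_sub_X_natDegree_eq k (by omega)
  have hroots : (Finset.univ : Finset k) ⊆ f.roots.toFinset := by
    intro y _
    rw [Multiset.mem_toFinset, Polynomial.mem_roots hf]
    simp [f, h y]
  calc Fintype.card k = (Finset.univ : Finset k).card := Finset.card_univ.symm
    _ ≤ f.roots.toFinset.card := Finset.card_le_card hroots
    _ ≤ Multiset.card f.roots := Multiset.toFinset_card_le _
    _ ≤ f.natDegree := Polynomial.card_roots' f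
    _ = q := hdeg

section Galois

variable [IsGalois E M]

/-- Over a nonzero prime of `𝓞 E` lies a nonzero prime of `𝓞 M`. -/
lemma exists_prime_over (𝔭 : Ideal (𝓞 E)) [𝔭.IsPrime] (h𝔭 : 𝔭 ≠ ⊥) :
    ∃ P : Ideal (𝓞 M), P.IsPrime ∧ P ≠ ⊥ ∧ P.under (𝓞 E) = 𝔭 := by
  obtain ⟨P, hP, hP'⟩ := Ideal.exists_ideal_over_prime_of_isIntegral 𝔭 (⊥ : Ideal (𝓞 M))
    (by simp)
  refine ⟨P, hP'.1, ?_, hP'.2⟩
  rintro rfl
  apply h𝔭
  rw [← hP'.2]
  exact Ideal.comap_bot_of_injective _ (FaithfulSMul.algebraMap_injective (𝓞 E) (𝓞 M))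

/-- `frobAt E M 𝔭` is an arithmetic Frobenius at some nonzero prime over `𝔭`. -/
lemma exists_isArithFrobAt_frobAt (𝔭 : Ideal (𝓞 E)) [𝔭.IsPrime] (h𝔭 : 𝔭 ≠ ⊥) :
    ∃ P : Ideal (𝓞 M), P.IsPrime ∧ P ≠ ⊥ ∧ P.under (𝓞 E) = 𝔭 ∧
      IsArithFrobAt (𝓞 E) (frobAt E M 𝔭) P := by
  classical
  have h := exists_prime_over E M 𝔭 h𝔭
  refine ⟨h.choose, h.choose_spec.1, h.choose_spec.2.1, h.choose_spec.2.2, ?_⟩
  unfold frobAt
  rw [dif_pos h]
  haveI := h.choose_spec.1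
  haveI : Finite (𝓞 M ⧸ h.choose) := Ideal.finiteQuotientOfFreeOfNeBot _ h.choose_spec.2.1
  exact IsArithFrobAt.arithFrobAt (𝓞 E) Gal(M/E) h.choose

/-- A nonzero prime of `𝓞 M` lies over a nonzero prime of `𝓞 E`. -/
lemma under_ne_bot (P : Ideal (𝓞 M)) (hP : P ≠ ⊥) : P.under (𝓞 E) ≠ ⊥ :=
  Ideal.under_ne_bot (𝓞 E) hP

/-- A prime of `𝓞 M` over a nonzero prime of `𝓞 E` is nonzero. -/
lemma ne_bot_of_under_ne_bot (P : Ideal (𝓞 M)) (hP : P.under (𝓞 E) ≠ ⊥) : P ≠ ⊥ := by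
  rintro rfl
  exact hP (Ideal.comap_bot_of_injective _ (FaithfulSMul.algebraMap_injective (𝓞 E) (𝓞 M)))

/-- The residue field of a nonzero prime of `𝓞 M` is at least as big as the one below. -/
lemma card_quot_under_le (P : Ideal (𝓞 M)) [P.IsPrime] (hP0 : P ≠ ⊥) :
    Nat.card (𝓞 E ⧸ P.under (𝓞 E)) ≤ Nat.card (𝓞 M ⧸ P) := by
  haveI : Finite (𝓞 M ⧸ P) := Ideal.finiteQuotientOfFreeOfNeBot P hP0
  exact Nat.card_le_card_of_injective _ (Ideal.algebraMap_quotient_injective (R := 𝓞 E))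

lemma two_le_card_quot (𝔭 : Ideal (𝓞 E)) [𝔭.IsPrime] (h𝔭 : 𝔭 ≠ ⊥) :
    2 ≤ Nat.card (𝓞 E ⧸ 𝔭) := by
  haveI : Finite (𝓞 E ⧸ 𝔭) := Ideal.finiteQuotientOfFreeOfNeBot 𝔭 h𝔭
  haveI : Nontrivial (𝓞 E ⧸ 𝔭) :=
    Ideal.Quotient.nontrivial_iff.mpr (Ideal.IsPrime.ne_top inferInstance)
  exact Finite.one_lt_card

/-- The identity is a Frobenius at `P` iff the residue degree of `P` is one. -/
theorem isArithFrobAt_one_iff (P : Ideal (𝓞 M)) [P.IsPrime] (hP0 : P ≠ ⊥) :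
    IsArithFrobAt (𝓞 E) (1 : Gal(M/E)) P ↔
      Nat.card (𝓞 M ⧸ P) = Nat.card (𝓞 E ⧸ P.under (𝓞 E)) := by
  haveI : Finite (𝓞 M ⧸ P) := Ideal.finiteQuotientOfFreeOfNeBot P hP0
  haveI : P.IsMaximal := Ideal.isMaximal_of_isPrime_of_ne_bot P hP0
  letI : Field (𝓞 M ⧸ P) := Ideal.Quotient.field P
  have h𝔭 : P.under (𝓞 E) ≠ ⊥ := Ideal.under_ne_bot (𝓞 E) hP0
  constructor
  · intro h
    apply le_antisymm _ (card_quot_under_le E M P hP0)
    apply card_le_of_forall_pow_eq (two_le_card_quot E _ h𝔭)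
    intro y
    obtain ⟨x, rfl⟩ := Ideal.Quotient.mk_surjective y
    have := h x
    rw [← map_pow, eq_comm, Ideal.Quotient.eq]
    simpa using this
  · intro h x
    haveI := Fintype.ofFinite (𝓞 M ⧸ P)
    have h1 : (Ideal.Quotient.mk P x) ^ Fintype.card (𝓞 M ⧸ P) = Ideal.Quotient.mk P x :=
      FiniteField.pow_card _
    rw [← Nat.card_eq_fintype_card, h, ← map_pow, eq_comm, Ideal.Quotient.eq] at h1
    simpa using h1

/-- Residue degree one in terms of cardinalities. -/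
lemma inertiaDeg_eq_one_iff_card (𝔭 : Ideal (𝓞 E)) [𝔭.IsPrime] (h𝔭 : 𝔭 ≠ ⊥)
    (P : Ideal (𝓞 M)) [P.IsPrime] [P.LiesOver 𝔭] :
    P.inertiaDeg (𝓞 E) = 1 ↔ Nat.card (𝓞 M ⧸ P) = Nat.card (𝓞 E ⧸ 𝔭) := by
  have hP0 : P ≠ ⊥ := by
    rintro rfl
    apply h𝔭
    rw [Ideal.LiesOver.over (p := 𝔭) (P := (⊥ : Ideal (𝓞 M)))]
    exact Ideal.comap_bot_of_injective _ (FaithfulSMul.algebraMap_injective (𝓞 E) (𝓞 M))
  haveI : Finite (𝓞 M ⧸ P) := Ideal.finiteQuotientOfFreeOfNeBot P hP0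
  haveI : Finite (𝓞 E ⧸ 𝔭) := Ideal.finiteQuotientOfFreeOfNeBot 𝔭 h𝔭
  haveI : P.IsMaximal := Ideal.isMaximal_of_isPrime_of_ne_bot P hP0
  haveI : 𝔭.IsMaximal := Ideal.isMaximal_of_isPrime_of_ne_bot 𝔭 h𝔭
  letI : Field (𝓞 M ⧸ P) := Ideal.Quotient.field P
  letI : Field (𝓞 E ⧸ 𝔭) := Ideal.Quotient.field 𝔭
  haveI := Fintype.ofFinite (𝓞 M ⧸ P)
  haveI := Fintype.ofFinite (𝓞 E ⧸ 𝔭)
  rw [Ideal.inertiaDeg_eq_of_isMaximal 𝔭 P, Nat.card_eq_fintype_card, Nat.card_eq_fintype_card,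
    Module.card_eq_pow_finrank (K := 𝓞 E ⧸ 𝔭) (V := 𝓞 M ⧸ P)]
  have h2 : 1 < Fintype.card (𝓞 E ⧸ 𝔭) := Fintype.one_lt_card
  constructor
  · intro h; rw [h, pow_one]
  · intro h
    exact Nat.pow_right_injective h2 (by simpa using h)

lemma card_inertia_eq_one (P : Ideal (𝓞 M))
    (hunr : ∀ σ : Gal(M/E), (∀ x : 𝓞 M, σ • x - x ∈ P) → σ = 1) :
    Nat.card (Ideal.inertia Gal(M/E) P) = 1 := by
  have : Ideal.inertia Gal(M/E) P = ⊥ := by
    rw [eq_bot_iff]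
    intro σ hσ
    exact hunr σ (fun x => hσ x)
  rw [this]
  exact Subgroup.card_bot

/-- Fundamental identity for a prime with trivial inertia. -/
lemma ncard_primesOver_mul_inertiaDeg (𝔭 : Ideal (𝓞 E)) [𝔭.IsPrime]
    (P : Ideal (𝓞 M)) [P.IsPrime] [P.LiesOver 𝔭]
    (hunr : ∀ σ : Gal(M/E), (∀ x : 𝓞 M, σ • x - x ∈ P) → σ = 1) :
    (Ideal.primesOver 𝔭 (𝓞 M)).ncard * P.inertiaDeg (𝓞 E) = Module.finrank E M := by
  have h := Ideal.ncard_primesOver_mul_card_inertia_mul_finrank (G := Gal(M/E)) 𝔭 P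
  rw [card_inertia_eq_one E M P hunr, mul_one, IsGalois.card_aut_eq_finrank] at h
  exact h

/-- A prime with trivial inertia splits completely iff its residue degree is one. -/
lemma ncard_primesOver_eq_finrank_iff (𝔭 : Ideal (𝓞 E)) [𝔭.IsPrime] (h𝔭 : 𝔭 ≠ ⊥)
    (P : Ideal (𝓞 M)) [P.IsPrime] [P.LiesOver 𝔭]
    (hunr : ∀ σ : Gal(M/E), (∀ x : 𝓞 M, σ • x - x ∈ P) → σ = 1) :
    (Ideal.primesOver 𝔭 (𝓞 M)).ncard = Module.finrank E M ↔
      Nat.card (𝓞 M ⧸ P) = Nat.card (𝓞 E ⧸ 𝔭) := by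
  rw [← inertiaDeg_eq_one_iff_card E M 𝔭 h𝔭 P]
  have h := ncard_primesOver_mul_inertiaDeg E M 𝔭 P hunr
  have hpos : 0 < Module.finrank E M := Module.finrank_pos
  constructor
  · intro h1
    rw [h1] at h
    exact Nat.eq_of_mul_eq_mul_left hpos (by rw [h, mul_one])
  · intro h1
    rw [h1, mul_one] at h
    exact h

end Galois

section Abelian

variable [IsAbelianGalois E M]

/-- In an abelian extension, `frobAt E M 𝔭` is an arithmetic Frobenius at *every* prime of `𝓞 M`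
over the nonzero prime `𝔭`. -/
theorem isArithFrobAt_frobAt (𝔭 : Ideal (𝓞 E)) [𝔭.IsPrime] (h𝔭 : 𝔭 ≠ ⊥)
    (P : Ideal (𝓞 M)) [P.IsPrime] (hP : P.under (𝓞 E) = 𝔭) :
    IsArithFrobAt (𝓞 E) (frobAt E M 𝔭) P := by
  obtain ⟨P₀, hP₀, -, hP₀', hfrob⟩ := exists_isArithFrobAt_frobAt E M 𝔭 h𝔭
  obtain ⟨τ, rfl⟩ := Algebra.IsInvariant.exists_smul_of_under_eq (𝓞 E) (𝓞 M) Gal(M/E) P₀ P
    (hP₀'.trans hP.symm)
  have := hfrob.conj τ
  rwa [mul_comm τ, mul_inv_cancel_right] at this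

/-- Uniqueness of the Frobenius: if `σ` is an arithmetic Frobenius at a prime `P` with trivial
inertia group, then `σ = frobAt E M (P.under (𝓞 E))`. -/
theorem eq_frobAt_of_isArithFrobAt (P : Ideal (𝓞 M)) [P.IsPrime] (hP0 : P ≠ ⊥)
    (hunr : ∀ σ : Gal(M/E), (∀ x : 𝓞 M, σ • x - x ∈ P) → σ = 1)
    (σ : Gal(M/E)) (hσ : IsArithFrobAt (𝓞 E) σ P) :
    σ = frobAt E M (P.under (𝓞 E)) := by
  have h𝔭 : P.under (𝓞 E) ≠ ⊥ := under_ne_bot E M P hP0
  have h1 := isArithFrobAt_frobAt E M (P.under (𝓞 E)) h𝔭 P rfl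
  have h2 := hσ.mul_inv_mem_inertia h1
  have h3 := hunr _ (fun x => h2 x)
  exact mul_inv_eq_one.mp h3

/-- The value of the Artin map at a nonzero prime is its Frobenius. -/
theorem artinMap_prime (𝔭 : Ideal (𝓞 E)) [𝔭.IsPrime] (h𝔭 : 𝔭 ≠ ⊥) :
    artinMap E M ⟨𝔭, mem_nonZeroDivisors_of_ne_zero h𝔭⟩ = frobAt E M 𝔭 := by
  rw [artinMap_apply]
  have hirr : Irreducible 𝔭 := (Ideal.prime_of_isPrime h𝔭 inferInstance).irreducible
  simp only [UniqueFactorizationMonoid.normalizedFactors_irreducible hirr, normalize_eq,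
    Multiset.map_singleton, Multiset.prod_singleton]

/-- The value of the Artin map at every nonzero prime is an arithmetic Frobenius at every prime
above it. -/
theorem isArithFrobAt_artinMap (𝔭 : Ideal (𝓞 E)) [𝔭.IsPrime] (h𝔭 : 𝔭 ≠ ⊥)
    (P : Ideal (𝓞 M)) [P.IsPrime] (hP : P.under (𝓞 E) = 𝔭) :
    IsArithFrobAt (𝓞 E) (artinMap E M ⟨𝔭, mem_nonZeroDivisors_of_ne_zero h𝔭⟩) P := by
  rw [artinMap_prime E M 𝔭 h𝔭]
  exact isArithFrobAt_frobAt E M 𝔭 h𝔭 P hP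

/-- The Artin map of a product of ideals. -/
theorem artinMap_mk_mul (𝔞 𝔟 : Ideal (𝓞 E)) (ha : 𝔞 ≠ ⊥) (hb : 𝔟 ≠ ⊥) :
    artinMap E M ⟨𝔞 * 𝔟, mem_nonZeroDivisors_of_ne_zero (mul_ne_zero ha hb)⟩ =
      artinMap E M ⟨𝔞, mem_nonZeroDivisors_of_ne_zero ha⟩ *
        artinMap E M ⟨𝔟, mem_nonZeroDivisors_of_ne_zero hb⟩ := by
  rw [← map_mul]
  rfl

/-- The Artin map of a power of an ideal. -/
theorem artinMap_mk_pow (𝔞 : Ideal (𝓞 E)) (ha : 𝔞 ≠ ⊥) (n : ℕ) :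
    artinMap E M ⟨𝔞 ^ n, mem_nonZeroDivisors_of_ne_zero (pow_ne_zero n ha)⟩ =
      artinMap E M ⟨𝔞, mem_nonZeroDivisors_of_ne_zero ha⟩ ^ n := by
  rw [← map_pow]
  rfl

/-- At a prime `P` with trivial inertia: the Frobenius of the prime below is trivial iff the
residue degree is one. -/
theorem frobAt_eq_one_iff_card (P : Ideal (𝓞 M)) [P.IsPrime] (hP0 : P ≠ ⊥)
    (hunr : ∀ σ : Gal(M/E), (∀ x : 𝓞 M, σ • x - x ∈ P) → σ = 1) :
    frobAt E M (P.under (𝓞 E)) = 1 ↔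
      Nat.card (𝓞 M ⧸ P) = Nat.card (𝓞 E ⧸ P.under (𝓞 E)) := by
  rw [← isArithFrobAt_one_iff E M P hP0]
  constructor
  · intro h
    rw [← h]
    exact isArithFrobAt_frobAt E M _ (under_ne_bot E M P hP0) P rfl
  · intro h
    exact (eq_frobAt_of_isArithFrobAt E M P hP0 hunr 1 h).symm

/-- In an abelian extension unramified everywhere, the Frobenius of a nonzero prime `𝔭` is
trivial iff `𝔭` splits completely (there are `[M : E]` primes above it). -/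
theorem frobAt_eq_one_iff_ncard (hunr : IsUnramifiedEverywhere E M)
    (𝔭 : Ideal (𝓞 E)) [𝔭.IsPrime] (h𝔭 : 𝔭 ≠ ⊥) :
    frobAt E M 𝔭 = 1 ↔ (Ideal.primesOver 𝔭 (𝓞 M)).ncard = Module.finrank E M := by
  obtain ⟨P, hP, hP0, hP𝔭⟩ := exists_prime_over E M 𝔭 h𝔭
  haveI := hP
  haveI : P.LiesOver 𝔭 := ⟨hP𝔭.symm⟩
  rw [ncard_primesOver_eq_finrank_iff E M 𝔭 h𝔭 P (hunr P hP hP0)]
  have := frobAt_eq_one_iff_card E M P hP0 (hunr P hP hP0)
  rw [hP𝔭] at this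
  exact this

/-- The Artin map at a prime is trivial iff the prime splits completely. -/
theorem artinMap_prime_eq_one_iff (hunr : IsUnramifiedEverywhere E M)
    (𝔭 : Ideal (𝓞 E)) [𝔭.IsPrime] (h𝔭 : 𝔭 ≠ ⊥) :
    artinMap E M ⟨𝔭, mem_nonZeroDivisors_of_ne_zero h𝔭⟩ = 1 ↔
      (Ideal.primesOver 𝔭 (𝓞 M)).ncard = Module.finrank E M := by
  rw [artinMap_prime E M 𝔭 h𝔭]
  exact frobAt_eq_one_iff_ncard E M hunr 𝔭 h𝔭

end Abelian

end Fermat.Agent.S14.helper12
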