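import Mathlib
import Fermat.Agent.S14.helper12_Artin

/-!
# S14 (1), part 2: functoriality of the Frobenius `frobAt` (helper12)

* `frobAt_map_eq_of_conj`, `frobAt_comap_eq_of_conj` (and primed versions with an automorphism
  of `𝓞 K`) : conjugation equivariance `Frob (τ 𝔮) = τ Frob(𝔮) τ⁻¹`.
* `frobAt_restrict` : restriction of the Frobenius of `M/E` to `L` is the Frobenius of `L/K`
  at primes of residue degree one.
* `frobAt_apply_of_pow_eq_one` : action of the Frobenius on roots of unity.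
-/

set_option autoImplicit false
set_option linter.unusedSectionVars false
set_option linter.style.haveILetI false
set_option linter.overlappingInstances false

open scoped NumberField IsMulCommutative nonZeroDivisors Pointwise

namespace Fermat.Agent.S14.helper12

open Fermat.Agent.S14

/-- The residue rings of an ideal and of its image under a ring automorphism have the same
cardinality. -/
lemma card_quot_map_ringEquiv {R : Type*} [CommRing R] (e : R ≃+* R) (I : Ideal R) :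
    Nat.card (R ⧸ I.map e) = Nat.card (R ⧸ I) :=
  (Nat.card_congr (Ideal.quotientEquiv I (I.map e) e rfl).toEquiv).symm

/-- Compatibility of `under` with compatible ring automorphisms. -/
lemma under_map_ringEquiv {R S : Type*} [CommRing R] [CommRing S] [Algebra R S]
    (τR : R ≃+* R) (τS : S ≃+* S)
    (hτ : ∀ r, τS (algebraMap R S r) = algebraMap R S (τR r)) (Q : Ideal S) :
    (Q.map τS).under R = (Q.under R).map τR := by
  ext r
  rw [Ideal.under_def, Ideal.mem_comap, Ideal.mem_map_of_equiv τS, Ideal.mem_map_of_equiv τR]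
  constructor
  · rintro ⟨y, hy, hyr⟩
    refine ⟨τR.symm r, ?_, by simp⟩
    rw [Ideal.under_def, Ideal.mem_comap]
    have : algebraMap R S (τR.symm r) = y := by
      apply τS.injective
      rw [hτ, hyr]; simp
    rwa [this]
  · rintro ⟨r', hr', rfl⟩
    exact ⟨algebraMap R S r', hr', hτ r'⟩

/-- Transport of an arithmetic Frobenius along compatible ring automorphisms: if `σ` is a
Frobenius at `Q` and `σ' ∘ τ = τ ∘ σ`, then `σ'` is a Frobenius at `τ Q`. -/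
theorem isArithFrobAt_map_of_conj {R S : Type*} [CommRing R] [CommRing S] [Algebra R S]
    {G : Type*} [Group G] [MulSemiringAction G S] [SMulCommClass G R S]
    (τR : R ≃+* R) (τS : S ≃+* S)
    (hτ : ∀ r, τS (algebraMap R S r) = algebraMap R S (τR r))
    (σ σ' : G) (hσ' : ∀ y : S, σ' • (τS y) = τS (σ • y))
    (Q : Ideal S) (h : IsArithFrobAt R σ Q) :
    IsArithFrobAt R σ' (Q.map τS) := by
  intro y
  change σ' • y - y ^ Nat.card (R ⧸ (Q.map τS).under R) ∈ _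
  rw [under_map_ringEquiv τR τS hτ, card_quot_map_ringEquiv]
  obtain ⟨x, rfl⟩ := τS.surjective y
  rw [hσ', ← map_pow, ← map_sub]
  exact Ideal.mem_map_of_mem _ (h x)

/-- Restriction of an arithmetic Frobenius to a subextension, at a prime of residue degree one
over the small base ring. -/
theorem isArithFrobAt_under_of_card_eq {A A' B B' : Type*} [CommRing A] [CommRing A']
    [CommRing B] [CommRing B'] [Algebra A A'] [Algebra A B] [Algebra A' B'] [Algebra B B']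
    [Algebra A B'] [IsScalarTower A A' B'] [IsScalarTower A B B']
    {G G' : Type*} [Group G] [Group G'] [MulSemiringAction G B] [SMulCommClass G A B]
    [MulSemiringAction G' B'] [SMulCommClass G' A' B']
    (σ : G') (σL : G) (hσL : ∀ y : B, algebraMap B B' (σL • y) = σ • (algebraMap B B' y))
    (P' : Ideal B') (h : IsArithFrobAt A' σ P')
    (hf : Nat.card (A' ⧸ P'.under A') = Nat.card (A ⧸ P'.under A)) :
    IsArithFrobAt A σL (P'.under B) := by
  intro y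
  change σL • y - y ^ Nat.card (A ⧸ (P'.under B).under A) ∈ _
  rw [Ideal.under_under, ← hf, Ideal.under_def, Ideal.mem_comap, map_sub, map_pow, hσL]
  exact h (algebraMap B B' y)

section NumberField

variable (K L : Type*) [Field K] [NumberField K] [Field L] [NumberField L] [Algebra K L]
  [IsAbelianGalois K L]

/-- **Conjugation equivariance of the Frobenius** (version with an automorphism `e` of `𝓞 K`).
Let `τ` be a ring automorphism of `L` inducing `e` on `𝓞 K`, let `𝔮` be a nonzero prime of `𝓞 K`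
and let `σ' ∈ Gal(L/K)` be the conjugate `τ ∘ Frob_𝔮 ∘ τ⁻¹`. Then `Frob_{e 𝔮} = σ'`. -/
theorem frobAt_map_eq_of_conj' (hunr : IsUnramifiedEverywhere K L)
    (τ : L ≃+* L) (e : 𝓞 K ≃+* 𝓞 K)
    (hτ : ∀ r : 𝓞 K, τ (algebraMap (𝓞 K) L r) = algebraMap (𝓞 K) L (e r))
    (𝔮 : Ideal (𝓞 K)) [𝔮.IsPrime] (h𝔮 : 𝔮 ≠ ⊥)
    (σ' : Gal(L/K)) (hσ' : ∀ x : L, σ' (τ x) = τ (frobAt K L 𝔮 x)) :
    frobAt K L (𝔮.map e) = σ' := by
  obtain ⟨P, hP, hP0, hP𝔮⟩ := exists_prime_over K L 𝔮 h𝔮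
  haveI := hP
  have hfrob := isArithFrobAt_frobAt K L 𝔮 h𝔮 P hP𝔮
  set τS := NumberField.RingOfIntegers.mapRingEquiv τ with hτS
  have hτ' : ∀ r : 𝓞 K, τS (algebraMap (𝓞 K) (𝓞 L) r) = algebraMap (𝓞 K) (𝓞 L) (e r) := by
    intro r
    apply NumberField.RingOfIntegers.ext
    exact hτ r
  have hσ'' : ∀ y : 𝓞 L, σ' • (τS y) = τS (frobAt K L 𝔮 • y) := by
    intro y
    apply NumberField.RingOfIntegers.ext
    exact hσ' (y : L)
  have h1 := isArithFrobAt_map_of_conj e τS hτ' (frobAt K L 𝔮) σ' hσ'' P hfrob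
  haveI : (P.map τS).IsPrime := Ideal.map_isPrime_of_equiv τS
  have hP0' : P.map τS ≠ ⊥ := by
    intro h
    apply hP0
    rw [Ideal.map_eq_bot_iff_of_injective τS.injective] at h
    exact h
  have h2 := eq_frobAt_of_isArithFrobAt K L (P.map τS) hP0' (hunr _ inferInstance hP0') σ' h1
  rw [h2, under_map_ringEquiv e τS hτ', hP𝔮]

/-- Comap form of `frobAt_map_eq_of_conj'`: `Frob_{e⁻¹ 𝔮} = τ⁻¹ ∘ Frob_𝔮 ∘ τ`. -/
theorem frobAt_comap_eq_of_conj' (hunr : IsUnramifiedEverywhere K L)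
    (τ : L ≃+* L) (e : 𝓞 K ≃+* 𝓞 K)
    (hτ : ∀ r : 𝓞 K, τ (algebraMap (𝓞 K) L r) = algebraMap (𝓞 K) L (e r))
    (𝔮 : Ideal (𝓞 K)) [𝔮.IsPrime] (h𝔮 : 𝔮 ≠ ⊥)
    (σ' : Gal(L/K)) (hσ' : ∀ x : L, τ (σ' x) = frobAt K L 𝔮 (τ x)) :
    frobAt K L (𝔮.comap e) = σ' := by
  have h := frobAt_map_eq_of_conj' K L hunr τ.symm e.symm (by
    intro r
    apply τ.injective
    rw [RingEquiv.apply_symm_apply, hτ, RingEquiv.apply_symm_apply]) 𝔮 h𝔮 σ' (by
    intro x
    apply τ.injective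
    rw [RingEquiv.apply_symm_apply, hσ', RingEquiv.apply_symm_apply])
  rw [← h]
  congr 1
  exact (Ideal.map_symm e).symm

/-- **Conjugation equivariance of the Frobenius.**
Let `τ` be a ring automorphism of `L` inducing `τK` on `K`, let `𝔮` be a nonzero prime of `𝓞 K`
and let `σ' ∈ Gal(L/K)` be the conjugate `τ ∘ Frob_𝔮 ∘ τ⁻¹`. Then `Frob_{τK 𝔮} = σ'`. -/
theorem frobAt_map_eq_of_conj (hunr : IsUnramifiedEverywhere K L)
    (τ : L ≃+* L) (τK : K ≃+* K) (hτ : ∀ k : K, τ (algebraMap K L k) = algebraMap K L (τK k))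
    (𝔮 : Ideal (𝓞 K)) [𝔮.IsPrime] (h𝔮 : 𝔮 ≠ ⊥)
    (σ' : Gal(L/K)) (hσ' : ∀ x : L, σ' (τ x) = τ (frobAt K L 𝔮 x)) :
    frobAt K L (𝔮.map (NumberField.RingOfIntegers.mapRingEquiv τK)) = σ' :=
  frobAt_map_eq_of_conj' K L hunr τ (NumberField.RingOfIntegers.mapRingEquiv τK)
    (fun r => hτ (r : K)) 𝔮 h𝔮 σ' hσ'

/-- Comap form of `frobAt_map_eq_of_conj`: `Frob_{τK⁻¹ 𝔮} = τ⁻¹ ∘ Frob_𝔮 ∘ τ`. -/
theorem frobAt_comap_eq_of_conj (hunr : IsUnramifiedEverywhere K L)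
    (τ : L ≃+* L) (τK : K ≃+* K) (hτ : ∀ k : K, τ (algebraMap K L k) = algebraMap K L (τK k))
    (𝔮 : Ideal (𝓞 K)) [𝔮.IsPrime] (h𝔮 : 𝔮 ≠ ⊥)
    (σ' : Gal(L/K)) (hσ' : ∀ x : L, τ (σ' x) = frobAt K L 𝔮 (τ x)) :
    frobAt K L (𝔮.comap (NumberField.RingOfIntegers.mapRingEquiv τK)) = σ' :=
  frobAt_comap_eq_of_conj' K L hunr τ (NumberField.RingOfIntegers.mapRingEquiv τK)
    (fun r => hτ (r : K)) 𝔮 h𝔮 σ' hσ'

/-- The Frobenius acts on roots of unity of order prime to `𝔮` by raising to the power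
`N(𝔮)`. -/
theorem frobAt_apply_of_pow_eq_one (𝔮 : Ideal (𝓞 K)) [𝔮.IsPrime] (h𝔮 : 𝔮 ≠ ⊥)
    {ζ : L} {m : ℕ} (hζ : ζ ^ m = 1) (hm : (m : 𝓞 K) ∉ 𝔮) :
    frobAt K L 𝔮 ζ = ζ ^ Nat.card (𝓞 K ⧸ 𝔮) := by
  obtain ⟨P, hP, hP0, hP𝔮⟩ := exists_prime_over K L 𝔮 h𝔮
  haveI := hP
  have hfrob := isArithFrobAt_frobAt K L 𝔮 h𝔮 P hP𝔮
  rcases Nat.eq_zero_or_pos m with rfl | hmpos
  · exfalso; apply hm; simp
  have hζint : IsIntegral ℤ ζ := ⟨Polynomial.X ^ m - 1,
    Polynomial.monic_X_pow_sub_C 1 hmpos.ne', by simp [hζ]⟩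
  set z : 𝓞 L := ⟨ζ, hζint⟩ with hz
  have hzζ : algebraMap (𝓞 L) L z = ζ := rfl
  have hz1 : z ^ m = 1 := by
    apply NumberField.RingOfIntegers.ext
    rw [NumberField.RingOfIntegers.coe_eq_algebraMap, map_pow, hzζ, hζ,
      NumberField.RingOfIntegers.coe_eq_algebraMap, map_one]
  have hmP : (m : 𝓞 L) ∉ P := by
    intro h
    apply hm
    rw [← hP𝔮, Ideal.under_def, Ideal.mem_comap]
    simpa using h
  have := AlgHom.IsArithFrobAt.apply_of_pow_eq_one (R := 𝓞 K) hfrob hz1 hmP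
  rw [hP𝔮] at this
  have h2 := congrArg (algebraMap (𝓞 L) L) this
  rw [map_pow, hzζ] at h2
  exact h2

end NumberField

section Restrict

variable (K E L M : Type*) [Field K] [NumberField K] [Field E] [NumberField E]
  [Field L] [NumberField L] [Field M] [NumberField M]
  [Algebra K E] [Algebra K L] [Algebra E M] [Algebra L M] [Algebra K M]
  [IsScalarTower K E M] [IsScalarTower K L M] [IsAbelianGalois K L] [IsGalois E M]

/-- **Restriction of the Frobenius.** In a diagram of number fields `K ≤ E ≤ M`, `K ≤ L ≤ M`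
with `L/K` abelian unramified and `M/E` Galois, let `𝔖` be a nonzero prime of `𝓞 E` of residue
degree one over `K`. If `σL ∈ Gal(L/K)` is the restriction to `L` of `frobAt E M 𝔖`, then
`σL = frobAt K L (𝔖 ∩ 𝓞 K)`. -/
theorem frobAt_restrict (hunr : IsUnramifiedEverywhere K L)
    (𝔖 : Ideal (𝓞 E)) [𝔖.IsPrime] (h𝔖 : 𝔖 ≠ ⊥)
    (hf : Nat.card (𝓞 E ⧸ 𝔖) = Nat.card (𝓞 K ⧸ 𝔖.under (𝓞 K)))
    (σL : Gal(L/K))
    (hσL : ∀ x : L, algebraMap L M (σL x) = frobAt E M 𝔖 (algebraMap L M x)) :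
    σL = frobAt K L (𝔖.under (𝓞 K)) := by
  obtain ⟨P', hP', hP'0, hP'𝔖, hfrob⟩ := exists_isArithFrobAt_frobAt E M 𝔖 h𝔖
  haveI := hP'
  have hσL' : ∀ y : 𝓞 L, algebraMap (𝓞 L) (𝓞 M) (σL • y) =
      frobAt E M 𝔖 • (algebraMap (𝓞 L) (𝓞 M) y) := by
    intro y
    apply NumberField.RingOfIntegers.ext
    exact hσL (y : L)
  have hunderK : P'.under (𝓞 K) = 𝔖.under (𝓞 K) := by
    rw [← hP'𝔖, Ideal.under_under]
  have h1 : IsArithFrobAt (𝓞 K) σL (P'.under (𝓞 L)) :=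
    isArithFrobAt_under_of_card_eq (A := 𝓞 K) (A' := 𝓞 E) (B := 𝓞 L) (B' := 𝓞 M)
      (frobAt E M 𝔖) σL hσL' P' hfrob (by rw [hP'𝔖, hunderK]; exact hf)
  haveI : (P'.under (𝓞 L)).IsPrime := Ideal.IsPrime.under (𝓞 L) P'
  have hPL0 : P'.under (𝓞 L) ≠ ⊥ := Ideal.under_ne_bot (𝓞 L) hP'0
  have h2 := eq_frobAt_of_isArithFrobAt K L (P'.under (𝓞 L)) hPL0
    (hunr _ inferInstance hPL0) σL h1
  rw [h2, Ideal.under_under, hunderK]

end Restrict

end Fermat.Agent.S14.helper12
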