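import Mathlib

/-!
# S14 (2b), analytic second inequality: shared definitions (helper34)

* `partialZeta K C s` : the partial zeta function `∑_{I ∈ C} N(I)^(-s)` of an ideal class `C`
  (real variable `s`).
* `primeClass`, `splitSet` : the class of a prime; the primes splitting completely in `M / K`.
* `tent`, `logCoord`, `weight`, `G` : the smoothed weight used to compare partial zeta functions:
  `weight K x = ∏ i, tent (logCoord K x i)` where `logCoord K x` are the coordinates of `logMap x`
  in the basis of the unit lattice, and `G K s x = weight K x * (norm x)^(-s)`.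
-/

set_option autoImplicit false

open NumberField NumberField.mixedEmbedding NumberField.InfinitePlace NumberField.Units
  NumberField.Units.dirichletUnitTheorem
open IsDedekindDomain
open scoped nonZeroDivisors

namespace Fermat.Agent.S14.helper34

variable (K : Type*) [Field K] [NumberField K]

/-- The partial zeta function of the ideal class `C`, as a function of a real variable. -/
noncomputable def partialZeta (C : ClassGroup (𝓞 K)) (s : ℝ) : ℝ :=
  ∑' I : {I : (Ideal (𝓞 K))⁰ // ClassGroup.mk0 I = C},
    ((Ideal.absNorm (I.1 : Ideal (𝓞 K)) : ℝ)) ^ (-s)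

/-- The tent function `t ↦ max 0 (1 - |t|)`. -/
noncomputable def tent (t : ℝ) : ℝ := max 0 (1 - |t|)

open scoped Classical in
/-- The coordinates of `logMap x` in the `ℝ`-basis of `logSpace K` given by the fundamental
system of units. -/
noncomputable def logCoord (x : mixedSpace K) (i : Fin (rank K)) : ℝ :=
  ((basisUnitLattice K).ofZLatticeBasis ℝ (unitLattice K)).repr (logMap x) i

/-- The smooth weight: a partition of unity for the action of the units modulo torsion. -/
noncomputable def weight (x : mixedSpace K) : ℝ := ∏ i, tent (logCoord K x i)

/-- The smoothed summand: `G K s x = weight K x * (norm x)^(-s)`. -/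
noncomputable def G (s : ℝ) (x : mixedSpace K) : ℝ :=
  weight K x * (mixedEmbedding.norm x) ^ (-s)

/-- The ideal class of a (nonzero) prime of `𝓞 K`. -/
noncomputable def primeClass (𝔭 : HeightOneSpectrum (𝓞 K)) : ClassGroup (𝓞 K) :=
  ClassGroup.mk0 ⟨𝔭.asIdeal, mem_nonZeroDivisors_of_ne_zero 𝔭.ne_bot⟩

/-- The set of primes of `K` that split completely in `M`: those with exactly `[M : K]` primes
of `𝓞 M` above them. -/
def splitSet (M : Type*) [Field M] [NumberField M] [Algebra K M] :
    Set (HeightOneSpectrum (𝓞 K)) :=
  {𝔭 | (Ideal.primesOver 𝔭.asIdeal (𝓞 M)).ncard = Module.finrank K M}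

end Fermat.Agent.S14.helper34
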