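import Mathlib

/-!
# Euler products over the nonzero primes of a Dedekind domain (helper52, S14-(2b)-AN1)

For a Dedekind domain `R` and a completely multiplicative function `F : Ideal R →*₀ 𝕜` with
values in a complete normed field such that `‖F ·‖` is summable,
`∑' I, F I = ∏' v : HeightOneSpectrum R, (1 - F v.asIdeal)⁻¹`.
-/

set_option autoImplicit false
set_option linter.unusedSectionVars false

open IsDedekindDomain Finset Filter Topology

namespace Fermat.Agent.S14.helper52

section EulerProduct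

variable {R : Type*} [CommRing R] [IsDedekindDomain R]

open scoped Classical

/-- The nonzero ideals all of whose prime divisors belong to `S`. -/
def factoredIdeals (S : Finset (HeightOneSpectrum R)) : Set (Ideal R) :=
  {I | I ≠ ⊥ ∧ ∀ v : HeightOneSpectrum R, v.asIdeal ∣ I → v ∈ S}

lemma mem_factoredIdeals {S : Finset (HeightOneSpectrum R)} {I : Ideal R} :
    I ∈ factoredIdeals S ↔ I ≠ ⊥ ∧ ∀ v : HeightOneSpectrum R, v.asIdeal ∣ I → v ∈ S := Iff.rfl

lemma factoredIdeals_empty : factoredIdeals (∅ : Finset (HeightOneSpectrum R)) = {⊤} := by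
  ext I
  simp only [factoredIdeals, Set.mem_ofPred_eq, Finset.notMem_empty, imp_false,
    Set.mem_singleton_iff]
  constructor
  · rintro ⟨hI, h⟩
    by_contra hne
    obtain ⟨M, hM, hIM⟩ := Ideal.exists_le_maximal I hne
    have hMbot : M ≠ ⊥ := fun h0 => hI (le_bot_iff.mp (h0 ▸ hIM))
    exact h ⟨M, hM.isPrime, hMbot⟩ (Ideal.dvd_iff_le.mpr hIM)
  · rintro rfl
    refine ⟨top_ne_bot, fun v hv => ?_⟩
    exact v.isPrime.ne_top (top_le_iff.mp (Ideal.dvd_iff_le.mp hv))

lemma factoredIdeals_mono {S T : Finset (HeightOneSpectrum R)} (h : S ⊆ T) :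
    factoredIdeals S ⊆ factoredIdeals T :=
  fun _ hI => ⟨hI.1, fun v hv => h (hI.2 v hv)⟩

lemma dvd_asIdeal_iff {v w : HeightOneSpectrum R} : w.asIdeal ∣ v.asIdeal ↔ w = v := by
  constructor
  · intro h
    have hle : v.asIdeal ≤ w.asIdeal := Ideal.dvd_iff_le.mp h
    exact (HeightOneSpectrum.ext (v.isMaximal.eq_of_le w.isPrime.ne_top hle)).symm
  · rintro rfl
    exact dvd_rfl

lemma pow_mul_mem_factoredIdeals {S : Finset (HeightOneSpectrum R)} (v : HeightOneSpectrum R)
    (e : ℕ) {J : Ideal R} (hJ : J ∈ factoredIdeals S) :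
    v.asIdeal ^ e * J ∈ factoredIdeals (insert v S) := by
  refine ⟨mul_ne_zero (pow_ne_zero _ v.ne_bot) hJ.1, fun w hw => ?_⟩
  rcases w.prime.dvd_or_dvd hw with h | h
  · have := w.prime.dvd_of_dvd_pow h
    rw [dvd_asIdeal_iff] at this
    exact this ▸ Finset.mem_insert_self _ _
  · exact Finset.mem_insert_of_mem (hJ.2 w h)

/-- The map `(e, J) ↦ v ^ e * J`. -/
def powMulMap (S : Finset (HeightOneSpectrum R)) (v : HeightOneSpectrum R) :
    ℕ × factoredIdeals S → factoredIdeals (insert v S) :=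
  fun x => ⟨v.asIdeal ^ x.1 * x.2.1, pow_mul_mem_factoredIdeals v x.1 x.2.2⟩

lemma powMulMap_apply (S : Finset (HeightOneSpectrum R)) (v : HeightOneSpectrum R)
    (x : ℕ × factoredIdeals S) :
    ((powMulMap S v x : factoredIdeals (insert v S)) : Ideal R) = v.asIdeal ^ x.1 * x.2.1 := rfl

lemma powMulMap_bijective {S : Finset (HeightOneSpectrum R)} {v : HeightOneSpectrum R}
    (hv : v ∉ S) : Function.Bijective (powMulMap S v) := by
  have hnd : ∀ J : factoredIdeals S, ¬ v.asIdeal ∣ (J : Ideal R) := fun J h => hv (J.2.2 v h)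
  have key : ∀ (e e' : ℕ) (J J' : factoredIdeals S), e ≤ e' →
      v.asIdeal ^ e * (J : Ideal R) = v.asIdeal ^ e' * (J' : Ideal R) → e = e' ∧ J = J' := by
    intro e e' J J' hle h
    obtain ⟨d, rfl⟩ := Nat.exists_eq_add_of_le hle
    rw [pow_add, mul_assoc] at h
    have h' := mul_left_cancel₀ (pow_ne_zero e v.ne_bot) h
    rcases Nat.eq_zero_or_pos d with rfl | hd
    · simp only [pow_zero, one_mul] at h'
      exact ⟨rfl, Subtype.ext h'⟩
    · exfalso
      apply hnd J
      rw [h']
      exact Dvd.dvd.mul_right (dvd_pow_self _ hd.ne') _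
  constructor
  · rintro ⟨e, J⟩ ⟨e', J'⟩ h
    have h' : v.asIdeal ^ e * (J : Ideal R) = v.asIdeal ^ e' * (J' : Ideal R) :=
      congrArg Subtype.val h
    rcases le_total e e' with hle | hle
    · obtain ⟨h1, h2⟩ := key e e' J J' hle h'
      rw [h1, h2]
    · obtain ⟨h1, h2⟩ := key e' e J' J hle h'.symm
      rw [h1, h2]
  · rintro ⟨I, hI0, hI⟩
    have hfin : FiniteMultiplicity v.asIdeal I :=
      FiniteMultiplicity.of_not_isUnit v.prime.not_isUnit hI0
    obtain ⟨c, hc, hndc⟩ := hfin.exists_eq_pow_mul_and_not_dvd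
    have hc0 : c ≠ ⊥ := by
      rintro rfl
      apply hI0
      rw [hc]
      simp
    have hcS : c ∈ factoredIdeals S := by
      refine ⟨hc0, fun w hw => ?_⟩
      have hwI : w.asIdeal ∣ I := hc ▸ Dvd.dvd.mul_left hw _
      rcases Finset.mem_insert.mp (hI w hwI) with rfl | h
      · exact absurd hw hndc
      · exact h
    exact ⟨(multiplicity v.asIdeal I, ⟨c, hcS⟩), Subtype.ext hc.symm⟩

/-- The equivalence `ℕ × factoredIdeals S ≃ factoredIdeals (insert v S)` for `v ∉ S`. -/
noncomputable def powMulEquiv {S : Finset (HeightOneSpectrum R)} {v : HeightOneSpectrum R}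
    (hv : v ∉ S) : ℕ × factoredIdeals S ≃ factoredIdeals (insert v S) :=
  Equiv.ofBijective _ (powMulMap_bijective hv)

lemma powMulEquiv_apply {S : Finset (HeightOneSpectrum R)} {v : HeightOneSpectrum R}
    (hv : v ∉ S) (x : ℕ × factoredIdeals S) :
    ((powMulEquiv hv x : factoredIdeals (insert v S)) : Ideal R) = v.asIdeal ^ x.1 * x.2.1 := rfl

section Analytic

variable {𝕜 : Type*} [NormedField 𝕜] [CompleteSpace 𝕜] (F : Ideal R →*₀ 𝕜)

lemma pow_asIdeal_injective (v : HeightOneSpectrum R) :
    Function.Injective (fun e : ℕ => v.asIdeal ^ e) :=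
  (Ideal.pow_right_strictAnti v.asIdeal v.ne_bot v.isPrime.ne_top).injective

lemma norm_apply_asIdeal_lt_one (hsum : Summable (‖F ·‖)) (v : HeightOneSpectrum R) :
    ‖F v.asIdeal‖ < 1 := by
  refine summable_geometric_iff_norm_lt_one.mp ?_
  simp_rw [← map_pow]
  exact hsum.of_norm.comp_injective (pow_asIdeal_injective v)

/-- The finite Euler product over `S` is the sum over the `S`-factored ideals. -/
lemma summable_and_hasSum_factoredIdeals (hsum : Summable (‖F ·‖))
    (S : Finset (HeightOneSpectrum R)) :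
    Summable (fun I : factoredIdeals S ↦ ‖F I‖) ∧
      HasSum (fun I : factoredIdeals S ↦ F I) (∏ v ∈ S, (1 - F v.asIdeal)⁻¹) := by
  induction S using Finset.induction with
  | empty =>
    have hfin : (factoredIdeals (∅ : Finset (HeightOneSpectrum R))).Finite := by
      rw [factoredIdeals_empty]; exact Set.finite_singleton _
    refine ⟨hfin.summable (fun I => ‖F I‖), ?_⟩
    rw [prod_empty]
    change HasSum ((fun I : Ideal R => F I) ∘ (Subtype.val : factoredIdeals ∅ → Ideal R)) 1
    rw [hasSum_subtype_iff_indicator, factoredIdeals_empty]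
    have h := hasSum_ite_eq (⊤ : Ideal R) (1 : 𝕜)
    convert h using 1
    funext I
    by_cases hI : I = ⊤
    · subst hI
      rw [Set.indicator_of_mem (Set.mem_singleton _), if_pos rfl, ← Ideal.one_eq_top, map_one]
    · rw [Set.indicator_of_notMem (by simpa using hI), if_neg hI]
  | insert v S hv ih =>
    have hlt := norm_apply_asIdeal_lt_one F hsum v
    have hgeo : HasSum (fun e : ℕ => F v.asIdeal ^ e) (1 - F v.asIdeal)⁻¹ :=
      hasSum_geometric_of_norm_lt_one hlt
    have hgeon : Summable (fun e : ℕ => ‖F v.asIdeal ^ e‖) := by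
      simp_rw [norm_pow]
      exact summable_geometric_of_lt_one (norm_nonneg _) hlt
    have hF : ∀ x : ℕ × factoredIdeals S,
        F ((powMulEquiv hv x : factoredIdeals (insert v S)) : Ideal R) =
          F v.asIdeal ^ x.1 * F x.2 := fun x => by
      rw [powMulEquiv_apply, map_mul, map_pow]
    constructor
    · refine (powMulEquiv hv).summable_iff.mp ?_
      have : ((fun I : factoredIdeals (insert v S) ↦ ‖F I‖) ∘ (powMulEquiv hv)) =
          fun x : ℕ × factoredIdeals S => ‖F v.asIdeal ^ x.1‖ * ‖F x.2‖ := by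
        funext x
        rw [Function.comp_apply, hF, norm_mul]
      rw [this]
      apply Summable.mul_of_nonneg hgeon ih.1 <;> exact fun n ↦ norm_nonneg _
    · rw [prod_insert hv]
      refine (powMulEquiv hv).hasSum_iff.mp ?_
      have : ((fun I : factoredIdeals (insert v S) ↦ F I) ∘ (powMulEquiv hv)) =
          fun x : ℕ × factoredIdeals S => F v.asIdeal ^ x.1 * F x.2 := by
        funext x
        rw [Function.comp_apply, hF]
      rw [this]
      apply hgeo.mul ih.2
      apply summable_mul_of_summable_norm hgeon ih.1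

lemma prod_eq_tsum_factoredIdeals (hsum : Summable (‖F ·‖))
    (S : Finset (HeightOneSpectrum R)) :
    ∏ v ∈ S, (1 - F v.asIdeal)⁻¹ = ∑' I : factoredIdeals S, F I :=
  (summable_and_hasSum_factoredIdeals F hsum S).2.tsum_eq.symm

/-- The finite set of primes dividing some nonzero member of a finite set of ideals. -/
noncomputable def primeSupport (T : Finset (Ideal R)) : Finset (HeightOneSpectrum R) :=
  T.biUnion fun I => if h : I ≠ ⊥ then (Ideal.finite_factors h).toFinset else ∅

lemma mem_factoredIdeals_of_primeSupport_subset {T : Finset (Ideal R)}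
    {S : Finset (HeightOneSpectrum R)} (hS : primeSupport T ⊆ S) {I : Ideal R} (hI : I ∈ T)
    (hI0 : I ≠ ⊥) : I ∈ factoredIdeals S := by
  refine ⟨hI0, fun v hv => hS ?_⟩
  rw [primeSupport, Finset.mem_biUnion]
  refine ⟨I, hI, ?_⟩
  rw [dif_pos hI0, Set.Finite.mem_toFinset]
  exact hv

lemma norm_tsum_sub_tsum_factoredIdeals_lt (hsum : Summable F) {ε : ℝ} (hε : 0 < ε) :
    ∃ S₀ : Finset (HeightOneSpectrum R), ∀ S : Finset (HeightOneSpectrum R), S₀ ⊆ S →
      ‖(∑' I, F I) - ∑' I : factoredIdeals S, F I‖ < ε := by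
  obtain ⟨T, hT⟩ := hsum.tsum_vanishing (Metric.ball_mem_nhds 0 hε)
  refine ⟨primeSupport T, fun S hS => ?_⟩
  have hdisj : Disjoint ((factoredIdeals S)ᶜ \ {⊥}) (T : Set (Ideal R)) := by
    rw [Set.disjoint_left]
    rintro I ⟨hI, hI0⟩ hIT
    exact hI (mem_factoredIdeals_of_primeSupport_subset hS hIT hI0)
  have := hT _ hdisj
  rw [mem_ball_zero_iff] at this
  rwa [← hsum.tsum_subtype_add_tsum_subtype_compl (factoredIdeals S), add_sub_cancel_left,
    tsum_eq_tsum_sdiff_singleton (factoredIdeals S)ᶜ (map_zero F)]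

/-- **Euler product** for a completely multiplicative function on the ideals of a Dedekind
domain. -/
theorem eulerProduct_ideal_hasProd (hsum : Summable (‖F ·‖)) :
    HasProd (fun v : HeightOneSpectrum R ↦ (1 - F v.asIdeal)⁻¹) (∑' I, F I) := by
  rw [HasProd, SummationFilter.unconditional, Metric.tendsto_atTop]
  intro ε hε
  obtain ⟨S₀, hS₀⟩ := norm_tsum_sub_tsum_factoredIdeals_lt F hsum.of_norm hε
  refine ⟨S₀, fun S hS => ?_⟩
  rw [dist_eq_norm, prod_eq_tsum_factoredIdeals F hsum S, norm_sub_rev]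
  exact hS₀ S hS

theorem eulerProduct_ideal_tprod (hsum : Summable (‖F ·‖)) :
    ∏' v : HeightOneSpectrum R, (1 - F v.asIdeal)⁻¹ = ∑' I, F I :=
  (eulerProduct_ideal_hasProd F hsum).tprod_eq

end Analytic

end EulerProduct


end Fermat.Agent.S14.helper52
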