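import Mathlib
import Fermat.Agent.S14.helper52_EulerProduct

/-!
# The Dedekind zeta function as a sum over ideals (helper52, S14-(2b)-AN1)
-/

set_option autoImplicit false
set_option linter.unusedSectionVars false

open IsDedekindDomain Finset Filter Topology NumberField Ideal

namespace Fermat.Agent.S14.helper52

variable (K : Type*) [Field K] [NumberField K]

/-- `I ↦ N(I)^(-s)` as a monoid-with-zero homomorphism (for `s ≠ 0`). -/
noncomputable def normPowHom (s : ℝ) (hs : s ≠ 0) : Ideal (𝓞 K) →*₀ ℝ where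
  toFun I := (absNorm I : ℝ) ^ (-s)
  map_zero' := by
    simp only [Ideal.zero_eq_bot, absNorm_bot, Nat.cast_zero]
    exact Real.zero_rpow (neg_ne_zero.mpr hs)
  map_one' := by simp [Ideal.one_eq_top]
  map_mul' I J := by
    rw [map_mul, Nat.cast_mul, Real.mul_rpow (Nat.cast_nonneg _) (Nat.cast_nonneg _)]

lemma normPowHom_apply (s : ℝ) (hs : s ≠ 0) (I : Ideal (𝓞 K)) :
    normPowHom K s hs I = (absNorm I : ℝ) ^ (-s) := rfl

/-- number of ideals of norm `n` -/
noncomputable def idealCount (n : ℕ) : ℕ := Nat.card {I : Ideal (𝓞 K) // absNorm I = n}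

lemma dedekindZeta_eq_LSeries (s : ℂ) :
    dedekindZeta K s = LSeries (fun n ↦ (idealCount K n : ℂ)) s := rfl

lemma tendsto_sum_idealCount_div :
    Tendsto (fun n : ℕ ↦ (∑ k ∈ Finset.Icc 1 n, (idealCount K k : ℝ)) / n) atTop
      (𝓝 (dedekindZeta_residue K)) := by
  refine ((Ideal.tendsto_norm_le_div_atTop₀ K).comp tendsto_natCast_atTop_atTop).congr fun n ↦ ?_
  simp only [Function.comp_apply, Nat.cast_le, ← Nat.cast_sum, idealCount]
  congr
  rw [← add_left_inj 1, ← card_norm_le_eq_card_norm_le_add_one,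
    show Finset.Icc 1 n = Finset.Ioc 0 n from Finset.Icc_succ_left_eq_Ioc _ _,
    show 1 = Nat.card {I : Ideal (𝓞 K) // absNorm I = 0} by simp [Ideal.absNorm_eq_zero_iff],
    Finset.sum_Ioc_add_eq_sum_Icc (n.zero_le),
    ← Finset.card_preimage_eq_sum_card_image_eq (fun k _ ↦ finite_setOfPred_absNorm_eq k)]
  simp [Set.coe_eq_subtype]

lemma lSeriesSummable_idealCount {s : ℂ} (hs : 1 < s.re) :
    LSeriesSummable (fun n ↦ (idealCount K n : ℂ)) s := by
  have h := LSeriesSummable_of_sum_norm_bigO_and_nonneg (f := fun n => (idealCount K n : ℝ))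
    (r := 1) (s := s) ?_ (fun _ => Nat.cast_nonneg _) zero_le_one hs
  · simpa using h
  · exact Asymptotics.isBigO_atTop_natCast_rpow_of_tendsto_div_rpow (by simpa using tendsto_sum_idealCount_div K)


lemma term_idealCount_eq {s : ℝ} (hs : s ≠ 0) (n : ℕ) :
    LSeries.term (fun n ↦ (idealCount K n : ℂ)) (s : ℂ) n =
      (((idealCount K n : ℝ) * (n : ℝ) ^ (-s) : ℝ) : ℂ) := by
  rw [LSeries.term_of_ne_zero' (by exact_mod_cast hs)]
  push_cast
  rw [Complex.ofReal_cpow (Nat.cast_nonneg n)]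
  push_cast
  rw [Complex.cpow_neg, div_eq_mul_inv]

lemma summable_idealCount_mul_rpow {s : ℝ} (hs : 1 < s) :
    Summable (fun n : ℕ => (idealCount K n : ℝ) * (n : ℝ) ^ (-s)) := by
  have h := lSeriesSummable_idealCount K (s := (s : ℂ)) (by simpa using hs)
  rw [LSeriesSummable] at h
  have hs0 : s ≠ 0 := by linarith
  rw [← Complex.summable_ofReal]
  exact h.congr (fun n => term_idealCount_eq K hs0 n)

lemma dedekindZeta_eq_tsum_idealCount {s : ℝ} (hs : 1 < s) :
    dedekindZeta K (s : ℂ) = ((∑' n : ℕ, (idealCount K n : ℝ) * (n : ℝ) ^ (-s) : ℝ) : ℂ) := by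
  have hs0 : s ≠ 0 := by linarith
  rw [dedekindZeta_eq_LSeries, LSeries, Complex.ofReal_tsum]
  exact tsum_congr (fun n => term_idealCount_eq K hs0 n)

instance finite_fiber_absNorm (n : ℕ) : Finite {I : Ideal (𝓞 K) // absNorm I = n} :=
  (finite_setOfPred_absNorm_eq n).to_subtype

lemma summable_sigma_absNorm {s : ℝ} (hs : 1 < s) :
    Summable (fun x : (Σ n : ℕ, {I : Ideal (𝓞 K) // absNorm I = n}) => ((x.1 : ℕ) : ℝ) ^ (-s)) := by
  rw [summable_sigma_of_nonneg (fun x => by positivity)]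
  refine ⟨fun n => Summable.of_finite, ?_⟩
  refine (summable_idealCount_mul_rpow K hs).congr (fun n => ?_)
  simp only [tsum_const, nsmul_eq_mul, idealCount]

/-- The Dedekind zeta function as a sum over ideals converges for `s > 1`. -/
theorem summable_absNorm_rpow {s : ℝ} (hs : 1 < s) :
    Summable (fun I : Ideal (𝓞 K) => (absNorm I : ℝ) ^ (-s)) := by
  have h := summable_sigma_absNorm K hs
  rw [← (Equiv.sigmaFiberEquiv (fun I : Ideal (𝓞 K) => absNorm I)).summable_iff]
  refine h.congr (fun x => ?_)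
  obtain ⟨n, I, hI⟩ := x
  simp only [Function.comp_apply, Equiv.sigmaFiberEquiv_apply]
  rw [hI]

/-- The real Dedekind zeta function as a sum over ideals. -/
noncomputable def zetaR (s : ℝ) : ℝ := ∑' I : Ideal (𝓞 K), (absNorm I : ℝ) ^ (-s)

lemma zetaR_eq_tsum_idealCount {s : ℝ} (hs : 1 < s) :
    zetaR K s = ∑' n : ℕ, (idealCount K n : ℝ) * (n : ℝ) ^ (-s) := by
  rw [zetaR, ← (Equiv.sigmaFiberEquiv (fun I : Ideal (𝓞 K) => absNorm I)).tsum_eq]
  have h := summable_sigma_absNorm K hs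
  have h' : (fun x : (Σ n : ℕ, {I : Ideal (𝓞 K) // absNorm I = n}) =>
      (absNorm ((Equiv.sigmaFiberEquiv (fun I : Ideal (𝓞 K) => absNorm I)) x) : ℝ) ^ (-s)) =
      fun x => ((x.1 : ℕ) : ℝ) ^ (-s) := by
    funext x
    obtain ⟨n, I, hI⟩ := x
    simp only [Equiv.sigmaFiberEquiv_apply]
    rw [hI]
  rw [h', h.tsum_sigma' (fun n => Summable.of_finite)]
  refine tsum_congr (fun n => ?_)
  simp only [tsum_const, nsmul_eq_mul, idealCount]

theorem dedekindZeta_eq_zetaR {s : ℝ} (hs : 1 < s) :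
    dedekindZeta K (s : ℂ) = (zetaR K s : ℂ) := by
  rw [dedekindZeta_eq_tsum_idealCount K hs, zetaR_eq_tsum_idealCount K hs]

/-- Class number formula for the sum over ideals. -/
theorem tendsto_sub_one_mul_zetaR :
    Tendsto (fun s : ℝ ↦ (s - 1) * zetaR K s) (𝓝[>] 1) (𝓝 (dedekindZeta_residue K)) := by
  have h := tendsto_sub_one_mul_dedekindZeta_nhdsGT K
  have h2 := (Complex.continuous_re.tendsto _).comp h
  simp only [Complex.ofReal_re] at h2
  refine h2.congr' ?_
  filter_upwards [self_mem_nhdsWithin] with s hs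
  simp only [Function.comp_apply]
  rw [dedekindZeta_eq_zetaR K hs, ← Complex.ofReal_one, ← Complex.ofReal_sub,
    ← Complex.ofReal_mul, Complex.ofReal_re]

end Fermat.Agent.S14.helper52
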