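import Mathlib
import Fermat.Agent.S14.helper52_ZetaIdeal

/-!
# Sums over prime ideals: `∑_𝔭 N𝔭^(-s) = log (1/(s-1)) + O(1)` (helper52, S14-(2b)-AN1)
-/

set_option autoImplicit false
set_option linter.unusedSectionVars false

open IsDedekindDomain Finset Filter Topology NumberField Ideal

namespace Fermat.Agent.S14.helper52

variable (K : Type*) [Field K] [NumberField K]

lemma asIdeal_injective :
    Function.Injective (fun v : HeightOneSpectrum (𝓞 K) => v.asIdeal) :=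
  fun _ _ h => HeightOneSpectrum.ext h

/-- (1) The sum over primes of `N𝔭^(-s)` converges for `s > 1`. -/
theorem summable_primeIdeal (s : ℝ) (hs : 1 < s) :
    Summable fun 𝔭 : HeightOneSpectrum (𝓞 K) => (Ideal.absNorm 𝔭.asIdeal : ℝ) ^ (-s) :=
  (summable_absNorm_rpow K hs).comp_injective (asIdeal_injective K)

lemma two_le_absNorm (v : HeightOneSpectrum (𝓞 K)) : 2 ≤ absNorm v.asIdeal := by
  have h0 : absNorm v.asIdeal ≠ 0 := by
    rw [Ne, Ideal.absNorm_eq_zero_iff]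
    exact v.ne_bot
  have h1 : absNorm v.asIdeal ≠ 1 := by
    rw [Ne, Ideal.absNorm_eq_one_iff]
    exact v.isPrime.ne_top
  omega

lemma rpow_neg_le_half (v : HeightOneSpectrum (𝓞 K)) {s : ℝ} (hs : 1 ≤ s) :
    (absNorm v.asIdeal : ℝ) ^ (-s) ≤ 1 / 2 := by
  have h2 : (2 : ℝ) ≤ absNorm v.asIdeal := by exact_mod_cast two_le_absNorm K v
  have hpos : (0 : ℝ) < absNorm v.asIdeal := by linarith
  calc (absNorm v.asIdeal : ℝ) ^ (-s) ≤ (absNorm v.asIdeal : ℝ) ^ (-(1 : ℝ)) :=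
        Real.rpow_le_rpow_of_exponent_le (by linarith) (by linarith)
    _ = (absNorm v.asIdeal : ℝ)⁻¹ := Real.rpow_neg_one _
    _ ≤ 1 / 2 := by
        rw [one_div]
        exact inv_anti₀ (by norm_num) h2

lemma rpow_neg_pos (v : HeightOneSpectrum (𝓞 K)) (s : ℝ) :
    0 < (absNorm v.asIdeal : ℝ) ^ (-s) := by
  have h2 : (2 : ℝ) ≤ absNorm v.asIdeal := by exact_mod_cast two_le_absNorm K v
  exact Real.rpow_pos_of_pos (by linarith) _

lemma one_le_zetaR {s : ℝ} (hs : 1 < s) : 1 ≤ zetaR K s := by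
  have h := (summable_absNorm_rpow K hs).le_tsum (⊤ : Ideal (𝓞 K))
    (fun j _ => by positivity)
  simpa [zetaR] using h

lemma zetaR_anti {s t : ℝ} (hs : 1 < s) (hst : s ≤ t) : zetaR K t ≤ zetaR K s := by
  refine (summable_absNorm_rpow K (hs.trans_le hst)).tsum_le_tsum (fun I => ?_)
    (summable_absNorm_rpow K hs)
  rcases Nat.eq_zero_or_pos (absNorm I) with h | h
  · rw [h, Nat.cast_zero, Real.zero_rpow (by linarith), Real.zero_rpow (by linarith)]
  · exact Real.rpow_le_rpow_of_exponent_le (by exact_mod_cast h) (by linarith)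

/-- `log ζ_K(s) = log (1/(s-1)) + O(1)` on `(1, 2]`. -/
theorem log_zetaR_sub_log_bounded :
    ∃ B : ℝ, ∀ s : ℝ, 1 < s → s ≤ 2 →
      |Real.log (zetaR K s) - Real.log (1 / (s - 1))| ≤ B := by
  have hκ := dedekindZeta_residue_pos K
  set κ := dedekindZeta_residue K with hκdef
  have hev : ∀ᶠ s in 𝓝[>] (1 : ℝ), (s - 1) * zetaR K s ∈ Set.Ioo (κ / 2) (2 * κ) :=
    (tendsto_sub_one_mul_zetaR K).eventually (Ioo_mem_nhds (by linarith) (by linarith))
  rw [eventually_nhdsWithin_iff, Metric.eventually_nhds_iff] at hev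
  obtain ⟨ε, hε, hball⟩ := hev
  set δ := min ε 1 with hδdef
  have hδ : 0 < δ := lt_min hε one_pos
  have hδ1 : δ ≤ 1 := min_le_right _ _
  have hδε : δ ≤ ε := min_le_left _ _
  set c₁ := min (κ / 2) δ with hc₁
  set c₂ := max (2 * κ) (zetaR K (1 + δ)) with hc₂
  have hc₁pos : 0 < c₁ := lt_min (by linarith) hδ
  have key : ∀ s : ℝ, 1 < s → s ≤ 2 → c₁ ≤ (s - 1) * zetaR K s ∧ (s - 1) * zetaR K s ≤ c₂ := by
    intro s hs hs2
    by_cases hsδ : s < 1 + δ
    · have hd : dist s 1 < ε := by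
        rw [Real.dist_eq, abs_lt]
        constructor <;> linarith
      have := hball hd hs
      exact ⟨(min_le_left _ _).trans this.1.le, this.2.le.trans (le_max_left _ _)⟩
    · push Not at hsδ
      have h1 := one_le_zetaR K hs
      have h2 := zetaR_anti K (by linarith : (1 : ℝ) < 1 + δ) hsδ
      constructor
      · calc c₁ ≤ δ := min_le_right _ _
          _ = δ * 1 := (mul_one _).symm
          _ ≤ (s - 1) * zetaR K s := by
              apply mul_le_mul (by linarith) h1 zero_le_one (by linarith)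
      · calc (s - 1) * zetaR K s ≤ 1 * zetaR K (1 + δ) := by
              apply mul_le_mul (by linarith) h2 (by linarith) zero_le_one
          _ = zetaR K (1 + δ) := one_mul _
          _ ≤ c₂ := le_max_right _ _
  refine ⟨max |Real.log c₁| |Real.log c₂|, fun s hs hs2 => ?_⟩
  obtain ⟨h1, h2⟩ := key s hs hs2
  have hz : 0 < zetaR K s := lt_of_lt_of_le one_pos (one_le_zetaR K hs)
  have hs1 : 0 < s - 1 := by linarith
  have heq : Real.log (zetaR K s) - Real.log (1 / (s - 1)) = Real.log ((s - 1) * zetaR K s) := by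
    rw [one_div, Real.log_inv, Real.log_mul hs1.ne' hz.ne']
    ring
  rw [heq]
  have hx : 0 < (s - 1) * zetaR K s := mul_pos hs1 hz
  have l1 : Real.log c₁ ≤ Real.log ((s - 1) * zetaR K s) := Real.log_le_log hc₁pos h1
  have l2 : Real.log ((s - 1) * zetaR K s) ≤ Real.log c₂ := Real.log_le_log hx h2
  exact abs_le_max_abs_abs l1 l2


/-- Euler product for the Dedekind zeta function (real `s > 1`). -/
theorem hasProd_zetaR {s : ℝ} (hs : 1 < s) :
    HasProd (fun v : HeightOneSpectrum (𝓞 K) => (1 - (absNorm v.asIdeal : ℝ) ^ (-s))⁻¹)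
      (zetaR K s) := by
  have hs0 : s ≠ 0 := by linarith
  have hsum : Summable (fun I : Ideal (𝓞 K) => ‖normPowHom K s hs0 I‖) := by
    refine (summable_absNorm_rpow K hs).congr (fun I => ?_)
    rw [normPowHom_apply, Real.norm_of_nonneg (by positivity)]
  exact eulerProduct_ideal_hasProd (normPowHom K s hs0) hsum

lemma le_neg_log_one_sub {x : ℝ} (hx : x < 1) : x ≤ -Real.log (1 - x) := by
  have := Real.log_le_sub_one_of_pos (by linarith : 0 < 1 - x)
  linarith

lemma neg_log_one_sub_le {x : ℝ} (hx0 : 0 ≤ x) (hx : x ≤ 1 / 2) :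
    -Real.log (1 - x) ≤ x + 2 * x ^ 2 := by
  have h1 : 0 < 1 - x := by linarith
  have h := Real.log_le_sub_one_of_pos (inv_pos.mpr h1)
  rw [Real.log_inv] at h
  have h2 : (1 - x)⁻¹ ≤ 1 + x + 2 * x ^ 2 := by
    rw [inv_le_iff_one_le_mul₀ h1]
    nlinarith [mul_nonneg (mul_nonneg hx0 hx0) (by linarith : (0 : ℝ) ≤ 1 - 2 * x)]
  linarith

/-- The sum `∑_𝔭 N𝔭^(-2)`. -/
noncomputable def primeSumTwo : ℝ :=
  ∑' v : HeightOneSpectrum (𝓞 K), (absNorm v.asIdeal : ℝ) ^ (-(2 : ℝ))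

lemma primeSumTwo_nonneg : 0 ≤ primeSumTwo K := tsum_nonneg (fun _ => by positivity)

lemma sq_rpow_neg_le (v : HeightOneSpectrum (𝓞 K)) {s : ℝ} (hs : 1 ≤ s) :
    ((absNorm v.asIdeal : ℝ) ^ (-s)) ^ 2 ≤ (absNorm v.asIdeal : ℝ) ^ (-(2 : ℝ)) := by
  have h2 : (2 : ℝ) ≤ absNorm v.asIdeal := by exact_mod_cast two_le_absNorm K v
  have hpos : (0 : ℝ) < absNorm v.asIdeal := by linarith
  rw [← Real.rpow_natCast, ← Real.rpow_mul hpos.le]
  apply Real.rpow_le_rpow_of_exponent_le (by linarith)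
  push_cast
  linarith

lemma summable_neg_log {s : ℝ} (hs : 1 < s) :
    Summable (fun v : HeightOneSpectrum (𝓞 K) =>
      -Real.log (1 - (absNorm v.asIdeal : ℝ) ^ (-s))) := by
  refine Summable.of_nonneg_of_le (fun v => ?_) (fun v => ?_)
    ((summable_primeIdeal K s hs).mul_left 2)
  · have := le_neg_log_one_sub (x := (absNorm v.asIdeal : ℝ) ^ (-s))
      (lt_of_le_of_lt (rpow_neg_le_half K v hs.le) (by norm_num))
    exact (rpow_neg_pos K v s).le.trans this
  · have hx0 := (rpow_neg_pos K v s).le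
    have hx := rpow_neg_le_half K v hs.le
    have := neg_log_one_sub_le hx0 hx
    nlinarith

theorem log_zetaR_eq_tsum {s : ℝ} (hs : 1 < s) :
    Real.log (zetaR K s) =
      ∑' v : HeightOneSpectrum (𝓞 K), -Real.log (1 - (absNorm v.asIdeal : ℝ) ^ (-s)) := by
  have hg := (summable_neg_log K hs).hasSum.rexp
  have hfun : (Real.exp ∘ fun v : HeightOneSpectrum (𝓞 K) =>
      -Real.log (1 - (absNorm v.asIdeal : ℝ) ^ (-s))) =
      fun v : HeightOneSpectrum (𝓞 K) => (1 - (absNorm v.asIdeal : ℝ) ^ (-s))⁻¹ := by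
    funext v
    have h1 : 0 < 1 - (absNorm v.asIdeal : ℝ) ^ (-s) := by
      have := rpow_neg_le_half K v hs.le
      linarith
    simp only [Function.comp_apply]
    rw [Real.exp_neg, Real.exp_log h1]
  rw [hfun] at hg
  have := (hasProd_zetaR K hs).unique hg
  rw [this, Real.log_exp]

/-- `|log ζ_K(s) - ∑_𝔭 N𝔭^(-s)| ≤ 2 ∑_𝔭 N𝔭^(-2)` for `s > 1`. -/
theorem abs_log_zetaR_sub_primeSum_le {s : ℝ} (hs : 1 < s) :
    |Real.log (zetaR K s) -
      ∑' v : HeightOneSpectrum (𝓞 K), (absNorm v.asIdeal : ℝ) ^ (-s)| ≤ 2 * primeSumTwo K := by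
  rw [log_zetaR_eq_tsum K hs, ← (summable_neg_log K hs).tsum_sub (summable_primeIdeal K s hs)]
  have hsum := (summable_neg_log K hs).sub (summable_primeIdeal K s hs)
  have h0 : ∀ v : HeightOneSpectrum (𝓞 K),
      0 ≤ -Real.log (1 - (absNorm v.asIdeal : ℝ) ^ (-s)) - (absNorm v.asIdeal : ℝ) ^ (-s) := by
    intro v
    have := le_neg_log_one_sub (x := (absNorm v.asIdeal : ℝ) ^ (-s))
      (lt_of_le_of_lt (rpow_neg_le_half K v hs.le) (by norm_num))
    linarith
  have h1 : ∀ v : HeightOneSpectrum (𝓞 K),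
      -Real.log (1 - (absNorm v.asIdeal : ℝ) ^ (-s)) - (absNorm v.asIdeal : ℝ) ^ (-s) ≤
        2 * (absNorm v.asIdeal : ℝ) ^ (-(2 : ℝ)) := by
    intro v
    have hx0 := (rpow_neg_pos K v s).le
    have hx := rpow_neg_le_half K v hs.le
    have := neg_log_one_sub_le hx0 hx
    have := sq_rpow_neg_le K v hs.le
    linarith
  rw [abs_of_nonneg (tsum_nonneg h0), primeSumTwo, ← tsum_mul_left]
  exact hsum.tsum_le_tsum h1 ((summable_primeIdeal K 2 (by norm_num)).mul_left 2)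

/-- (2) `∑_𝔭 N𝔭^(-s) = log (1/(s-1)) + O(1)` on `(1, 2]`. -/
theorem primeIdeal_sum_sub_log_bounded :
    ∃ B : ℝ, ∀ s : ℝ, 1 < s → s ≤ 2 →
      |∑' 𝔭 : HeightOneSpectrum (𝓞 K), (Ideal.absNorm 𝔭.asIdeal : ℝ) ^ (-s) -
        Real.log (1 / (s - 1))| ≤ B := by
  obtain ⟨B, hB⟩ := log_zetaR_sub_log_bounded K
  refine ⟨2 * primeSumTwo K + B, fun s hs hs2 => ?_⟩
  have h1 := abs_log_zetaR_sub_primeSum_le K hs
  have h2 := hB s hs hs2
  have : ∑' 𝔭 : HeightOneSpectrum (𝓞 K), (Ideal.absNorm 𝔭.asIdeal : ℝ) ^ (-s) -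
      Real.log (1 / (s - 1)) =
      -(Real.log (zetaR K s) -
        ∑' v : HeightOneSpectrum (𝓞 K), (absNorm v.asIdeal : ℝ) ^ (-s)) +
      (Real.log (zetaR K s) - Real.log (1 / (s - 1))) := by ring
  rw [this]
  calc |_ + _| ≤ |-(Real.log (zetaR K s) -
        ∑' v : HeightOneSpectrum (𝓞 K), (absNorm v.asIdeal : ℝ) ^ (-s))| +
        |Real.log (zetaR K s) - Real.log (1 / (s - 1))| := abs_add_le _ _
    _ ≤ 2 * primeSumTwo K + B := by
        rw [abs_neg]
        exact add_le_add h1 h2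

end Fermat.Agent.S14.helper52
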