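import Mathlib
import Fermat.Agent.S14.helper52_PrimeSum
import Fermat.Agent.S14.helper34_Defs

/-!
# Density of completely split primes (helper52, S14-(2b)-AN1 (3), (4))

For a Galois extension `M / K` of number fields of degree `n`,
`n * ∑_{𝔭 split} N𝔭^(-s) = log (1/(s-1)) + O(1)` on `(1, 2]`, hence infinitely many primes do not
split completely when `n > 1`.
-/

set_option autoImplicit false
set_option linter.unusedSectionVars false

open IsDedekindDomain Finset Filter Topology NumberField Ideal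

namespace Fermat.Agent.S14.helper52

variable (K M : Type*) [Field K] [NumberField K] [Field M] [NumberField M] [Algebra K M]

/-- The number of primes of `M` above `𝔭`. -/
noncomputable def gNum (𝔭 : HeightOneSpectrum (𝓞 K)) : ℕ := (primesOver 𝔭.asIdeal (𝓞 M)).ncard

/-- The common inertia degree of the primes of `M` above `𝔭`. -/
noncomputable def fNum (𝔭 : HeightOneSpectrum (𝓞 K)) : ℕ := inertiaDegIn 𝔭.asIdeal (𝓞 M)

/-- The common ramification index of the primes of `M` above `𝔭`. -/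
noncomputable def eNum (𝔭 : HeightOneSpectrum (𝓞 K)) : ℕ := ramificationIdxIn 𝔭.asIdeal (𝓞 M)

lemma gNum_mul_eNum_mul_fNum [IsGalois K M] (𝔭 : HeightOneSpectrum (𝓞 K)) :
    gNum K M 𝔭 * (eNum K M 𝔭 * fNum K M 𝔭) = Module.finrank K M := by
  rw [← IsGalois.card_aut_eq_finrank K M]
  exact ncard_primesOver_mul_ramificationIdxIn_mul_inertiaDegIn 𝔭.asIdeal (𝓞 M) Gal(M/K)

lemma mem_splitSet_iff (𝔭 : HeightOneSpectrum (𝓞 K)) :
    𝔭 ∈ helper34.splitSet K M ↔ gNum K M 𝔭 = Module.finrank K M := Iff.rfl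

lemma liesOver_of_under_eq {𝔓 : HeightOneSpectrum (𝓞 M)} {𝔭 : HeightOneSpectrum (𝓞 K)}
    (h : 𝔓.under (𝓞 K) = 𝔭) : 𝔓.asIdeal.LiesOver 𝔭.asIdeal := by
  rw [Ideal.liesOver_iff, ← h]
  rfl

lemma absNorm_eq_pow_fNum [IsGalois K M] {𝔓 : HeightOneSpectrum (𝓞 M)}
    {𝔭 : HeightOneSpectrum (𝓞 K)} (h : 𝔓.under (𝓞 K) = 𝔭) :
    absNorm 𝔓.asIdeal = absNorm 𝔭.asIdeal ^ fNum K M 𝔭 := by
  have := 𝔓.isPrime
  have := liesOver_of_under_eq K M h
  rw [fNum, inertiaDegIn_eq_inertiaDeg 𝔭.asIdeal 𝔓.asIdeal Gal(M/K)]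
  exact (Ideal.absNorm_pow_inertiaDeg 𝔭.asIdeal 𝔓.asIdeal).symm

/-- The fibre of `under` over `𝔭` is the set of primes over `𝔭`. -/
noncomputable def fiberEquiv (𝔭 : HeightOneSpectrum (𝓞 K)) :
    ((fun 𝔓 : HeightOneSpectrum (𝓞 M) => 𝔓.under (𝓞 K)) ⁻¹' {𝔭}) ≃
      primesOver 𝔭.asIdeal (𝓞 M) where
  toFun 𝔓 := ⟨𝔓.1.asIdeal, 𝔓.1.isPrime, liesOver_of_under_eq K M 𝔓.2⟩
  invFun P := ⟨⟨P.1, P.2.1, Ideal.ne_bot_of_mem_primesOver 𝔭.ne_bot P.2⟩, by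
    have := P.2.2
    apply HeightOneSpectrum.ext
    exact this.over.symm⟩
  left_inv 𝔓 := rfl
  right_inv P := rfl

instance finite_fiber (𝔭 : HeightOneSpectrum (𝓞 K)) :
    Finite ((fun 𝔓 : HeightOneSpectrum (𝓞 M) => 𝔓.under (𝓞 K)) ⁻¹' {𝔭}) :=
  Finite.of_equiv _ (fiberEquiv K M 𝔭).symm

lemma card_fiber (𝔭 : HeightOneSpectrum (𝓞 K)) :
    Nat.card ((fun 𝔓 : HeightOneSpectrum (𝓞 M) => 𝔓.under (𝓞 K)) ⁻¹' {𝔭}) = gNum K M 𝔭 := by
  rw [Nat.card_congr (fiberEquiv K M 𝔭), gNum, Nat.card_coe_set_eq]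

/-- The sum of `N𝔓^(-s)` over the primes `𝔓` above `𝔭`. -/
noncomputable def fiberSum (s : ℝ) (𝔭 : HeightOneSpectrum (𝓞 K)) : ℝ :=
  ∑' 𝔓 : ((fun 𝔓 : HeightOneSpectrum (𝓞 M) => 𝔓.under (𝓞 K)) ⁻¹' {𝔭}),
    (absNorm 𝔓.1.asIdeal : ℝ) ^ (-s)

lemma fiberSum_eq [IsGalois K M] (s : ℝ) (𝔭 : HeightOneSpectrum (𝓞 K)) :
    fiberSum K M s 𝔭 = gNum K M 𝔭 * ((absNorm 𝔭.asIdeal : ℝ) ^ fNum K M 𝔭) ^ (-s) := by
  rw [fiberSum]
  have : ∀ 𝔓 : ((fun 𝔓 : HeightOneSpectrum (𝓞 M) => 𝔓.under (𝓞 K)) ⁻¹' {𝔭}),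
      (absNorm 𝔓.1.asIdeal : ℝ) ^ (-s) = ((absNorm 𝔭.asIdeal : ℝ) ^ fNum K M 𝔭) ^ (-s) := by
    intro 𝔓
    rw [absNorm_eq_pow_fNum K M 𝔓.2, Nat.cast_pow]
  rw [tsum_congr this, tsum_const, card_fiber, nsmul_eq_mul]

lemma hasSum_fiberSum {s : ℝ} (hs : 1 < s) :
    HasSum (fiberSum K M s)
      (∑' 𝔓 : HeightOneSpectrum (𝓞 M), (absNorm 𝔓.asIdeal : ℝ) ^ (-s)) :=
  (summable_primeIdeal M s hs).hasSum.tsum_fiberwise _


/-- The primes of `K` that ramify in `M`. -/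
def ramSet : Set (HeightOneSpectrum (𝓞 K)) := {𝔭 | eNum K M 𝔭 ≠ 1}

lemma ramSet_finite [IsGalois K M] : (ramSet K M).Finite := by
  have hfin : {𝔓 : HeightOneSpectrum (𝓞 M) | 𝔓.asIdeal ∣ differentIdeal (𝓞 K) (𝓞 M)}.Finite :=
    Ideal.finite_factors differentIdeal_ne_bot
  refine (hfin.image (fun 𝔓 => 𝔓.under (𝓞 K))).subset ?_
  intro 𝔭 h𝔭
  obtain ⟨⟨P, hP, hPo⟩⟩ : Nonempty (primesOver 𝔭.asIdeal (𝓞 M)) := inferInstance
  have hPbot : P ≠ ⊥ := Ideal.ne_bot_of_mem_primesOver 𝔭.ne_bot ⟨hP, hPo⟩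
  refine ⟨⟨P, hP, hPbot⟩, ?_, ?_⟩
  · show P ∣ differentIdeal (𝓞 K) (𝓞 M)
    rw [dvd_differentIdeal_iff]
    intro hunr
    apply h𝔭
    rw [eNum, ramificationIdxIn_eq_ramificationIdx 𝔭.asIdeal P Gal(M/K)]
    exact Ideal.ramificationIdx_eq_one_of_isUnramifiedAt
  · exact HeightOneSpectrum.ext hPo.over.symm

lemma eNum_mul_fNum_pos [IsGalois K M] (𝔭 : HeightOneSpectrum (𝓞 K)) :
    0 < eNum K M 𝔭 * fNum K M 𝔭 := by
  have h := gNum_mul_eNum_mul_fNum K M 𝔭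
  have hpos : 0 < Module.finrank K M := Module.finrank_pos
  rcases Nat.eq_zero_or_pos (eNum K M 𝔭 * fNum K M 𝔭) with h0 | h0
  · rw [h0, mul_zero] at h
    omega
  · exact h0

lemma gNum_le [IsGalois K M] (𝔭 : HeightOneSpectrum (𝓞 K)) :
    gNum K M 𝔭 ≤ Module.finrank K M := by
  have h := gNum_mul_eNum_mul_fNum K M 𝔭
  calc gNum K M 𝔭 ≤ gNum K M 𝔭 * (eNum K M 𝔭 * fNum K M 𝔭) :=
        Nat.le_mul_of_pos_right _ (eNum_mul_fNum_pos K M 𝔭)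
    _ = _ := h

lemma fNum_eq_one_of_mem_splitSet [IsGalois K M] {𝔭 : HeightOneSpectrum (𝓞 K)}
    (h𝔭 : 𝔭 ∈ helper34.splitSet K M) : fNum K M 𝔭 = 1 := by
  have h := gNum_mul_eNum_mul_fNum K M 𝔭
  rw [(mem_splitSet_iff K M 𝔭).mp h𝔭] at h
  have hpos : 0 < Module.finrank K M := Module.finrank_pos
  have h1 : eNum K M 𝔭 * fNum K M 𝔭 = 1 := by
    have := Nat.eq_of_mul_eq_mul_left hpos (h.trans (mul_one _).symm)
    exact this
  exact Nat.eq_one_of_mul_eq_one_left h1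

lemma two_le_fNum_of_notMem [IsGalois K M] {𝔭 : HeightOneSpectrum (𝓞 K)}
    (h𝔭 : 𝔭 ∉ helper34.splitSet K M) (hr : 𝔭 ∉ ramSet K M) : 2 ≤ fNum K M 𝔭 := by
  have h := gNum_mul_eNum_mul_fNum K M 𝔭
  have he : eNum K M 𝔭 = 1 := by
    by_contra hne
    exact hr hne
  rw [he, one_mul] at h
  have hpos := eNum_mul_fNum_pos K M 𝔭
  rw [he, one_mul] at hpos
  have hne1 : fNum K M 𝔭 ≠ 1 := by
    intro h1
    rw [h1, mul_one] at h
    exact h𝔭 ((mem_splitSet_iff K M 𝔭).mpr h)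
  omega

lemma fiberSum_of_mem_splitSet [IsGalois K M] (s : ℝ) {𝔭 : HeightOneSpectrum (𝓞 K)}
    (h𝔭 : 𝔭 ∈ helper34.splitSet K M) :
    fiberSum K M s 𝔭 = (Module.finrank K M : ℝ) * (absNorm 𝔭.asIdeal : ℝ) ^ (-s) := by
  rw [fiberSum_eq, fNum_eq_one_of_mem_splitSet K M h𝔭, (mem_splitSet_iff K M 𝔭).mp h𝔭, pow_one]

lemma fiberSum_nonneg (s : ℝ) (𝔭 : HeightOneSpectrum (𝓞 K)) : 0 ≤ fiberSum K M s 𝔭 :=
  tsum_nonneg (fun _ => by positivity)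

lemma pow_rpow_neg_le_one (𝔭 : HeightOneSpectrum (𝓞 K)) (f : ℕ) {s : ℝ} (hs : 0 ≤ s) :
    ((absNorm 𝔭.asIdeal : ℝ) ^ f) ^ (-s) ≤ 1 := by
  have h2 : (2 : ℝ) ≤ absNorm 𝔭.asIdeal := by exact_mod_cast two_le_absNorm K 𝔭
  have h1 : (1 : ℝ) ≤ (absNorm 𝔭.asIdeal : ℝ) ^ f := one_le_pow₀ (by linarith)
  exact Real.rpow_le_one_of_one_le_of_nonpos h1 (by linarith)

lemma pow_rpow_neg_le_rpow_neg_two (𝔭 : HeightOneSpectrum (𝓞 K)) {f : ℕ} (hf : 2 ≤ f) {s : ℝ}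
    (hs : 1 ≤ s) :
    ((absNorm 𝔭.asIdeal : ℝ) ^ f) ^ (-s) ≤ (absNorm 𝔭.asIdeal : ℝ) ^ (-(2 : ℝ)) := by
  have h2 : (2 : ℝ) ≤ absNorm 𝔭.asIdeal := by exact_mod_cast two_le_absNorm K 𝔭
  have hpos : (0 : ℝ) < absNorm 𝔭.asIdeal := by linarith
  rw [← Real.rpow_natCast, ← Real.rpow_mul hpos.le]
  apply Real.rpow_le_rpow_of_exponent_le (by linarith)
  have hf' : (2 : ℝ) ≤ f := by exact_mod_cast hf
  nlinarith

/-- The error term: `fiberSum` minus the contribution of split primes. -/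
noncomputable def errTerm (s : ℝ) (𝔭 : HeightOneSpectrum (𝓞 K)) : ℝ :=
  fiberSum K M s 𝔭 - (Module.finrank K M : ℝ) *
    (helper34.splitSet K M).indicator (fun 𝔭 => (absNorm 𝔭.asIdeal : ℝ) ^ (-s)) 𝔭

/-- The dominating function for the error term. -/
noncomputable def errBound (𝔭 : HeightOneSpectrum (𝓞 K)) : ℝ :=
  (Module.finrank K M : ℝ) * (absNorm 𝔭.asIdeal : ℝ) ^ (-(2 : ℝ)) +
    (Module.finrank K M : ℝ) * (ramSet K M).indicator (fun _ => (1 : ℝ)) 𝔭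

lemma errTerm_nonneg [IsGalois K M] (s : ℝ) (𝔭 : HeightOneSpectrum (𝓞 K)) :
    0 ≤ errTerm K M s 𝔭 := by
  rw [errTerm]
  by_cases h𝔭 : 𝔭 ∈ helper34.splitSet K M
  · rw [Set.indicator_of_mem h𝔭, fiberSum_of_mem_splitSet K M s h𝔭, sub_self]
  · rw [Set.indicator_of_notMem h𝔭, mul_zero, sub_zero]
    exact fiberSum_nonneg K M s 𝔭

lemma errTerm_le [IsGalois K M] {s : ℝ} (hs : 1 ≤ s) (𝔭 : HeightOneSpectrum (𝓞 K)) :
    errTerm K M s 𝔭 ≤ errBound K M 𝔭 := by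
  rw [errTerm, errBound]
  have hn : (0 : ℝ) ≤ Module.finrank K M := Nat.cast_nonneg _
  have hN : (0 : ℝ) ≤ (absNorm 𝔭.asIdeal : ℝ) ^ (-(2 : ℝ)) := by positivity
  by_cases h𝔭 : 𝔭 ∈ helper34.splitSet K M
  · rw [Set.indicator_of_mem h𝔭, fiberSum_of_mem_splitSet K M s h𝔭, sub_self]
    have : (0 : ℝ) ≤ (ramSet K M).indicator (fun _ => (1 : ℝ)) 𝔭 :=
      Set.indicator_nonneg (fun _ _ => zero_le_one) _
    positivity
  · rw [Set.indicator_of_notMem h𝔭, mul_zero, sub_zero, fiberSum_eq]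
    have hg : (gNum K M 𝔭 : ℝ) ≤ Module.finrank K M := by exact_mod_cast gNum_le K M 𝔭
    have hg0 : (0 : ℝ) ≤ gNum K M 𝔭 := Nat.cast_nonneg _
    by_cases hr : 𝔭 ∈ ramSet K M
    · rw [Set.indicator_of_mem hr]
      have h1 := pow_rpow_neg_le_one K 𝔭 (fNum K M 𝔭) (by linarith : (0 : ℝ) ≤ s)
      have h0 : (0 : ℝ) ≤ ((absNorm 𝔭.asIdeal : ℝ) ^ fNum K M 𝔭) ^ (-s) := by positivity
      calc (gNum K M 𝔭 : ℝ) * ((absNorm 𝔭.asIdeal : ℝ) ^ fNum K M 𝔭) ^ (-s)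
          ≤ (Module.finrank K M : ℝ) * 1 := mul_le_mul hg h1 h0 hn
        _ ≤ _ := by nlinarith
    · rw [Set.indicator_of_notMem hr, mul_zero, add_zero]
      have h1 := pow_rpow_neg_le_rpow_neg_two K 𝔭 (two_le_fNum_of_notMem K M h𝔭 hr) hs
      have h0 : (0 : ℝ) ≤ ((absNorm 𝔭.asIdeal : ℝ) ^ fNum K M 𝔭) ^ (-s) := by positivity
      exact mul_le_mul hg h1 h0 hn

lemma summable_errBound [IsGalois K M] : Summable (errBound K M) := by
  refine Summable.add ((summable_primeIdeal K 2 (by norm_num)).mul_left _) (Summable.mul_left _ ?_)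
  refine summable_of_hasFiniteSupport (show Set.Finite (Function.support _) from ?_)
  refine (ramSet_finite K M).subset ?_
  intro 𝔭 h𝔭
  by_contra hne
  exact h𝔭 (Set.indicator_of_notMem hne _)

lemma summable_indicator_split {s : ℝ} (hs : 1 < s) :
    Summable ((helper34.splitSet K M).indicator
      (fun 𝔭 : HeightOneSpectrum (𝓞 K) => (absNorm 𝔭.asIdeal : ℝ) ^ (-s))) :=
  (summable_primeIdeal K s hs).indicator _

lemma hasSum_errTerm [IsGalois K M] {s : ℝ} (hs : 1 < s) :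
    HasSum (errTerm K M s)
      ((∑' 𝔓 : HeightOneSpectrum (𝓞 M), (absNorm 𝔓.asIdeal : ℝ) ^ (-s)) -
        (Module.finrank K M : ℝ) *
          ∑' 𝔭 : helper34.splitSet K M, (absNorm 𝔭.1.asIdeal : ℝ) ^ (-s)) := by
  have h1 := hasSum_fiberSum K M hs
  have h2 := ((summable_indicator_split K M hs).hasSum.mul_left (Module.finrank K M : ℝ))
  rw [← _root_.tsum_subtype] at h2
  unfold errTerm
  exact h1.sub h2

/-- (3) `[M:K] * ∑_{𝔭 split} N𝔭^(-s) = log (1/(s-1)) + O(1)` on `(1, 2]`. -/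
theorem split_sum_sub_log_bounded [IsGalois K M] :
    ∃ B : ℝ, ∀ s : ℝ, 1 < s → s ≤ 2 →
      |(Module.finrank K M : ℝ) *
          ∑' 𝔭 : helper34.splitSet K M, (Ideal.absNorm 𝔭.1.asIdeal : ℝ) ^ (-s) -
        Real.log (1 / (s - 1))| ≤ B := by
  obtain ⟨B, hB⟩ := primeIdeal_sum_sub_log_bounded M
  refine ⟨B + ∑' 𝔭, errBound K M 𝔭, fun s hs hs2 => ?_⟩
  have hE := hasSum_errTerm K M hs
  have h0 : 0 ≤ (∑' 𝔓 : HeightOneSpectrum (𝓞 M), (absNorm 𝔓.asIdeal : ℝ) ^ (-s)) -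
        (Module.finrank K M : ℝ) *
          ∑' 𝔭 : helper34.splitSet K M, (absNorm 𝔭.1.asIdeal : ℝ) ^ (-s) :=
    hE.nonneg (errTerm_nonneg K M s)
  have h1 : (∑' 𝔓 : HeightOneSpectrum (𝓞 M), (absNorm 𝔓.asIdeal : ℝ) ^ (-s)) -
        (Module.finrank K M : ℝ) *
          ∑' 𝔭 : helper34.splitSet K M, (absNorm 𝔭.1.asIdeal : ℝ) ^ (-s) ≤
        ∑' 𝔭, errBound K M 𝔭 :=
    hasSum_le (errTerm_le K M hs.le) hE (summable_errBound K M).hasSum
  have h2 := hB s hs hs2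
  rw [abs_le] at h2 ⊢
  constructor <;> linarith [h2.1, h2.2]

/-- (4) If `[M:K] > 1`, infinitely many primes of `K` do not split completely in `M`. -/
theorem exists_not_split [IsGalois K M] (h : 1 < Module.finrank K M)
    (S : Finset (HeightOneSpectrum (𝓞 K))) :
    ∃ 𝔭, 𝔭 ∉ S ∧ 𝔭 ∉ helper34.splitSet K M := by
  by_contra hcon
  push Not at hcon
  obtain ⟨B₂, hB₂⟩ := primeIdeal_sum_sub_log_bounded K
  obtain ⟨B₃, hB₃⟩ := split_sum_sub_log_bounded K M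
  set n : ℝ := (Module.finrank K M : ℝ) with hn
  have hn2 : (2 : ℝ) ≤ n := by
    rw [hn]
    exact_mod_cast h
  -- the constant
  set C : ℝ := |B₃| + n * (|B₂| + S.card) + 1 with hC
  have hCpos : 0 < C := by positivity
  set s : ℝ := 1 + Real.exp (-C) with hsdef
  have hs1 : 1 < s := by
    rw [hsdef]
    linarith [Real.exp_pos (-C)]
  have hs2 : s ≤ 2 := by
    rw [hsdef]
    have : Real.exp (-C) ≤ 1 := Real.exp_le_one_iff.mpr (by linarith)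
    linarith
  have hL : Real.log (1 / (s - 1)) = C := by
    rw [hsdef, add_sub_cancel_left, one_div, Real.log_inv, Real.log_exp, neg_neg]
  have e2 := hB₂ s hs1 hs2
  have e3 := hB₃ s hs1 hs2
  rw [hL] at e2 e3
  -- compare the sums
  have hsum := summable_primeIdeal K s hs1
  have hsplit : ∑' 𝔭 : HeightOneSpectrum (𝓞 K), (absNorm 𝔭.asIdeal : ℝ) ^ (-s) ≤
      ∑' 𝔭 : helper34.splitSet K M, (absNorm 𝔭.1.asIdeal : ℝ) ^ (-s) + S.card := by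
    rw [← hsum.tsum_subtype_add_tsum_subtype_compl (helper34.splitSet K M)]
    gcongr
    rw [_root_.tsum_subtype (helper34.splitSet K M)ᶜ
      (fun 𝔭 : HeightOneSpectrum (𝓞 K) => (absNorm 𝔭.asIdeal : ℝ) ^ (-s))]
    have hle : ∀ 𝔭 : HeightOneSpectrum (𝓞 K),
        (helper34.splitSet K M)ᶜ.indicator (fun 𝔭 => (absNorm 𝔭.asIdeal : ℝ) ^ (-s)) 𝔭 ≤
        (S : Set (HeightOneSpectrum (𝓞 K))).indicator (fun _ => (1 : ℝ)) 𝔭 := by
      intro 𝔭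
      by_cases h𝔭 : 𝔭 ∈ helper34.splitSet K M
      · rw [Set.indicator_of_notMem (by simpa using h𝔭)]
        exact Set.indicator_nonneg (fun _ _ => zero_le_one) _
      · have hS : 𝔭 ∈ (S : Set (HeightOneSpectrum (𝓞 K))) := by
          by_contra hns
          exact h𝔭 (hcon 𝔭 (by simpa using hns))
        rw [Set.indicator_of_mem (by simpa using h𝔭), Set.indicator_of_mem hS]
        have := rpow_neg_le_half K 𝔭 hs1.le
        linarith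
    have hS1 : Summable ((S : Set (HeightOneSpectrum (𝓞 K))).indicator (fun _ => (1 : ℝ))) :=
      summable_of_hasFiniteSupport (show Set.Finite (Function.support _) from
        (Finset.finite_toSet S).subset (fun 𝔭 h𝔭 => by
          by_contra hne
          exact h𝔭 (Set.indicator_of_notMem hne _)))
    calc ∑' 𝔭, (helper34.splitSet K M)ᶜ.indicator
            (fun 𝔭 => (absNorm 𝔭.asIdeal : ℝ) ^ (-s)) 𝔭
        ≤ ∑' 𝔭, (S : Set (HeightOneSpectrum (𝓞 K))).indicator (fun _ => (1 : ℝ)) 𝔭 :=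
          (hsum.indicator _).tsum_le_tsum hle hS1
      _ = (S.card : ℝ) := by
          rw [tsum_eq_sum (s := S) (fun 𝔭 h𝔭 => Set.indicator_of_notMem (by simpa using h𝔭) _),
            Finset.sum_congr rfl (fun 𝔭 h𝔭 => Set.indicator_of_mem
              (show 𝔭 ∈ (S : Set (HeightOneSpectrum (𝓞 K))) by simpa using h𝔭) _)]
          simp
  rw [abs_le] at e2 e3
  have hB2 := le_abs_self B₂
  have hB2' := neg_abs_le B₂
  have hB3 := le_abs_self B₃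
  have hn0 : (0 : ℝ) ≤ n := by linarith
  have hcard : (0 : ℝ) ≤ S.card := Nat.cast_nonneg _
  -- n * (C - |B₂| - card) ≤ n * Σ_split ≤ C + |B₃|
  have key : n * (C - |B₂| - S.card) ≤ C + |B₃| := by
    have h1 : C - |B₂| - S.card ≤
        ∑' 𝔭 : helper34.splitSet K M, (absNorm 𝔭.1.asIdeal : ℝ) ^ (-s) := by linarith [e2.1]
    have h2 := mul_le_mul_of_nonneg_left h1 hn0
    linarith [e3.2]
  -- contradiction: (n - 1) * C ≤ |B₃| + n (|B₂| + card) = C - 1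
  nlinarith

end Fermat.Agent.S14.helper52
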