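import Mathlib

/-!
# S14 (helper40): Euler product, in sieve form, over the nonzero ideals of a Dedekind domain

Let `R` be a Dedekind domain and `F : (Ideal R)⁰ → ℂ` a completely multiplicative function
with `∑ ‖F I‖ < ∞`.  Then

  `(∏ P ∈ s, (1 - F P)) * ∑' I, F I ⟶ 1`  as the finite set of primes `s` grows,

hence `∑' I, F I ≠ 0` and `∏ P ∈ s, (1 - F P) ⟶ (∑' I, F I)⁻¹`.

The proof is the sieve of Eratosthenes: no factorisation equivalence is needed.
-/

set_option autoImplicit false

set_option linter.unusedSectionVars false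
set_option linter.unusedVariables false

open Filter Topology IsDedekindDomain
open scoped nonZeroDivisors Classical

namespace Fermat.Agent.S14.helper40

variable {R : Type*} [CommRing R] [IsDedekindDomain R]

/-- A height-one prime as a nonzero ideal. -/
noncomputable def primeNZD (P : HeightOneSpectrum R) : (Ideal R)⁰ :=
  ⟨P.asIdeal, mem_nonZeroDivisors_of_ne_zero P.ne_bot⟩

@[simp] theorem coe_primeNZD (P : HeightOneSpectrum R) :
    ((primeNZD P : (Ideal R)⁰) : Ideal R) = P.asIdeal := rfl

/-- The predicate "no prime of `s` divides `I`". -/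
def CoprimeTo (s : Finset (HeightOneSpectrum R)) (I : (Ideal R)⁰) : Prop :=
  ∀ P ∈ s, ¬ (P.asIdeal ∣ (I : Ideal R))

/-- The sifted function. -/
noncomputable def sift (F : (Ideal R)⁰ → ℂ) (s : Finset (HeightOneSpectrum R))
    (I : (Ideal R)⁰) : ℂ :=
  if CoprimeTo s I then F I else 0

theorem norm_sift_le (F : (Ideal R)⁰ → ℂ) (s : Finset (HeightOneSpectrum R)) (I : (Ideal R)⁰) :
    ‖sift F s I‖ ≤ ‖F I‖ := by
  unfold sift
  split_ifs
  · exact le_rfl
  · simp

theorem summable_sift {F : (Ideal R)⁰ → ℂ} (hsum : Summable fun I => ‖F I‖)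
    (s : Finset (HeightOneSpectrum R)) : Summable (sift F s) :=
  Summable.of_norm_bounded hsum (norm_sift_le F s)

theorem sift_empty (F : (Ideal R)⁰ → ℂ) : sift F ∅ = F := by
  funext I
  simp [sift, CoprimeTo]

theorem dvd_prime_iff_eq (P Q : HeightOneSpectrum R) : P.asIdeal ∣ Q.asIdeal ↔ P = Q := by
  constructor
  · intro h
    have hle : Q.asIdeal ≤ P.asIdeal := Ideal.le_of_dvd h
    have hQmax : Q.asIdeal.IsMaximal := Q.isMaximal
    have := hQmax.eq_of_le P.isPrime.ne_top hle
    exact (HeightOneSpectrum.ext this).symm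
  · rintro rfl
    exact dvd_rfl

theorem coprimeTo_mul_iff {s : Finset (HeightOneSpectrum R)} {Q : HeightOneSpectrum R}
    (hQ : Q ∉ s) (J : (Ideal R)⁰) : CoprimeTo s (primeNZD Q * J) ↔ CoprimeTo s J := by
  unfold CoprimeTo
  refine forall₂_congr fun P hP => not_congr ?_
  rw [Submonoid.coe_mul, coe_primeNZD]
  constructor
  · intro h
    rcases (Ideal.prime_of_isPrime P.ne_bot P.isPrime).dvd_or_dvd h with h1 | h1
    · exact absurd ((dvd_prime_iff_eq P Q).mp h1) (fun h2 => hQ (h2 ▸ hP))
    · exact h1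
  · intro h
    exact Dvd.dvd.mul_left h _

theorem coprimeTo_insert_iff {s : Finset (HeightOneSpectrum R)} {Q : HeightOneSpectrum R}
    (I : (Ideal R)⁰) :
    CoprimeTo (insert Q s) I ↔ ¬ (Q.asIdeal ∣ (I : Ideal R)) ∧ CoprimeTo s I := by
  unfold CoprimeTo
  simp [Finset.forall_mem_insert]

theorem primeNZD_mul_injective (Q : HeightOneSpectrum R) :
    Function.Injective fun J : (Ideal R)⁰ => primeNZD Q * J := by
  intro J J' h
  have h1 : (Q.asIdeal : Ideal R) * (J : Ideal R) = Q.asIdeal * (J' : Ideal R) :=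
    congrArg Subtype.val h
  exact Subtype.ext (mul_left_cancel₀ Q.ne_bot h1)

/-- The sieve step. -/
theorem tsum_sift_insert {F : (Ideal R)⁰ → ℂ} (hmul : ∀ I J, F (I * J) = F I * F J)
    (hsum : Summable fun I => ‖F I‖) {s : Finset (HeightOneSpectrum R)}
    {Q : HeightOneSpectrum R} (hQ : Q ∉ s) :
    ∑' I, sift F (insert Q s) I = (1 - F (primeNZD Q)) * ∑' I, sift F s I := by
  classical
  -- the part of the sifted sum over multiples of `Q`
  set g : (Ideal R)⁰ → ℂ := fun I => if Q.asIdeal ∣ (I : Ideal R) then sift F s I else 0 with hg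
  have hsplit : ∀ I, sift F s I = sift F (insert Q s) I + g I := by
    intro I
    by_cases hd : Q.asIdeal ∣ (I : Ideal R)
    · have : ¬ CoprimeTo (insert Q s) I := fun h => ((coprimeTo_insert_iff I).mp h).1 hd
      simp [hg, hd, sift, this]
    · by_cases hc : CoprimeTo s I
      · have : CoprimeTo (insert Q s) I := (coprimeTo_insert_iff I).mpr ⟨hd, hc⟩
        simp [hg, hd, sift, this, hc]
      · have : ¬ CoprimeTo (insert Q s) I := fun h => hc ((coprimeTo_insert_iff I).mp h).2
        simp [hg, hd, sift, this, hc]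
  have hgsum : Summable g := by
    refine Summable.of_norm_bounded hsum fun I => ?_
    simp only [hg]
    split_ifs
    · exact norm_sift_le F s I
    · simp
  have hgval : ∑' I, g I = F (primeNZD Q) * ∑' I, sift F s I := by
    have hsupp : Function.support g ⊆ Set.range fun J : (Ideal R)⁰ => primeNZD Q * J := by
      intro I hI
      have hd : Q.asIdeal ∣ (I : Ideal R) := by
        by_contra hd
        exact hI (by simp [hg, hd])
      obtain ⟨J, hJ⟩ := hd
      have hJ0 : J ≠ 0 := by
        rintro rfl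
        rw [mul_zero] at hJ
        exact (nonZeroDivisors.coe_ne_zero I) hJ
      exact ⟨⟨J, mem_nonZeroDivisors_of_ne_zero hJ0⟩, Subtype.ext hJ.symm⟩
    rw [← (primeNZD_mul_injective Q).tsum_eq hsupp, ← tsum_mul_left]
    refine tsum_congr fun J => ?_
    have hd : Q.asIdeal ∣ ((primeNZD Q * J : (Ideal R)⁰) : Ideal R) := by
      rw [Submonoid.coe_mul, coe_primeNZD]
      exact Dvd.intro _ rfl
    simp only [hg, hd, if_true, sift, coprimeTo_mul_iff hQ J]
    split_ifs
    · exact hmul _ _
    · simp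
  have h1 : ∑' I, sift F s I = ∑' I, sift F (insert Q s) I + ∑' I, g I := by
    rw [← (summable_sift hsum _).tsum_add hgsum]
    exact tsum_congr hsplit
  rw [hgval] at h1
  rw [sub_mul, one_mul]
  exact eq_sub_of_add_eq h1.symm

/-- The sifted sum is the full sum times the finite Euler factor. -/
theorem tsum_sift_eq {F : (Ideal R)⁰ → ℂ} (hmul : ∀ I J, F (I * J) = F I * F J)
    (hsum : Summable fun I => ‖F I‖) (s : Finset (HeightOneSpectrum R)) :
    ∑' I, sift F s I = (∏ P ∈ s, (1 - F (primeNZD P))) * ∑' I, F I := by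
  classical
  induction s using Finset.induction_on with
  | empty => simp [sift_empty]
  | insert Q s hQ ih =>
    rw [tsum_sift_insert hmul hsum hQ, ih, Finset.prod_insert hQ, mul_assoc]

/-- Every nonzero ideal different from `1` is divisible by a prime. -/
theorem exists_prime_dvd (I : (Ideal R)⁰) (hI : I ≠ 1) :
    ∃ P : HeightOneSpectrum R, P.asIdeal ∣ (I : Ideal R) := by
  have hI' : (I : Ideal R) ≠ ⊤ := by
    intro h
    apply hI
    apply Subtype.ext
    rw [h, Submonoid.coe_one, Ideal.one_eq_top]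
  obtain ⟨M, hM, hIM⟩ := Ideal.exists_le_maximal _ hI'
  have hM0 : M ≠ ⊥ := by
    rintro rfl
    exact nonZeroDivisors.coe_ne_zero I (le_bot_iff.mp hIM)
  exact ⟨⟨M, hM.isPrime, hM0⟩, Ideal.dvd_iff_le.mpr hIM⟩

theorem coprimeTo_one (s : Finset (HeightOneSpectrum R)) : CoprimeTo s (1 : (Ideal R)⁰) := by
  intro P _ h
  have h1 : (1 : Ideal R) ≤ P.asIdeal := Ideal.le_of_dvd h
  exact P.isPrime.ne_top (top_le_iff.mp (by rwa [Ideal.one_eq_top] at h1))

/-- The sifted sums tend to `F 1`. -/
theorem tendsto_tsum_sift {F : (Ideal R)⁰ → ℂ} (hsum : Summable fun I => ‖F I‖) :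
    Tendsto (fun s : Finset (HeightOneSpectrum R) => ∑' I, sift F s I) atTop (𝓝 (F 1)) := by
  classical
  have key := tendsto_tsum_of_dominated_convergence (𝓕 := (atTop : Filter (Finset
    (HeightOneSpectrum R)))) (f := fun s I => sift F s I)
    (g := fun I : (Ideal R)⁰ => if I = 1 then F 1 else 0) (bound := fun I => ‖F I‖) hsum ?_ ?_
  · rwa [tsum_ite_eq] at key
  · intro I
    by_cases hI : I = 1
    · subst hI
      simp only [if_true, sift, coprimeTo_one]
      exact tendsto_const_nhds
    · obtain ⟨P, hP⟩ := exists_prime_dvd I hI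
      simp only [hI, if_false]
      refine tendsto_const_nhds.congr' ?_
      filter_upwards [eventually_ge_atTop {P}] with s hs
      have : ¬ CoprimeTo s I := fun h => h P (hs (Finset.mem_singleton_self P)) hP
      simp [sift, this]
  · exact Eventually.of_forall fun s I => norm_sift_le F s I

/-- **Euler product in sieve form.** -/
theorem tendsto_prod_one_sub_mul_tsum {F : (Ideal R)⁰ → ℂ} (hone : F 1 = 1)
    (hmul : ∀ I J, F (I * J) = F I * F J) (hsum : Summable fun I => ‖F I‖) :
    Tendsto (fun s : Finset (HeightOneSpectrum R) =>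
      (∏ P ∈ s, (1 - F (primeNZD P))) * ∑' I, F I) atTop (𝓝 1) := by
  have h := tendsto_tsum_sift hsum
  rw [hone] at h
  exact h.congr fun s => tsum_sift_eq hmul hsum s

theorem tsum_ne_zero_of_mul {F : (Ideal R)⁰ → ℂ} (hone : F 1 = 1)
    (hmul : ∀ I J, F (I * J) = F I * F J) (hsum : Summable fun I => ‖F I‖) :
    ∑' I, F I ≠ 0 := by
  intro h0
  have h := tendsto_prod_one_sub_mul_tsum hone hmul hsum
  simp only [h0, mul_zero] at h
  exact zero_ne_one (tendsto_nhds_unique tendsto_const_nhds h)

/-- **Euler product**: the finite products of `1 - F P` tend to the inverse of the sum. -/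
theorem tendsto_prod_one_sub {F : (Ideal R)⁰ → ℂ} (hone : F 1 = 1)
    (hmul : ∀ I J, F (I * J) = F I * F J) (hsum : Summable fun I => ‖F I‖) :
    Tendsto (fun s : Finset (HeightOneSpectrum R) => ∏ P ∈ s, (1 - F (primeNZD P))) atTop
      (𝓝 (∑' I, F I)⁻¹) := by
  have h0 := tsum_ne_zero_of_mul hone hmul hsum
  have h := (tendsto_prod_one_sub_mul_tsum hone hmul hsum).mul_const (∑' I, F I)⁻¹
  rw [one_mul] at h
  refine h.congr fun s => ?_
  rw [mul_assoc, mul_inv_cancel₀ h0, mul_one]

/-- Norm version. -/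
theorem tendsto_prod_norm_one_sub {F : (Ideal R)⁰ → ℂ} (hone : F 1 = 1)
    (hmul : ∀ I J, F (I * J) = F I * F J) (hsum : Summable fun I => ‖F I‖) :
    Tendsto (fun s : Finset (HeightOneSpectrum R) => ∏ P ∈ s, ‖1 - F (primeNZD P)‖) atTop
      (𝓝 ‖∑' I, F I‖⁻¹) := by
  have h := (tendsto_prod_one_sub hone hmul hsum).norm
  rw [norm_inv] at h
  refine h.congr fun s => ?_
  rw [norm_prod]

end Fermat.Agent.S14.helper40
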