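import Mathlib

/-!
# S14 (helper40): the Dedekind zeta function as a real sum over nonzero ideals

* `zetaR K s = ∑' I : (Ideal (𝓞 K))⁰, N(I)^(-s)` for real `s`;
* summability for `s > 1`, equality with Mathlib's `NumberField.dedekindZeta`;
* `(s - 1) * zetaR K s → dedekindZeta_residue K > 0` as `s → 1⁺`.
-/

set_option autoImplicit false
set_option linter.unusedSectionVars false
set_option linter.unusedVariables false

open NumberField Ideal Filter Topology
open scoped nonZeroDivisors Classical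

namespace Fermat.Agent.S14.helper40

variable (K : Type*) [Field K] [NumberField K]

/-- The number of integral ideals of norm `n`. -/
noncomputable def idealCount (n : ℕ) : ℕ := Nat.card {I : Ideal (𝓞 K) // absNorm I = n}

/-- The Dedekind zeta function as a sum over the nonzero ideals, for a real variable. -/
noncomputable def zetaR (s : ℝ) : ℝ :=
  ∑' I : (Ideal (𝓞 K))⁰, (absNorm (I : Ideal (𝓞 K)) : ℝ) ^ (-s)

theorem dedekindZeta_eq_LSeries (s : ℂ) :
    dedekindZeta K s = LSeries (fun n => (idealCount K n : ℂ)) s := rfl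

theorem tendsto_sum_idealCount_div :
    Tendsto (fun n : ℕ => (∑ k ∈ Finset.Icc 1 n, (idealCount K k : ℝ)) / (n : ℝ)) atTop
      (𝓝 (dedekindZeta_residue K)) := by
  refine ((Ideal.tendsto_norm_le_div_atTop₀ K).comp tendsto_natCast_atTop_atTop).congr fun n ↦ ?_
  simp only [Function.comp_apply, Nat.cast_le, ← Nat.cast_sum, idealCount]
  congr
  rw [← add_left_inj 1, ← card_norm_le_eq_card_norm_le_add_one,
    show Finset.Icc 1 n = Finset.Ioc 0 n from Finset.Icc_succ_left_eq_Ioc _ _,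
    show 1 = Nat.card {I : Ideal (𝓞 K) // absNorm I = 0} by simp [Ideal.absNorm_eq_zero_iff],
    Finset.sum_Ioc_add_eq_sum_Icc (n.zero_le),
    ← Finset.card_preimage_eq_sum_card_image_eq (fun k _ ↦ finite_setOfPred_absNorm_eq k)]
  simp [Set.coe_eq_subtype]

theorem lseriesSummable_idealCount {s : ℂ} (hs : 1 < s.re) :
    LSeriesSummable (fun n => (idealCount K n : ℂ)) s := by
  have h := LSeriesSummable_of_sum_norm_bigO_and_nonneg (f := fun n => (idealCount K n : ℝ))
    (r := 1) (s := s) ?_ (fun _ => Nat.cast_nonneg _) zero_le_one hs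
  · simpa using h
  · exact Asymptotics.isBigO_atTop_natCast_rpow_of_tendsto_div_rpow
      (by simpa using tendsto_sum_idealCount_div K)

/-- The `n`-th term of the Dirichlet series, for a real variable. -/
theorem term_idealCount_ofReal (s : ℝ) (hs : s ≠ 0) (n : ℕ) :
    LSeries.term (fun n => (idealCount K n : ℂ)) (s : ℂ) n =
      (((idealCount K n : ℝ) * (n : ℝ) ^ (-s) : ℝ) : ℂ) := by
  rcases Nat.eq_zero_or_pos n with rfl | hn
  · simp [LSeries.term_zero, Real.zero_rpow (neg_ne_zero.mpr hs)]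
  · rw [LSeries.term_of_ne_zero hn.ne', Complex.ofReal_mul, Real.rpow_neg (Nat.cast_nonneg n),
      Complex.ofReal_inv, Complex.ofReal_cpow (Nat.cast_nonneg n), div_eq_mul_inv]
    simp

theorem summable_idealCount_mul_rpow {s : ℝ} (hs : 1 < s) :
    Summable fun n : ℕ => (idealCount K n : ℝ) * (n : ℝ) ^ (-s) := by
  have h := lseriesSummable_idealCount K (s := (s : ℂ)) (by simpa using hs)
  unfold LSeriesSummable at h
  have h2 : Summable fun n : ℕ => (((idealCount K n : ℝ) * (n : ℝ) ^ (-s) : ℝ) : ℂ) :=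
    h.congr fun n => term_idealCount_ofReal K s (by linarith) n
  exact Complex.summable_ofReal.mp h2

/-- The fibre of the norm over `n`, inside the nonzero ideals. -/
abbrev normFibre (n : ℕ) : Type _ :=
  {I : (Ideal (𝓞 K))⁰ // absNorm (I : Ideal (𝓞 K)) = n}

instance finite_normFibre (n : ℕ) : Finite (normFibre K n) := by
  have h : Finite {I : Ideal (𝓞 K) // absNorm I = n} := finite_setOfPred_absNorm_eq n
  exact Finite.of_injective (fun I : normFibre K n => (⟨(I.1 : Ideal (𝓞 K)), I.2⟩ :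
    {I : Ideal (𝓞 K) // absNorm I = n})) fun I J h => by
      apply Subtype.ext
      apply Subtype.ext
      exact congrArg (fun x : {I : Ideal (𝓞 K) // absNorm I = n} => (x : Ideal (𝓞 K))) h

theorem card_normFibre {n : ℕ} (hn : n ≠ 0) : Nat.card (normFibre K n) = idealCount K n := by
  refine Nat.card_congr ⟨fun I => ⟨(I.1 : Ideal (𝓞 K)), I.2⟩, fun I => ⟨⟨I.1, ?_⟩, I.2⟩, ?_, ?_⟩
  · refine mem_nonZeroDivisors_of_ne_zero ?_
    intro h
    have := I.2
    rw [h] at this
    simp at this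
    exact hn this.symm
  · intro I; rfl
  · intro I; rfl

theorem card_normFibre_mul_rpow (s : ℝ) (hs : s ≠ 0) (n : ℕ) :
    (Nat.card (normFibre K n) : ℝ) * (n : ℝ) ^ (-s) = (idealCount K n : ℝ) * (n : ℝ) ^ (-s) := by
  rcases Nat.eq_zero_or_pos n with rfl | hn
  · simp [Real.zero_rpow (neg_ne_zero.mpr hs)]
  · rw [card_normFibre K hn.ne']

theorem summable_sigma_absNorm {s : ℝ} (hs : 1 < s) :
    Summable fun x : (Σ n : ℕ, normFibre K n) =>
      (absNorm ((x.2.1 : (Ideal (𝓞 K))⁰) : Ideal (𝓞 K)) : ℝ) ^ (-s) := by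
  rw [summable_sigma_of_nonneg (fun _ => by positivity)]
  refine ⟨fun n => Summable.of_finite, ?_⟩
  refine (summable_idealCount_mul_rpow K hs).congr fun n => ?_
  rw [← card_normFibre_mul_rpow K s (by linarith) n]
  have : (fun y : normFibre K n => (absNorm ((y.1 : (Ideal (𝓞 K))⁰) : Ideal (𝓞 K)) : ℝ) ^ (-s))
      = fun _ => (n : ℝ) ^ (-s) := by
    funext y
    rw [y.2]
  show _ = ∑' y : normFibre K n, (absNorm ((y.1 : (Ideal (𝓞 K))⁰) : Ideal (𝓞 K)) : ℝ) ^ (-s)
  rw [this, tsum_const, nsmul_eq_mul]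

theorem summable_absNorm_rpow {s : ℝ} (hs : 1 < s) :
    Summable fun I : (Ideal (𝓞 K))⁰ => (absNorm (I : Ideal (𝓞 K)) : ℝ) ^ (-s) := by
  have h := summable_sigma_absNorm K hs
  exact ((Equiv.sigmaFiberEquiv (fun I : (Ideal (𝓞 K))⁰ =>
    absNorm (I : Ideal (𝓞 K)))).summable_iff (f := fun I : (Ideal (𝓞 K))⁰ =>
    (absNorm (I : Ideal (𝓞 K)) : ℝ) ^ (-s))).mp h

theorem zetaR_eq_tsum_nat {s : ℝ} (hs : 1 < s) :
    zetaR K s = ∑' n : ℕ, (idealCount K n : ℝ) * (n : ℝ) ^ (-s) := by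
  have key : ∑' x : (Σ n : ℕ, normFibre K n),
      (absNorm ((x.2.1 : (Ideal (𝓞 K))⁰) : Ideal (𝓞 K)) : ℝ) ^ (-s) =
      ∑' I : (Ideal (𝓞 K))⁰, (absNorm (I : Ideal (𝓞 K)) : ℝ) ^ (-s) :=
    (Equiv.sigmaFiberEquiv (fun I : (Ideal (𝓞 K))⁰ => absNorm (I : Ideal (𝓞 K)))).tsum_eq
      (fun I : (Ideal (𝓞 K))⁰ => (absNorm (I : Ideal (𝓞 K)) : ℝ) ^ (-s))
  unfold zetaR
  rw [← key, (summable_sigma_absNorm K hs).tsum_sigma' (fun n => Summable.of_finite)]
  refine tsum_congr fun n => ?_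
  rw [← card_normFibre_mul_rpow K s (by linarith) n]
  have : (fun y : normFibre K n =>
      (absNorm ((y.1 : (Ideal (𝓞 K))⁰) : Ideal (𝓞 K)) : ℝ) ^ (-s))
      = fun _ => (n : ℝ) ^ (-s) := by
    funext y
    rw [y.2]
  show ∑' y : normFibre K n, (absNorm ((y.1 : (Ideal (𝓞 K))⁰) : Ideal (𝓞 K)) : ℝ) ^ (-s) = _
  rw [this, tsum_const, nsmul_eq_mul]

theorem dedekindZeta_ofReal {s : ℝ} (hs : 1 < s) :
    dedekindZeta K (s : ℂ) = ((zetaR K s : ℝ) : ℂ) := by
  rw [dedekindZeta_eq_LSeries, LSeries, zetaR_eq_tsum_nat K hs, Complex.ofReal_tsum]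
  exact tsum_congr fun n => term_idealCount_ofReal K s (by linarith) n

theorem zetaR_pos {s : ℝ} (hs : 1 < s) : 0 < zetaR K s := by
  have hsum := summable_absNorm_rpow K hs
  have h1 : (absNorm (((1 : (Ideal (𝓞 K))⁰)) : Ideal (𝓞 K)) : ℝ) ^ (-s) = 1 := by
    simp
  have := hsum.le_tsum (1 : (Ideal (𝓞 K))⁰) (fun _ _ => by positivity)
  rw [h1] at this
  exact lt_of_lt_of_le one_pos this

/-- The class number formula, for the real-variable zeta function. -/
theorem tendsto_sub_one_mul_zetaR :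
    Tendsto (fun s : ℝ => (s - 1) * zetaR K s) (𝓝[>] 1) (𝓝 (dedekindZeta_residue K)) := by
  have h := tendsto_sub_one_mul_dedekindZeta_nhdsGT K
  have h2 : Tendsto (fun s : ℝ => (((s - 1) * zetaR K s : ℝ) : ℂ)) (𝓝[>] 1)
      (𝓝 ((dedekindZeta_residue K : ℝ) : ℂ)) := by
    refine h.congr' ?_
    filter_upwards [self_mem_nhdsWithin] with s hs
    rw [dedekindZeta_ofReal K hs]
    push_cast
    ring
  exact (Complex.continuous_re.tendsto _).comp h2 |>.congr (fun s => by simp)

/-- Lower bound near `1`. -/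
theorem eventually_le_zetaR :
    ∃ c : ℝ, 0 < c ∧ ∀ᶠ s in 𝓝[>] (1 : ℝ), c / (s - 1) ≤ zetaR K s := by
  have hpos := dedekindZeta_residue_pos K
  refine ⟨dedekindZeta_residue K / 2, by positivity, ?_⟩
  have h := (tendsto_sub_one_mul_zetaR K).eventually
    (eventually_ge_nhds (half_lt_self hpos))
  filter_upwards [h, self_mem_nhdsWithin] with s hs hs1
  have hs1' : 0 < s - 1 := sub_pos.mpr hs1
  rw [div_le_iff₀ hs1']
  linarith [mul_comm (zetaR K s) (s - 1)]

/-- Upper bound near `1`. -/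
theorem eventually_zetaR_le :
    ∃ C : ℝ, 0 < C ∧ ∀ᶠ s in 𝓝[>] (1 : ℝ), zetaR K s ≤ C / (s - 1) := by
  have hpos := dedekindZeta_residue_pos K
  refine ⟨dedekindZeta_residue K * 2, by positivity, ?_⟩
  have h := (tendsto_sub_one_mul_zetaR K).eventually
    (eventually_le_nhds (show dedekindZeta_residue K < dedekindZeta_residue K * 2 by linarith))
  filter_upwards [h, self_mem_nhdsWithin] with s hs hs1
  have hs1' : 0 < s - 1 := sub_pos.mpr hs1
  rw [le_div_iff₀ hs1']
  linarith [mul_comm (zetaR K s) (s - 1)]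

end Fermat.Agent.S14.helper40
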