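import Mathlib
import Fermat.Agent.S14.helper40_EulerIdeal
import Fermat.Agent.S14.helper40_ZetaBridge

/-!
# S14 (helper40): sums over primes of a number field

* `pterm K s P = N(P)^(-s)`, `primeSum K s = ∑' P, N(P)^(-s)`;
* `primeSum K s ≤ log (zetaR K s) ≤ primeSum K s + 2 * primeSum K 2` for `1 < s`;
* general comparison lemmas between the Euler product of a completely multiplicative function
  and exponentials of sums over primes.
-/

set_option autoImplicit false
set_option linter.unusedSectionVars false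
set_option linter.unusedVariables false

open NumberField Ideal Filter Topology IsDedekindDomain
open scoped nonZeroDivisors Classical

namespace Fermat.Agent.S14.helper40

section general

variable {R : Type*} [CommRing R] [IsDedekindDomain R]

theorem primeNZD_injective : Function.Injective (primeNZD (R := R)) := by
  intro P Q h
  exact HeightOneSpectrum.ext (congrArg (fun I : (Ideal R)⁰ => (I : Ideal R)) h)

/-- Upper bound for the inverse of the norm of an Euler product. -/
theorem inv_norm_tsum_le_exp {F : (Ideal R)⁰ → ℂ} (hone : F 1 = 1)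
    (hmul : ∀ I J, F (I * J) = F I * F J) (hsum : Summable fun I => ‖F I‖)
    (a : HeightOneSpectrum R → ℝ) (ha : Summable a)
    (h : ∀ P, ‖1 - F (primeNZD P)‖ ≤ Real.exp (a P)) :
    ‖∑' I, F I‖⁻¹ ≤ Real.exp (∑' P, a P) := by
  have h1 := tendsto_prod_norm_one_sub hone hmul hsum
  have h2 : Tendsto (fun t : Finset (HeightOneSpectrum R) => Real.exp (∑ P ∈ t, a P)) atTop
      (𝓝 (Real.exp (∑' P, a P))) :=
    (Real.continuous_exp.tendsto _).comp ha.hasSum
  refine le_of_tendsto_of_tendsto' h1 h2 fun t => ?_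
  rw [Real.exp_sum]
  exact Finset.prod_le_prod (fun P _ => norm_nonneg _) fun P _ => h P

/-- Lower bound for the inverse of the norm of an Euler product. -/
theorem exp_le_inv_norm_tsum {F : (Ideal R)⁰ → ℂ} (hone : F 1 = 1)
    (hmul : ∀ I J, F (I * J) = F I * F J) (hsum : Summable fun I => ‖F I‖)
    (a : HeightOneSpectrum R → ℝ) (ha : Summable a)
    (h : ∀ P, Real.exp (a P) ≤ ‖1 - F (primeNZD P)‖) :
    Real.exp (∑' P, a P) ≤ ‖∑' I, F I‖⁻¹ := by
  have h1 := tendsto_prod_norm_one_sub hone hmul hsum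
  have h2 : Tendsto (fun t : Finset (HeightOneSpectrum R) => Real.exp (∑ P ∈ t, a P)) atTop
      (𝓝 (Real.exp (∑' P, a P))) :=
    (Real.continuous_exp.tendsto _).comp ha.hasSum
  refine le_of_tendsto_of_tendsto' h2 h1 fun t => ?_
  rw [Real.exp_sum]
  exact Finset.prod_le_prod (fun P _ => (Real.exp_pos _).le) fun P _ => h P

end general

section elementary

/-- `1 - x ≥ exp (-(x + 2 x²))` for `0 ≤ x ≤ 1/2`. -/
theorem exp_neg_le_one_sub {x : ℝ} (h0 : 0 ≤ x) (h1 : x ≤ 1 / 2) :
    Real.exp (-(x + 2 * x ^ 2)) ≤ 1 - x := by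
  have h2 : (x + 2 * x ^ 2) + 1 ≤ Real.exp (x + 2 * x ^ 2) := Real.add_one_le_exp _
  have h3 : 1 ≤ (1 - x) * Real.exp (x + 2 * x ^ 2) := by
    have h4 : 1 ≤ (1 - x) * ((x + 2 * x ^ 2) + 1) := by nlinarith [sq_nonneg x]
    exact h4.trans (mul_le_mul_of_nonneg_left h2 (by linarith))
  rw [Real.exp_neg, inv_le_iff_one_le_mul₀ (Real.exp_pos _)]
  exact h3

end elementary

section numberField

variable (K : Type*) [Field K] [NumberField K]

/-- The term `N(P)^(-s)`. -/
noncomputable def pterm (s : ℝ) (P : HeightOneSpectrum (𝓞 K)) : ℝ :=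
  (absNorm P.asIdeal : ℝ) ^ (-s)

/-- The sum over all primes of `N(P)^(-s)`. -/
noncomputable def primeSum (s : ℝ) : ℝ := ∑' P : HeightOneSpectrum (𝓞 K), pterm K s P

theorem two_le_absNorm (P : HeightOneSpectrum (𝓞 K)) : 2 ≤ absNorm P.asIdeal := by
  have h0 : absNorm P.asIdeal ≠ 0 := by
    rw [Ne, Ideal.absNorm_eq_zero_iff]
    exact P.ne_bot
  have h1 : absNorm P.asIdeal ≠ 1 := by
    rw [Ne, Ideal.absNorm_eq_one_iff]
    exact P.isPrime.ne_top
  omega

theorem pterm_pos (s : ℝ) (P : HeightOneSpectrum (𝓞 K)) : 0 < pterm K s P := by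
  unfold pterm
  have := two_le_absNorm K P
  positivity

theorem pterm_le_pterm {s s' : ℝ} (h : s ≤ s') (P : HeightOneSpectrum (𝓞 K)) :
    pterm K s' P ≤ pterm K s P := by
  unfold pterm
  have h2 : (1 : ℝ) ≤ (absNorm P.asIdeal : ℝ) := by
    have := two_le_absNorm K P
    exact_mod_cast (by omega : 1 ≤ absNorm P.asIdeal)
  exact Real.rpow_le_rpow_of_exponent_le h2 (by linarith)

theorem pterm_le_half {s : ℝ} (hs : 1 ≤ s) (P : HeightOneSpectrum (𝓞 K)) :
    pterm K s P ≤ 1 / 2 := by
  refine (pterm_le_pterm K hs P).trans ?_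
  unfold pterm
  have h2 : (2 : ℝ) ≤ (absNorm P.asIdeal : ℝ) := by exact_mod_cast two_le_absNorm K P
  rw [Real.rpow_neg_one, one_div]
  exact inv_anti₀ (by norm_num) h2

theorem pterm_sq (s : ℝ) (P : HeightOneSpectrum (𝓞 K)) :
    pterm K s P ^ 2 = pterm K (2 * s) P := by
  unfold pterm
  rw [← Real.rpow_natCast, ← Real.rpow_mul (Nat.cast_nonneg _)]
  congr 1
  push_cast
  ring

theorem summable_pterm {s : ℝ} (hs : 1 < s) : Summable (pterm K s) := by
  have h : Summable ((fun I : (Ideal (𝓞 K))⁰ => (absNorm (I : Ideal (𝓞 K)) : ℝ) ^ (-s)) ∘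
      (primeNZD (R := 𝓞 K))) :=
    (summable_absNorm_rpow K hs).comp_injective (primeNZD_injective (R := 𝓞 K))
  refine h.congr fun P => ?_
  simp only [Function.comp_apply, coe_primeNZD, pterm]

/-- The completely multiplicative function `I ↦ N(I)^(-s)`. -/
noncomputable def normFun (s : ℝ) (I : (Ideal (𝓞 K))⁰) : ℂ :=
  (((absNorm (I : Ideal (𝓞 K)) : ℝ) ^ (-s) : ℝ) : ℂ)

theorem normFun_one (s : ℝ) : normFun K s 1 = 1 := by
  simp [normFun]

theorem normFun_mul (s : ℝ) (I J : (Ideal (𝓞 K))⁰) :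
    normFun K s (I * J) = normFun K s I * normFun K s J := by
  unfold normFun
  rw [Submonoid.coe_mul, map_mul, Nat.cast_mul, Real.mul_rpow (Nat.cast_nonneg _)
    (Nat.cast_nonneg _), Complex.ofReal_mul]

theorem norm_normFun (s : ℝ) (I : (Ideal (𝓞 K))⁰) :
    ‖normFun K s I‖ = (absNorm (I : Ideal (𝓞 K)) : ℝ) ^ (-s) := by
  unfold normFun
  rw [Complex.norm_real, Real.norm_of_nonneg (by positivity)]

theorem summable_norm_normFun {s : ℝ} (hs : 1 < s) : Summable fun I => ‖normFun K s I‖ :=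
  (summable_absNorm_rpow K hs).congr fun I => (norm_normFun K s I).symm

theorem tsum_normFun (s : ℝ) : ∑' I, normFun K s I = ((zetaR K s : ℝ) : ℂ) := by
  unfold normFun zetaR
  rw [Complex.ofReal_tsum]

theorem norm_one_sub_normFun {s : ℝ} (hs : 1 ≤ s) (P : HeightOneSpectrum (𝓞 K)) :
    ‖1 - normFun K s (primeNZD P)‖ = 1 - pterm K s P := by
  have h : (1 : ℂ) - normFun K s (primeNZD P) = ((1 - pterm K s P : ℝ) : ℂ) := by
    unfold normFun pterm
    push_cast
    rfl
  rw [h, Complex.norm_real, Real.norm_of_nonneg]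
  linarith [pterm_le_half K hs P]

/-- `∑_P N(P)^(-s) ≤ log ζ_K(s)`. -/
theorem primeSum_le_log_zetaR {s : ℝ} (hs : 1 < s) : primeSum K s ≤ Real.log (zetaR K s) := by
  have hz := zetaR_pos K hs
  have h := inv_norm_tsum_le_exp (normFun_one K s) (normFun_mul K s)
    (summable_norm_normFun K hs) (fun P => -pterm K s P) (summable_pterm K hs).neg
    (fun P => by
      rw [norm_one_sub_normFun K hs.le P]
      exact Real.one_sub_le_exp_neg _)
  rw [tsum_normFun, Complex.norm_real, Real.norm_of_nonneg hz.le, tsum_neg] at h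
  have h2 : Real.exp (primeSum K s) ≤ zetaR K s := by
    have h3 := inv_anti₀ (inv_pos.mpr hz) h
    rw [inv_inv, ← Real.exp_neg, neg_neg] at h3
    exact h3
  calc primeSum K s = Real.log (Real.exp (primeSum K s)) := (Real.log_exp _).symm
    _ ≤ Real.log (zetaR K s) := Real.log_le_log (Real.exp_pos _) h2

/-- `log ζ_K(s) ≤ ∑_P N(P)^(-s) + 2 ∑_P N(P)^(-2)`. -/
theorem log_zetaR_le {s : ℝ} (hs : 1 < s) :
    Real.log (zetaR K s) ≤ primeSum K s + 2 * primeSum K 2 := by
  have hz := zetaR_pos K hs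
  have hsum2 : Summable fun P => pterm K s P ^ 2 := by
    refine ((summable_pterm K (show (1 : ℝ) < 2 * s by linarith)).congr fun P => ?_)
    exact (pterm_sq K s P).symm
  have hsumA : Summable fun P => -(pterm K s P + 2 * pterm K s P ^ 2) :=
    ((summable_pterm K hs).add (hsum2.mul_left 2)).neg
  have h := exp_le_inv_norm_tsum (normFun_one K s) (normFun_mul K s)
    (summable_norm_normFun K hs) (fun P => -(pterm K s P + 2 * pterm K s P ^ 2)) hsumA
    (fun P => by
      rw [norm_one_sub_normFun K hs.le P]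
      exact exp_neg_le_one_sub (pterm_pos K s P).le (pterm_le_half K hs.le P))
  rw [tsum_normFun, Complex.norm_real, Real.norm_of_nonneg hz.le, tsum_neg,
    (summable_pterm K hs).tsum_add (hsum2.mul_left 2), tsum_mul_left] at h
  have hle : ∑' P, pterm K s P ^ 2 ≤ primeSum K 2 := by
    refine Summable.tsum_le_tsum (fun P => ?_) hsum2 (summable_pterm K (by norm_num))
    rw [pterm_sq]
    exact pterm_le_pterm K (by linarith) P
  have h2 : zetaR K s ≤ Real.exp (primeSum K s + 2 * ∑' P, pterm K s P ^ 2) := by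
    have h3 := inv_anti₀ (Real.exp_pos _) h
    rw [inv_inv, ← Real.exp_neg, neg_neg] at h3
    exact h3
  calc Real.log (zetaR K s) ≤ Real.log (Real.exp (primeSum K s + 2 * ∑' P, pterm K s P ^ 2)) :=
        Real.log_le_log hz h2
    _ = primeSum K s + 2 * ∑' P, pterm K s P ^ 2 := Real.log_exp _
    _ ≤ primeSum K s + 2 * primeSum K 2 := by
        have := mul_le_mul_of_nonneg_left hle (by norm_num : (0 : ℝ) ≤ 2)
        linarith

end numberField

end Fermat.Agent.S14.helper40
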