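import Mathlib
import Fermat.Agent.S14.helper40_PrimeSums

/-!
# S14 (helper40): primes of degree at least two are negligible

For a number field `K`, the sum of `N(P)^(-s)` over the primes `P` whose norm is not a prime
number is bounded, uniformly in `s ≥ 1`.
-/

set_option autoImplicit false
set_option linter.unusedSectionVars false
set_option linter.unusedVariables false

open NumberField Ideal Filter Topology IsDedekindDomain
open scoped nonZeroDivisors Classical

namespace Fermat.Agent.S14.helper40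

variable (K : Type*) [Field K] [NumberField K]

/-- The rational prime below a prime of `𝓞 K`. -/
noncomputable def ratPrime (P : HeightOneSpectrum (𝓞 K)) : ℕ :=
  absNorm (under ℤ P.asIdeal)

theorem ratPrime_prime (P : HeightOneSpectrum (𝓞 K)) : (ratPrime K P).Prime := by
  haveI : P.asIdeal.IsPrime := P.isPrime
  haveI : NeZero P.asIdeal := ⟨P.ne_bot⟩
  exact Nat.absNorm_under_prime P.asIdeal

theorem ratPrime_mem (P : HeightOneSpectrum (𝓞 K)) :
    ((ratPrime K P : ℕ) : 𝓞 K) ∈ P.asIdeal :=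
  Int.absNorm_under_mem P.asIdeal

theorem dvd_span_ratPrime (P : HeightOneSpectrum (𝓞 K)) :
    P.asIdeal ∣ span {((ratPrime K P : ℕ) : 𝓞 K)} :=
  Ideal.dvd_span_singleton.mpr (ratPrime_mem K P)

theorem absNorm_dvd_pow (P : HeightOneSpectrum (𝓞 K)) :
    absNorm P.asIdeal ∣ ratPrime K P ^ Module.finrank ℚ K := by
  have h := map_dvd (absNorm (S := 𝓞 K)) (dvd_span_ratPrime K P)
  rwa [Ideal.absNorm_span_natCast, RingOfIntegers.rank] at h

theorem exists_absNorm_eq_pow (P : HeightOneSpectrum (𝓞 K)) :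
    ∃ j : ℕ, 1 ≤ j ∧ absNorm P.asIdeal = ratPrime K P ^ j := by
  obtain ⟨j, -, hj⟩ := (Nat.dvd_prime_pow (ratPrime_prime K P)).mp (absNorm_dvd_pow K P)
  refine ⟨j, ?_, hj⟩
  rcases Nat.eq_zero_or_pos j with rfl | h
  · have := two_le_absNorm K P
    rw [hj, pow_zero] at this
    omega
  · exact h

theorem ratPrime_le_absNorm (P : HeightOneSpectrum (𝓞 K)) :
    ratPrime K P ≤ absNorm P.asIdeal := by
  obtain ⟨j, hj1, hj⟩ := exists_absNorm_eq_pow K P
  rw [hj]
  exact Nat.le_self_pow (by omega) _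

theorem ratPrime_sq_le_absNorm (P : HeightOneSpectrum (𝓞 K))
    (hP : ¬ (absNorm P.asIdeal).Prime) : ratPrime K P ^ 2 ≤ absNorm P.asIdeal := by
  obtain ⟨j, hj1, hj⟩ := exists_absNorm_eq_pow K P
  have hj2 : 2 ≤ j := by
    by_contra h
    have : j = 1 := by omega
    rw [this, pow_one] at hj
    exact hP (hj ▸ ratPrime_prime K P)
  rw [hj]
  exact Nat.pow_le_pow_right (ratPrime_prime K P).pos hj2

/-- At most `[K : ℚ]` primes lie over a given rational prime. -/
theorem card_le_of_ratPrime_eq (t : Finset (HeightOneSpectrum (𝓞 K))) (ℓ : ℕ)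
    (h : ∀ P ∈ t, ratPrime K P = ℓ) : t.card ≤ Module.finrank ℚ K := by
  rcases t.eq_empty_or_nonempty with rfl | ⟨P₀, hP₀⟩
  · simp
  have hℓ : ℓ.Prime := h P₀ hP₀ ▸ ratPrime_prime K P₀
  -- the product of the primes of `t` divides `(ℓ)`
  have hinj : Set.InjOn (fun P : HeightOneSpectrum (𝓞 K) => P.asIdeal) t :=
    fun P _ Q _ hPQ => HeightOneSpectrum.ext hPQ
  have hdvd : ∏ P ∈ t, P.asIdeal ∣ span {((ℓ : ℕ) : 𝓞 K)} := by
    have := Finset.prod_primes_dvd (s := t.image fun P : HeightOneSpectrum (𝓞 K) => P.asIdeal)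
      (span {((ℓ : ℕ) : 𝓞 K)})
      (fun I hI => by
        obtain ⟨P, -, rfl⟩ := Finset.mem_image.mp hI
        exact Ideal.prime_of_isPrime P.ne_bot P.isPrime)
      (fun I hI => by
        obtain ⟨P, hP, rfl⟩ := Finset.mem_image.mp hI
        have := dvd_span_ratPrime K P
        rwa [h P hP] at this)
    rwa [Finset.prod_image hinj] at this
  have hnorm := map_dvd (absNorm (S := 𝓞 K)) hdvd
  rw [Ideal.absNorm_span_natCast, RingOfIntegers.rank, map_prod] at hnorm
  have hle : ℓ ^ t.card ≤ ∏ P ∈ t, absNorm P.asIdeal := by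
    rw [← Finset.prod_const]
    exact Finset.prod_le_prod' fun P hP => (h P hP) ▸ ratPrime_le_absNorm K P
  have h2 : ℓ ^ t.card ≤ ℓ ^ Module.finrank ℚ K :=
    hle.trans (Nat.le_of_dvd (pow_pos hℓ.pos _) hnorm)
  exact (Nat.pow_le_pow_iff_right hℓ.one_lt).mp h2

/-- The constant bounding the contribution of the primes of degree `≥ 2`. -/
noncomputable def degTwoBound : ℝ :=
  (Module.finrank ℚ K : ℝ) * ∑' m : ℕ, ((m : ℝ) ^ (-2 : ℝ))

theorem sum_pterm_le_degTwoBound {s : ℝ} (hs : 1 ≤ s) (t : Finset (HeightOneSpectrum (𝓞 K)))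
    (ht : ∀ P ∈ t, ¬ (absNorm P.asIdeal).Prime) :
    ∑ P ∈ t, pterm K s P ≤ degTwoBound K := by
  have hsum : Summable fun m : ℕ => ((m : ℝ) ^ (-2 : ℝ)) :=
    Real.summable_nat_rpow.mpr (by norm_num)
  -- termwise bound
  have h1 : ∀ P ∈ t, pterm K s P ≤ ((ratPrime K P : ℕ) : ℝ) ^ (-2 : ℝ) := by
    intro P hP
    refine (pterm_le_pterm K hs P).trans ?_
    unfold pterm
    have hq : (0 : ℝ) < (ratPrime K P : ℝ) := by exact_mod_cast (ratPrime_prime K P).pos
    have h2 : ((ratPrime K P : ℕ) : ℝ) ^ (2 : ℝ) ≤ (absNorm P.asIdeal : ℝ) := by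
      have := ratPrime_sq_le_absNorm K P (ht P hP)
      rw [Real.rpow_two]
      exact_mod_cast this
    rw [Real.rpow_neg hq.le, Real.rpow_neg_one]
    exact inv_anti₀ (by positivity) h2
  refine (Finset.sum_le_sum h1).trans ?_
  -- group by the rational prime
  rw [← Finset.sum_fiberwise_of_maps_to (g := ratPrime K) (t := t.image (ratPrime K))
    (fun P hP => Finset.mem_image_of_mem _ hP)]
  have h3 : ∀ ℓ ∈ t.image (ratPrime K),
      ∑ P ∈ t with ratPrime K P = ℓ, ((ratPrime K P : ℕ) : ℝ) ^ (-2 : ℝ) ≤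
        (Module.finrank ℚ K : ℝ) * ((ℓ : ℝ) ^ (-2 : ℝ)) := by
    intro ℓ _
    have h4 : ∑ P ∈ t with ratPrime K P = ℓ, ((ratPrime K P : ℕ) : ℝ) ^ (-2 : ℝ) =
        ∑ P ∈ t with ratPrime K P = ℓ, ((ℓ : ℝ) ^ (-2 : ℝ)) :=
      Finset.sum_congr rfl fun P hP => by rw [(Finset.mem_filter.mp hP).2]
    rw [h4, Finset.sum_const, nsmul_eq_mul]
    refine mul_le_mul_of_nonneg_right ?_ (by positivity)
    exact_mod_cast card_le_of_ratPrime_eq K _ ℓ fun P hP => (Finset.mem_filter.mp hP).2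
  refine (Finset.sum_le_sum h3).trans ?_
  rw [← Finset.mul_sum]
  unfold degTwoBound
  refine mul_le_mul_of_nonneg_left ?_ (by positivity)
  exact hsum.sum_le_tsum _ fun m _ => by positivity

theorem degTwoBound_nonneg : 0 ≤ degTwoBound K := by
  unfold degTwoBound
  exact mul_nonneg (by positivity) (tsum_nonneg fun m => by positivity)

end Fermat.Agent.S14.helper40
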