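import Mathlib
import Fermat.Agent.S54.helper91_Frobenius

/-!
# S14 bridge (5b): valuation subrings of `ℚ̄` versus primes of subfields (helper91)

Let `L` be a subfield of `ℚ̄ = AlgebraicClosure ℚ` (any field with an algebra map to `ℚ̄`
compatible with the `ℚ`-structure), normal over `ℚ`, and let `A` be a valuation subring of `ℚ̄`
lying over a prime number `ℓ`.  The prime `primeOf L A = 𝔪_A ∩ 𝓞 L` of the ring of integers of
`L` satisfies:

* `map_decompositionSubgroup_eq` : restriction `Gal(ℚ̄/ℚ) → Gal(L/ℚ)` maps the decomposition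
  group of `A` **onto** the stabiliser of `primeOf L A`;
* `map_inertiaSubgroupIn_eq` : restriction maps the inertia group of `A` **onto** the inertia
  group `Ideal.inertia Gal(L/ℚ) (primeOf L A)`;
* `exists_primeOf_eq` : every maximal ideal of `𝓞 L` is of the form `primeOf L A`.

No finiteness of `L/ℚ` is needed.
-/

set_option autoImplicit false

open scoped Pointwise NumberField

namespace Fermat.Agent.S14.helper91

open Fermat.Agent.S54.helper91

attribute [local instance] zbarAction zbarTopology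

/-! ### Decomposition and inertia groups in terms of the prime of `Zbar` -/

section Dec

variable (A : ValuationSubring Qbar)

theorem apply_mem_iff_of_mem_dec {σ : GQ} (hσ : σ ∈ A.decompositionSubgroup ℚ) (x : Qbar) :
    σ x ∈ A ↔ x ∈ A := by
  have h1 : σ⁻¹ • A = A := (A.decompositionSubgroup ℚ).inv_mem hσ
  constructor
  · intro hx
    have : σ x ∈ σ • A := by rw [MulAction.mem_stabilizer_iff.mp hσ]; exact hx
    rw [ValuationSubring.mem_pointwise_smul_iff_inv_smul_mem] at this
    simpa using this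
  · intro hx
    have : x ∈ σ⁻¹ • A := by rw [h1]; exact hx
    rw [ValuationSubring.mem_pointwise_smul_iff_inv_smul_mem] at this
    simpa using this

theorem valuation_apply_lt_one_iff_of_mem_dec {σ : GQ} (hσ : σ ∈ A.decompositionSubgroup ℚ)
    (x : Qbar) : A.valuation (σ x) < 1 ↔ A.valuation x < 1 := by
  rcases eq_or_ne x 0 with rfl | hx
  · simp
  · have key : ∀ y : Qbar, y ≠ 0 → (A.valuation y < 1 ↔ y⁻¹ ∉ A) := by
      intro y hy
      rw [← A.valuation_le_one_iff, map_inv₀, not_le, one_lt_inv₀]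
      exact (Valuation.pos_iff _).mpr hy
    have hσx : σ x ≠ 0 := by simpa using hx
    rw [key _ hσx, key _ hx, ← map_inv₀, apply_mem_iff_of_mem_dec A hσ]

theorem smul_zbarPrime_of_mem_dec {σ : GQ} (hσ : σ ∈ A.decompositionSubgroup ℚ) :
    σ • zbarPrime A = zbarPrime A := by
  ext b
  rw [Ideal.mem_pointwise_smul_iff_inv_smul_mem, mem_zbarPrime_iff, mem_zbarPrime_iff]
  exact valuation_apply_lt_one_iff_of_mem_dec A ((A.decompositionSubgroup ℚ).inv_mem hσ) b

/-- The decomposition group of `A` is the stabiliser of the prime `𝔪_A ∩ Zbar`. -/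
theorem mem_dec_iff_smul_zbarPrime {ℓ : ℕ} (hℓ : ℓ.Prime) (hA : A.LiesOverPrime ℓ) (σ : GQ) :
    σ ∈ A.decompositionSubgroup ℚ ↔ σ • zbarPrime A = zbarPrime A :=
  ⟨smul_zbarPrime_of_mem_dec A, mem_decompositionSubgroup_of_stab A hℓ hA σ⟩

theorem mem_inertiaSubgroupIn_iff_valuation (σ : GQ) :
    σ ∈ A.inertiaSubgroupIn ℚ ↔
      σ ∈ A.decompositionSubgroup ℚ ∧ ∀ a ∈ A, A.valuation (σ a - a) < 1 := by
  unfold ValuationSubring.inertiaSubgroupIn
  rw [Subgroup.mem_map]
  constructor
  · rintro ⟨g, hg, rfl⟩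
    refine ⟨g.2, fun a ha => ?_⟩
    rw [ValuationSubring.inertiaSubgroup, MonoidHom.mem_ker] at hg
    have h1 := congrArg (fun f => f (IsLocalRing.residue A ⟨a, ha⟩)) hg
    simp only [MulSemiringAction.toRingAut_apply, RingAut.one_apply,
      MulSemiringAction.toRingEquiv_apply_apply] at h1
    rw [← IsLocalRing.ResidueField.residue_smul, ← sub_eq_zero, ← map_sub,
      IsLocalRing.residue_eq_zero_iff, A.valuation_lt_one_iff] at h1
    exact h1
  · rintro ⟨hσ, h⟩
    refine ⟨⟨σ, hσ⟩, ?_, rfl⟩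
    rw [ValuationSubring.inertiaSubgroup, MonoidHom.mem_ker]
    ext xbar
    obtain ⟨a, rfl⟩ := IsLocalRing.residue_surjective xbar
    simp only [MulSemiringAction.toRingAut_apply, RingAut.one_apply,
      MulSemiringAction.toRingEquiv_apply_apply]
    rw [← IsLocalRing.ResidueField.residue_smul, ← sub_eq_zero, ← map_sub,
      IsLocalRing.residue_eq_zero_iff, A.valuation_lt_one_iff]
    exact h a.1 a.2

/-- The inertia group of `A` consists of the automorphisms stabilising the prime
`Q = 𝔪_A ∩ Zbar` and acting trivially on `Zbar ⧸ Q`. -/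
theorem mem_inertiaSubgroupIn_iff_zbar {ℓ : ℕ} (hℓ : ℓ.Prime) (hA : A.LiesOverPrime ℓ)
    (σ : GQ) :
    σ ∈ A.inertiaSubgroupIn ℚ ↔
      σ • zbarPrime A = zbarPrime A ∧ ∀ b : Zbar, σ • b - b ∈ zbarPrime A := by
  rw [mem_inertiaSubgroupIn_iff_valuation]
  constructor
  · rintro ⟨hσ, h⟩
    refine ⟨smul_zbarPrime_of_mem_dec A hσ, fun b => ?_⟩
    rw [mem_zbarPrime_iff]
    exact h b (mem_valuationSubring_of_isIntegral A b.2)
  · rintro ⟨hσ, h⟩
    have hσD : σ ∈ A.decompositionSubgroup ℚ := mem_decompositionSubgroup_of_stab A hℓ hA σ hσ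
    refine ⟨hσD, fun a ha => ?_⟩
    obtain ⟨s, x, hs, hx, hs1, hsx⟩ :=
      exists_integral_fraction A hℓ hA ha (isAlgebraic_int_Qbar a)
    have hσs1 : A.valuation (σ s) = 1 := valuation_apply_eq_one_of_stab A σ hσ hs hs1
    have hFs : A.valuation (σ s - s) < 1 := by
      have := h ⟨s, hs⟩
      rw [mem_zbarPrime_iff] at this
      exact this
    have hFx : A.valuation (σ x - x) < 1 := by
      have := h ⟨x, hx⟩
      rw [mem_zbarPrime_iff] at this
      exact this
    have hale : A.valuation a ≤ 1 := (A.valuation_le_one_iff a).mpr ha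
    have key : (σ a - a) * σ s = (σ x - x) - a * (σ s - s) := by
      have e1 : σ x = σ s * σ a := by rw [← map_mul, hsx]
      rw [e1, ← hsx]; ring
    have hval : A.valuation ((σ a - a) * σ s) < 1 := by
      rw [key]
      refine Valuation.map_sub_lt _ hFx ?_
      rw [map_mul]
      calc A.valuation a * A.valuation (σ s - s)
          ≤ 1 * A.valuation (σ s - s) := by gcongr
        _ = A.valuation (σ s - s) := one_mul _
        _ < 1 := hFs
    rw [map_mul, hσs1, mul_one] at hval
    exact hval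

end Dec

/-! ### The profinite set-up for `Gal(ℚ̄/L)` acting on `Zbar` over `𝓞 L` -/

section Setup

variable (L : Type*) [Field L] [Algebra L Qbar]

/-- The absolute Galois group of `L ⊆ ℚ̄`. -/
abbrev GalOver := Qbar ≃ₐ[L] Qbar

/-- The inclusion of the integers of `L` in the ring of all algebraic integers. -/
noncomputable def toZbar : 𝓞 L →+* Zbar :=
  RingHom.codRestrict ((algebraMap L Qbar).comp (algebraMap (𝓞 L) L)) Zbar
    (fun x => (x.2 : IsIntegral ℤ (x : L)).map (Algebra.ofId L Qbar).toIntAlgHom)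

theorem toZbar_coe (x : 𝓞 L) : ((toZbar L x : Zbar) : Qbar) = algebraMap L Qbar (x : L) := rfl

theorem toZbar_injective : Function.Injective (toZbar L) := by
  intro x y h
  have h1 := congrArg (fun b : Zbar => (b : Qbar)) h
  simp only [toZbar_coe] at h1
  exact NumberField.RingOfIntegers.ext ((algebraMap L Qbar).injective h1)

/-- The action of `Gal(ℚ̄/L)` on the ring of algebraic integers. -/
@[reducible] noncomputable def zbarActionOver : MulSemiringAction (GalOver L) Zbar where
  smul σ b := ⟨σ b.1, map_isIntegral_int σ b.2⟩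
  one_smul _ := Subtype.ext rfl
  mul_smul _ _ _ := Subtype.ext rfl
  smul_zero σ := Subtype.ext (map_zero σ)
  smul_add σ b c := Subtype.ext (map_add σ b.1 c.1)
  smul_one σ := Subtype.ext (map_one σ)
  smul_mul σ b c := Subtype.ext (map_mul σ b.1 c.1)

/-- The algebra structure of `Zbar` over the integers of `L`. -/
@[reducible] noncomputable def zbarAlgebraOver : Algebra (𝓞 L) Zbar := (toZbar L).toAlgebra

attribute [local instance] zbarActionOver zbarAlgebraOver

theorem zbarOver_smul_coe (σ : GalOver L) (b : Zbar) :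
    ((σ • b : Zbar) : Qbar) = σ (b : Qbar) := rfl

theorem zbarOver_algebraMap (x : 𝓞 L) : algebraMap (𝓞 L) Zbar x = toZbar L x := rfl

theorem zbarOver_smulCommClass : SMulCommClass (GalOver L) (𝓞 L) Zbar := by
  refine ⟨fun σ x b => Subtype.ext ?_⟩
  rw [Algebra.smul_def, Algebra.smul_def]
  show σ (algebraMap L Qbar (x : L) * (b : Qbar)) = algebraMap L Qbar (x : L) * σ (b : Qbar)
  rw [map_mul, σ.commutes]

theorem zbarOver_isIntegral : Algebra.IsIntegral (𝓞 L) Zbar :=
  ⟨fun b => (Algebra.IsIntegral.isIntegral (R := ℤ) b).tower_top⟩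

variable [Algebra ℚ L] [IsScalarTower ℚ L Qbar]

theorem isAlgebraic_over : Algebra.IsAlgebraic L Qbar :=
  haveI := isAlgebraic_Qbar
  Algebra.IsAlgebraic.tower_top (K := ℚ) L

theorem isGalois_over : IsGalois L Qbar :=
  haveI := isGalois_Qbar
  IsGalois.tower_top_of_isGalois ℚ L Qbar

theorem compactSpace_over : CompactSpace (GalOver L) :=
  have := isGalois_over L
  inferInstance

theorem totallyDisconnectedSpace_over : TotallyDisconnectedSpace (GalOver L) :=
  have := isAlgebraic_over L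
  inferInstance

theorem zbarOver_isInvariant : Algebra.IsInvariant (𝓞 L) Zbar (GalOver L) := by
  have := isGalois_over L
  refine ⟨fun b hb => ?_⟩
  have hfix : (b : Qbar) ∈ IntermediateField.fixedField
      ((⊥ : IntermediateField L Qbar).fixingSubgroup) := by
    rintro ⟨g, -⟩
    exact congrArg Subtype.val (hb g)
  rw [InfiniteGalois.fixedField_fixingSubgroup, IntermediateField.mem_bot] at hfix
  obtain ⟨q, hq⟩ := hfix
  have hint : IsIntegral ℤ (algebraMap L Qbar q) := by rw [hq]; exact b.2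
  rw [isIntegral_algebraMap_iff (FaithfulSMul.algebraMap_injective L Qbar)] at hint
  exact ⟨⟨q, hint⟩, Subtype.ext hq⟩

theorem zbarOver_continuousSMul : ContinuousSMul (GalOver L) Zbar := by
  have := isAlgebraic_over L
  have := zbar_discrete
  rw [continuousSMul_iff_stabilizer_isOpen]
  intro b
  have h := stabilizer_isOpen_of_isIntegral (K := L) (L := Qbar) (b : Qbar)
  convert h using 1
  ext σ
  simp only [SetLike.mem_coe, MulAction.mem_stabilizer_iff]
  constructor
  · intro h1
    exact congrArg Subtype.val h1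
  · intro h1
    exact Subtype.ext h1

end Setup

/-! ### The dictionary -/

section Main

attribute [local instance] zbarActionOver zbarAlgebraOver

variable (L : Type*) [Field L] [Algebra ℚ L] [Algebra L Qbar] [IsScalarTower ℚ L Qbar]

/-- The prime of the integers of `L` cut out by a valuation subring of `ℚ̄`. -/
noncomputable def primeOf (A : ValuationSubring Qbar) : Ideal (𝓞 L) :=
  (zbarPrime A).comap (toZbar L)

instance primeOf_isPrime (A : ValuationSubring Qbar) : (primeOf L A).IsPrime :=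
  Ideal.comap_isPrime _ _

omit [Algebra ℚ L] [IsScalarTower ℚ L Qbar] in
theorem mem_primeOf_iff (A : ValuationSubring Qbar) (x : 𝓞 L) :
    x ∈ primeOf L A ↔ A.valuation (algebraMap L Qbar (x : L)) < 1 := by
  rw [primeOf, Ideal.mem_comap, mem_zbarPrime_iff, toZbar_coe]

omit [Algebra ℚ L] [IsScalarTower ℚ L Qbar] in
theorem natCast_mem_primeOf (A : ValuationSubring Qbar) {ℓ : ℕ} (hA : A.LiesOverPrime ℓ) :
    (ℓ : 𝓞 L) ∈ primeOf L A := by
  rw [mem_primeOf_iff]
  have := A.mem_nonunits_iff.mp hA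
  simpa using this

theorem restrictNormalHom_restrictScalars [Normal ℚ L] (h : GalOver L) :
    AlgEquiv.restrictNormalHom L (h.restrictScalars ℚ) = 1 := by
  ext x
  apply (algebraMap L Qbar).injective
  rw [AlgEquiv.restrictNormalHom]
  simp only [MonoidHom.mk'_apply]
  rw [AlgEquiv.restrictNormal_commutes]
  simp

theorem toZbar_smul [Normal ℚ L] (σ : GQ) (x : 𝓞 L) :
    toZbar L ((AlgEquiv.restrictNormalHom L σ) • x) = σ • toZbar L x := by
  apply Subtype.ext
  show algebraMap L Qbar ((AlgEquiv.restrictNormalHom L σ) (x : L)) =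
    σ (algebraMap L Qbar (x : L))
  exact AlgEquiv.restrictNormal_commutes σ L (x : L)

theorem comap_smul_zbar [Normal ℚ L] (σ : GQ) (Q : Ideal Zbar) :
    (σ • Q).comap (toZbar L) = (AlgEquiv.restrictNormalHom L σ) • (Q.comap (toZbar L)) := by
  ext x
  rw [Ideal.mem_comap, Ideal.mem_pointwise_smul_iff_inv_smul_mem,
    Ideal.mem_pointwise_smul_iff_inv_smul_mem, Ideal.mem_comap, ← map_inv, toZbar_smul]

theorem smul_restrictScalars (h : GalOver L) (Q : Ideal Zbar) :
    (h.restrictScalars ℚ : GQ) • Q = h • Q := by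
  ext x
  rw [Ideal.mem_pointwise_smul_iff_inv_smul_mem, Ideal.mem_pointwise_smul_iff_inv_smul_mem]
  rfl

omit [Algebra ℚ L] [IsScalarTower ℚ L Qbar] [Algebra L Qbar] in
theorem zbar_mul_smul_ideal (g h : GQ) (Q : Ideal Zbar) : (g * h) • Q = g • (h • Q) := by
  ext x
  rw [Ideal.mem_pointwise_smul_iff_inv_smul_mem, Ideal.mem_pointwise_smul_iff_inv_smul_mem,
    Ideal.mem_pointwise_smul_iff_inv_smul_mem, mul_inv_rev]
  rfl

/-- Restriction maps the decomposition group of `A` into the stabiliser of `primeOf L A`. -/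
theorem restrict_smul_primeOf [Normal ℚ L] (A : ValuationSubring Qbar) {σ : GQ}
    (hσ : σ ∈ A.decompositionSubgroup ℚ) :
    (AlgEquiv.restrictNormalHom L σ) • primeOf L A = primeOf L A := by
  rw [primeOf, ← comap_smul_zbar, smul_zbarPrime_of_mem_dec A hσ]

/-- Restriction maps the inertia group of `A` into the inertia group of `primeOf L A`. -/
theorem restrict_mem_inertia [Normal ℚ L] (A : ValuationSubring Qbar) {σ : GQ}
    (hσ : σ ∈ A.inertiaSubgroupIn ℚ) :
    AlgEquiv.restrictNormalHom L σ ∈ Ideal.inertia (L ≃ₐ[ℚ] L) (primeOf L A) := by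
  intro x
  rw [mem_inertiaSubgroupIn_iff_valuation] at hσ
  show (AlgEquiv.restrictNormalHom L σ) • x - x ∈ primeOf L A
  rw [primeOf, Ideal.mem_comap, map_sub, toZbar_smul, mem_zbarPrime_iff]
  exact hσ.2 _ (mem_valuationSubring_of_isIntegral A (toZbar L x).2)

/-- **Decomposition groups surject**: every element of `Gal(L/ℚ)` stabilising the prime
`primeOf L A` is the restriction of an element of the decomposition group of `A`. -/
theorem exists_mem_dec_restrict_eq [Normal ℚ L] (A : ValuationSubring Qbar) {ℓ : ℕ}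
    (hℓ : ℓ.Prime) (hA : A.LiesOverPrime ℓ) (τ : L ≃ₐ[ℚ] L)
    (hτ : τ • primeOf L A = primeOf L A) :
    ∃ σ ∈ A.decompositionSubgroup ℚ, AlgEquiv.restrictNormalHom L σ = τ := by
  have := normal_Qbar
  have := compactSpace_over L
  have := totallyDisconnectedSpace_over L
  have := zbar_discrete
  have := zbarOver_continuousSMul L
  have := zbarOver_isInvariant L
  have := zbarOver_smulCommClass L
  obtain ⟨σ₀, hσ₀⟩ := AlgEquiv.restrictNormalHom_surjective (F := ℚ) (K₁ := L) Qbar τ
  have h1 : (σ₀ • zbarPrime A).comap (toZbar L) = (zbarPrime A).comap (toZbar L) := by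
    rw [comap_smul_zbar, hσ₀]; exact hτ
  obtain ⟨h, hh⟩ := Algebra.IsInvariant.exists_smul_of_under_eq_of_profinite
    (A := 𝓞 L) (B := Zbar) (G := GalOver L) (σ₀ • zbarPrime A) (zbarPrime A) h1
  refine ⟨(h.restrictScalars ℚ : GQ) * σ₀, mem_decompositionSubgroup_of_stab A hℓ hA _ ?_, ?_⟩
  · rw [zbar_mul_smul_ideal, smul_restrictScalars, ← hh]
  · rw [map_mul, restrictNormalHom_restrictScalars, one_mul, hσ₀]

/-- **Inertia groups surject**: every element of the inertia group of `primeOf L A` in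
`Gal(L/ℚ)` is the restriction of an element of the inertia group of `A`. -/
theorem exists_mem_inertia_restrict_eq [Normal ℚ L] (A : ValuationSubring Qbar) {ℓ : ℕ}
    (hℓ : ℓ.Prime) (hA : A.LiesOverPrime ℓ) (τ : L ≃ₐ[ℚ] L)
    (hτ : τ ∈ Ideal.inertia (L ≃ₐ[ℚ] L) (primeOf L A)) :
    ∃ σ ∈ A.inertiaSubgroupIn ℚ, AlgEquiv.restrictNormalHom L σ = τ := by
  have := compactSpace_over L
  have := totallyDisconnectedSpace_over L
  have := zbar_discrete
  have := zbarOver_continuousSMul L
  have := zbarOver_isInvariant L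
  have := zbarOver_smulCommClass L
  have hstab : τ • primeOf L A = primeOf L A := Ideal.inertia_le_stabilizer _ hτ
  obtain ⟨σ₁, hσ₁D, hσ₁⟩ := exists_mem_dec_restrict_eq L A hℓ hA τ hstab
  have hσ₁Q : σ₁ • zbarPrime A = zbarPrime A := smul_zbarPrime_of_mem_dec A hσ₁D
  have : (zbarPrime A).LiesOver (primeOf L A) := ⟨rfl⟩
  -- the automorphism of `Zbar ⧸ Q` induced by `σ₁`
  let φ₀ : (Zbar ⧸ zbarPrime A) ≃ₐ[ℤ ⧸ (zbarPrime A).under ℤ] (Zbar ⧸ zbarPrime A) :=
    Ideal.Quotient.stabilizerHom (zbarPrime A) ((zbarPrime A).under ℤ) GQ ⟨σ₁, hσ₁Q⟩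
  have hφ₀ : ∀ b : Zbar, φ₀ (Ideal.Quotient.mk _ b) = Ideal.Quotient.mk _ (σ₁ • b) := fun b => rfl
  let φ : (Zbar ⧸ zbarPrime A) ≃ₐ[𝓞 L ⧸ primeOf L A] (Zbar ⧸ zbarPrime A) :=
    AlgEquiv.ofRingEquiv (f := φ₀.toRingEquiv) (by
      intro r
      obtain ⟨x, rfl⟩ := Ideal.Quotient.mk_surjective r
      show φ₀ (Ideal.Quotient.mk _ (toZbar L x)) = Ideal.Quotient.mk _ (toZbar L x)
      rw [hφ₀, Ideal.Quotient.eq, ← toZbar_smul, hσ₁, ← map_sub]
      exact hτ x)
  have hφ : ∀ b : Zbar, φ (Ideal.Quotient.mk _ b) = Ideal.Quotient.mk _ (σ₁ • b) := fun b => rfl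
  obtain ⟨g, hg⟩ := Ideal.Quotient.stabilizerHom_surjective_of_profinite (G := GalOver L)
    (primeOf L A) (zbarPrime A) φ.symm
  have hgQ : (g.1.restrictScalars ℚ : GQ) • zbarPrime A = zbarPrime A := by
    rw [smul_restrictScalars]; exact g.2
  have hσQ : ((g.1.restrictScalars ℚ : GQ) * σ₁) • zbarPrime A = zbarPrime A := by
    rw [zbar_mul_smul_ideal, hσ₁Q, hgQ]
  refine ⟨(g.1.restrictScalars ℚ : GQ) * σ₁, ?_, ?_⟩
  · rw [mem_inertiaSubgroupIn_iff_zbar A hℓ hA]
    refine ⟨hσQ, fun b => ?_⟩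
    rw [← Ideal.Quotient.eq]
    have h1 : Ideal.Quotient.mk (zbarPrime A) (((g.1.restrictScalars ℚ : GQ) * σ₁) • b) =
        Ideal.Quotient.stabilizerHom (zbarPrime A) (primeOf L A) (GalOver L) g
          (Ideal.Quotient.mk _ (σ₁ • b)) := rfl
    rw [h1, hg, ← hφ, AlgEquiv.symm_apply_apply]
  · rw [map_mul, restrictNormalHom_restrictScalars, one_mul, hσ₁]

/-- The image of the decomposition group of `A` in `Gal(L/ℚ)` is the stabiliser of
`primeOf L A`. -/
theorem map_decompositionSubgroup_eq [Normal ℚ L] (A : ValuationSubring Qbar) {ℓ : ℕ}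
    (hℓ : ℓ.Prime) (hA : A.LiesOverPrime ℓ) :
    (A.decompositionSubgroup ℚ).map (AlgEquiv.restrictNormalHom L) =
      MulAction.stabilizer (L ≃ₐ[ℚ] L) (primeOf L A) := by
  ext τ
  rw [Subgroup.mem_map, MulAction.mem_stabilizer_iff]
  constructor
  · rintro ⟨σ, hσ, rfl⟩
    exact restrict_smul_primeOf L A hσ
  · intro hτ
    exact exists_mem_dec_restrict_eq L A hℓ hA τ hτ

/-- The image of the inertia group of `A` in `Gal(L/ℚ)` is the inertia group of
`primeOf L A`. -/
theorem map_inertiaSubgroupIn_eq [Normal ℚ L] (A : ValuationSubring Qbar) {ℓ : ℕ}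
    (hℓ : ℓ.Prime) (hA : A.LiesOverPrime ℓ) :
    (A.inertiaSubgroupIn ℚ).map (AlgEquiv.restrictNormalHom L) =
      Ideal.inertia (L ≃ₐ[ℚ] L) (primeOf L A) := by
  ext τ
  rw [Subgroup.mem_map]
  constructor
  · rintro ⟨σ, hσ, rfl⟩
    exact restrict_mem_inertia L A hσ
  · intro hτ
    exact exists_mem_inertia_restrict_eq L A hℓ hA τ hτ

omit [Algebra ℚ L] [IsScalarTower ℚ L Qbar] [Algebra L Qbar] in
/-- Every maximal ideal of the ring of algebraic integers is cut out by a valuation subring. -/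
theorem exists_zbarPrime_eq (Q : Ideal Zbar) [hQ : Q.IsMaximal] :
    ∃ A : ValuationSubring Qbar, zbarPrime A = Q := by
  have hI : (Q : Ideal Zbar.toSubring) ≠ ⊤ := hQ.ne_top
  obtain ⟨A, -, hA⟩ := Ideal.image_subset_nonunits_valuationSubring (A := Zbar.toSubring) Q hI
  refine ⟨A, ?_⟩
  symm
  apply hQ.eq_of_le (zbarPrime_isPrime A).ne_top
  intro b hb
  rw [mem_zbarPrime_iff, ← A.mem_nonunits_iff]
  exact hA ⟨b, hb, rfl⟩

omit [Algebra ℚ L] [IsScalarTower ℚ L Qbar] in
/-- **Every maximal ideal of `𝓞 L` comes from a valuation subring of `ℚ̄`.** -/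
theorem exists_primeOf_eq (P : Ideal (𝓞 L)) [hP : P.IsMaximal] :
    ∃ A : ValuationSubring Qbar, primeOf L A = P := by
  have := zbarOver_isIntegral L
  have hker : RingHom.ker (algebraMap (𝓞 L) Zbar) = ⊥ :=
    (RingHom.injective_iff_ker_eq_bot _).mp (toZbar_injective L)
  obtain ⟨Q, hQ, hQP⟩ := Ideal.exists_ideal_over_maximal_of_isIntegral (S := Zbar) P (by
    rw [hker]
    exact bot_le)
  obtain ⟨A, hA⟩ := exists_zbarPrime_eq Q
  exact ⟨A, by rw [primeOf, hA]; exact hQP⟩

omit [Algebra ℚ L] [IsScalarTower ℚ L Qbar] in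
/-- A valuation subring lies over the prime number `ℓ` as soon as its prime of `𝓞 L`
contains `ℓ`. -/
theorem liesOverPrime_of_natCast_mem (A : ValuationSubring Qbar) {ℓ : ℕ}
    (h : (ℓ : 𝓞 L) ∈ primeOf L A) : A.LiesOverPrime ℓ := by
  rw [mem_primeOf_iff] at h
  rw [ValuationSubring.LiesOverPrime, A.mem_nonunits_iff]
  simpa using h

omit [Algebra ℚ L] [IsScalarTower ℚ L Qbar] [Algebra L Qbar] in
/-- A Frobenius element at `A` satisfies the Frobenius congruence on `A`. -/
theorem IsFrobeniusAt_valuation_lt_one (A : ValuationSubring Qbar) {ℓ : ℕ} {σ : GQ}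
    (hσ : A.IsFrobeniusAt σ ℓ) {a : Qbar} (ha : a ∈ A) : A.valuation (σ a - a ^ ℓ) < 1 := by
  have h1 := hσ.smul_residue_eq (IsLocalRing.residue A ⟨a, ha⟩)
  rw [← IsLocalRing.ResidueField.residue_smul, ← map_pow, ← sub_eq_zero, ← map_sub,
    IsLocalRing.residue_eq_zero_iff, A.valuation_lt_one_iff] at h1
  exact h1

/-- **Frobenius elements restrict to Frobenius elements**: if `σ` is a Frobenius element at
`A` over `ℓ`, then its restriction to `L` stabilises `primeOf L A` and satisfies
`τ x ≡ x ^ ℓ` modulo `primeOf L A` on `𝓞 L`. -/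
theorem restrict_frobenius [Normal ℚ L] (A : ValuationSubring Qbar) {ℓ : ℕ} {σ : GQ}
    (hσ : A.IsFrobeniusAt σ ℓ) :
    (AlgEquiv.restrictNormalHom L σ) • primeOf L A = primeOf L A ∧
      ∀ x : 𝓞 L, (AlgEquiv.restrictNormalHom L σ) • x - x ^ ℓ ∈ primeOf L A := by
  refine ⟨restrict_smul_primeOf L A hσ.mem_decompositionSubgroup, fun x => ?_⟩
  rw [primeOf, Ideal.mem_comap, map_sub, map_pow, toZbar_smul, mem_zbarPrime_iff]
  exact IsFrobeniusAt_valuation_lt_one A hσ (mem_valuationSubring_of_isIntegral A (toZbar L x).2)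

end Main

end Fermat.Agent.S14.helper91
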