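import Mathlib
import Fermat.Prelude.Def_ExtCitation_AdmissibleExtension_v2
import Fermat.Prelude.Def_ExtCitation_KummerBridge

/-!
# S14 bridge, first half (helper69)

From an admissible extension `V ⊇ C` (in the sense of the prelude) which does *not* split
globally we produce a purely group-theoretic "obstruction": an open normal subgroup `N` of
`Gal(ℚ̄/ℚ)` contained in `H = ker (cycloChar p)`, of index `p` in `H`, containing all inertia
groups at `ℓ ≠ p`, containing `D_A ⊓ H` for every place `A` over `p`, and on whose quotient `H/N`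
conjugation by `τ` acts through `χ(τ)⁻¹`.
-/

set_option autoImplicit false

open ExtCitation

namespace Fermat.Agent.S14.helper69

/-- The absolute Galois group of `ℚ`. -/
abbrev GQ : Type := AlgebraicClosure ℚ ≃ₐ[ℚ] AlgebraicClosure ℚ

variable (p : ℕ) [Fact p.Prime]

/-- The group-theoretic obstruction to `ExtVanishingCts p`: an open normal subgroup `N` of index
`p` in `H = ker χ`, unramified everywhere, totally split at `p`, with `Gal(ℚ̄/ℚ)` acting on
`H / N` through `χ⁻¹`. -/
structure IsObstruction (N : Subgroup GQ) : Prop where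
  normal : N.Normal
  isOpen : IsOpen (N : Set GQ)
  le_ker : N ≤ (cycloChar p).ker
  index : (N.subgroupOf (cycloChar p).ker).index = p
  unramified : ∀ ℓ : ℕ, ℓ.Prime → ℓ ≠ p → ∀ A : ValuationSubring (AlgebraicClosure ℚ),
    A.LiesOverPrime ℓ → A.inertiaSubgroupIn ℚ ≤ N
  split_at_p : ∀ A : ValuationSubring (AlgebraicClosure ℚ), A.LiesOverPrime p →
    A.decompositionSubgroup ℚ ⊓ (cycloChar p).ker ≤ N
  conj : ∀ (τ s : GQ), s ∈ (cycloChar p).ker →
    τ * s * τ⁻¹ * (s ^ (cycloExp p τ⁻¹))⁻¹ ∈ N

section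

variable {p}
variable {V : Type} [AddCommGroup V] [Module (ZMod p) V]
  [DistribMulAction GQ V] [SMulCommClass GQ (ZMod p) V]
  {C : Submodule (ZMod p) V}

/-- The kernel of the action on `V`. -/
def actionKer (V : Type) [AddCommGroup V] [DistribMulAction GQ V] : Subgroup GQ where
  carrier := {σ | ∀ v : V, σ • v = v}
  one_mem' := fun v => one_smul _ v
  mul_mem' := fun {a b} ha hb v => by rw [mul_smul, hb v, ha v]
  inv_mem' := fun {a} ha v => by
    have := ha v
    calc a⁻¹ • v = a⁻¹ • (a • v) := by rw [this]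
      _ = v := inv_smul_smul a v

lemma mem_actionKer {σ : GQ} : σ ∈ actionKer V ↔ ∀ v : V, σ • v = v := Iff.rfl

instance : (actionKer V).Normal where
  conj_mem := fun n hn g v => by
    rw [mul_smul, mul_smul, hn (g⁻¹ • v), smul_inv_smul]

/-- `V` is finite. -/
lemma finite_of_adm (hadm : IsAdmissibleExtension p V C) : Finite V := by
  apply Nat.finite_of_card_ne_zero
  rw [hadm.card_total]
  exact pow_ne_zero _ (Fact.out : p.Prime).ne_zero

lemma finrank_total (hadm : IsAdmissibleExtension p V C) : Module.finrank (ZMod p) V = 2 := by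
  have := finite_of_adm hadm
  have h := Module.natCard_eq_pow_finrank (K := ZMod p) (V := V)
  rw [hadm.card_total, Nat.card_zmod] at h
  exact (Nat.pow_right_injective (Fact.out : p.Prime).two_le h).symm

lemma finrank_sub (hadm : IsAdmissibleExtension p V C) : Module.finrank (ZMod p) C = 1 := by
  have := finite_of_adm hadm
  have h := Module.natCard_eq_pow_finrank (K := ZMod p) (V := C)
  rw [hadm.card_sub, Nat.card_zmod] at h
  have h' : p ^ 1 = p ^ Module.finrank (ZMod p) C := by simpa using h
  exact (Nat.pow_right_injective (Fact.out : p.Prime).two_le h').symm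

lemma exists_notMem (hadm : IsAdmissibleExtension p V C) : ∃ x₀ : V, x₀ ∉ C := by
  by_contra h
  push Not at h
  have htop : C = ⊤ := by
    ext x; simp [h x]
  have h1 := finrank_sub hadm
  have h2 := finrank_total hadm
  rw [htop, finrank_top] at h1
  omega

/-- A submodule strictly containing `C` is everything. -/
lemma eq_top_of_lt (hadm : IsAdmissibleExtension p V C) {W : Submodule (ZMod p) V}
    (hW : C < W) : W = ⊤ := by
  have := finite_of_adm hadm
  have : Module.Finite (ZMod p) V := Module.Finite.of_finite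
  apply Submodule.eq_top_of_finrank_eq
  have h1 := Submodule.finrank_lt_finrank_of_lt hW
  have h2 := Submodule.finrank_le W
  rw [finrank_sub hadm] at h1
  rw [finrank_total hadm] at h2 ⊢
  omega

/-- Elements of `H = ker χ` move every vector by an element of `C`. -/
lemma smul_sub_mem (hadm : IsAdmissibleExtension p V C) {σ : GQ}
    (hσ : σ ∈ (cycloChar p).ker) (x : V) : σ • x - x ∈ C := by
  have h := hadm.cyclo_quot σ x
  rw [← coe_cycloChar, MonoidHom.mem_ker.mp hσ] at h
  simpa using h

/-- The fixed points of `σ`, as a submodule. -/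
def fixedSubmodule (p : ℕ) [Fact p.Prime] (V : Type) [AddCommGroup V] [Module (ZMod p) V]
    [DistribMulAction GQ V] [SMulCommClass GQ (ZMod p) V] (σ : GQ) : Submodule (ZMod p) V where
  carrier := {x | σ • x = x}
  add_mem' := fun {a b} ha hb => by
    simp only [Set.mem_ofPred_eq] at ha hb ⊢
    rw [smul_add, ha, hb]
  zero_mem' := smul_zero σ
  smul_mem' := fun c x hx => by
    simp only [Set.mem_ofPred_eq] at hx ⊢
    rw [smul_comm, hx]

/-- If `σ` fixes one vector outside `C` then it acts trivially. -/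
lemma mem_actionKer_of_fixes (hadm : IsAdmissibleExtension p V C) {σ : GQ} {x₀ : V}
    (hx₀ : x₀ ∉ C) (h : σ • x₀ = x₀) : σ ∈ actionKer V := by
  have hlt : C < fixedSubmodule p V σ := by
    refine lt_of_le_of_ne (fun x hx => hadm.fixed_sub σ x hx) ?_
    intro heq
    apply hx₀
    rw [heq]
    exact h
  have htop := eq_top_of_lt hadm hlt
  intro v
  have : v ∈ fixedSubmodule p V σ := by rw [htop]; trivial
  exact this

/-- The kernel of the action is contained in the kernel of the cyclotomic character. -/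
lemma actionKer_le_ker (hadm : IsAdmissibleExtension p V C) :
    actionKer V ≤ (cycloChar p).ker := by
  intro σ hσ
  obtain ⟨x₀, hx₀⟩ := exists_notMem hadm
  have h := hadm.cyclo_quot σ x₀
  rw [hσ x₀, ← coe_cycloChar] at h
  rw [MonoidHom.mem_ker]
  by_contra hne
  have hne' : (1 : ZMod p) - (cycloChar p σ : ZMod p) ≠ 0 := by
    intro h0
    apply hne
    ext
    rw [Units.val_one]
    exact (sub_eq_zero.mp h0).symm
  have h2 : ((1 : ZMod p) - (cycloChar p σ : ZMod p)) • x₀ ∈ C := by
    rw [sub_smul, one_smul]; exact h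
  have h3 := C.smul_mem ((1 : ZMod p) - (cycloChar p σ : ZMod p))⁻¹ h2
  rw [smul_smul, inv_mul_cancel₀ hne', one_smul] at h3
  exact hx₀ h3

/-- The displacement homomorphism `H → C`, `s ↦ s • x₀ - x₀`. -/
noncomputable def dispHom (hadm : IsAdmissibleExtension p V C) (x₀ : V) :
    (cycloChar p).ker →* Multiplicative C where
  toFun s := Multiplicative.ofAdd ⟨s.1 • x₀ - x₀, smul_sub_mem hadm s.2 x₀⟩
  map_one' := by
    apply Multiplicative.toAdd.injective
    apply Subtype.ext
    simp
  map_mul' s t := by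
    apply Multiplicative.toAdd.injective
    apply Subtype.ext
    have ht : t.1 • x₀ - x₀ ∈ C := smul_sub_mem hadm t.2 x₀
    have hfix := hadm.fixed_sub s.1 _ ht
    simp only [Subgroup.coe_mul, toAdd_mul, toAdd_ofAdd, Submodule.coe_add]
    rw [mul_smul]
    have : s.1 • t.1 • x₀ = s.1 • (t.1 • x₀ - x₀) + s.1 • x₀ := by
      rw [← smul_add, sub_add_cancel]
    rw [this, hfix]
    abel

lemma dispHom_apply (hadm : IsAdmissibleExtension p V C) (x₀ : V) (s : (cycloChar p).ker) :
    ((Multiplicative.toAdd (dispHom hadm x₀ s) : C) : V) = s.1 • x₀ - x₀ := rfl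

lemma ker_dispHom (hadm : IsAdmissibleExtension p V C) {x₀ : V} (hx₀ : x₀ ∉ C) :
    (dispHom hadm x₀).ker = (actionKer V).subgroupOf (cycloChar p).ker := by
  ext s
  rw [MonoidHom.mem_ker, Subgroup.mem_subgroupOf]
  constructor
  · intro h
    apply mem_actionKer_of_fixes hadm hx₀
    have h1 := dispHom_apply hadm x₀ s
    rw [h] at h1
    simp only [toAdd_one, ZeroMemClass.coe_zero] at h1
    exact (sub_eq_zero.mp h1.symm)
  · intro h
    apply Multiplicative.toAdd.injective
    apply Subtype.ext
    rw [dispHom_apply, h x₀, sub_self]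
    rfl

/-- If `H` does not act trivially, then the kernel of the action has index `p` in `H`. -/
lemma index_actionKer (hadm : IsAdmissibleExtension p V C)
    (hH : ¬ (cycloChar p).ker ≤ actionKer V) :
    ((actionKer V).subgroupOf (cycloChar p).ker).index = p := by
  obtain ⟨x₀, hx₀⟩ := exists_notMem hadm
  rw [← ker_dispHom hadm hx₀, Subgroup.index_ker]
  have hcard : Nat.card (Multiplicative C) = p := hadm.card_sub
  have hdvd : Nat.card (dispHom hadm x₀).range ∣ p := by
    have := Subgroup.card_subgroup_dvd_card (dispHom hadm x₀).range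
    rwa [hcard] at this
  rcases (Nat.dvd_prime (Fact.out : p.Prime)).mp hdvd with h1 | h1
  · exfalso
    apply hH
    intro s hs
    have hbot : (dispHom hadm x₀).range = ⊥ := Subgroup.card_eq_one.mp h1
    have hker : (⟨s, hs⟩ : (cycloChar p).ker) ∈ (dispHom hadm x₀).ker := by
      rw [MonoidHom.mem_ker]
      have : dispHom hadm x₀ ⟨s, hs⟩ ∈ (dispHom hadm x₀).range := ⟨_, rfl⟩
      rw [hbot] at this
      exact Subgroup.mem_bot.mp this
    rw [ker_dispHom hadm hx₀, Subgroup.mem_subgroupOf] at hker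
    exact hker
  · exact h1

/-- Decomposition groups at `p` meet `H` inside the kernel of the action. -/
lemma decomposition_inf_ker_le (hadm : IsAdmissibleExtension p V C)
    (A : ValuationSubring (AlgebraicClosure ℚ)) (hA : A.LiesOverPrime p) :
    A.decompositionSubgroup ℚ ⊓ (cycloChar p).ker ≤ actionKer V := by
  rintro σ ⟨hσD, hσH⟩
  obtain ⟨C', hC', hcompl⟩ := hadm.locally_split A hA
  have hfixC' : ∀ x ∈ C', σ • x = x := by
    intro x hx
    have h1 : σ • x - x ∈ C := smul_sub_mem hadm hσH x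
    have h2 : σ • x - x ∈ C' := C'.sub_mem (hC' σ hσD x hx) hx
    have h3 : σ • x - x ∈ C ⊓ C' := ⟨h1, h2⟩
    rw [hcompl.inf_eq_bot, Submodule.mem_bot] at h3
    exact sub_eq_zero.mp h3
  intro v
  have hv : v ∈ C ⊔ C' := by rw [hcompl.sup_eq_top]; trivial
  obtain ⟨c, hc, c', hc', rfl⟩ := Submodule.mem_sup.mp hv
  rw [smul_add, hadm.fixed_sub σ c hc, hfixC' c' hc']

/-- Conjugation by `τ` acts on `H / N` through `χ(τ)⁻¹`. -/
lemma conj_mem_actionKer (hadm : IsAdmissibleExtension p V C) (τ s : GQ)
    (hs : s ∈ (cycloChar p).ker) :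
    τ * s * τ⁻¹ * (s ^ (cycloExp p τ⁻¹))⁻¹ ∈ actionKer V := by
  obtain ⟨x₀, hx₀⟩ := exists_notMem hadm
  have hconj : τ * s * τ⁻¹ ∈ (cycloChar p).ker :=
    (inferInstance : ((cycloChar p).ker).Normal).conj_mem s hs τ
  have hpow : s ^ (cycloExp p τ⁻¹) ∈ (cycloChar p).ker := Subgroup.pow_mem _ hs _
  have hmem : τ * s * τ⁻¹ * (s ^ (cycloExp p τ⁻¹))⁻¹ ∈ (cycloChar p).ker :=
    Subgroup.mul_mem _ hconj (Subgroup.inv_mem _ hpow)
  -- it suffices to show that the element lies in the kernel of the displacement hom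
  have key : (⟨_, hmem⟩ : (cycloChar p).ker) ∈ (dispHom hadm x₀).ker := by
    have hdecomp : (⟨_, hmem⟩ : (cycloChar p).ker)
        = ⟨_, hconj⟩ * (⟨s, hs⟩ ^ (cycloExp p τ⁻¹))⁻¹ := by
      apply Subtype.ext; simp
    rw [MonoidHom.mem_ker, hdecomp, map_mul, map_inv, map_pow]
    -- compute the displacement of the conjugate
    have h1 : dispHom hadm x₀ ⟨_, hconj⟩ = dispHom hadm x₀ ⟨s, hs⟩ ^ (cycloExp p τ⁻¹) := by
      apply Multiplicative.toAdd.injective
      apply Subtype.ext
      rw [dispHom_apply, toAdd_pow, Submodule.coe_smul_of_tower, dispHom_apply]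
      -- `τ⁻¹ x₀ = χ(τ⁻¹) x₀ + c`
      set c : V := τ⁻¹ • x₀ - (cycloExp p τ⁻¹ : ZMod p) • x₀ with hc
      have hcC : c ∈ C := hadm.cyclo_quot τ⁻¹ x₀
      have e1 : τ⁻¹ • x₀ = (cycloExp p τ⁻¹ : ZMod p) • x₀ + c := by rw [hc]; abel
      have hD : s • (τ⁻¹ • x₀) - τ⁻¹ • x₀ ∈ C := smul_sub_mem hadm hs _
      have e2 : (τ * s * τ⁻¹) • x₀ = x₀ + (s • (τ⁻¹ • x₀) - τ⁻¹ • x₀) := by
        calc (τ * s * τ⁻¹) • x₀ = τ • (s • (τ⁻¹ • x₀)) := by rw [mul_smul, mul_smul]
          _ = τ • (τ⁻¹ • x₀ + (s • (τ⁻¹ • x₀) - τ⁻¹ • x₀)) := by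
              congr 1; abel
          _ = x₀ + (s • (τ⁻¹ • x₀) - τ⁻¹ • x₀) := by
              rw [smul_add, smul_inv_smul, hadm.fixed_sub τ _ hD]
      rw [e2, add_sub_cancel_left, e1, smul_add, hadm.fixed_sub s c hcC, smul_comm s]
      rw [add_sub_add_right_eq_sub, ← smul_sub, Nat.cast_smul_eq_nsmul]
    rw [h1, mul_inv_cancel]
  rw [ker_dispHom hadm hx₀, Subgroup.mem_subgroupOf] at key
  exact key

/-- If `H = ker χ` acts trivially on `V`, the extension splits globally. -/
lemma splitsGlobally_of_ker_le (hadm : IsAdmissibleExtension p V C)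
    (hH : (cycloChar p).ker ≤ actionKer V) : SplitsGlobally C := by
  by_cases hτ : ∃ τ : GQ, cycloChar p τ ≠ 1
  · obtain ⟨τ, hτ⟩ := hτ
    set a : ZMod p := (cycloChar p τ : ZMod p) with ha
    have ha1 : (1 : ZMod p) - a ≠ 0 := by
      intro h0
      apply hτ
      ext
      rw [Units.val_one]
      exact (sub_eq_zero.mp h0).symm
    -- the `a`-eigenspace of `τ`
    let C' : Submodule (ZMod p) V :=
      { carrier := {x | τ • x = a • x}
        add_mem' := fun {x y} hx hy => by
          simp only [Set.mem_ofPred_eq] at hx hy ⊢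
          rw [smul_add, smul_add, hx, hy]
        zero_mem' := by simp
        smul_mem' := fun c x hx => by
          simp only [Set.mem_ofPred_eq] at hx ⊢
          rw [smul_comm τ c x, hx, smul_comm] }
    have hmemC' : ∀ x, x ∈ C' ↔ τ • x = a • x := fun x => Iff.rfl
    refine ⟨C', ?_, ?_⟩
    · -- stability
      intro σ x hx
      rw [hmemC'] at hx ⊢
      have hcomm : τ⁻¹ * σ⁻¹ * τ * σ ∈ (cycloChar p).ker := by
        rw [MonoidHom.mem_ker]
        simp only [map_mul, map_inv]
        rw [mul_comm ((cycloChar p τ)⁻¹) _, mul_assoc ((cycloChar p σ)⁻¹), inv_mul_cancel, mul_one,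
          inv_mul_cancel]
      have hfix := hH hcomm x
      have e : τ * σ = σ * τ * (τ⁻¹ * σ⁻¹ * τ * σ) := by group
      calc τ • σ • x = (τ * σ) • x := (mul_smul _ _ _).symm
        _ = (σ * τ * (τ⁻¹ * σ⁻¹ * τ * σ)) • x := by rw [← e]
        _ = σ • τ • x := by rw [mul_smul, hfix, mul_smul]
        _ = a • σ • x := by rw [hx, smul_comm]
    · -- complement
      have hinf : C ⊓ C' = ⊥ := by
        rw [eq_bot_iff]
        rintro x ⟨hxC, hxC'⟩
        rw [SetLike.mem_coe, hmemC', hadm.fixed_sub τ x hxC] at hxC'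
        have h2 : ((1 : ZMod p) - a) • x = 0 := by
          rw [sub_smul, one_smul, ← hxC', sub_self]
        have h3 := congrArg (fun y => ((1 : ZMod p) - a)⁻¹ • y) h2
        simp only [smul_smul, inv_mul_cancel₀ ha1, one_smul, smul_zero] at h3
        exact h3
      obtain ⟨x₀, hx₀⟩ := exists_notMem hadm
      obtain ⟨c, hcC, e1⟩ : ∃ c ∈ C, τ • x₀ = a • x₀ + c := by
        refine ⟨τ • x₀ - a • x₀, ?_, by abel⟩
        have := hadm.cyclo_quot τ x₀
        rwa [← coe_cycloChar] at this
      have hfix : τ • c = c := hadm.fixed_sub τ c hcC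
      obtain ⟨b, hb⟩ : ∃ b : ZMod p, b * ((1 : ZMod p) - a) = 1 :=
        ⟨((1 : ZMod p) - a)⁻¹, inv_mul_cancel₀ ha1⟩
      obtain ⟨x₁, hx₁⟩ : ∃ x₁ : V, x₁ = x₀ - b • c := ⟨_, rfl⟩
      have hx₁C' : x₁ ∈ C' := by
        rw [hmemC']
        calc τ • x₁ = a • x₀ + c - b • c := by rw [hx₁, smul_sub, e1, smul_comm τ b c, hfix]
          _ = a • x₀ - (a * b) • c + ((1 : ZMod p) - b * ((1 : ZMod p) - a)) • c := by module
          _ = a • x₀ - (a * b) • c := by rw [hb, sub_self, zero_smul, add_zero]
          _ = a • x₁ := by rw [hx₁, smul_sub, smul_smul]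
      have hx₁C : x₁ ∉ C := by
        intro h
        apply hx₀
        have : x₀ = x₁ + b • c := by rw [hx₁]; abel
        rw [this]
        exact C.add_mem h (C.smul_mem _ hcC)
      have hlt : C < C ⊔ C' := by
        refine lt_of_le_of_ne le_sup_left ?_
        intro heq
        apply hx₁C
        rw [heq]
        exact Submodule.mem_sup_right hx₁C'
      exact IsCompl.of_eq hinf (eq_top_of_lt hadm hlt)
  · -- the cyclotomic character is trivial: everything acts trivially
    push Not at hτ
    obtain ⟨C', hC'⟩ := Submodule.exists_isCompl C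
    refine ⟨C', fun σ x hx => ?_, hC'⟩
    have : σ ∈ actionKer V := hH (MonoidHom.mem_ker.mpr (hτ σ))
    rw [this x]
    exact hx

end

/-- **Bridge.** If there is no group-theoretic obstruction, then `ExtVanishingCts p` holds. -/
theorem extVanishingCts_of_forall_not_isObstruction
    (h : ∀ N : Subgroup GQ, ¬ IsObstruction p N) : ExtVanishingCts p := by
  intro V _ _ _ _ C hadm
  have hadm' := hadm.toIsAdmissibleExtension
  by_cases hH : (cycloChar p).ker ≤ actionKer V
  · exact splitsGlobally_of_ker_le hadm' hH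
  · exfalso
    refine h (actionKer V) ?_
    exact
      { normal := inferInstance
        isOpen := hadm.open_kernel
        le_ker := actionKer_le_ker hadm'
        index := index_actionKer hadm' hH
        unramified := fun ℓ hℓ hℓp A hA σ hσ v => hadm'.unramified_outside ℓ hℓ hℓp A hA σ hσ v
        split_at_p := fun A hA => decomposition_inf_ker_le hadm' A hA
        conj := fun τ s hs => conj_mem_actionKer hadm' τ s hs }

end Fermat.Agent.S14.helper69
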