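import Mathlib
import Fermat.Agent.S14.Defs
import Fermat.Agent.S14.helper69_Bridge
import Fermat.Agent.S14.helper91_Dictionary

/-!
# S14 bridge (5c): from the group-theoretic obstruction to number fields (helper91)

Let `N ≤ Gal(ℚ̄/ℚ)` be a group-theoretic obstruction in the sense of
`Fermat.Agent.S14.helper69.IsObstruction`.  With `K = ℚ(ζ_p)` (the fixed field of the kernel of
the mod `p` cyclotomic character) and `L` the fixed field of `N` we prove that `K` and `L` are
number fields, `L/ℚ` is Galois, `[L : K] = p`, `L/K` is unramified at every finite prime, every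
prime of `L` over `p` has trivial decomposition group in `Gal(L/K)`, and `Gal(L/ℚ)` acts on
`Gal(L/K)` through the inverse of the cyclotomic character.  This is exactly the set of
hypotheses of the number-theoretic core of the S14 cluster.
-/

set_option autoImplicit false
set_option linter.style.haveILetI false

open scoped Pointwise NumberField

namespace Fermat.Agent.S14.helper91

open Fermat.Agent.S54.helper91 ExtCitation

/-! ### The cyclotomic character and roots of unity -/

section Cyclo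

variable (p : ℕ) [Fact p.Prime]

theorem apply_of_pow_eq_one (σ : GQ) {ζ : Qbar} (hζ : ζ ^ p = 1) :
    σ ζ = ζ ^ cycloExp p σ := by
  haveI : NeZero p := ⟨(Fact.out : p.Prime).ne_zero⟩
  have hζ0 : ζ ≠ 0 := by
    rintro rfl
    simp [(Fact.out : p.Prime).ne_zero] at hζ
  let t : Qbarˣ := Units.mk0 ζ hζ0
  have ht : t ∈ rootsOfUnity p Qbar := by
    rw [mem_rootsOfUnity]
    exact Units.ext (by simpa [t] using hζ)
  have := modularCyclotomicCharacter.spec Qbar (card_rootsOfUnity_eq_self p)
    (σ : Qbar ≃+* Qbar) ht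
  simpa [t, cycloExp] using this

theorem exists_primitiveRoot : ∃ ζ : Qbar, IsPrimitiveRoot ζ p := by
  haveI : NeZero p := ⟨(Fact.out : p.Prime).ne_zero⟩
  haveI : NeZero (p : Qbar) := ⟨Nat.cast_ne_zero.mpr (NeZero.ne p)⟩
  exact HasEnoughRootsOfUnity.exists_primitiveRoot Qbar p

theorem cycloExp_lt (σ : GQ) : cycloExp p σ < p := by
  haveI : NeZero p := ⟨(Fact.out : p.Prime).ne_zero⟩
  exact ZMod.val_lt _

theorem mem_ker_cycloChar_iff {ζ : Qbar} (hζ : IsPrimitiveRoot ζ p) (σ : GQ) :
    σ ∈ (cycloChar p).ker ↔ σ ζ = ζ := by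
  haveI : NeZero p := ⟨(Fact.out : p.Prime).ne_zero⟩
  have hp1 : 1 < p := (Fact.out : p.Prime).one_lt
  rw [MonoidHom.mem_ker, apply_of_pow_eq_one p σ hζ.pow_eq_one]
  constructor
  · intro h
    have : cycloExp p σ = 1 := by
      rw [← val_cycloChar, h]
      simp [ZMod.val_one'', hp1.ne']
    rw [this, pow_one]
  · intro h
    have h1 : cycloExp p σ = 1 := by
      have := hζ.pow_inj (cycloExp_lt p σ) hp1 (by rw [h, pow_one])
      exact this
    apply Units.ext
    apply ZMod.val_injective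
    rw [val_cycloChar, h1]
    simp [ZMod.val_one'', hp1.ne']

/-- The cyclotomic field `ℚ(ζ)` inside `ℚ̄`. -/
noncomputable def cycField (ζ : Qbar) : IntermediateField ℚ Qbar :=
  IntermediateField.adjoin ℚ {ζ}

theorem mem_cycField (ζ : Qbar) : ζ ∈ cycField ζ :=
  IntermediateField.mem_adjoin_simple_self ℚ ζ

theorem ker_cycloChar_eq_fixingSubgroup {ζ : Qbar} (hζ : IsPrimitiveRoot ζ p) :
    (cycloChar p).ker = (cycField ζ).fixingSubgroup := by
  ext σ
  rw [mem_ker_cycloChar_iff p hζ, IntermediateField.mem_fixingSubgroup_iff]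
  constructor
  · intro h
    have hle : cycField ζ ≤ IntermediateField.fixedField (Subgroup.zpowers σ) := by
      rw [cycField, IntermediateField.adjoin_le_iff, Set.singleton_subset_iff]
      show ζ ∈ IntermediateField.fixedField (Subgroup.zpowers σ)
      rw [IntermediateField.mem_fixedField_iff]
      intro f hf
      have hstab : Subgroup.zpowers σ ≤ MulAction.stabilizer GQ ζ := by
        rw [Subgroup.zpowers_le]
        exact h
      exact hstab hf
    intro x hx
    have := hle hx
    rw [IntermediateField.mem_fixedField_iff] at this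
    exact this σ (Subgroup.mem_zpowers σ)
  · intro h
    exact h ζ (mem_cycField ζ)

theorem isCyclotomicExtension_cycField {ζ : Qbar} (hζ : IsPrimitiveRoot ζ p) :
    IsCyclotomicExtension {p} ℚ (cycField ζ) := by
  haveI : NeZero p := ⟨(Fact.out : p.Prime).ne_zero⟩
  haveI := isAlgebraic_Qbar
  exact hζ.intermediateField_adjoin_isCyclotomicExtension (K := ℚ)

end Cyclo

/-! ### Fixed fields of open subgroups -/

section Fixed

variable (N : Subgroup GQ)

theorem fixingSubgroup_fixedField_of_isOpen (hN : IsOpen (N : Set GQ)) :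
    (IntermediateField.fixedField N).fixingSubgroup = N := by
  haveI := isGalois_Qbar
  have hcl : IsClosed (N : Set GQ) := Subgroup.isClosed_of_isOpen N hN
  exact InfiniteGalois.fixingSubgroup_fixedField ⟨N, hcl⟩

theorem finiteDimensional_fixedField (hN : IsOpen (N : Set GQ)) :
    FiniteDimensional ℚ (IntermediateField.fixedField N) := by
  haveI := isGalois_Qbar
  rw [← InfiniteGalois.isOpen_iff_finite]
  show IsOpen ((IntermediateField.fixedField N).fixingSubgroup : Set GQ)
  rw [fixingSubgroup_fixedField_of_isOpen N hN]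
  exact hN

theorem isGalois_fixedField (hN : IsOpen (N : Set GQ)) [hn : N.Normal] :
    IsGalois ℚ (IntermediateField.fixedField N) := by
  haveI := isGalois_Qbar
  have h : (IntermediateField.fixedField N).fixingSubgroup.Normal := by
    rw [fixingSubgroup_fixedField_of_isOpen N hN]; exact hn
  exact (InfiniteGalois.normal_iff_isGalois _).mp h

theorem finrank_fixedField (hN : IsOpen (N : Set GQ)) :
    Module.finrank ℚ (IntermediateField.fixedField N) = N.index := by
  haveI := isGalois_Qbar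
  rw [IntermediateField.finrank_eq_fixingSubgroup_index, fixingSubgroup_fixedField_of_isOpen N hN]

end Fixed

/-! ### Towers of intermediate fields -/

section Tower

/-- The algebra structure attached to an inclusion of intermediate fields. -/
@[reducible] noncomputable def algebraOfLe {K₀ L₀ : IntermediateField ℚ Qbar} (h : K₀ ≤ L₀) :
    Algebra K₀ L₀ := (IntermediateField.inclusion h).toRingHom.toAlgebra

theorem algebraOfLe_algebraMap {K₀ L₀ : IntermediateField ℚ Qbar} (h : K₀ ≤ L₀) (x : K₀) :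
    ((@algebraMap K₀ L₀ _ _ (algebraOfLe h) x : L₀) : Qbar) = (x : Qbar) := rfl

theorem restrictNormalHom_coe (L₀ : IntermediateField ℚ Qbar) [Normal ℚ L₀] (σ : GQ) (y : L₀) :
    ((AlgEquiv.restrictNormalHom L₀ σ y : L₀) : Qbar) = σ (y : Qbar) :=
  AlgEquiv.restrictNormal_commutes σ L₀ y

theorem restrictNormalHom_eq_one_of_mem_fixingSubgroup (L₀ : IntermediateField ℚ Qbar)
    [Normal ℚ L₀] {σ : GQ} (hσ : σ ∈ L₀.fixingSubgroup) :
    AlgEquiv.restrictNormalHom L₀ σ = 1 := by
  ext y
  rw [restrictNormalHom_coe]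
  exact (IntermediateField.mem_fixingSubgroup_iff L₀ σ).mp hσ y y.2

theorem mem_fixingSubgroup_of_restrictNormalHom_eq_one (L₀ : IntermediateField ℚ Qbar)
    [Normal ℚ L₀] {σ : GQ} (hσ : AlgEquiv.restrictNormalHom L₀ σ = 1) :
    σ ∈ L₀.fixingSubgroup := by
  rw [IntermediateField.mem_fixingSubgroup_iff]
  intro x hx
  have := restrictNormalHom_coe L₀ σ ⟨x, hx⟩
  rw [hσ] at this
  exact this.symm

/-- A lift to `Gal(ℚ̄/ℚ)` of (the restriction of scalars of) an element of `Gal(L₀/K₀)`
fixes `K₀`. -/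
theorem mem_fixingSubgroup_of_restrict_eq {K₀ L₀ : IntermediateField ℚ Qbar} (h : K₀ ≤ L₀)
    [Normal ℚ L₀] :
    letI := algebraOfLe h
    ∀ (σ : L₀ ≃ₐ[K₀] L₀) {σ' : GQ},
      AlgEquiv.restrictNormalHom L₀ σ' = σ.restrictScalars ℚ → σ' ∈ K₀.fixingSubgroup := by
  letI := algebraOfLe h
  intro σ σ' hσ'
  rw [IntermediateField.mem_fixingSubgroup_iff]
  intro x hx
  have h1 := restrictNormalHom_coe L₀ σ' ⟨x, h hx⟩
  rw [hσ'] at h1
  rw [← h1]
  have h2 : σ (algebraMap K₀ L₀ ⟨x, hx⟩) = algebraMap K₀ L₀ ⟨x, hx⟩ := σ.commutes _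
  exact congrArg Subtype.val h2

/-- Every nonzero prime of the ring of integers of a number field contains a prime number. -/
theorem exists_prime_natCast_mem {L : Type*} [Field L] [NumberField L] (P : Ideal (𝓞 L))
    [hP : P.IsPrime] (hP0 : P ≠ ⊥) : ∃ ℓ : ℕ, ℓ.Prime ∧ (ℓ : 𝓞 L) ∈ P := by
  haveI : P.IsMaximal := Ring.DimensionLEOne.maximalOfPrime hP0 hP
  obtain ⟨c, hc⟩ := CharP.exists (𝓞 L ⧸ P)
  have hprime : c.Prime := CharP.char_is_prime (𝓞 L ⧸ P) c
  refine ⟨c, hprime, ?_⟩
  rw [← Ideal.Quotient.eq_zero_iff_mem, map_natCast]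
  exact CharP.cast_eq_zero _ c

/-- If every element of an inertia group of `ℚ̄/ℚ` which fixes `K₀` also fixes `L₀`, then
`L₀/K₀` is unramified at every finite prime. -/
theorem isUnramifiedEverywhere_of_inertia {K₀ L₀ : IntermediateField ℚ Qbar} (h : K₀ ≤ L₀)
    [NumberField L₀] [Normal ℚ L₀]
    (hunr : ∀ ℓ : ℕ, ℓ.Prime → ∀ A : ValuationSubring Qbar, A.LiesOverPrime ℓ →
      ∀ σ ∈ A.inertiaSubgroupIn ℚ, σ ∈ K₀.fixingSubgroup → σ ∈ L₀.fixingSubgroup) :
    @IsUnramifiedEverywhere K₀ L₀ _ _ (algebraOfLe h) := by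
  letI := algebraOfLe h
  intro P hP hP0 σ hσ
  haveI : P.IsMaximal := Ring.DimensionLEOne.maximalOfPrime hP0 hP
  obtain ⟨A, hA⟩ := exists_primeOf_eq L₀ P
  obtain ⟨ℓ, hℓ, hℓP⟩ := exists_prime_natCast_mem P hP0
  have hAℓ : A.LiesOverPrime ℓ := liesOverPrime_of_natCast_mem L₀ A (by rw [hA]; exact hℓP)
  have hτ : σ.restrictScalars ℚ ∈ Ideal.inertia (L₀ ≃ₐ[ℚ] L₀) (primeOf L₀ A) := by
    intro x
    rw [hA]
    exact hσ x
  obtain ⟨σ', hσ'I, hσ'⟩ := exists_mem_inertia_restrict_eq L₀ A hℓ hAℓ _ hτ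
  have hσ'K : σ' ∈ K₀.fixingSubgroup := mem_fixingSubgroup_of_restrict_eq h σ hσ'
  have hσ'L := restrictNormalHom_eq_one_of_mem_fixingSubgroup L₀
    (hunr ℓ hℓ A hAℓ σ' hσ'I hσ'K)
  rw [hσ'] at hσ'L
  ext x
  have := congrArg (fun f : L₀ ≃ₐ[ℚ] L₀ => f x) hσ'L
  simpa using this

/-- If every element of a decomposition group of `ℚ̄/ℚ` over `ℓ` which fixes `K₀` also fixes
`L₀`, then the primes of `L₀` over `ℓ` have trivial decomposition group in `Gal(L₀/K₀)`. -/
theorem stabilizer_eq_one_of_decomposition {K₀ L₀ : IntermediateField ℚ Qbar} (h : K₀ ≤ L₀)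
    [Normal ℚ L₀] {ℓ : ℕ} (hℓ : ℓ.Prime)
    (hsplit : ∀ A : ValuationSubring Qbar, A.LiesOverPrime ℓ →
      ∀ σ ∈ A.decompositionSubgroup ℚ, σ ∈ K₀.fixingSubgroup → σ ∈ L₀.fixingSubgroup)
    (P : Ideal (𝓞 L₀)) [P.IsMaximal] (hP : (ℓ : 𝓞 L₀) ∈ P) :
    letI := algebraOfLe h
    ∀ σ : L₀ ≃ₐ[K₀] L₀, (∀ x : 𝓞 L₀, x ∈ P → σ • x ∈ P) → σ = 1 := by
  letI := algebraOfLe h
  intro σ hσ
  obtain ⟨A, hA⟩ := exists_primeOf_eq L₀ P
  have hAℓ : A.LiesOverPrime ℓ := liesOverPrime_of_natCast_mem L₀ A (by rw [hA]; exact hP)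
  have hτ : (σ.restrictScalars ℚ) • primeOf L₀ A = primeOf L₀ A := by
    rw [hA]
    have hfin : ∀ τ : L₀ ≃ₐ[ℚ] L₀, (∀ x : 𝓞 L₀, x ∈ P → τ • x ∈ P) → τ • P ≤ P := by
      intro τ hτ x hx
      rw [Ideal.mem_pointwise_smul_iff_inv_smul_mem] at hx
      have := hτ _ hx
      simpa using this
    have h1 : (σ.restrictScalars ℚ) • P ≤ P := hfin _ hσ
    haveI : ((σ.restrictScalars ℚ) • P).IsMaximal := by
      have hmap : (σ.restrictScalars ℚ) • P =
          Ideal.map (MulSemiringAction.toRingEquiv (L₀ ≃ₐ[ℚ] L₀) (𝓞 L₀) (σ.restrictScalars ℚ)) P :=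
        rfl
      rw [hmap]
      exact Ideal.map_isMaximal_of_equiv _
    exact Ideal.IsMaximal.eq_of_le inferInstance (Ideal.IsPrime.ne_top inferInstance) h1
  obtain ⟨σ', hσ'D, hσ'⟩ := exists_mem_dec_restrict_eq L₀ A hℓ hAℓ _ hτ
  have hσ'K : σ' ∈ K₀.fixingSubgroup := mem_fixingSubgroup_of_restrict_eq h σ hσ'
  have hσ'L := restrictNormalHom_eq_one_of_mem_fixingSubgroup L₀
    (hsplit A hAℓ σ' hσ'D hσ'K)
  rw [hσ'] at hσ'L
  ext x
  have := congrArg (fun f : L₀ ≃ₐ[ℚ] L₀ => f x) hσ'L
  simpa using this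

end Tower

/-! ### The fields attached to an obstruction -/

section Obstruction

variable {p : ℕ} [Fact p.Prime]
variable {ζ : Qbar} (hζ : IsPrimitiveRoot ζ p) {N : Subgroup GQ}
  (hN : helper69.IsObstruction p N)

include hζ hN

theorem cycField_le_fixedField : cycField ζ ≤ IntermediateField.fixedField N := by
  rw [IntermediateField.le_iff_le, ← ker_cycloChar_eq_fixingSubgroup p hζ]
  exact hN.le_ker

theorem finrank_cycField_fixedField :
    @Module.finrank (cycField ζ) (IntermediateField.fixedField N) _ _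
      (algebraOfLe (cycField_le_fixedField hζ hN)).toModule = p := by
  letI := algebraOfLe (cycField_le_fixedField hζ hN)
  haveI := isGalois_Qbar
  haveI := finiteDimensional_fixedField N hN.isOpen
  have h1 := Module.finrank_mul_finrank ℚ (cycField ζ) (IntermediateField.fixedField N)
  have h2 : Module.finrank ℚ (cycField ζ) = (cycloChar p).ker.index := by
    rw [IntermediateField.finrank_eq_fixingSubgroup_index, ker_cycloChar_eq_fixingSubgroup p hζ]
  have h3 := finrank_fixedField N hN.isOpen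
  have h4 : N.relIndex (cycloChar p).ker * (cycloChar p).ker.index = N.index :=
    Subgroup.relIndex_mul_index hN.le_ker
  have h5 : N.relIndex (cycloChar p).ker = p := hN.index
  rw [h2, h3, ← h4, h5, mul_comm] at h1
  have hpos : (cycloChar p).ker.index ≠ 0 := by
    intro h0
    rw [h0, mul_zero] at h4
    have : Module.finrank ℚ (IntermediateField.fixedField N) ≠ 0 := Module.finrank_pos.ne'
    exact this (h3.trans h4.symm)
  exact Nat.eq_of_mul_eq_mul_right (Nat.pos_of_ne_zero hpos) h1

theorem inertia_fixes_of_isObstruction (ℓ : ℕ) (hℓ : ℓ.Prime) (A : ValuationSubring Qbar)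
    (hA : A.LiesOverPrime ℓ) (σ : GQ) (hσ : σ ∈ A.inertiaSubgroupIn ℚ)
    (hσK : σ ∈ (cycField ζ).fixingSubgroup) :
    σ ∈ (IntermediateField.fixedField N).fixingSubgroup := by
  rw [fixingSubgroup_fixedField_of_isOpen N hN.isOpen]
  by_cases hℓp : ℓ = p
  · subst hℓp
    refine hN.split_at_p A hA ⟨?_, ?_⟩
    · exact ((mem_inertiaSubgroupIn_iff_valuation A σ).mp hσ).1
    · rw [SetLike.mem_coe, ker_cycloChar_eq_fixingSubgroup ℓ hζ]; exact hσK
  · exact hN.unramified ℓ hℓ hℓp A hA hσ

theorem decomposition_fixes_of_isObstruction (A : ValuationSubring Qbar)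
    (hA : A.LiesOverPrime p) (σ : GQ) (hσ : σ ∈ A.decompositionSubgroup ℚ)
    (hσK : σ ∈ (cycField ζ).fixingSubgroup) :
    σ ∈ (IntermediateField.fixedField N).fixingSubgroup := by
  rw [fixingSubgroup_fixedField_of_isOpen N hN.isOpen]
  refine hN.split_at_p A hA ⟨hσ, ?_⟩
  rw [SetLike.mem_coe, ker_cycloChar_eq_fixingSubgroup p hζ]; exact hσK

theorem isGalois_cycField_fixedField :
    @IsGalois (cycField ζ) _ (IntermediateField.fixedField N) _
      (algebraOfLe (cycField_le_fixedField hζ hN)) := by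
  letI := algebraOfLe (cycField_le_fixedField hζ hN)
  haveI := hN.normal
  haveI := isGalois_fixedField N hN.isOpen
  exact IsGalois.tower_top_of_isGalois ℚ (cycField ζ) (IntermediateField.fixedField N)

omit [Fact p.Prime] hζ hN in
theorem restrictScalars_pow' {K₀ L₀ : IntermediateField ℚ Qbar} (h : K₀ ≤ L₀) :
    letI := algebraOfLe h
    ∀ (σ : L₀ ≃ₐ[K₀] L₀) (m : ℕ), (σ.restrictScalars ℚ) ^ m = (σ ^ m).restrictScalars ℚ := by
  letI := algebraOfLe h
  intro σ m
  exact (map_pow (AlgEquiv.restrictScalarsHom ℚ) σ m).symm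

/-- The conjugation action of `Gal(L/ℚ)` on `Gal(L/K)` is through the inverse of the
cyclotomic character. -/
theorem hact_of_isObstruction :
    letI := algebraOfLe (cycField_le_fixedField hζ hN)
    ∀ (τ : (IntermediateField.fixedField N) ≃ₐ[ℚ] (IntermediateField.fixedField N))
      (σ : (IntermediateField.fixedField N) ≃ₐ[cycField ζ] (IntermediateField.fixedField N))
      (n : ℕ),
      (∀ z : IntermediateField.fixedField N, z ^ p = 1 → τ z ^ n = z) →
      ∀ x, τ (σ (τ.symm x)) = (σ ^ n) x := by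
  letI := algebraOfLe (cycField_le_fixedField hζ hN)
  haveI := hN.normal
  haveI := isGalois_fixedField N hN.isOpen
  haveI := normal_Qbar
  haveI := finiteDimensional_fixedField N hN.isOpen
  haveI := isGalois_cycField_fixedField hζ hN
  intro τ σ n hn x
  obtain ⟨τ', hτ'⟩ := AlgEquiv.restrictNormalHom_surjective (F := ℚ)
    (K₁ := IntermediateField.fixedField N) Qbar τ
  obtain ⟨s, hs⟩ := AlgEquiv.restrictNormalHom_surjective (F := ℚ)
    (K₁ := IntermediateField.fixedField N) Qbar (σ.restrictScalars ℚ)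
  have hsK : s ∈ (cycField ζ).fixingSubgroup :=
    mem_fixingSubgroup_of_restrict_eq (cycField_le_fixedField hζ hN) σ hs
  have hsH : s ∈ (cycloChar p).ker := by
    rw [ker_cycloChar_eq_fixingSubgroup p hζ]; exact hsK
  have hconj := hN.conj τ' s hsH
  have h1 : AlgEquiv.restrictNormalHom (IntermediateField.fixedField N)
      (τ' * s * τ'⁻¹ * (s ^ cycloExp p τ'⁻¹)⁻¹) = 1 :=
    restrictNormalHom_eq_one_of_mem_fixingSubgroup _
      (by rw [fixingSubgroup_fixedField_of_isOpen N hN.isOpen]; exact hconj)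
  rw [map_mul, map_mul, map_mul, map_inv, map_inv, map_pow, hτ', hs, mul_inv_eq_one] at h1
  -- comparison of the exponents
  have hζL : ζ ∈ IntermediateField.fixedField N :=
    cycField_le_fixedField hζ hN (mem_cycField ζ)
  have hm : ζ ^ n = ζ ^ cycloExp p τ'⁻¹ := by
    have hz : (τ.symm ⟨ζ, hζL⟩) ^ p = 1 := by
      rw [← map_pow]
      have : (⟨ζ, hζL⟩ : IntermediateField.fixedField N) ^ p = 1 :=
        Subtype.ext (by simpa using hζ.pow_eq_one)
      rw [this, map_one]
    have h2 := hn (τ.symm ⟨ζ, hζL⟩) hz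
    rw [AlgEquiv.apply_symm_apply] at h2
    have h3 : ζ ^ n = ((τ.symm ⟨ζ, hζL⟩ : IntermediateField.fixedField N) : Qbar) := by
      have := congrArg Subtype.val h2
      simpa using this
    have h4 : ((τ.symm ⟨ζ, hζL⟩ : IntermediateField.fixedField N) : Qbar) = τ'⁻¹ ζ := by
      have := restrictNormalHom_coe (IntermediateField.fixedField N) τ'⁻¹ ⟨ζ, hζL⟩
      rw [map_inv, hτ'] at this
      exact this
    rw [h3, h4, apply_of_pow_eq_one p τ'⁻¹ hζ.pow_eq_one]
  have hmod : n ≡ cycloExp p τ'⁻¹ [MOD p] := by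
    have hp0 : 0 < p := (Fact.out : p.Prime).pos
    have hred : ∀ k : ℕ, ζ ^ (k % p) = ζ ^ k := by
      intro k
      conv_rhs => rw [← Nat.mod_add_div k p]
      rw [pow_add, pow_mul, hζ.pow_eq_one, one_pow, mul_one]
    exact hζ.pow_inj (Nat.mod_lt _ hp0) (Nat.mod_lt _ hp0) (by rw [hred, hred, hm])
  have hσp : σ ^ p = 1 := by
    haveI : FiniteDimensional (cycField ζ) (IntermediateField.fixedField N) :=
      FiniteDimensional.right ℚ _ _
    have hcard : Nat.card ((IntermediateField.fixedField N) ≃ₐ[cycField ζ]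
        (IntermediateField.fixedField N)) = p := by
      rw [IsGalois.card_aut_eq_finrank]; exact finrank_cycField_fixedField hζ hN
    have := pow_card_eq_one' (G := (IntermediateField.fixedField N) ≃ₐ[cycField ζ]
        (IntermediateField.fixedField N)) (x := σ)
    rwa [hcard] at this
  have hσnm : σ ^ n = σ ^ cycloExp p τ'⁻¹ := by
    rw [pow_eq_pow_iff_modEq]
    exact hmod.of_dvd (orderOf_dvd_of_pow_eq_one hσp)
  rw [hσnm]
  have h5 := congrArg (fun f : (IntermediateField.fixedField N) ≃ₐ[ℚ]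
    (IntermediateField.fixedField N) => f x) h1
  rw [restrictScalars_pow' (cycField_le_fixedField hζ hN)] at h5
  exact h5

theorem isUnramifiedEverywhere_of_isObstruction :
    @IsUnramifiedEverywhere (cycField ζ) (IntermediateField.fixedField N) _ _
      (algebraOfLe (cycField_le_fixedField hζ hN)) := by
  haveI := hN.normal
  haveI := isGalois_fixedField N hN.isOpen
  haveI := finiteDimensional_fixedField N hN.isOpen
  haveI : NumberField (IntermediateField.fixedField N) := ⟨⟩
  exact isUnramifiedEverywhere_of_inertia (cycField_le_fixedField hζ hN)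
    (fun ℓ hℓ A hA σ hσ hσK => inertia_fixes_of_isObstruction hζ hN ℓ hℓ A hA σ hσ hσK)

/-- The primes of `L` over `p` have trivial decomposition group in `Gal(L/K)`. -/
theorem split_at_p_of_isObstruction (P : Ideal (𝓞 (IntermediateField.fixedField N)))
    [P.IsMaximal] (hP : (p : 𝓞 (IntermediateField.fixedField N)) ∈ P) :
    letI := algebraOfLe (cycField_le_fixedField hζ hN)
    ∀ σ : (IntermediateField.fixedField N) ≃ₐ[cycField ζ] (IntermediateField.fixedField N),
      (∀ x : 𝓞 (IntermediateField.fixedField N), x ∈ P → σ • x ∈ P) → σ = 1 := by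
  haveI := hN.normal
  haveI := isGalois_fixedField N hN.isOpen
  exact stabilizer_eq_one_of_decomposition (cycField_le_fixedField hζ hN)
    (Fact.out : p.Prime)
    (fun A hA σ hσ hσK => decomposition_fixes_of_isObstruction hζ hN A hA σ hσ hσK) P hP

end Obstruction

/-! ### The reduction of S14 to the number-theoretic core -/

section Core

variable (p : ℕ) [Fact p.Prime]

/-- The number-theoretic core of S14: there is no unramified cyclic extension `L` of degree `p`
of `K = ℚ(ζ_p)`, Galois over `ℚ`, on which `Gal(K/ℚ)` acts through the inverse of the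
cyclotomic character. -/
def CoreStatement : Prop :=
  ∀ (K L : Type) [Field K] [NumberField K] [Field L] [NumberField L] [Algebra K L]
    [IsCyclotomicExtension {p} ℚ K] [IsGalois ℚ L] [IsGalois K L],
    Module.finrank K L = p → IsUnramifiedEverywhere K L →
    (∀ (τ : Gal(L/ℚ)) (σ : Gal(L/K)) (n : ℕ),
      (∀ ζ : L, ζ ^ p = 1 → τ ζ ^ n = ζ) → ∀ x : L, τ (σ (τ.symm x)) = (σ ^ n) x) → False

variable {p}

/-- **Field translation.** A group-theoretic obstruction produces number fields
`K = ℚ(ζ_p) ⊆ L` satisfying the hypotheses of the core (and moreover the primes of `L`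
over `p` have trivial decomposition group in `Gal(L/K)`). -/
theorem exists_core_data {N : Subgroup GQ} (hN : helper69.IsObstruction p N) :
    ∃ (K L : Type) (_ : Field K) (_ : NumberField K) (_ : Field L) (_ : NumberField L)
      (_ : Algebra K L) (_ : IsCyclotomicExtension {p} ℚ K) (_ : IsGalois ℚ L)
      (_ : IsGalois K L),
      Module.finrank K L = p ∧ IsUnramifiedEverywhere K L ∧
      (∀ (τ : Gal(L/ℚ)) (σ : Gal(L/K)) (n : ℕ),
        (∀ ζ : L, ζ ^ p = 1 → τ ζ ^ n = ζ) → ∀ x : L, τ (σ (τ.symm x)) = (σ ^ n) x) ∧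
      (∀ P : Ideal (𝓞 L), P.IsMaximal → (p : 𝓞 L) ∈ P →
        ∀ σ : Gal(L/K), (∀ x : 𝓞 L, x ∈ P → σ • x ∈ P) → σ = 1) := by
  obtain ⟨ζ, hζ⟩ := exists_primitiveRoot p
  letI := algebraOfLe (cycField_le_fixedField hζ hN)
  haveI := hN.normal
  haveI hGal := isGalois_fixedField N hN.isOpen
  haveI := finiteDimensional_fixedField N hN.isOpen
  haveI hcyc := isCyclotomicExtension_cycField p hζ
  haveI : NumberField (IntermediateField.fixedField N) := ⟨⟩
  haveI : FiniteDimensional ℚ (cycField ζ) := IsCyclotomicExtension.finiteDimensional {p} ℚ _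
  haveI : NumberField (cycField ζ) := ⟨⟩
  exact ⟨cycField ζ, IntermediateField.fixedField N, inferInstance, inferInstance, inferInstance,
    inferInstance, inferInstance, hcyc, hGal, isGalois_cycField_fixedField hζ hN,
    finrank_cycField_fixedField hζ hN, isUnramifiedEverywhere_of_isObstruction hζ hN,
    hact_of_isObstruction hζ hN,
    fun P hP hpP => @split_at_p_of_isObstruction p _ ζ hζ N hN P hP hpP⟩

/-- There is no group-theoretic obstruction, provided the number-theoretic core holds. -/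
theorem not_isObstruction_of_core (hcore : CoreStatement p) (N : Subgroup GQ) :
    ¬ helper69.IsObstruction p N := by
  intro hN
  obtain ⟨K, L, _, _, _, _, _, _, _, _, hdeg, hunr, hact, -⟩ := exists_core_data hN
  exact hcore K L hdeg hunr hact

/-- **S14 from the core.** -/
theorem extVanishingCts_of_core (hcore : CoreStatement p) : ExtVanishingCts p :=
  helper69.extVanishingCts_of_forall_not_isObstruction p
    (fun N => not_isObstruction_of_core hcore N)

end Core

end Fermat.Agent.S14.helper91
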