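import Mathlib
import Fermat.Agent.S14.helper69_Bridge
import Fermat.Agent.S14.helper91_Dictionary

/-!
# S14-R2-K, part A (helper54): the Kummer root by a Lagrange resolvent

Inside `ℚ̄ = AlgebraicClosure ℚ`, for an obstruction subgroup `N` (helper69) and a primitive
`p`-th root of unity `ζ`, we construct `θ ≠ 0` with `s₀ θ = ζ θ` for some `s₀ ∈ H ∖ N`
(`H = ker χ`) and `n θ = θ` for all `n ∈ N`.
-/

set_option autoImplicit false
set_option linter.style.haveILetI false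
set_option linter.unusedSectionVars false

open ExtCitation Fermat.Agent.S14.helper69

namespace Fermat.Agent.S14.helper54

abbrev Qb : Type := AlgebraicClosure ℚ

variable (p : ℕ) [Fact p.Prime]

theorem exists_primitiveRoot_Qb : ∃ ζ : Qb, IsPrimitiveRoot ζ p := by
  haveI : NeZero p := ⟨(Fact.out : p.Prime).ne_zero⟩
  haveI : NeZero (p : Qb) := ⟨Nat.cast_ne_zero.mpr (NeZero.ne p)⟩
  exact HasEnoughRootsOfUnity.exists_primitiveRoot Qb p

variable {p}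

theorem apply_primitiveRoot {ζ : Qb} (hζ : IsPrimitiveRoot ζ p) (σ : GQ) :
    σ ζ = ζ ^ (cycloExp p σ) := by
  haveI : NeZero p := ⟨(Fact.out : p.Prime).ne_zero⟩
  have := modularCyclotomicCharacter.spec Qb (card_rootsOfUnity_eq_self p)
    (σ : Qb ≃+* Qb) (t := (hζ.toRootsOfUnity : Qbˣ)) hζ.toRootsOfUnity.2
  simpa [cycloExp] using this

theorem pow_eq_pow_iff_of_primitiveRoot {F : Type*} [Field F] {ζ : F} (hζ : IsPrimitiveRoot ζ p)
    (a b : ℕ) : ζ ^ a = ζ ^ b ↔ (a : ZMod p) = (b : ZMod p) := by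
  have hp : 0 < p := (Fact.out : p.Prime).pos
  have key : ∀ u : Fˣ, orderOf u = p → (u ^ a = u ^ b ↔ (a : ZMod p) = (b : ZMod p)) := by
    intro u hu
    rw [ZMod.natCast_eq_natCast_iff, pow_eq_pow_iff_modEq, hu]
  have h0 : ζ ≠ 0 := hζ.ne_zero hp.ne'
  have h1 := key (Units.mk0 ζ h0) (by
    rw [← orderOf_units]; exact hζ.eq_orderOf.symm)
  rw [← h1, Units.ext_iff]
  simp

theorem mem_ker_cycloChar_iff {ζ : Qb} (hζ : IsPrimitiveRoot ζ p) (σ : GQ) :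
    σ ∈ (cycloChar p).ker ↔ σ ζ = ζ := by
  haveI : NeZero p := ⟨(Fact.out : p.Prime).ne_zero⟩
  rw [MonoidHom.mem_ker, apply_primitiveRoot hζ]
  have h1 : ζ ^ cycloExp p σ = ζ ↔ ζ ^ cycloExp p σ = ζ ^ 1 := by rw [pow_one]
  rw [h1, pow_eq_pow_iff_of_primitiveRoot hζ, ← coe_cycloChar, Nat.cast_one, Units.ext_iff,
    Units.val_one]

/-- The cyclotomic field `ℚ(ζ)` inside `ℚ̄`. -/
noncomputable abbrev cycField (ζ : Qb) : IntermediateField ℚ Qb := IntermediateField.adjoin ℚ {ζ}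

theorem fixingSubgroup_cycField {ζ : Qb} (hζ : IsPrimitiveRoot ζ p) :
    (cycField ζ).fixingSubgroup = (cycloChar p).ker := by
  ext σ
  rw [mem_ker_cycloChar_iff hζ, IntermediateField.mem_fixingSubgroup_iff]
  constructor
  · intro h
    exact h ζ (IntermediateField.mem_adjoin_simple_self ℚ ζ)
  · intro h
    have hle : cycField ζ ≤ IntermediateField.fixedField (Subgroup.zpowers σ) := by
      rw [IntermediateField.adjoin_le_iff]
      intro x hx
      rw [Set.mem_singleton_iff] at hx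
      subst hx
      rw [SetLike.mem_coe, IntermediateField.mem_fixedField_iff]
      intro g hg
      obtain ⟨k, rfl⟩ := Subgroup.mem_zpowers_iff.mp hg
      have h1 : ∀ n : ℕ, (σ ^ n) x = x := by
        intro n
        induction n with
        | zero => simp
        | succ n ih => rw [pow_succ, AlgEquiv.mul_apply, h, ih]
      have h2 : ∀ n : ℕ, (σ ^ n)⁻¹ x = x := by
        intro n
        have := h1 n
        calc (σ ^ n)⁻¹ x = (σ ^ n)⁻¹ ((σ ^ n) x) := by rw [this]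
          _ = x := by rw [← AlgEquiv.mul_apply, inv_mul_cancel, AlgEquiv.one_apply]
      rcases Int.eq_nat_or_neg k with ⟨n, rfl | rfl⟩
      · rw [zpow_natCast]; exact h1 n
      · rw [zpow_neg, zpow_natCast]; exact h2 n
    intro x hx
    have := hle hx
    rw [IntermediateField.mem_fixedField_iff] at this
    exact this σ (Subgroup.mem_zpowers σ)

theorem mem_cycField_iff {ζ : Qb} (hζ : IsPrimitiveRoot ζ p) (x : Qb) :
    x ∈ cycField ζ ↔ ∀ σ ∈ (cycloChar p).ker, σ x = x := by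
  haveI := Fermat.Agent.S54.helper91.isGalois_Qbar
  conv_lhs => rw [← InfiniteGalois.fixedField_fixingSubgroup (cycField ζ),
    fixingSubgroup_cycField hζ]
  rw [IntermediateField.mem_fixedField_iff]

theorem fixingSubgroup_fixedField_of_isOpen (N : Subgroup GQ) (hN : IsOpen (N : Set GQ)) :
    (IntermediateField.fixedField N).fixingSubgroup = N := by
  haveI := Fermat.Agent.S54.helper91.isGalois_Qbar
  have hcl : IsClosed (N : Set GQ) := Subgroup.isClosed_of_isOpen N hN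
  exact InfiniteGalois.fixingSubgroup_fixedField ⟨N, hcl⟩

theorem mem_of_fixes_fixedField (N : Subgroup GQ) (hN : IsOpen (N : Set GQ)) {σ : GQ}
    (h : ∀ x ∈ IntermediateField.fixedField N, σ x = x) : σ ∈ N := by
  rw [← fixingSubgroup_fixedField_of_isOpen N hN, IntermediateField.mem_fixingSubgroup_iff]
  exact h


/-! ### Group theory of `H / N` -/

section Group

variable {N : Subgroup GQ}

theorem exists_notMem_of_obstruction (hN : IsObstruction p N) :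
    ∃ s₀ ∈ (cycloChar p).ker, s₀ ∉ N := by
  by_contra h
  push Not at h
  have hle : (cycloChar p).ker ≤ N := h
  have h1 : N.subgroupOf (cycloChar p).ker = ⊤ := Subgroup.subgroupOf_eq_top.mpr hle
  have h2 := hN.index
  rw [h1, Subgroup.index_top] at h2
  exact (Fact.out : p.Prime).one_lt.ne h2

theorem exists_pow_mul_mem (hN : IsObstruction p N) {s₀ : GQ} (hs₀ : s₀ ∈ (cycloChar p).ker)
    (hs₀N : s₀ ∉ N) {s : GQ} (hs : s ∈ (cycloChar p).ker) :
    ∃ i : ℕ, (s₀ ^ i)⁻¹ * s ∈ N := by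
  haveI := hN.normal
  haveI : (N.subgroupOf (cycloChar p).ker).Normal := Subgroup.Normal.subgroupOf hN.normal _
  set H := (cycloChar p).ker with hH
  set N' := N.subgroupOf H with hN'
  have hcard : Nat.card (H ⧸ N') = p := by
    rw [← Subgroup.index_eq_card]; exact hN.index
  haveI : Finite (H ⧸ N') := Nat.finite_of_card_ne_zero (by
    rw [hcard]; exact (Fact.out : p.Prime).ne_zero)
  let g : H ⧸ N' := QuotientGroup.mk ⟨s₀, hs₀⟩
  have hg : g ≠ 1 := by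
    intro h
    apply hs₀N
    have := (QuotientGroup.eq_one_iff (N := N') (⟨s₀, hs₀⟩ : H)).mp h
    exact Subgroup.mem_subgroupOf.mp this
  have htop : Subgroup.zpowers g = ⊤ := zpowers_eq_top_of_prime_card hcard hg
  have hmem : (QuotientGroup.mk ⟨s, hs⟩ : H ⧸ N') ∈ Subgroup.zpowers g := by
    rw [htop]; trivial
  rw [← mem_powers_iff_mem_zpowers] at hmem
  obtain ⟨i, hi⟩ := hmem
  refine ⟨i, ?_⟩
  have h1 : (QuotientGroup.mk ((⟨s₀, hs₀⟩ : H) ^ i) : H ⧸ N') = QuotientGroup.mk ⟨s, hs⟩ := by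
    rw [QuotientGroup.mk_pow]; exact hi
  rw [QuotientGroup.eq] at h1
  have h2 := Subgroup.mem_subgroupOf.mp h1
  simpa using h2

theorem pow_prime_mem (hN : IsObstruction p N) {s : GQ} (hs : s ∈ (cycloChar p).ker) :
    s ^ p ∈ N := by
  haveI := hN.normal
  haveI : (N.subgroupOf (cycloChar p).ker).Normal := Subgroup.Normal.subgroupOf hN.normal _
  set H := (cycloChar p).ker with hH
  set N' := N.subgroupOf H with hN'
  have hcard : Nat.card (H ⧸ N') = p := by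
    rw [← Subgroup.index_eq_card]; exact hN.index
  have h1 : ((QuotientGroup.mk ⟨s, hs⟩ : H ⧸ N')) ^ p = 1 := by
    rw [← hcard]; exact pow_card_eq_one'
  rw [← QuotientGroup.mk_pow, QuotientGroup.eq_one_iff] at h1
  have h2 := Subgroup.mem_subgroupOf.mp h1
  simpa using h2

end Group


/-! ### The Lagrange resolvent -/

section Resolvent

/-- The Lagrange resolvent `∑_{i<p} ζ⁻ⁱ s₀ⁱ(x)`. -/
noncomputable def resolvent (p : ℕ) (ζ : Qb) (s₀ : GQ) (x : Qb) : Qb :=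
  ∑ i ∈ Finset.range p, (ζ⁻¹) ^ i * (s₀ ^ i) x

theorem apply_resolvent {ζ : Qb} (hζ : IsPrimitiveRoot ζ p) {s₀ : GQ} (hs₀ : s₀ ζ = ζ) {x : Qb}
    (hx : (s₀ ^ p) x = x) : s₀ (resolvent p ζ s₀ x) = ζ * resolvent p ζ s₀ x := by
  have hp : 0 < p := (Fact.out : p.Prime).pos
  have hζ0 : ζ ≠ 0 := hζ.ne_zero hp.ne'
  obtain ⟨m, hm⟩ : ∃ m, p = m + 1 := ⟨p - 1, by omega⟩
  have hinv : s₀ ζ⁻¹ = ζ⁻¹ := by rw [map_inv₀, hs₀]
  have hpow : (ζ⁻¹) ^ m = ζ := by
    have h1 : ζ ^ (m + 1) = 1 := by rw [← hm]; exact hζ.pow_eq_one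
    have h2 : ζ ^ m * ζ = 1 := by rw [← pow_succ]; exact h1
    rw [inv_pow, eq_inv_of_mul_eq_one_left h2, inv_inv]
  have hL : s₀ (resolvent p ζ s₀ x) = ∑ i ∈ Finset.range p, (ζ⁻¹) ^ i * (s₀ ^ (i + 1)) x := by
    unfold resolvent
    rw [map_sum]
    refine Finset.sum_congr rfl fun i _ => ?_
    rw [map_mul, map_pow, hinv, pow_succ' s₀ i, AlgEquiv.mul_apply]
  have hR : ζ * resolvent p ζ s₀ x =
      ∑ i ∈ Finset.range m, (ζ⁻¹) ^ i * (s₀ ^ (i + 1)) x + ζ * x := by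
    unfold resolvent
    rw [hm, Finset.sum_range_succ', mul_add, Finset.mul_sum]
    congr 1
    · refine Finset.sum_congr rfl fun i _ => ?_
      rw [pow_succ, ← mul_assoc, ← mul_assoc]
      congr 1
      rw [mul_comm ζ, mul_assoc, mul_inv_cancel₀ hζ0, mul_one]
    · simp
  rw [hL, hR, hm, Finset.sum_range_succ, hpow]
  congr 2
  rw [← hm]; exact hx

theorem apply_resolvent_of_mem {N : Subgroup GQ} (hN : N.Normal) {ζ : Qb} {s₀ n : GQ}
    (hn : n ∈ N) (hnζ : n ζ = ζ) {x : Qb} (hx : x ∈ IntermediateField.fixedField N) :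
    n (resolvent p ζ s₀ x) = resolvent p ζ s₀ x := by
  unfold resolvent
  rw [map_sum]
  refine Finset.sum_congr rfl fun i _ => ?_
  rw [map_mul, map_pow, map_inv₀, hnζ]
  congr 1
  have h1 : (s₀ ^ i)⁻¹ * n * (s₀ ^ i) ∈ N := by
    have := hN.conj_mem n hn (s₀ ^ i)⁻¹
    simpa using this
  have h2 : ((s₀ ^ i)⁻¹ * n * (s₀ ^ i)) x = x := by
    rw [IntermediateField.mem_fixedField_iff] at hx
    exact hx _ h1
  calc n ((s₀ ^ i) x) = (s₀ ^ i) (((s₀ ^ i)⁻¹ * n * (s₀ ^ i)) x) := by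
        simp only [AlgEquiv.mul_apply]
        rw [← AlgEquiv.mul_apply (s₀ ^ i), mul_inv_cancel, AlgEquiv.one_apply]
    _ = (s₀ ^ i) x := by rw [h2]


theorem pow_inv_mul_pow_mem_iff {N : Subgroup GQ} (hN : IsObstruction p N) {s₀ : GQ}
    (hs₀ : s₀ ∈ (cycloChar p).ker) (hs₀N : s₀ ∉ N) (i j : ℕ) :
    (s₀ ^ j)⁻¹ * s₀ ^ i ∈ N ↔ (i : ZMod p) = (j : ZMod p) := by
  haveI := hN.normal
  haveI : (N.subgroupOf (cycloChar p).ker).Normal := Subgroup.Normal.subgroupOf hN.normal _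
  set H := (cycloChar p).ker with hH
  set N' := N.subgroupOf H with hN'
  let g : H ⧸ N' := QuotientGroup.mk ⟨s₀, hs₀⟩
  have hg : g ≠ 1 := by
    intro h
    apply hs₀N
    have := (QuotientGroup.eq_one_iff (N := N') (⟨s₀, hs₀⟩ : H)).mp h
    exact Subgroup.mem_subgroupOf.mp this
  have hgp : g ^ p = 1 := by
    rw [← QuotientGroup.mk_pow, QuotientGroup.eq_one_iff]
    rw [Subgroup.mem_subgroupOf]
    simpa using pow_prime_mem hN hs₀
  have hord : orderOf g = p := orderOf_eq_prime hgp hg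
  have h1 : (s₀ ^ j)⁻¹ * s₀ ^ i ∈ N ↔ g ^ j = g ^ i := by
    rw [← QuotientGroup.mk_pow, ← QuotientGroup.mk_pow, QuotientGroup.eq,
      Subgroup.mem_subgroupOf]
    simp
  rw [h1, pow_eq_pow_iff_modEq, hord, ZMod.natCast_eq_natCast_iff]
  exact ⟨fun h => h.symm, fun h => h.symm⟩

theorem exists_resolvent_ne_zero {N : Subgroup GQ} (hN : IsObstruction p N) {ζ : Qb}
    (hζ : IsPrimitiveRoot ζ p) {s₀ : GQ} (hs₀ : s₀ ∈ (cycloChar p).ker) (hs₀N : s₀ ∉ N) :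
    ∃ x ∈ IntermediateField.fixedField N, resolvent p ζ s₀ x ≠ 0 := by
  have hp : 0 < p := (Fact.out : p.Prime).pos
  have hζ0 : ζ ≠ 0 := hζ.ne_zero hp.ne'
  by_contra hcon
  push Not at hcon
  let L := IntermediateField.fixedField N
  let f : Fin p → (L →* Qb) := fun i =>
    ((s₀ ^ (i : ℕ) : GQ) : Qb →* Qb).comp ((L.val : L →+* Qb) : L →* Qb)
  have hf : ∀ (i : Fin p) (x : L), f i x = (s₀ ^ (i : ℕ)) (x : Qb) := fun i x => rfl
  have hinj : Function.Injective f := by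
    intro i j hij
    have h1 : (s₀ ^ (j : ℕ))⁻¹ * s₀ ^ (i : ℕ) ∈ N := by
      apply mem_of_fixes_fixedField N hN.isOpen
      intro x hx
      have h2 : f i ⟨x, hx⟩ = f j ⟨x, hx⟩ := by rw [hij]
      rw [hf, hf] at h2
      rw [AlgEquiv.mul_apply]
      show (s₀ ^ (j : ℕ))⁻¹ ((s₀ ^ (i : ℕ)) x) = x
      rw [h2, ← AlgEquiv.mul_apply, inv_mul_cancel, AlgEquiv.one_apply]
    rw [pow_inv_mul_pow_mem_iff hN hs₀ hs₀N, ZMod.natCast_eq_natCast_iff] at h1
    have h3 : (i : ℕ) % p = (j : ℕ) % p := h1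
    rw [Nat.mod_eq_of_lt i.2, Nat.mod_eq_of_lt j.2] at h3
    exact Fin.ext h3
  have hli : LinearIndependent Qb (fun i : Fin p => (f i : L → Qb)) :=
    (linearIndependent_monoidHom L Qb).comp f hinj
  have hsum : ∑ i : Fin p, ((ζ⁻¹) ^ (i : ℕ)) • (f i : L → Qb) = 0 := by
    funext x
    have := hcon x x.2
    unfold resolvent at this
    rw [Finset.sum_apply, Pi.zero_apply, ← this, ← Fin.sum_univ_eq_sum_range
      (fun i => (ζ⁻¹) ^ i * (s₀ ^ i) (x : Qb)) p]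
    refine Finset.sum_congr rfl fun i _ => ?_
    rw [Pi.smul_apply, smul_eq_mul, hf]
  have h0 := Fintype.linearIndependent_iff.mp hli (fun i => (ζ⁻¹) ^ (i : ℕ)) hsum ⟨0, hp⟩
  simp at h0

/-- **Kummer root.** There are `θ ≠ 0` in `ℚ̄` and `s₀ ∈ H ∖ N` with `s₀ θ = ζ θ` and `n θ = θ` for
all `n ∈ N`. -/
theorem exists_kummer_root {N : Subgroup GQ} (hN : IsObstruction p N) {ζ : Qb}
    (hζ : IsPrimitiveRoot ζ p) :
    ∃ (θ : Qb) (s₀ : GQ), θ ≠ 0 ∧ s₀ ∈ (cycloChar p).ker ∧ s₀ ∉ N ∧ s₀ θ = ζ * θ ∧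
      ∀ n ∈ N, n θ = θ := by
  obtain ⟨s₀, hs₀, hs₀N⟩ := exists_notMem_of_obstruction hN
  obtain ⟨x, hx, hne⟩ := exists_resolvent_ne_zero hN hζ hs₀ hs₀N
  refine ⟨resolvent p ζ s₀ x, s₀, hne, hs₀, hs₀N, ?_, ?_⟩
  · apply apply_resolvent hζ ((mem_ker_cycloChar_iff hζ s₀).mp hs₀)
    rw [IntermediateField.mem_fixedField_iff] at hx
    exact hx _ (pow_prime_mem hN hs₀)
  · intro n hn
    exact apply_resolvent_of_mem hN.normal hn ((mem_ker_cycloChar_iff hζ n).mp (hN.le_ker hn)) hx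

end Resolvent


/-! ### Kummer roots and their formal properties -/

section KummerRoot

/-- `θ` is a Kummer root for the obstruction `N`: `θ ≠ 0`, `N` fixes `θ`, and some `s₀ ∈ H ∖ N`
multiplies `θ` by `ζ`. -/
structure IsKummerRoot (p : ℕ) [Fact p.Prime] (N : Subgroup GQ) (ζ θ : Qb) : Prop where
  ne_zero : θ ≠ 0
  exists_gen : ∃ s₀ ∈ (cycloChar p).ker, s₀ ∉ N ∧ s₀ θ = ζ * θ
  fixed : ∀ n ∈ N, n θ = θ

theorem exists_isKummerRoot {N : Subgroup GQ} (hN : IsObstruction p N) {ζ : Qb}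
    (hζ : IsPrimitiveRoot ζ p) : ∃ θ : Qb, IsKummerRoot p N ζ θ := by
  obtain ⟨θ, s₀, h0, hs₀, hs₀N, h1, h2⟩ := exists_kummer_root hN hζ
  exact ⟨θ, h0, ⟨s₀, hs₀, hs₀N, h1⟩, h2⟩

variable {N : Subgroup GQ} {ζ θ : Qb}

theorem pow_apply_of_apply_eq {s : GQ} {ζ θ : Qb} {i : ℕ} (hsζ : s ζ = ζ) (hs : s θ = ζ ^ i * θ)
    (c : ℕ) : (s ^ c) θ = ζ ^ (i * c) * θ := by
  induction c with
  | zero => simp
  | succ c ih =>
    rw [pow_succ, AlgEquiv.mul_apply, hs, map_mul, map_pow]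
    have h1 : (s ^ c) ζ = ζ := by
      clear ih
      induction c with
      | zero => simp
      | succ c ih => rw [pow_succ, AlgEquiv.mul_apply, hsζ, ih]
    rw [h1, ih, mul_add, mul_one, pow_add]
    ring

theorem IsKummerRoot.apply_eq (hN : IsObstruction p N) (hζ : IsPrimitiveRoot ζ p)
    (h : IsKummerRoot p N ζ θ) {s : GQ} (hs : s ∈ (cycloChar p).ker) :
    ∃ i : ℕ, s θ = ζ ^ i * θ ∧ (s ∈ N ↔ (i : ZMod p) = 0) := by
  obtain ⟨s₀, hs₀, hs₀N, hs₀θ⟩ := h.exists_gen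
  obtain ⟨i, hi⟩ := exists_pow_mul_mem hN hs₀ hs₀N hs
  have hs₀ζ : s₀ ζ = ζ := (mem_ker_cycloChar_iff hζ s₀).mp hs₀
  have hpow : (s₀ ^ i) θ = ζ ^ i * θ := by
    have := pow_apply_of_apply_eq (i := 1) hs₀ζ (by rw [pow_one]; exact hs₀θ) i
    rwa [one_mul] at this
  refine ⟨i, ?_, ?_⟩
  · have h1 : s = s₀ ^ i * ((s₀ ^ i)⁻¹ * s) := by group
    rw [h1, AlgEquiv.mul_apply, h.fixed _ hi, hpow]
  · have h2 := pow_inv_mul_pow_mem_iff hN hs₀ hs₀N i 0
    rw [pow_zero, inv_one, one_mul, Nat.cast_zero] at h2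
    rw [← h2]
    constructor
    · intro hsN
      have : s₀ ^ i = s * ((s₀ ^ i)⁻¹ * s)⁻¹ := by group
      rw [this]
      exact N.mul_mem hsN (N.inv_mem hi)
    · intro hsN
      have : s = s₀ ^ i * ((s₀ ^ i)⁻¹ * s) := by group
      rw [this]
      exact N.mul_mem hsN hi

theorem IsKummerRoot.mem_of_apply_eq (hN : IsObstruction p N) (hζ : IsPrimitiveRoot ζ p)
    (h : IsKummerRoot p N ζ θ) {s : GQ} (hs : s ∈ (cycloChar p).ker) (hsθ : s θ = θ) :
    s ∈ N := by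
  obtain ⟨i, hi, hiN⟩ := h.apply_eq hN hζ hs
  rw [hiN]
  rw [hsθ] at hi
  have h1 : ζ ^ i = 1 := by
    have := mul_right_cancel₀ h.ne_zero (by rw [one_mul]; exact hi : 1 * θ = ζ ^ i * θ)
    exact this.symm
  rw [← Nat.cast_zero, ← pow_eq_pow_iff_of_primitiveRoot hζ, h1, pow_zero]

theorem IsKummerRoot.pow_mem (hN : IsObstruction p N) (hζ : IsPrimitiveRoot ζ p)
    (h : IsKummerRoot p N ζ θ) : θ ^ p ∈ cycField ζ := by
  rw [mem_cycField_iff hζ]
  intro σ hσ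
  obtain ⟨i, hi, -⟩ := h.apply_eq hN hζ hσ
  rw [map_pow, hi, mul_pow, ← pow_mul, mul_comm i p, pow_mul, hζ.pow_eq_one, one_pow, one_mul]

theorem IsKummerRoot.not_exists_pow_eq (hζ : IsPrimitiveRoot ζ p)
    (h : IsKummerRoot p N ζ θ) : ¬ ∃ β ∈ cycField ζ, β ^ p = θ ^ p := by
  haveI : NeZero p := ⟨(Fact.out : p.Prime).ne_zero⟩
  rintro ⟨β, hβ, hβθ⟩
  obtain ⟨s₀, hs₀, hs₀N, hs₀θ⟩ := h.exists_gen
  have hs₀ζ : s₀ ζ = ζ := (mem_ker_cycloChar_iff hζ s₀).mp hs₀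
  have hp : 0 < p := (Fact.out : p.Prime).pos
  have hβ0 : β ≠ 0 := by
    rintro rfl
    rw [zero_pow hp.ne'] at hβθ
    exact h.ne_zero (pow_eq_zero_iff hp.ne' |>.mp hβθ.symm)
  have hs₀β : s₀ β = β := ((mem_cycField_iff hζ β).mp hβ) s₀ hs₀
  have hu : (θ / β) ^ p = 1 := by
    rw [div_pow, hβθ, div_self (pow_ne_zero _ h.ne_zero)]
  obtain ⟨j, -, hj⟩ := hζ.eq_pow_of_pow_eq_one hu
  have h1 : s₀ (θ / β) = θ / β := by
    rw [← hj, map_pow, hs₀ζ]
  rw [map_div₀, hs₀θ, hs₀β, mul_div_assoc] at h1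
  have hne : θ / β ≠ 0 := div_ne_zero h.ne_zero hβ0
  have h2 : ζ = 1 := by
    have := mul_right_cancel₀ hne (by rw [one_mul]; exact h1 : ζ * (θ / β) = 1 * (θ / β))
    exact this
  exact hζ.ne_one (Fact.out : p.Prime).one_lt h2

theorem IsKummerRoot.mul (hζ : IsPrimitiveRoot ζ p) (hN : IsObstruction p N)
    (h : IsKummerRoot p N ζ θ) {c : Qb} (hc : c ∈ cycField ζ) (hc0 : c ≠ 0) :
    IsKummerRoot p N ζ (c * θ) := by
  have hfix := (mem_cycField_iff hζ c).mp hc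
  obtain ⟨s₀, hs₀, hs₀N, hs₀θ⟩ := h.exists_gen
  refine ⟨mul_ne_zero hc0 h.ne_zero, ⟨s₀, hs₀, hs₀N, ?_⟩, fun n hn => ?_⟩
  · rw [map_mul, hfix s₀ hs₀, hs₀θ]; ring
  · rw [map_mul, hfix n (hN.le_ker hn), h.fixed n hn]

/-- The `ω²`-eigen property: for every `τ`, `τ θ / θ ^ (χ(τ)²)` lies in `ℚ(ζ)`. -/
theorem IsKummerRoot.eigen (hN : IsObstruction p N) (hζ : IsPrimitiveRoot ζ p)
    (h : IsKummerRoot p N ζ θ) (τ : GQ) :
    τ θ / θ ^ ((cycloExp p τ) ^ 2) ∈ cycField ζ := by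
  rw [mem_cycField_iff hζ]
  intro s hs
  set c := cycloExp p τ with hc
  obtain ⟨i, hi, -⟩ := h.apply_eq hN hζ hs
  have hsζ : s ζ = ζ := (mem_ker_cycloChar_iff hζ s).mp hs
  have hconj := hN.conj τ⁻¹ s hs
  rw [inv_inv] at hconj
  set n := τ⁻¹ * s * τ * (s ^ c)⁻¹ with hn
  have hnζ : n ζ = ζ := (mem_ker_cycloChar_iff hζ n).mp (hN.le_ker hconj)
  have h1 : s * τ = τ * (n * s ^ c) := by rw [hn]; group
  have h2 : s (τ θ) = ζ ^ (c * (i * c)) * τ θ := by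
    rw [← AlgEquiv.mul_apply, h1, AlgEquiv.mul_apply, AlgEquiv.mul_apply,
      pow_apply_of_apply_eq hsζ hi c, map_mul, map_pow, hnζ, h.fixed n hconj, map_mul, map_pow,
      apply_primitiveRoot hζ τ, ← hc, ← pow_mul]
  rw [map_div₀, map_pow, h2, hi, mul_pow, ← pow_mul]
  have hζ0 : ζ ≠ 0 := hζ.ne_zero (Fact.out : p.Prime).ne_zero
  have e : c * (i * c) = i * c ^ 2 := by ring
  rw [e]
  field_simp

end KummerRoot

end Fermat.Agent.S14.helper54
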