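import Mathlib

/-!
# S14-R2-K, local algebra (helper54): Mathlib-only lemmas on number fields

* `valuation_eq_of_inertia_eq_bot` : trivial inertia group ⇒ the adic valuations agree.
* `valuation_eq_exp_neg_count`, `exists_pow_eq_of_dvd_count` : fractional ideals whose counts
  are all divisible by `p` are `p`-th powers.
* `exists_ideal_pow_eq` : in an everywhere unramified Galois extension `L/K`, if `α ∈ K` is a
  `p`-th power in `L` then `(α) = I ^ p`.
* `exists_local_condition` : the local condition at the prime `(ζ - 1)`.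
-/

set_option autoImplicit false
set_option linter.style.haveILetI false
set_option linter.unusedSectionVars false

open scoped NumberField nonZeroDivisors
open IsDedekindDomain HeightOneSpectrum

namespace Fermat.Agent.S14.helper54

section Count

variable {R : Type*} [CommRing R] [IsDedekindDomain R] (K : Type*) [Field K] [Algebra R K]
  [IsFractionRing R K]

open FractionalIdeal in
theorem valuation_eq_exp_neg_count (v : HeightOneSpectrum R) {x : K} (hx : x ≠ 0) :
    v.valuation K x = WithZero.exp (-(count K v (spanSingleton R⁰ x))) := by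
  classical
  obtain ⟨n, d, hd, rfl⟩ := IsFractionRing.div_surjective (A := R) x
  have hd0 : d ≠ 0 := nonZeroDivisors.ne_zero hd
  have hn0 : n ≠ 0 := by
    rintro rfl
    simp at hx
  have hspan : spanSingleton R⁰ (algebraMap R K n / algebraMap R K d) =
      spanSingleton R⁰ ((algebraMap R K) d)⁻¹ * ((Ideal.span {n} : Ideal R) :
        FractionalIdeal R⁰ K) := by
    rw [coeIdeal_span_singleton, spanSingleton_mul_spanSingleton, div_eq_inv_mul]
  have hne : spanSingleton R⁰ (algebraMap R K n / algebraMap R K d) ≠ 0 := by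
    rw [ne_eq, spanSingleton_eq_zero_iff]
    exact hx
  rw [count_well_defined K v hne hspan, map_div₀, valuation_of_algebraMap,
    valuation_of_algebraMap, intValuation_if_neg v hn0, intValuation_if_neg v hd0,
    ← WithZero.exp_sub]
  congr 1
  ring

open FractionalIdeal in
theorem exists_pow_eq_of_dvd_count {p : ℕ} {I₀ : FractionalIdeal R⁰ K}
    (hp : p ≠ 0) (hI₀ : I₀ ≠ 0) (h : ∀ v : HeightOneSpectrum R, (p : ℤ) ∣ count K v I₀) :
    ∃ I : FractionalIdeal R⁰ K, I ^ p = I₀ := by
  classical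
  choose m hm using h
  have hfin : ∀ᶠ v : HeightOneSpectrum R in Filter.cofinite, m v = 0 := by
    have := finite_factors I₀
    filter_upwards [this] with v hv
    have := hm v
    rw [hv] at this
    have hp' : (p : ℤ) ≠ 0 := by exact_mod_cast hp
    rcases mul_eq_zero.mp this.symm with h1 | h1
    · exact absurd h1 hp'
    · exact h1
  refine ⟨∏ᶠ v : HeightOneSpectrum R, (v.asIdeal : FractionalIdeal R⁰ K) ^ (m v), ?_⟩
  have hsupp : (Function.mulSupport fun v : HeightOneSpectrum R =>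
      (v.asIdeal : FractionalIdeal R⁰ K) ^ (m v)).Finite := by
    refine Set.Finite.subset (Filter.eventually_cofinite.mp hfin) ?_
    intro v hv
    simp only [Function.mem_mulSupport, ne_eq] at hv
    simp only [Set.mem_ofPred_eq]
    intro h0
    apply hv
    rw [h0, zpow_zero]
  rw [finprod_pow hsupp p]
  conv_rhs => rw [← finprod_heightOneSpectrum_factorization' K hI₀]
  apply finprod_congr
  intro v
  rw [hm v, ← zpow_natCast, ← zpow_mul, mul_comm]

end Count

section Unram

variable {K L : Type*} [Field K] [Field L] [NumberField K] [NumberField L] [Algebra K L]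
  [IsGalois K L]

/-- If the inertia group of `w` in `Gal(L/K)` is trivial, the ramification index of `w` over
the prime below is `1`. -/
theorem ramificationIdx_eq_one_of_inertia_eq_bot (v : HeightOneSpectrum (𝓞 K))
    (w : HeightOneSpectrum (𝓞 L)) [w.asIdeal.LiesOver v.asIdeal]
    (h : Ideal.inertia Gal(L/K) w.asIdeal = ⊥) :
    v.asIdeal.ramificationIdx' w.asIdeal = 1 := by
  haveI : v.asIdeal.IsMaximal := v.isMaximal
  have h1 := Ideal.card_inertia_eq_ramificationIdxIn (G := Gal(L/K)) v.asIdeal w.asIdeal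
  rw [h, Subgroup.card_bot] at h1
  rw [Ideal.ramificationIdxIn_eq_ramificationIdx v.asIdeal w.asIdeal Gal(L/K)] at h1
  rw [Ideal.ramificationIdx'_eq_ramificationIdx v.asIdeal w.asIdeal v.ne_bot, ← h1]

theorem valuation_eq_of_inertia_eq_bot (v : HeightOneSpectrum (𝓞 K))
    (w : HeightOneSpectrum (𝓞 L)) [w.asIdeal.LiesOver v.asIdeal]
    (h : Ideal.inertia Gal(L/K) w.asIdeal = ⊥) (x : K) :
    w.valuation L (algebraMap K L x) = v.valuation K x := by
  rw [← valuation_liesOver L v w, ramificationIdx_eq_one_of_inertia_eq_bot v w h, pow_one]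

/-- Every height one prime of `𝓞 K` has a height one prime of `𝓞 L` above it. -/
theorem exists_heightOneSpectrum_liesOver (v : HeightOneSpectrum (𝓞 K)) :
    ∃ w : HeightOneSpectrum (𝓞 L), w.asIdeal.LiesOver v.asIdeal := by
  haveI : v.asIdeal.IsMaximal := v.isMaximal
  obtain ⟨Q, hQ1, hQ2⟩ := Ideal.exists_ideal_over_maximal_of_isIntegral (S := 𝓞 L) v.asIdeal
    (by
      have : RingHom.ker (algebraMap (𝓞 K) (𝓞 L)) = ⊥ :=
        (RingHom.injective_iff_ker_eq_bot _).mp (FaithfulSMul.algebraMap_injective _ _)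
      rw [this]; exact bot_le)
  have hQ0 : Q ≠ ⊥ := by
    rintro rfl
    apply v.ne_bot
    rw [← hQ2]
    exact Ideal.comap_bot_of_injective _ (FaithfulSMul.algebraMap_injective _ _)
  exact ⟨⟨Q, hQ1.isPrime, hQ0⟩, ⟨hQ2.symm⟩⟩

open FractionalIdeal in
theorem dvd_count_of_pow_eq {p : ℕ} (hp : p ≠ 0) (v : HeightOneSpectrum (𝓞 K))
    (w : HeightOneSpectrum (𝓞 L)) [w.asIdeal.LiesOver v.asIdeal]
    (h : Ideal.inertia Gal(L/K) w.asIdeal = ⊥) {α : K} {θ : L} (hα : α ≠ 0)
    (hθ : θ ^ p = algebraMap K L α) :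
    (p : ℤ) ∣ count K v (spanSingleton (𝓞 K)⁰ α) := by
  have hθ0 : θ ≠ 0 := by
    rintro rfl
    rw [zero_pow hp] at hθ
    exact hα ((map_eq_zero _).mp hθ.symm)
  have h1 := valuation_eq_of_inertia_eq_bot v w h α
  rw [← hθ, map_pow, valuation_eq_exp_neg_count L w hθ0, valuation_eq_exp_neg_count K v hα,
    ← WithZero.exp_nsmul, WithZero.exp_inj] at h1
  refine ⟨count L w (spanSingleton (𝓞 L)⁰ θ), ?_⟩
  have h2 : -count K v (spanSingleton (𝓞 K)⁰ α) =
      p • -count L w (spanSingleton (𝓞 L)⁰ θ) := h1.symm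
  rw [nsmul_eq_mul, mul_neg, neg_inj] at h2
  exact h2

open FractionalIdeal in
/-- In an everywhere unramified Galois extension `L/K` of number fields, an element of `K`
which is a `p`-th power in `L` generates the `p`-th power of a fractional ideal. -/
theorem exists_ideal_pow_eq {p : ℕ} (hp : p ≠ 0)
    (hunr : ∀ w : HeightOneSpectrum (𝓞 L), Ideal.inertia Gal(L/K) w.asIdeal = ⊥)
    {α : K} {θ : L} (hα : α ≠ 0) (hθ : θ ^ p = algebraMap K L α) :
    ∃ I : FractionalIdeal (𝓞 K)⁰ K, spanSingleton (𝓞 K)⁰ α = I ^ p := by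
  have hne : spanSingleton (𝓞 K)⁰ α ≠ 0 := by
    rw [ne_eq, spanSingleton_eq_zero_iff]; exact hα
  obtain ⟨I, hI⟩ := exists_pow_eq_of_dvd_count K hp hne (fun v => by
    obtain ⟨w, hw⟩ := exists_heightOneSpectrum_liesOver (L := L) v
    exact dvd_count_of_pow_eq hp v w (hunr w) hα hθ)
  exact ⟨I, hI.symm⟩

end Unram

section Residue

open Polynomial in
/-- In a field `F` of characteristic `p` in which every element satisfies `z ^ p = z`, every
element is the image of an integer. -/
theorem exists_intCast_eq {F : Type*} [Field F] {p : ℕ} [Fact p.Prime]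
    [CharP F p] (hres : ∀ z : F, z ^ p = z) (z : F) : ∃ x : ℤ, z = (x : F) := by
  classical
  have hp : p.Prime := Fact.out
  haveI : NeZero p := ⟨hp.ne_zero⟩
  have hφ : Function.Injective (ZMod.castHom (dvd_refl p) F) := RingHom.injective _
  have hP0 : (X ^ p - X : F[X]) ≠ 0 := FiniteField.X_pow_card_sub_X_ne_zero F hp.one_lt
  have hPdeg : (X ^ p - X : F[X]).natDegree = p :=
    FiniteField.X_pow_card_sub_X_natDegree_eq F hp.one_lt
  have hroot : ∀ z : F, z ∈ (X ^ p - X : F[X]).roots := by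
    intro z
    rw [mem_roots hP0, IsRoot.def, eval_sub, eval_pow, eval_X, hres z, sub_self]
  have hZ₀ : (Finset.image (ZMod.castHom (dvd_refl p) F) Finset.univ).card = p := by
    rw [Finset.card_image_of_injective _ hφ, Finset.card_univ, ZMod.card]
  by_cases hy : z ∈ Finset.image (ZMod.castHom (dvd_refl p) F) Finset.univ
  · obtain ⟨a, -, ha⟩ := Finset.mem_image.mp hy
    refine ⟨(a.val : ℤ), ?_⟩
    rw [← ha, Int.cast_natCast]
    conv_lhs => rw [← ZMod.natCast_zmod_val a]
    exact map_natCast _ _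
  · exfalso
    have hsub : (insert z (Finset.image (ZMod.castHom (dvd_refl p) F) Finset.univ)).val ⊆
        (X ^ p - X : F[X]).roots := by
      intro z _
      exact hroot z
    have := card_le_degree_of_subset_roots hsub
    rw [Finset.card_insert_of_notMem hy, hZ₀, hPdeg] at this
    omega

theorem exists_int_sub_mem {R : Type*} [CommRing R] {p : ℕ} [Fact p.Prime] (w : Ideal R)
    [w.IsMaximal] (hpw : (p : R) ∈ w) (hres : ∀ y : R, y ^ p - y ∈ w) (y : R) :
    ∃ x : ℤ, y - x ∈ w := by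
  have hp : p.Prime := Fact.out
  letI : Field (R ⧸ w) := Ideal.Quotient.field w
  haveI : CharP (R ⧸ w) p := by
    rw [CharP.charP_iff_prime_eq_zero hp]
    have : Ideal.Quotient.mk w (p : R) = 0 := Ideal.Quotient.eq_zero_iff_mem.mpr hpw
    rwa [map_natCast] at this
  have h1 : ∀ z : R ⧸ w, z ^ p = z := by
    intro z
    obtain ⟨z', rfl⟩ := Ideal.Quotient.mk_surjective z
    rw [← map_pow, ← sub_eq_zero, ← map_sub]
    exact Ideal.Quotient.eq_zero_iff_mem.mpr (hres z')
  obtain ⟨x, hx⟩ := exists_intCast_eq h1 (Ideal.Quotient.mk w y)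
  refine ⟨x, ?_⟩
  rw [← Ideal.Quotient.eq_zero_iff_mem, map_sub, hx, map_intCast, sub_self]

end Residue

section LocalP

theorem lt_one_iff_le_exp_neg_one (x : WithZero (Multiplicative ℤ)) :
    x < 1 ↔ x ≤ WithZero.exp (-1 : ℤ) := by
  rcases eq_or_ne x 0 with rfl | hx
  · simp
  · obtain ⟨n, rfl⟩ : ∃ n : ℤ, x = WithZero.exp n := ⟨WithZero.log x, (WithZero.exp_log hx).symm⟩
    rw [← WithZero.exp_zero, WithZero.exp_lt_exp, WithZero.exp_le_exp]
    omega

variable {K L : Type*} [Field K] [Field L] [NumberField K] [NumberField L] [Algebra K L]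
  [IsGalois K L]

theorem valuation_intCast_le_one' (w : HeightOneSpectrum (𝓞 L)) (x : ℤ) :
    w.valuation L (x : L) ≤ 1 := by
  have : (x : L) = algebraMap (𝓞 L) L (x : 𝓞 L) := by simp
  rw [this]
  exact valuation_le_one w _

theorem exists_local_condition {p : ℕ} [Fact p.Prime] (hp3 : 3 ≤ p)
    {ζ : 𝓞 K} (hζ : IsPrimitiveRoot ζ p)
    (v : HeightOneSpectrum (𝓞 K)) (hv : v.asIdeal = Ideal.span {ζ - 1})
    (hpv : (p : 𝓞 K) ∈ v.asIdeal)
    (w : HeightOneSpectrum (𝓞 L)) [w.asIdeal.LiesOver v.asIdeal]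
    (hin : Ideal.inertia Gal(L/K) w.asIdeal = ⊥)
    (hres : ∀ y : 𝓞 L, y ^ p - y ∈ w.asIdeal)
    {α : K} {θ : L} (hθ : θ ^ p = algebraMap K L α) (hunit : w.valuation L θ = 1) :
    ∃ (a b : 𝓞 K) (x : ℤ), ¬ (ζ - 1 ∣ a) ∧ ¬ (ζ - 1 ∣ b) ∧ α * (b : K) = (a : K) ∧
      (ζ - 1) ^ 3 ∣ a - x * b := by
  have hp : p.Prime := Fact.out
  haveI : w.asIdeal.IsMaximal := w.isMaximal
  have hmemw : ∀ z : 𝓞 K, z ∈ v.asIdeal → algebraMap (𝓞 K) (𝓞 L) z ∈ w.asIdeal := by
    intro z hz
    rw [Ideal.over_def w.asIdeal v.asIdeal] at hz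
    exact hz
  have hpw : (p : 𝓞 L) ∈ w.asIdeal := by
    have := hmemw _ hpv
    rwa [map_natCast] at this
  -- Step 1: `θ` is congruent to an integer modulo `w`
  obtain ⟨y, d, hyd⟩ := exists_primeCompl_mul_eq_of_integer w θ hunit.le
  obtain ⟨x₁, hx₁⟩ := exists_int_sub_mem w.asIdeal hpw hres y
  obtain ⟨x₂, hx₂⟩ := exists_int_sub_mem w.asIdeal hpw hres (d : 𝓞 L)
  have hx₂p : ¬ (p : ℤ) ∣ x₂ := by
    intro hdvd
    apply d.2
    obtain ⟨c, hc⟩ := hdvd
    have h1 : ((x₂ : ℤ) : 𝓞 L) ∈ w.asIdeal := by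
      rw [hc]; push_cast; exact Ideal.mul_mem_right _ _ hpw
    have h2 := w.asIdeal.add_mem hx₂ h1
    simpa using h2
  obtain ⟨x, hx⟩ : ∃ x : ℤ, (p : ℤ) ∣ x * x₂ - x₁ := by
    have hirr : Irreducible (p : ℤ) := (Nat.prime_iff_prime_int.mp hp).irreducible
    have hcop : IsCoprime (p : ℤ) x₂ := (Irreducible.coprime_iff_not_dvd hirr).mpr hx₂p
    obtain ⟨t, u, hut⟩ := hcop
    refine ⟨x₁ * u, ⟨-(x₁ * t), ?_⟩⟩
    linear_combination x₁ * hut
  have hW : w.valuation L (θ - (x : L)) < 1 := by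
    have hyx : y - x * (d : 𝓞 L) ∈ w.asIdeal := by
      obtain ⟨c, hc⟩ := hx
      have h3 : ((x * x₂ - x₁ : ℤ) : 𝓞 L) ∈ w.asIdeal := by
        rw [hc]; push_cast; exact Ideal.mul_mem_right _ _ hpw
      have h4 : y - x * (d : 𝓞 L) =
          (y - x₁) - x * ((d : 𝓞 L) - x₂) - ((x * x₂ - x₁ : ℤ) : 𝓞 L) := by
        push_cast; ring
      rw [h4]
      exact sub_mem (sub_mem hx₁ (Ideal.mul_mem_left _ _ hx₂)) h3
    have h5 : (θ - x) * algebraMap (𝓞 L) L d = algebraMap (𝓞 L) L (y - x * d) := by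
      rw [sub_mul, hyd]; simp
    have hd1 : w.valuation L (algebraMap (𝓞 L) L d) = 1 := by
      rw [valuation_of_algebraMap]
      exact (intValuation_eq_one_iff_mem_primeCompl w _).mpr d.2
    have h6 : w.valuation L (algebraMap (𝓞 L) L (y - x * d)) < 1 := by
      rw [valuation_lt_one_iff_mem]; exact hyx
    have h7 := congrArg (w.valuation L) h5
    rw [map_mul, hd1, mul_one] at h7
    rw [h7]; exact h6
  -- Step 2: the product formula
  have hζL : IsPrimitiveRoot (algebraMap (𝓞 K) L ζ) p :=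
    hζ.map_of_injective (FaithfulSMul.algebraMap_injective _ _)
  have hroot : ∀ η ∈ Polynomial.nthRootsFinset p (1 : L), w.valuation L (1 - η) < 1 := by
    intro η hη
    rw [Polynomial.mem_nthRootsFinset hp.pos] at hη
    obtain ⟨i, -, rfl⟩ := hζL.eq_pow_of_pow_eq_one hη
    have h7 : (1 - ζ ^ i : 𝓞 K) ∈ v.asIdeal := by
      rw [hv, Ideal.mem_span_singleton]
      have h8 := sub_dvd_pow_sub_pow ζ 1 i
      rw [one_pow] at h8
      have h9 : (1 - ζ ^ i : 𝓞 K) = -(ζ ^ i - 1) := by ring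
      rw [h9]
      exact (dvd_neg).mpr h8
    have h8 := hmemw _ h7
    have h9 : (1 - algebraMap (𝓞 K) L ζ ^ i : L) =
        algebraMap (𝓞 L) L (algebraMap (𝓞 K) (𝓞 L) (1 - ζ ^ i)) := by
      rw [← IsScalarTower.algebraMap_apply]; simp
    rw [h9, valuation_lt_one_iff_mem]; exact h8
  have hfac : ∀ η ∈ Polynomial.nthRootsFinset p (1 : L),
      w.valuation L (θ - η * x) ≤ WithZero.exp (-1 : ℤ) := by
    intro η hη
    rw [← lt_one_iff_le_exp_neg_one]
    have h10 : θ - η * x = (θ - x) + x * (1 - η) := by ring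
    rw [h10]
    refine lt_of_le_of_lt (Valuation.map_add _ _ _) (max_lt hW ?_)
    rw [map_mul]
    calc w.valuation L (x : L) * w.valuation L (1 - η)
        ≤ 1 * w.valuation L (1 - η) := by
          gcongr
          exact valuation_intCast_le_one' w x
      _ < 1 := by rw [one_mul]; exact hroot η hη
  have hprod : w.valuation L (θ ^ p - (x : L) ^ p) ≤ WithZero.exp (-(p : ℤ)) := by
    rw [hζL.pow_sub_pow_eq_prod_sub_mul _ _ hp.pos, map_prod]
    calc ∏ η ∈ Polynomial.nthRootsFinset p (1 : L), w.valuation L (θ - η * x)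
        ≤ ∏ η ∈ Polynomial.nthRootsFinset p (1 : L), WithZero.exp (-1 : ℤ) :=
          Finset.prod_le_prod (fun _ _ => zero_le) hfac
      _ = WithZero.exp (-1 : ℤ) ^ p := by rw [Finset.prod_const, hζL.card_nthRootsFinset]
      _ = WithZero.exp (-(p : ℤ)) := by rw [← WithZero.exp_nsmul]; simp
  -- Step 3: descend to `K`
  have hVα : v.valuation K α = 1 := by
    rw [← valuation_eq_of_inertia_eq_bot v w hin, ← hθ, map_pow, hunit, one_pow]
  have hVsub : v.valuation K (α - (x : K) ^ p) ≤ WithZero.exp (-(3 : ℤ)) := by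
    rw [← valuation_eq_of_inertia_eq_bot v w hin, map_sub, ← hθ, map_pow, map_intCast]
    refine hprod.trans ?_
    rw [WithZero.exp_le_exp]
    omega
  obtain ⟨a, ⟨b, hb⟩, hab⟩ := exists_primeCompl_mul_eq_of_integer v α hVα.le
  simp only at hab
  have hb1 : v.valuation K (algebraMap (𝓞 K) K b) = 1 := by
    rw [valuation_of_algebraMap]
    exact (intValuation_eq_one_iff_mem_primeCompl v _).mpr hb
  have ha1 : v.valuation K (algebraMap (𝓞 K) K a) = 1 := by
    rw [← hab, map_mul, hVα, hb1, one_mul]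
  refine ⟨a, b, x ^ p, ?_, ?_, hab, ?_⟩
  · rw [← Ideal.mem_span_singleton, ← hv]
    intro ha
    have := (valuation_lt_one_iff_mem (K := K) v a).mpr ha
    rw [ha1] at this
    exact lt_irrefl _ this
  · rw [← Ideal.mem_span_singleton, ← hv]
    exact hb
  · have h11 : algebraMap (𝓞 K) K (a - (x ^ p : ℤ) * b) =
        (α - (x : K) ^ p) * algebraMap (𝓞 K) K b := by
      rw [sub_mul, hab]; simp
    have h12 : v.intValuation (a - (x ^ p : ℤ) * (b : 𝓞 K)) ≤ WithZero.exp (-(3 : ℤ)) := by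
      rw [← valuation_of_algebraMap (K := K)]
      show v.valuation K (algebraMap (𝓞 K) K (a - (x ^ p : ℤ) * b)) ≤ _
      rw [h11, map_mul, hb1, mul_one]
      exact hVsub
    have h13 := (intValuation_le_pow_iff_dvd v _ 3).mp h12
    rw [hv, Ideal.span_singleton_pow, Ideal.dvd_span_singleton, Ideal.mem_span_singleton] at h13
    exact h13

/-- Normalisation: multiplying `θ` by a suitable power of a uniformiser `π` of `v` makes it a
unit at `w` (when `w` is unramified over `v`). -/
theorem exists_zpow_mul_valuation_eq_one (v : HeightOneSpectrum (𝓞 K))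
    (w : HeightOneSpectrum (𝓞 L)) [w.asIdeal.LiesOver v.asIdeal]
    (hin : Ideal.inertia Gal(L/K) w.asIdeal = ⊥) {π : K}
    (hπ : v.valuation K π = WithZero.exp (-1 : ℤ)) {θ : L} (hθ0 : θ ≠ 0) :
    ∃ m : ℤ, w.valuation L (algebraMap K L (π ^ m) * θ) = 1 := by
  have h0 : w.valuation L θ ≠ 0 := (Valuation.ne_zero_iff _).mpr hθ0
  obtain ⟨n, hn⟩ : ∃ n : ℤ, w.valuation L θ = WithZero.exp n :=
    ⟨WithZero.log (w.valuation L θ), (WithZero.exp_log h0).symm⟩
  refine ⟨n, ?_⟩
  rw [map_mul, valuation_eq_of_inertia_eq_bot v w hin, map_zpow₀, hπ, hn, ← WithZero.exp_zsmul,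
    ← WithZero.exp_add]
  simp

end LocalP

end Fermat.Agent.S14.helper54
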