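import Mathlib
import Fermat.Agent.S14.Defs
import Fermat.Agent.S14.helper12_Artin

/-!
# S14-(2a-i2) : trivial inertia ⇔ ramification index one

For a finite Galois extension `L/K` of number fields, `IsUnramifiedEverywhere K L` (all inertia
groups trivial) holds iff every nonzero prime of `𝓞 L` has ramification index `1` over `𝓞 K`.
-/

set_option autoImplicit false
set_option linter.unusedSectionVars false
set_option linter.style.haveILetI false

open scoped NumberField Pointwise

namespace Fermat.Agent.S14.helper90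

open Fermat.Agent.S14

variable {K L : Type*} [Field K] [NumberField K] [Field L] [NumberField L] [Algebra K L]
  [IsGalois K L]

/-- The inertia group of a nonzero prime has as many elements as the ramification index. -/
theorem card_inertia_eq_ramificationIdx (P : Ideal (𝓞 L)) [P.IsPrime] (hP : P ≠ ⊥) :
    Nat.card (Ideal.inertia Gal(L/K) P) = P.ramificationIdx (𝓞 K) := by
  have hp : P.under (𝓞 K) ≠ ⊥ := Ideal.under_ne_bot (𝓞 K) hP
  haveI : (P.under (𝓞 K)).IsMaximal := Ring.DimensionLEOne.maximalOfPrime hp inferInstance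
  rw [Ideal.card_inertia_eq_ramificationIdxIn (G := Gal(L/K)) (P.under (𝓞 K)) P,
    Ideal.ramificationIdxIn_eq_ramificationIdx (P.under (𝓞 K)) P Gal(L/K)]

theorem ramificationIdx_eq_one_of_isUnramifiedEverywhere
    (h : Fermat.Agent.S14.IsUnramifiedEverywhere K L)
    (P : Ideal (𝓞 L)) [P.IsPrime] (hP : P ≠ ⊥) : P.ramificationIdx (𝓞 K) = 1 := by
  rw [← card_inertia_eq_ramificationIdx (K := K) P hP]
  exact helper12.card_inertia_eq_one K L P (h P inferInstance hP)

/-- Converse: ramification index one at every nonzero prime implies trivial inertia. -/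
theorem isUnramifiedEverywhere_of_ramificationIdx_eq_one
    (h : ∀ (P : Ideal (𝓞 L)), P.IsPrime → P ≠ ⊥ → P.ramificationIdx (𝓞 K) = 1) :
    Fermat.Agent.S14.IsUnramifiedEverywhere K L := by
  intro P hPprime hP σ hσ
  haveI := hPprime
  have hcard : Nat.card (Ideal.inertia Gal(L/K) P) = 1 := by
    rw [card_inertia_eq_ramificationIdx (K := K) P hP, h P hPprime hP]
  have hmem : σ ∈ Ideal.inertia Gal(L/K) P := fun x => hσ x
  have hsub : Subsingleton (Ideal.inertia Gal(L/K) P) :=
    (Nat.card_eq_one_iff_unique.mp hcard).1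
  have := Subsingleton.elim (⟨σ, hmem⟩ : Ideal.inertia Gal(L/K) P) 1
  exact congrArg Subtype.val this

theorem isUnramifiedEverywhere_iff :
    Fermat.Agent.S14.IsUnramifiedEverywhere K L ↔
      ∀ (P : Ideal (𝓞 L)), P.IsPrime → P ≠ ⊥ → P.ramificationIdx (𝓞 K) = 1 :=
  ⟨fun h P hPp hP => by
      haveI := hPp
      exact ramificationIdx_eq_one_of_isUnramifiedEverywhere h P hP,
    isUnramifiedEverywhere_of_ramificationIdx_eq_one⟩

end Fermat.Agent.S14.helper90
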