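import Mathlib

/-!
# S14 (AN1): Euler product for completely multiplicative functions of ideals (helper69)

For a Dedekind domain `R`, a normed field `𝕜` and a completely multiplicative function
`f : Ideal R →*₀ 𝕜` which is summable over the ideals of `R`, we prove the Euler product

  `HasProd (fun v : HeightOneSpectrum R ↦ (1 - f v.asIdeal)⁻¹) (∑' I, f I)`.

The proof is the classical one: for a finite set `F` of primes and an exponent bound `E`, the
product `∏_{P ∈ F} ∑_{k < E} f(P)^k` is the sum of `f` over the "box" of ideals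
`∏_{P ∈ F} P ^ e_P`, `e_P < E` (unique factorisation of ideals), and boxes exhaust the nonzero
ideals.
-/

set_option autoImplicit false

open IsDedekindDomain UniqueFactorizationMonoid Filter Topology

namespace Fermat.Agent.S14.helper69

section Box

variable {R : Type*} [CommRing R] [IsDedekindDomain R]

/-- The ideal `∏_{P ∈ F} P ^ e P` attached to an exponent vector on a finite set of ideals. -/
noncomputable def boxMap (F : Finset (Ideal R)) (e : F → ℕ) : Ideal R :=
  ∏ P : F, (P : Ideal R) ^ e P

open Classical in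
/-- The finite set of ideals `∏_{P ∈ F} P ^ e P` with all `e P < E`. -/
noncomputable def box (F : Finset (Ideal R)) (E : ℕ) : Finset (Ideal R) :=
  (Fintype.piFinset fun _ : F => Finset.range E).image (boxMap F)

lemma count_normalizedFactors_boxMap {F : Finset (Ideal R)} (hF : ∀ P ∈ F, Prime P)
    (e : F → ℕ) (P₀ : F) [DecidableEq (Ideal R)] :
    (normalizedFactors (boxMap F e)).count (P₀ : Ideal R) = e P₀ := by
  classical
  have h1 : boxMap F e = (∑ P : F, e P • ({(P : Ideal R)} : Multiset (Ideal R))).prod := by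
    rw [boxMap, Multiset.prod_sum]
    refine Finset.prod_congr rfl fun P _ => ?_
    rw [Multiset.prod_nsmul, Multiset.prod_singleton]
  rw [h1, normalizedFactors_prod_of_prime]
  · rw [Multiset.count_sum']
    rw [Finset.sum_eq_single P₀]
    · simp
    · intro P _ hP
      rw [Multiset.count_nsmul, Multiset.count_singleton]
      have : (P₀ : Ideal R) ≠ P := fun h => hP (Subtype.ext h.symm)
      simp [this]
    · intro h; exact absurd (Finset.mem_univ _) h
  · intro P hP
    obtain ⟨Q, -, hQ⟩ := Multiset.mem_sum.mp hP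
    have : P = Q := by
      have := Multiset.mem_of_mem_nsmul hQ
      simpa using this
    rw [this]
    exact hF Q Q.2

lemma boxMap_injective {F : Finset (Ideal R)} (hF : ∀ P ∈ F, Prime P) :
    Function.Injective (boxMap F) := by
  classical
  intro e e' h
  funext P₀
  rw [← count_normalizedFactors_boxMap hF e P₀, ← count_normalizedFactors_boxMap hF e' P₀, h]

/-- The finite Euler identity. -/
lemma prod_sum_pow_eq_sum_box {A : Type*} [CommSemiring A] {Φ : Type*} [FunLike Φ (Ideal R) A]
    [MonoidHomClass Φ (Ideal R) A] (f : Φ)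
    {F : Finset (Ideal R)} (hF : ∀ P ∈ F, Prime P) (E : ℕ) :
    ∏ P ∈ F, ∑ k ∈ Finset.range E, f P ^ k = ∑ I ∈ box F E, f I := by
  classical
  rw [box, Finset.sum_image (fun _ _ _ _ h => boxMap_injective hF h),
    ← Finset.prod_coe_sort F (fun P => ∑ k ∈ Finset.range E, f P ^ k), Finset.prod_univ_sum]
  refine Finset.sum_congr rfl fun e _ => ?_
  simp [boxMap, map_prod, map_pow]

lemma mem_box {I : Ideal R} (hI : I ≠ ⊥) {F : Finset (Ideal R)} {E : ℕ}
    (hF : ∀ P ∈ normalizedFactors I, P ∈ F)
    (hE : ∀ P, Multiset.count P (normalizedFactors I) < E) : I ∈ box F E := by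
  classical
  rw [box, Finset.mem_image]
  refine ⟨fun P => Multiset.count (P : Ideal R) (normalizedFactors I), ?_, ?_⟩
  · simp [Fintype.mem_piFinset, hE]
  · rw [boxMap, Finset.prod_coe_sort F (fun P => P ^ Multiset.count P (normalizedFactors I))]
    rw [← Finset.prod_subset (s₁ := (normalizedFactors I).toFinset)]
    · rw [← Finset.prod_multiset_count, Ideal.prod_normalizedFactors_eq_self hI]
    · intro P hP
      exact hF P (Multiset.mem_toFinset.mp hP)
    · intro P _ hP
      rw [Multiset.mem_toFinset] at hP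
      rw [Multiset.count_eq_zero_of_notMem hP, pow_zero]

lemma bot_notMem_box {F : Finset (Ideal R)} (hF : ∀ P ∈ F, Prime P) (E : ℕ) :
    (⊥ : Ideal R) ∉ box F E := by
  classical
  rw [box, Finset.mem_image]
  rintro ⟨e, -, he⟩
  rw [boxMap, ← Ideal.zero_eq_bot, Finset.prod_eq_zero_iff] at he
  obtain ⟨P, -, hP⟩ := he
  exact pow_ne_zero _ (hF P P.2).ne_zero hP

end Box

section Euler

variable {R : Type*} [CommRing R] [IsDedekindDomain R] {𝕜 : Type*} [NormedField 𝕜]

/-- A summable completely multiplicative function of ideals has norm `< 1` at every nonzero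
prime. -/
lemma norm_lt_one_of_summable (f : Ideal R →*₀ 𝕜) (hsum : Summable f)
    (v : HeightOneSpectrum R) : ‖f v.asIdeal‖ < 1 := by
  have hinj : Function.Injective (fun k : ℕ => v.asIdeal ^ k) :=
    (Ideal.pow_right_strictAnti v.asIdeal v.ne_bot v.isPrime.ne_top).injective
  have h1 : Tendsto (fun k : ℕ => f (v.asIdeal ^ k)) cofinite (𝓝 0) :=
    hsum.tendsto_cofinite_zero.comp hinj.tendsto_cofinite
  rw [Nat.cofinite_eq_atTop] at h1
  simp only [map_pow] at h1
  exact tendsto_pow_atTop_nhds_zero_iff_norm_lt_one.mp h1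

/-- **Euler product** for a summable completely multiplicative function of the ideals of a
Dedekind domain. -/
theorem hasProd_euler (f : Ideal R →*₀ 𝕜) (hsum : Summable f) :
    HasProd (fun v : HeightOneSpectrum R => (1 - f v.asIdeal)⁻¹) (∑' I : Ideal R, f I) := by
  classical
  have hS : Tendsto (fun J : Finset (Ideal R) => ∑ I ∈ J, f I) atTop (𝓝 (∑' I, f I)) := by
    simpa [HasSum] using hsum.hasSum
  rw [HasProd, SummationFilter.unconditional_filter, Metric.tendsto_atTop]
  intro ε hε
  obtain ⟨J₀, hJ₀⟩ := (Metric.tendsto_atTop.mp hS) (ε / 2) (half_pos hε)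
  -- the primes dividing the members of `J₀`
  let G : Finset (Ideal R) := J₀.biUnion fun I => (normalizedFactors I).toFinset
  let F₀ : Finset (HeightOneSpectrum R) :=
    G.preimage HeightOneSpectrum.asIdeal (fun v _ w _ h => HeightOneSpectrum.ext h)
  let E₀ : ℕ := (J₀.sup fun I => Multiset.card (normalizedFactors I)) + 1
  refine ⟨F₀, fun F hF => ?_⟩
  let F' : Finset (Ideal R) := F.image HeightOneSpectrum.asIdeal
  have hF' : ∀ P ∈ F', Prime P := by
    intro P hP
    obtain ⟨v, -, rfl⟩ := Finset.mem_image.mp hP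
    exact v.prime
  have hprod : ∀ g : Ideal R → 𝕜, ∏ P ∈ F', g P = ∏ v ∈ F, g v.asIdeal := fun g =>
    Finset.prod_image (fun v _ w _ h => HeightOneSpectrum.ext h)
  -- every nonzero member of `J₀` lies in the box
  have hbox : ∀ E, E₀ ≤ E → ∀ I ∈ J₀, I ≠ ⊥ → I ∈ box F' E := by
    intro E hE I hI hI0
    refine mem_box hI0 (fun P hP => ?_) (fun P => ?_)
    · have hPprime : Prime P := prime_of_normalized_factor P hP
      have hP0 : P ≠ ⊥ := hPprime.ne_zero
      let v : HeightOneSpectrum R := ⟨P, (Ideal.prime_iff_isPrime hP0).mp hPprime, hP0⟩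
      have hv : v ∈ F₀ := by
        refine Finset.mem_preimage.mpr (Finset.mem_biUnion.mpr ?_)
        exact ⟨I, hI, Multiset.mem_toFinset.mpr hP⟩
      exact Finset.mem_image.mpr ⟨v, hF hv, rfl⟩
    · calc Multiset.count P (normalizedFactors I) ≤ Multiset.card (normalizedFactors I) :=
            Multiset.count_le_card _ _
        _ ≤ J₀.sup fun I => Multiset.card (normalizedFactors I) :=
            Finset.le_sup (f := fun I => Multiset.card (normalizedFactors I)) hI
        _ < E := by omega
  -- hence the truncated products are close to the sum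
  have hclose : ∀ E, E₀ ≤ E →
      dist (∏ v ∈ F, ∑ k ∈ Finset.range E, f v.asIdeal ^ k) (∑' I, f I) < ε / 2 := by
    intro E hE
    have h1 := hJ₀ (box F' E ∪ J₀) Finset.subset_union_right
    have h2 : ∑ I ∈ box F' E ∪ J₀, f I = ∑ I ∈ box F' E, f I := by
      refine (Finset.sum_subset Finset.subset_union_left fun I hI hI' => ?_).symm
      rcases Finset.mem_union.mp hI with h | h
      · exact absurd h hI'
      · by_cases hI0 : I = ⊥
        · rw [hI0, ← Ideal.zero_eq_bot, map_zero]
        · exact absurd (hbox E hE I h hI0) hI'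
    rw [h2, ← prod_sum_pow_eq_sum_box f hF' E, hprod] at h1
    exact h1
  -- pass to the limit `E → ∞`
  have hlim : Tendsto (fun E : ℕ => ∏ v ∈ F, ∑ k ∈ Finset.range E, f v.asIdeal ^ k) atTop
      (𝓝 (∏ v ∈ F, (1 - f v.asIdeal)⁻¹)) :=
    tendsto_finsetProd F fun v _ =>
      (hasSum_geometric_of_norm_lt_one (norm_lt_one_of_summable f hsum v)).tendsto_sum_nat
  have hle : dist (∏ v ∈ F, (1 - f v.asIdeal)⁻¹) (∑' I, f I) ≤ ε / 2 := by
    refine le_of_tendsto (hlim.dist tendsto_const_nhds) ?_
    filter_upwards [eventually_ge_atTop E₀] with E hE using (hclose E hE).le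
  linarith

end Euler


section Corollaries

variable {R : Type*} [CommRing R] [IsDedekindDomain R] {𝕜 : Type*} [NormedField 𝕜]

theorem multipliable_euler (f : Ideal R →*₀ 𝕜) (hsum : Summable f) :
    Multipliable (fun v : HeightOneSpectrum R => (1 - f v.asIdeal)⁻¹) :=
  (hasProd_euler f hsum).multipliable

theorem tprod_euler (f : Ideal R →*₀ 𝕜) (hsum : Summable f) :
    ∏' v : HeightOneSpectrum R, (1 - f v.asIdeal)⁻¹ = ∑' I : Ideal R, f I :=
  (hasProd_euler f hsum).tprod_eq

end Corollaries

end Fermat.Agent.S14.helper69
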