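import Mathlib
import Fermat.Agent.S14.helper69_EulerProd

/-!
# S14 (AN1): Dedekind zeta as a sum over ideals, prime sums, and the zeta-pole lemma (helper69)
-/

set_option autoImplicit false

open NumberField Ideal Filter Topology IsDedekindDomain

namespace Fermat.Agent.S14.helper69

section IdealZeta

variable (K : Type*) [Field K] [NumberField K]

theorem tendsto_sum_card_absNorm_div :
    Tendsto (fun n : ℕ ↦
      (∑ k ∈ Finset.Icc 1 n, (Nat.card {I : Ideal (𝓞 K) // absNorm I = k} : ℝ)) / (n : ℝ)) atTop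
      (𝓝 (dedekindZeta_residue K)) := by
  refine ((NumberField.Ideal.tendsto_norm_le_div_atTop₀ K).comp
    tendsto_natCast_atTop_atTop).congr fun n ↦ ?_
  simp only [Function.comp_apply, Nat.cast_le, ← Nat.cast_sum]
  congr
  rw [← add_left_inj 1, ← card_norm_le_eq_card_norm_le_add_one,
    show Finset.Icc 1 n = Finset.Ioc 0 n from Finset.Icc_succ_left_eq_Ioc _ _,
    show 1 = Nat.card {I : Ideal (𝓞 K) // absNorm I = 0} by simp [Ideal.absNorm_eq_zero_iff],
    Finset.sum_Ioc_add_eq_sum_Icc (n.zero_le),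
    ← Finset.card_preimage_eq_sum_card_image_eq (fun k _ ↦ finite_setOfPred_absNorm_eq k)]
  simp [Set.coe_eq_subtype]

theorem lseriesSummable_card_absNorm {s : ℝ} (hs : 1 < s) :
    LSeriesSummable (fun n => ((Nat.card {I : Ideal (𝓞 K) // absNorm I = n} : ℝ) : ℂ)) s := by
  refine LSeriesSummable_of_sum_norm_bigO_and_nonneg ?_ (fun _ => Nat.cast_nonneg _) zero_le_one
    (by simpa using hs)
  exact Asymptotics.isBigO_atTop_natCast_rpow_of_tendsto_div_rpow
    (by simpa using tendsto_sum_card_absNorm_div K)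

/-- The real Dedekind zeta function as a sum over all ideals (the zero ideal contributes `0`). -/
noncomputable def idealZeta (s : ℝ) : ℝ := ∑' I : Ideal (𝓞 K), (absNorm I : ℝ) ^ (-s)

lemma tsum_fiber_absNorm_rpow (s : ℝ) (n : ℕ) :
    ∑' y : {I : Ideal (𝓞 K) // absNorm I = n}, ((absNorm (y : Ideal (𝓞 K)) : ℕ) : ℝ) ^ (-s) =
      (Nat.card {I : Ideal (𝓞 K) // absNorm I = n} : ℝ) * (n : ℝ) ^ (-s) := by
  have : ∀ y : {I : Ideal (𝓞 K) // absNorm I = n},
      ((absNorm (y : Ideal (𝓞 K)) : ℕ) : ℝ) ^ (-s) = (n : ℝ) ^ (-s) := fun y => by rw [y.2]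
  simp_rw [this, tsum_const, nsmul_eq_mul]

lemma summable_card_mul_rpow {s : ℝ} (hs : 1 < s) :
    Summable fun n : ℕ =>
      (Nat.card {I : Ideal (𝓞 K) // absNorm I = n} : ℝ) * (n : ℝ) ^ (-s) := by
  have h := (lseriesSummable_card_absNorm K hs).norm
  refine h.congr fun n => ?_
  rw [LSeries.norm_term_eq]
  rcases eq_or_ne n 0 with rfl | hn
  · have : -s ≠ 0 := by linarith
    simp [Real.zero_rpow this]
  · simp only [hn, if_false, Complex.ofReal_re, Complex.norm_real, Real.norm_eq_abs,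
      Nat.abs_cast, Real.rpow_neg (Nat.cast_nonneg n), div_eq_mul_inv]

lemma summable_sigma_absNorm_rpow {s : ℝ} (hs : 1 < s) :
    Summable fun p : (Σ n : ℕ, {I : Ideal (𝓞 K) // absNorm I = n}) =>
      ((absNorm (p.2 : Ideal (𝓞 K)) : ℕ) : ℝ) ^ (-s) := by
  rw [summable_sigma_of_nonneg (fun _ => Real.rpow_nonneg (Nat.cast_nonneg _) _)]
  refine ⟨fun n => ?_, ?_⟩
  · have : Finite {I : Ideal (𝓞 K) // absNorm I = n} := finite_setOfPred_absNorm_eq n
    exact Summable.of_finite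
  · refine (summable_card_mul_rpow K hs).congr fun n => ?_
    exact (tsum_fiber_absNorm_rpow K s n).symm

theorem summable_absNorm_rpow {s : ℝ} (hs : 1 < s) :
    Summable fun I : Ideal (𝓞 K) => (absNorm I : ℝ) ^ (-s) :=
  (Equiv.sigmaFiberEquiv (absNorm : Ideal (𝓞 K) → ℕ)).summable_iff.mp
    (summable_sigma_absNorm_rpow K hs)

theorem idealZeta_eq_tsum_nat {s : ℝ} (hs : 1 < s) :
    idealZeta K s = ∑' n : ℕ,
      (Nat.card {I : Ideal (𝓞 K) // absNorm I = n} : ℝ) * (n : ℝ) ^ (-s) := by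
  have h1 := summable_sigma_absNorm_rpow K hs
  have h2 : idealZeta K s = ∑' p : (Σ n : ℕ, {I : Ideal (𝓞 K) // absNorm I = n}),
      ((absNorm (p.2 : Ideal (𝓞 K)) : ℕ) : ℝ) ^ (-s) :=
    ((Equiv.sigmaFiberEquiv (absNorm : Ideal (𝓞 K) → ℕ)).tsum_eq
      (fun I : Ideal (𝓞 K) => (absNorm I : ℝ) ^ (-s))).symm
  rw [h2, h1.tsum_sigma' (fun n => ((summable_sigma_of_nonneg
      (fun _ => Real.rpow_nonneg (Nat.cast_nonneg _) _)).mp h1).1 n)]
  exact tsum_congr fun n => tsum_fiber_absNorm_rpow K s n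

theorem dedekindZeta_eq_idealZeta {s : ℝ} (hs : 1 < s) :
    dedekindZeta K s = (idealZeta K s : ℂ) := by
  rw [idealZeta_eq_tsum_nat K hs, Complex.ofReal_tsum, dedekindZeta, LSeries]
  refine tsum_congr fun n => ?_
  rw [LSeries.term_def]
  rcases eq_or_ne n 0 with rfl | hn
  · have : -s ≠ 0 := by linarith
    simp [Real.zero_rpow this]
  · simp only [hn, if_false]
    rw [Complex.ofReal_mul, Complex.ofReal_natCast, div_eq_mul_inv,
      Real.rpow_neg (Nat.cast_nonneg n), Complex.ofReal_inv,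
      Complex.ofReal_cpow (Nat.cast_nonneg n), Complex.ofReal_natCast]

theorem tendsto_sub_one_mul_idealZeta :
    Tendsto (fun s : ℝ => (s - 1) * idealZeta K s) (𝓝[>] 1) (𝓝 (dedekindZeta_residue K)) := by
  have h := tendsto_sub_one_mul_dedekindZeta_nhdsGT K
  have h2 := (Complex.continuous_re.tendsto _).comp h
  simp only [Complex.ofReal_re] at h2
  refine h2.congr' ?_
  filter_upwards [self_mem_nhdsWithin] with s hs
  have hs' : (1 : ℝ) < s := hs
  simp only [Function.comp_apply, dedekindZeta_eq_idealZeta K hs']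
  rw [← Complex.ofReal_one, ← Complex.ofReal_sub, ← Complex.ofReal_mul, Complex.ofReal_re]

/-- The completely multiplicative function `I ↦ N(I)^(-s)` on ideals. -/
noncomputable def normPow (s : ℝ) (hs : s ≠ 0) : Ideal (𝓞 K) →*₀ ℝ where
  toFun I := (absNorm I : ℝ) ^ (-s)
  map_zero' := by simp [Real.zero_rpow (neg_ne_zero.mpr hs)]
  map_one' := by simp
  map_mul' I J := by simp [Real.mul_rpow]

@[simp] lemma normPow_apply (s : ℝ) (hs : s ≠ 0) (I : Ideal (𝓞 K)) :
    normPow K s hs I = (absNorm I : ℝ) ^ (-s) := rfl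

theorem hasProd_idealZeta {s : ℝ} (hs : 1 < s) :
    HasProd (fun v : HeightOneSpectrum (𝓞 K) => (1 - (absNorm v.asIdeal : ℝ) ^ (-s))⁻¹)
      (idealZeta K s) :=
  hasProd_euler (normPow K s (by linarith)) (summable_absNorm_rpow K hs)

end IdealZeta

section RealProd

/-- A partial product of a convergent real product with factors `≥ 1` is at most the limit. -/
lemma prod_le_of_hasProd_of_one_le {ι : Type*} {f : ι → ℝ} {a : ℝ} (hf : HasProd f a)
    (h1 : ∀ i, 1 ≤ f i) (F : Finset ι) : ∏ i ∈ F, f i ≤ a := by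
  classical
  rw [HasProd, SummationFilter.unconditional_filter] at hf
  refine ge_of_tendsto hf ?_
  filter_upwards [eventually_ge_atTop F] with F' hF'
  rw [← Finset.prod_sdiff hF']
  have h2 : (1 : ℝ) ≤ ∏ i ∈ F' \ F, f i := by
    calc (1 : ℝ) = ∏ _i ∈ F' \ F, (1 : ℝ) := by simp
      _ ≤ ∏ i ∈ F' \ F, f i :=
        Finset.prod_le_prod (fun _ _ => zero_le_one) (fun i _ => h1 i)
  have h3 : (0 : ℝ) ≤ ∏ i ∈ F, f i :=
    Finset.prod_nonneg fun i _ => zero_le_one.trans (h1 i)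
  nlinarith

lemma exp_le_one_sub_inv {x : ℝ} (hx : x < 1) : Real.exp x ≤ (1 - x)⁻¹ := by
  have h1 : 1 - x ≤ Real.exp (-x) := Real.one_sub_le_exp_neg x
  have h2 : (0 : ℝ) < 1 - x := by linarith
  calc Real.exp x = (Real.exp (-x))⁻¹ := by rw [Real.exp_neg, inv_inv]
    _ ≤ (1 - x)⁻¹ := inv_anti₀ h2 h1

lemma one_sub_inv_le_exp {x : ℝ} (hx0 : 0 ≤ x) (hx : x ≤ 1 / 2) :
    (1 - x)⁻¹ ≤ Real.exp (x + 2 * x ^ 2) := by
  have h2 : (0 : ℝ) < 1 - x := by linarith
  have h3 : (1 - x)⁻¹ ≤ 1 + x + 2 * x ^ 2 := by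
    rw [inv_le_iff_one_le_mul₀ h2]
    nlinarith [mul_nonneg hx0 hx0, mul_nonneg (mul_nonneg hx0 hx0) (by linarith : (0:ℝ) ≤ 1 - 2 * x)]
  calc (1 - x)⁻¹ ≤ 1 + x + 2 * x ^ 2 := h3
    _ = (x + 2 * x ^ 2) + 1 := by ring
    _ ≤ Real.exp (x + 2 * x ^ 2) := Real.add_one_le_exp _

end RealProd

section PrimeSums

variable (K : Type*) [Field K] [NumberField K]

lemma two_le_absNorm (v : HeightOneSpectrum (𝓞 K)) : 2 ≤ absNorm v.asIdeal := by
  have h0 : absNorm v.asIdeal ≠ 0 := by
    rw [Ne, Ideal.absNorm_eq_zero_iff]; exact v.ne_bot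
  have h1 : absNorm v.asIdeal ≠ 1 := by
    rw [Ne, Ideal.absNorm_eq_one_iff]; exact v.isPrime.ne_top
  omega

lemma absNorm_rpow_pos (v : HeightOneSpectrum (𝓞 K)) (s : ℝ) :
    0 < (absNorm v.asIdeal : ℝ) ^ (-s) := by
  have := two_le_absNorm K v
  exact Real.rpow_pos_of_pos (by exact_mod_cast (by omega : 0 < absNorm v.asIdeal)) _

lemma absNorm_rpow_le_half (v : HeightOneSpectrum (𝓞 K)) {s : ℝ} (hs : 1 ≤ s) :
    (absNorm v.asIdeal : ℝ) ^ (-s) ≤ 1 / 2 := by
  have h2 : (2 : ℝ) ≤ absNorm v.asIdeal := by exact_mod_cast two_le_absNorm K v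
  calc (absNorm v.asIdeal : ℝ) ^ (-s) ≤ (2 : ℝ) ^ (-s) :=
        Real.rpow_le_rpow_of_nonpos (by norm_num) h2 (by linarith)
    _ ≤ (2 : ℝ) ^ (-1 : ℝ) := Real.rpow_le_rpow_of_exponent_le (by norm_num) (by linarith)
    _ = 1 / 2 := by norm_num [Real.rpow_neg_one]

/-- Monotonicity in the exponent. -/
lemma absNorm_rpow_anti (v : HeightOneSpectrum (𝓞 K)) {s t : ℝ} (hst : s ≤ t) :
    (absNorm v.asIdeal : ℝ) ^ (-t) ≤ (absNorm v.asIdeal : ℝ) ^ (-s) := by
  have h2 : (1 : ℝ) ≤ absNorm v.asIdeal := by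
    have := two_le_absNorm K v
    exact_mod_cast (by omega : 1 ≤ absNorm v.asIdeal)
  exact Real.rpow_le_rpow_of_exponent_le h2 (by linarith)

theorem summable_prime_rpow {s : ℝ} (hs : 1 < s) :
    Summable fun v : HeightOneSpectrum (𝓞 K) => (absNorm v.asIdeal : ℝ) ^ (-s) :=
  (summable_absNorm_rpow K hs).comp_injective (fun _ _ h => HeightOneSpectrum.ext h)

/-- The prime zeta sum `∑_v N(v)^(-s)` over all nonzero primes. -/
noncomputable def primeSum (s : ℝ) : ℝ :=
  ∑' v : HeightOneSpectrum (𝓞 K), (absNorm v.asIdeal : ℝ) ^ (-s)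

lemma primeSum_nonneg (s : ℝ) : 0 ≤ primeSum K s :=
  tsum_nonneg fun v => (absNorm_rpow_pos K v s).le

lemma sum_le_primeSum {s : ℝ} (hs : 1 < s) (F : Finset (HeightOneSpectrum (𝓞 K))) :
    ∑ v ∈ F, (absNorm v.asIdeal : ℝ) ^ (-s) ≤ primeSum K s :=
  (summable_prime_rpow K hs).sum_le_tsum F fun v _ => (absNorm_rpow_pos K v s).le

/-- **(A)** Euler product lower bound. -/
theorem exp_sum_le_idealZeta {s : ℝ} (hs : 1 < s) (F : Finset (HeightOneSpectrum (𝓞 K))) :
    Real.exp (∑ v ∈ F, (absNorm v.asIdeal : ℝ) ^ (-s)) ≤ idealZeta K s := by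
  have hlt : ∀ v : HeightOneSpectrum (𝓞 K), (absNorm v.asIdeal : ℝ) ^ (-s) < 1 := fun v =>
    (absNorm_rpow_le_half K v hs.le).trans_lt (by norm_num)
  calc Real.exp (∑ v ∈ F, (absNorm v.asIdeal : ℝ) ^ (-s))
      = ∏ v ∈ F, Real.exp ((absNorm v.asIdeal : ℝ) ^ (-s)) := Real.exp_sum _ _
    _ ≤ ∏ v ∈ F, (1 - (absNorm v.asIdeal : ℝ) ^ (-s))⁻¹ :=
        Finset.prod_le_prod (fun _ _ => (Real.exp_pos _).le)
          (fun v _ => exp_le_one_sub_inv (hlt v))
    _ ≤ idealZeta K s := by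
        refine prod_le_of_hasProd_of_one_le (hasProd_idealZeta K hs) (fun v => ?_) F
        have h0 := absNorm_rpow_pos K v s
        have h1 := hlt v
        rw [one_le_inv₀ (by linarith)]
        linarith

theorem exp_primeSum_le_idealZeta {s : ℝ} (hs : 1 < s) :
    Real.exp (primeSum K s) ≤ idealZeta K s := by
  have h := (summable_prime_rpow K hs).hasSum
  rw [HasSum, SummationFilter.unconditional_filter] at h
  refine le_of_tendsto ((Real.continuous_exp.tendsto _).comp h) ?_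
  exact Eventually.of_forall fun F => exp_sum_le_idealZeta K hs F

/-- **(B)** Euler product upper bound. -/
theorem idealZeta_le_exp {s : ℝ} (hs : 1 < s) :
    idealZeta K s ≤ Real.exp (primeSum K s + 2 * primeSum K 2) := by
  refine hasProd_le_of_prod_le (hasProd_idealZeta K hs) fun F => ?_
  have h2 : (1 : ℝ) < 2 := by norm_num
  calc ∏ v ∈ F, (1 - (absNorm v.asIdeal : ℝ) ^ (-s))⁻¹
      ≤ ∏ v ∈ F, Real.exp ((absNorm v.asIdeal : ℝ) ^ (-s) +
          2 * ((absNorm v.asIdeal : ℝ) ^ (-s)) ^ 2) := by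
        refine Finset.prod_le_prod (fun v _ => ?_) (fun v _ => ?_)
        · have h1 := absNorm_rpow_le_half K v hs.le
          exact inv_nonneg.mpr (by linarith)
        · exact one_sub_inv_le_exp (absNorm_rpow_pos K v s).le (absNorm_rpow_le_half K v hs.le)
    _ = Real.exp (∑ v ∈ F, ((absNorm v.asIdeal : ℝ) ^ (-s) +
          2 * ((absNorm v.asIdeal : ℝ) ^ (-s)) ^ 2)) := (Real.exp_sum _ _).symm
    _ ≤ Real.exp (primeSum K s + 2 * primeSum K 2) := by
        rw [Real.exp_le_exp, Finset.sum_add_distrib, ← Finset.mul_sum]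
        have hA := sum_le_primeSum K hs F
        have hB : ∑ v ∈ F, ((absNorm v.asIdeal : ℝ) ^ (-s)) ^ 2 ≤ primeSum K 2 := by
          refine le_trans (Finset.sum_le_sum fun v _ => ?_) (sum_le_primeSum K h2 F)
          have h0 := (absNorm_rpow_pos K v s).le
          have h1 := absNorm_rpow_le_half K v hs.le
          have h3 : (absNorm v.asIdeal : ℝ) ^ (-s) ≤ (absNorm v.asIdeal : ℝ) ^ (-(1 : ℝ)) :=
            absNorm_rpow_anti K v hs.le
          have h4 : (absNorm v.asIdeal : ℝ) ^ (-(2 : ℝ)) =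
              ((absNorm v.asIdeal : ℝ) ^ (-(1 : ℝ))) ^ 2 := by
            rw [← Real.rpow_natCast, ← Real.rpow_mul (Nat.cast_nonneg _)]
            norm_num
          rw [h4]
          exact pow_le_pow_left₀ h0 h3 2
        linarith

end PrimeSums

section Counting

variable {A B : Type*} [CommRing A] [IsDomain A] [CommRing B] [Algebra A B]
  [Module.Finite A B] [Module.Flat A B]

omit [IsDomain A] [Module.Flat A B] in
lemma one_le_ramificationIdx_mul_inertiaDeg (q : Ideal B) [q.IsPrime] :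
    1 ≤ q.ramificationIdx A * q.inertiaDeg A :=
  Nat.one_le_iff_ne_zero.mpr
    (Nat.mul_ne_zero (Ideal.ramificationIdx_pos q A).ne' (Ideal.inertiaDeg_pos q A).ne')

lemma ncard_primesOver_le_finrank (p : Ideal A) [p.IsPrime] :
    (p.primesOver B).ncard ≤ Module.finrank A B := by
  have hfin : (p.primesOver B).Finite := Algebra.QuasiFinite.finite_primesOver p
  let _ : Fintype (p.primesOver B) := hfin.fintype
  rw [← Ideal.sum_ramification_inertia_eq_finrank p B, ← Nat.card_coe_set_eq,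
    Nat.card_eq_fintype_card, Fintype.card, Finset.card_eq_sum_ones]
  refine Finset.sum_le_sum fun q _ => ?_
  have : q.1.IsPrime := q.2.1
  exact one_le_ramificationIdx_mul_inertiaDeg q.1

lemma ramificationIdx_mul_inertiaDeg_eq_one_of_ncard_eq (p : Ideal A) [p.IsPrime]
    (h : (p.primesOver B).ncard = Module.finrank A B) (q : Ideal B) (hq : q ∈ p.primesOver B) :
    q.ramificationIdx A * q.inertiaDeg A = 1 := by
  have hfin : (p.primesOver B).Finite := Algebra.QuasiFinite.finite_primesOver p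
  let _ : Fintype (p.primesOver B) := hfin.fintype
  have h1 : ∑ _q : p.primesOver B, 1 =
      ∑ q : p.primesOver B, q.1.ramificationIdx A * q.1.inertiaDeg A := by
    rw [Ideal.sum_ramification_inertia_eq_finrank p B, ← h, ← Nat.card_coe_set_eq,
      Nat.card_eq_fintype_card, Fintype.card, Finset.card_eq_sum_ones]
  have h2 := (Finset.sum_eq_sum_iff_of_le (s := Finset.univ)
    (f := fun _ : p.primesOver B => 1)
    (g := fun q : p.primesOver B => q.1.ramificationIdx A * q.1.inertiaDeg A)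
    (fun q _ => by
      have : q.1.IsPrime := q.2.1
      exact one_le_ramificationIdx_mul_inertiaDeg q.1)).mp h1
  exact (h2 ⟨q, hq⟩ (Finset.mem_univ _)).symm

lemma inertiaDeg_eq_one_of_ncard_eq (p : Ideal A) [p.IsPrime]
    (h : (p.primesOver B).ncard = Module.finrank A B) (q : Ideal B) (hq : q ∈ p.primesOver B) :
    q.inertiaDeg A = 1 :=
  Nat.eq_one_of_mul_eq_one_left (ramificationIdx_mul_inertiaDeg_eq_one_of_ncard_eq p h q hq)

end Counting

section DegreeOne

variable (K : Type*) [Field K] [NumberField K]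

/-- The rational prime below a prime of `𝓞 K`. -/
noncomputable def pUnder (v : HeightOneSpectrum (𝓞 K)) : ℕ := absNorm (v.asIdeal.under ℤ)

omit [NumberField K] in
lemma pUnder_prime (v : HeightOneSpectrum (𝓞 K)) : (pUnder K v).Prime := by
  have : NeZero v.asIdeal := ⟨v.ne_bot⟩
  exact Nat.absNorm_under_prime v.asIdeal

lemma absNorm_eq_pUnder_pow (v : HeightOneSpectrum (𝓞 K)) :
    absNorm v.asIdeal = pUnder K v ^ (v.asIdeal.inertiaDeg ℤ) :=
  (Ideal.absNorm_pow_inertiaDeg (v.asIdeal.under ℤ) v.asIdeal).symm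

lemma pUnder_sq_le_absNorm (v : HeightOneSpectrum (𝓞 K)) (hv : ¬ (absNorm v.asIdeal).Prime) :
    pUnder K v ^ 2 ≤ absNorm v.asIdeal := by
  have h1 := absNorm_eq_pUnder_pow K v
  have hpos : 0 < v.asIdeal.inertiaDeg ℤ := Ideal.inertiaDeg_pos v.asIdeal ℤ
  have h2 : 2 ≤ v.asIdeal.inertiaDeg ℤ := by
    by_contra hlt
    have h3 : v.asIdeal.inertiaDeg ℤ = 1 := by omega
    rw [h3, pow_one] at h1
    exact hv (h1 ▸ pUnder_prime K v)
  rw [h1]
  exact Nat.pow_le_pow_right (pUnder_prime K v).pos h2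

lemma card_filter_pUnder_le (F : Finset (HeightOneSpectrum (𝓞 K))) (p : ℕ) :
    (F.filter fun v => pUnder K v = p).card ≤ Module.finrank ℚ K := by
  classical
  rcases (F.filter fun v => pUnder K v = p).eq_empty_or_nonempty with h | ⟨v₀, hv₀⟩
  · simp [h]
  have hv₀' : pUnder K v₀ = p := (Finset.mem_filter.mp hv₀).2
  have hsub : ((F.filter fun v => pUnder K v = p).image HeightOneSpectrum.asIdeal :
      Set (Ideal (𝓞 K))) ⊆ (v₀.asIdeal.under ℤ).primesOver (𝓞 K) := by
    intro Q hQ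
    obtain ⟨v, hv, rfl⟩ := Finset.mem_image.mp (Finset.mem_coe.mp hQ)
    have hv' : pUnder K v = p := (Finset.mem_filter.mp hv).2
    refine ⟨v.isPrime, ⟨?_⟩⟩
    rw [← Int.ideal_span_absNorm_eq_self (v₀.asIdeal.under ℤ),
      ← Int.ideal_span_absNorm_eq_self (v.asIdeal.under ℤ)]
    change Ideal.span {((pUnder K v₀ : ℕ) : ℤ)} = Ideal.span {((pUnder K v : ℕ) : ℤ)}
    rw [hv₀', hv']
  have hfin : ((v₀.asIdeal.under ℤ).primesOver (𝓞 K)).Finite :=
    Algebra.QuasiFinite.finite_primesOver _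
  calc (F.filter fun v => pUnder K v = p).card
      = ((F.filter fun v => pUnder K v = p).image HeightOneSpectrum.asIdeal).card :=
        (Finset.card_image_of_injective _ (fun _ _ h => HeightOneSpectrum.ext h)).symm
    _ = ((F.filter fun v => pUnder K v = p).image HeightOneSpectrum.asIdeal :
          Set (Ideal (𝓞 K))).ncard := (Set.ncard_coe_finset _).symm
    _ ≤ ((v₀.asIdeal.under ℤ).primesOver (𝓞 K)).ncard := Set.ncard_le_ncard hsub hfin
    _ ≤ Module.finrank ℤ (𝓞 K) := ncard_primesOver_le_finrank _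
    _ = Module.finrank ℚ K := RingOfIntegers.rank K

/-- The constant `∑ 1/m^2`. -/
noncomputable def zetaTwo : ℝ := ∑' m : ℕ, 1 / (m : ℝ) ^ 2

lemma summable_zetaTwo : Summable fun m : ℕ => 1 / (m : ℝ) ^ 2 :=
  Real.summable_one_div_nat_pow.mpr (by norm_num)

lemma zetaTwo_nonneg : 0 ≤ zetaTwo := tsum_nonneg fun _ => by positivity

/-- The primes of degree `≥ 2` contribute a bounded amount. -/
lemma sum_nonDegOne_le {s : ℝ} (hs : 1 ≤ s) (F : Finset (HeightOneSpectrum (𝓞 K)))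
    (hF : ∀ v ∈ F, ¬ (absNorm v.asIdeal).Prime) :
    ∑ v ∈ F, (absNorm v.asIdeal : ℝ) ^ (-s) ≤ Module.finrank ℚ K * zetaTwo := by
  classical
  have h1 : ∀ v ∈ F, (absNorm v.asIdeal : ℝ) ^ (-s) ≤ 1 / ((pUnder K v : ℕ) : ℝ) ^ 2 := by
    intro v hv
    have hle : ((pUnder K v : ℕ) : ℝ) ^ 2 ≤ absNorm v.asIdeal := by
      exact_mod_cast pUnder_sq_le_absNorm K v (hF v hv)
    have hpos : (0 : ℝ) < ((pUnder K v : ℕ) : ℝ) ^ 2 := by
      have : (0 : ℝ) < ((pUnder K v : ℕ) : ℝ) := by exact_mod_cast (pUnder_prime K v).pos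
      positivity
    calc (absNorm v.asIdeal : ℝ) ^ (-s) ≤ (absNorm v.asIdeal : ℝ) ^ (-(1 : ℝ)) :=
          absNorm_rpow_anti K v hs
      _ = 1 / (absNorm v.asIdeal : ℝ) := by rw [Real.rpow_neg_one, one_div]
      _ ≤ 1 / ((pUnder K v : ℕ) : ℝ) ^ 2 := one_div_le_one_div_of_le hpos hle
  calc ∑ v ∈ F, (absNorm v.asIdeal : ℝ) ^ (-s)
      ≤ ∑ v ∈ F, 1 / ((pUnder K v : ℕ) : ℝ) ^ 2 := Finset.sum_le_sum h1
    _ = ∑ p ∈ F.image (pUnder K),
          (F.filter fun v => pUnder K v = p).card • (1 / ((p : ℕ) : ℝ) ^ 2) :=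
        Finset.sum_comp (fun p : ℕ => 1 / (p : ℝ) ^ 2) (pUnder K)
    _ ≤ ∑ p ∈ F.image (pUnder K), (Module.finrank ℚ K : ℝ) * (1 / ((p : ℕ) : ℝ) ^ 2) := by
        refine Finset.sum_le_sum fun p _ => ?_
        rw [nsmul_eq_mul]
        exact mul_le_mul_of_nonneg_right (by exact_mod_cast card_filter_pUnder_le K F p)
          (by positivity)
    _ = Module.finrank ℚ K * ∑ p ∈ F.image (pUnder K), 1 / ((p : ℕ) : ℝ) ^ 2 := by
        rw [Finset.mul_sum]
    _ ≤ Module.finrank ℚ K * zetaTwo := by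
        refine mul_le_mul_of_nonneg_left ?_ (Nat.cast_nonneg _)
        exact summable_zetaTwo.sum_le_tsum _ (fun _ _ => by positivity)

/-- The set of primes of degree one (over `ℚ`). -/
def degOneSet : Set (HeightOneSpectrum (𝓞 K)) := {v | (absNorm v.asIdeal).Prime}

lemma primeIdealZetaSum_eq_tsum (S : Set (HeightOneSpectrum (𝓞 K))) (s : ℝ) :
    S.primeIdealZetaSum s = ∑' v : S, (absNorm v.1.asIdeal : ℝ) ^ (-s) := rfl

lemma summable_subtype_prime_rpow (S : Set (HeightOneSpectrum (𝓞 K))) {s : ℝ} (hs : 1 < s) :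
    Summable fun v : S => (absNorm v.1.asIdeal : ℝ) ^ (-s) :=
  (summable_prime_rpow K hs).subtype S

lemma primeIdealZetaSum_univ (s : ℝ) :
    (Set.univ : Set (HeightOneSpectrum (𝓞 K))).primeIdealZetaSum s = primeSum K s := by
  rw [primeIdealZetaSum_eq_tsum, primeSum]
  exact tsum_univ fun v : HeightOneSpectrum (𝓞 K) => (absNorm v.asIdeal : ℝ) ^ (-s)

lemma primeIdealZetaSum_le_primeSum (S : Set (HeightOneSpectrum (𝓞 K))) {s : ℝ} (hs : 1 < s) :
    S.primeIdealZetaSum s ≤ primeSum K s :=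
  Summable.tsum_subtype_le _ S (fun v => (absNorm_rpow_pos K v s).le) (summable_prime_rpow K hs)

/-- Finite sums over a subset are bounded by the `primeIdealZetaSum`. -/
lemma sum_le_primeIdealZetaSum (S : Set (HeightOneSpectrum (𝓞 K))) {s : ℝ} (hs : 1 < s)
    (F : Finset (HeightOneSpectrum (𝓞 K))) (hF : ∀ v ∈ F, v ∈ S) :
    ∑ v ∈ F, (absNorm v.asIdeal : ℝ) ^ (-s) ≤ S.primeIdealZetaSum s := by
  classical
  rw [primeIdealZetaSum_eq_tsum]
  have h := (summable_subtype_prime_rpow K S hs).sum_le_tsum (F.subtype (· ∈ S))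
    (fun v _ => (absNorm_rpow_pos K v.1 s).le)
  refine le_trans (le_of_eq ?_) h
  rw [← Finset.sum_subtype_of_mem (fun v => (absNorm v.asIdeal : ℝ) ^ (-s)) hF]

/-- If all finite sums over subsets of `S` are bounded by `B`, so is `primeIdealZetaSum`. -/
lemma primeIdealZetaSum_le_of_sum_le (S : Set (HeightOneSpectrum (𝓞 K))) {s : ℝ} (hs : 1 < s)
    {B : ℝ} (hB : ∀ F : Finset (HeightOneSpectrum (𝓞 K)), (∀ v ∈ F, v ∈ S) →
      ∑ v ∈ F, (absNorm v.asIdeal : ℝ) ^ (-s) ≤ B) :
    S.primeIdealZetaSum s ≤ B := by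
  classical
  rw [primeIdealZetaSum_eq_tsum]
  refine (summable_subtype_prime_rpow K S hs).tsum_le_of_sum_le fun F' => ?_
  have h := hB (F'.map (Function.Embedding.subtype _)) (fun v hv => by
    obtain ⟨w, -, rfl⟩ := Finset.mem_map.mp hv
    exact w.2)
  rwa [Finset.sum_map] at h

lemma primeSum_le_degOne_add {s : ℝ} (hs : 1 < s) :
    primeSum K s ≤ (degOneSet K).primeIdealZetaSum s + Module.finrank ℚ K * zetaTwo := by
  have h1 := (summable_prime_rpow K hs).tsum_subtype_add_tsum_subtype_compl (degOneSet K)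
  have h2 := primeIdealZetaSum_le_of_sum_le K (degOneSet K)ᶜ hs
    (fun F hF => sum_nonDegOne_le K hs.le F hF)
  rw [primeIdealZetaSum_eq_tsum] at h2 ⊢
  rw [primeSum, ← h1]
  linarith

end DegreeOne

section Asymptotics

variable (K : Type*) [Field K] [NumberField K]

lemma one_le_idealZeta {s : ℝ} (hs : 1 < s) : 1 ≤ idealZeta K s := by
  have h := (summable_absNorm_rpow K hs).le_tsum (⊤ : Ideal (𝓞 K))
    (fun I _ => Real.rpow_nonneg (Nat.cast_nonneg _) _)
  simpa [idealZeta] using h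

lemma idealZeta_pos {s : ℝ} (hs : 1 < s) : 0 < idealZeta K s :=
  zero_lt_one.trans_le (one_le_idealZeta K hs)

/-- `log ζ_K(s) = log (1/(s-1)) + O(1)` as `s → 1⁺`. -/
theorem eventually_abs_log_idealZeta_sub_le :
    ∃ C : ℝ, ∀ᶠ s in 𝓝[>] (1 : ℝ), |Real.log (idealZeta K s) - Real.log (1 / (s - 1))| ≤ C := by
  have hκ := dedekindZeta_residue_pos K
  have h1 : Tendsto (fun s : ℝ => Real.log ((s - 1) * idealZeta K s)) (𝓝[>] 1)
      (𝓝 (Real.log (dedekindZeta_residue K))) :=
    (tendsto_sub_one_mul_idealZeta K).log hκ.ne'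
  refine ⟨|Real.log (dedekindZeta_residue K)| + 1, ?_⟩
  have h2 : ∀ᶠ s in 𝓝[>] (1 : ℝ), |Real.log ((s - 1) * idealZeta K s)| <
      |Real.log (dedekindZeta_residue K)| + 1 :=
    h1.abs.eventually_lt_const (by linarith)
  filter_upwards [h2, self_mem_nhdsWithin] with s hs hs1
  have hs1' : (1 : ℝ) < s := hs1
  have hpos : 0 < s - 1 := by linarith
  have hZ := idealZeta_pos K hs1'
  rw [Real.log_mul hpos.ne' hZ.ne'] at hs
  rw [one_div, Real.log_inv, sub_neg_eq_add, add_comm]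
  exact hs.le

theorem primeSum_le_log_idealZeta {s : ℝ} (hs : 1 < s) :
    primeSum K s ≤ Real.log (idealZeta K s) :=
  (Real.le_log_iff_exp_le (idealZeta_pos K hs)).mpr (exp_primeSum_le_idealZeta K hs)

theorem log_idealZeta_le_primeSum_add {s : ℝ} (hs : 1 < s) :
    Real.log (idealZeta K s) ≤ primeSum K s + 2 * primeSum K 2 :=
  (Real.log_le_iff_le_exp (idealZeta_pos K hs)).mpr (idealZeta_le_exp K hs)

/-- **(Z1)** `∑_v N(v)^(-s) = log (1/(s-1)) + O(1)` as `s → 1⁺` (all primes). -/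
theorem eventually_abs_primeSum_sub_le :
    ∃ C : ℝ, ∀ᶠ s in 𝓝[>] (1 : ℝ), |primeSum K s - Real.log (1 / (s - 1))| ≤ C := by
  obtain ⟨C, hC⟩ := eventually_abs_log_idealZeta_sub_le K
  refine ⟨C + 2 * primeSum K 2, ?_⟩
  filter_upwards [hC, self_mem_nhdsWithin] with s hs hs1
  have hs1' : (1 : ℝ) < s := hs1
  have h1 := primeSum_le_log_idealZeta K hs1'
  have h2 := log_idealZeta_le_primeSum_add K hs1'
  have h3 := primeSum_nonneg K 2
  rw [abs_le] at hs ⊢
  constructor <;> linarith [hs.1, hs.2]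

/-- **(Z1)** `∑_{deg v = 1} N(v)^(-s) = log (1/(s-1)) + O(1)` as `s → 1⁺`. -/
theorem eventually_abs_degOne_sub_le :
    ∃ C : ℝ, ∀ᶠ s in 𝓝[>] (1 : ℝ),
      |(degOneSet K).primeIdealZetaSum s - Real.log (1 / (s - 1))| ≤ C := by
  obtain ⟨C, hC⟩ := eventually_abs_primeSum_sub_le K
  refine ⟨C + Module.finrank ℚ K * zetaTwo, ?_⟩
  filter_upwards [hC, self_mem_nhdsWithin] with s hs hs1
  have hs1' : (1 : ℝ) < s := hs1
  have h1 := primeIdealZetaSum_le_primeSum K (degOneSet K) hs1'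
  have h2 := primeSum_le_degOne_add K hs1'
  have h3 : (0 : ℝ) ≤ Module.finrank ℚ K * zetaTwo :=
    mul_nonneg (Nat.cast_nonneg _) zetaTwo_nonneg
  rw [abs_le] at hs ⊢
  constructor <;> linarith [hs.1, hs.2]

lemma tendsto_log_one_div_sub_one :
    Tendsto (fun s : ℝ => Real.log (1 / (s - 1))) (𝓝[>] 1) atTop := by
  have h1 : Tendsto (fun s : ℝ => s - 1) (𝓝[>] 1) (𝓝[>] 0) := by
    refine tendsto_nhdsWithin_of_tendsto_nhds_of_eventually_within _ ?_ ?_
    · have : Tendsto (fun s : ℝ => s - 1) (𝓝 1) (𝓝 (1 - 1)) :=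
        (continuous_id.sub continuous_const).tendsto 1
      rw [sub_self] at this
      exact this.mono_left nhdsWithin_le_nhds
    · filter_upwards [self_mem_nhdsWithin] with s hs
      have : (1 : ℝ) < s := hs
      simpa using this
  have h2 := Real.tendsto_log_nhdsGT_zero.comp h1
  have h3 : Tendsto (fun s : ℝ => -Real.log (s - 1)) (𝓝[>] 1) atTop :=
    tendsto_neg_atBot_atTop.comp h2
  refine h3.congr fun s => ?_
  rw [one_div, Real.log_inv]

end Asymptotics

section Relative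

variable (K L : Type*) [Field K] [NumberField K] [Field L] [NumberField L] [Algebra K L]

lemma finite_primesAbove (v : HeightOneSpectrum (𝓞 K)) :
    {w : HeightOneSpectrum (𝓞 L) | w.asIdeal ∈ v.asIdeal.primesOver (𝓞 L)}.Finite :=
  Set.Finite.preimage (fun _ _ _ _ h => HeightOneSpectrum.ext h)
    (Algebra.QuasiFinite.finite_primesOver v.asIdeal)

/-- The primes of `L` above a prime `v` of `K`, as a finset. -/
noncomputable def primesAbove (v : HeightOneSpectrum (𝓞 K)) :
    Finset (HeightOneSpectrum (𝓞 L)) :=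
  (finite_primesAbove K L v).toFinset

lemma mem_primesAbove {v : HeightOneSpectrum (𝓞 K)} {w : HeightOneSpectrum (𝓞 L)} :
    w ∈ primesAbove K L v ↔ w.asIdeal ∈ v.asIdeal.primesOver (𝓞 L) := by
  simp [primesAbove]

lemma card_primesAbove (v : HeightOneSpectrum (𝓞 K)) :
    (primesAbove K L v).card = (v.asIdeal.primesOver (𝓞 L)).ncard := by
  classical
  have himg : ((primesAbove K L v).image HeightOneSpectrum.asIdeal : Set (Ideal (𝓞 L))) =
      v.asIdeal.primesOver (𝓞 L) := by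
    ext Q
    simp only [Finset.coe_image, Set.mem_image, Finset.mem_coe, mem_primesAbove]
    constructor
    · rintro ⟨w, hw, rfl⟩
      exact hw
    · intro hQ
      have hQprime : Q.IsPrime := hQ.1
      have hQ0 : Q ≠ ⊥ := by
        intro h
        have h1 : v.asIdeal = Q.under (𝓞 K) := hQ.2.over
        rw [h, Ideal.under_bot] at h1
        exact v.ne_bot h1
      exact ⟨⟨Q, hQprime, hQ0⟩, hQ, rfl⟩
  rw [← himg, Set.ncard_coe_finset,
    Finset.card_image_of_injective _ (fun _ _ h => HeightOneSpectrum.ext h)]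

lemma finrank_eq_finrank_ringOfIntegers :
    Module.finrank K L = Module.finrank (𝓞 K) (𝓞 L) :=
  IsFractionRing.finrank_eq (𝓞 K) K (𝓞 L) L

lemma absNorm_eq_of_split {v : HeightOneSpectrum (𝓞 K)}
    (hv : (v.asIdeal.primesOver (𝓞 L)).ncard = Module.finrank K L)
    {w : HeightOneSpectrum (𝓞 L)} (hw : w ∈ primesAbove K L v) :
    absNorm w.asIdeal = absNorm v.asIdeal := by
  have hw' := (mem_primesAbove K L).mp hw
  have : w.asIdeal.LiesOver v.asIdeal := hw'.2
  have hf := inertiaDeg_eq_one_of_ncard_eq (A := 𝓞 K) (B := 𝓞 L) v.asIdeal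
    (hv.trans (finrank_eq_finrank_ringOfIntegers K L)) w.asIdeal hw'
  have h := Ideal.absNorm_pow_inertiaDeg v.asIdeal w.asIdeal
  rw [hf, pow_one] at h
  exact h.symm

lemma primesAbove_disjoint {v v' : HeightOneSpectrum (𝓞 K)} (h : v ≠ v') :
    Disjoint (primesAbove K L v) (primesAbove K L v') := by
  rw [Finset.disjoint_left]
  intro w hw hw'
  have h1 : v.asIdeal = w.asIdeal.under (𝓞 K) := ((mem_primesAbove K L).mp hw).2.over
  have h2 : v'.asIdeal = w.asIdeal.under (𝓞 K) := ((mem_primesAbove K L).mp hw').2.over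
  exact h (HeightOneSpectrum.ext (h1.trans h2.symm))

/-- **(Z2, upper bound)** `[L:K]` times a finite sum over completely split primes of `K` is
bounded by the prime sum of `L`. -/
lemma finrank_mul_sum_split_le {s : ℝ} (hs : 1 < s) (F : Finset (HeightOneSpectrum (𝓞 K)))
    (hF : ∀ v ∈ F, (v.asIdeal.primesOver (𝓞 L)).ncard = Module.finrank K L) :
    (Module.finrank K L : ℝ) * ∑ v ∈ F, (absNorm v.asIdeal : ℝ) ^ (-s) ≤ primeSum L s := by
  classical
  have h1 : ∑ w ∈ F.biUnion (primesAbove K L), (absNorm w.asIdeal : ℝ) ^ (-s) =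
      (Module.finrank K L : ℝ) * ∑ v ∈ F, (absNorm v.asIdeal : ℝ) ^ (-s) := by
    rw [Finset.sum_biUnion (fun v _ v' _ h => primesAbove_disjoint K L h), Finset.mul_sum]
    refine Finset.sum_congr rfl fun v hv => ?_
    rw [Finset.sum_congr rfl (fun w hw => by rw [absNorm_eq_of_split K L (hF v hv) hw]),
      Finset.sum_const, card_primesAbove, hF v hv, nsmul_eq_mul]
  rw [← h1]
  exact sum_le_primeSum L hs _

/-- **(Z2, upper bound)** in `primeIdealZetaSum` form. -/
theorem finrank_mul_primeIdealZetaSum_split_le {s : ℝ} (hs : 1 < s) :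
    (Module.finrank K L : ℝ) *
      ({v : HeightOneSpectrum (𝓞 K) |
        (v.asIdeal.primesOver (𝓞 L)).ncard = Module.finrank K L}).primeIdealZetaSum s ≤
      primeSum L s := by
  have hn : (0 : ℝ) < Module.finrank K L := by exact_mod_cast Module.finrank_pos
  rw [← le_div_iff₀' hn]
  refine primeIdealZetaSum_le_of_sum_le K _ hs fun F hF => ?_
  rw [le_div_iff₀' hn]
  exact finrank_mul_sum_split_le K L hs F hF

/-- **(Z3) zeta-pole lemma**: in a nontrivial finite extension `L/K` of number fields, outside any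
finite set of primes there is a prime of `K` of absolute degree one which does not split
completely in `L`. -/
theorem exists_degree_one_prime_not_split (h : 1 < Module.finrank K L)
    (T : Finset (HeightOneSpectrum (𝓞 K))) :
    ∃ v : HeightOneSpectrum (𝓞 K), v ∉ T ∧ (absNorm v.asIdeal).Prime ∧
      (v.asIdeal.primesOver (𝓞 L)).ncard ≠ Module.finrank K L := by
  classical
  by_contra hcon
  push Not at hcon
  have hn2 : (2 : ℝ) ≤ Module.finrank K L := by exact_mod_cast h
  have key : ∀ s : ℝ, 1 < s → (Module.finrank K L : ℝ) * (degOneSet K).primeIdealZetaSum s ≤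
      Module.finrank K L * T.card + primeSum L s := by
    intro s hs
    have hn : (0 : ℝ) < Module.finrank K L := by linarith
    have hle : (degOneSet K).primeIdealZetaSum s ≤
        T.card + primeSum L s / (Module.finrank K L : ℝ) := by
      refine primeIdealZetaSum_le_of_sum_le K _ hs fun F hF => ?_
      have h1 := (Finset.sum_filter_add_sum_filter_not F (· ∈ T)
        (fun v => (absNorm v.asIdeal : ℝ) ^ (-s))).symm
      have h2 : ∑ v ∈ F.filter (· ∈ T), (absNorm v.asIdeal : ℝ) ^ (-s) ≤ T.card := by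
        calc ∑ v ∈ F.filter (· ∈ T), (absNorm v.asIdeal : ℝ) ^ (-s)
            ≤ ∑ _v ∈ F.filter (· ∈ T), (1 : ℝ) :=
              Finset.sum_le_sum fun v _ =>
                (absNorm_rpow_le_half K v hs.le).trans (by norm_num)
          _ = ((F.filter (· ∈ T)).card : ℝ) := by simp
          _ ≤ T.card := by
              exact_mod_cast Finset.card_le_card fun v hv => (Finset.mem_filter.mp hv).2
      have h3 : (Module.finrank K L : ℝ) *
          ∑ v ∈ F.filter (fun v => ¬ v ∈ T), (absNorm v.asIdeal : ℝ) ^ (-s) ≤ primeSum L s :=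
        finrank_mul_sum_split_le K L hs _ fun v hv =>
          hcon v (Finset.mem_filter.mp hv).2 (hF v (Finset.mem_filter.mp hv).1)
      have h4 : ∑ v ∈ F.filter (fun v => ¬ v ∈ T), (absNorm v.asIdeal : ℝ) ^ (-s) ≤
          primeSum L s / (Module.finrank K L : ℝ) := by
        rw [le_div_iff₀' hn]
        exact h3
      rw [h1]
      linarith
    calc (Module.finrank K L : ℝ) * (degOneSet K).primeIdealZetaSum s
        ≤ Module.finrank K L * (T.card + primeSum L s / (Module.finrank K L : ℝ)) :=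
          mul_le_mul_of_nonneg_left hle hn.le
      _ = Module.finrank K L * T.card + primeSum L s := by
          field_simp
  obtain ⟨C₁, hC₁⟩ := eventually_abs_degOne_sub_le K
  obtain ⟨C₂, hC₂⟩ := eventually_abs_primeSum_sub_le L
  have hev := tendsto_log_one_div_sub_one.eventually_gt_atTop
    ((Module.finrank K L : ℝ) * C₁ + Module.finrank K L * T.card + C₂)
  have hev0 := tendsto_log_one_div_sub_one.eventually_gt_atTop (0 : ℝ)
  obtain ⟨s, ⟨hs1, hs2, hs3, hs0⟩, hs4⟩ :=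
    ((hC₁.and (hC₂.and (hev.and hev0))).and self_mem_nhdsWithin).exists
  have hs4' : (1 : ℝ) < s := hs4
  have hk := key s hs4'
  rw [abs_le] at hs1 hs2
  have hD : Real.log (1 / (s - 1)) - C₁ ≤ (degOneSet K).primeIdealZetaSum s := by
    linarith [hs1.1]
  have h5 : (Module.finrank K L : ℝ) * (Real.log (1 / (s - 1)) - C₁) ≤
      Module.finrank K L * (degOneSet K).primeIdealZetaSum s :=
    mul_le_mul_of_nonneg_left hD (by linarith)
  rw [mul_sub] at h5
  have h7 : (0 : ℝ) ≤ ((Module.finrank K L : ℝ) - 2) * Real.log (1 / (s - 1)) :=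
    mul_nonneg (by linarith) hs0.le
  rw [sub_mul] at h7
  linarith [hs2.2]

/-- **(Z3)**, ideal form: `T` is any finite set of ideals of `𝓞 K`. -/
theorem exists_degree_one_prime_not_split' (h : 1 < Module.finrank K L)
    (T : Finset (Ideal (𝓞 K))) :
    ∃ P : Ideal (𝓞 K), P.IsPrime ∧ P ≠ ⊥ ∧ P ∉ T ∧ (absNorm P).Prime ∧
      (P.primesOver (𝓞 L)).ncard ≠ Module.finrank K L := by
  classical
  obtain ⟨v, hvT, hv1, hv2⟩ := exists_degree_one_prime_not_split K L h
    (T.preimage HeightOneSpectrum.asIdeal (fun _ _ _ _ h => HeightOneSpectrum.ext h))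
  refine ⟨v.asIdeal, v.isPrime, v.ne_bot, fun hT => hvT ?_, hv1, hv2⟩
  exact Finset.mem_preimage.mpr hT

/-- **(Z3)**, form used by the S14 core: the rational prime below avoids a given finite set. -/
theorem exists_degree_one_prime_not_split_of_finset (h : 1 < Module.finrank K L)
    (S : Finset ℕ) :
    ∃ P : Ideal (𝓞 K), P.IsPrime ∧ P ≠ ⊥ ∧ (absNorm P).Prime ∧ absNorm P ∉ S ∧
      (P.primesOver (𝓞 L)).ncard ≠ Module.finrank K L := by
  classical
  have hfin : ∀ n ∈ S, {I : Ideal (𝓞 K) | absNorm I = n}.Finite := fun n _ =>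
    finite_setOfPred_absNorm_eq n
  have hT : {I : Ideal (𝓞 K) | absNorm I ∈ S}.Finite := by
    have : {I : Ideal (𝓞 K) | absNorm I ∈ S} = ⋃ n ∈ S, {I : Ideal (𝓞 K) | absNorm I = n} := by
      ext I
      simp
    rw [this]
    exact Set.Finite.biUnion S.finite_toSet hfin
  obtain ⟨P, hP, hP0, hPT, hP1, hP2⟩ := exists_degree_one_prime_not_split' K L h hT.toFinset
  refine ⟨P, hP, hP0, hP1, fun hS => hPT ?_, hP2⟩
  simpa using hS

/-- **(Z3)** with a predicate `good` on rational primes that holds outside a finite set. -/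
theorem exists_degree_one_prime_not_split_of_good (h : 1 < Module.finrank K L)
    (good : ℕ → Prop) (S : Finset ℕ) (hgood : ∀ q : ℕ, q.Prime → q ∉ S → good q) :
    ∃ P : Ideal (𝓞 K), P.IsPrime ∧ P ≠ ⊥ ∧ (absNorm P).Prime ∧ good (absNorm P) ∧
      (P.primesOver (𝓞 L)).ncard ≠ Module.finrank K L := by
  obtain ⟨P, hP, hP0, hP1, hPS, hP2⟩ := exists_degree_one_prime_not_split_of_finset K L h S
  exact ⟨P, hP, hP0, hP1, hgood _ hP1 hPS, hP2⟩

/-- In the Galois case, a prime with `#primesOver ≠ [L:K]` has `e * f ≠ 1` at every prime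
above it. -/
theorem ramificationIdx_mul_inertiaDeg_ne_one_of_ncard_ne [IsGalois K L]
    (P : Ideal (𝓞 K)) [P.IsPrime]
    (hne : (P.primesOver (𝓞 L)).ncard ≠ Module.finrank K L)
    (Q : Ideal (𝓞 L)) [Q.IsPrime] [Q.LiesOver P] :
    Q.ramificationIdx (𝓞 K) * Q.inertiaDeg (𝓞 K) ≠ 1 := by
  intro h1
  have h2 := Ideal.ncard_primesOver_mul_ramificationIdxIn_mul_inertiaDegIn P (𝓞 L) Gal(L/K)
  rw [Ideal.ramificationIdxIn_eq_ramificationIdx P Q Gal(L/K),
    Ideal.inertiaDegIn_eq_inertiaDeg P Q Gal(L/K), h1, mul_one,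
    IsGalois.card_aut_eq_finrank] at h2
  exact hne h2

end Relative

end Fermat.Agent.S14.helper69
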