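import Mathlib

/-!
# S14, route R2, step R2-K (D): the local condition at `(1 - ζ)`

`K = ℚ(ζ_p)`, `L/K` a finite Galois extension in which the primes above `p` have trivial
decomposition group, `α ∈ Kˣ` with a `p`-th root `θ ∈ L`.  Then, after multiplying `α` by a
`p`-th power of `Kˣ`, `α` is a `(1 - ζ)`-adic unit which is congruent to a rational integer
modulo `(1 - ζ) ^ p` (in particular modulo `(1 - ζ) ^ 3`).

Main results: `local_condition`, `local_condition_pow`.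
-/

set_option autoImplicit false
set_option linter.style.haveILetI false
set_option linter.unusedSectionVars false

open scoped NumberField Pointwise
open IsDedekindDomain NumberField

namespace Fermat.Agent.S14.helper2

section EF

variable {K L : Type*} [Field K] [NumberField K] [Field L] [NumberField L] [Algebra K L]
  [IsGalois K L]

/-- Trivial decomposition group gives `e = 1` and `f = 1`. -/
theorem lp_ramificationIdx_inertiaDeg_eq_one (𝔭 : Ideal (𝓞 K)) [𝔭.IsMaximal]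
    (P : Ideal (𝓞 L)) [P.IsPrime] [P.LiesOver 𝔭]
    (htriv : ∀ σ : Gal(L/K), (∀ x : 𝓞 L, x ∈ P → σ • x ∈ P) → σ = 1) :
    P.ramificationIdx (𝓞 K) = 1 ∧ P.inertiaDeg (𝓞 K) = 1 := by
  have hcard : Nat.card (MulAction.stabilizer Gal(L/K) P) = 1 := by
    rw [Nat.card_eq_one_iff_unique]
    refine ⟨⟨fun a b => ?_⟩, ⟨1⟩⟩
    have h1 : ∀ c : MulAction.stabilizer Gal(L/K) P, (c : Gal(L/K)) = 1 := by
      intro c
      apply htriv
      intro x hx
      have hc : (c : Gal(L/K)) • P = P := c.2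
      have := Ideal.smul_mem_pointwise_smul (c : Gal(L/K)) x P hx
      rwa [hc] at this
    exact Subtype.ext ((h1 a).trans (h1 b).symm)
  have h := Ideal.card_stabilizer_eq (G := Gal(L/K)) 𝔭 P
  rw [hcard, Ideal.ramificationIdxIn_eq_ramificationIdx 𝔭 P Gal(L/K),
    Ideal.inertiaDegIn_eq_inertiaDeg 𝔭 P Gal(L/K)] at h
  exact ⟨Nat.eq_one_of_mul_eq_one_right h.symm, Nat.eq_one_of_mul_eq_one_left h.symm⟩

end EF

section Residue

variable {L : Type*} [Field L] [NumberField L]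

/-- If the norm of an ideal is a prime number, every residue class contains a rational integer. -/
theorem lp_exists_int_sub_mem {p : ℕ} (hp : p.Prime) (P : Ideal (𝓞 L))
    (hP : Ideal.absNorm P = p) (y : 𝓞 L) : ∃ n : ℤ, y - (n : 𝓞 L) ∈ P := by
  have hcard : Nat.card (𝓞 L ⧸ P) = p := by
    rw [← hP, Ideal.absNorm_apply, Submodule.cardQuot_apply]
  haveI : Fact p.Prime := ⟨hp⟩
  have hne : (1 : 𝓞 L ⧸ P) ≠ 0 := by
    intro h
    have hsub : Subsingleton (𝓞 L ⧸ P) := subsingleton_of_zero_eq_one h.symm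
    have : Nat.card (𝓞 L ⧸ P) = 1 := Nat.card_unique
    rw [hcard] at this
    exact hp.one_lt.ne' this
  have hmem := mem_zmultiples_of_prime_card (G := 𝓞 L ⧸ P) hcard hne
    (g' := Ideal.Quotient.mk P y)
  obtain ⟨n, hn⟩ := AddSubgroup.mem_zmultiples_iff.mp hmem
  refine ⟨n, ?_⟩
  rw [← Ideal.Quotient.eq_zero_iff_mem, map_sub, map_intCast, ← hn]
  simp
  
end Residue

section Setup

variable {p : ℕ} [hp : Fact p.Prime] {K : Type*} [Field K] [NumberField K]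
  [IsCyclotomicExtension {p} ℚ K]

theorem lp_isPrimitiveRoot_coe {ζ : 𝓞 K} (hζ : IsPrimitiveRoot ζ p) :
    IsPrimitiveRoot (ζ : K) p :=
  hζ.map_of_injective RingOfIntegers.coe_injective

theorem lp_toInteger_coe {ζ : 𝓞 K} (hζ : IsPrimitiveRoot ζ p) :
    haveI : NeZero p := ⟨hp.out.ne_zero⟩
    (lp_isPrimitiveRoot_coe hζ).toInteger = ζ := by
  haveI : NeZero p := ⟨hp.out.ne_zero⟩
  exact RingOfIntegers.ext rfl

theorem lp_prime {ζ : 𝓞 K} (hζ : IsPrimitiveRoot ζ p) : Prime (ζ - 1) := by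
  haveI : NeZero p := ⟨hp.out.ne_zero⟩
  have := (lp_isPrimitiveRoot_coe hζ).zeta_sub_one_prime'
  rwa [lp_toInteger_coe hζ] at this

theorem lp_dvd_natCast {ζ : 𝓞 K} (hζ : IsPrimitiveRoot ζ p) : ζ - 1 ∣ (p : 𝓞 K) := by
  haveI : NeZero p := ⟨hp.out.ne_zero⟩
  have h := IsCyclotomicExtension.Rat.associated_zeta_sub_one_pow_prime p
    (lp_isPrimitiveRoot_coe hζ)
  rw [lp_toInteger_coe hζ] at h
  have h1 : ζ - 1 ∣ (ζ - 1) ^ (p - 1) :=
    dvd_pow_self _ (by have := hp.out.two_le; omega)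
  exact h1.trans h.dvd

theorem lp_absNorm {ζ : 𝓞 K} (hζ : IsPrimitiveRoot ζ p) :
    Ideal.absNorm (Ideal.span {ζ - 1}) = p := by
  haveI : NeZero p := ⟨hp.out.ne_zero⟩
  have hK : IsCyclotomicExtension {p ^ (0 + 1)} ℚ K := by simpa using ‹IsCyclotomicExtension {p} ℚ K›
  have hζ' : IsPrimitiveRoot (ζ : K) (p ^ (0 + 1)) := by simpa using lp_isPrimitiveRoot_coe hζ
  have := IsCyclotomicExtension.Rat.absNorm_span_zeta_sub_one p 0 hζ'
  rw [← this]
  congr 3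

end Setup

section Val

variable {K L : Type*} [Field K] [NumberField K] [Field L] [NumberField L] [Algebra K L]

/-- For an unramified prime the valuation upstairs restricts to the valuation downstairs. -/
theorem lp_valuation_eq (v : HeightOneSpectrum (𝓞 K)) (w : HeightOneSpectrum (𝓞 L))
    [w.asIdeal.LiesOver v.asIdeal] (he : w.asIdeal.ramificationIdx (𝓞 K) = 1) (x : K) :
    w.valuation L (algebraMap K L x) = v.valuation K x := by
  have h := HeightOneSpectrum.valuation_liesOver L v w x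
  rw [Ideal.ramificationIdx'_eq_ramificationIdx v.asIdeal w.asIdeal v.ne_bot, he, pow_one] at h
  exact h.symm

theorem lp_intValuation_eq (v : HeightOneSpectrum (𝓞 K)) (w : HeightOneSpectrum (𝓞 L))
    [w.asIdeal.LiesOver v.asIdeal] (he : w.asIdeal.ramificationIdx (𝓞 K) = 1) (x : 𝓞 K) :
    w.intValuation (algebraMap (𝓞 K) (𝓞 L) x) = v.intValuation x := by
  have h := HeightOneSpectrum.intValuation_liesOver v w x
  rw [Ideal.ramificationIdx'_eq_ramificationIdx v.asIdeal w.asIdeal v.ne_bot, he, pow_one] at h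
  exact h.symm

end Val

section Prod

variable {R : Type*} [CommRing R] [IsDomain R]

/-- If `ζ ≡ 1` and `η ≡ y` modulo `P`, then `η ^ p ≡ y ^ p` modulo `P ^ p`. -/
theorem lp_pow_sub_pow_mem {p : ℕ} (hp : 0 < p) {ζ : R} (hζ : IsPrimitiveRoot ζ p)
    (P : Ideal R) (hζP : ζ - 1 ∈ P) (η y : R) (hy : η - y ∈ P) :
    η ^ p - y ^ p ∈ P ^ p := by
  haveI : NeZero p := ⟨hp.ne'⟩
  rw [hζ.pow_sub_pow_eq_prod_sub_mul η y hp]
  have hcard : (Polynomial.nthRootsFinset p (1 : R)).card = p := hζ.card_nthRootsFinset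
  have hmem : ∀ μ ∈ Polynomial.nthRootsFinset p (1 : R), η - μ * y ∈ P := by
    intro μ hμ
    have hμ1 : μ ^ p = 1 := (Polynomial.mem_nthRootsFinset hp 1).mp hμ
    obtain ⟨i, -, rfl⟩ := hζ.eq_pow_of_pow_eq_one hμ1
    have h1 : ζ ^ i - 1 ∈ P := by
      have hd : ζ - 1 ∣ ζ ^ i - 1 := by
        simpa using sub_dvd_pow_sub_pow ζ 1 i
      exact Ideal.mem_of_dvd P hd hζP
    have : η - ζ ^ i * y = (η - y) - (ζ ^ i - 1) * y := by ring
    rw [this]
    exact P.sub_mem hy (P.mul_mem_right _ h1)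
  have := Ideal.prod_mem_prod (s := Polynomial.nthRootsFinset p (1 : R))
    (I := fun _ => P) (x := fun μ => η - μ * y) hmem
  rwa [Finset.prod_const, hcard] at this

end Prod

section Main

variable {p : ℕ} [hpf : Fact p.Prime] (K L : Type*) [Field K] [NumberField K]
  [Field L] [NumberField L] [Algebra K L] [IsGalois K L] [IsCyclotomicExtension {p} ℚ K]

/-- **Local condition at `(1 - ζ)`, strong form**: congruence modulo `(ζ - 1) ^ p`, with
denominator `1`. -/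
theorem local_condition_pow
    (hsplit : ∀ P : Ideal (𝓞 L), P.IsMaximal → (p : 𝓞 L) ∈ P →
      ∀ σ : Gal(L/K), (∀ x : 𝓞 L, x ∈ P → σ • x ∈ P) → σ = 1)
    {ζ : 𝓞 K} (hζ : IsPrimitiveRoot ζ p) (α : K) (hα : α ≠ 0) (θ : L)
    (hθ : θ ^ p = algebraMap K L α) :
    ∃ (k : K) (a : 𝓞 K) (y : ℤ), k ≠ 0 ∧ α * k ^ p = (a : K) ∧ ¬ (ζ - 1 ∣ a) ∧
      (ζ - 1) ^ p ∣ a - ((y ^ p : ℤ) : 𝓞 K) := by
  have hp0 : 0 < p := hpf.out.pos
  have hπ : Prime (ζ - 1) := lp_prime hζ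
  have hπ0 : ζ - 1 ≠ 0 := hπ.ne_zero
  -- the prime `𝔭 = (ζ - 1)`
  have h𝔭prime : (Ideal.span {ζ - 1} : Ideal (𝓞 K)).IsPrime :=
    (Ideal.span_singleton_prime hπ0).mpr hπ
  have h𝔭ne : (Ideal.span {ζ - 1} : Ideal (𝓞 K)) ≠ ⊥ := by
    simpa [Ideal.span_singleton_eq_bot] using hπ0
  obtain ⟨v, hv⟩ : ∃ v : HeightOneSpectrum (𝓞 K), v.asIdeal = Ideal.span {ζ - 1} :=
    ⟨⟨Ideal.span {ζ - 1}, h𝔭prime, h𝔭ne⟩, rfl⟩
  haveI h𝔭max : v.asIdeal.IsMaximal := v.isMaximal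
  -- a prime `P` of `𝓞 L` above `𝔭`
  obtain ⟨P, hPmax, hPover⟩ :=
    Ideal.exists_maximal_ideal_liesOver_of_isIntegral (S := 𝓞 L) v.asIdeal
  haveI := hPmax
  haveI := hPover
  have hPne : P ≠ ⊥ := Ideal.ne_bot_of_liesOver_of_ne_bot v.ne_bot P
  obtain ⟨w, hw⟩ : ∃ w : HeightOneSpectrum (𝓞 L), w.asIdeal = P :=
    ⟨⟨P, hPmax.isPrime, hPne⟩, rfl⟩
  haveI : w.asIdeal.LiesOver v.asIdeal := by rw [hw]; exact hPover
  have hζP : algebraMap (𝓞 K) (𝓞 L) (ζ - 1) ∈ P := by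
    rw [← Ideal.mem_of_liesOver P v.asIdeal, hv]
    exact Ideal.mem_span_singleton_self _
  have hpP : (p : 𝓞 L) ∈ P := by
    obtain ⟨c, hc⟩ := lp_dvd_natCast hζ
    have : (p : 𝓞 L) = algebraMap (𝓞 K) (𝓞 L) (ζ - 1) * algebraMap (𝓞 K) (𝓞 L) c := by
      rw [← map_mul, ← hc, map_natCast]
    rw [this]
    exact P.mul_mem_right _ hζP
  obtain ⟨he, hf⟩ := lp_ramificationIdx_inertiaDeg_eq_one v.asIdeal P (hsplit P hPmax hpP)
  have hNP : Ideal.absNorm P = p := by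
    have := Ideal.absNorm_pow_inertiaDeg v.asIdeal P
    rw [hf, pow_one, hv, lp_absNorm hζ] at this
    exact this.symm
  have hew : w.asIdeal.ramificationIdx (𝓞 K) = 1 := by rw [hw]; exact he
  -- valuations
  have hvalK : ∀ x : K, w.valuation L (algebraMap K L x) = v.valuation K x :=
    lp_valuation_eq v w hew
  have hθ0 : θ ≠ 0 := by
    rintro rfl
    rw [zero_pow hp0.ne'] at hθ
    exact hα ((map_eq_zero _).mp hθ.symm)
  have hwθ : w.valuation L θ ≠ 0 := (Valuation.ne_zero_iff _).mpr hθ0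
  obtain ⟨m, hm⟩ : ∃ m : ℤ, w.valuation L θ = WithZero.exp m :=
    ⟨WithZero.log _, (WithZero.exp_log hwθ).symm⟩
  have hvπ : v.valuation K (algebraMap (𝓞 K) K (ζ - 1)) = WithZero.exp (-1 : ℤ) := by
    rw [HeightOneSpectrum.valuation_of_algebraMap]
    exact v.intValuation_singleton hπ0 hv
  have hinjK : Function.Injective (algebraMap (𝓞 K) K) :=
    FaithfulSMul.algebraMap_injective (𝓞 K) K
  have hπK : algebraMap (𝓞 K) K (ζ - 1) ≠ 0 := fun h =>
    hπ0 (hinjK (h.trans (map_zero _).symm))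
  obtain ⟨k₁, hk₁⟩ : ∃ k₁ : K, k₁ = (algebraMap (𝓞 K) K (ζ - 1)) ^ m := ⟨_, rfl⟩
  have hk₁0 : k₁ ≠ 0 := by rw [hk₁]; exact zpow_ne_zero _ hπK
  have hvk₁ : v.valuation K k₁ = WithZero.exp (-m) := by
    rw [hk₁, map_zpow₀, hvπ, ← WithZero.exp_zsmul]
    simp
  have hvα : v.valuation K α = WithZero.exp ((p : ℤ) * m) := by
    rw [← hvalK, ← hθ, map_pow, hm, ← WithZero.exp_nsmul]
    simp
  have hvα₁ : v.valuation K (α * k₁ ^ p) = 1 := by
    rw [map_mul, map_pow, hvα, hvk₁, ← WithZero.exp_nsmul, ← WithZero.exp_add]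
    simp
  obtain ⟨a, ⟨b, hb⟩, hab⟩ := v.exists_primeCompl_mul_eq_of_integer (α * k₁ ^ p) hvα₁.le
  have hb' : b ∉ v.asIdeal := hb
  have hbv : v.intValuation b = 1 := HeightOneSpectrum.intValuation_eq_one_iff.mpr hb'
  have hab' : α * k₁ ^ p * (algebraMap (𝓞 K) K) b = (algebraMap (𝓞 K) K) a := hab
  have hav : v.intValuation a = 1 := by
    have h1 : v.valuation K (algebraMap (𝓞 K) K a) = 1 := by
      rw [← hab', map_mul, hvα₁, one_mul]
      exact (HeightOneSpectrum.valuation_of_algebraMap v b).trans hbv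
    exact (HeightOneSpectrum.valuation_of_algebraMap v a).symm.trans h1
  have ha : a ∉ v.asIdeal := HeightOneSpectrum.intValuation_eq_one_iff.mp hav
  have hπa : ¬ (ζ - 1 ∣ a) := fun h => ha (by rw [hv]; exact Ideal.mem_span_singleton.mpr h)
  have hπb : ¬ (ζ - 1 ∣ b) := fun h => hb' (by rw [hv]; exact Ideal.mem_span_singleton.mpr h)
  have hb0 : b ≠ 0 := by
    rintro rfl
    exact hπb (dvd_zero _)
  have hbK : algebraMap (𝓞 K) K b ≠ 0 := fun h =>
    hb0 (hinjK (h.trans (map_zero _).symm))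
  -- the normalised element
  have hαk : α * (k₁ * algebraMap (𝓞 K) K b) ^ p = algebraMap (𝓞 K) K (a * b ^ (p - 1)) := by
    have hpp : p = (p - 1) + 1 := by omega
    calc α * (k₁ * algebraMap (𝓞 K) K b) ^ p
        = (α * k₁ ^ p * algebraMap (𝓞 K) K b) * (algebraMap (𝓞 K) K b) ^ (p - 1) := by
          rw [mul_pow]
          conv_lhs => rw [hpp, pow_succ (algebraMap (𝓞 K) K b)]
          rw [← hpp]
          ring
      _ = algebraMap (𝓞 K) K (a * b ^ (p - 1)) := by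
          rw [hab', map_mul, map_pow]
  have hπab : ¬ (ζ - 1 ∣ a * b ^ (p - 1)) := by
    intro h
    rcases hπ.dvd_or_dvd h with h1 | h1
    · exact hπa h1
    · exact hπb (hπ.dvd_of_dvd_pow h1)
  -- the `p`-th root upstairs
  have hint : IsIntegral ℤ (θ * algebraMap K L (k₁ * algebraMap (𝓞 K) K b)) := by
    apply IsIntegral.of_pow hp0
    rw [mul_pow, hθ, ← map_pow, ← map_mul, hαk, ← IsScalarTower.algebraMap_apply,
      IsScalarTower.algebraMap_apply (𝓞 K) (𝓞 L) L]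
    exact RingOfIntegers.isIntegral_coe _
  obtain ⟨η, hη⟩ : ∃ η : 𝓞 L, algebraMap (𝓞 L) L η =
      θ * algebraMap K L (k₁ * algebraMap (𝓞 K) K b) := ⟨⟨_, hint⟩, rfl⟩
  have hηp : η ^ p = algebraMap (𝓞 K) (𝓞 L) (a * b ^ (p - 1)) := by
    apply RingOfIntegers.coe_injective
    rw [map_pow, hη, mul_pow, hθ, ← map_pow, ← map_mul, hαk, ← IsScalarTower.algebraMap_apply,
      IsScalarTower.algebraMap_apply (𝓞 K) (𝓞 L) L]
  obtain ⟨y, hy⟩ := lp_exists_int_sub_mem hpf.out P hNP η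
  -- the congruence upstairs
  have hζL : IsPrimitiveRoot (algebraMap (𝓞 K) (𝓞 L) ζ) p :=
    hζ.map_of_injective (FaithfulSMul.algebraMap_injective (𝓞 K) (𝓞 L))
  have hζLP : algebraMap (𝓞 K) (𝓞 L) ζ - 1 ∈ P := by
    simpa using hζP
  have hmem := lp_pow_sub_pow_mem hp0 hζL P hζLP η (y : 𝓞 L) hy
  have hmap : algebraMap (𝓞 K) (𝓞 L) (a * b ^ (p - 1) - ((y ^ p : ℤ) : 𝓞 K)) =
      η ^ p - (y : 𝓞 L) ^ p := by
    rw [map_sub, ← hηp, map_intCast]
    push_cast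
    rfl
  have hwc : w.intValuation (algebraMap (𝓞 K) (𝓞 L) (a * b ^ (p - 1) - ((y ^ p : ℤ) : 𝓞 K))) ≤
      WithZero.exp (-(p : ℤ)) := by
    rw [w.intValuation_le_pow_iff_mem, hw, hmap]
    exact hmem
  rw [lp_intValuation_eq v w hew, v.intValuation_le_pow_iff_mem, hv, Ideal.span_singleton_pow,
    Ideal.mem_span_singleton] at hwc
  exact ⟨k₁ * algebraMap (𝓞 K) K b, a * b ^ (p - 1), y, mul_ne_zero hk₁0 hbK, hαk, hπab, hwc⟩

/-- **Local condition (d) at `(1 - ζ)`** in the shape of R2-K / R2-A. -/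
theorem local_condition (hp : 3 ≤ p)
    (hsplit : ∀ P : Ideal (𝓞 L), P.IsMaximal → (p : 𝓞 L) ∈ P →
      ∀ σ : Gal(L/K), (∀ x : 𝓞 L, x ∈ P → σ • x ∈ P) → σ = 1)
    {ζ : 𝓞 K} (hζ : IsPrimitiveRoot ζ p) (α : K) (hα : α ≠ 0) (θ : L)
    (hθ : θ ^ p = algebraMap K L α) :
    ∃ (α' k : K) (a b : 𝓞 K) (x : ℤ), k ≠ 0 ∧ α' = α * k ^ p ∧ ¬ (ζ - 1 ∣ a) ∧ ¬ (ζ - 1 ∣ b) ∧
      α' * (b : K) = (a : K) ∧ (ζ - 1) ^ 3 ∣ a - x * b := by
  obtain ⟨k, a, y, hk, hαk, hπa, hdvd⟩ := local_condition_pow K L hsplit hζ α hα θ hθ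
  refine ⟨α * k ^ p, k, a, 1, y ^ p, hk, rfl, hπa, (lp_prime hζ).not_dvd_one, ?_, ?_⟩
  · rw [hαk]
    simp
  · rw [mul_one]
    exact (pow_dvd_pow _ hp).trans hdvd

end Main

end Fermat.Agent.S14.helper2
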