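import Mathlib
import Fermat.Agent.S14.helper54_Resolvent
import Fermat.Agent.S14.helper54_Local

/-!
# S14-R2-K, bridging (helper54): from the obstruction subgroup to number fields

`K₀ = ℚ(ζ) ⊆ L₀ = ℚ̄^N`: finiteness, Galois, trivial inertia groups in `Gal(L₀/K₀)` at all primes,
and residue fields `𝔽_p` at the primes of `L₀` over `p`.
-/

set_option autoImplicit false
set_option linter.style.haveILetI false
set_option linter.unusedSectionVars false
set_option linter.unusedVariables false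

open ExtCitation Fermat.Agent.S14.helper69
open scoped NumberField nonZeroDivisors
open IsDedekindDomain HeightOneSpectrum

namespace Fermat.Agent.S14.helper54

variable {p : ℕ} [Fact p.Prime] {N : Subgroup helper69.GQ} {ζ : Qb}

section Fields

theorem cycField_le_fixedField (hN : IsObstruction p N) (hζ : IsPrimitiveRoot ζ p) :
    cycField ζ ≤ IntermediateField.fixedField N := by
  intro x hx
  rw [IntermediateField.mem_fixedField_iff]
  intro σ hσ
  exact (mem_cycField_iff hζ x).mp hx σ (hN.le_ker hσ)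

theorem finiteDimensional_cycField (ζ : Qb) :
    FiniteDimensional ℚ (cycField ζ) := by
  haveI := Fermat.Agent.S54.helper91.isAlgebraic_Qbar
  exact IntermediateField.adjoin.finiteDimensional (Algebra.IsIntegral.isIntegral ζ)

theorem isCyclotomicExtension_cycField (hζ : IsPrimitiveRoot ζ p) :
    IsCyclotomicExtension {p} ℚ (cycField ζ) := by
  haveI := Fermat.Agent.S54.helper91.isAlgebraic_Qbar
  haveI : NeZero p := ⟨(Fact.out : p.Prime).ne_zero⟩
  exact hζ.intermediateField_adjoin_isCyclotomicExtension (K := ℚ)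

theorem finiteDimensional_fixedField (hN : IsObstruction p N) :
    FiniteDimensional ℚ (IntermediateField.fixedField N) := by
  haveI := Fermat.Agent.S54.helper91.isGalois_Qbar
  rw [← InfiniteGalois.isOpen_iff_finite (IntermediateField.fixedField N)]
  show IsOpen ((IntermediateField.fixedField N).fixingSubgroup : Set GQ)
  rw [fixingSubgroup_fixedField_of_isOpen N hN.isOpen]
  exact hN.isOpen

theorem isGalois_fixedField (hN : IsObstruction p N) :
    IsGalois ℚ (IntermediateField.fixedField N) := by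
  haveI := Fermat.Agent.S54.helper91.isGalois_Qbar
  have h := (InfiniteGalois.normal_iff_isGalois (IntermediateField.fixedField N)).mp (by
    rw [fixingSubgroup_fixedField_of_isOpen N hN.isOpen]
    exact hN.normal)
  convert h
  exact Subsingleton.elim _ _

theorem isGalois_cycField (hζ : IsPrimitiveRoot ζ p) :
    IsGalois ℚ (cycField ζ) := by
  haveI := Fermat.Agent.S54.helper91.isGalois_Qbar
  have h := (InfiniteGalois.normal_iff_isGalois (cycField ζ)).mp (by
    rw [fixingSubgroup_cycField hζ]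
    infer_instance)
  convert h
  exact Subsingleton.elim _ _

end Fields


section Inertia

open Fermat.Agent.S14.helper91 in
/-- A nonzero prime of a number field contains a prime number. -/
theorem exists_prime_natCast_mem {F : Type*} [Field F] [NumberField F] (w : Ideal (𝓞 F))
    [w.IsPrime] (hw : w ≠ ⊥) : ∃ ℓ : ℕ, ℓ.Prime ∧ (ℓ : 𝓞 F) ∈ w := by
  haveI : w.IsMaximal := Ring.DimensionLEOne.maximalOfPrime hw inferInstance
  letI : Field (𝓞 F ⧸ w) := Ideal.Quotient.field w
  haveI : Finite (𝓞 F ⧸ w) := Ideal.finiteQuotientOfFreeOfNeBot w hw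
  obtain ⟨ℓ, hℓ⟩ := CharP.exists (𝓞 F ⧸ w)
  haveI := hℓ
  have hℓ0 : ℓ ≠ 0 := CharP.char_ne_zero_of_finite (𝓞 F ⧸ w) ℓ
  have hℓp : ℓ.Prime := (CharP.char_is_prime_or_zero (𝓞 F ⧸ w) ℓ).resolve_right hℓ0
  refine ⟨ℓ, hℓp, ?_⟩
  rw [← Ideal.Quotient.eq_zero_iff_mem, map_natCast]
  exact CharP.cast_eq_zero _ _

open Fermat.Agent.S14.helper91 in
theorem eq_one_of_mem_inertia (hN : IsObstruction p N) (hζ : IsPrimitiveRoot ζ p)
    [NumberField (IntermediateField.fixedField N)] [Normal ℚ (IntermediateField.fixedField N)]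
    (w : Ideal (𝓞 (IntermediateField.fixedField N))) [w.IsPrime] (hw : w ≠ ⊥)
    (τ : IntermediateField.fixedField N ≃ₐ[ℚ] IntermediateField.fixedField N)
    (hτK : τ ⟨ζ, cycField_le_fixedField hN hζ (IntermediateField.mem_adjoin_simple_self ℚ ζ)⟩ =
      ⟨ζ, cycField_le_fixedField hN hζ (IntermediateField.mem_adjoin_simple_self ℚ ζ)⟩)
    (hτ : τ ∈ Ideal.inertia (IntermediateField.fixedField N ≃ₐ[ℚ] IntermediateField.fixedField N)
      w) : τ = 1 := by
  haveI : w.IsMaximal := Ring.DimensionLEOne.maximalOfPrime hw inferInstance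
  obtain ⟨A, hA⟩ := exists_primeOf_eq (IntermediateField.fixedField N) w
  obtain ⟨ℓ, hℓ, hℓw⟩ := exists_prime_natCast_mem w hw
  have hAℓ : A.LiesOverPrime ℓ :=
    liesOverPrime_of_natCast_mem (IntermediateField.fixedField N) A (by rw [hA]; exact hℓw)
  rw [← hA] at hτ
  obtain ⟨σ, hσI, hσ⟩ := exists_mem_inertia_restrict_eq (IntermediateField.fixedField N) A hℓ hAℓ
    τ hτ
  have hσD : σ ∈ A.decompositionSubgroup ℚ := ((mem_inertiaSubgroupIn_iff_valuation A σ).mp hσI).1
  have hσH : σ ∈ (cycloChar p).ker := by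
    rw [mem_ker_cycloChar_iff hζ]
    have h1 := AlgEquiv.restrictNormal_commutes σ (IntermediateField.fixedField N)
      ⟨ζ, cycField_le_fixedField hN hζ (IntermediateField.mem_adjoin_simple_self ℚ ζ)⟩
    have h2 : σ.restrictNormal (IntermediateField.fixedField N) = τ := hσ
    rw [h2, hτK] at h1
    exact h1.symm
  have hσN : σ ∈ N := by
    by_cases hℓp : ℓ = p
    · subst hℓp
      exact hN.split_at_p A hAℓ ⟨hσD, hσH⟩
    · exact hN.unramified ℓ hℓ hℓp A hAℓ hσI
  rw [← hσ]
  ext x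
  have h1 := AlgEquiv.restrictNormal_commutes σ (IntermediateField.fixedField N) x
  have h2 : σ (x : Qb) = x := by
    have := x.2
    rw [IntermediateField.mem_fixedField_iff] at this
    exact this σ hσN
  show ((σ.restrictNormal (IntermediateField.fixedField N)) x : Qb) = x
  exact h1.trans h2

end Inertia


section Frobenius

open Ideal in
/-- In the `p`-th cyclotomic field, the inertia group of the prime over `p` is everything. -/
theorem inertia_eq_top_of_cyclotomic (K : Type*) [Field K] [NumberField K] [IsGalois ℚ K]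
    [IsCyclotomicExtension {p} ℚ K] (P : Ideal (𝓞 K)) [P.IsPrime]
    [P.LiesOver (span {(p : ℤ)})] : Ideal.inertia Gal(K/ℚ) P = ⊤ := by
  have hp : p.Prime := Fact.out
  have hpr : (span {(p : ℤ)}).IsPrime := by
    rw [span_singleton_prime (by exact_mod_cast hp.ne_zero)]
    exact Nat.prime_iff_prime_int.mp hp
  have hmax : (span {(p : ℤ)}).IsMaximal := hpr.isMaximal (by
    simp [hp.ne_zero])
  have h1 := Ideal.card_inertia_eq_ramificationIdxIn (G := Gal(K/ℚ)) (span {(p : ℤ)}) P
  rw [IsCyclotomicExtension.Rat.ramificationIdxIn_eq_of_prime p K] at h1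
  apply Subgroup.eq_top_of_card_eq
  rw [h1, IsGalois.card_aut_eq_finrank, IsCyclotomicExtension.finrank K
    (Polynomial.cyclotomic.irreducible_rat hp.pos), Nat.totient_prime hp]

open Fermat.Agent.S14.helper91 Fermat.Agent.S54.helper91 in
theorem primeOf_liesOver {F : Type*} [Field F] [NumberField F] [Algebra F Qb]
    (A : ValuationSubring Qb) (hA : A.LiesOverPrime p) :
    (primeOf F A).LiesOver (Ideal.span {(p : ℤ)}) := by
  have hp : p.Prime := Fact.out
  have hpr : (Ideal.span {(p : ℤ)}).IsPrime := by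
    rw [Ideal.span_singleton_prime (by exact_mod_cast hp.ne_zero)]
    exact Nat.prime_iff_prime_int.mp hp
  have hmax : (Ideal.span {(p : ℤ)}).IsMaximal := hpr.isMaximal (by
    simp [hp.ne_zero])
  constructor
  apply hmax.eq_of_le
  · exact (Ideal.IsPrime.under ℤ (primeOf F A)).ne_top
  · rw [Ideal.span_singleton_le_iff_mem, Ideal.under, Ideal.mem_comap]
    have := natCast_mem_primeOf F A hA
    simpa using this

open Fermat.Agent.S14.helper91 Fermat.Agent.S54.helper91 in
/-- There is a Frobenius element at `A` (over `p`) which lies in `N`. -/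
theorem exists_frobenius_mem (hN : IsObstruction p N) (hζ : IsPrimitiveRoot ζ p)
    (A : ValuationSubring Qb) (hA : A.LiesOverPrime p) :
    ∃ φ : helper69.GQ, φ ∈ N ∧ ∀ a ∈ A, A.valuation (φ a - a ^ p) < 1 := by
  have hp : p.Prime := Fact.out
  obtain ⟨φ₀, hφ₀⟩ := exists_isFrobeniusAt_of_liesOver A hp hA
  haveI := finiteDimensional_cycField ζ
  haveI : NumberField (cycField ζ) := NumberField.mk
  haveI := isGalois_cycField hζ
  haveI := isCyclotomicExtension_cycField hζ
  haveI := primeOf_liesOver (F := cycField ζ) A hA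
  have htop := inertia_eq_top_of_cyclotomic (p := p) (cycField ζ) (primeOf (cycField ζ) A)
  obtain ⟨ι, hιI, hι⟩ := exists_mem_inertia_restrict_eq (cycField ζ) A hp hA
    (AlgEquiv.restrictNormalHom (cycField ζ) φ₀) (by rw [htop]; trivial)
  have hιD : ι ∈ A.decompositionSubgroup ℚ := ((mem_inertiaSubgroupIn_iff_valuation A ι).mp hιI).1
  have hιv := ((mem_inertiaSubgroupIn_iff_valuation A ι).mp hιI).2
  have hφ₀D : φ₀ ∈ A.decompositionSubgroup ℚ := hφ₀.mem_decompositionSubgroup
  have hζeq : ι ζ = φ₀ ζ := by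
    have h1 := AlgEquiv.restrictNormal_commutes ι (cycField ζ)
      ⟨ζ, IntermediateField.mem_adjoin_simple_self ℚ ζ⟩
    have h2 := AlgEquiv.restrictNormal_commutes φ₀ (cycField ζ)
      ⟨ζ, IntermediateField.mem_adjoin_simple_self ℚ ζ⟩
    have h3 : ι.restrictNormal (cycField ζ) = φ₀.restrictNormal (cycField ζ) := hι
    rw [h3] at h1
    exact h1.symm.trans h2
  have hφD : ι⁻¹ * φ₀ ∈ A.decompositionSubgroup ℚ :=
    Subgroup.mul_mem _ (Subgroup.inv_mem _ hιD) hφ₀D
  have hφH : ι⁻¹ * φ₀ ∈ (cycloChar p).ker := by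
    rw [mem_ker_cycloChar_iff hζ, AlgEquiv.mul_apply, ← hζeq, ← AlgEquiv.mul_apply,
      inv_mul_cancel, AlgEquiv.one_apply]
  refine ⟨ι⁻¹ * φ₀, hN.split_at_p A hA ⟨hφD, hφH⟩, fun a ha => ?_⟩
  have hap : a ^ p ∈ A := pow_mem ha p
  have h1 : (ι⁻¹ * φ₀) a - a ^ p = ι⁻¹ (φ₀ a - ι (a ^ p)) := by
    rw [map_sub, AlgEquiv.mul_apply, ← AlgEquiv.mul_apply ι⁻¹ ι, inv_mul_cancel,
      AlgEquiv.one_apply]
  rw [h1, valuation_apply_lt_one_iff_of_mem_dec A (Subgroup.inv_mem _ hιD)]
  have h2 : φ₀ a - ι (a ^ p) = (φ₀ a - a ^ p) - (ι (a ^ p) - a ^ p) := by ring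
  rw [h2]
  exact Valuation.map_sub_lt _ (IsFrobeniusAt_valuation_lt_one A hφ₀ ha) (hιv _ hap)

open Fermat.Agent.S14.helper91 Fermat.Agent.S54.helper91 in
theorem pow_sub_self_mem_primeOf (hN : IsObstruction p N) (hζ : IsPrimitiveRoot ζ p)
    [NumberField (IntermediateField.fixedField N)]
    (A : ValuationSubring Qb) (hA : A.LiesOverPrime p)
    (y : 𝓞 (IntermediateField.fixedField N)) :
    y ^ p - y ∈ primeOf (IntermediateField.fixedField N) A := by
  obtain ⟨φ, hφN, hφ⟩ := exists_frobenius_mem hN hζ A hA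
  rw [mem_primeOf_iff (IntermediateField.fixedField N) A]
  have hyA : ((y : IntermediateField.fixedField N) : Qb) ∈ A := by
    apply mem_valuationSubring_of_isIntegral
    exact (toZbar (IntermediateField.fixedField N) y).2
  have h1 := hφ _ hyA
  have h2 : φ ((y : IntermediateField.fixedField N) : Qb) = y := by
    have := (y : IntermediateField.fixedField N).2
    rw [IntermediateField.mem_fixedField_iff] at this
    exact this φ hφN
  rw [h2, ← Valuation.map_neg] at h1
  convert h1 using 2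
  simp

end Frobenius


section Eigen

/-- The `ω²`-eigen property at the level of `ℚ̄`. -/
theorem IsKummerRoot.eigen_pow {θ : Qb} (hN : IsObstruction p N) (hζ : IsPrimitiveRoot ζ p)
    (h : IsKummerRoot p N ζ θ) (τ : helper69.GQ) (n : ℕ) (hτ : τ ζ = ζ ^ n) :
    ∃ k ∈ cycField ζ, τ (θ ^ p) = (θ ^ p) ^ (n ^ 2) * k ^ p := by
  have hp : p.Prime := Fact.out
  set c := cycloExp p τ with hc
  have hcn : (c : ZMod p) = (n : ZMod p) := by
    rw [← pow_eq_pow_iff_of_primitiveRoot hζ, ← hτ, apply_primitiveRoot hζ τ]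
  have hsq : ((c ^ 2 : ℕ) : ZMod p) = ((n ^ 2 : ℕ) : ZMod p) := by
    push_cast; rw [hcn]
  have hdvd : (p : ℤ) ∣ ((c ^ 2 : ℕ) : ℤ) - ((n ^ 2 : ℕ) : ℤ) := by
    have := (ZMod.intCast_eq_intCast_iff_dvd_sub ((n ^ 2 : ℕ) : ℤ) ((c ^ 2 : ℕ) : ℤ) p).mp (by
      push_cast
      push_cast at hsq
      exact hsq.symm)
    exact this
  obtain ⟨z, hz⟩ := hdvd
  have hα0 : θ ^ p ≠ 0 := pow_ne_zero _ h.ne_zero
  have hαK : θ ^ p ∈ cycField ζ := h.pow_mem hN hζ
  have hk₀ := h.eigen hN hζ τ
  rw [← hc] at hk₀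
  refine ⟨τ θ / θ ^ (c ^ 2) * (θ ^ p) ^ z, ?_, ?_⟩
  · exact mul_mem hk₀ (zpow_mem hαK z)
  · have e1 : ((c ^ 2 : ℕ) : ℤ) = ((n ^ 2 : ℕ) : ℤ) + p * z := by rw [← hz]; ring
    have e2 : (θ ^ p) ^ (c ^ 2) = (θ ^ p) ^ (n ^ 2) * ((θ ^ p) ^ z) ^ p := by
      rw [← zpow_natCast (θ ^ p) (c ^ 2), e1, zpow_add₀ hα0, zpow_natCast, zpow_mul',
        zpow_natCast]
    rw [mul_pow, div_pow, ← mul_assoc, mul_comm ((θ ^ p) ^ (n ^ 2)), mul_assoc, ← e2, map_pow,
      ← pow_mul, ← pow_mul, mul_comm (c ^ 2) p, div_mul_cancel₀]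
    exact pow_ne_zero _ h.ne_zero

end Eigen

end Fermat.Agent.S14.helper54
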