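import Mathlib
import Fermat.Agent.S14.helper54_FieldBridge

/-!
# S14-R2-K (helper54, task 171): the Kummer generator of an obstruction

`exists_kummer_generator`: from `IsObstruction p N` (helper69) we produce the cyclotomic field
`K = ℚ(ζ_p)` (as a subfield of `ℚ̄`), and `α ∈ K` which is not a `p`-th power, lies in the
`ω²`-eigenspace modulo `p`-th powers, generates the `p`-th power of a fractional ideal, and
satisfies the local condition at the prime `(ζ - 1)`.
-/

set_option autoImplicit false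
set_option linter.style.haveILetI false
set_option linter.unusedSectionVars false
set_option linter.unusedVariables false

open ExtCitation Fermat.Agent.S14.helper69
open scoped NumberField nonZeroDivisors
open IsDedekindDomain HeightOneSpectrum

namespace Fermat.Agent.S14.helper54

variable {p : ℕ} [Fact p.Prime] {N : Subgroup helper69.GQ} {ζ : Qb}

/-- The algebra structure on `L₀` over `K₀` coming from an inclusion. -/
@[reducible] noncomputable def algOfLE (K₀ L₀ : IntermediateField ℚ Qb) (hKL : K₀ ≤ L₀) :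
    Algebra K₀ L₀ :=
  (IntermediateField.inclusion hKL).toRingHom.toAlgebra

theorem isScalarTower_of_le (K₀ L₀ : IntermediateField ℚ Qb) (hKL : K₀ ≤ L₀) :
    letI := algOfLE K₀ L₀ hKL; IsScalarTower ℚ K₀ L₀ := by
  letI := algOfLE K₀ L₀ hKL
  exact IsScalarTower.of_algebraMap_eq (fun x => rfl)

local notation "K₀" => cycField ζ
local notation "L₀" => IntermediateField.fixedField N

section Aux

variable (hN : IsObstruction p N) (hζ : IsPrimitiveRoot ζ p)

/-- All inertia groups of `L₀/K₀` are trivial. -/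
theorem inertia_eq_bot (hN : IsObstruction p N) (hζ : IsPrimitiveRoot ζ p)
    [NumberField L₀] [IsGalois ℚ L₀]
    (w : HeightOneSpectrum (𝓞 L₀)) :
    letI := algOfLE K₀ L₀ (cycField_le_fixedField hN hζ)
    Ideal.inertia (L₀ ≃ₐ[K₀] L₀) w.asIdeal = ⊥ := by
  letI := algOfLE K₀ L₀ (cycField_le_fixedField hN hζ)
  haveI := isScalarTower_of_le K₀ L₀ (cycField_le_fixedField hN hζ)
  rw [eq_bot_iff]
  intro τ hτ
  rw [Subgroup.mem_bot]
  have h1 := eq_one_of_mem_inertia hN hζ w.asIdeal w.ne_bot (τ.restrictScalars ℚ)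
    (by
      have := τ.commutes ⟨ζ, IntermediateField.mem_adjoin_simple_self ℚ ζ⟩
      exact this)
    (fun x => hτ x)
  ext x
  have h2 := congrArg (fun f : L₀ ≃ₐ[ℚ] L₀ => f x) h1
  exact congrArg Subtype.val h2

end Aux

section Main

open Fermat.Agent.S14.helper91 in
theorem exists_kummer_generator (p : ℕ) [Fact p.Prime] (hp : 3 ≤ p) (N : Subgroup helper69.GQ)
    (hN : IsObstruction p N) :
    ∃ (K : Type) (_ : Field K) (_ : NumberField K) (_ : IsCyclotomicExtension {p} ℚ K)
      (ζ : 𝓞 K) (_ : IsPrimitiveRoot ζ p) (α : K),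
      α ≠ 0 ∧ (¬ ∃ β : K, β ^ p = α) ∧
      (∀ (σ : K ≃ₐ[ℚ] K) (n : ℕ), σ (ζ : K) = (ζ : K) ^ n →
        ∃ k : K, σ α = α ^ (n ^ 2) * k ^ p) ∧
      (∃ I : FractionalIdeal (nonZeroDivisors (𝓞 K)) K,
        FractionalIdeal.spanSingleton (nonZeroDivisors (𝓞 K)) α = I ^ p) ∧
      (∃ (a b : 𝓞 K) (x : ℤ), ¬ (ζ - 1 ∣ a) ∧ ¬ (ζ - 1 ∣ b) ∧ α * (b : K) = (a : K) ∧
        (ζ - 1) ^ 3 ∣ a - x * b) := by
  have hpp : p.Prime := Fact.out
  haveI : NeZero p := ⟨hpp.ne_zero⟩
  obtain ⟨ζ, hζ⟩ := exists_primitiveRoot_Qb p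
  obtain ⟨θ₀, hθ₀⟩ := exists_isKummerRoot hN hζ
  have hKL := cycField_le_fixedField hN hζ
  letI := algOfLE (cycField ζ) (IntermediateField.fixedField N) hKL
  haveI := isScalarTower_of_le (cycField ζ) (IntermediateField.fixedField N) hKL
  haveI := finiteDimensional_cycField ζ
  haveI := finiteDimensional_fixedField hN
  haveI : NumberField (cycField ζ) := NumberField.mk
  haveI : NumberField (IntermediateField.fixedField N) := NumberField.mk
  haveI := isGalois_cycField hζ
  haveI := isGalois_fixedField hN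
  haveI hcyc := isCyclotomicExtension_cycField hζ
  haveI : IsGalois (cycField ζ) (IntermediateField.fixedField N) :=
    IsGalois.tower_top_of_isGalois ℚ (cycField ζ) (IntermediateField.fixedField N)
  -- the primitive root as an integer of `K₀`
  have hζmem : ζ ∈ cycField ζ := IntermediateField.mem_adjoin_simple_self ℚ ζ
  have hζK : IsPrimitiveRoot (⟨ζ, hζmem⟩ : cycField ζ) p :=
    IsPrimitiveRoot.of_map_of_injective (f := (cycField ζ).val) hζ Subtype.val_injective
  -- the prime `(ζ - 1)`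
  haveI hprime : (Ideal.span {hζK.toInteger - 1}).IsPrime :=
    IsCyclotomicExtension.Rat.isPrime_span_zeta_sub_one' p hζK
  have hne_bot : Ideal.span {hζK.toInteger - 1} ≠ ⊥ := by
    rw [ne_eq, Ideal.span_singleton_eq_bot, sub_eq_zero]
    intro h1
    have h2 : hζK.toInteger = 1 := h1
    exact hζK.toInteger_isPrimitiveRoot.ne_one hpp.one_lt h2
  let v : HeightOneSpectrum (𝓞 (cycField ζ)) := ⟨Ideal.span {hζK.toInteger - 1}, hprime, hne_bot⟩
  have hpv : (p : 𝓞 (cycField ζ)) ∈ v.asIdeal := by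
    show (p : 𝓞 (cycField ζ)) ∈ Ideal.span {hζK.toInteger - 1}
    rw [Ideal.mem_span_singleton]
    exact hζK.toInteger_sub_one_dvd_prime'
  obtain ⟨w, hw⟩ := exists_heightOneSpectrum_liesOver (L := IntermediateField.fixedField N) v
  haveI := hw
  have hunr := inertia_eq_bot hN hζ
  -- residue fields over `p`
  have hres : ∀ y : 𝓞 (IntermediateField.fixedField N), y ^ p - y ∈ w.asIdeal := by
    haveI : w.asIdeal.IsMaximal := w.isMaximal
    obtain ⟨A, hA⟩ := exists_primeOf_eq (IntermediateField.fixedField N) w.asIdeal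
    have hpw : (p : 𝓞 (IntermediateField.fixedField N)) ∈ w.asIdeal := by
      have h1 : algebraMap (𝓞 (cycField ζ)) (𝓞 (IntermediateField.fixedField N))
          (p : 𝓞 (cycField ζ)) ∈ w.asIdeal := by
        have h2 := hpv
        rw [Ideal.over_def w.asIdeal v.asIdeal] at h2
        exact h2
      rwa [map_natCast] at h1
    have hAp : A.LiesOverPrime p :=
      liesOverPrime_of_natCast_mem (IntermediateField.fixedField N) A (by rw [hA]; exact hpw)
    intro y
    rw [← hA]
    exact pow_sub_self_mem_primeOf hN hζ A hAp y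
  -- normalisation of the Kummer root at `w`
  have hθ₀mem : θ₀ ∈ IntermediateField.fixedField N := by
    rw [IntermediateField.mem_fixedField_iff]; exact hθ₀.fixed
  have hπ : v.valuation (cycField ζ) ((⟨ζ, hζmem⟩ : cycField ζ) - 1) =
      WithZero.exp (-1 : ℤ) := by
    have h1 : ((⟨ζ, hζmem⟩ : cycField ζ) - 1) =
        algebraMap (𝓞 (cycField ζ)) (cycField ζ) (hζK.toInteger - 1) := by
      rw [map_sub, map_one]; rfl
    have h2 : hζK.toInteger - 1 ≠ 0 := by
      intro h; exact hne_bot (by rw [h]; simp)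
    rw [h1, valuation_of_algebraMap, intValuation_singleton v h2 rfl]
  obtain ⟨m, hm⟩ := exists_zpow_mul_valuation_eq_one v w (hunr w) hπ
    (θ := (⟨θ₀, hθ₀mem⟩ : IntermediateField.fixedField N))
    (by intro h; exact hθ₀.ne_zero (congrArg Subtype.val h))
  have hc : (ζ - 1) ^ m ∈ cycField ζ := zpow_mem (sub_mem hζmem (one_mem _)) m
  have hc0 : (ζ - 1) ^ m ≠ 0 := zpow_ne_zero _ (sub_ne_zero.mpr (hζ.ne_one hpp.one_lt))
  have hθ := hθ₀.mul hζ hN hc hc0
  have hθmem : (ζ - 1) ^ m * θ₀ ∈ IntermediateField.fixedField N := by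
    rw [IntermediateField.mem_fixedField_iff]; exact hθ.fixed
  have hαmem := hθ.pow_mem hN hζ
  have hunit : w.valuation (IntermediateField.fixedField N)
      (⟨(ζ - 1) ^ m * θ₀, hθmem⟩ : IntermediateField.fixedField N) = 1 := by
    convert hm using 2
    apply Subtype.ext
    show (ζ - 1) ^ m * θ₀ = ((((⟨ζ, hζmem⟩ : cycField ζ) - 1) ^ m : cycField ζ) : Qb) * θ₀
    congr 1
  have hθα : (⟨(ζ - 1) ^ m * θ₀, hθmem⟩ : IntermediateField.fixedField N) ^ p =
      algebraMap (cycField ζ) (IntermediateField.fixedField N)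
        ⟨((ζ - 1) ^ m * θ₀) ^ p, hαmem⟩ := by
    apply Subtype.ext
    rfl
  have hα0 : (⟨((ζ - 1) ^ m * θ₀) ^ p, hαmem⟩ : cycField ζ) ≠ 0 := by
    intro h
    exact pow_ne_zero p hθ.ne_zero (congrArg Subtype.val h)
  refine ⟨cycField ζ, inferInstance, inferInstance, hcyc, hζK.toInteger,
    hζK.toInteger_isPrimitiveRoot, ⟨((ζ - 1) ^ m * θ₀) ^ p, hαmem⟩, hα0, ?_, ?_, ?_, ?_⟩
  · -- (a) not a `p`-th power
    rintro ⟨β, hβ⟩
    exact hθ.not_exists_pow_eq hζ ⟨β.1, β.2, congrArg Subtype.val hβ⟩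
  · -- (b) eigen
    intro σ n hσ
    haveI := Fermat.Agent.S54.helper91.normal_Qbar
    obtain ⟨τ, hτ⟩ := AlgEquiv.restrictNormalHom_surjective (F := ℚ) (K₁ := cycField ζ) Qb σ
    have hτc : ∀ x : cycField ζ, τ (x : Qb) = ((σ x : cycField ζ) : Qb) := by
      intro x
      rw [← hτ]
      exact (AlgEquiv.restrictNormal_commutes τ (cycField ζ) x).symm
    have hτζ : τ ζ = ζ ^ n := by
      have h1 := hτc ⟨ζ, hζmem⟩
      have h2 : σ (⟨ζ, hζmem⟩ : cycField ζ) = (⟨ζ, hζmem⟩ : cycField ζ) ^ n := hσ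
      rw [h2] at h1
      exact h1
    obtain ⟨k, hk, hkα⟩ := hθ.eigen_pow hN hζ τ n hτζ
    refine ⟨⟨k, hk⟩, ?_⟩
    apply Subtype.ext
    have h3 := hτc ⟨((ζ - 1) ^ m * θ₀) ^ p, hαmem⟩
    rw [← h3]
    exact hkα
  · -- (c)
    exact exists_ideal_pow_eq hpp.ne_zero hunr hα0 hθα
  · -- (d)
    exact exists_local_condition hp hζK.toInteger_isPrimitiveRoot v rfl hpv w (hunr w) hres hθα
      hunit

end Main

end Fermat.Agent.S14.helper54
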