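import Mathlib

/-!
# S14-R2-3: the case `p = 3` of CORE-K

`ℚ(ζ₃)` is a PID with unit group `μ₆`; hence an element `α` whose principal ideal is a cube and
which is an `ω²`-eigenvector modulo cubes is itself a cube.
-/

set_option autoImplicit false

namespace Fermat.Agent.S14.helper71

open NumberField

section

variable {K : Type*} [Field K] [NumberField K] [IsCyclotomicExtension {3} ℚ K]

/-- A cube root of `± ζ ^ j` in `ℚ(ζ₃)` forces `ζ ^ j = ± 1`. -/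
theorem cube_of_root_of_unity {ζ c : K} (hζ : IsPrimitiveRoot ζ 3) {x : K}
    (hx : x = 1 ∨ x = -1) (j : ℕ) (hc : c ^ 3 = x * ζ ^ j) : ζ ^ j = 1 ∨ ζ ^ j = -1 := by
  have hζ3 : ζ ^ 3 = 1 := hζ.pow_eq_one
  have hx2 : x ^ 2 = 1 := by rcases hx with rfl | rfl <;> norm_num
  have hc18 : c ^ 18 = 1 := by
    calc c ^ 18 = (c ^ 3) ^ 6 := by ring
      _ = (x ^ 2) ^ 3 * (ζ ^ 3) ^ (2 * j) := by rw [hc]; ring
      _ = 1 := by rw [hx2, hζ3]; simp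
  have hfin : IsOfFinOrder c := isOfFinOrder_iff_pow_eq_one.2 ⟨18, by norm_num, hc18⟩
  obtain ⟨r, -, hr⟩ := hζ.exists_pow_or_neg_mul_pow_of_isOfFinOrder (by decide) hfin
  have hζr : (ζ ^ r) ^ 3 = 1 := by rw [← pow_mul, mul_comm, pow_mul, hζ3, one_pow]
  have hc3 : c ^ 3 = 1 ∨ c ^ 3 = -1 := by
    rcases hr with h | h
    · left; rw [h, hζr]
    · right; rw [h, neg_pow, hζr]; norm_num
  have hxx : x * x = 1 := by rw [← pow_two, hx2]
  have key : ζ ^ j = x * c ^ 3 := by rw [hc, ← mul_assoc, hxx, one_mul]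
  rcases hx with rfl | rfl <;> rcases hc3 with h | h <;> rw [key, h] <;> norm_num

end

section

variable {p : ℕ} [Fact p.Prime] {K : Type*} [Field K] [NumberField K]
  [IsCyclotomicExtension {p} ℚ K]

theorem core_kummer_three (h3 : p = 3) {ζ : 𝓞 K} (hζ : IsPrimitiveRoot ζ p) (α : K) (hα : α ≠ 0)
    (hb : ∀ (σ : K ≃ₐ[ℚ] K) (n : ℕ), σ (ζ : K) = (ζ : K) ^ n → ∃ k : K, σ α = α ^ (n ^ 2) * k ^ p)
    (hc : ∃ I : FractionalIdeal (nonZeroDivisors (𝓞 K)) K,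
      FractionalIdeal.spanSingleton (nonZeroDivisors (𝓞 K)) α = I ^ p) :
    ∃ β : K, β ^ p = α := by
  subst h3
  have : IsPrincipalIdealRing (𝓞 K) := IsCyclotomicExtension.Rat.three_pid K
  have hζK : IsPrimitiveRoot (ζ : K) 3 :=
    hζ.map_of_injective (FaithfulSMul.algebraMap_injective (𝓞 K) K)
  have hζ3 : (ζ : K) ^ 3 = 1 := hζK.pow_eq_one
  -- the ideal `I` is principal
  obtain ⟨I, hI⟩ := hc
  rw [FractionalIdeal.eq_spanSingleton_of_principal I, FractionalIdeal.spanSingleton_pow,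
    FractionalIdeal.spanSingleton_eq_spanSingleton] at hI
  obtain ⟨u, hu⟩ := hI
  set β₀ : K := Submodule.IsPrincipal.generator (I : Submodule (𝓞 K) K) with hβ₀
  have hβ₀0 : β₀ ≠ 0 := by
    intro h0
    rw [h0] at hu
    have hu' : u • α = 0 := by simpa using hu
    exact hα ((smul_eq_zero_iff_eq u).mp hu')
  have huα : ((u : 𝓞 K) : K) * α = β₀ ^ 3 := by
    have : (u : 𝓞 K) • α = β₀ ^ 3 := hu
    rwa [Algebra.smul_def] at this
  have hu0 : ((u : 𝓞 K) : K) ≠ 0 := by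
    intro h
    rw [h, zero_mul] at huα
    exact hβ₀0 (pow_eq_zero_iff (by norm_num) |>.mp huα.symm)
  -- the automorphism `ζ ↦ ζ ^ 2`
  obtain ⟨σ, hσ⟩ : ∃ σ : K ≃ₐ[ℚ] K, ∀ x : K, x ^ 3 = 1 → σ x = x ^ 2 := by
    refine ⟨(IsCyclotomicExtension.Rat.galEquivZMod 3 K).symm (-1), fun x hx => ?_⟩
    rw [IsCyclotomicExtension.Rat.galEquivZMod_apply_of_pow_eq 3 K _ hx,
      MulEquiv.apply_symm_apply]
    rfl
  obtain ⟨k, hk⟩ := hb σ 2 (hσ _ hζ3)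
  -- the list of units
  have hmem := IsCyclotomicExtension.Rat.Three.Units.mem hζK u
  have hη : ((((IsPrimitiveRoot.isUnit (hζK.toInteger_isPrimitiveRoot) (by decide)).unit :
      (𝓞 K)ˣ) : 𝓞 K) : K) = (ζ : K) := rfl
  -- `u = x * ζ ^ j` with `x = ± 1`
  obtain ⟨x, j, hx, huj⟩ : ∃ (x : K) (j : ℕ), (x = 1 ∨ x = -1) ∧
      ((u : 𝓞 K) : K) = x * (ζ : K) ^ j := by
    simp only [List.mem_cons, List.not_mem_nil, or_false] at hmem
    rcases hmem with h | h | h | h | h | h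
    · exact ⟨1, 0, Or.inl rfl, by rw [h]; simp⟩
    · exact ⟨-1, 0, Or.inr rfl, by rw [h]; simp⟩
    · exact ⟨1, 1, Or.inl rfl, by rw [h, hη]; simp⟩
    · exact ⟨-1, 1, Or.inr rfl, by rw [h]; simp⟩
    · exact ⟨1, 2, Or.inl rfl, by rw [h]; simp⟩
    · exact ⟨-1, 2, Or.inr rfl, by rw [h]; simp⟩
  have hx2 : x ^ 2 = 1 := by rcases hx with rfl | rfl <;> norm_num
  have hx3 : x ^ 3 = x := by rw [pow_succ, hx2, one_mul]
  have hx0 : x ≠ 0 := by rcases hx with rfl | rfl <;> norm_num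
  have hσx : σ x = x := by rcases hx with rfl | rfl <;> simp
  have hζj3 : ((ζ : K) ^ j) ^ 3 = 1 := by rw [← pow_mul, mul_comm, pow_mul, hζ3, one_pow]
  -- it suffices to show `ζ ^ j = ± 1`
  suffices hsuff : (ζ : K) ^ j = 1 ∨ (ζ : K) ^ j = -1 by
    have hj1 : (ζ : K) ^ j = 1 := by
      rcases hsuff with h | h
      · exact h
      · exfalso
        rw [h] at hζj3
        norm_num at hζj3
    rw [hj1, mul_one] at huj
    rw [huj] at huα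
    refine ⟨x * β₀, ?_⟩
    have : x * (x * α) = x * β₀ ^ 3 := by rw [huα]
    rw [← mul_assoc, ← pow_two, hx2, one_mul] at this
    rw [mul_pow, hx3, this]
  -- apply `σ` to `u * α = β₀ ^ 3`
  have hσu : σ ((u : 𝓞 K) : K) = x * ((ζ : K) ^ j) ^ 2 := by
    rw [huj, map_mul, hσx, hσ _ hζj3]
  have h1 : σ ((u : 𝓞 K) : K) * σ α = (σ β₀) ^ 3 := by
    rw [← map_mul, huα, map_pow]
  have hσβ₀ : σ β₀ ≠ 0 := by simpa using hβ₀0
  have hζj0 : (ζ : K) ^ j ≠ 0 := by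
    intro h
    rw [h] at hζj3
    norm_num at hζj3
  -- `c ^ 3 = x * ζ ^ j` for `c = σ β₀ * (x * ζ ^ j) ^ 2 / (β₀ ^ 4 * k)`
  have hk0 : k ≠ 0 := by
    intro h
    rw [h] at hk
    simp only [ne_eq, OfNat.ofNat_ne_zero, not_false_eq_true, zero_pow, mul_zero] at hk
    exact hα ((map_eq_zero σ).mp hk)
  have hα4 : ((u : 𝓞 K) : K) ^ 4 * α ^ 4 = β₀ ^ 12 := by
    calc ((u : 𝓞 K) : K) ^ 4 * α ^ 4 = (((u : 𝓞 K) : K) * α) ^ 4 := by ring
      _ = β₀ ^ 12 := by rw [huα]; ring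
  have hu4 : ((u : 𝓞 K) : K) ^ 4 = (ζ : K) ^ j := by
    have hx4 : x ^ 4 = 1 := by
      calc x ^ 4 = (x ^ 2) ^ 2 := by ring
        _ = 1 := by rw [hx2, one_pow]
    calc ((u : 𝓞 K) : K) ^ 4 = x ^ 4 * (((ζ : K) ^ j) ^ 3 * (ζ : K) ^ j) := by rw [huj]; ring
      _ = (ζ : K) ^ j := by rw [hx4, hζj3]; ring
  refine cube_of_root_of_unity hζK hx j (c := σ β₀ * (ζ : K) ^ j / (β₀ ^ 4 * k)) ?_
  have hden : β₀ ^ 4 * k ≠ 0 := mul_ne_zero (pow_ne_zero _ hβ₀0) hk0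
  rw [div_pow, div_eq_iff (pow_ne_zero _ hden), mul_pow, ← h1, hσu, hk]
  have e1 : (β₀ ^ 4 * k) ^ 3 = β₀ ^ 12 * k ^ 3 := by ring
  rw [e1, ← hα4, hu4]
  have e2 : x * ((ζ : K) ^ j) ^ 2 * (α ^ 2 ^ 2 * k ^ 3) * ((ζ : K) ^ j) ^ 3
      = x * (((ζ : K) ^ j) ^ 3) * ((ζ : K) ^ j) ^ 2 * (α ^ 4 * k ^ 3) := by ring
  rw [e2, hζj3]
  ring

end

end Fermat.Agent.S14.helper71
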