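import Mathlib
import Fermat.Agent.S14.helper54_KummerGenerator
import Fermat.Agent.S14.helper71_KummerThree

/-!
# S14 via route R2: conditional final wiring (helper54)

`ExtVanishingCts p` from the bridge (helper69), the Kummer generator (helper54, R2-K), the case
`p = 3` (helper71, R2-3) and the statement R2-A (`core_kummer`, taken as a hypothesis in exactly
the shape of findings #230).
-/

set_option autoImplicit false

open ExtCitation Fermat.Agent.S14.helper69
open scoped NumberField

namespace Fermat.Agent.S14.helper54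

/-- The statement R2-A (`core_kummer`) for a prime `p ≥ 5`, in the shape of findings #230. -/
def CoreKummerStatement (p : ℕ) [Fact p.Prime] : Prop :=
  ∀ (K : Type) [Field K] [NumberField K] [IsCyclotomicExtension {p} ℚ K]
    (ζ : 𝓞 K) (_ : IsPrimitiveRoot ζ p) (α : K), α ≠ 0 →
    (∀ (σ : K ≃ₐ[ℚ] K) (n : ℕ), σ (ζ : K) = (ζ : K) ^ n →
      ∃ k : K, σ α = α ^ (n ^ 2) * k ^ p) →
    (∃ I : FractionalIdeal (nonZeroDivisors (𝓞 K)) K,
      FractionalIdeal.spanSingleton (nonZeroDivisors (𝓞 K)) α = I ^ p) →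
    (∃ (a b : 𝓞 K) (x : ℤ), ¬ (ζ - 1 ∣ a) ∧ ¬ (ζ - 1 ∣ b) ∧ α * (b : K) = (a : K) ∧
      (ζ - 1) ^ 3 ∣ a - x * b) →
    ∃ β : K, β ^ p = α

/-- **S14 via R2**: the frozen statement follows from R2-A. -/
theorem extVanishingCts_of_coreKummer {p : ℕ} [Fact p.Prime] (h3 : 3 ≤ p)
    (hcore : 5 ≤ p → CoreKummerStatement p) : ExtVanishingCts p := by
  have hp : p.Prime := Fact.out
  apply extVanishingCts_of_forall_not_isObstruction
  intro N hN
  obtain ⟨K, _, _, _, ζ, hζ, α, hα0, hnot, hb, hc, hd⟩ := exists_kummer_generator p h3 N hN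
  apply hnot
  by_cases h5 : 5 ≤ p
  · exact hcore h5 K ζ hζ α hα0 hb hc hd
  · have hp3 : p = 3 := by
      have h4 : p ≠ 4 := by
        rintro rfl
        exact absurd hp (by decide)
      omega
    exact Fermat.Agent.S14.helper71.core_kummer_three hp3 hζ α hα0 hb hc

end Fermat.Agent.S14.helper54
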