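import Mathlib

/-!
# S14, route R2, package R2-D (helper15): the cyclotomic unit `E₂`

`K = ℚ(ζ_p)`, `p ≥ 5`.  With `e_b = (b⁻² mod p)` and `u_b = 1 + ζ + ... + ζ^(b-1)` we put
`E = ∏_{b=1}^{p-1} u_b ^ e_b`.  We prove
* `E * ∏ (1 - ζ)^(e_b) = ∏ (1 - ζ^b)^(e_b)`;
* `E` is an `ω²`-eigenvector modulo `p`-th powers;
* the local statement at `ζ - 1`: via the ring homomorphism
  `psiHom : 𝓞 K → 𝔽_p[X]/(X^3)`, `ζ ↦ 1 + X`, the image of `E` is `e₀ (1 - X²/24)`.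
-/

set_option autoImplicit false
set_option linter.unusedSectionVars false
set_option linter.unusedVariables false
set_option linter.style.haveILetI false

namespace Fermat.Agent.S14.helper15

open Polynomial Finset NumberField

section Coeff

variable {F : Type*} [CommRing F]

theorem coeff_one_mul_poly (g h : F[X]) :
    (g * h).coeff 1 = g.coeff 0 * h.coeff 1 + g.coeff 1 * h.coeff 0 := by
  rw [Polynomial.coeff_mul]
  simp [Finset.Nat.antidiagonal_succ]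

theorem coeff_two_mul_poly (g h : F[X]) :
    (g * h).coeff 2 = g.coeff 0 * h.coeff 2 + g.coeff 1 * h.coeff 1 + g.coeff 2 * h.coeff 0 := by
  rw [Polynomial.coeff_mul]
  simp [Finset.Nat.antidiagonal_succ]
  ring

end Coeff

section LInv

variable {F : Type*} [Field F]

/-- first truncated-logarithm invariant `c₁ / c₀`. -/
noncomputable def linvA (g : F[X]) : F := g.coeff 1 / g.coeff 0

/-- second truncated-logarithm invariant `c₂ / c₀ - (c₁ / c₀)² / 2`. -/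
noncomputable def linvB (g : F[X]) : F := g.coeff 2 / g.coeff 0 - (g.coeff 1 / g.coeff 0) ^ 2 / 2

theorem linvA_mul {g h : F[X]} (hg : g.coeff 0 ≠ 0) (hh : h.coeff 0 ≠ 0) :
    linvA (g * h) = linvA g + linvA h := by
  unfold linvA
  rw [coeff_one_mul_poly, Polynomial.mul_coeff_zero]
  field_simp
  ring

theorem linvB_mul (h2 : (2 : F) ≠ 0) {g h : F[X]} (hg : g.coeff 0 ≠ 0) (hh : h.coeff 0 ≠ 0) :
    linvB (g * h) = linvB g + linvB h := by
  unfold linvB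
  rw [coeff_one_mul_poly, coeff_two_mul_poly, Polynomial.mul_coeff_zero]
  field_simp
  ring

theorem linvA_one : linvA (1 : F[X]) = 0 := by
  unfold linvA
  simp [Polynomial.coeff_one]

theorem linvB_one : linvB (1 : F[X]) = 0 := by
  unfold linvB
  simp [Polynomial.coeff_one]

theorem coeff_zero_pow_ne_zero {g : F[X]} (hg : g.coeff 0 ≠ 0) (n : ℕ) :
    (g ^ n).coeff 0 ≠ 0 := by
  rw [Polynomial.coeff_zero_eq_eval_zero, Polynomial.eval_pow, ← Polynomial.coeff_zero_eq_eval_zero]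
  exact pow_ne_zero n hg

theorem linvA_pow {g : F[X]} (hg : g.coeff 0 ≠ 0) (n : ℕ) :
    linvA (g ^ n) = n * linvA g := by
  induction n with
  | zero => simp [linvA_one]
  | succ n ih =>
    rw [pow_succ, linvA_mul (coeff_zero_pow_ne_zero hg n) hg, ih]
    push_cast
    ring

theorem linvB_pow (h2 : (2 : F) ≠ 0) {g : F[X]} (hg : g.coeff 0 ≠ 0) (n : ℕ) :
    linvB (g ^ n) = n * linvB g := by
  induction n with
  | zero => simp [linvB_one]
  | succ n ih =>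
    rw [pow_succ, linvB_mul h2 (coeff_zero_pow_ne_zero hg n) hg, ih]
    push_cast
    ring

theorem coeff_zero_prod_ne_zero {ι : Type*} (s : Finset ι) (g : ι → F[X])
    (hg : ∀ i ∈ s, (g i).coeff 0 ≠ 0) : (∏ i ∈ s, g i).coeff 0 ≠ 0 := by
  rw [Polynomial.coeff_zero_eq_eval_zero, Polynomial.eval_prod]
  exact Finset.prod_ne_zero_iff.mpr fun i hi => by
    rw [← Polynomial.coeff_zero_eq_eval_zero]; exact hg i hi

theorem linvA_prod {ι : Type*} [DecidableEq ι] (s : Finset ι) (g : ι → F[X])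
    (hg : ∀ i ∈ s, (g i).coeff 0 ≠ 0) : linvA (∏ i ∈ s, g i) = ∑ i ∈ s, linvA (g i) := by
  induction s using Finset.induction_on with
  | empty => simp [linvA_one]
  | insert a s ha ih =>
    rw [Finset.prod_insert ha, Finset.sum_insert ha,
      linvA_mul (hg a (Finset.mem_insert_self a s))
        (coeff_zero_prod_ne_zero s g fun i hi => hg i (Finset.mem_insert_of_mem hi)),
      ih fun i hi => hg i (Finset.mem_insert_of_mem hi)]

theorem linvB_prod (h2 : (2 : F) ≠ 0) {ι : Type*} [DecidableEq ι] (s : Finset ι) (g : ι → F[X])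
    (hg : ∀ i ∈ s, (g i).coeff 0 ≠ 0) : linvB (∏ i ∈ s, g i) = ∑ i ∈ s, linvB (g i) := by
  induction s using Finset.induction_on with
  | empty => simp [linvB_one]
  | insert a s ha ih =>
    rw [Finset.prod_insert ha, Finset.sum_insert ha,
      linvB_mul h2 (hg a (Finset.mem_insert_self a s))
        (coeff_zero_prod_ne_zero s g fun i hi => hg i (Finset.mem_insert_of_mem hi)),
      ih fun i hi => hg i (Finset.mem_insert_of_mem hi)]

/-- If `linvA g = 0` then the coefficient of `X` vanishes. -/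
theorem coeff_one_eq_zero_of_linvA {g : F[X]} (hg : g.coeff 0 ≠ 0) (h : linvA g = 0) :
    g.coeff 1 = 0 := by
  unfold linvA at h
  rcases div_eq_zero_iff.mp h with h | h
  · exact h
  · exact absurd h hg

theorem coeff_two_eq_of_linvA {g : F[X]} (hg : g.coeff 0 ≠ 0) (h : linvA g = 0) :
    g.coeff 2 = linvB g * g.coeff 0 := by
  have h1 := coeff_one_eq_zero_of_linvA hg h
  unfold linvB
  rw [h1]
  field_simp
  ring

end LInv

section Geom

variable {F : Type*} [Field F]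

/-- the polynomial `1 + (1+X) + ... + (1+X)^(b-1)`. -/
noncomputable def geomPoly (F : Type*) [Field F] (b : ℕ) : F[X] := ∑ i ∈ range b, (1 + X) ^ i

theorem coeff_geomPoly (b k : ℕ) : (geomPoly F b).coeff k = (b.choose (k + 1) : F) := by
  unfold geomPoly
  rw [Polynomial.finsetSum_coeff]
  simp only [Polynomial.coeff_one_add_X_pow]
  rw [← Nat.cast_sum]
  congr 1
  rcases Nat.eq_zero_or_pos b with hb | hb
  · subst hb; simp
  · obtain ⟨n, rfl⟩ : ∃ n, b = n + 1 := ⟨b - 1, by omega⟩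
    rw [← Nat.sum_Icc_choose n k]
    rw [Finset.range_eq_Ico]
    symm
    apply Finset.sum_subset
    · intro i hi
      rw [Finset.mem_Icc] at hi
      rw [Finset.mem_Ico]
      omega
    · intro i hi hni
      rw [Finset.mem_Ico] at hi
      rw [Finset.mem_Icc] at hni
      apply Nat.choose_eq_zero_of_lt
      omega

theorem two_mul_choose_two (b : ℕ) : 2 * (b.choose 2 : F) = (b : F) * ((b : F) - 1) := by
  have h := Nat.descFactorial_eq_factorial_mul_choose b 2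
  have h2 : b.descFactorial 2 = b * (b - 1) := by
    simp [Nat.descFactorial_succ, Nat.descFactorial_zero]
    ring
  rw [h2] at h
  rcases Nat.eq_zero_or_pos b with hb | hb
  · subst hb; simp
  · have h3 : ((b * (b - 1) : ℕ) : F) = ((Nat.factorial 2 * b.choose 2 : ℕ) : F) := by rw [h]
    push_cast [Nat.cast_sub hb] at h3
    rw [show (Nat.factorial 2 : F) = 2 by norm_num [Nat.factorial]] at h3
    rw [← h3]

theorem six_mul_choose_three (b : ℕ) :
    6 * (b.choose 3 : F) = (b : F) * ((b : F) - 1) * ((b : F) - 2) := by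
  have h := Nat.descFactorial_eq_factorial_mul_choose b 3
  have h2 : b.descFactorial 3 = b * (b - 1) * (b - 2) := by
    simp [Nat.descFactorial_succ, Nat.descFactorial_zero]
    ring
  rw [h2] at h
  rcases Nat.lt_or_ge b 2 with hb | hb
  · interval_cases b <;> simp [Nat.choose]
  · have h3 : ((b * (b - 1) * (b - 2) : ℕ) : F) = ((Nat.factorial 3 * b.choose 3 : ℕ) : F) := by
      rw [h]
    push_cast [Nat.cast_sub hb, Nat.cast_sub (by omega : 1 ≤ b)] at h3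
    rw [show (Nat.factorial 3 : F) = 6 by norm_num [Nat.factorial]] at h3
    rw [← h3]

theorem coeff_zero_geomPoly (b : ℕ) : (geomPoly F b).coeff 0 = (b : F) := by
  rw [coeff_geomPoly]; simp

theorem linvA_geomPoly (h2 : (2 : F) ≠ 0) {b : ℕ} (hb : (b : F) ≠ 0) :
    (geomPoly F b).coeff 1 / (geomPoly F b).coeff 0 = ((b : F) - 1) / 2 := by
  rw [coeff_geomPoly, coeff_geomPoly]
  have := two_mul_choose_two (F := F) b
  simp only [zero_add, Nat.choose_one_right, Nat.reduceAdd]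
  field_simp
  linear_combination this

theorem linvB_geomPoly (h2 : (2 : F) ≠ 0) (h3 : (3 : F) ≠ 0) {b : ℕ} (hb : (b : F) ≠ 0) :
    (geomPoly F b).coeff 2 / (geomPoly F b).coeff 0
      - ((geomPoly F b).coeff 1 / (geomPoly F b).coeff 0) ^ 2 / 2
      = ((b : F) - 1) * ((b : F) - 5) / 24 := by
  rw [linvA_geomPoly h2 hb, coeff_geomPoly, coeff_geomPoly]
  have h6 := six_mul_choose_three (F := F) b
  simp only [zero_add, Nat.choose_one_right, Nat.reduceAdd]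
  have h24 : (24 : F) ≠ 0 := by
    have : (24 : F) = 2 * 2 * 2 * 3 := by norm_num
    rw [this]
    exact mul_ne_zero (mul_ne_zero (mul_ne_zero h2 h2) h2) h3
  have h6' : (6 : F) ≠ 0 := by
    have : (6 : F) = 2 * 3 := by norm_num
    rw [this]
    exact mul_ne_zero h2 h3
  field_simp
  linear_combination 32 * h6

end Geom

/-- the exponent `b⁻² mod p`, as a natural number in `[0, p)`. -/
def expE2 (p b : ℕ) : ℕ := (((b : ZMod p)⁻¹) ^ 2).val

section Sums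

variable {p : ℕ} [hp : Fact p.Prime]

theorem natCast_expE2 (b : ℕ) : ((expE2 p b : ℕ) : ZMod p) = ((b : ZMod p)⁻¹) ^ 2 := by
  unfold expE2
  rw [ZMod.natCast_val, ZMod.cast_id', id]

theorem sum_units_val_eq_sum_Ico {M : Type*} [AddCommMonoid M] (g : ℕ → M) :
    ∑ u : (ZMod p)ˣ, g (u : ZMod p).val = ∑ k ∈ Finset.Ico 1 p, g k := by
  have hp' := hp.out
  refine Finset.sum_bij (fun u _ => (u : ZMod p).val) ?_ ?_ ?_ ?_
  · intro u _
    rw [Finset.mem_Ico]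
    refine ⟨?_, ZMod.val_lt _⟩
    rw [Nat.one_le_iff_ne_zero]
    intro h
    rw [ZMod.val_eq_zero] at h
    exact u.ne_zero h
  · intro u _ v _ h
    exact Units.ext (ZMod.val_injective p h)
  · intro k hk
    rw [Finset.mem_Ico] at hk
    have hcop : Nat.Coprime k p := by
      rw [Nat.coprime_comm, Nat.Prime.coprime_iff_not_dvd hp']
      intro h
      have := Nat.le_of_dvd (by omega) h
      omega
    refine ⟨ZMod.unitOfCoprime k hcop, Finset.mem_univ _, ?_⟩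
    rw [ZMod.coe_unitOfCoprime, ZMod.val_natCast, Nat.mod_eq_of_lt hk.2]
  · intro u _
    rfl

/-- sums over `Ico 1 p` of a function of the residue class are sums over the units of `ZMod p`. -/
theorem sum_Ico_eq_sum_units (f : ZMod p → ZMod p) :
    ∑ b ∈ Finset.Ico 1 p, f (b : ZMod p) = ∑ u : (ZMod p)ˣ, f (u : ZMod p) := by
  rw [← sum_units_val_eq_sum_Ico (p := p) (fun k => f (k : ZMod p))]
  refine Finset.sum_congr rfl fun u _ => ?_
  rw [ZMod.natCast_val, ZMod.cast_id', id]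

theorem sum_units_inv_pow (hp5 : 5 ≤ p) {k : ℕ} (hk1 : 1 ≤ k) (hk2 : k ≤ 2) :
    ∑ u : (ZMod p)ˣ, (((u : ZMod p))⁻¹) ^ k = 0 := by
  have h1 : ∑ u : (ZMod p)ˣ, (((u : ZMod p))⁻¹) ^ k = ∑ u : (ZMod p)ˣ, ((u : ZMod p)) ^ k := by
    rw [← Equiv.sum_comp (Equiv.inv (ZMod p)ˣ)]
    refine Finset.sum_congr rfl fun u _ => ?_
    rw [Equiv.inv_apply, Units.val_inv_eq_inv_val, inv_inv]
  rw [h1, FiniteField.sum_pow_units, if_neg]
  rw [ZMod.card]
  intro h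
  have := Nat.le_of_dvd (by omega) h
  omega

theorem card_units_zmod_cast :
    ∑ _u : (ZMod p)ˣ, (1 : ZMod p) = -1 := by
  rw [Finset.sum_const, Finset.card_univ, ZMod.card_units_eq_totient, Nat.totient_prime hp.out]
  rw [nsmul_eq_mul, mul_one, Nat.cast_sub hp.out.one_lt.le]
  simp

theorem sum_expE2 (hp5 : 5 ≤ p) : ∑ b ∈ Finset.Ico 1 p, ((expE2 p b : ℕ) : ZMod p) = 0 := by
  simp only [natCast_expE2]
  rw [sum_Ico_eq_sum_units (fun x => (x⁻¹) ^ 2)]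
  exact sum_units_inv_pow hp5 (by norm_num) (by norm_num)

theorem sum_expE2_mul_A (hp5 : 5 ≤ p) :
    ∑ b ∈ Finset.Ico 1 p, ((expE2 p b : ℕ) : ZMod p) * (((b : ZMod p) - 1) / 2) = 0 := by
  simp only [natCast_expE2]
  rw [sum_Ico_eq_sum_units (fun x => (x⁻¹) ^ 2 * ((x - 1) / 2))]
  have h : ∀ u : (ZMod p)ˣ, ((u : ZMod p)⁻¹) ^ 2 * (((u : ZMod p) - 1) / 2)
      = (((u : ZMod p)⁻¹) ^ 1 - ((u : ZMod p)⁻¹) ^ 2) / 2 := by
    intro u
    have hu : (u : ZMod p) ≠ 0 := u.ne_zero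
    field_simp
  rw [Finset.sum_congr rfl fun u _ => h u, ← Finset.sum_div, Finset.sum_sub_distrib,
    sum_units_inv_pow hp5 (le_refl 1) (by norm_num),
    sum_units_inv_pow hp5 (by norm_num) (le_refl 2)]
  simp

theorem sum_expE2_mul_B (hp5 : 5 ≤ p) :
    ∑ b ∈ Finset.Ico 1 p,
      ((expE2 p b : ℕ) : ZMod p) * (((b : ZMod p) - 1) * ((b : ZMod p) - 5) / 24) = -1 / 24 := by
  simp only [natCast_expE2]
  rw [sum_Ico_eq_sum_units (fun x => (x⁻¹) ^ 2 * ((x - 1) * (x - 5) / 24))]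
  have h : ∀ u : (ZMod p)ˣ, ((u : ZMod p)⁻¹) ^ 2 * (((u : ZMod p) - 1) * ((u : ZMod p) - 5) / 24)
      = (1 - 6 * ((u : ZMod p)⁻¹) ^ 1 + 5 * ((u : ZMod p)⁻¹) ^ 2) / 24 := by
    intro u
    have hu : (u : ZMod p) ≠ 0 := u.ne_zero
    field_simp
    ring
  rw [Finset.sum_congr rfl fun u _ => h u, ← Finset.sum_div, Finset.sum_add_distrib,
    Finset.sum_sub_distrib, ← Finset.mul_sum, ← Finset.mul_sum,
    sum_units_inv_pow hp5 (le_refl 1) (by norm_num),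
    sum_units_inv_pow hp5 (by norm_num) (le_refl 2), card_units_zmod_cast]
  simp

theorem dvd_sum_expE2 (hp5 : 5 ≤ p) : p ∣ ∑ b ∈ Finset.Ico 1 p, expE2 p b := by
  rw [← ZMod.natCast_eq_zero_iff]
  push_cast
  exact sum_expE2 hp5

end Sums

section Trunc

/-- The truncated polynomial ring `𝔽_p[X] / (X ^ 3)`. -/
abbrev TP3 (p : ℕ) : Type := (ZMod p)[X] ⧸ Ideal.span {(X : (ZMod p)[X]) ^ 3}

/-- The class of a polynomial in `TP3 p`. -/
noncomputable abbrev tmk3 (p : ℕ) : (ZMod p)[X] →+* TP3 p :=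
  Ideal.Quotient.mk (Ideal.span {(X : (ZMod p)[X]) ^ 3})

theorem tmk3_eq_zero_iff (p : ℕ) (f : (ZMod p)[X]) :
    tmk3 p f = 0 ↔ ∀ k < 3, f.coeff k = 0 := by
  rw [Ideal.Quotient.eq_zero_iff_mem, Ideal.mem_span_singleton, Polynomial.X_pow_dvd_iff]

theorem tmk3_eq_iff (p : ℕ) (f g : (ZMod p)[X]) :
    tmk3 p f = tmk3 p g ↔ ∀ k < 3, f.coeff k = g.coeff k := by
  rw [← sub_eq_zero, ← map_sub, tmk3_eq_zero_iff]
  simp only [Polynomial.coeff_sub, sub_eq_zero]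

theorem tmk3_surjective (p : ℕ) : Function.Surjective (tmk3 p) :=
  Ideal.Quotient.mk_surjective

/-- The augmentation `𝔽_p[X]/(X^3) → 𝔽_p`. -/
noncomputable def aug3 (p : ℕ) : TP3 p →+* ZMod p :=
  Ideal.Quotient.lift _ (Polynomial.constantCoeff : (ZMod p)[X] →+* ZMod p) (by
    intro a ha
    rw [Ideal.mem_span_singleton, Polynomial.X_pow_dvd_iff] at ha
    rw [Polynomial.constantCoeff_apply]
    exact ha 0 (by norm_num))

theorem aug3_tmk3 (p : ℕ) (f : (ZMod p)[X]) : aug3 p (tmk3 p f) = f.coeff 0 := by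
  unfold aug3
  rw [Ideal.Quotient.lift_mk, Polynomial.constantCoeff_apply]

variable {p : ℕ} [hp : Fact p.Prime]

theorem tmk3_X_pow_eq_zero {n : ℕ} (hn : 3 ≤ n) : (tmk3 p X) ^ n = 0 := by
  rw [← map_pow, Ideal.Quotient.eq_zero_iff_mem, Ideal.mem_span_singleton]
  exact pow_dvd_pow X hn

/-- `p`-th powers in `𝔽_p[X]/(X^3)` are constants (for `p ≥ 3`). -/
theorem tmk3_pow_p (hp3 : 3 ≤ p) (f : (ZMod p)[X]) :
    (tmk3 p f) ^ p = tmk3 p (C (f.coeff 0)) := by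
  have hf : f = C (f.coeff 0) + X * f.divX := by
    conv_lhs => rw [← Polynomial.divX_mul_X_add f]
    ring
  rw [← map_pow]
  conv_lhs => rw [hf]
  rw [add_pow_char, map_add, ← C_pow, ZMod.pow_card, mul_pow, map_mul, map_pow (tmk3 p) X,
    tmk3_X_pow_eq_zero hp3, zero_mul, add_zero]

/-- An element of `𝔽_p[X]/(X^3)` with nonzero augmentation is a unit. -/
theorem isUnit_of_aug3_ne_zero {r : TP3 p} (h : aug3 p r ≠ 0) : IsUnit r := by
  obtain ⟨f, rfl⟩ := tmk3_surjective p r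
  rw [aug3_tmk3] at h
  have hf : f = C (f.coeff 0) + X * f.divX := by
    conv_lhs => rw [← Polynomial.divX_mul_X_add f]
    ring
  rw [hf, map_add]
  have hnil : IsNilpotent (tmk3 p (X * f.divX)) := by
    refine ⟨3, ?_⟩
    rw [map_mul, mul_pow, tmk3_X_pow_eq_zero (le_refl 3), zero_mul]
  have hu : IsUnit (tmk3 p (C (f.coeff 0))) :=
    (Polynomial.isUnit_C.mpr (IsUnit.mk0 _ h)).map (tmk3 p)
  exact hnil.isUnit_add_left_of_commute hu (Commute.all _ _)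

end Trunc


section Psi

variable {p : ℕ} [hp : Fact p.Prime] {K : Type*} [Field K] [NumberField K]
  [IsCyclotomicExtension {p} ℚ K]

theorem isPrimitiveRoot_coe {ζ : 𝓞 K} (hζ : IsPrimitiveRoot ζ p) :
    IsPrimitiveRoot (ζ : K) p :=
  hζ.map_of_injective RingOfIntegers.coe_injective

theorem toInteger_coe {ζ : 𝓞 K} (hζ : IsPrimitiveRoot ζ p) :
    haveI : NeZero p := ⟨hp.out.ne_zero⟩
    (isPrimitiveRoot_coe hζ).toInteger = ζ := by
  haveI : NeZero p := ⟨hp.out.ne_zero⟩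
  exact RingOfIntegers.ext rfl

theorem aeval_tmk3_cyclotomic (hp4 : 4 ≤ p) :
    aeval (tmk3 p (1 + X)) (cyclotomic p ℤ) = 0 := by
  have : CharP (ZMod p)[X] p := inferInstance
  have h0 : cyclotomic p (ZMod p) = (X - 1) ^ (p - 1) := by
    have := cyclotomic_mul_prime_pow_eq (ZMod p) (p := p) (m := 1)
      (fun h => hp.out.one_lt.ne' (Nat.dvd_one.mp h)) (k := 1) one_pos
    simpa [cyclotomic_one] using this
  have h1 : aeval (tmk3 p (1 + X)) (cyclotomic p ℤ)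
      = aeval (tmk3 p (1 + X)) (cyclotomic p (ZMod p)) := by
    rw [← map_cyclotomic_int p (ZMod p), ← algebraMap_int_eq, aeval_map_algebraMap]
  rw [h1, h0]
  simp only [map_pow, map_sub, aeval_X, map_one, map_add]
  rw [add_sub_cancel_left]
  exact tmk3_X_pow_eq_zero (by omega)

/-- The ring homomorphism `𝓞 K → 𝔽_p[X]/(X^3)` sending `ζ` to `1 + X`. -/
noncomputable def psiHom (hp4 : 4 ≤ p) {ζ : 𝓞 K} (hζ : IsPrimitiveRoot ζ p) : 𝓞 K →+* TP3 p :=
  haveI : NeZero p := ⟨hp.out.ne_zero⟩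
  (((isPrimitiveRoot_coe hζ).integralPowerBasis.lift (tmk3 p (1 + X)) (by
    rw [IsPrimitiveRoot.integralPowerBasis_gen, ← RingOfIntegers.minpoly_coe]
    change aeval (tmk3 p (1 + X)) (minpoly ℤ (ζ : K)) = 0
    rw [← cyclotomic_eq_minpoly (isPrimitiveRoot_coe hζ) hp.out.pos]
    exact aeval_tmk3_cyclotomic hp4)) : 𝓞 K →+* TP3 p)

theorem psiHom_zeta (hp4 : 4 ≤ p) {ζ : 𝓞 K} (hζ : IsPrimitiveRoot ζ p) :
    psiHom hp4 hζ ζ = tmk3 p (1 + X) := by
  have : NeZero p := ⟨hp.out.ne_zero⟩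
  unfold psiHom
  have := (isPrimitiveRoot_coe hζ).integralPowerBasis.lift_gen (tmk3 p (1 + X)) (by
    rw [IsPrimitiveRoot.integralPowerBasis_gen, ← RingOfIntegers.minpoly_coe]
    change aeval (tmk3 p (1 + X)) (minpoly ℤ (ζ : K)) = 0
    rw [← cyclotomic_eq_minpoly (isPrimitiveRoot_coe hζ) hp.out.pos]
    exact aeval_tmk3_cyclotomic hp4)
  have hgen : (isPrimitiveRoot_coe hζ).integralPowerBasis.gen = ζ := by
    rw [IsPrimitiveRoot.integralPowerBasis_gen]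
    exact toInteger_coe hζ
  calc _ = _ := congrArg _ hgen.symm
    _ = tmk3 p (1 + X) := this

theorem psiHom_zeta_sub_one (hp4 : 4 ≤ p) {ζ : 𝓞 K} (hζ : IsPrimitiveRoot ζ p) :
    psiHom hp4 hζ (ζ - 1) = tmk3 p X := by
  rw [map_sub, psiHom_zeta, map_one, map_add, map_one, add_sub_cancel_left]

theorem psiHom_eq_zero_of_dvd (hp4 : 4 ≤ p) {ζ : 𝓞 K} (hζ : IsPrimitiveRoot ζ p) {y : 𝓞 K}
    (h : (ζ - 1) ^ 3 ∣ y) : psiHom hp4 hζ y = 0 := by
  obtain ⟨z, rfl⟩ := h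
  rw [map_mul, map_pow, psiHom_zeta_sub_one, tmk3_X_pow_eq_zero (le_refl 3), zero_mul]

theorem zeta_sub_one_prime_int {ζ : 𝓞 K} (hζ : IsPrimitiveRoot ζ p) : Prime (ζ - 1) := by
  haveI : NeZero p := ⟨hp.out.ne_zero⟩
  have := (isPrimitiveRoot_coe hζ).zeta_sub_one_prime'
  rwa [toInteger_coe hζ] at this

/-- `aug3 ∘ psiHom` vanishes exactly on the multiples of `ζ - 1`. -/
theorem aug3_psiHom_ne_zero (hp4 : 4 ≤ p) {ζ : 𝓞 K} (hζ : IsPrimitiveRoot ζ p) {y : 𝓞 K}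
    (hy : ¬ (ζ - 1 ∣ y)) : aug3 p (psiHom hp4 hζ y) ≠ 0 := by
  intro h0
  apply hy
  set φ : 𝓞 K →+* ZMod p := (aug3 p).comp (psiHom hp4 hζ) with hφ
  have hprime : (Ideal.span {ζ - 1} : Ideal (𝓞 K)).IsPrime :=
    (Ideal.span_singleton_prime (zeta_sub_one_prime_int hζ).ne_zero).mpr
      (zeta_sub_one_prime_int hζ)
  have hne : (Ideal.span {ζ - 1} : Ideal (𝓞 K)) ≠ ⊥ := by
    rw [Ne, Ideal.span_singleton_eq_bot]
    exact (zeta_sub_one_prime_int hζ).ne_zero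
  have hmax : (Ideal.span {ζ - 1} : Ideal (𝓞 K)).IsMaximal := hprime.isMaximal hne
  have hle : (Ideal.span {ζ - 1} : Ideal (𝓞 K)) ≤ RingHom.ker φ := by
    rw [Ideal.span_singleton_le_iff_mem, RingHom.mem_ker, hφ, RingHom.comp_apply,
      psiHom_zeta_sub_one, aug3_tmk3]
    simp
  have hker : RingHom.ker φ ≠ ⊤ := RingHom.ker_ne_top φ
  have heq := hmax.eq_of_le hker hle
  have hmem : y ∈ RingHom.ker φ := by
    rw [RingHom.mem_ker, hφ, RingHom.comp_apply]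
    exact h0
  rw [← heq, Ideal.mem_span_singleton] at hmem
  exact hmem

end Psi

section Units

variable {p : ℕ} [hp : Fact p.Prime] {K : Type*} [Field K] [NumberField K]
  [IsCyclotomicExtension {p} ℚ K]

/-- the geometric sum `1 + ζ + ... + ζ^(b-1)`. -/
noncomputable def geomSum (ζ : 𝓞 K) (b : ℕ) : 𝓞 K := ∑ i ∈ range b, ζ ^ i

theorem one_sub_mul_geomSum (ζ : 𝓞 K) (b : ℕ) : (1 - ζ) * geomSum ζ b = 1 - ζ ^ b :=
  mul_neg_geom_sum ζ b

theorem one_sub_zeta_ne_zero {ζ : 𝓞 K} (hζ : IsPrimitiveRoot ζ p) : (1 - ζ : 𝓞 K) ≠ 0 := by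
  intro h
  have h1 : ζ = 1 := (sub_eq_zero.mp h).symm
  have := hζ.eq_orderOf
  rw [h1, orderOf_one] at this
  exact hp.out.one_lt.ne' this

theorem geomSum_mod {ζ : 𝓞 K} (hζ : IsPrimitiveRoot ζ p) (m : ℕ) :
    geomSum ζ (m % p) = geomSum ζ m := by
  apply mul_left_cancel₀ (one_sub_zeta_ne_zero hζ)
  rw [one_sub_mul_geomSum, one_sub_mul_geomSum, ← pow_eq_pow_mod m hζ.pow_eq_one]

theorem geomSum_mul {ζ : 𝓞 K} (hζ : IsPrimitiveRoot ζ p) (n b : ℕ) :
    geomSum ζ n * geomSum (ζ ^ n) b = geomSum ζ (n * b) := by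
  apply mul_left_cancel₀ (one_sub_zeta_ne_zero hζ)
  rw [← mul_assoc, one_sub_mul_geomSum, one_sub_mul_geomSum, one_sub_mul_geomSum, pow_mul]

/-- the cyclotomic unit `u_b = 1 + ζ + ... + ζ^(b-1)` (junk value `1` if `p ∣ b`). -/
noncomputable def cycUnit {ζ : 𝓞 K} (hζ : IsPrimitiveRoot ζ p) (b : ℕ) : (𝓞 K)ˣ :=
  if h : b.Coprime p then (hζ.geom_sum_isUnit hp.out.two_le h).unit else 1

theorem coe_cycUnit {ζ : 𝓞 K} (hζ : IsPrimitiveRoot ζ p) {b : ℕ} (h : b.Coprime p) :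
    ((cycUnit hζ b : (𝓞 K)ˣ) : 𝓞 K) = geomSum ζ b := by
  unfold cycUnit
  rw [dif_pos h]
  rfl

theorem coprime_of_mem_Ico {b : ℕ} (hb : b ∈ Finset.Ico 1 p) : b.Coprime p := by
  rw [Finset.mem_Ico] at hb
  rw [Nat.coprime_comm, Nat.Prime.coprime_iff_not_dvd hp.out]
  intro h
  have := Nat.le_of_dvd (by omega) h
  omega

theorem coprime_val_unit (u : (ZMod p)ˣ) : (u : ZMod p).val.Coprime p :=
  ZMod.val_coe_unit_coprime u

theorem cycUnit_mod {ζ : 𝓞 K} (hζ : IsPrimitiveRoot ζ p) {m : ℕ} (hm : m.Coprime p) :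
    cycUnit hζ (m % p) = cycUnit hζ m := by
  have hm' : (m % p).Coprime p := by
    rw [Nat.coprime_comm, Nat.Prime.coprime_iff_not_dvd hp.out] at hm ⊢
    intro h
    exact hm ((Nat.dvd_mod_iff (dvd_refl p)).mp h)
  apply Units.ext
  rw [coe_cycUnit hζ hm, coe_cycUnit hζ hm', geomSum_mod hζ]

/-- the unit `E = ∏ u_b ^ (b⁻² mod p)`. -/
noncomputable def cycE2 {ζ : 𝓞 K} (hζ : IsPrimitiveRoot ζ p) : (𝓞 K)ˣ :=
  ∏ b ∈ Finset.Ico 1 p, cycUnit hζ b ^ expE2 p b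

theorem cycE2_mul {ζ : 𝓞 K} (hζ : IsPrimitiveRoot ζ p) :
    (cycE2 hζ : 𝓞 K) * ∏ b ∈ Finset.Ico 1 p, (1 - ζ) ^ expE2 p b
      = ∏ b ∈ Finset.Ico 1 p, (1 - ζ ^ b) ^ expE2 p b := by
  unfold cycE2
  rw [Units.coe_prod, ← Finset.prod_mul_distrib]
  refine Finset.prod_congr rfl fun b hb => ?_
  rw [Units.val_pow_eq_pow_val, coe_cycUnit hζ (coprime_of_mem_Ico hb), ← mul_pow, mul_comm,
    one_sub_mul_geomSum]

theorem prod_units_val_eq_prod_Ico' {M : Type*} [CommMonoid M] (g : ℕ → M) :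
    ∏ u : (ZMod p)ˣ, g (u : ZMod p).val = ∏ k ∈ Finset.Ico 1 p, g k := by
  have h := sum_units_val_eq_sum_Ico (p := p) (M := Additive M) (fun k => Additive.ofMul (g k))
  exact congrArg Additive.toMul h

theorem cycE2_eq_prod_units {ζ : 𝓞 K} (hζ : IsPrimitiveRoot ζ p) :
    cycE2 hζ = ∏ u : (ZMod p)ˣ, cycUnit hζ (u : ZMod p).val ^ expE2 p (u : ZMod p).val := by
  unfold cycE2
  rw [prod_units_val_eq_prod_Ico' (fun b => cycUnit hζ b ^ expE2 p b)]

theorem val_unit_mul {n : ℕ} (hn : n.Coprime p) (u : (ZMod p)ˣ) :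
    ((ZMod.unitOfCoprime n hn * u : (ZMod p)ˣ) : ZMod p).val = (n * (u : ZMod p).val) % p := by
  rw [← ZMod.val_natCast, Units.val_mul, ZMod.coe_unitOfCoprime]
  congr 1
  push_cast
  rw [ZMod.natCast_val, ZMod.cast_id', id]

theorem natCast_expE2_val (x : ZMod p) :
    ((expE2 p x.val : ℕ) : ZMod p) = (x⁻¹) ^ 2 := by
  rw [natCast_expE2, ZMod.natCast_val, ZMod.cast_id', id]

theorem expE2_eq_mod {n : ℕ} (hn : n.Coprime p) (u : (ZMod p)ˣ) :
    expE2 p (u : ZMod p).val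
      = (n ^ 2 * expE2 p ((ZMod.unitOfCoprime n hn * u : (ZMod p)ˣ) : ZMod p).val) % p := by
  rw [← ZMod.val_natCast]
  have h1 : expE2 p (u : ZMod p).val = ((expE2 p (u : ZMod p).val : ℕ) : ZMod p).val := by
    rw [ZMod.val_natCast, Nat.mod_eq_of_lt]
    unfold expE2
    exact ZMod.val_lt _
  rw [h1]
  congr 1
  rw [Nat.cast_mul, Nat.cast_pow, natCast_expE2_val, natCast_expE2_val, Units.val_mul,
    ZMod.coe_unitOfCoprime]
  have hn0 : (n : ZMod p) ≠ 0 := by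
    intro h
    rw [ZMod.natCast_eq_zero_iff] at h
    rw [Nat.coprime_comm, Nat.Prime.coprime_iff_not_dvd hp.out] at hn
    exact hn h
  have hu0 : (u : ZMod p) ≠ 0 := u.ne_zero
  field_simp

theorem map_geomSum (ζ : 𝓞 K) (τ : 𝓞 K ≃+* 𝓞 K) (n b : ℕ) (hτ : τ ζ = ζ ^ n) :
    τ (geomSum ζ b) = geomSum (ζ ^ n) b := by
  unfold geomSum
  rw [map_sum]
  simp only [map_pow, hτ]

/-- A ring automorphism `τ` of `𝓞 K` with `τ ζ = ζ ^ n` maps `E` to `E ^ (n²)` times a `p`-th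
power. -/
theorem map_cycE2 (hp5 : 5 ≤ p) {ζ : 𝓞 K} (hζ : IsPrimitiveRoot ζ p) (τ : 𝓞 K ≃+* 𝓞 K) (n : ℕ)
    (hτ : τ ζ = ζ ^ n) :
    ∃ k : (𝓞 K)ˣ, Units.map (τ : 𝓞 K →* 𝓞 K) (cycE2 hζ) = cycE2 hζ ^ (n ^ 2) * k ^ p := by
  have hn : n.Coprime p := by
    have h1 : IsPrimitiveRoot (τ ζ) p := hζ.map_of_injective τ.injective
    rw [hτ] at h1
    exact (hζ.pow_iff_coprime hp.out.pos n).mp h1
  -- action on the cyclotomic units
  have hmap : ∀ u : (ZMod p)ˣ, Units.map (τ : 𝓞 K →* 𝓞 K) (cycUnit hζ (u : ZMod p).val)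
      = cycUnit hζ ((ZMod.unitOfCoprime n hn * u : (ZMod p)ˣ) : ZMod p).val * (cycUnit hζ n)⁻¹ := by
    intro u
    rw [eq_mul_inv_iff_mul_eq]
    apply Units.ext
    have hcop : (n * (u : ZMod p).val).Coprime p := Nat.Coprime.mul_left hn (coprime_val_unit u)
    rw [val_unit_mul hn u, cycUnit_mod hζ hcop, Units.val_mul, Units.coe_map,
      coe_cycUnit hζ (coprime_val_unit u), coe_cycUnit hζ hn, coe_cycUnit hζ hcop,
      ← geomSum_mul hζ, mul_comm]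
    congr 1
    exact map_geomSum ζ τ n _ hτ
  obtain ⟨M, hM⟩ := dvd_sum_expE2 (p := p) hp5
  have hM' : ∑ u : (ZMod p)ˣ, expE2 p (u : ZMod p).val = p * M := by
    rw [sum_units_val_eq_sum_Ico (p := p) (fun b => expE2 p b), hM]
  set c : (𝓞 K)ˣ := cycUnit hζ n with hc
  set k1 : (𝓞 K)ˣ := ∏ w : (ZMod p)ˣ, cycUnit hζ (w : ZMod p).val
      ^ ((n ^ 2 * expE2 p (w : ZMod p).val) / p) with hk1
  set A : (𝓞 K)ˣ := ∏ u : (ZMod p)ˣ,
      cycUnit hζ ((ZMod.unitOfCoprime n hn * u : (ZMod p)ˣ) : ZMod p).val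
        ^ expE2 p (u : ZMod p).val with hA
  refine ⟨k1⁻¹ * (c⁻¹) ^ M, ?_⟩
  -- Step 1
  have hstep1 : Units.map (τ : 𝓞 K →* 𝓞 K) (cycE2 hζ) = A * (c⁻¹) ^ (p * M) := by
    rw [cycE2_eq_prod_units, map_prod]
    simp only [map_pow, hmap, mul_pow]
    rw [Finset.prod_mul_distrib, Finset.prod_pow_eq_pow_sum, hM']
  -- reindex
  have hre : A = ∏ w : (ZMod p)ˣ, cycUnit hζ (w : ZMod p).val
        ^ ((n ^ 2 * expE2 p (w : ZMod p).val) % p) := by
    rw [hA, ← Equiv.prod_comp (Equiv.mulLeft (ZMod.unitOfCoprime n hn))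
      (fun w : (ZMod p)ˣ => cycUnit hζ (w : ZMod p).val
        ^ ((n ^ 2 * expE2 p (w : ZMod p).val) % p))]
    refine Finset.prod_congr rfl fun u _ => ?_
    rw [Equiv.coe_mulLeft, ← expE2_eq_mod hn u]
  have hstep2 : cycE2 hζ ^ (n ^ 2) = A * k1 ^ p := by
    rw [cycE2_eq_prod_units, hre, hk1, ← Finset.prod_pow, ← Finset.prod_pow,
      ← Finset.prod_mul_distrib]
    refine Finset.prod_congr rfl fun w _ => ?_
    rw [← pow_mul, ← pow_mul, ← pow_add]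
    congr 1
    rw [mul_comm _ p, mul_comm (expE2 p _) (n ^ 2)]
    exact (Nat.mod_add_div _ _).symm
  have hfin : k1 ^ p * (k1⁻¹ * c⁻¹ ^ M) ^ p = c⁻¹ ^ (p * M) := by
    rw [mul_pow, ← mul_assoc, ← mul_pow, mul_inv_cancel, one_pow, one_mul, ← pow_mul,
      mul_comm M p]
  rw [hstep1, hstep2, mul_assoc, hfin]

end Units

section Local

variable {p : ℕ} [hp : Fact p.Prime] {K : Type*} [Field K] [NumberField K]
  [IsCyclotomicExtension {p} ℚ K]

theorem natCast_ne_zero_of_lt {m : ℕ} (hm0 : 0 < m) (hm : m < p) : (m : ZMod p) ≠ 0 := by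
  intro h
  rw [ZMod.natCast_eq_zero_iff] at h
  have := Nat.le_of_dvd hm0 h
  omega

theorem two_ne_zero_zmod (hp5 : 5 ≤ p) : (2 : ZMod p) ≠ 0 := by
  have := natCast_ne_zero_of_lt (p := p) (m := 2) (by norm_num) (by omega)
  exact_mod_cast this

theorem three_ne_zero_zmod (hp5 : 5 ≤ p) : (3 : ZMod p) ≠ 0 := by
  have := natCast_ne_zero_of_lt (p := p) (m := 3) (by norm_num) (by omega)
  exact_mod_cast this

theorem natCast_ne_zero_of_mem_Ico {b : ℕ} (hb : b ∈ Finset.Ico 1 p) : (b : ZMod p) ≠ 0 := by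
  rw [Finset.mem_Ico] at hb
  exact natCast_ne_zero_of_lt (by omega) hb.2

/-- a polynomial representative of the image of `E` in `𝔽_p[X]/(X^3)`. -/
noncomputable def polyE2 (p : ℕ) [Fact p.Prime] : (ZMod p)[X] :=
  ∏ b ∈ Finset.Ico 1 p, geomPoly (ZMod p) b ^ expE2 p b

theorem psiHom_geomSum (hp4 : 4 ≤ p) {ζ : 𝓞 K} (hζ : IsPrimitiveRoot ζ p) (b : ℕ) :
    psiHom hp4 hζ (geomSum ζ b) = tmk3 p (geomPoly (ZMod p) b) := by
  unfold geomSum geomPoly
  rw [map_sum, map_sum]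
  simp only [map_pow, psiHom_zeta]

theorem psiHom_cycE2 (hp4 : 4 ≤ p) {ζ : 𝓞 K} (hζ : IsPrimitiveRoot ζ p) :
    psiHom hp4 hζ (cycE2 hζ : 𝓞 K) = tmk3 p (polyE2 p) := by
  unfold cycE2 polyE2
  rw [Units.coe_prod, map_prod, map_prod]
  refine Finset.prod_congr rfl fun b hb => ?_
  rw [Units.val_pow_eq_pow_val, map_pow, map_pow, coe_cycUnit hζ (coprime_of_mem_Ico hb),
    psiHom_geomSum]

theorem coeff_zero_geomPoly_pow_ne_zero {b : ℕ} (hb : b ∈ Finset.Ico 1 p) (e : ℕ) :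
    (geomPoly (ZMod p) b ^ e).coeff 0 ≠ 0 :=
  coeff_zero_pow_ne_zero (by rw [coeff_zero_geomPoly]; exact natCast_ne_zero_of_mem_Ico hb) e

theorem coeff_zero_polyE2_ne_zero : (polyE2 p).coeff 0 ≠ 0 :=
  coeff_zero_prod_ne_zero _ _ fun b hb => coeff_zero_geomPoly_pow_ne_zero hb _

theorem linvA_polyE2 (hp5 : 5 ≤ p) : linvA (polyE2 p) = 0 := by
  unfold polyE2
  rw [linvA_prod _ _ fun b hb => coeff_zero_geomPoly_pow_ne_zero hb _]
  have h : ∀ b ∈ Finset.Ico 1 p, linvA (geomPoly (ZMod p) b ^ expE2 p b)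
      = ((expE2 p b : ℕ) : ZMod p) * (((b : ZMod p) - 1) / 2) := by
    intro b hb
    have hb0 := natCast_ne_zero_of_mem_Ico hb
    rw [linvA_pow (by rw [coeff_zero_geomPoly]; exact hb0)]
    unfold linvA
    rw [linvA_geomPoly (two_ne_zero_zmod hp5) hb0]
  rw [Finset.sum_congr rfl h, sum_expE2_mul_A hp5]

theorem linvB_polyE2 (hp5 : 5 ≤ p) : linvB (polyE2 p) = -1 / 24 := by
  unfold polyE2
  rw [linvB_prod (two_ne_zero_zmod hp5) _ _ fun b hb => coeff_zero_geomPoly_pow_ne_zero hb _]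
  have h : ∀ b ∈ Finset.Ico 1 p, linvB (geomPoly (ZMod p) b ^ expE2 p b)
      = ((expE2 p b : ℕ) : ZMod p) * (((b : ZMod p) - 1) * ((b : ZMod p) - 5) / 24) := by
    intro b hb
    have hb0 := natCast_ne_zero_of_mem_Ico hb
    rw [linvB_pow (two_ne_zero_zmod hp5) (by rw [coeff_zero_geomPoly]; exact hb0)]
    unfold linvB
    rw [linvB_geomPoly (two_ne_zero_zmod hp5) (three_ne_zero_zmod hp5) hb0]
  rw [Finset.sum_congr rfl h, sum_expE2_mul_B hp5]

theorem coeff_two_polyE2_pow (hp5 : 5 ≤ p) (j : ℕ) :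
    (polyE2 p ^ j).coeff 2 = (j : ZMod p) * (-1 / 24) * (polyE2 p ^ j).coeff 0 := by
  have h0 : (polyE2 p ^ j).coeff 0 ≠ 0 := coeff_zero_pow_ne_zero coeff_zero_polyE2_ne_zero j
  have hA : linvA (polyE2 p ^ j) = 0 := by
    rw [linvA_pow coeff_zero_polyE2_ne_zero, linvA_polyE2 hp5, mul_zero]
  rw [coeff_two_eq_of_linvA h0 hA, linvB_pow (two_ne_zero_zmod hp5) coeff_zero_polyE2_ne_zero,
    linvB_polyE2 hp5]

/-- The local statement at `ζ - 1`. -/
theorem dvd_of_local (hp5 : 5 ≤ p) {ζ : 𝓞 K} (hζ : IsPrimitiveRoot ζ p) (j : ℕ) (a b c d : 𝓞 K)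
    (x : ℤ) (hb : ¬ (ζ - 1 ∣ b)) (hc : ¬ (ζ - 1 ∣ c))
    (h : (cycE2 hζ : 𝓞 K) ^ j * c ^ p * b = a * d ^ p) (hx : (ζ - 1) ^ 3 ∣ a - x * b) :
    p ∣ j := by
  have hp4 : 4 ≤ p := by omega
  have hp3 : 3 ≤ p := by omega
  set Ψ := psiHom hp4 hζ with hΨ
  have h1 : Ψ (cycE2 hζ : 𝓞 K) ^ j * Ψ c ^ p * Ψ b = Ψ a * Ψ d ^ p := by
    rw [← map_pow, ← map_pow, ← map_pow, ← map_mul, ← map_mul, ← map_mul, h]
  have h2 : Ψ a = (x : TP3 p) * Ψ b := by
    have := psiHom_eq_zero_of_dvd hp4 hζ hx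
    rw [map_sub, map_mul, map_intCast, sub_eq_zero] at this
    exact this
  obtain ⟨gc, hgc⟩ := tmk3_surjective p (Ψ c)
  obtain ⟨gd, hgd⟩ := tmk3_surjective p (Ψ d)
  have hγc : gc.coeff 0 ≠ 0 := by
    have := aug3_psiHom_ne_zero hp4 hζ hc
    rwa [← hΨ, ← hgc, aug3_tmk3] at this
  have hbu : IsUnit (Ψ b) := isUnit_of_aug3_ne_zero (aug3_psiHom_ne_zero hp4 hζ hb)
  rw [h2, psiHom_cycE2, ← hgc, ← hgd, tmk3_pow_p hp3, tmk3_pow_p hp3] at h1
  have h3 : tmk3 p (polyE2 p) ^ j * tmk3 p (C (gc.coeff 0))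
      = (x : TP3 p) * tmk3 p (C (gd.coeff 0)) := by
    apply hbu.mul_right_cancel
    rw [h1]
    ring
  have h4 : tmk3 p (polyE2 p ^ j * C (gc.coeff 0))
      = tmk3 p (C ((x : ZMod p) * gd.coeff 0)) := by
    rw [map_mul, map_pow, h3, C_mul, map_mul]
    congr 1
  have h5 := (tmk3_eq_iff p _ _).mp h4 2 (by norm_num)
  rw [Polynomial.coeff_mul_C, Polynomial.coeff_C, if_neg (by norm_num)] at h5
  have h6 : (polyE2 p ^ j).coeff 2 = 0 := by
    rcases mul_eq_zero.mp h5 with h | h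
    · exact h
    · exact absurd h hγc
  rw [coeff_two_polyE2_pow hp5] at h6
  have h0 : (polyE2 p ^ j).coeff 0 ≠ 0 := coeff_zero_pow_ne_zero coeff_zero_polyE2_ne_zero j
  have h24 : (-1 / 24 : ZMod p) ≠ 0 := by
    have h2' := two_ne_zero_zmod (p := p) hp5
    have h3' := three_ne_zero_zmod (p := p) hp5
    have h24' : (24 : ZMod p) = 2 * 2 * 2 * 3 := by norm_num
    rw [h24']
    exact div_ne_zero (neg_ne_zero.mpr one_ne_zero)
      (mul_ne_zero (mul_ne_zero (mul_ne_zero h2' h2') h2') h3')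
  have h7 : (j : ZMod p) = 0 := by
    rcases mul_eq_zero.mp h6 with h | h
    · rcases mul_eq_zero.mp h with h | h
      · exact h
      · exact absurd h h24
    · exact absurd h h0
  exact (ZMod.natCast_eq_zero_iff j p).mp h7

end Local

section Main

variable {p : ℕ} [hp : Fact p.Prime] {K : Type*} [Field K] [NumberField K]
  [IsCyclotomicExtension {p} ℚ K]

/-- **Package R2-D**: the cyclotomic unit `E₂`. -/
theorem exists_cycE2 (hp5 : 5 ≤ p) {ζ : 𝓞 K} (hζ : IsPrimitiveRoot ζ p) :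
    ∃ E : (𝓞 K)ˣ,
      ((E : 𝓞 K) * ∏ b ∈ Finset.Ico 1 p, (1 - ζ) ^ expE2 p b
        = ∏ b ∈ Finset.Ico 1 p, (1 - ζ ^ b) ^ expE2 p b) ∧
      (∀ (σ : K ≃ₐ[ℚ] K) (n : ℕ), σ (ζ : K) = (ζ : K) ^ n →
        ∃ k : (𝓞 K)ˣ, galRestrict ℤ ℚ K (𝓞 K) σ (E : 𝓞 K)
          = (E : 𝓞 K) ^ (n ^ 2) * (k : 𝓞 K) ^ p) ∧
      (∀ (j : ℕ) (a b c d : 𝓞 K) (x : ℤ), ¬ (ζ - 1 ∣ a) → ¬ (ζ - 1 ∣ b) → ¬ (ζ - 1 ∣ c) →
        ¬ (ζ - 1 ∣ d) → (E : 𝓞 K) ^ j * c ^ p * b = a * d ^ p → (ζ - 1) ^ 3 ∣ a - x * b →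
        p ∣ j) := by
  refine ⟨cycE2 hζ, cycE2_mul hζ, ?_, ?_⟩
  · intro σ n hσ
    have hτζ : (galRestrict ℤ ℚ K (𝓞 K) σ : 𝓞 K ≃ₐ[ℤ] 𝓞 K).toRingEquiv ζ = ζ ^ n := by
      apply RingOfIntegers.coe_injective
      have := algebraMap_galRestrict_apply ℤ σ ζ
      simpa [hσ] using this
    obtain ⟨k, hk⟩ := map_cycE2 hp5 hζ
      (galRestrict ℤ ℚ K (𝓞 K) σ : 𝓞 K ≃ₐ[ℤ] 𝓞 K).toRingEquiv n hτζ
    refine ⟨k, ?_⟩
    have := congrArg (fun u : (𝓞 K)ˣ => (u : 𝓞 K)) hk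
    simp only [Units.coe_map, Units.val_mul, Units.val_pow_eq_pow_val] at this
    exact this
  · intro j a b c d x _ hb hc _ h hx
    exact dvd_of_local hp5 hζ j a b c d x hb hc h hx

end Main

end Fermat.Agent.S14.helper15
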