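import Mathlib
import Fermat.Agent.S14.helper34_Defs

set_option autoImplicit false

open NumberField NumberField.mixedEmbedding NumberField.InfinitePlace NumberField.Units
  NumberField.Units.dirichletUnitTheorem
open IsDedekindDomain
open scoped nonZeroDivisors

/-!
# S14 (2b)-B1: partial zeta functions as smoothed lattice sums (helper78, task 152)

* `weight_orbit_sum` / `hasSum_weight_orbit` / `summable_weight_orbit`:
  `∑ u : (𝓞 K)ˣ, weight K (u • x) = torsionOrder K` for `norm x ≠ 0`.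
* `torsionOrder_mul_partialZeta`, `summable_partialZeta`: for `J` in the class `C⁻¹`,
  `torsionOrder K * partialZeta K C s = N(J)^s * ∑ a ∈ J, G K s a`.
-/

namespace Fermat.Agent.S14.helper78

open Fermat.Agent.S14.helper34

/-! ### The tent function -/

theorem tent_nonneg (t : ℝ) : 0 ≤ tent t := le_max_left _ _

theorem tent_eq_zero_of_one_le_abs {t : ℝ} (h : 1 ≤ |t|) : tent t = 0 := by
  unfold tent
  exact max_eq_left (by linarith)

theorem tent_of_nonneg_of_le_one {t : ℝ} (h0 : 0 ≤ t) (h1 : t ≤ 1) : tent t = 1 - t := by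
  unfold tent
  rw [abs_of_nonneg h0]
  exact max_eq_right (by linarith)

theorem tent_of_nonpos_of_neg_one_le {t : ℝ} (h0 : t ≤ 0) (h1 : -1 ≤ t) : tent t = 1 + t := by
  unfold tent
  rw [abs_of_nonpos h0]
  rw [max_eq_right (by linarith)]
  ring

/-- the two integers `k` for which `tent (k + c)` can be nonzero -/
noncomputable def tentSupp (c : ℝ) : Finset ℤ := {-⌊c⌋ - 1, -⌊c⌋}

theorem tent_eq_zero_of_notMem {c : ℝ} {k : ℤ} (hk : k ∉ tentSupp c) : tent ((k : ℝ) + c) = 0 := by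
  apply tent_eq_zero_of_one_le_abs
  simp only [tentSupp, Finset.mem_insert, Finset.mem_singleton, not_or] at hk
  obtain ⟨h1, h2⟩ := hk
  have hfl := Int.floor_le c
  have hlt := Int.lt_floor_add_one c
  rcases lt_or_gt_of_ne h2 with h | h
  · -- k < -⌊c⌋, and k ≠ -⌊c⌋ - 1, so k ≤ -⌊c⌋ - 2
    have h3 : k ≤ -⌊c⌋ - 2 := by omega
    have h4 : (k : ℝ) ≤ -(⌊c⌋ : ℝ) - 2 := by exact_mod_cast h3
    rw [abs_of_nonpos (by linarith)]
    linarith
  · have h3 : -⌊c⌋ + 1 ≤ k := by omega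
    have h4 : -(⌊c⌋ : ℝ) + 1 ≤ (k : ℝ) := by exact_mod_cast h3
    rw [abs_of_nonneg (by linarith)]
    linarith

theorem sum_tentSupp (c : ℝ) : ∑ k ∈ tentSupp c, tent ((k : ℝ) + c) = 1 := by
  have hfl := Int.floor_le c
  have hlt := Int.lt_floor_add_one c
  rw [tentSupp, Finset.sum_pair (by omega)]
  push_cast
  rw [tent_of_nonpos_of_neg_one_le (by linarith) (by linarith),
    tent_of_nonneg_of_le_one (by linarith) (by linarith)]
  ring

theorem prod_tent_eq_zero_of_notMem {ι : Type*} [Fintype ι] [DecidableEq ι] (c : ι → ℝ)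
    {f : ι → ℤ} (hf : f ∉ Fintype.piFinset fun i => tentSupp (c i)) :
    ∏ i, tent ((f i : ℝ) + c i) = 0 := by
  rw [Fintype.mem_piFinset] at hf
  simp only [not_forall] at hf
  obtain ⟨i, hi⟩ := hf
  exact Finset.prod_eq_zero (Finset.mem_univ i) (tent_eq_zero_of_notMem hi)

theorem sum_piFinset_prod_tent {ι : Type*} [Fintype ι] [DecidableEq ι] (c : ι → ℝ) :
    ∑ f ∈ Fintype.piFinset fun i => tentSupp (c i), ∏ i, tent ((f i : ℝ) + c i) = 1 := by
  rw [← Finset.prod_univ_sum (fun i => tentSupp (c i)) (fun i (k : ℤ) => tent ((k : ℝ) + c i))]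
  simp [sum_tentSupp]


/-! ### Parametrisation of the units and the log coordinates -/

variable (K : Type*) [Field K] [NumberField K]

/-- the parametrisation `(ζ, f) ↦ ζ * ∏ i, (fundSystem K i) ^ (f i)` of the units -/
noncomputable def unitParam (p : torsion K × (Fin (rank K) → ℤ)) : (𝓞 K)ˣ :=
  (p.1 : (𝓞 K)ˣ) * ∏ i, (fundSystem K i) ^ (p.2 i)

theorem unitParam_bijective : Function.Bijective (unitParam K) := by
  rw [Function.bijective_iff_existsUnique]
  intro u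
  obtain ⟨p, hp, hu⟩ := exist_unique_eq_mul_prod K u
  exact ⟨p, hp.symm, fun q hq => hu q hq.symm⟩

/-- the parametrisation of the units as an equivalence -/
noncomputable def unitParamEquiv : torsion K × (Fin (rank K) → ℤ) ≃ (𝓞 K)ˣ :=
  Equiv.ofBijective (unitParam K) (unitParam_bijective K)

theorem logEmbedding_unitParam (p : torsion K × (Fin (rank K) → ℤ)) :
    logEmbedding K (Additive.ofMul (unitParam K p)) =
      ∑ i, (p.2 i : ℝ) • ((basisUnitLattice K i : unitLattice K) : logSpace K) := by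
  have h1 : logEmbedding K (Additive.ofMul ((p.1 : (𝓞 K)ˣ))) = 0 :=
    (logEmbedding_eq_zero_iff).mpr p.1.2
  rw [unitParam, ofMul_mul, map_add, h1, zero_add, ofMul_prod, map_sum]
  refine Finset.sum_congr rfl fun i _ => ?_
  rw [ofMul_zpow, map_zsmul, logEmbedding_fundSystem, Int.cast_smul_eq_zsmul]

open scoped Classical in
theorem logCoord_unitParam_smul (p : torsion K × (Fin (rank K) → ℤ)) (x : mixedSpace K)
    (hx : mixedEmbedding.norm x ≠ 0) (i : Fin (rank K)) :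
    logCoord K (unitParam K p • x) i = (p.2 i : ℝ) + logCoord K x i := by
  unfold logCoord
  rw [logMap_unit_smul _ hx, map_add, Finsupp.add_apply, logEmbedding_unitParam, map_sum]
  congr 1
  simp_rw [map_smul]
  rw [Finsupp.finsetSum_apply]
  simp_rw [Finsupp.smul_apply, ← Module.Basis.ofZLatticeBasis_apply ℝ (unitLattice K)
    (basisUnitLattice K), Module.Basis.repr_self, smul_eq_mul]
  simp [Finsupp.single_apply]


open scoped Classical in
theorem weight_unitParam_smul (p : torsion K × (Fin (rank K) → ℤ)) (x : mixedSpace K)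
    (hx : mixedEmbedding.norm x ≠ 0) :
    weight K (unitParam K p • x) = ∏ i, tent ((p.2 i : ℝ) + logCoord K x i) := by
  unfold weight
  exact Finset.prod_congr rfl fun i _ => by rw [logCoord_unitParam_smul K p x hx i]

open scoped Classical in
/-- the finite set of parameters outside of which `weight K (u • x)` vanishes -/
noncomputable def paramSupp (x : mixedSpace K) : Finset (torsion K × (Fin (rank K) → ℤ)) :=
  letI : Fintype (torsion K) := Fintype.ofFinite _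
  (Finset.univ : Finset (torsion K)) ×ˢ Fintype.piFinset fun i => tentSupp (logCoord K x i)

open scoped Classical in
theorem weight_unitParam_smul_eq_zero (x : mixedSpace K) (hx : mixedEmbedding.norm x ≠ 0)
    {p : torsion K × (Fin (rank K) → ℤ)} (hp : p ∉ paramSupp K x) :
    weight K (unitParam K p • x) = 0 := by
  let _ : Fintype (torsion K) := Fintype.ofFinite _
  rw [weight_unitParam_smul K p x hx]
  apply prod_tent_eq_zero_of_notMem
  intro h
  exact hp (Finset.mem_product.mpr ⟨Finset.mem_univ _, h⟩)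

open scoped Classical in
theorem hasSum_weight_unitParam (x : mixedSpace K) (hx : mixedEmbedding.norm x ≠ 0) :
    HasSum (fun p : torsion K × (Fin (rank K) → ℤ) => weight K (unitParam K p • x))
      (torsionOrder K : ℝ) := by
  let _ : Fintype (torsion K) := Fintype.ofFinite _
  have h := hasSum_sum_of_ne_finset_zero (L := SummationFilter.unconditional _)
    (f := fun p : torsion K × (Fin (rank K) → ℤ) => weight K (unitParam K p • x))
    (s := paramSupp K x) (fun p hp => weight_unitParam_smul_eq_zero K x hx hp)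
  convert h using 1
  rw [paramSupp, Finset.sum_product]
  simp_rw [weight_unitParam_smul K _ x hx, sum_piFinset_prod_tent]
  simp [torsionOrder, Nat.card_eq_fintype_card]

/-- **(a)** the weights of the translates of `x` by the units sum to the number of roots of
unity: `weight` is a partition of unity for the action of the units modulo torsion. -/
theorem hasSum_weight_orbit (x : mixedSpace K) (hx : mixedEmbedding.norm x ≠ 0) :
    HasSum (fun u : (𝓞 K)ˣ => weight K (u • x)) (torsionOrder K : ℝ) := by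
  have h := hasSum_weight_unitParam K x hx
  exact ((unitParamEquiv K).hasSum_iff (f := fun u : (𝓞 K)ˣ => weight K (u • x))).mp h

theorem weight_orbit_sum (x : mixedSpace K) (hx : mixedEmbedding.norm x ≠ 0) :
    ∑' u : (𝓞 K)ˣ, weight K (u • x) = torsionOrder K :=
  (hasSum_weight_orbit K x hx).tsum_eq

theorem summable_weight_orbit (x : mixedSpace K) (hx : mixedEmbedding.norm x ≠ 0) :
    Summable fun u : (𝓞 K)ˣ => weight K (u • x) :=
  (hasSum_weight_orbit K x hx).summable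

theorem weight_nonneg (x : mixedSpace K) : 0 ≤ weight K x :=
  Finset.prod_nonneg fun _ _ => tent_nonneg _


section partB

variable {K : Type*} [Field K] [NumberField K]
variable {C : ClassGroup (𝓞 K)} {J : (Ideal (𝓞 K))⁰}

/-- for an ideal `I` in the class `C = [J]⁻¹`, the ideal `I * J` is principal -/
theorem isPrincipal_mul (hJ : ClassGroup.mk0 J = C⁻¹)
    (I : {I : (Ideal (𝓞 K))⁰ // ClassGroup.mk0 I = C}) :
    ((I.1 : Ideal (𝓞 K)) * (J : Ideal (𝓞 K))).IsPrincipal := by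
  have h : ClassGroup.mk0 (I.1 * J) = 1 := by rw [map_mul, I.2, hJ, mul_inv_cancel]
  exact (ClassGroup.mk0_eq_one_iff (I.1 * J).2).mp h

/-- a generator of `I * J` -/
noncomputable def gen (hJ : ClassGroup.mk0 J = C⁻¹)
    (I : {I : (Ideal (𝓞 K))⁰ // ClassGroup.mk0 I = C}) : 𝓞 K :=
  haveI := isPrincipal_mul hJ I
  Submodule.IsPrincipal.generator ((I.1 : Ideal (𝓞 K)) * (J : Ideal (𝓞 K)))

theorem span_gen (hJ : ClassGroup.mk0 J = C⁻¹)
    (I : {I : (Ideal (𝓞 K))⁰ // ClassGroup.mk0 I = C}) :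
    Ideal.span {gen hJ I} = (I.1 : Ideal (𝓞 K)) * (J : Ideal (𝓞 K)) := by
  have := isPrincipal_mul hJ I
  exact Ideal.span_singleton_generator _

theorem gen_ne_zero (hJ : ClassGroup.mk0 J = C⁻¹)
    (I : {I : (Ideal (𝓞 K))⁰ // ClassGroup.mk0 I = C}) : gen hJ I ≠ 0 := by
  intro h
  have h1 := span_gen hJ I
  rw [h, Ideal.span_singleton_eq_bot.mpr rfl] at h1
  have h2 : ((I.1 * J : (Ideal (𝓞 K))⁰) : Ideal (𝓞 K)) ≠ 0 :=
    nonZeroDivisors.coe_ne_zero _
  exact h2 h1.symm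

theorem gen_mem (hJ : ClassGroup.mk0 J = C⁻¹)
    (I : {I : (Ideal (𝓞 K))⁰ // ClassGroup.mk0 I = C}) : gen hJ I ∈ (J : Ideal (𝓞 K)) := by
  have h : gen hJ I ∈ Ideal.span {gen hJ I} := Ideal.mem_span_singleton_self _
  rw [span_gen] at h
  exact Ideal.mul_le_right h

theorem absNorm_gen (hJ : ClassGroup.mk0 J = C⁻¹)
    (I : {I : (Ideal (𝓞 K))⁰ // ClassGroup.mk0 I = C}) :
    mixedEmbedding.norm (mixedEmbedding K ((gen hJ I : 𝓞 K) : K)) =
      (Ideal.absNorm (I.1 : Ideal (𝓞 K)) : ℝ) * (Ideal.absNorm (J : Ideal (𝓞 K)) : ℝ) := by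
  rw [mixedEmbedding.norm_eq_norm, ← Algebra.coe_norm_int, ← Nat.cast_mul, ← map_mul,
    ← span_gen hJ I, Ideal.absNorm_span_singleton]
  rw [Nat.cast_natAbs]
  push_cast
  rfl

/-- the map `(I, u) ↦ u * gen I` from pairs (ideal in the class `C`, unit) to the nonzero
elements of `J` -/
noncomputable def orbitMap (hJ : ClassGroup.mk0 J = C⁻¹)
    (p : {I : (Ideal (𝓞 K))⁰ // ClassGroup.mk0 I = C} × (𝓞 K)ˣ) :
    {a : ↥(J : Ideal (𝓞 K)) // a ≠ 0} :=
  ⟨⟨(p.2 : 𝓞 K) * gen hJ p.1, Ideal.mul_mem_left _ _ (gen_mem hJ p.1)⟩, by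
    intro h
    have h1 : (p.2 : 𝓞 K) * gen hJ p.1 = 0 := congrArg Subtype.val h
    exact (mul_ne_zero p.2.ne_zero (gen_ne_zero hJ p.1)) h1⟩

theorem orbitMap_coe (hJ : ClassGroup.mk0 J = C⁻¹)
    (p : {I : (Ideal (𝓞 K))⁰ // ClassGroup.mk0 I = C} × (𝓞 K)ˣ) :
    ((orbitMap hJ p : ↥(J : Ideal (𝓞 K))) : 𝓞 K) = (p.2 : 𝓞 K) * gen hJ p.1 := rfl

theorem orbitMap_injective (hJ : ClassGroup.mk0 J = C⁻¹) :
    Function.Injective (orbitMap (K := K) hJ) := by
  rintro ⟨I, u⟩ ⟨I', u'⟩ h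
  have h1 : (u : 𝓞 K) * gen hJ I = (u' : 𝓞 K) * gen hJ I' := by
    have := congrArg (fun a : {a : ↥(J : Ideal (𝓞 K)) // a ≠ 0} =>
      ((a : ↥(J : Ideal (𝓞 K))) : 𝓞 K)) h
    simpa only [orbitMap_coe] using this
  have h2 : Ideal.span {gen hJ I} = Ideal.span {gen hJ I'} := by
    rw [Ideal.span_singleton_eq_span_singleton]
    refine ⟨u'⁻¹ * u, ?_⟩
    rw [Units.val_mul, mul_comm (gen hJ I), mul_assoc, h1, ← mul_assoc, ← Units.val_mul,
      inv_mul_cancel, Units.val_one, one_mul]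
  rw [span_gen, span_gen] at h2
  have hJ0 : (J : Ideal (𝓞 K)) ≠ 0 := nonZeroDivisors.coe_ne_zero _
  have h3 : (I.1 : Ideal (𝓞 K)) = I'.1 := mul_right_cancel₀ hJ0 h2
  have h4 : I = I' := Subtype.ext (Subtype.ext h3)
  subst h4
  have h5 : (u : 𝓞 K) = u' := mul_right_cancel₀ (gen_ne_zero hJ I) h1
  rw [Units.ext h5]

theorem orbitMap_surjective (hJ : ClassGroup.mk0 J = C⁻¹) :
    Function.Surjective (orbitMap (K := K) hJ) := by
  rintro ⟨⟨a, haJ⟩, ha⟩
  have ha0 : a ≠ 0 := fun h => ha (Subtype.ext h)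
  have hle : Ideal.span {a} ≤ (J : Ideal (𝓞 K)) := (Ideal.span_singleton_le_iff_mem _).mpr haJ
  obtain ⟨I₀, hI₀⟩ := Ideal.dvd_iff_le.mpr hle
  have hI₀0 : I₀ ≠ 0 := by
    rintro rfl
    rw [mul_zero] at hI₀
    exact ha0 (Ideal.span_singleton_eq_bot.mp hI₀)
  let I : (Ideal (𝓞 K))⁰ := ⟨I₀, mem_nonZeroDivisors_of_ne_zero hI₀0⟩
  have hspan0 : Ideal.span {a} ≠ 0 := by
    rw [Ne, Ideal.zero_eq_bot, Ideal.span_singleton_eq_bot]
    exact ha0
  have hmk : ClassGroup.mk0 I = C := by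
    have h1 : ClassGroup.mk0 (⟨Ideal.span {a}, mem_nonZeroDivisors_of_ne_zero hspan0⟩ :
        (Ideal (𝓞 K))⁰) = 1 :=
      (ClassGroup.mk0_eq_one_iff _).mpr ⟨⟨a, rfl⟩⟩
    have h2 : (⟨Ideal.span {a}, mem_nonZeroDivisors_of_ne_zero hspan0⟩ : (Ideal (𝓞 K))⁰) =
        J * I := Subtype.ext hI₀
    rw [h2, map_mul, hJ] at h1
    exact (inv_mul_eq_one.mp h1).symm ▸ rfl
  have hgen : Ideal.span {gen hJ ⟨I, hmk⟩} = Ideal.span {a} := by
    rw [span_gen, hI₀, mul_comm]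
  obtain ⟨u, hu⟩ := Ideal.span_singleton_eq_span_singleton.mp hgen
  refine ⟨(⟨I, hmk⟩, u), ?_⟩
  apply Subtype.ext
  apply Subtype.ext
  rw [orbitMap_coe]
  simp only
  rw [mul_comm]
  exact hu

/-- the bijection between pairs (ideal in the class `C`, unit) and nonzero elements of `J` -/
noncomputable def orbitEquiv (hJ : ClassGroup.mk0 J = C⁻¹) :
    {I : (Ideal (𝓞 K))⁰ // ClassGroup.mk0 I = C} × (𝓞 K)ˣ ≃ {a : ↥(J : Ideal (𝓞 K)) // a ≠ 0} :=
  Equiv.ofBijective (orbitMap hJ) ⟨orbitMap_injective hJ, orbitMap_surjective hJ⟩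


theorem mixedEmbedding_orbitMap (hJ : ClassGroup.mk0 J = C⁻¹)
    (p : {I : (Ideal (𝓞 K))⁰ // ClassGroup.mk0 I = C} × (𝓞 K)ˣ) :
    mixedEmbedding K ((((orbitMap hJ p : ↥(J : Ideal (𝓞 K))) : 𝓞 K)) : K) =
      p.2 • mixedEmbedding K ((gen hJ p.1 : 𝓞 K) : K) := by
  rw [orbitMap_coe, unitSMul_smul, ← map_mul]
  rfl

theorem G_orbitMap (hJ : ClassGroup.mk0 J = C⁻¹) (s : ℝ)
    (p : {I : (Ideal (𝓞 K))⁰ // ClassGroup.mk0 I = C} × (𝓞 K)ˣ) :
    G K s (mixedEmbedding K ((((orbitMap hJ p : ↥(J : Ideal (𝓞 K))) : 𝓞 K)) : K)) =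
      weight K (p.2 • mixedEmbedding K ((gen hJ p.1 : 𝓞 K) : K)) *
        ((Ideal.absNorm (p.1.1 : Ideal (𝓞 K)) : ℝ) * (Ideal.absNorm (J : Ideal (𝓞 K)) : ℝ)) ^ (-s) := by
  rw [mixedEmbedding_orbitMap, G, norm_unit_smul, absNorm_gen]

theorem norm_gen_ne_zero (hJ : ClassGroup.mk0 J = C⁻¹)
    (I : {I : (Ideal (𝓞 K))⁰ // ClassGroup.mk0 I = C}) :
    mixedEmbedding.norm (mixedEmbedding K ((gen hJ I : 𝓞 K) : K)) ≠ 0 := by
  rw [absNorm_gen]
  exact mul_ne_zero (Nat.cast_ne_zero.mpr (Ideal.absNorm_ne_zero_of_nonZeroDivisors _))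
    (Nat.cast_ne_zero.mpr (Ideal.absNorm_ne_zero_of_nonZeroDivisors _))

theorem G_zero (s : ℝ) (hs : s ≠ 0) : G K s (mixedEmbedding K (0 : K)) = 0 := by
  rw [G, map_zero, map_zero, Real.zero_rpow (neg_ne_zero.mpr hs), mul_zero]

/-- the sum over nonzero elements of `J` equals the sum over all of `J` -/
theorem tsum_ne_zero_eq (s : ℝ) (hs : s ≠ 0) :
    ∑' a : {a : ↥(J : Ideal (𝓞 K)) // a ≠ 0},
        G K s (mixedEmbedding K ((((a : ↥(J : Ideal (𝓞 K))) : 𝓞 K)) : K)) =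
      ∑' a : ↥(J : Ideal (𝓞 K)), G K s (mixedEmbedding K ((a : 𝓞 K) : K)) := by
  refine tsum_subtype_eq_of_support_subset
    (f := fun a : ↥(J : Ideal (𝓞 K)) => G K s (mixedEmbedding K ((a : 𝓞 K) : K)))
    (s := {a | a ≠ 0}) ?_
  intro a ha
  rw [Function.mem_support] at ha
  intro h
  apply ha
  rw [h]
  simpa using G_zero (K := K) s hs

theorem summable_orbit (hJ : ClassGroup.mk0 J = C⁻¹) (s : ℝ)
    (hsum : Summable fun a : (J : Ideal (𝓞 K)) => G K s (mixedEmbedding K ((a : 𝓞 K) : K))) :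
    Summable fun p : {I : (Ideal (𝓞 K))⁰ // ClassGroup.mk0 I = C} × (𝓞 K)ˣ =>
      weight K (p.2 • mixedEmbedding K ((gen hJ p.1 : 𝓞 K) : K)) *
        ((Ideal.absNorm (p.1.1 : Ideal (𝓞 K)) : ℝ) * (Ideal.absNorm (J : Ideal (𝓞 K)) : ℝ)) ^ (-s) := by
  have h1 := hsum.subtype (fun a => a ≠ 0)
  have h2 := (orbitEquiv hJ).summable_iff.mpr h1
  refine h2.congr fun p => ?_
  exact G_orbitMap hJ s p

theorem hasSum_fibre (hJ : ClassGroup.mk0 J = C⁻¹) (s : ℝ)
    (I : {I : (Ideal (𝓞 K))⁰ // ClassGroup.mk0 I = C}) :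
    HasSum (fun u : (𝓞 K)ˣ =>
      weight K (u • mixedEmbedding K ((gen hJ I : 𝓞 K) : K)) *
        ((Ideal.absNorm (I.1 : Ideal (𝓞 K)) : ℝ) * (Ideal.absNorm (J : Ideal (𝓞 K)) : ℝ)) ^ (-s))
      ((torsionOrder K : ℝ) *
        ((Ideal.absNorm (I.1 : Ideal (𝓞 K)) : ℝ) * (Ideal.absNorm (J : Ideal (𝓞 K)) : ℝ)) ^ (-s)) :=
  (hasSum_weight_orbit K _ (norm_gen_ne_zero hJ I)).mul_right _


/-- the main computation: the smoothed lattice sum over `J` as a sum over the ideals of the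
class `C` -/
theorem hasSum_class (hJ : ClassGroup.mk0 J = C⁻¹) (s : ℝ)
    (hsum : Summable fun a : (J : Ideal (𝓞 K)) => G K s (mixedEmbedding K ((a : 𝓞 K) : K))) :
    HasSum (fun I : {I : (Ideal (𝓞 K))⁰ // ClassGroup.mk0 I = C} =>
      (torsionOrder K : ℝ) *
        ((Ideal.absNorm (I.1 : Ideal (𝓞 K)) : ℝ) * (Ideal.absNorm (J : Ideal (𝓞 K)) : ℝ)) ^ (-s))
      (∑' a : {a : ↥(J : Ideal (𝓞 K)) // a ≠ 0},
        G K s (mixedEmbedding K ((((a : ↥(J : Ideal (𝓞 K))) : 𝓞 K)) : K))) := by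
  have h1 := summable_orbit hJ s hsum
  have h2 : ∑' p : {I : (Ideal (𝓞 K))⁰ // ClassGroup.mk0 I = C} × (𝓞 K)ˣ,
      weight K (p.2 • mixedEmbedding K ((gen hJ p.1 : 𝓞 K) : K)) *
        ((Ideal.absNorm (p.1.1 : Ideal (𝓞 K)) : ℝ) *
          (Ideal.absNorm (J : Ideal (𝓞 K)) : ℝ)) ^ (-s) =
      ∑' a : {a : ↥(J : Ideal (𝓞 K)) // a ≠ 0},
        G K s (mixedEmbedding K ((((a : ↥(J : Ideal (𝓞 K))) : 𝓞 K)) : K)) := by
    rw [← (orbitEquiv hJ).tsum_eq]
    exact tsum_congr fun p => (G_orbitMap hJ s p).symm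
  rw [← h2]
  exact h1.hasSum.prod_fiberwise fun I => hasSum_fibre hJ s I

end partB

section partBFinal

variable (K : Type*) [Field K] [NumberField K]

/-- **(b), summability part.** -/
theorem summable_partialZeta (C : ClassGroup (𝓞 K)) (J : (Ideal (𝓞 K))⁰)
    (hJ : ClassGroup.mk0 J = C⁻¹) (s : ℝ) (hs : 1 < s)
    (hsum : Summable fun a : (J : Ideal (𝓞 K)) => G K s (mixedEmbedding K ((a : 𝓞 K) : K))) :
    Summable fun I : {I : (Ideal (𝓞 K))⁰ // ClassGroup.mk0 I = C} =>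
      ((Ideal.absNorm (I.1 : Ideal (𝓞 K)) : ℝ)) ^ (-s) := by
  have _hs := hs
  have h := (hasSum_class hJ s hsum).summable
  have hJpos : (0 : ℝ) < (Ideal.absNorm (J : Ideal (𝓞 K)) : ℝ) :=
    Nat.cast_pos.mpr (Ideal.absNorm_pos_of_nonZeroDivisors J)
  have hc : (torsionOrder K : ℝ) * (Ideal.absNorm (J : Ideal (𝓞 K)) : ℝ) ^ (-s) ≠ 0 :=
    mul_ne_zero (Nat.cast_ne_zero.mpr (torsionOrder_ne_zero K))
      (Real.rpow_pos_of_pos hJpos _).ne'
  refine (summable_mul_left_iff hc).mp (h.congr fun I => ?_)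
  rw [Real.mul_rpow (Nat.cast_nonneg _) hJpos.le]
  ring

/-- **(b)** the partial zeta function of the class `C` as a smoothed lattice sum over an
ideal `J` in the class `C⁻¹`. -/
theorem torsionOrder_mul_partialZeta (C : ClassGroup (𝓞 K)) (J : (Ideal (𝓞 K))⁰)
    (hJ : ClassGroup.mk0 J = C⁻¹) (s : ℝ) (hs : 1 < s)
    (hsum : Summable fun a : (J : Ideal (𝓞 K)) => G K s (mixedEmbedding K ((a : 𝓞 K) : K))) :
    (torsionOrder K : ℝ) * partialZeta K C s =
      (Ideal.absNorm (J : Ideal (𝓞 K)) : ℝ) ^ s *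
        ∑' a : (J : Ideal (𝓞 K)), G K s (mixedEmbedding K ((a : 𝓞 K) : K)) := by
  have hs0 : s ≠ 0 := by linarith
  have hJpos : (0 : ℝ) < (Ideal.absNorm (J : Ideal (𝓞 K)) : ℝ) :=
    Nat.cast_pos.mpr (Ideal.absNorm_pos_of_nonZeroDivisors J)
  have h := (hasSum_class hJ s hsum).tsum_eq
  rw [tsum_ne_zero_eq s hs0] at h
  rw [← h, partialZeta, ← tsum_mul_left, ← tsum_mul_left]
  refine tsum_congr fun I => ?_
  rw [Real.mul_rpow (Nat.cast_nonneg _) hJpos.le, Real.rpow_neg hJpos.le s]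
  field_simp

end partBFinal

end Fermat.Agent.S14.helper78
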