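import Fermat.Agent.S14.helper34_AN0
import Fermat.Agent.S14.helper78_OrbitSum

/-!
# S14 (2b) AN0, unconditional form (helper34, using the orbit-sum identity of helper78)

* `partialZeta_sub_bounded` : `|partialZeta K C s - partialZeta K C' s| ≤ B` on `(1, 2]`;
* `partialZeta_le` : `partialZeta K C s ≤ B / (s - 1)` on `(1, 2]`;
* `summable_partialZeta` : the partial zeta series converges for `s > 1`.
-/

set_option autoImplicit false

open NumberField NumberField.mixedEmbedding
open scoped nonZeroDivisors

namespace Fermat.Agent.S14.helper34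

variable (K : Type*) [Field K] [NumberField K]

theorem orbitSumIdentity : OrbitSumIdentity K :=
  fun C J hJ s hs hsum => helper78.torsionOrder_mul_partialZeta K C J hJ s hs hsum

/-- **AN0**: the partial zeta functions of two ideal classes differ by a bounded function on
`(1, 2]`. Consequently every class group `L`-function `L(s, χ)`, `χ ≠ 1`, is bounded there. -/
theorem partialZeta_sub_bounded (C C' : ClassGroup (𝓞 K)) :
    ∃ B : ℝ, ∀ s : ℝ, 1 < s → s ≤ 2 → |partialZeta K C s - partialZeta K C' s| ≤ B :=
  partialZeta_sub_bounded_of_orbit K (orbitSumIdentity K) C C'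

/-- **AN0'**: the pole bound `partialZeta K C s ≤ B / (s - 1)` on `(1, 2]`. -/
theorem partialZeta_le (C : ClassGroup (𝓞 K)) :
    ∃ B : ℝ, ∀ s : ℝ, 1 < s → s ≤ 2 → partialZeta K C s ≤ B / (s - 1) :=
  partialZeta_le_of_orbit K (orbitSumIdentity K) C

/-- The partial zeta series of an ideal class converges for `s > 1`. -/
theorem summable_partialZeta (C : ClassGroup (𝓞 K)) (s : ℝ) (hs : 1 < s) :
    Summable fun I : {I : (Ideal (𝓞 K))⁰ // ClassGroup.mk0 I = C} =>
      ((Ideal.absNorm (I.1 : Ideal (𝓞 K)) : ℝ)) ^ (-s) := by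
  obtain ⟨J, hJ⟩ := ClassGroup.mk0_surjective C⁻¹
  exact helper78.summable_partialZeta K C J hJ s hs (summable_G_ideal K _ hs)

theorem partialZeta_nonneg (C : ClassGroup (𝓞 K)) (s : ℝ) : 0 ≤ partialZeta K C s :=
  tsum_nonneg fun _ => Real.rpow_nonneg (Nat.cast_nonneg _) _

end Fermat.Agent.S14.helper34
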