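import Mathlib
import Fermat.Agent.S14.helper34_Defs

/-!
# S14 (2b) AN2: characters of `Cl/H` and the analytic second inequality (helper89)

Main results (all in namespace `Fermat.Agent.S14.helper89`):

* `exp_le_prod_norm` : the key Euler-product inequality
  `exp (h * ∑_{𝔭 ∈ F₁} N𝔭^{-s}) ≤ ∏_χ ‖L(s, χ)‖` for a finite set `F₁` of primes with class in `H`.
* `subgroup_sum_le`, `second_inequality`, `second_inequality'` : the statements of task AN2.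
-/

set_option autoImplicit false

open NumberField IsDedekindDomain
open scoped nonZeroDivisors

namespace Fermat.Agent.S14.helper89

section LocalFactor

variable {α : Type*} [AddCommGroup α] [Finite α]

lemma re_sum_neg_log_nonneg (g : α) (x : ℝ) (hx0 : 0 ≤ x) (hx1 : x < 1) :
    0 ≤ (∑ ψ : AddChar α ℂ, -Complex.log (1 - ψ g * x)).re := by
  classical
  have := Fintype.ofFinite α
  have key : ∀ ψ : AddChar α ℂ,
      HasSum (fun n : ℕ => (ψ g * x) ^ n / n) (-Complex.log (1 - ψ g * x)) := by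
    intro ψ
    apply Complex.hasSum_taylorSeries_neg_log
    rw [norm_mul, AddChar.norm_apply, one_mul, Complex.norm_real, Real.norm_of_nonneg hx0]
    exact hx1
  have h2 : HasSum (fun n : ℕ => ∑ ψ : AddChar α ℂ, (ψ g * x) ^ n / n)
      (∑ ψ : AddChar α ℂ, -Complex.log (1 - ψ g * x)) :=
    hasSum_sum (fun ψ _ => key ψ)
  have h3 := Complex.reCLM.hasSum h2
  refine h3.nonneg ?_
  intro n
  have h4 : (∑ ψ : AddChar α ℂ, (ψ g * x) ^ n / n)
      = ((if n • g = 0 then (Fintype.card α : ℝ) else 0) * x ^ n / n : ℝ) := by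
    have h5 : ∀ ψ : AddChar α ℂ, (ψ g * x) ^ n / n = ψ (n • g) * ((x : ℂ) ^ n / n) := by
      intro ψ
      rw [mul_pow, AddChar.map_nsmul_eq_pow]
      ring
    simp_rw [h5]
    rw [← Finset.sum_mul, AddChar.sum_apply_eq_ite]
    push_cast
    split_ifs <;> simp
    ring
  simp only [Complex.reCLM_apply]
  rw [h4, Complex.ofReal_re]
  split_ifs
  · positivity
  · simp

lemma norm_prod_one_sub_le_one (g : α) (x : ℝ) (hx0 : 0 ≤ x) (hx1 : x < 1) :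
    ‖∏ ψ : AddChar α ℂ, (1 - ψ g * x)‖ ≤ 1 := by
  classical
  have hne : ∀ ψ : AddChar α ℂ, (1 - ψ g * x) ≠ 0 := by
    intro ψ h
    have h1 : ψ g * x = 1 := by
      rw [sub_eq_zero] at h; exact h.symm
    have h2 : ‖ψ g * (x : ℂ)‖ = 1 := by rw [h1]; simp
    rw [norm_mul, AddChar.norm_apply, one_mul, Complex.norm_real, Real.norm_of_nonneg hx0] at h2
    linarith
  have h1 : ∀ ψ : AddChar α ℂ, ‖(1 - ψ g * x)‖ = Real.exp (-(-Complex.log (1 - ψ g * x)).re) := by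
    intro ψ
    rw [Complex.neg_re, neg_neg, Complex.log_re, Real.exp_log]
    exact norm_pos_iff.mpr (hne ψ)
  rw [norm_prod]
  simp_rw [h1]
  rw [← Real.exp_sum, Finset.sum_neg_distrib, ← Complex.re_sum]
  have := re_sum_neg_log_nonneg g x hx0 hx1
  rw [Real.exp_le_one_iff]  -- exp y ≤ 1 ↔ y ≤ 0
  linarith

end LocalFactor

section Euler

variable (K : Type*) [Field K] [NumberField K]

/-- The nonzero ideal attached to a prime. -/
noncomputable def pI (𝔭 : HeightOneSpectrum (𝓞 K)) : (Ideal (𝓞 K))⁰ :=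
  ⟨𝔭.asIdeal, mem_nonZeroDivisors_of_ne_zero 𝔭.ne_bot⟩

/-- The nonzero ideals coprime to all primes of the finite set `F`. -/
def coprimeSet (F : Finset (HeightOneSpectrum (𝓞 K))) : Set (Ideal (𝓞 K))⁰ :=
  {I | ∀ 𝔭 ∈ F, ¬ 𝔭.asIdeal ∣ (I : Ideal (𝓞 K))}

variable {K}

omit [NumberField K] in
lemma pI_coe (𝔭 : HeightOneSpectrum (𝓞 K)) :
    ((pI K 𝔭 : (Ideal (𝓞 K))⁰) : Ideal (𝓞 K)) = 𝔭.asIdeal := rfl

/-- multiplication by a prime is a bijection onto the ideals divisible by that prime -/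
noncomputable def mulPrimeEquiv (𝔭 : HeightOneSpectrum (𝓞 K)) :
    (Ideal (𝓞 K))⁰ ≃ {I : (Ideal (𝓞 K))⁰ // 𝔭.asIdeal ∣ (I : Ideal (𝓞 K))} :=
  Equiv.ofBijective (fun J => ⟨pI K 𝔭 * J, ⟨(J : Ideal (𝓞 K)), rfl⟩⟩) (by
    constructor
    · intro J J' h
      have h1 : ((pI K 𝔭 * J : (Ideal (𝓞 K))⁰) : Ideal (𝓞 K)) = ((pI K 𝔭 * J' : (Ideal (𝓞 K))⁰) : Ideal (𝓞 K)) :=
        congrArg (fun x => ((x : {I : (Ideal (𝓞 K))⁰ // 𝔭.asIdeal ∣ (I : Ideal (𝓞 K))}) : (Ideal (𝓞 K))⁰).1) h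
      have h2 : 𝔭.asIdeal * (J : Ideal (𝓞 K)) = 𝔭.asIdeal * (J' : Ideal (𝓞 K)) := h1
      exact Subtype.ext (mul_left_cancel₀ 𝔭.ne_bot h2)
    · rintro ⟨I, J, hJ⟩
      have hJ0 : J ≠ 0 := by
        rintro rfl
        have : (I : Ideal (𝓞 K)) ≠ 0 := nonZeroDivisors.coe_ne_zero I
        rw [hJ, mul_zero] at this
        exact this rfl
      refine ⟨⟨J, mem_nonZeroDivisors_of_ne_zero hJ0⟩, ?_⟩
      apply Subtype.ext
      apply Subtype.ext
      exact hJ.symm)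

lemma mulPrimeEquiv_apply (𝔭 : HeightOneSpectrum (𝓞 K)) (J : (Ideal (𝓞 K))⁰) :
    ((mulPrimeEquiv 𝔭 J : {I : (Ideal (𝓞 K))⁰ // 𝔭.asIdeal ∣ (I : Ideal (𝓞 K))}) : (Ideal (𝓞 K))⁰)
      = pI K 𝔭 * J := rfl

/-- removing one Euler factor -/
lemma tsum_indicator_not_dvd (𝔭 : HeightOneSpectrum (𝓞 K)) (g : (Ideal (𝓞 K))⁰ → ℂ)
    (hg : Summable g) (c : ℂ) (hmul : ∀ I, g (pI K 𝔭 * I) = c * g I) :
    ∑' I, Set.indicator {I : (Ideal (𝓞 K))⁰ | ¬ 𝔭.asIdeal ∣ (I : Ideal (𝓞 K))} g I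
      = (1 - c) * ∑' I, g I := by
  set S : Set (Ideal (𝓞 K))⁰ := {I | 𝔭.asIdeal ∣ (I : Ideal (𝓞 K))} with hS
  have h1 := hg.tsum_subtype_add_tsum_subtype_compl S
  have h2 : ∑' I : S, g I = c * ∑' I, g I := by
    have e := (mulPrimeEquiv 𝔭).tsum_eq
      (fun I : {I : (Ideal (𝓞 K))⁰ // 𝔭.asIdeal ∣ (I : Ideal (𝓞 K))} => g I)
    calc ∑' I : S, g I = ∑' J, g (mulPrimeEquiv 𝔭 J) := e.symm
      _ = ∑' J, c * g J := tsum_congr (fun J => by rw [mulPrimeEquiv_apply, hmul])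
      _ = c * ∑' J, g J := tsum_mul_left
  have h3 : ∑' I : (Sᶜ : Set _), g I = ∑' I, Set.indicator {I : (Ideal (𝓞 K))⁰ | ¬ 𝔭.asIdeal ∣ (I : Ideal (𝓞 K))} g I := by
    rw [tsum_subtype]
    rfl
  rw [← h3]
  rw [h2] at h1
  linear_combination h1

lemma dvd_prime_mul_iff {𝔭 𝔮 : HeightOneSpectrum (𝓞 K)} (h : 𝔮 ≠ 𝔭) (I : Ideal (𝓞 K)) :
    𝔮.asIdeal ∣ 𝔭.asIdeal * I ↔ 𝔮.asIdeal ∣ I := by
  constructor
  · intro hd
    rcases (𝔮.prime.dvd_or_dvd hd) with h1 | h1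
    · exfalso
      apply h
      have h2 : 𝔭.asIdeal ≤ 𝔮.asIdeal := Ideal.le_of_dvd h1
      have h3 := 𝔭.isMaximal.eq_of_le 𝔮.isPrime.ne_top h2
      exact (HeightOneSpectrum.ext h3).symm
    · exact h1
  · intro hd
    exact Dvd.dvd.mul_left hd _

lemma mul_mem_coprimeSet_iff {𝔭 : HeightOneSpectrum (𝓞 K)} {F : Finset (HeightOneSpectrum (𝓞 K))}
    (h𝔭 : 𝔭 ∉ F) (I : (Ideal (𝓞 K))⁰) :
    pI K 𝔭 * I ∈ coprimeSet K F ↔ I ∈ coprimeSet K F := by
  show (∀ 𝔮 ∈ F, ¬ 𝔮.asIdeal ∣ 𝔭.asIdeal * (I : Ideal (𝓞 K))) ↔ (∀ 𝔮 ∈ F, ¬ 𝔮.asIdeal ∣ (I : Ideal (𝓞 K)))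
  constructor
  · intro h 𝔮 h𝔮 hd
    apply h 𝔮 h𝔮
    have : 𝔮 ≠ 𝔭 := fun e => h𝔭 (e ▸ h𝔮)
    exact (dvd_prime_mul_iff this _).2 hd
  · intro h 𝔮 h𝔮 hd
    apply h 𝔮 h𝔮
    have : 𝔮 ≠ 𝔭 := fun e => h𝔭 (e ▸ h𝔮)
    exact (dvd_prime_mul_iff this _).1 hd

/-- removing finitely many Euler factors from the sum of a completely multiplicative function -/
lemma tsum_indicator_coprimeSet (f : (Ideal (𝓞 K))⁰ →* ℂ) (hf : Summable f)
    (F : Finset (HeightOneSpectrum (𝓞 K))) :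
    ∑' I, Set.indicator (coprimeSet K F) f I = (∏ 𝔭 ∈ F, (1 - f (pI K 𝔭))) * ∑' I, f I := by
  classical
  induction F using Finset.induction_on with
  | empty =>
    have : coprimeSet K (∅ : Finset (HeightOneSpectrum (𝓞 K))) = Set.univ := by
      ext I; simp [coprimeSet]
    simp [this]
  | insert 𝔭 F h𝔭 ih =>
    have hg : Summable (Set.indicator (coprimeSet K F) f) := hf.indicator _
    have h1 := tsum_indicator_not_dvd 𝔭 (Set.indicator (coprimeSet K F) f) hg (f (pI K 𝔭)) (by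
      intro I
      by_cases hI : I ∈ coprimeSet K F
      · rw [Set.indicator_of_mem hI, Set.indicator_of_mem ((mul_mem_coprimeSet_iff h𝔭 I).2 hI), map_mul]
      · rw [Set.indicator_of_notMem hI, Set.indicator_of_notMem (fun h => hI ((mul_mem_coprimeSet_iff h𝔭 I).1 h)), mul_zero])
    have h2 : Set.indicator {I : (Ideal (𝓞 K))⁰ | ¬ 𝔭.asIdeal ∣ (I : Ideal (𝓞 K))} (Set.indicator (coprimeSet K F) f)
        = Set.indicator (coprimeSet K (insert 𝔭 F)) f := by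
      rw [Set.indicator_indicator]
      congr 1
      ext I
      simp [coprimeSet]
    rw [h2] at h1
    rw [h1, ih, Finset.prod_insert h𝔭]
    ring

end Euler

section Tail

variable {K : Type*} [Field K] [NumberField K]

omit [NumberField K] in
lemma one_mem_coprimeSet (F : Finset (HeightOneSpectrum (𝓞 K))) :
    (1 : (Ideal (𝓞 K))⁰) ∈ coprimeSet K F := by
  intro 𝔭 _ hd
  have h1 : 𝔭.asIdeal ∣ (1 : Ideal (𝓞 K)) := hd
  have h2 : (1 : Ideal (𝓞 K)) ≤ 𝔭.asIdeal := Ideal.le_of_dvd h1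
  rw [Ideal.one_eq_top, top_le_iff] at h2
  exact 𝔭.isPrime.ne_top h2

lemma exists_prime_dvd (I : (Ideal (𝓞 K))⁰) (hI : I ≠ 1) :
    ∃ 𝔭 : HeightOneSpectrum (𝓞 K), 𝔭.asIdeal ∣ (I : Ideal (𝓞 K)) := by
  have h1 : (I : Ideal (𝓞 K)) ≠ ⊤ := by
    intro h
    apply hI
    apply Subtype.ext
    rw [h]
    exact Ideal.one_eq_top.symm
  obtain ⟨M, hM, hIM⟩ := Ideal.exists_le_maximal _ h1
  have hM0 : M ≠ ⊥ := by
    rintro rfl
    have : (I : Ideal (𝓞 K)) = ⊥ := le_bot_iff.mp hIM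
    exact nonZeroDivisors.coe_ne_zero I this
  exact ⟨⟨M, hM.isPrime, hM0⟩, Ideal.dvd_iff_le.mpr hIM⟩

/-- Tail estimate: the sum of a nonnegative summable function over the ideals `≠ 1` coprime to
a large finite set of primes is small. -/
lemma exists_finset_tsum_coprime_le (a : (Ideal (𝓞 K))⁰ → ℝ) (ha0 : ∀ I, 0 ≤ a I)
    (ha : Summable a) (ε : ℝ) (hε : 0 < ε) :
    ∃ F₀ : Finset (HeightOneSpectrum (𝓞 K)), ∀ F : Finset (HeightOneSpectrum (𝓞 K)), F₀ ⊆ F →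
      ∑' I, Set.indicator (coprimeSet K F \ {1}) a I ≤ ε := by
  classical
  obtain ⟨T, hT⟩ := ((tendsto_order.1 (tendsto_tsum_compl_atTop_zero a)).2 _ hε).exists
  refine ⟨T.biUnion (fun I => (Ideal.finite_factors (nonZeroDivisors.coe_ne_zero I)).toFinset), ?_⟩
  intro F hF
  have hsub : coprimeSet K F \ {1} ⊆ {x | x ∉ T} := by
    rintro I ⟨hI, hI1⟩ hIT
    obtain ⟨𝔭, h𝔭⟩ := exists_prime_dvd I hI1
    apply hI 𝔭 _ h𝔭
    apply hF
    rw [Finset.mem_biUnion]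
    exact ⟨I, hIT, by simpa using h𝔭⟩
  have h1 : ∑' I, Set.indicator (coprimeSet K F \ {1}) a I ≤ ∑' I, Set.indicator {x | x ∉ T} a I := by
    apply Summable.tsum_le_tsum _ (ha.indicator _) (ha.indicator _)
    intro I
    exact Set.indicator_le_indicator_of_subset hsub ha0 I
  have h2 : ∑' I, Set.indicator {x | x ∉ T} a I = ∑' I : {x // x ∉ T}, a I := by
    rw [← tsum_subtype]
    rfl
  rw [h2] at h1
  exact h1.trans hT.le

end Tail

section Main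

variable (K : Type*) [Field K] [NumberField K]

/-- `N(I)^(-s)` -/
noncomputable def aN (s : ℝ) (I : (Ideal (𝓞 K))⁰) : ℝ :=
  (Ideal.absNorm (I : Ideal (𝓞 K)) : ℝ) ^ (-s)

variable {K}

lemma aN_pos (s : ℝ) (I : (Ideal (𝓞 K))⁰) : 0 < aN K s I := by
  unfold aN
  apply Real.rpow_pos_of_pos
  have : Ideal.absNorm (I : Ideal (𝓞 K)) ≠ 0 := by
    rw [Ne, Ideal.absNorm_eq_zero_iff]
    exact nonZeroDivisors.coe_ne_zero I
  exact_mod_cast Nat.pos_of_ne_zero this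

lemma aN_nonneg (s : ℝ) (I : (Ideal (𝓞 K))⁰) : 0 ≤ aN K s I := (aN_pos s I).le

lemma aN_one (s : ℝ) : aN K s 1 = 1 := by
  unfold aN
  have : ((1 : (Ideal (𝓞 K))⁰) : Ideal (𝓞 K)) = ⊤ := Ideal.one_eq_top
  rw [this, Ideal.absNorm_top]
  simp

lemma aN_mul (s : ℝ) (I J : (Ideal (𝓞 K))⁰) : aN K s (I * J) = aN K s I * aN K s J := by
  unfold aN
  have : ((I * J : (Ideal (𝓞 K))⁰) : Ideal (𝓞 K)) = (I : Ideal (𝓞 K)) * (J : Ideal (𝓞 K)) := rfl
  rw [this, map_mul, Nat.cast_mul, Real.mul_rpow (Nat.cast_nonneg _) (Nat.cast_nonneg _)]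

lemma aN_prime_lt_one {s : ℝ} (hs : 0 < s) (𝔭 : HeightOneSpectrum (𝓞 K)) : aN K s (pI K 𝔭) < 1 := by
  unfold aN
  rw [pI_coe]
  apply Real.rpow_lt_one_of_one_lt_of_neg _ (by linarith)
  have h0 : Ideal.absNorm 𝔭.asIdeal ≠ 0 := by
    rw [Ne, Ideal.absNorm_eq_zero_iff]; exact 𝔭.ne_bot
  have h1 : Ideal.absNorm 𝔭.asIdeal ≠ 1 := by
    rw [Ne, Ideal.absNorm_eq_one_iff]; exact 𝔭.isPrime.ne_top
  have : 1 < Ideal.absNorm 𝔭.asIdeal := by omega
  exact_mod_cast this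

variable (H : Subgroup (ClassGroup (𝓞 K)))

/-- the class of a nonzero ideal in `Cl / H`, written additively -/
noncomputable def clH (I : (Ideal (𝓞 K))⁰) : Additive (ClassGroup (𝓞 K) ⧸ H) :=
  Additive.ofMul ((ClassGroup.mk0 I : ClassGroup (𝓞 K)) : ClassGroup (𝓞 K) ⧸ H)

lemma clH_one : clH H (1 : (Ideal (𝓞 K))⁰) = 0 := by
  unfold clH
  rw [map_one]
  rfl

lemma clH_mul (I J : (Ideal (𝓞 K))⁰) : clH H (I * J) = clH H I + clH H J := by
  unfold clH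
  rw [map_mul]
  rfl

lemma clH_eq_zero_iff (I : (Ideal (𝓞 K))⁰) : clH H I = 0 ↔ ClassGroup.mk0 I ∈ H := by
  unfold clH
  rw [← QuotientGroup.eq_one_iff]
  rfl

/-- the completely multiplicative function `I ↦ χ(I) N(I)^(-s)` -/
noncomputable def fχ (ψ : AddChar (Additive (ClassGroup (𝓞 K) ⧸ H)) ℂ) (s : ℝ) :
    (Ideal (𝓞 K))⁰ →* ℂ where
  toFun I := ψ (clH H I) * (aN K s I : ℂ)
  map_one' := by
    rw [clH_one, aN_one, AddChar.map_zero_eq_one]
    simp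
  map_mul' I J := by
    rw [clH_mul, aN_mul, AddChar.map_add_eq_mul]
    push_cast
    ring

lemma fχ_apply (ψ : AddChar (Additive (ClassGroup (𝓞 K) ⧸ H)) ℂ) (s : ℝ) (I : (Ideal (𝓞 K))⁰) :
    fχ H ψ s I = ψ (clH H I) * (aN K s I : ℂ) := rfl

lemma norm_fχ (ψ : AddChar (Additive (ClassGroup (𝓞 K) ⧸ H)) ℂ) (s : ℝ) (I : (Ideal (𝓞 K))⁰) :
    ‖fχ H ψ s I‖ = aN K s I := by
  rw [fχ_apply, norm_mul, AddChar.norm_apply, one_mul, Complex.norm_real,
    Real.norm_of_nonneg (aN_nonneg s I)]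

lemma summable_fχ (ψ : AddChar (Additive (ClassGroup (𝓞 K) ⧸ H)) ℂ) {s : ℝ}
    (hA : Summable (aN K s)) : Summable (fχ H ψ s) := by
  apply Summable.of_norm
  simp_rw [norm_fχ]
  exact hA

lemma card_addChar_eq_index :
    Fintype.card (AddChar (Additive (ClassGroup (𝓞 K) ⧸ H)) ℂ) = H.index := by
  classical
  rw [AddChar.card_eq, Subgroup.index, ← Nat.card_eq_fintype_card]
  exact Nat.card_congr Additive.toMul

/-- the norm of the sum over the ideals coprime to `F` is close to `1` -/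
lemma norm_tsum_coprime_sub_one_le (ψ : AddChar (Additive (ClassGroup (𝓞 K) ⧸ H)) ℂ) {s : ℝ}
    (hA : Summable (aN K s)) (F : Finset (HeightOneSpectrum (𝓞 K))) :
    ‖∑' I, Set.indicator (coprimeSet K F) (fχ H ψ s) I - 1‖
      ≤ ∑' I, Set.indicator (coprimeSet K F \ {1}) (aN K s) I := by
  classical
  have hf := summable_fχ H ψ hA
  have h1 : ∀ I, Set.indicator (coprimeSet K F) (fχ H ψ s) I
      = Set.indicator (coprimeSet K F \ {1}) (fχ H ψ s) I + Set.indicator {1} (fχ H ψ s) I := by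
    intro I
    by_cases hI1 : I = 1
    · subst hI1
      rw [Set.indicator_of_mem (one_mem_coprimeSet F), Set.indicator_of_notMem (by simp),
        Set.indicator_of_mem (Set.mem_singleton _), zero_add]
    · by_cases hI : I ∈ coprimeSet K F
      · rw [Set.indicator_of_mem hI,
          Set.indicator_of_mem (show I ∈ coprimeSet K F \ {1} from ⟨hI, hI1⟩),
          Set.indicator_of_notMem (by simpa using hI1), add_zero]
      · rw [Set.indicator_of_notMem hI, Set.indicator_of_notMem (fun h => hI h.1),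
          Set.indicator_of_notMem (by simpa using hI1), add_zero]
  have h2 : ∑' I, Set.indicator ({1} : Set (Ideal (𝓞 K))⁰) (fχ H ψ s) I = 1 := by
    rw [← tsum_subtype, tsum_singleton (1 : (Ideal (𝓞 K))⁰) (fχ H ψ s), map_one]
  have h3 : ∑' I, Set.indicator (coprimeSet K F) (fχ H ψ s) I
      = ∑' I, Set.indicator (coprimeSet K F \ {1}) (fχ H ψ s) I + 1 := by
    rw [tsum_congr h1, Summable.tsum_add (hf.indicator _) (hf.indicator _), h2]
  rw [h3, add_sub_cancel_right]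
  refine (norm_tsum_le_tsum_norm ?_).trans ?_
  · exact (hf.indicator _).norm
  · apply le_of_eq
    apply tsum_congr
    intro I
    by_cases hI : I ∈ coprimeSet K F \ {1}
    · rw [Set.indicator_of_mem hI, Set.indicator_of_mem hI, norm_fχ]
    · rw [Set.indicator_of_notMem hI, Set.indicator_of_notMem hI, norm_zero]


/-- the local factor at a prime: `‖∏_χ (1 - χ(𝔭) N𝔭^(-s))‖ ≤ 1` -/
lemma norm_prod_localFactor_le_one {s : ℝ} (hs : 0 < s) (𝔭 : HeightOneSpectrum (𝓞 K)) :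
    ∏ ψ : AddChar (Additive (ClassGroup (𝓞 K) ⧸ H)) ℂ, ‖1 - fχ H ψ s (pI K 𝔭)‖ ≤ 1 := by
  rw [← norm_prod]
  simp_rw [fχ_apply]
  exact norm_prod_one_sub_le_one (clH H (pI K 𝔭)) (aN K s (pI K 𝔭)) (aN_nonneg _ _)
    (aN_prime_lt_one hs 𝔭)

/-- the local factor at a prime with class in `H` -/
lemma prod_localFactor_of_mem {s : ℝ} (hs : 0 < s) (𝔭 : HeightOneSpectrum (𝓞 K))
    (h𝔭 : helper34.primeClass K 𝔭 ∈ H) :
    ∏ ψ : AddChar (Additive (ClassGroup (𝓞 K) ⧸ H)) ℂ, ‖1 - fχ H ψ s (pI K 𝔭)‖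
      = (1 - aN K s (pI K 𝔭)) ^ H.index := by
  have h0 : clH H (pI K 𝔭) = 0 := (clH_eq_zero_iff H _).2 h𝔭
  have h1 : ∀ ψ : AddChar (Additive (ClassGroup (𝓞 K) ⧸ H)) ℂ,
      ‖1 - fχ H ψ s (pI K 𝔭)‖ = 1 - aN K s (pI K 𝔭) := by
    intro ψ
    rw [fχ_apply, h0, AddChar.map_zero_eq_one, one_mul]
    have : (1 : ℂ) - (aN K s (pI K 𝔭) : ℂ) = ((1 - aN K s (pI K 𝔭) : ℝ) : ℂ) := by push_cast; ring
    rw [this, Complex.norm_real, Real.norm_of_nonneg]
    linarith [aN_prime_lt_one hs 𝔭]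
  simp_rw [h1]
  rw [Finset.prod_const, Finset.card_univ, card_addChar_eq_index]

lemma index_pos' : 0 < H.index := by
  have : H.index ≠ 0 := Subgroup.index_ne_zero_of_finite
  omega

/-- Key inequality, multiplicative form. -/
theorem one_le_prod_mul {s : ℝ} (hs : 0 < s) (hA : Summable (aN K s))
    (F₁ : Finset (HeightOneSpectrum (𝓞 K))) (hF₁ : ∀ 𝔭 ∈ F₁, helper34.primeClass K 𝔭 ∈ H) :
    1 ≤ (∏ 𝔭 ∈ F₁, (1 - aN K s (pI K 𝔭)) ^ H.index) *
      ∏ ψ : AddChar (Additive (ClassGroup (𝓞 K) ⧸ H)) ℂ, ‖∑' I, fχ H ψ s I‖ := by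
  classical
  apply le_of_forall_pos_le_add
  intro δ hδ
  have hh : (0 : ℝ) < H.index := by exact_mod_cast index_pos' H
  set ε : ℝ := min (δ / H.index) (1 / 2) with hε_def
  have hε0 : 0 < ε := lt_min (div_pos hδ hh) (by norm_num)
  have hε1 : ε ≤ 1 / 2 := min_le_right _ _
  have hεδ : (H.index : ℝ) * ε ≤ δ := by
    have : ε ≤ δ / H.index := min_le_left _ _
    calc (H.index : ℝ) * ε ≤ H.index * (δ / H.index) := by gcongr
      _ = δ := by field_simp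
  obtain ⟨F₀, hF₀⟩ := exists_finset_tsum_coprime_le (aN K s) (aN_nonneg s) hA ε hε0
  set F := F₀ ∪ F₁ with hF
  have htail := hF₀ F Finset.subset_union_left
  -- lower bound for each character
  have hlow : ∀ ψ : AddChar (Additive (ClassGroup (𝓞 K) ⧸ H)) ℂ,
      1 - ε ≤ ‖∑' I, Set.indicator (coprimeSet K F) (fχ H ψ s) I‖ := by
    intro ψ
    have h1 := norm_tsum_coprime_sub_one_le H ψ hA F
    have h2 : ‖(1 : ℂ)‖ ≤ ‖∑' I, Set.indicator (coprimeSet K F) (fχ H ψ s) I‖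
        + ‖∑' I, Set.indicator (coprimeSet K F) (fχ H ψ s) I - 1‖ := by
      have := norm_sub_le (∑' I, Set.indicator (coprimeSet K F) (fχ H ψ s) I)
        (∑' I, Set.indicator (coprimeSet K F) (fχ H ψ s) I - 1)
      simpa using this
    rw [norm_one] at h2
    linarith
  -- Euler factor removal
  have heul : ∀ ψ : AddChar (Additive (ClassGroup (𝓞 K) ⧸ H)) ℂ,
      ‖∑' I, Set.indicator (coprimeSet K F) (fχ H ψ s) I‖
        = (∏ 𝔭 ∈ F, ‖1 - fχ H ψ s (pI K 𝔭)‖) * ‖∑' I, fχ H ψ s I‖ := by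
    intro ψ
    rw [tsum_indicator_coprimeSet (fχ H ψ s) (summable_fχ H ψ hA) F, norm_mul, norm_prod]
  have hprod_low : (1 - ε) ^ H.index
      ≤ ∏ ψ : AddChar (Additive (ClassGroup (𝓞 K) ⧸ H)) ℂ,
          ‖∑' I, Set.indicator (coprimeSet K F) (fχ H ψ s) I‖ := by
    rw [← card_addChar_eq_index H, ← Finset.card_univ, ← Finset.prod_const]
    apply Finset.prod_le_prod
    · intro ψ _; linarith
    · intro ψ _; exact hlow ψ
  have hbern : 1 - δ ≤ (1 - ε) ^ H.index := by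
    have := one_add_mul_le_pow (show (-2 : ℝ) ≤ -ε by linarith) H.index
    have h3 : (1 : ℝ) + (-ε) = 1 - ε := by ring
    rw [h3] at this
    nlinarith
  have hsplit : ∏ ψ : AddChar (Additive (ClassGroup (𝓞 K) ⧸ H)) ℂ,
          ‖∑' I, Set.indicator (coprimeSet K F) (fχ H ψ s) I‖
      = (∏ 𝔭 ∈ F, ∏ ψ : AddChar (Additive (ClassGroup (𝓞 K) ⧸ H)) ℂ, ‖1 - fχ H ψ s (pI K 𝔭)‖)
        * ∏ ψ : AddChar (Additive (ClassGroup (𝓞 K) ⧸ H)) ℂ, ‖∑' I, fχ H ψ s I‖ := by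
    simp_rw [heul]
    rw [Finset.prod_mul_distrib, Finset.prod_comm]
  have hP0 : 0 ≤ ∏ ψ : AddChar (Additive (ClassGroup (𝓞 K) ⧸ H)) ℂ, ‖∑' I, fχ H ψ s I‖ :=
    Finset.prod_nonneg (fun _ _ => norm_nonneg _)
  have hloc : (∏ 𝔭 ∈ F, ∏ ψ : AddChar (Additive (ClassGroup (𝓞 K) ⧸ H)) ℂ, ‖1 - fχ H ψ s (pI K 𝔭)‖)
      ≤ ∏ 𝔭 ∈ F₁, (1 - aN K s (pI K 𝔭)) ^ H.index := by
    have hsub : F₁ ⊆ F := Finset.subset_union_right
    rw [← Finset.prod_sdiff hsub]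
    have h1 : ∏ 𝔭 ∈ F \ F₁, ∏ ψ : AddChar (Additive (ClassGroup (𝓞 K) ⧸ H)) ℂ, ‖1 - fχ H ψ s (pI K 𝔭)‖ ≤ 1 := by
      apply Finset.prod_le_one
      · intro 𝔭 _; exact Finset.prod_nonneg (fun _ _ => norm_nonneg _)
      · intro 𝔭 _; exact norm_prod_localFactor_le_one H hs 𝔭
    have h2 : ∏ 𝔭 ∈ F₁, ∏ ψ : AddChar (Additive (ClassGroup (𝓞 K) ⧸ H)) ℂ, ‖1 - fχ H ψ s (pI K 𝔭)‖
        = ∏ 𝔭 ∈ F₁, (1 - aN K s (pI K 𝔭)) ^ H.index := by
      apply Finset.prod_congr rfl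
      intro 𝔭 h𝔭
      exact prod_localFactor_of_mem H hs 𝔭 (hF₁ 𝔭 h𝔭)
    rw [h2]
    have h3 : 0 ≤ ∏ 𝔭 ∈ F₁, (1 - aN K s (pI K 𝔭)) ^ H.index := by
      apply Finset.prod_nonneg
      intro 𝔭 _
      apply pow_nonneg
      linarith [aN_prime_lt_one hs 𝔭]
    calc _ ≤ 1 * ∏ 𝔭 ∈ F₁, (1 - aN K s (pI K 𝔭)) ^ H.index := by gcongr
      _ = _ := one_mul _
  calc (1 : ℝ) = (1 - δ) + δ := by ring
    _ ≤ (1 - ε) ^ H.index + δ := by linarith
    _ ≤ (∏ ψ : AddChar (Additive (ClassGroup (𝓞 K) ⧸ H)) ℂ,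
          ‖∑' I, Set.indicator (coprimeSet K F) (fχ H ψ s) I‖) + δ := by linarith
    _ = (∏ 𝔭 ∈ F, ∏ ψ : AddChar (Additive (ClassGroup (𝓞 K) ⧸ H)) ℂ, ‖1 - fχ H ψ s (pI K 𝔭)‖)
        * (∏ ψ : AddChar (Additive (ClassGroup (𝓞 K) ⧸ H)) ℂ, ‖∑' I, fχ H ψ s I‖) + δ := by
          rw [hsplit]
    _ ≤ _ := by gcongr

/-- Key inequality: `exp (h * ∑_{𝔭 ∈ F₁} N𝔭^(-s)) ≤ ∏_χ ‖L(s,χ)‖`. -/
theorem exp_le_prod_norm {s : ℝ} (hs : 0 < s) (hA : Summable (aN K s))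
    (F₁ : Finset (HeightOneSpectrum (𝓞 K))) (hF₁ : ∀ 𝔭 ∈ F₁, helper34.primeClass K 𝔭 ∈ H) :
    Real.exp (H.index * ∑ 𝔭 ∈ F₁, aN K s (pI K 𝔭))
      ≤ ∏ ψ : AddChar (Additive (ClassGroup (𝓞 K) ⧸ H)) ℂ, ‖∑' I, fχ H ψ s I‖ := by
  have h1 := one_le_prod_mul H hs hA F₁ hF₁
  have hP0 : 0 ≤ ∏ ψ : AddChar (Additive (ClassGroup (𝓞 K) ⧸ H)) ℂ, ‖∑' I, fχ H ψ s I‖ :=
    Finset.prod_nonneg (fun _ _ => norm_nonneg _)
  have h2 : (∏ 𝔭 ∈ F₁, (1 - aN K s (pI K 𝔭)) ^ H.index)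
      ≤ Real.exp (-(H.index * ∑ 𝔭 ∈ F₁, aN K s (pI K 𝔭))) := by
    rw [Finset.mul_sum, ← Finset.sum_neg_distrib, Real.exp_sum]
    apply Finset.prod_le_prod
    · intro 𝔭 _
      apply pow_nonneg
      linarith [aN_prime_lt_one hs 𝔭]
    · intro 𝔭 _
      have h3 : 1 - aN K s (pI K 𝔭) ≤ Real.exp (-(aN K s (pI K 𝔭))) := by
        have := Real.add_one_le_exp (-(aN K s (pI K 𝔭)))
        linarith
      have h4 : (0 : ℝ) ≤ 1 - aN K s (pI K 𝔭) := by linarith [aN_prime_lt_one hs 𝔭]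
      calc (1 - aN K s (pI K 𝔭)) ^ H.index ≤ (Real.exp (-(aN K s (pI K 𝔭)))) ^ H.index := by
            gcongr
        _ = Real.exp (-(H.index * aN K s (pI K 𝔭))) := by
            rw [← Real.exp_nat_mul]; ring_nf
  set E := Real.exp (H.index * ∑ 𝔭 ∈ F₁, aN K s (pI K 𝔭)) with hE
  have hE' : Real.exp (-(H.index * ∑ 𝔭 ∈ F₁, aN K s (pI K 𝔭))) = E⁻¹ := by
    rw [hE, Real.exp_neg]
  rw [hE'] at h2
  have hEpos : 0 < E := Real.exp_pos _
  have h5 : 1 ≤ E⁻¹ * ∏ ψ : AddChar (Additive (ClassGroup (𝓞 K) ⧸ H)) ℂ, ‖∑' I, fχ H ψ s I‖ :=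
    h1.trans (by gcongr)
  calc E = E * 1 := (mul_one E).symm
    _ ≤ E * (E⁻¹ * ∏ ψ : AddChar (Additive (ClassGroup (𝓞 K) ⧸ H)) ℂ, ‖∑' I, fχ H ψ s I‖) := by
        gcongr
    _ = _ := by field_simp


/-- summability over all nonzero ideals from summability over each class -/
lemma summable_aN_of_classes {s : ℝ}
    (hsum : ∀ C : ClassGroup (𝓞 K), Summable fun I : {I : (Ideal (𝓞 K))⁰ // ClassGroup.mk0 I = C} =>
      ((Ideal.absNorm (I.1 : Ideal (𝓞 K)) : ℝ)) ^ (-s)) :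
    Summable (aN K s) := by
  have key : Summable (fun x : (Σ C : ClassGroup (𝓞 K),
      {I : (Ideal (𝓞 K))⁰ // ClassGroup.mk0 I = C}) => aN K s x.2.1) := by
    apply (summable_sigma_of_nonneg (fun _ => aN_nonneg _ _)).2
    exact ⟨fun C => hsum C, (hasSum_fintype _).summable⟩
  exact (Equiv.sigmaFiberEquiv
    (ClassGroup.mk0 : (Ideal (𝓞 K))⁰ → ClassGroup (𝓞 K))).summable_iff.1 key

/-- `L(s, χ)` as a finite combination of partial zeta functions -/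
lemma tsum_fχ_eq (ψ : AddChar (Additive (ClassGroup (𝓞 K) ⧸ H)) ℂ) {s : ℝ}
    (hA : Summable (aN K s)) :
    ∑' I, fχ H ψ s I = ∑ C : ClassGroup (𝓞 K),
      ψ (Additive.ofMul ((C : ClassGroup (𝓞 K)) : ClassGroup (𝓞 K) ⧸ H)) *
        (helper34.partialZeta K C s : ℂ) := by
  have h1 := (summable_fχ H ψ hA).hasSum.tsum_fiberwise
    (ClassGroup.mk0 : (Ideal (𝓞 K))⁰ → ClassGroup (𝓞 K))
  have h2 := h1.unique (hasSum_fintype _)
  rw [h2]
  apply Finset.sum_congr rfl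
  intro C _
  have h3 : ∀ I : ((ClassGroup.mk0 : (Ideal (𝓞 K))⁰ → ClassGroup (𝓞 K)) ⁻¹' {C}),
      fχ H ψ s I = ψ (Additive.ofMul ((C : ClassGroup (𝓞 K)) : ClassGroup (𝓞 K) ⧸ H)) *
        ((aN K s I : ℝ) : ℂ) := by
    rintro ⟨I, hI⟩
    have hI' : ClassGroup.mk0 I = C := hI
    rw [fχ_apply]
    unfold clH
    rw [hI']
  rw [tsum_congr h3, tsum_mul_left]
  congr 1
  rw [← Complex.ofReal_tsum]
  rfl

omit [NumberField K] in
lemma sum_addChar_comp_eq_zero {G : Type*} [CommGroup G] [Fintype G] (H' : Subgroup G)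
    (ψ : AddChar (Additive (G ⧸ H')) ℂ) (hψ : ψ ≠ 0) :
    ∑ C : G, ψ (Additive.ofMul ((C : G) : G ⧸ H')) = 0 := by
  classical
  let φ : Additive G →+ Additive (G ⧸ H') := MonoidHom.toAdditive (QuotientGroup.mk' H')
  let ψ' : AddChar (Additive G) ℂ := ψ.compAddMonoidHom φ
  have hψ' : ψ' ≠ 0 := by
    intro h
    apply hψ
    ext x
    obtain ⟨y, hy⟩ := QuotientGroup.mk_surjective (Additive.toMul x)
    have hx : x = Additive.ofMul ((y : G) : G ⧸ H') := by rw [hy]; rfl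
    have h2 : ψ' (Additive.ofMul y) = (0 : AddChar (Additive G) ℂ) (Additive.ofMul y) :=
      DFunLike.congr_fun h (Additive.ofMul y)
    rw [hx]
    rw [AddChar.zero_apply] at h2 ⊢
    exact h2
  have h1 := (AddChar.sum_eq_zero_iff_ne_zero (ψ := ψ')).2 hψ'
  rw [← h1]
  exact Fintype.sum_equiv Additive.ofMul _ _ (fun C => rfl)


lemma partialZeta_nonneg (C : ClassGroup (𝓞 K)) (s : ℝ) : 0 ≤ helper34.partialZeta K C s := by
  unfold helper34.partialZeta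
  exact tsum_nonneg (fun I => Real.rpow_nonneg (Nat.cast_nonneg _) _)

/-- Upper bound for the product of the `L`-functions. -/
theorem exists_bound_prod_norm
    (hAN0 : ∀ C C' : ClassGroup (𝓞 K), ∃ B : ℝ, ∀ s : ℝ, 1 < s → s ≤ 2 →
      |helper34.partialZeta K C s - helper34.partialZeta K C' s| ≤ B)
    (hAN0' : ∀ C : ClassGroup (𝓞 K), ∃ B : ℝ, ∀ s : ℝ, 1 < s → s ≤ 2 →
      helper34.partialZeta K C s ≤ B / (s - 1))
    (hsum : ∀ (C : ClassGroup (𝓞 K)) (s : ℝ), 1 < s →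
      Summable fun I : {I : (Ideal (𝓞 K))⁰ // ClassGroup.mk0 I = C} =>
        ((Ideal.absNorm (I.1 : Ideal (𝓞 K)) : ℝ)) ^ (-s)) :
    ∃ D : ℝ, 1 ≤ D ∧ ∀ s : ℝ, 1 < s → s ≤ 2 →
      ∏ ψ : AddChar (Additive (ClassGroup (𝓞 K) ⧸ H)) ℂ, ‖∑' I, fχ H ψ s I‖ ≤ D / (s - 1) := by
  classical
  choose B₀ hB₀ using fun C => hAN0 C 1
  choose B₁ hB₁ using hAN0'
  set S₀ : ℝ := ∑ C : ClassGroup (𝓞 K), |B₀ C| with hS₀
  set S₁ : ℝ := ∑ C : ClassGroup (𝓞 K), |B₁ C| with hS₁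
  set m : ℕ := ((Finset.univ : Finset (AddChar (Additive (ClassGroup (𝓞 K) ⧸ H)) ℂ)).erase 0).card
    with hm
  refine ⟨max 1 S₁ * (max 1 S₀) ^ m, ?_, ?_⟩
  · have h1 : (1 : ℝ) ≤ max 1 S₁ := le_max_left _ _
    have h2 : (1 : ℝ) ≤ (max 1 S₀) ^ m := one_le_pow₀ (le_max_left _ _)
    calc (1 : ℝ) = 1 * 1 := by ring
      _ ≤ _ := mul_le_mul h1 h2 (by norm_num) (by linarith)
  intro s hs1 hs2
  have hs0 : 0 < s - 1 := by linarith
  have hA : Summable (aN K s) := summable_aN_of_classes (fun C => hsum C s hs1)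
  -- trivial character
  have htriv : ‖∑' I, fχ H (0 : AddChar (Additive (ClassGroup (𝓞 K) ⧸ H)) ℂ) s I‖
      ≤ max 1 S₁ / (s - 1) := by
    rw [tsum_fχ_eq H 0 hA]
    simp only [AddChar.zero_apply, one_mul]
    rw [← Complex.ofReal_sum, Complex.norm_real, Real.norm_of_nonneg
      (Finset.sum_nonneg (fun C _ => partialZeta_nonneg C s))]
    calc ∑ C : ClassGroup (𝓞 K), helper34.partialZeta K C s
        ≤ ∑ C : ClassGroup (𝓞 K), |B₁ C| / (s - 1) := by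
          apply Finset.sum_le_sum
          intro C _
          refine (hB₁ C s hs1 hs2).trans ?_
          gcongr
          exact le_abs_self _
      _ = S₁ / (s - 1) := by rw [hS₁, Finset.sum_div]
      _ ≤ max 1 S₁ / (s - 1) := by gcongr; exact le_max_right _ _
  -- nontrivial characters
  have hnontriv : ∀ ψ : AddChar (Additive (ClassGroup (𝓞 K) ⧸ H)) ℂ, ψ ≠ 0 →
      ‖∑' I, fχ H ψ s I‖ ≤ max 1 S₀ := by
    intro ψ hψ
    rw [tsum_fχ_eq H ψ hA]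
    have h0 := sum_addChar_comp_eq_zero H ψ hψ
    have h1 : ∑ C : ClassGroup (𝓞 K),
        ψ (Additive.ofMul ((C : ClassGroup (𝓞 K)) : ClassGroup (𝓞 K) ⧸ H)) *
          (helper34.partialZeta K C s : ℂ)
        = ∑ C : ClassGroup (𝓞 K),
        ψ (Additive.ofMul ((C : ClassGroup (𝓞 K)) : ClassGroup (𝓞 K) ⧸ H)) *
          ((helper34.partialZeta K C s - helper34.partialZeta K 1 s : ℝ) : ℂ) := by
      have : ∀ C : ClassGroup (𝓞 K),
          ψ (Additive.ofMul ((C : ClassGroup (𝓞 K)) : ClassGroup (𝓞 K) ⧸ H)) *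
          ((helper34.partialZeta K C s - helper34.partialZeta K 1 s : ℝ) : ℂ)
          = ψ (Additive.ofMul ((C : ClassGroup (𝓞 K)) : ClassGroup (𝓞 K) ⧸ H)) *
            (helper34.partialZeta K C s : ℂ)
            - ψ (Additive.ofMul ((C : ClassGroup (𝓞 K)) : ClassGroup (𝓞 K) ⧸ H)) *
              (helper34.partialZeta K 1 s : ℂ) := by
        intro C; push_cast; ring
      simp_rw [this]
      rw [Finset.sum_sub_distrib, ← Finset.sum_mul, h0, zero_mul, sub_zero]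
    rw [h1]
    calc ‖∑ C : ClassGroup (𝓞 K),
        ψ (Additive.ofMul ((C : ClassGroup (𝓞 K)) : ClassGroup (𝓞 K) ⧸ H)) *
          ((helper34.partialZeta K C s - helper34.partialZeta K 1 s : ℝ) : ℂ)‖
        ≤ ∑ C : ClassGroup (𝓞 K), ‖ψ (Additive.ofMul ((C : ClassGroup (𝓞 K)) : ClassGroup (𝓞 K) ⧸ H)) *
          ((helper34.partialZeta K C s - helper34.partialZeta K 1 s : ℝ) : ℂ)‖ := norm_sum_le _ _
      _ ≤ ∑ C : ClassGroup (𝓞 K), |B₀ C| := by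
          apply Finset.sum_le_sum
          intro C _
          rw [norm_mul, AddChar.norm_apply, one_mul, Complex.norm_real, Real.norm_eq_abs]
          exact (hB₀ C s hs1 hs2).trans (le_abs_self _)
      _ ≤ max 1 S₀ := le_max_right _ _
  rw [← Finset.mul_prod_erase Finset.univ _ (Finset.mem_univ (0 : AddChar (Additive (ClassGroup (𝓞 K) ⧸ H)) ℂ))]
  have h3 : ∏ ψ ∈ (Finset.univ : Finset (AddChar (Additive (ClassGroup (𝓞 K) ⧸ H)) ℂ)).erase 0,
      ‖∑' I, fχ H ψ s I‖ ≤ (max 1 S₀) ^ m := by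
    rw [hm, ← Finset.prod_const]
    exact Finset.prod_le_prod (fun _ _ => norm_nonneg _)
      (fun ψ hψ => hnontriv ψ (Finset.ne_of_mem_erase hψ))
  calc _ ≤ (max 1 S₁ / (s - 1)) * (max 1 S₀) ^ m := by
        apply mul_le_mul htriv h3
        · exact Finset.prod_nonneg (fun _ _ => norm_nonneg _)
        · apply div_nonneg _ hs0.le
          exact le_trans (by norm_num) (le_max_left _ _)
    _ = _ := by ring

/-- The basic bound for finite sets of primes with class in `H`. -/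
theorem exists_bound_finset_sum
    (hAN0 : ∀ C C' : ClassGroup (𝓞 K), ∃ B : ℝ, ∀ s : ℝ, 1 < s → s ≤ 2 →
      |helper34.partialZeta K C s - helper34.partialZeta K C' s| ≤ B)
    (hAN0' : ∀ C : ClassGroup (𝓞 K), ∃ B : ℝ, ∀ s : ℝ, 1 < s → s ≤ 2 →
      helper34.partialZeta K C s ≤ B / (s - 1))
    (hsum : ∀ (C : ClassGroup (𝓞 K)) (s : ℝ), 1 < s →
      Summable fun I : {I : (Ideal (𝓞 K))⁰ // ClassGroup.mk0 I = C} =>
        ((Ideal.absNorm (I.1 : Ideal (𝓞 K)) : ℝ)) ^ (-s)) :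
    ∃ B : ℝ, 0 ≤ B ∧ ∀ s : ℝ, 1 < s → s ≤ 2 → ∀ F₁ : Finset (HeightOneSpectrum (𝓞 K)),
      (∀ 𝔭 ∈ F₁, helper34.primeClass K 𝔭 ∈ H) →
      (H.index : ℝ) * ∑ 𝔭 ∈ F₁, (Ideal.absNorm 𝔭.asIdeal : ℝ) ^ (-s)
        ≤ Real.log (1 / (s - 1)) + B := by
  obtain ⟨D, hD1, hD⟩ := exists_bound_prod_norm H hAN0 hAN0' hsum
  refine ⟨Real.log D, Real.log_nonneg hD1, ?_⟩
  intro s hs1 hs2 F₁ hF₁
  have hs0 : 0 < s - 1 := by linarith
  have hA : Summable (aN K s) := summable_aN_of_classes (fun C => hsum C s hs1)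
  have h1 := exp_le_prod_norm H (by linarith : (0 : ℝ) < s) hA F₁ hF₁
  have h2 := h1.trans (hD s hs1 hs2)
  have h3 : (H.index : ℝ) * ∑ 𝔭 ∈ F₁, aN K s (pI K 𝔭) ≤ Real.log (D / (s - 1)) := by
    rw [← Real.log_exp ((H.index : ℝ) * ∑ 𝔭 ∈ F₁, aN K s (pI K 𝔭))]
    exact Real.log_le_log (Real.exp_pos _) h2
  have h4 : Real.log (D / (s - 1)) = Real.log (1 / (s - 1)) + Real.log D := by
    rw [Real.log_div (by linarith) hs0.ne', Real.log_div one_ne_zero hs0.ne', Real.log_one]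
    ring
  rw [h4] at h3
  exact h3


/-- **AN2 (1)**: `h * ∑_{[𝔭] ∈ H} N𝔭^(-s) ≤ log (1/(s-1)) + O(1)`. -/
theorem subgroup_sum_le
    (hAN0 : ∀ C C' : ClassGroup (𝓞 K), ∃ B : ℝ, ∀ s : ℝ, 1 < s → s ≤ 2 →
      |helper34.partialZeta K C s - helper34.partialZeta K C' s| ≤ B)
    (hAN0' : ∀ C : ClassGroup (𝓞 K), ∃ B : ℝ, ∀ s : ℝ, 1 < s → s ≤ 2 →
      helper34.partialZeta K C s ≤ B / (s - 1))
    (hsum : ∀ (C : ClassGroup (𝓞 K)) (s : ℝ), 1 < s →
      Summable fun I : {I : (Ideal (𝓞 K))⁰ // ClassGroup.mk0 I = C} =>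
        ((Ideal.absNorm (I.1 : Ideal (𝓞 K)) : ℝ)) ^ (-s)) :
    ∃ B : ℝ, ∀ s : ℝ, 1 < s → s ≤ 2 →
      (H.index : ℝ) * ∑' 𝔭 : {𝔭 : HeightOneSpectrum (𝓞 K) // helper34.primeClass K 𝔭 ∈ H},
        (Ideal.absNorm 𝔭.1.asIdeal : ℝ) ^ (-s) ≤ Real.log (1 / (s - 1)) + B := by
  classical
  obtain ⟨B, hB0, hB⟩ := exists_bound_finset_sum H hAN0 hAN0' hsum
  refine ⟨B, ?_⟩
  intro s hs1 hs2
  have hh : (0 : ℝ) < H.index := by exact_mod_cast index_pos' H
  have key : ∑' 𝔭 : {𝔭 : HeightOneSpectrum (𝓞 K) // helper34.primeClass K 𝔭 ∈ H},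
        (Ideal.absNorm 𝔭.1.asIdeal : ℝ) ^ (-s) ≤ (Real.log (1 / (s - 1)) + B) / H.index := by
    apply Real.tsum_le_of_sum_le
    · intro 𝔭
      exact Real.rpow_nonneg (Nat.cast_nonneg _) _
    · intro u
      rw [le_div_iff₀ hh, mul_comm]
      have := hB s hs1 hs2 (u.map (Function.Embedding.subtype _)) (by
        intro 𝔭 h𝔭
        rw [Finset.mem_map] at h𝔭
        obtain ⟨x, _, rfl⟩ := h𝔭
        exact x.2)
      rw [Finset.sum_map] at this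
      exact this
  calc _ ≤ (H.index : ℝ) * ((Real.log (1 / (s - 1)) + B) / H.index) := by gcongr
    _ = _ := by field_simp

/-- **AN2 (2)**, with a finite exceptional set: the analytic second inequality. -/
theorem second_inequality' (M : Type*) [Field M] [NumberField M] [Algebra K M]
    (hAN0 : ∀ C C' : ClassGroup (𝓞 K), ∃ B : ℝ, ∀ s : ℝ, 1 < s → s ≤ 2 →
      |helper34.partialZeta K C s - helper34.partialZeta K C' s| ≤ B)
    (hAN0' : ∀ C : ClassGroup (𝓞 K), ∃ B : ℝ, ∀ s : ℝ, 1 < s → s ≤ 2 →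
      helper34.partialZeta K C s ≤ B / (s - 1))
    (hsum : ∀ (C : ClassGroup (𝓞 K)) (s : ℝ), 1 < s →
      Summable fun I : {I : (Ideal (𝓞 K))⁰ // ClassGroup.mk0 I = C} =>
        ((Ideal.absNorm (I.1 : Ideal (𝓞 K)) : ℝ)) ^ (-s))
    (hsplit : ∃ B : ℝ, ∀ s : ℝ, 1 < s → s ≤ 2 →
      |(Module.finrank K M : ℝ) * ∑' 𝔭 : helper34.splitSet K M,
        (Ideal.absNorm 𝔭.1.asIdeal : ℝ) ^ (-s) - Real.log (1 / (s - 1))| ≤ B)
    (T : Finset (HeightOneSpectrum (𝓞 K)))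
    (hH : ∀ 𝔭 ∈ helper34.splitSet K M, 𝔭 ∉ T → helper34.primeClass K 𝔭 ∈ H) :
    H.index ≤ Module.finrank K M := by
  classical
  obtain ⟨B, hB0, hB⟩ := exists_bound_finset_sum H hAN0 hAN0' hsum
  obtain ⟨B', hB'⟩ := hsplit
  by_contra hlt
  rw [not_le] at hlt
  set n := Module.finrank K M with hn
  set h := H.index with hh_def
  have hh : (0 : ℝ) < h := by exact_mod_cast index_pos' H
  have hnh : (n : ℝ) + 1 ≤ h := by exact_mod_cast hlt
  have hB'0 : 0 ≤ B' := by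
    have := hB' 2 (by norm_num) le_rfl
    exact (abs_nonneg _).trans this
  -- the constant
  set C₀ : ℝ := B' * h + n * B + n * h * T.card with hC₀
  have hC₀0 : 0 ≤ C₀ := by positivity
  -- choose s
  set X : ℝ := C₀ + 1 with hX
  have hX0 : 0 < X := by linarith
  set s : ℝ := 1 + Real.exp (-X) with hs
  have hs1 : 1 < s := by rw [hs]; linarith [Real.exp_pos (-X)]
  have hs2 : s ≤ 2 := by
    rw [hs]
    have : Real.exp (-X) ≤ 1 := by rw [Real.exp_le_one_iff]; linarith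
    linarith
  have hlog : Real.log (1 / (s - 1)) = X := by
    rw [hs, add_sub_cancel_left, one_div, ← Real.exp_neg, neg_neg, Real.log_exp]
  -- upper bound for the sum over split primes
  have hup : ∑' 𝔭 : helper34.splitSet K M, (Ideal.absNorm 𝔭.1.asIdeal : ℝ) ^ (-s)
      ≤ (X + B) / h + T.card := by
    apply Real.tsum_le_of_sum_le
    · intro 𝔭
      exact Real.rpow_nonneg (Nat.cast_nonneg _) _
    · intro u
      rw [← Finset.sum_filter_add_sum_filter_not u (fun x : helper34.splitSet K M => x.1 ∉ T)]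
      apply add_le_add
      · rw [le_div_iff₀ hh, mul_comm]
        have := hB s hs1 hs2 ((u.filter (fun x : helper34.splitSet K M => x.1 ∉ T)).map
          (Function.Embedding.subtype _)) (by
            intro 𝔭 h𝔭
            rw [Finset.mem_map] at h𝔭
            obtain ⟨x, hx, rfl⟩ := h𝔭
            rw [Finset.mem_filter] at hx
            exact hH x.1 x.2 hx.2)
        rw [Finset.sum_map, hlog] at this
        exact this
      · calc ∑ x ∈ u.filter (fun x : helper34.splitSet K M => ¬ x.1 ∉ T),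
              (Ideal.absNorm x.1.asIdeal : ℝ) ^ (-s)
            ≤ ∑ x ∈ u.filter (fun x : helper34.splitSet K M => ¬ x.1 ∉ T), (1 : ℝ) := by
              apply Finset.sum_le_sum
              intro x _
              exact (aN_prime_lt_one (by linarith : (0 : ℝ) < s) x.1).le
          _ = ((u.filter (fun x : helper34.splitSet K M => ¬ x.1 ∉ T)).card : ℝ) := by simp
          _ ≤ T.card := by
              norm_cast
              apply Finset.card_le_card_of_injOn (fun x => x.1)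
              · intro x hx
                have hx' := (Finset.mem_filter.mp (Finset.mem_coe.mp hx)).2
                exact Finset.mem_coe.mpr (not_not.mp hx')
              · intro x _ y _ hxy
                exact Subtype.ext hxy
  have hlow := hB' s hs1 hs2
  rw [hlog] at hlow
  have hlow' : X - B' ≤ (n : ℝ) * ∑' 𝔭 : helper34.splitSet K M,
      (Ideal.absNorm 𝔭.1.asIdeal : ℝ) ^ (-s) := by
    have := (abs_le.mp hlow).1
    linarith
  have hn0 : (0 : ℝ) ≤ n := Nat.cast_nonneg _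
  have h1 : X - B' ≤ (n : ℝ) * ((X + B) / h + T.card) := hlow'.trans (by gcongr)
  -- multiply by h
  have h2 : (X - B') * h ≤ n * (X + B) + n * h * T.card := by
    have := mul_le_mul_of_nonneg_right h1 hh.le
    have e : (n : ℝ) * ((X + B) / h + T.card) * h = n * (X + B) + n * h * T.card := by
      field_simp
    rw [e] at this
    exact this
  -- contradiction
  have h3 : X * (h - n) ≤ C₀ := by rw [hC₀]; nlinarith
  have h4 : X ≤ X * (h - n) := by nlinarith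
  linarith

/-- **AN2 (2)**: the analytic second inequality (statement of task 154). -/
theorem second_inequality (M : Type*) [Field M] [NumberField M] [Algebra K M] [IsGalois K M]
    (hAN0 : ∀ C C' : ClassGroup (𝓞 K), ∃ B : ℝ, ∀ s : ℝ, 1 < s → s ≤ 2 →
      |helper34.partialZeta K C s - helper34.partialZeta K C' s| ≤ B)
    (hAN0' : ∀ C : ClassGroup (𝓞 K), ∃ B : ℝ, ∀ s : ℝ, 1 < s → s ≤ 2 →
      helper34.partialZeta K C s ≤ B / (s - 1))
    (hsum : ∀ (C : ClassGroup (𝓞 K)) (s : ℝ), 1 < s →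
      Summable fun I : {I : (Ideal (𝓞 K))⁰ // ClassGroup.mk0 I = C} =>
        ((Ideal.absNorm (I.1 : Ideal (𝓞 K)) : ℝ)) ^ (-s))
    (hsplit : ∃ B : ℝ, ∀ s : ℝ, 1 < s → s ≤ 2 →
      |(Module.finrank K M : ℝ) * ∑' 𝔭 : helper34.splitSet K M,
        (Ideal.absNorm 𝔭.1.asIdeal : ℝ) ^ (-s) - Real.log (1 / (s - 1))| ≤ B)
    (hH : ∀ 𝔭 ∈ helper34.splitSet K M, helper34.primeClass K 𝔭 ∈ H) :
    H.index ≤ Module.finrank K M :=
  second_inequality' H M hAN0 hAN0' hsum hsplit ∅ (fun 𝔭 h𝔭 _ => hH 𝔭 h𝔭)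

end Main

end Fermat.Agent.S14.helper89

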