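import Mathlib

/-!
# Splitting of degree one primes in a Kummer extension (helper97, statement S14, route R2-S)

Let `K ⊆ M` be number fields with `[M : K] = p` prime, `ζ ∈ K` a primitive `p`-th root of unity,
`u ∈ 𝓞 K` not a `p`-th power in `K` and `θ ∈ 𝓞 M` with `θ ^ p = u`.  If `ψ : 𝓞 K →+* ZMod ℓ`
(`ℓ ≠ p`) maps `u` to a nonzero `p`-th power, then `ψ` has `p` distinct extensions to `𝓞 M`.
-/

set_option autoImplicit false

open NumberField Polynomial

namespace Fermat.Agent.S14.helper97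

/-- Extension of a ring homomorphism from a subalgebra `A` of `M` to a ring `S` mapping to `M`,
provided `d • S ⊆ A` for some `d` which is not killed. -/
theorem exists_ringHom_extension_of_smul_mem {R S M F : Type*} [CommRing R] [CommRing S]
    [CommRing M] [Field F] [Algebra R S] [Algebra R M] [Algebra S M] [IsScalarTower R S M]
    (A : Subalgebra R M) (d : R) (hd : ∀ x : S, d • (algebraMap S M x) ∈ A)
    (φ : A →+* F) (hφd : φ (algebraMap R A d) ≠ 0) :
    ∃ Ψ : S →+* F, ∀ (x : S) (hx : algebraMap S M x ∈ A), Ψ x = φ ⟨algebraMap S M x, hx⟩ := by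
  set D : F := φ (algebraMap R A d) with hD
  have key : ∀ (x : S) (hx : algebraMap S M x ∈ A),
      φ ⟨d • (algebraMap S M x), hd x⟩ = D * φ ⟨algebraMap S M x, hx⟩ := by
    intro x hx
    rw [hD, ← map_mul]
    congr 1
    apply Subtype.ext
    simp [Algebra.smul_def]
  have hmul : ∀ x y : S, φ ⟨d • (algebraMap S M x), hd x⟩ * φ ⟨d • (algebraMap S M y), hd y⟩ =
      D * φ ⟨d • (algebraMap S M (x * y)), hd (x * y)⟩ := by
    intro x y
    rw [hD, ← map_mul, ← map_mul]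
    congr 1
    apply Subtype.ext
    simp only [Algebra.smul_def, map_mul, Subalgebra.coe_mul, Subalgebra.coe_algebraMap]
    ring
  refine ⟨{
    toFun := fun x => φ ⟨d • (algebraMap S M x), hd x⟩ * D⁻¹
    map_one' := by
      have h1 : (algebraMap S M 1) ∈ A := by rw [map_one]; exact A.one_mem
      rw [key 1 h1]
      have : (⟨algebraMap S M 1, h1⟩ : A) = 1 := by
        apply Subtype.ext; simp
      rw [this, map_one, mul_one, mul_inv_cancel₀ hφd]
    map_mul' := by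
      intro x y
      have := hmul x y
      field_simp
      rw [this, mul_comm]
    map_zero' := by
      have : (⟨d • (algebraMap S M 0), hd 0⟩ : A) = 0 := by
        apply Subtype.ext; simp
      rw [this, map_zero, zero_mul]
    map_add' := by
      intro x y
      have : (⟨d • (algebraMap S M (x + y)), hd (x + y)⟩ : A) =
          ⟨d • (algebraMap S M x), hd x⟩ + ⟨d • (algebraMap S M y), hd y⟩ := by
        apply Subtype.ext; simp [smul_add]
      rw [this, map_add, add_mul] }, ?_⟩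
  intro x hx
  change φ ⟨d • (algebraMap S M x), hd x⟩ * D⁻¹ = _
  rw [key x hx, mul_comm D, mul_assoc, mul_inv_cancel₀ hφd, mul_one]


section Kummer

variable {K M : Type*} [Field K] [Field M] [Algebra K M]

/-- The minimal polynomial of a `p`-th root of a non-`p`-th power. -/
theorem minpoly_of_pow_eq {p : ℕ} (hp : p.Prime) {a : K} (ha : ¬ ∃ v : K, v ^ p = a) {t : M}
    (ht : t ^ p = algebraMap K M a) : minpoly K t = X ^ p - C a := by
  have hirr : Irreducible (X ^ p - C a : K[X]) :=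
    X_pow_sub_C_irreducible_of_prime hp (fun b hb => ha ⟨b, hb⟩)
  have hmonic : (X ^ p - C a : K[X]).Monic := monic_X_pow_sub_C a hp.ne_zero
  have hroot : aeval t (X ^ p - C a : K[X]) = 0 := by
    simp [ht]
  exact (minpoly.eq_of_irreducible_of_monic hirr hroot hmonic).symm

/-- A `p`-th root of a non-`p`-th power generates an extension of degree `p`. -/
theorem adjoin_eq_top_of_pow_eq {p : ℕ} (hp : p.Prime) (hM : Module.finrank K M = p) {a : K}
    (ha : ¬ ∃ v : K, v ^ p = a) {t : M} (ht : t ^ p = algebraMap K M a) :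
    Algebra.adjoin K {t} = ⊤ := by
  have hs : IsSimpleOrder (Subalgebra K M) :=
    Subalgebra.isSimpleOrder_of_finrank_prime K M (hM ▸ hp)
  rcases hs.eq_bot_or_eq_top (Algebra.adjoin K {t}) with h | h
  · exfalso
    have ht' : t ∈ (⊥ : Subalgebra K M) := h ▸ Algebra.subset_adjoin (Set.mem_singleton t)
    obtain ⟨v, hv⟩ := Algebra.mem_bot.mp ht'
    apply ha
    refine ⟨v, ?_⟩
    apply (algebraMap K M).injective
    rw [map_pow, hv, ht]
  · exact h

/-- The discriminant of the power basis given by a `p`-th root of a non-`p`-th power. -/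
theorem discr_of_pow_eq [FiniteDimensional K M] [Algebra.IsSeparable K M] {p : ℕ} (hp : p.Prime)
    (hM : Module.finrank K M = p) {a : K} (ha : ¬ ∃ v : K, v ^ p = a) {t : M}
    (ht : t ^ p = algebraMap K M a) (B : PowerBasis K M) (hB : B.gen = t) :
    Algebra.discr K B.basis =
      (-1) ^ (p * (p - 1) / 2) * ((p : K) ^ p * ((-1) ^ p * (-a)) ^ (p - 1)) := by
  have hmin : minpoly K B.gen = X ^ p - C a := by
    rw [hB]; exact minpoly_of_pow_eq hp ha ht
  have hdim : B.dim = p := by rw [← hM, B.finrank]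
  have hnorm : Algebra.norm K B.gen = (-1) ^ p * (-a) := by
    rw [Algebra.PowerBasis.norm_gen_eq_coeff_zero_minpoly, hmin, hdim]
    congr 1
    simp [coeff_X_pow, hp.ne_zero.symm]
  rw [Algebra.discr_powerBasis_eq_norm, hM, hmin]
  congr 1
  have hder : derivative (X ^ p - C a : K[X]) = C (p : K) * X ^ (p - 1) := by
    simp [derivative_X_pow]
  rw [hder]
  simp only [map_mul, aeval_C, map_pow, aeval_X, Algebra.norm_algebraMap, hM, hnorm]

end Kummer

/-- The image of a primitive `p`-th root of unity under a ring homomorphism to `ZMod ℓ`,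
`ℓ ≠ p`, is again a primitive `p`-th root of unity. -/
theorem isPrimitiveRoot_map_zmod {R : Type*} [CommRing R] [IsDomain R] {p : ℕ} [hp : Fact p.Prime] {ζ : R}
    (hζ : IsPrimitiveRoot ζ p) {ℓ : ℕ} [Fact ℓ.Prime] (hℓ : ℓ ≠ p) (ψ : R →+* ZMod ℓ) :
    IsPrimitiveRoot (ψ ζ) p := by
  have h1 : ψ ζ ^ p = 1 := by rw [← map_pow, hζ.pow_eq_one, map_one]
  have hsum : ∑ i ∈ Finset.range p, ψ ζ ^ i = 0 := by
    have := hζ.geom_sum_eq_zero hp.out.one_lt
    have h2 := congrArg ψ this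
    simpa [map_sum, map_pow] using h2
  have hne : ψ ζ ≠ 1 := by
    intro h
    rw [h] at hsum
    simp only [one_pow, Finset.sum_const, Finset.card_range, nsmul_eq_mul, mul_one] at hsum
    have hdvd : ℓ ∣ p := (ZMod.natCast_eq_zero_iff p ℓ).mp hsum
    exact hℓ ((Nat.prime_dvd_prime_iff_eq (Fact.out : ℓ.Prime) hp.out).mp hdvd)
  have hord : orderOf (ψ ζ) = p := orderOf_eq_prime h1 hne
  rw [← hord]
  exact IsPrimitiveRoot.orderOf (ψ ζ)

/-- A ring homomorphism to `ZMod ℓ` is determined by its kernel. -/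
theorem ringHom_zmod_eq_of_ker_eq {R : Type*} [CommRing R] {ℓ : ℕ} [NeZero ℓ]
    (f g : R →+* ZMod ℓ) (h : RingHom.ker f = RingHom.ker g) : f = g := by
  ext x
  have h1 : f (x - ((f x).val : R)) = 0 := by
    rw [map_sub, map_natCast, ZMod.natCast_zmod_val, sub_self]
  have h2 : g (x - ((f x).val : R)) = 0 := by
    have : x - ((f x).val : R) ∈ RingHom.ker g := h ▸ (RingHom.mem_ker.mpr h1)
    exact RingHom.mem_ker.mp this
  rw [map_sub, map_natCast, ZMod.natCast_zmod_val, sub_eq_zero] at h2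
  exact h2.symm

section NumberField

variable {K M : Type*} [Field K] [NumberField K] [Field M] [NumberField M] [Algebra K M]

/-- **Splitting in a Kummer extension.** -/
theorem exists_ringHom_extensions (p : ℕ) [hp : Fact p.Prime] {ζ : K}
    (hζ : IsPrimitiveRoot ζ p) (u : 𝓞 K) (hu : ¬ ∃ v : K, v ^ p = (u : K)) (θ : 𝓞 M)
    (hθ : θ ^ p = algebraMap (𝓞 K) (𝓞 M) u) (hM : Module.finrank K M = p)
    {ℓ : ℕ} [Fact ℓ.Prime] (hℓ : ℓ ≠ p) (ψ : 𝓞 K →+* ZMod ℓ) (c : ZMod ℓ)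
    (hc : c ^ p = ψ u) (hc0 : c ≠ 0) :
    ∃ Ψ : Fin p → (𝓞 M →+* ZMod ℓ), Function.Injective Ψ ∧
      ∀ i, (Ψ i).comp (algebraMap (𝓞 K) (𝓞 M)) = ψ := by
  -- the generator as an element of `M`
  have ht : (θ : M) ^ p = algebraMap K M (u : K) := by
    have := congrArg (algebraMap (𝓞 M) M) hθ
    rw [map_pow] at this
    rw [this, ← IsScalarTower.algebraMap_apply, ← IsScalarTower.algebraMap_apply]
  have hintZ : IsIntegral ℤ (θ : M) := RingOfIntegers.isIntegral_coe θ
  have hintK : IsIntegral K (θ : M) := hintZ.tower_top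
  have hintR : IsIntegral (𝓞 K) (θ : M) := hintZ.tower_top
  have htop := adjoin_eq_top_of_pow_eq hp.out hM hu ht
  let B : PowerBasis K M := PowerBasis.ofAdjoinEqTop hintK htop
  have hB : B.gen = (θ : M) := PowerBasis.ofAdjoinEqTop_gen hintK htop
  -- the discriminant
  set d' : 𝓞 K := (-1) ^ (p * (p - 1) / 2) * ((p : 𝓞 K) ^ p * ((-1) ^ p * (-u)) ^ (p - 1))
    with hd'
  have hdd : algebraMap (𝓞 K) K d' = Algebra.discr K B.basis := by
    rw [discr_of_pow_eq hp.out hM hu ht B hB, hd']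
    simp
  have hmem : ∀ x : 𝓞 M, d' • (algebraMap (𝓞 M) M x) ∈ Algebra.adjoin (𝓞 K) {(θ : M)} := by
    intro x
    have hx : IsIntegral (𝓞 K) (algebraMap (𝓞 M) M x) :=
      (RingOfIntegers.isIntegral_coe x).tower_top
    have := Algebra.discr_mul_isIntegral_mem_adjoin K (hB ▸ hintR) hx
    rw [← hdd, algebraMap_smul, hB] at this
    exact this
  have hψp : ψ (p : 𝓞 K) ≠ 0 := by
    rw [map_natCast]
    intro h0
    have hdvd : ℓ ∣ p := (ZMod.natCast_eq_zero_iff p ℓ).mp h0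
    exact hℓ ((Nat.prime_dvd_prime_iff_eq (Fact.out : ℓ.Prime) hp.out).mp hdvd)
  have hψu : ψ u ≠ 0 := by rw [← hc]; exact pow_ne_zero _ hc0
  have hψd : ψ d' ≠ 0 := by
    rw [hd']
    simp only [map_mul, map_pow, map_neg, map_one]
    refine mul_ne_zero (pow_ne_zero _ (by simp)) (mul_ne_zero (pow_ne_zero _ hψp)
      (pow_ne_zero _ (mul_ne_zero (pow_ne_zero _ (by simp)) (neg_ne_zero.mpr hψu))))
  -- the primitive root of unity in `ZMod ℓ`
  set ζ' : 𝓞 K := hζ.toInteger with hζ'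
  have hζ'prim : IsPrimitiveRoot ζ' p := hζ.toInteger_isPrimitiveRoot
  have hz : IsPrimitiveRoot (ψ ζ') p := isPrimitiveRoot_map_zmod hζ'prim hℓ ψ
  -- the minimal polynomial over `𝓞 K`
  have hminR : minpoly (𝓞 K) (θ : M) = X ^ p - C u := by
    have h1 := minpoly.isIntegrallyClosed_eq_field_fractions' K hintR
    rw [minpoly_of_pow_eq hp.out hu ht] at h1
    have h2 : (X ^ p - C (u : K) : K[X]) = (X ^ p - C u : (𝓞 K)[X]).map (algebraMap (𝓞 K) K) := by
      simp
    rw [h2] at h1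
    exact (Polynomial.map_injective _ RingOfIntegers.coe_injective h1).symm
  -- ring homomorphisms on `𝓞 K [θ]`
  let e := minpoly.equivAdjoin hintR
  have hroot : ∀ i : ℕ, (minpoly (𝓞 K) (θ : M)).eval₂ ψ (c * ψ ζ' ^ i) = 0 := by
    intro i
    rw [hminR]
    simp only [eval₂_sub, eval₂_pow, eval₂_X, eval₂_C]
    rw [mul_pow, ← pow_mul, mul_comm i p, pow_mul, hz.pow_eq_one, one_pow, mul_one, hc, sub_self]
  let φ : ℕ → (Algebra.adjoin (𝓞 K) {(θ : M)} →+* ZMod ℓ) := fun i =>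
    (AdjoinRoot.lift ψ (c * ψ ζ' ^ i) (hroot i)).comp (e.symm : _ →+* _)
  have hφalg : ∀ i (r : 𝓞 K), φ i (algebraMap (𝓞 K) _ r) = ψ r := by
    intro i r
    change (AdjoinRoot.lift ψ (c * ψ ζ' ^ i) (hroot i)) (e.symm (algebraMap (𝓞 K) _ r)) = ψ r
    rw [AlgEquiv.commutes, AdjoinRoot.algebraMap_eq, AdjoinRoot.lift_of]
  have hθmem : (θ : M) ∈ Algebra.adjoin (𝓞 K) {(θ : M)} :=
    Algebra.subset_adjoin (Set.mem_singleton _)
  have hφθ : ∀ i, φ i ⟨(θ : M), hθmem⟩ = c * ψ ζ' ^ i := by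
    intro i
    have h1 : e (AdjoinRoot.root (minpoly (𝓞 K) (θ : M))) = ⟨(θ : M), hθmem⟩ := by
      apply Subtype.ext
      exact AdjoinRoot.Minpoly.coe_toAdjoin_mk_X
    have h2 : e.symm ⟨(θ : M), hθmem⟩ = AdjoinRoot.root (minpoly (𝓞 K) (θ : M)) := by
      rw [← h1, AlgEquiv.symm_apply_apply]
    change (AdjoinRoot.lift ψ (c * ψ ζ' ^ i) (hroot i)) (e.symm ⟨(θ : M), hθmem⟩) = _
    rw [h2, AdjoinRoot.lift_root]
  -- extension to `𝓞 M`
  have hext : ∀ i : ℕ, ∃ Ψ : 𝓞 M →+* ZMod ℓ, ∀ (x : 𝓞 M)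
      (hx : algebraMap (𝓞 M) M x ∈ Algebra.adjoin (𝓞 K) {(θ : M)}),
      Ψ x = φ i ⟨algebraMap (𝓞 M) M x, hx⟩ := by
    intro i
    refine exists_ringHom_extension_of_smul_mem (Algebra.adjoin (𝓞 K) {(θ : M)}) d' hmem (φ i) ?_
    rw [hφalg]; exact hψd
  choose Ψ hΨ using hext
  refine ⟨fun i => Ψ i, ?_, ?_⟩
  · intro i j hij
    have h1 : Ψ i θ = Ψ j θ := by
      have := congrArg (fun f : 𝓞 M →+* ZMod ℓ => f θ) hij
      exact this
    rw [hΨ i θ hθmem, hΨ j θ hθmem, hφθ, hφθ] at h1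
    have h2 : ψ ζ' ^ (i : ℕ) = ψ ζ' ^ (j : ℕ) := mul_left_cancel₀ hc0 h1
    exact Fin.ext (hz.pow_inj i.2 j.2 h2)
  · intro i
    ext r
    have hmemr : algebraMap (𝓞 M) M (algebraMap (𝓞 K) (𝓞 M) r) ∈
        Algebra.adjoin (𝓞 K) {(θ : M)} := by
      rw [← IsScalarTower.algebraMap_apply]
      exact Subalgebra.algebraMap_mem _ r
    rw [RingHom.comp_apply, hΨ i _ hmemr]
    have : (⟨algebraMap (𝓞 M) M (algebraMap (𝓞 K) (𝓞 M) r), hmemr⟩ :
        Algebra.adjoin (𝓞 K) {(θ : M)}) = algebraMap (𝓞 K) _ r := by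
      apply Subtype.ext
      exact (IsScalarTower.algebraMap_apply (𝓞 K) (𝓞 M) M r).symm
    rw [this, hφalg]

/-- **Splitting in a Kummer extension**, in terms of prime ideals: there are `p` distinct
maximal ideals of `𝓞 M` of norm `ℓ` above the kernel of `ψ`. -/
theorem exists_primes_over (p : ℕ) [hp : Fact p.Prime] {ζ : K}
    (hζ : IsPrimitiveRoot ζ p) (u : 𝓞 K) (hu : ¬ ∃ v : K, v ^ p = (u : K)) (θ : 𝓞 M)
    (hθ : θ ^ p = algebraMap (𝓞 K) (𝓞 M) u) (hM : Module.finrank K M = p)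
    {ℓ : ℕ} [Fact ℓ.Prime] (hℓ : ℓ ≠ p) (ψ : 𝓞 K →+* ZMod ℓ) (c : ZMod ℓ)
    (hc : c ^ p = ψ u) (hc0 : c ≠ 0) :
    ∃ P : Fin p → Ideal (𝓞 M), Function.Injective P ∧
      ∀ i, (P i).IsMaximal ∧ Ideal.absNorm (P i) = ℓ ∧
        (P i).comap (algebraMap (𝓞 K) (𝓞 M)) = RingHom.ker ψ := by
  obtain ⟨Ψ, hinj, hcomp⟩ := exists_ringHom_extensions p hζ u hu θ hθ hM hℓ ψ c hc hc0
  have hsurj : ∀ i, Function.Surjective (Ψ i) := fun i => ZMod.ringHom_surjective (Ψ i)
  refine ⟨fun i => RingHom.ker (Ψ i), ?_, ?_⟩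
  · intro i j hij
    exact hinj (ringHom_zmod_eq_of_ker_eq (Ψ i) (Ψ j) hij)
  · intro i
    refine ⟨RingHom.ker_isMaximal_of_surjective (Ψ i) (hsurj i), ?_, ?_⟩
    · rw [Ideal.absNorm_apply, Submodule.cardQuot_apply]
      have e := RingHom.quotientKerEquivOfSurjective (hsurj i)
      rw [Nat.card_congr e.toEquiv, Nat.card_eq_fintype_card, ZMod.card]
    · change Ideal.comap (algebraMap (𝓞 K) (𝓞 M)) (RingHom.ker (Ψ i)) = RingHom.ker ψ
      rw [RingHom.comap_ker, hcomp i]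

end NumberField

end Fermat.Agent.S14.helper97
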