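import Mathlib
import Fermat.Agent.S14.helper34_AN0Final
import Fermat.Agent.S14.helper89_SecondIneq
import Fermat.Agent.S14.helper97_KummerSplit
import Fermat.Agent.S14.helper40_DegreeTwo

/-!
# S14, route R2, Theorem G (helper40)

Let `K` be a number field containing a primitive `p`-th root of unity (`p` an odd prime) and let
`u ∈ 𝓞 K` be an element which is not a `p`-th power in `K`.  Then the classes of the primes of
degree one (kernels of ring homomorphisms `ψ : 𝓞 K →+* ZMod ℓ`, `ℓ ≠ p`) at which `u` is not a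
`p`-th power residue generate the class group of `K`:

* `classGroup_eq_top_of_nonresidue_primes`.

The proof is analytic.  If a proper subgroup `H` contained all these classes, there would be a
non trivial character `χ` of `Cl / H`; its `L`-function is bounded on `(1, 2]`
(`helper34.partialZeta_sub_bounded`), while the Euler product gives
`|L(s, χ)|⁻¹ ≤ exp (- ∑_P N(P)^(-s) + 2 ∑_{[P] ∉ H} N(P)^(-s))`.  The primes with `[P] ∉ H` are,
up to a set with bounded contribution, primes of degree one at which `u` is a `p`-th power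
residue; each of them has `p` primes of norm `N(P)` above it in `M = K(u^(1/p))`
(`helper97.exists_primes_over`), so `∑_{[P] ∉ H} N(P)^(-s) ≤ (1/p) log ζ_M(s) + O(1)`.  Hence
`|L(s, χ)|⁻¹ ≤ C (s - 1)^(1 - 2/p) → 0` as `s → 1⁺`, a contradiction.
-/

set_option autoImplicit false
set_option linter.unusedSectionVars false
set_option linter.unusedVariables false

open NumberField Ideal Filter Topology IsDedekindDomain Polynomial
open scoped nonZeroDivisors Classical

universe u

namespace Fermat.Agent.S14.helper40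

section sets

variable (K : Type u) [Field K] [NumberField K]

/-- The primes whose class does not lie in `H`. -/
def badSet (H : Subgroup (ClassGroup (𝓞 K))) : Set (HeightOneSpectrum (𝓞 K)) :=
  {P | ClassGroup.mk0 (primeNZD P) ∉ H}

/-- The primes of degree one, of residue characteristic `≠ p`, at which `u` is a nonzero
`p`-th power residue. -/
def residueSet (p : ℕ) (u : 𝓞 K) : Set (HeightOneSpectrum (𝓞 K)) :=
  {P | ∃ (ℓ : ℕ) (_ : Fact ℓ.Prime) (ψ : 𝓞 K →+* ZMod ℓ) (c : ZMod ℓ),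
      ℓ ≠ p ∧ RingHom.ker ψ = P.asIdeal ∧ absNorm P.asIdeal = ℓ ∧ c ≠ 0 ∧ c ^ p = ψ u}

/-- The primes which are not of degree one. -/
def degTwoSet : Set (HeightOneSpectrum (𝓞 K)) :=
  {P | ¬ (absNorm P.asIdeal).Prime}

/-- The finite exceptional set: primes of norm `p` and primes containing `u`. -/
def excSet (p : ℕ) (u : 𝓞 K) : Set (HeightOneSpectrum (𝓞 K)) :=
  {P | absNorm P.asIdeal = p} ∪ {P | u ∈ P.asIdeal}

theorem finite_excSet (p : ℕ) (u : 𝓞 K) (hu : u ≠ 0) : (excSet K p u).Finite := by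
  refine Set.Finite.union ?_ ?_
  · have h := Ideal.finite_setOfPred_absNorm_eq (S := 𝓞 K) p
    have hinj : Function.Injective (fun P : HeightOneSpectrum (𝓞 K) => P.asIdeal) :=
      fun P Q hPQ => HeightOneSpectrum.ext hPQ
    exact h.preimage (hinj.injOn)
  · have hI : Ideal.span {u} ≠ (0 : Ideal (𝓞 K)) := by
      rw [Ne, Ideal.zero_eq_bot, Ideal.span_singleton_eq_bot]
      exact hu
    refine (Ideal.finite_factors hI).subset ?_
    intro P hP
    exact Ideal.dvd_span_singleton.mpr hP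

end sets

section character

variable {K : Type u} [Field K] [NumberField K]

/-- A proper subgroup of the class group is killed by a nontrivial character. -/
theorem exists_addChar_ne_zero (H : Subgroup (ClassGroup (𝓞 K))) (hH : H ≠ ⊤) :
    ∃ ψ : AddChar (Additive (ClassGroup (𝓞 K) ⧸ H)) ℂ, ψ ≠ 0 := by
  obtain ⟨x, hx⟩ : ∃ x : ClassGroup (𝓞 K), x ∉ H := by
    by_contra h
    exact hH (eq_top_iff.mpr fun x _ => by_contra fun hx => h ⟨x, hx⟩)
  have ha : Additive.ofMul ((x : ClassGroup (𝓞 K)) : ClassGroup (𝓞 K) ⧸ H) ≠ 0 := by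
    intro h
    apply hx
    have h2 : ((x : ClassGroup (𝓞 K)) : ClassGroup (𝓞 K) ⧸ H) = 1 := h
    exact (QuotientGroup.eq_one_iff x).mp h2
  obtain ⟨ψ, hψ⟩ := AddChar.exists_apply_ne_zero.mpr ha
  refine ⟨ψ, fun h => hψ ?_⟩
  rw [h, AddChar.zero_apply]

theorem summable_aN {s : ℝ} (hs : 1 < s) : Summable (helper89.aN K s) :=
  (summable_absNorm_rpow K hs).congr fun _ => rfl

/-- The `L`-function of a nontrivial character of `Cl / H` is bounded on `(1, 2]`. -/
theorem exists_bound_norm_tsum (H : Subgroup (ClassGroup (𝓞 K)))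
    (ψ : AddChar (Additive (ClassGroup (𝓞 K) ⧸ H)) ℂ) (hψ : ψ ≠ 0) :
    ∃ B : ℝ, 0 < B ∧ ∀ s : ℝ, 1 < s → s ≤ 2 → ‖∑' I, helper89.fχ H ψ s I‖ ≤ B := by
  choose B₀ hB₀ using fun C => helper34.partialZeta_sub_bounded K C 1
  refine ⟨max 1 (∑ C : ClassGroup (𝓞 K), |B₀ C|), lt_of_lt_of_le one_pos (le_max_left _ _), ?_⟩
  intro s hs1 hs2
  have hA : Summable (helper89.aN K s) := summable_aN hs1
  rw [helper89.tsum_fχ_eq H ψ hA]
  have h0 := helper89.sum_addChar_comp_eq_zero H ψ hψ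
  have h1 : ∑ C : ClassGroup (𝓞 K),
      ψ (Additive.ofMul ((C : ClassGroup (𝓞 K)) : ClassGroup (𝓞 K) ⧸ H)) *
        (helper34.partialZeta K C s : ℂ)
      = ∑ C : ClassGroup (𝓞 K),
      ψ (Additive.ofMul ((C : ClassGroup (𝓞 K)) : ClassGroup (𝓞 K) ⧸ H)) *
        ((helper34.partialZeta K C s - helper34.partialZeta K 1 s : ℝ) : ℂ) := by
    have : ∀ C : ClassGroup (𝓞 K),
        ψ (Additive.ofMul ((C : ClassGroup (𝓞 K)) : ClassGroup (𝓞 K) ⧸ H)) *
        ((helper34.partialZeta K C s - helper34.partialZeta K 1 s : ℝ) : ℂ)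
        = ψ (Additive.ofMul ((C : ClassGroup (𝓞 K)) : ClassGroup (𝓞 K) ⧸ H)) *
          (helper34.partialZeta K C s : ℂ)
          - ψ (Additive.ofMul ((C : ClassGroup (𝓞 K)) : ClassGroup (𝓞 K) ⧸ H)) *
            (helper34.partialZeta K 1 s : ℂ) := by
      intro C; push_cast; ring
    simp_rw [this]
    rw [Finset.sum_sub_distrib, ← Finset.sum_mul, h0, zero_mul, sub_zero]
  rw [h1]
  calc ‖∑ C : ClassGroup (𝓞 K),
      ψ (Additive.ofMul ((C : ClassGroup (𝓞 K)) : ClassGroup (𝓞 K) ⧸ H)) *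
        ((helper34.partialZeta K C s - helper34.partialZeta K 1 s : ℝ) : ℂ)‖
      ≤ ∑ C : ClassGroup (𝓞 K),
        ‖ψ (Additive.ofMul ((C : ClassGroup (𝓞 K)) : ClassGroup (𝓞 K) ⧸ H)) *
        ((helper34.partialZeta K C s - helper34.partialZeta K 1 s : ℝ) : ℂ)‖ := norm_sum_le _ _
    _ ≤ ∑ C : ClassGroup (𝓞 K), |B₀ C| := by
        apply Finset.sum_le_sum
        intro C _
        rw [norm_mul, AddChar.norm_apply, one_mul, Complex.norm_real, Real.norm_eq_abs]
        exact (hB₀ C s hs1 hs2).trans (le_abs_self _)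
    _ ≤ max 1 (∑ C : ClassGroup (𝓞 K), |B₀ C|) := le_max_right _ _

theorem aN_primeNZD (s : ℝ) (P : HeightOneSpectrum (𝓞 K)) :
    helper89.aN K s (primeNZD P) = pterm K s P := rfl

theorem summable_norm_fχ (H : Subgroup (ClassGroup (𝓞 K)))
    (ψ : AddChar (Additive (ClassGroup (𝓞 K) ⧸ H)) ℂ) {s : ℝ} (hs : 1 < s) :
    Summable fun I => ‖helper89.fχ H ψ s I‖ :=
  (summable_aN hs).congr fun I => (helper89.norm_fχ H ψ s I).symm

theorem tsum_fχ_ne_zero (H : Subgroup (ClassGroup (𝓞 K)))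
    (ψ : AddChar (Additive (ClassGroup (𝓞 K) ⧸ H)) ℂ) {s : ℝ} (hs : 1 < s) :
    ∑' I, helper89.fχ H ψ s I ≠ 0 :=
  tsum_ne_zero_of_mul (F := fun I => helper89.fχ H ψ s I) (map_one _)
    (fun I J => map_mul _ I J) (summable_norm_fχ H ψ hs)

/-- The Euler product bound `(★)`. -/
theorem inv_norm_tsum_fχ_le (H : Subgroup (ClassGroup (𝓞 K)))
    (ψ : AddChar (Additive (ClassGroup (𝓞 K) ⧸ H)) ℂ) {s : ℝ} (hs : 1 < s) :
    ‖∑' I, helper89.fχ H ψ s I‖⁻¹ ≤
      Real.exp (-primeSum K s + 2 * ∑' P, (badSet K H).indicator (pterm K s) P) := by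
  have hsumP := summable_pterm K hs
  have hsumI : Summable fun P => (badSet K H).indicator (pterm K s) P := hsumP.indicator _
  have ha : Summable fun P => -pterm K s P + 2 * (badSet K H).indicator (pterm K s) P :=
    hsumP.neg.add (hsumI.mul_left 2)
  have h := inv_norm_tsum_le_exp (F := fun I => helper89.fχ H ψ s I) (map_one _)
    (fun I J => map_mul _ I J) (summable_norm_fχ H ψ hs)
    (fun P => -pterm K s P + 2 * (badSet K H).indicator (pterm K s) P) ha ?_
  · have e : ∑' P, (-pterm K s P + 2 * (badSet K H).indicator (pterm K s) P) =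
        -primeSum K s + 2 * ∑' P, (badSet K H).indicator (pterm K s) P := by
      rw [hsumP.neg.tsum_add (hsumI.mul_left 2), tsum_neg, tsum_mul_left]
      rfl
    rw [e] at h
    exact h
  · intro P
    have hx0 : 0 ≤ pterm K s P := (pterm_pos K s P).le
    have hx1 : pterm K s P ≤ 1 / 2 := pterm_le_half K hs.le P
    show ‖1 - helper89.fχ H ψ s (primeNZD P)‖ ≤ _
    rw [helper89.fχ_apply, aN_primeNZD]
    by_cases hP : ClassGroup.mk0 (primeNZD P) ∈ H
    · have h0 : helper89.clH H (primeNZD P) = 0 := (helper89.clH_eq_zero_iff H _).mpr hP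
      have hnot : P ∉ badSet K H := fun h => h hP
      rw [h0, AddChar.map_zero_eq_one, one_mul, Set.indicator_of_notMem hnot, mul_zero, add_zero]
      have : (1 : ℂ) - ((pterm K s P : ℝ) : ℂ) = ((1 - pterm K s P : ℝ) : ℂ) := by push_cast; rfl
      rw [this, Complex.norm_real, Real.norm_of_nonneg (by linarith)]
      exact Real.one_sub_le_exp_neg _
    · have hmem : P ∈ badSet K H := hP
      rw [Set.indicator_of_mem hmem]
      have h1 : ‖1 - ψ (helper89.clH H (primeNZD P)) * ((pterm K s P : ℝ) : ℂ)‖ ≤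
          1 + pterm K s P := by
        refine (norm_sub_le _ _).trans ?_
        rw [norm_one, norm_mul, AddChar.norm_apply, one_mul, Complex.norm_real,
          Real.norm_of_nonneg hx0]
      refine h1.trans ?_
      have h2 := Real.add_one_le_exp (pterm K s P)
      have h3 : -pterm K s P + 2 * pterm K s P = pterm K s P := by ring
      rw [h3]
      linarith

end character

section kummer

variable (K : Type u) [Field K] [NumberField K]

/-- A `p`-th root of `u` in a number field `M ⊇ K` is an algebraic integer. -/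
theorem exists_integer_root (p : ℕ) (hp : 0 < p) (u : 𝓞 K) (M : Type u) [Field M]
    [NumberField M] [Algebra K M] (r : M) (hr : r ^ p = algebraMap K M (u : K)) :
    ∃ θ : 𝓞 M, θ ^ p = algebraMap (𝓞 K) (𝓞 M) u := by
  have hint : IsIntegral ℤ r := by
    refine IsIntegral.of_pow hp ?_
    rw [hr]
    exact (RingOfIntegers.isIntegral_coe u).algebraMap
  refine ⟨⟨r, hint⟩, ?_⟩
  apply RingOfIntegers.ext
  show algebraMap (𝓞 M) M (⟨r, hint⟩ ^ p) = algebraMap (𝓞 M) M (algebraMap (𝓞 K) (𝓞 M) u)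
  rw [map_pow, RingOfIntegers.map_mk, hr, ← IsScalarTower.algebraMap_apply,
    ← IsScalarTower.algebraMap_apply]

/-- The Kummer extension `K(u^(1/p))` as a number field, with a `p`-th root of `u` in its ring
of integers. -/
theorem exists_kummer_field (p : ℕ) [hp : Fact p.Prime] (u : 𝓞 K)
    (hu : ¬ ∃ v : K, v ^ p = (u : K)) :
    ∃ (M : Type u) (_ : Field M) (_ : NumberField M) (_ : Algebra K M) (θ : 𝓞 M),
      Module.finrank K M = p ∧ θ ^ p = algebraMap (𝓞 K) (𝓞 M) u := by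
  have hirr : Irreducible (X ^ p - C (u : K) : K[X]) :=
    X_pow_sub_C_irreducible_of_prime hp.out (fun b hb => hu ⟨b, hb⟩)
  haveI : Fact (Irreducible (X ^ p - C (u : K) : K[X])) := ⟨hirr⟩
  have hne : (X ^ p - C (u : K) : K[X]) ≠ 0 := hirr.ne_zero
  haveI : Module.Finite K (AdjoinRoot (X ^ p - C (u : K) : K[X])) :=
    (AdjoinRoot.powerBasis hne).finite
  haveI : NumberField (AdjoinRoot (X ^ p - C (u : K) : K[X])) :=
    NumberField.of_module_finite K _
  have hroot : (AdjoinRoot.root (X ^ p - C (u : K) : K[X])) ^ p =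
      algebraMap K (AdjoinRoot (X ^ p - C (u : K) : K[X])) (u : K) := by
    have h := AdjoinRoot.eval₂_root (X ^ p - C (u : K) : K[X])
    rw [eval₂_sub, eval₂_pow, eval₂_X, eval₂_C, sub_eq_zero] at h
    exact h
  obtain ⟨θ, hθ⟩ := exists_integer_root K p hp.out.pos u
    (AdjoinRoot (X ^ p - C (u : K) : K[X])) _ hroot
  refine ⟨AdjoinRoot (X ^ p - C (u : K) : K[X]), inferInstance, inferInstance, inferInstance,
    θ, ?_, hθ⟩
  rw [(AdjoinRoot.powerBasis hne).finrank, AdjoinRoot.powerBasis_dim,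
    natDegree_X_pow_sub_C]

variable {K}

/-- Each prime of `residueSet` has `p` primes of the same norm above it in `M`. -/
theorem mul_tsum_indicator_residueSet_le (p : ℕ) [hp : Fact p.Prime] {ζ : K}
    (hζ : IsPrimitiveRoot ζ p) (u : 𝓞 K) (hu : ¬ ∃ v : K, v ^ p = (u : K))
    {M : Type u} [Field M] [NumberField M] [Algebra K M] (θ : 𝓞 M)
    (hθ : θ ^ p = algebraMap (𝓞 K) (𝓞 M) u) (hM : Module.finrank K M = p)
    {s : ℝ} (hs : 1 < s) :
    (p : ℝ) * ∑' P, (residueSet K p u).indicator (pterm K s) P ≤ primeSum M s := by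
  have key : ∀ P : residueSet K p u, ∃ Q : Fin p → HeightOneSpectrum (𝓞 M),
      Function.Injective Q ∧ ∀ i, absNorm (Q i).asIdeal = absNorm P.1.asIdeal ∧
        (Q i).asIdeal.comap (algebraMap (𝓞 K) (𝓞 M)) = P.1.asIdeal := by
    rintro ⟨P, ℓ, hℓ, ψ, c, hℓp, hker, hnorm, hc0, hc⟩
    haveI := hℓ
    obtain ⟨Q, hQinj, hQ⟩ := helper97.exists_primes_over p hζ u hu θ hθ hM hℓp ψ c hc hc0
    have hne : ∀ i, Q i ≠ ⊥ := by
      intro i h
      have := (hQ i).2.1
      rw [h, Ideal.absNorm_bot] at this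
      exact hℓ.out.ne_zero this.symm
    refine ⟨fun i => ⟨Q i, (hQ i).1.isPrime, hne i⟩, ?_, ?_⟩
    · intro i j hij
      exact hQinj (congrArg HeightOneSpectrum.asIdeal hij)
    · intro i
      exact ⟨(hQ i).2.1.trans hnorm.symm, (hQ i).2.2.trans hker⟩
  choose Q hQinj hQ using key
  have hg : Function.Injective (fun x : residueSet K p u × Fin p => Q x.1 x.2) := by
    rintro ⟨P, i⟩ ⟨P', j⟩ h
    have h1 : P.1.asIdeal = P'.1.asIdeal := by
      rw [← (hQ P i).2, ← (hQ P' j).2]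
      exact congrArg (fun R : HeightOneSpectrum (𝓞 M) =>
        R.asIdeal.comap (algebraMap (𝓞 K) (𝓞 M))) h
    have h2 : P = P' := Subtype.ext (HeightOneSpectrum.ext h1)
    subst h2
    have h3 : i = j := hQinj P h
    rw [h3]
  have hsumM := summable_pterm M hs
  have h1 := tsum_comp_le_tsum_of_inj hsumM (fun Q => (pterm_pos M s Q).le) hg
  have h2 : (pterm M s) ∘ (fun x : residueSet K p u × Fin p => Q x.1 x.2) =
      fun x : residueSet K p u × Fin p => pterm K s x.1.1 := by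
    funext x
    simp only [Function.comp_apply, pterm]
    rw [(hQ x.1 x.2).1]
  have hsum : Summable fun x : residueSet K p u × Fin p => pterm K s x.1.1 := by
    rw [← h2]
    exact hsumM.comp_injective hg
  rw [h2, hsum.tsum_prod] at h1
  have h3 : ∀ P : residueSet K p u, ∑' (_ : Fin p), pterm K s P.1 = (p : ℝ) * pterm K s P.1 := by
    intro P
    rw [tsum_fintype, Finset.sum_const, Finset.card_univ, Fintype.card_fin, nsmul_eq_mul]
  rw [tsum_congr h3, tsum_mul_left, tsum_subtype (residueSet K p u) (pterm K s)] at h1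
  exact h1

end kummer

section decomposition

variable {K : Type u} [Field K] [NumberField K]

/-- A prime of degree one is the kernel of a ring homomorphism to `ZMod ℓ`. -/
theorem exists_ringHom_zmod_of_prime_absNorm (P : HeightOneSpectrum (𝓞 K)) {ℓ : ℕ}
    (hℓ : ℓ.Prime) (hP : absNorm P.asIdeal = ℓ) :
    ∃ ψ : 𝓞 K →+* ZMod ℓ, RingHom.ker ψ = P.asIdeal := by
  have hcard : Nat.card (𝓞 K ⧸ P.asIdeal) = ℓ := by
    rw [← hP, Ideal.absNorm_apply, Submodule.cardQuot_apply]
  haveI : Finite (𝓞 K ⧸ P.asIdeal) := Nat.finite_of_card_ne_zero (hcard ▸ hℓ.ne_zero)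
  letI : Fintype (𝓞 K ⧸ P.asIdeal) := Fintype.ofFinite _
  have hcard' : Fintype.card (𝓞 K ⧸ P.asIdeal) = ℓ := by
    rw [← Nat.card_eq_fintype_card, hcard]
  let e : ZMod ℓ ≃+* (𝓞 K ⧸ P.asIdeal) := ZMod.ringEquivOfPrime _ hℓ hcard'
  refine ⟨(e.symm : (𝓞 K ⧸ P.asIdeal) →+* ZMod ℓ).comp (Ideal.Quotient.mk P.asIdeal), ?_⟩
  ext x
  rw [RingHom.mem_ker, RingHom.comp_apply, RingHom.coe_coe, map_eq_zero_iff _ e.symm.injective,
    Ideal.Quotient.eq_zero_iff_mem]

theorem badSet_subset (p : ℕ) [hp : Fact p.Prime] (u : 𝓞 K) (H : Subgroup (ClassGroup (𝓞 K)))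
    (hH : ∀ (ℓ : ℕ) [Fact ℓ.Prime] (ψ : 𝓞 K →+* ZMod ℓ), ℓ ≠ p →
      (¬ ∃ c : ZMod ℓ, c ^ p = ψ u) →
      ∀ h : RingHom.ker ψ ∈ (Ideal (𝓞 K))⁰, ClassGroup.mk0 ⟨RingHom.ker ψ, h⟩ ∈ H) :
    badSet K H ⊆ residueSet K p u ∪ degTwoSet K ∪ excSet K p u := by
  intro P hP
  by_cases h1 : (absNorm P.asIdeal).Prime
  swap
  · exact Or.inl (Or.inr h1)
  by_cases h2 : absNorm P.asIdeal = p
  · exact Or.inr (Or.inl h2)
  by_cases h3 : u ∈ P.asIdeal
  · exact Or.inr (Or.inr h3)
  refine Or.inl (Or.inl ?_)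
  obtain ⟨ψ, hψ⟩ := exists_ringHom_zmod_of_prime_absNorm P h1 rfl
  haveI : Fact (absNorm P.asIdeal).Prime := ⟨h1⟩
  have hψu : ψ u ≠ 0 := by
    intro h
    apply h3
    rw [← hψ]
    exact RingHom.mem_ker.mpr h
  have hex : ∃ c : ZMod (absNorm P.asIdeal), c ^ p = ψ u := by
    by_contra hno
    have hmem : RingHom.ker ψ ∈ (Ideal (𝓞 K))⁰ := by
      rw [hψ]
      exact mem_nonZeroDivisors_of_ne_zero P.ne_bot
    have h4 := hH (absNorm P.asIdeal) ψ h2 hno hmem
    apply hP
    have h5 : (⟨RingHom.ker ψ, hmem⟩ : (Ideal (𝓞 K))⁰) = primeNZD P := Subtype.ext hψ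
    rw [← h5]
    exact h4
  obtain ⟨c, hc⟩ := hex
  refine ⟨absNorm P.asIdeal, ⟨h1⟩, ψ, c, h2, hψ, rfl, ?_, hc⟩
  intro hc0
  rw [hc0, zero_pow hp.out.ne_zero] at hc
  exact hψu hc.symm

end decomposition

section bounds

variable {K : Type u} [Field K] [NumberField K]

theorem indicator_le_of_subset {α : Type*} {f : α → ℝ} (hf : ∀ x, 0 ≤ f x) {X A B C : Set α}
    (h : X ⊆ A ∪ B ∪ C) (x : α) :
    X.indicator f x ≤ A.indicator f x + B.indicator f x + C.indicator f x := by
  have hA : 0 ≤ A.indicator f x := Set.indicator_nonneg (fun y _ => hf y) x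
  have hB : 0 ≤ B.indicator f x := Set.indicator_nonneg (fun y _ => hf y) x
  have hC : 0 ≤ C.indicator f x := Set.indicator_nonneg (fun y _ => hf y) x
  by_cases hx : x ∈ X
  · rw [Set.indicator_of_mem hx]
    rcases h hx with (hxA | hxB) | hxC
    · rw [Set.indicator_of_mem hxA]; linarith
    · rw [Set.indicator_of_mem hxB]; linarith
    · rw [Set.indicator_of_mem hxC]; linarith
  · rw [Set.indicator_of_notMem hx]; linarith

theorem tsum_indicator_degTwoSet_le {s : ℝ} (hs : 1 ≤ s) :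
    ∑' P, (degTwoSet K).indicator (pterm K s) P ≤ degTwoBound K := by
  refine Real.tsum_le_of_sum_le (fun P => Set.indicator_nonneg (fun Q _ => (pterm_pos K s Q).le) P)
    fun t => ?_
  rw [Finset.sum_indicator_eq_sum_filter]
  exact sum_pterm_le_degTwoBound K hs _ fun P hP => (Finset.mem_filter.mp hP).2

theorem tsum_indicator_finite_le {D : Set (HeightOneSpectrum (𝓞 K))} (hD : D.Finite) {s : ℝ}
    (hs : 1 ≤ s) : ∑' P, D.indicator (pterm K s) P ≤ (hD.toFinset.card : ℝ) := by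
  refine Real.tsum_le_of_sum_le (fun P => Set.indicator_nonneg (fun Q _ => (pterm_pos K s Q).le) P)
    fun t => ?_
  rw [Finset.sum_indicator_eq_sum_filter]
  have hsub : t.filter (fun P => P ∈ D) ⊆ hD.toFinset := by
    intro P hP
    exact hD.mem_toFinset.mpr (Finset.mem_filter.mp hP).2
  calc ∑ P ∈ t.filter (fun P => P ∈ D), pterm K s P
      ≤ ∑ P ∈ hD.toFinset, pterm K s P :=
        Finset.sum_le_sum_of_subset_of_nonneg hsub fun P _ _ => (pterm_pos K s P).le
    _ ≤ ∑ P ∈ hD.toFinset, (1 : ℝ) :=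
        Finset.sum_le_sum fun P _ => (pterm_le_half K hs P).trans (by norm_num)
    _ = (hD.toFinset.card : ℝ) := by simp

end bounds

section main

variable {K : Type u} [Field K] [NumberField K]

/-- The contribution of the primes with class outside `H` is at most `(1/p) ∑_Q N(Q)^(-s)`
(sum over the primes of `M`) up to a constant. -/
theorem tsum_indicator_badSet_le (p : ℕ) [hp : Fact p.Prime] {ζ : K}
    (hζ : IsPrimitiveRoot ζ p) (u : 𝓞 K) (hu : ¬ ∃ v : K, v ^ p = (u : K))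
    (H : Subgroup (ClassGroup (𝓞 K)))
    (hH : ∀ (ℓ : ℕ) [Fact ℓ.Prime] (ψ : 𝓞 K →+* ZMod ℓ), ℓ ≠ p →
      (¬ ∃ c : ZMod ℓ, c ^ p = ψ u) →
      ∀ h : RingHom.ker ψ ∈ (Ideal (𝓞 K))⁰, ClassGroup.mk0 ⟨RingHom.ker ψ, h⟩ ∈ H)
    {M : Type u} [Field M] [NumberField M] [Algebra K M] (θ : 𝓞 M)
    (hθ : θ ^ p = algebraMap (𝓞 K) (𝓞 M) u) (hM : Module.finrank K M = p) :
    ∃ C₁ : ℝ, ∀ s : ℝ, 1 < s →
      ∑' P, (badSet K H).indicator (pterm K s) P ≤ (1 / (p : ℝ)) * primeSum M s + C₁ := by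
  have hu0 : u ≠ 0 := by
    rintro rfl
    exact hu ⟨0, by simp [hp.out.ne_zero]⟩
  have hD := finite_excSet K p u hu0
  refine ⟨degTwoBound K + (hD.toFinset.card : ℝ), fun s hs => ?_⟩
  have hsumP := summable_pterm K hs
  have hp0 : (0 : ℝ) < p := by exact_mod_cast hp.out.pos
  have h1 : ∑' P, (badSet K H).indicator (pterm K s) P ≤
      ∑' P, ((residueSet K p u).indicator (pterm K s) P + (degTwoSet K).indicator (pterm K s) P
        + (excSet K p u).indicator (pterm K s) P) :=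
    (hsumP.indicator _).tsum_le_tsum
      (fun P => indicator_le_of_subset (fun x => (pterm_pos K s x).le)
        (badSet_subset p u H hH) P)
      (((hsumP.indicator _).add (hsumP.indicator _)).add (hsumP.indicator _))
  rw [((hsumP.indicator _).add (hsumP.indicator _)).tsum_add (hsumP.indicator _),
    (hsumP.indicator _).tsum_add (hsumP.indicator _)] at h1
  have h2 := mul_tsum_indicator_residueSet_le p hζ u hu θ hθ hM hs
  have h3 : ∑' P, (residueSet K p u).indicator (pterm K s) P ≤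
      (1 / (p : ℝ)) * primeSum M s := by
    rw [one_div, ← div_eq_inv_mul, le_div_iff₀ hp0, mul_comm]
    exact h2
  have h4 := tsum_indicator_degTwoSet_le (K := K) hs.le
  have h5 := tsum_indicator_finite_le hD hs.le
  linarith

/-- **Theorem G** (helper40, route R2 of S14).  Let `K` be a number field containing a primitive
`p`-th root of unity, `p` an odd prime, and let `u ∈ 𝓞 K` be not a `p`-th power in `K`.  If a
subgroup `H` of the class group contains the class of the kernel of every ring homomorphism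
`ψ : 𝓞 K →+* ZMod ℓ` (`ℓ ≠ p`) such that `ψ u` is not a `p`-th power, then `H = ⊤`. -/
theorem classGroup_eq_top_of_nonresidue_primes {K : Type u} [Field K] [NumberField K]
    (p : ℕ) [hp : Fact p.Prime] (hp2 : p ≠ 2) {ζ : K} (hζ : IsPrimitiveRoot ζ p) (u : 𝓞 K)
    (hu : ¬ ∃ v : K, v ^ p = (u : K)) (H : Subgroup (ClassGroup (𝓞 K)))
    (hH : ∀ (ℓ : ℕ) [Fact ℓ.Prime] (ψ : 𝓞 K →+* ZMod ℓ), ℓ ≠ p →
      (¬ ∃ c : ZMod ℓ, c ^ p = ψ u) →
      ∀ h : RingHom.ker ψ ∈ (Ideal (𝓞 K))⁰, ClassGroup.mk0 ⟨RingHom.ker ψ, h⟩ ∈ H) :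
    H = ⊤ := by
  by_contra hne
  obtain ⟨ψ, hψ⟩ := exists_addChar_ne_zero H hne
  obtain ⟨B, hB0, hB⟩ := exists_bound_norm_tsum H ψ hψ
  obtain ⟨M, _, _, _, θ, hM, hθ⟩ := exists_kummer_field K p u hu
  obtain ⟨C₁, hC₁⟩ := tsum_indicator_badSet_le p hζ u hu H hH θ hθ hM
  obtain ⟨c, hc0, hc⟩ := eventually_le_zetaR K
  obtain ⟨C, hC0, hC⟩ := eventually_zetaR_le M
  have hp3 : 3 ≤ p := by
    have := hp.out.two_le
    omega
  obtain ⟨q, hq⟩ : ∃ q : ℝ, q = 1 / (p : ℝ) := ⟨_, rfl⟩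
  have hq0 : 0 ≤ q := by rw [hq]; positivity
  have hq1 : 0 < 1 - 2 * q := by
    have h3 : (3 : ℝ) ≤ p := by exact_mod_cast hp3
    have h4 : q ≤ 1 / 3 := by
      rw [hq]
      exact one_div_le_one_div_of_le (by norm_num) h3
    linarith
  have hev : ∀ᶠ s in 𝓝[>] (1 : ℝ), -Real.log B ≤ (1 - 2 * q) * Real.log (s - 1) +
      (-Real.log c + 2 * primeSum K 2 + 2 * (q * Real.log C) + 2 * C₁) := by
    filter_upwards [hc, hC, self_mem_nhdsWithin,
      Ioc_mem_nhdsGT (show (1 : ℝ) < 2 by norm_num)] with s hcs hCs hs1 hs2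
    have hs1' : 1 < s := hs1
    have hs0 : 0 < s - 1 := sub_pos.2 hs1'
    have hL := hB s hs1' hs2.2
    have hL0 := tsum_fχ_ne_zero H ψ hs1'
    have h1 : B⁻¹ ≤ ‖∑' I, helper89.fχ H ψ s I‖⁻¹ := inv_anti₀ (norm_pos_iff.2 hL0) hL
    have h2 := inv_norm_tsum_fχ_le H ψ hs1'
    have h3 : Real.log B⁻¹ ≤
        -primeSum K s + 2 * ∑' P, (badSet K H).indicator (pterm K s) P :=
      (Real.log_le_iff_le_exp (inv_pos.2 hB0)).2 (h1.trans h2)
    rw [Real.log_inv] at h3
    have h4 := hC₁ s hs1'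
    rw [← hq] at h4
    have h5 : primeSum M s ≤ Real.log (zetaR M s) := primeSum_le_log_zetaR M hs1'
    have h6 : Real.log (zetaR M s) ≤ Real.log (C / (s - 1)) :=
      Real.log_le_log (zetaR_pos M hs1') hCs
    have h7 : Real.log (C / (s - 1)) = Real.log C - Real.log (s - 1) :=
      Real.log_div hC0.ne' hs0.ne'
    have h8 : Real.log (zetaR K s) ≤ primeSum K s + 2 * primeSum K 2 := log_zetaR_le K hs1'
    have h9 : Real.log (c / (s - 1)) ≤ Real.log (zetaR K s) :=
      Real.log_le_log (div_pos hc0 hs0) hcs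
    have h10 : Real.log (c / (s - 1)) = Real.log c - Real.log (s - 1) :=
      Real.log_div hc0.ne' hs0.ne'
    have h11 : q * primeSum M s ≤ q * Real.log C - q * Real.log (s - 1) := by
      rw [← mul_sub]
      exact mul_le_mul_of_nonneg_left (by linarith) hq0
    have h12 : (1 - 2 * q) * Real.log (s - 1) =
        Real.log (s - 1) - 2 * (q * Real.log (s - 1)) := by ring
    rw [h12]
    linarith
  have htend : Tendsto (fun s : ℝ => (1 - 2 * q) * Real.log (s - 1) +
      (-Real.log c + 2 * primeSum K 2 + 2 * (q * Real.log C) + 2 * C₁)) (𝓝[>] 1) atBot := by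
    have h1 : Tendsto (fun s : ℝ => s - 1) (𝓝[>] 1) (𝓝[>] 0) := by
      refine tendsto_nhdsWithin_of_tendsto_nhds_of_eventually_within _ ?_ ?_
      · have : Tendsto (fun s : ℝ => s - 1) (𝓝 1) (𝓝 0) :=
          (continuous_id.sub continuous_const).tendsto' 1 0 (by simp)
        exact this.mono_left nhdsWithin_le_nhds
      · filter_upwards [self_mem_nhdsWithin] with s hs
        have hs' : (1 : ℝ) < s := hs
        exact Set.mem_Ioi.mpr (sub_pos.2 hs')
    have h2 : Tendsto (fun s : ℝ => Real.log (s - 1)) (𝓝[>] 1) atBot :=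
      Real.tendsto_log_nhdsGT_zero.comp h1
    exact tendsto_atBot_add_const_right _ _ (h2.const_mul_atBot hq1)
  have hlt := htend.eventually (eventually_lt_atBot (-Real.log B))
  obtain ⟨s, hs1, hs2⟩ := (hev.and hlt).exists
  linarith

end main

end Fermat.Agent.S14.helper40
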