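import Mathlib

/-!
# S14, route R2, assembly R2-A (helper99): definitions and the Galois action on the class group

* `classGroup_mulEquiv_mk0`: Mathlib's `ClassGroup.mulEquiv g` sends the class of `I` to the class
  of `I.map g`.
* `kerClass ψ`, `compGal ψ σ`, `galO σ`, `clAct σ`, `eOp χ`.
* `ThaineRelationStatement`, `TheoremGStatement`: the statements of R2-T and R2-G as `Prop`s.
-/

set_option autoImplicit false

namespace Fermat.Agent.S14.helper99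

open NumberField
open scoped nonZeroDivisors

section general

variable {R : Type*} [CommRing R] [IsDedekindDomain R]

lemma map_mem_nonZeroDivisors_of_equiv {R' : Type*} [CommRing R'] [IsDomain R']
    (g : R ≃+* R') (I : (Ideal R)⁰) : (I : Ideal R).map (g : R →+* R') ∈ (Ideal R')⁰ := by
  rw [mem_nonZeroDivisors_iff_ne_zero]
  have hI : (I : Ideal R) ≠ ⊥ := nonZeroDivisors.coe_ne_zero I
  intro h
  apply hI
  exact (Ideal.map_eq_bot_iff_of_injective (f := (g : R →+* R')) g.injective).mp h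

lemma ringEquivOfRingEquiv_coeIdeal {R' : Type*} [CommRing R'] [IsDedekindDomain R']
    (g : R ≃+* R') (I : Ideal R) :
    FractionalIdeal.ringEquivOfRingEquiv (FractionRing R) (FractionRing R') g
      (I : FractionalIdeal R⁰ (FractionRing R)) =
      ((I.map (g : R →+* R') : Ideal R') : FractionalIdeal R'⁰ (FractionRing R')) := by
  apply FractionalIdeal.coeToSubmodule_injective
  ext x
  rw [FractionalIdeal.ringEquivOfRingEquiv_apply]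
  simp only [FractionalIdeal.val_eq_coe, FractionalIdeal.coe_mk, Submodule.mem_map,
    FractionalIdeal.coe_coeIdeal, IsLocalization.mem_coeSubmodule]
  constructor
  · rintro ⟨y, ⟨i, hi, rfl⟩, rfl⟩
    refine ⟨g i, Ideal.mem_map_of_mem _ hi, ?_⟩
    exact (IsFractionRing.semilinearEquivOfRingEquiv_algebraMap _ _ g i).symm
  · rintro ⟨j, hj, rfl⟩
    rw [Ideal.mem_map_iff_of_surjective (g : R →+* R') g.surjective] at hj
    obtain ⟨i, hi, rfl⟩ := hj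
    refine ⟨algebraMap _ _ i, ⟨i, hi, rfl⟩, ?_⟩
    exact IsFractionRing.semilinearEquivOfRingEquiv_algebraMap _ _ g i

/-- Mathlib's `ClassGroup.mulEquiv g` on the class of an integral ideal. -/
theorem classGroup_mulEquiv_mk0 {R' : Type*} [CommRing R'] [IsDedekindDomain R']
    (g : R ≃+* R') (I : (Ideal R)⁰) :
    ClassGroup.mulEquiv g (ClassGroup.mk0 I) =
      ClassGroup.mk0 ⟨(I : Ideal R).map (g : R →+* R'), map_mem_nonZeroDivisors_of_equiv g I⟩ := by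
  rw [ClassGroup.mulEquiv]
  simp only [MulEquiv.trans_apply]
  rw [MulEquiv.symm_apply_eq, ClassGroup.equiv_mk0, ClassGroup.equiv_mk0]
  rw [QuotientGroup.mk'_apply, QuotientGroup.mk'_apply]
  erw [QuotientGroup.congr_mk]
  congr 1
  apply Units.ext
  rw [Units.coe_mapEquiv]
  simp only [FractionalIdeal.coe_mk0]
  exact ringEquivOfRingEquiv_coeIdeal g I

end general

section generic

variable {K : Type*} [Field K] [NumberField K]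

/-- the kernel of a ring hom `𝓞 K → ZMod ℓ` is a nonzero ideal -/
lemma ker_mem_nonZeroDivisors {ℓ : ℕ} [Fact ℓ.Prime] (ψ : 𝓞 K →+* ZMod ℓ) :
    RingHom.ker ψ ∈ nonZeroDivisors (Ideal (𝓞 K)) := by
  rw [mem_nonZeroDivisors_iff_ne_zero]
  intro h
  have h1 : ((ℓ : ℕ) : 𝓞 K) ∈ RingHom.ker ψ := by
    rw [RingHom.mem_ker, map_natCast]; exact ZMod.natCast_self ℓ
  rw [h] at h1
  have h2 : ((ℓ : ℕ) : 𝓞 K) = 0 := by simpa using h1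
  have h3 : (ℓ : ℕ) = 0 := by exact_mod_cast h2
  exact (Fact.out : ℓ.Prime).ne_zero h3

/-- The ideal class of the kernel of a ring hom `𝓞 K → ZMod ℓ` (a degree-one prime). -/
noncomputable def kerClass {ℓ : ℕ} [Fact ℓ.Prime] (ψ : 𝓞 K →+* ZMod ℓ) : ClassGroup (𝓞 K) :=
  ClassGroup.mk0 ⟨RingHom.ker ψ, ker_mem_nonZeroDivisors ψ⟩

/-- `ψ ∘ σ` for `σ ∈ Gal(K/ℚ)` -/
noncomputable def compGal {ℓ : ℕ} (ψ : 𝓞 K →+* ZMod ℓ) (σ : K ≃ₐ[ℚ] K) : 𝓞 K →+* ZMod ℓ :=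
  ψ.comp ((galRestrict ℤ ℚ K (𝓞 K) σ : 𝓞 K ≃ₐ[ℤ] 𝓞 K) : 𝓞 K →+* 𝓞 K)

lemma compGal_apply {ℓ : ℕ} (ψ : 𝓞 K →+* ZMod ℓ) (σ : K ≃ₐ[ℚ] K) (x : 𝓞 K) :
    compGal ψ σ x = ψ (galRestrict ℤ ℚ K (𝓞 K) σ x) := rfl

/-- the ring automorphism of `𝓞 K` induced by `σ` -/
noncomputable def galO (σ : K ≃ₐ[ℚ] K) : 𝓞 K ≃+* 𝓞 K :=
  (galRestrict ℤ ℚ K (𝓞 K) σ).toRingEquiv

lemma galO_apply (σ : K ≃ₐ[ℚ] K) (x : 𝓞 K) : galO σ x = galRestrict ℤ ℚ K (𝓞 K) σ x := rfl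

lemma coe_galO_apply (σ : K ≃ₐ[ℚ] K) (x : 𝓞 K) :
    algebraMap (𝓞 K) K (galO σ x) = σ (algebraMap (𝓞 K) K x) :=
  algebraMap_galRestrict_apply ℤ σ x

lemma galO_inv_apply (σ : K ≃ₐ[ℚ] K) (x : 𝓞 K) : galO σ⁻¹ (galO σ x) = x := by
  apply RingOfIntegers.coe_injective
  rw [coe_galO_apply, coe_galO_apply]
  exact σ.symm_apply_apply _

lemma galO_apply_inv (σ : K ≃ₐ[ℚ] K) (x : 𝓞 K) : galO σ (galO σ⁻¹ x) = x := by
  apply RingOfIntegers.coe_injective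
  rw [coe_galO_apply, coe_galO_apply]
  exact σ.apply_symm_apply _

/-- the action of `σ` on the class group (push-forward of ideals) -/
noncomputable def clAct (σ : K ≃ₐ[ℚ] K) : ClassGroup (𝓞 K) ≃* ClassGroup (𝓞 K) :=
  ClassGroup.mulEquiv (galO σ)

lemma clAct_mk0 (σ : K ≃ₐ[ℚ] K) (I : (Ideal (𝓞 K))⁰) :
    clAct σ (ClassGroup.mk0 I) = ClassGroup.mk0
      ⟨(I : Ideal (𝓞 K)).map (galO σ : 𝓞 K →+* 𝓞 K), map_mem_nonZeroDivisors_of_equiv _ I⟩ :=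
  classGroup_mulEquiv_mk0 (galO σ) I

lemma ker_compGal {ℓ : ℕ} (ψ : 𝓞 K →+* ZMod ℓ) (σ : K ≃ₐ[ℚ] K) :
    RingHom.ker (compGal ψ σ) = (RingHom.ker ψ).map (galO σ⁻¹ : 𝓞 K →+* 𝓞 K) := by
  ext x
  rw [RingHom.mem_ker, compGal_apply,
    Ideal.mem_map_iff_of_surjective (galO σ⁻¹ : 𝓞 K →+* 𝓞 K) (galO σ⁻¹).surjective]
  constructor
  · intro h
    exact ⟨galO σ x, h, galO_inv_apply σ x⟩
  · rintro ⟨y, hy, rfl⟩
    have : galRestrict ℤ ℚ K (𝓞 K) σ (galO σ⁻¹ y) = y := galO_apply_inv σ y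
    rw [RingEquiv.coe_toRingHom, this]
    exact hy

lemma kerClass_compGal {ℓ : ℕ} [Fact ℓ.Prime] (ψ : 𝓞 K →+* ZMod ℓ) (σ : K ≃ₐ[ℚ] K) :
    kerClass (compGal ψ σ) = clAct σ⁻¹ (kerClass ψ) := by
  rw [kerClass, kerClass, clAct_mk0]
  congr 1
  apply Subtype.ext
  exact ker_compGal ψ σ

/-- the operator `∑ χ(σ)² σ⁻¹` on the class group -/
noncomputable def eOp (χ : (K ≃ₐ[ℚ] K) → ℕ) : ClassGroup (𝓞 K) →* ClassGroup (𝓞 K) :=
  ∏ σ : K ≃ₐ[ℚ] K, (powMonoidHom ((χ σ) ^ 2)).comp (clAct σ⁻¹).toMonoidHom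

lemma eOp_apply (χ : (K ≃ₐ[ℚ] K) → ℕ) (c : ClassGroup (𝓞 K)) :
    eOp χ c = ∏ σ : K ≃ₐ[ℚ] K, (clAct σ⁻¹ c) ^ ((χ σ) ^ 2) := by
  rw [eOp, MonoidHom.finsetProd_apply]
  rfl

lemma eOp_kerClass {ℓ : ℕ} [Fact ℓ.Prime] (χ : (K ≃ₐ[ℚ] K) → ℕ) (ψ : 𝓞 K →+* ZMod ℓ) :
    eOp χ (kerClass ψ) = ∏ σ : K ≃ₐ[ℚ] K, kerClass (compGal ψ σ) ^ ((χ σ) ^ 2) := by
  rw [eOp_apply]
  exact Finset.prod_congr rfl (fun σ _ => by rw [kerClass_compGal])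

end generic

section cyclo

/-- the statement of R2-T (Thaine relation) as a hypothesis -/
def ThaineRelationStatement (p : ℕ) [Fact p.Prime] (K : Type) [Field K] [NumberField K]
    [IsCyclotomicExtension {p} ℚ K] : Prop :=
  ∀ (_ : p ≠ 2) {ζ : 𝓞 K} (_ : IsPrimitiveRoot ζ p)
    {ℓ : ℕ} [Fact ℓ.Prime] (_ : ℓ % p = 1) (ψ : 𝓞 K →+* ZMod ℓ)
    (b : ℕ) (_ : ¬ p ∣ b) (g : (ZMod ℓ)ˣ) (_ : ∀ x : (ZMod ℓ)ˣ, x ∈ Subgroup.zpowers g)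
    (r : (K ≃ₐ[ℚ] K) → ℕ)
    (_ : ∀ σ : K ≃ₐ[ℚ] K, compGal ψ σ (1 - ζ ^ b) = ((g ^ r σ : (ZMod ℓ)ˣ) : ZMod ℓ)),
    ∃ J : ClassGroup (𝓞 K), ∏ σ : K ≃ₐ[ℚ] K, kerClass (compGal ψ σ) ^ r σ = J ^ (ℓ - 1)

/-- the statement of R2-G (Theorem G) as a hypothesis -/
def TheoremGStatement (p : ℕ) [Fact p.Prime] (K : Type) [Field K] [NumberField K] : Prop :=
  ∀ (_ : p ≠ 2) {ζ : K} (_ : IsPrimitiveRoot ζ p) (u : 𝓞 K) (_ : ¬ ∃ v : K, v ^ p = (u : K))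
    (H : Subgroup (ClassGroup (𝓞 K)))
    (_ : ∀ (ℓ : ℕ) [Fact ℓ.Prime] (ψ : 𝓞 K →+* ZMod ℓ), ℓ ≠ p →
      (¬ ∃ c : ZMod ℓ, c ^ p = ψ u) → kerClass ψ ∈ H),
    H = ⊤

end cyclo

end Fermat.Agent.S14.helper99
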