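import Fermat.Agent.S14.helper62_ThaineE2
import Fermat.Agent.S14.helper99_CKDefs

set_option linter.unusedVariables false

/-!
# R2-T and R2-A-D in the vocabulary of `helper99_CKDefs` (helper62, S14 route R2)

* `h62_thaineRelationStatement` : the Thaine relation, as `helper99.ThaineRelationStatement p K`;
* `h62_eOp_kerClass_mem` : statement of task 284 (`eOp_kerClass_mem`), verbatim;
* `h62_eOp_kerClass_exists` : the same in terms of `helper99.eOp`.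
-/

namespace Fermat.Agent.S14.helper62

open NumberField
open Fermat.Agent.S14.helper99 Fermat.Agent.S14.helper15

variable {p : ℕ} [Fact p.Prime] {K : Type} [Field K] [NumberField K]
  [IsCyclotomicExtension {p} ℚ K]

lemma h62_kerClass_eq {ℓ : ℕ} [Fact ℓ.Prime] (ψ : 𝓞 K →+* ZMod ℓ) :
    h62_kerClass ψ = kerClass ψ := rfl

lemma h62_compGal_eq {ℓ : ℕ} (ψ : 𝓞 K →+* ZMod ℓ) (σ : K ≃ₐ[ℚ] K) :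
    h62_compGal ψ σ = compGal ψ σ := rfl

/-- R2-T in the form consumed by R2-A. -/
theorem h62_thaineRelationStatement : ThaineRelationStatement p K :=
  fun hp _ hζ _ _ hℓ ψ b hb g hg r hr => h62_thaine_relation hp hζ hℓ ψ b hb g hg r hr

/-- statement of task 284, verbatim (the hypothesis `hT` is not needed). -/
theorem h62_eOp_kerClass_mem (hT : ThaineRelationStatement p K) (hp : 5 ≤ p) {ζ : 𝓞 K}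
    (hζ : IsPrimitiveRoot ζ p) (E : (𝓞 K)ˣ)
    (hE1 : (E : 𝓞 K) * ∏ b ∈ Finset.Ico 1 p, (1 - ζ) ^ expE2 p b
      = ∏ b ∈ Finset.Ico 1 p, (1 - ζ ^ b) ^ expE2 p b)
    (hE2 : ∀ (σ : K ≃ₐ[ℚ] K) (n : ℕ), σ (ζ : K) = (ζ : K) ^ n →
      ∃ k : (𝓞 K)ˣ, galRestrict ℤ ℚ K (𝓞 K) σ (E : 𝓞 K) = (E : 𝓞 K) ^ (n ^ 2) * (k : 𝓞 K) ^ p)
    (χ : (K ≃ₐ[ℚ] K) → ℕ) (hχ : ∀ σ : K ≃ₐ[ℚ] K, σ (ζ : K) = (ζ : K) ^ χ σ)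
    {ℓ : ℕ} [Fact ℓ.Prime] (ψ : 𝓞 K →+* ZMod ℓ) (hℓp : ℓ ≠ p)
    (hnr : ¬ ∃ c : ZMod ℓ, c ^ p = ψ E) :
    ∃ y : ClassGroup (𝓞 K),
      ∏ σ : K ≃ₐ[ℚ] K, kerClass (compGal ψ σ) ^ ((χ σ) ^ 2) = y ^ p :=
  h62_thaine_E2 hp hζ E hE1 hE2 hℓp ψ hnr χ hχ

/-- the same in terms of `helper99.eOp`. -/
theorem h62_eOp_kerClass_exists (hp : 5 ≤ p) {ζ : 𝓞 K}
    (hζ : IsPrimitiveRoot ζ p) (E : (𝓞 K)ˣ)
    (hE1 : (E : 𝓞 K) * ∏ b ∈ Finset.Ico 1 p, (1 - ζ) ^ expE2 p b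
      = ∏ b ∈ Finset.Ico 1 p, (1 - ζ ^ b) ^ expE2 p b)
    (hE2 : ∀ (σ : K ≃ₐ[ℚ] K) (n : ℕ), σ (ζ : K) = (ζ : K) ^ n →
      ∃ k : (𝓞 K)ˣ, galRestrict ℤ ℚ K (𝓞 K) σ (E : 𝓞 K) = (E : 𝓞 K) ^ (n ^ 2) * (k : 𝓞 K) ^ p)
    (χ : (K ≃ₐ[ℚ] K) → ℕ) (hχ : ∀ σ : K ≃ₐ[ℚ] K, σ (ζ : K) = (ζ : K) ^ χ σ)
    {ℓ : ℕ} [Fact ℓ.Prime] (ψ : 𝓞 K →+* ZMod ℓ) (hℓp : ℓ ≠ p)
    (hnr : ¬ ∃ c : ZMod ℓ, c ^ p = ψ E) :
    ∃ y : ClassGroup (𝓞 K), eOp χ (kerClass ψ) = y ^ p := by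
  rw [eOp_kerClass]
  exact h62_thaine_E2 hp hζ E hE1 hE2 hℓp ψ hnr χ hχ

end Fermat.Agent.S14.helper62
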