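import Mathlib
import Fermat.Agent.S14.helper99_CKDefs

/-!
# S14, route R2, assembly R2-A, piece (C) (task 285, helper77)

If `(a) = J ^ p` and `σ a = a ^ m * k ^ p` in `K`, then `σ [J] = [J] ^ m` in the class group.
-/

set_option autoImplicit false

namespace Fermat.Agent.S14.helper77

open NumberField
open scoped nonZeroDivisors

section general

variable {R : Type*} [CommRing R] [IsDedekindDomain R]

/-- `p`-th roots of ideals in a Dedekind domain are unique. -/
theorem ideal_pow_left_injective {p : ℕ} (hp : p ≠ 0) {I J : Ideal R} (h : I ^ p = J ^ p) :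
    I = J := by
  have h1 : I ∣ J := (UniqueFactorizationMonoid.pow_dvd_pow_iff_dvd hp).mp (h ▸ dvd_rfl)
  have h2 : J ∣ I := (UniqueFactorizationMonoid.pow_dvd_pow_iff_dvd hp).mp (h ▸ dvd_rfl)
  exact le_antisymm (Ideal.le_of_dvd h2) (Ideal.le_of_dvd h1)

end general

variable {K : Type*} [Field K] [NumberField K]

theorem clAct_mk0_eq_pow {p : ℕ} (hp : p ≠ 0) (a : 𝓞 K) (ha : a ≠ 0) (J : (Ideal (𝓞 K))⁰)
    (hJ : Ideal.span {a} = (J : Ideal (𝓞 K)) ^ p) (σ : K ≃ₐ[ℚ] K) (m : ℕ) (k : K)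
    (hk : σ (a : K) = (a : K) ^ m * k ^ p) :
    Fermat.Agent.S14.helper99.clAct σ (ClassGroup.mk0 J) = ClassGroup.mk0 J ^ m := by
  classical
  have haK : (a : K) ≠ 0 := by
    intro h
    exact ha (RingOfIntegers.coe_injective (by simpa using h))
  have hσa : σ (a : K) ≠ 0 := by
    intro h
    exact haK ((map_eq_zero_iff σ σ.injective).mp h)
  have hk0 : k ≠ 0 := by
    rintro rfl
    rw [zero_pow hp, mul_zero] at hk
    exact hσa hk
  obtain ⟨c, d, hd, hcd⟩ := IsFractionRing.div_surjective (A := 𝓞 K) k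
  have hd0 : d ≠ 0 := nonZeroDivisors.ne_zero hd
  have hdK : algebraMap (𝓞 K) K d ≠ 0 := by
    intro h
    exact hd0 ((map_eq_zero_iff _ (IsFractionRing.injective (𝓞 K) K)).mp h)
  have hc0 : c ≠ 0 := by
    rintro rfl
    rw [map_zero, zero_div] at hcd
    exact hk0 hcd.symm
  -- the key identity in `𝓞 K`
  have hkey : d ^ p * Fermat.Agent.S14.helper99.galO σ a = a ^ m * c ^ p := by
    apply IsFractionRing.injective (𝓞 K) K
    rw [map_mul, map_mul, map_pow, map_pow, map_pow, Fermat.Agent.S14.helper99.coe_galO_apply]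
    have hk' : σ (algebraMap (𝓞 K) K a) = (algebraMap (𝓞 K) K a) ^ m * k ^ p := hk
    rw [hk', ← hcd, div_pow]
    field_simp
  -- ideals
  set J' : Ideal (𝓞 K) := (J : Ideal (𝓞 K)).map (Fermat.Agent.S14.helper99.galO σ : 𝓞 K →+* 𝓞 K)
    with hJ'
  have hJ'p : Ideal.span {Fermat.Agent.S14.helper99.galO σ a} = J' ^ p := by
    rw [hJ', ← Ideal.map_pow, ← hJ, Ideal.map_span, Set.image_singleton]
    rfl
  have hideal : (Ideal.span {d} * J') ^ p = (Ideal.span {c} * (J : Ideal (𝓞 K)) ^ m) ^ p := by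
    rw [mul_pow, mul_pow, ← hJ'p, Ideal.span_singleton_pow, Ideal.span_singleton_pow,
      Ideal.span_singleton_mul_span_singleton, hkey, ← pow_mul, mul_comm m p, pow_mul, ← hJ,
      Ideal.span_singleton_pow, Ideal.span_singleton_mul_span_singleton, mul_comm]
  have hroot := ideal_pow_left_injective hp hideal
  rw [Fermat.Agent.S14.helper99.clAct_mk0, ← map_pow]
  rw [ClassGroup.mk0_eq_mk0_iff]
  exact ⟨d, c, hd0, hc0, hroot⟩

end Fermat.Agent.S14.helper77
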