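import Mathlib

/-!
# helper9: an eigenspace of dimension one from trace data (task S14-R2-U, linear algebra part)

If `f` is an endomorphism of a finite-dimensional vector space `V` over a field `F` of
characteristic `p` with `f ^ m = 1`, `finrank V + 1 = m < p + 1`, and `trace (f ^ k) = -1`
for `0 < k < m` (i.e. `V ⊕ F` looks like the regular representation of `ℤ/m`), then every
eigenspace of `f` for an eigenvalue `c ≠ 1`, `c ^ m = 1`, is one-dimensional.
-/

set_option autoImplicit false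

namespace Fermat.Agent.S14.helper9

open Finset Module

section

variable {F V : Type*} [Field F] [AddCommGroup V] [Module F V]

/-- The averaging operator `m⁻¹ ∑_{k<m} c⁻ᵏ fᵏ`. -/
noncomputable def avgOp (f : V →ₗ[F] V) (m : ℕ) (c : F) : V →ₗ[F] V :=
  (m : F)⁻¹ • ∑ k ∈ range m, (c⁻¹) ^ k • f ^ k

lemma pow_apply_of_eigen (f : V →ₗ[F] V) (c : F) {x : V} (hx : f x = c • x) (k : ℕ) :
    (f ^ k) x = c ^ k • x := by
  induction k with
  | zero => simp
  | succ k ih =>
    rw [pow_succ', Module.End.mul_apply, ih, map_smul, hx, smul_smul, pow_succ]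

lemma avgOp_apply_of_eigen (f : V →ₗ[F] V) (m : ℕ) (hm : (m : F) ≠ 0) (c : F) (hc0 : c ≠ 0)
    {x : V} (hx : f x = c • x) : avgOp f m c x = x := by
  unfold avgOp
  rw [LinearMap.smul_apply, LinearMap.sum_apply]
  have : ∀ k ∈ range m, ((c⁻¹) ^ k • f ^ k) x = x := by
    intro k _
    rw [LinearMap.smul_apply, pow_apply_of_eigen f c hx, smul_smul, ← mul_pow,
      inv_mul_cancel₀ hc0, one_pow, one_smul]
  rw [sum_congr rfl this, sum_const, card_range, ← Nat.cast_smul_eq_nsmul F, smul_smul,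
    inv_mul_cancel₀ hm, one_smul]

lemma sub_comp_avgOp (f : V →ₗ[F] V) (m : ℕ) (hfm : f ^ m = 1) (c : F) (hc : c ^ m = 1) :
    (f - c • (1 : V →ₗ[F] V)) * avgOp f m c = 0 := by
  by_cases hm0 : m = 0
  · subst hm0; simp [avgOp]
  have hc0 : c ≠ 0 := by
    rintro rfl
    rw [zero_pow hm0] at hc
    exact zero_ne_one hc
  unfold avgOp
  rw [mul_smul_comm, mul_sum]
  have key : ∀ k ∈ range m, (f - c • (1 : V →ₗ[F] V)) * ((c⁻¹) ^ k • f ^ k) =
      (fun j => (c * (c⁻¹) ^ j) • f ^ j) (k + 1) - (fun j => (c * (c⁻¹) ^ j) • f ^ j) k := by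
    intro k _
    simp only
    have e1 : c * c⁻¹ ^ (k + 1) = c⁻¹ ^ k := by
      rw [pow_succ, mul_comm (c⁻¹ ^ k), ← mul_assoc, mul_inv_cancel₀ hc0, one_mul]
    rw [e1, sub_mul, mul_smul_comm, ← pow_succ', smul_mul_assoc, one_mul, smul_smul]
  rw [sum_congr rfl key, sum_range_sub (fun j => (c * (c⁻¹) ^ j) • f ^ j) m]
  simp only [pow_zero, mul_one]
  rw [hfm, inv_pow, hc, inv_one, mul_one, sub_self, smul_zero]

variable [FiniteDimensional F V]

lemma trace_avgOp (f : V →ₗ[F] V) (m : ℕ) (hm : (m : F) ≠ 0) (c : F)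
    (hc : c ^ m = 1) (hc1 : c ≠ 1)
    (htr : ∀ k, 0 < k → k < m → LinearMap.trace F V (f ^ k) = -1)
    (hdim : finrank F V + 1 = m) :
    LinearMap.trace F V (avgOp f m c) = 1 := by
  have hc0 : c ≠ 0 := by
    rintro rfl
    have : m ≠ 0 := by omega
    rw [zero_pow this] at hc
    exact zero_ne_one hc
  have hci1 : c⁻¹ ≠ 1 := by
    intro h
    exact hc1 (by rw [← inv_inv c, h, inv_one])
  have hgeom : ∑ k ∈ range m, (c⁻¹) ^ k = 0 := by
    rw [geom_sum_eq hci1, inv_pow, hc, inv_one, sub_self, zero_div]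
  unfold avgOp
  rw [map_smul, map_sum]
  have h1 : ∀ k ∈ range m, LinearMap.trace F V ((c⁻¹) ^ k • f ^ k) =
      (if k = 0 then ((finrank F V : F) + 1) else 0) - (c⁻¹) ^ k := by
    intro k hk
    rw [map_smul, smul_eq_mul]
    by_cases hk0 : k = 0
    · subst hk0
      simp [LinearMap.trace_one]
    · rw [if_neg hk0, htr k (Nat.pos_of_ne_zero hk0) (mem_range.mp hk)]
      ring
  rw [sum_congr rfl h1, sum_sub_distrib, hgeom, sub_zero, sum_ite_eq' (range m) 0]
  have hm0 : 0 ∈ range m := mem_range.mpr (by omega)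
  rw [if_pos hm0, smul_eq_mul]
  have : ((finrank F V : F) + 1) = (m : F) := by
    rw [← hdim]; push_cast; ring
  rw [this, inv_mul_cancel₀ hm]

/-- **Main linear algebra lemma.** -/
theorem finrank_ker_sub_eq_one (p : ℕ) [CharP F p] (f : V →ₗ[F] V) (m : ℕ)
    (hm : (m : F) ≠ 0) (hfm : f ^ m = 1) (c : F) (hc : c ^ m = 1) (hc1 : c ≠ 1)
    (htr : ∀ k, 0 < k → k < m → LinearMap.trace F V (f ^ k) = -1)
    (hdim : finrank F V + 1 = m) (hlt : finrank F V < p) (hp1 : 1 < p) :
    finrank F (LinearMap.ker (f - c • (1 : V →ₗ[F] V))) = 1 := by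
  have hc0 : c ≠ 0 := by
    rintro rfl
    have : m ≠ 0 := by omega
    rw [zero_pow this] at hc
    exact zero_ne_one hc
  have hproj : LinearMap.IsProj (LinearMap.ker (f - c • (1 : V →ₗ[F] V))) (avgOp f m c) := by
    refine ⟨fun x => ?_, fun x hx => ?_⟩
    · rw [LinearMap.mem_ker, ← Module.End.mul_apply, sub_comp_avgOp f m hfm c hc,
        LinearMap.zero_apply]
    · apply avgOp_apply_of_eigen f m hm c hc0
      rw [LinearMap.mem_ker, LinearMap.sub_apply, LinearMap.smul_apply, Module.End.one_apply,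
        sub_eq_zero] at hx
      exact hx
  have h1 := hproj.trace
  rw [trace_avgOp f m hm c hc hc1 htr hdim] at h1
  have h2 : ((finrank F (LinearMap.ker (f - c • (1 : V →ₗ[F] V))) : ℕ) : F) = ((1 : ℕ) : F) := by
    rw [← h1, Nat.cast_one]
  rw [CharP.natCast_eq_natCast F p] at h2
  have hle : finrank F (LinearMap.ker (f - c • (1 : V →ₗ[F] V))) ≤ finrank F V :=
    Submodule.finrank_le _
  exact Nat.ModEq.eq_of_lt_of_lt h2 (lt_of_le_of_lt hle hlt) hp1

/-- Two eigenvectors for the eigenvalue `c` are proportional. -/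
theorem exists_smul_eq_of_eigen (p : ℕ) [CharP F p] (f : V →ₗ[F] V) (m : ℕ)
    (hm : (m : F) ≠ 0) (hfm : f ^ m = 1) (c : F) (hc : c ^ m = 1) (hc1 : c ≠ 1)
    (htr : ∀ k, 0 < k → k < m → LinearMap.trace F V (f ^ k) = -1)
    (hdim : finrank F V + 1 = m) (hlt : finrank F V < p) (hp1 : 1 < p)
    {x y : V} (hx : f x = c • x) (hy : f y = c • y) (hy0 : y ≠ 0) :
    ∃ a : F, x = a • y := by
  have h := finrank_ker_sub_eq_one p f m hm hfm c hc hc1 htr hdim hlt hp1
  have hxm : x ∈ LinearMap.ker (f - c • (1 : V →ₗ[F] V)) := by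
    rw [LinearMap.mem_ker, LinearMap.sub_apply, LinearMap.smul_apply, Module.End.one_apply,
      hx, sub_self]
  have hym : y ∈ LinearMap.ker (f - c • (1 : V →ₗ[F] V)) := by
    rw [LinearMap.mem_ker, LinearMap.sub_apply, LinearMap.smul_apply, Module.End.one_apply,
      hy, sub_self]
  have hy0' : (⟨y, hym⟩ : LinearMap.ker (f - c • (1 : V →ₗ[F] V))) ≠ 0 := by
    intro h0
    exact hy0 (congrArg Subtype.val h0)
  obtain ⟨a, ha⟩ := (finrank_eq_one_iff_of_nonzero' _ hy0').mp h ⟨x, hxm⟩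
  exact ⟨a, (congrArg Subtype.val ha).symm⟩

end

end Fermat.Agent.S14.helper9
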