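import Mathlib

/-!
# helper9: trace of the Galois action on the unit lattice (task S14-R2-U, arithmetic part)

For a number field `K` and `σ : K ≃ₐ[ℚ] K` we define the integral matrix `galMat σ` of the
action of `σ` on `(𝓞 K)ˣ / torsion` in the basis `fundSystem K`, and show:
* `galMat` is multiplicative;
* `expVec (unitsGal σ u) = galMat σ *ᵥ expVec u`;
* if `σ` fixes every infinite place then `galMat σ = 1`;
* if `σ` fixes no infinite place then `trace (galMat σ) = -1`.
-/

set_option autoImplicit false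

namespace Fermat.Agent.S14.helper9

open NumberField NumberField.Units NumberField.InfinitePlace
  NumberField.Units.dirichletUnitTheorem Module

variable {K : Type*} [Field K] [NumberField K]

/-- Galois action on the units of the ring of integers. -/
noncomputable def unitsGal (σ : K ≃ₐ[ℚ] K) : (𝓞 K)ˣ →* (𝓞 K)ˣ :=
  Units.map ((galRestrict ℤ ℚ K (𝓞 K) σ : 𝓞 K ≃ₐ[ℤ] 𝓞 K) : 𝓞 K →* 𝓞 K)

lemma unitsGal_coe (σ : K ≃ₐ[ℚ] K) (u : (𝓞 K)ˣ) :
    ((unitsGal σ u : (𝓞 K)ˣ) : 𝓞 K) = galRestrict ℤ ℚ K (𝓞 K) σ (u : 𝓞 K) := rfl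

lemma unitsGal_coe_coe (σ : K ≃ₐ[ℚ] K) (u : (𝓞 K)ˣ) :
    (((unitsGal σ u : (𝓞 K)ˣ) : 𝓞 K) : K) = σ ((u : 𝓞 K) : K) :=
  algebraMap_galRestrict_apply ℤ σ (u : 𝓞 K)

lemma unitsGal_mul (σ τ : K ≃ₐ[ℚ] K) (u : (𝓞 K)ˣ) :
    unitsGal (σ * τ) u = unitsGal σ (unitsGal τ u) := by
  apply Units.ext
  apply RingOfIntegers.ext
  rw [unitsGal_coe_coe, unitsGal_coe_coe, unitsGal_coe_coe]
  rfl

lemma unitsGal_one (u : (𝓞 K)ˣ) : unitsGal (1 : K ≃ₐ[ℚ] K) u = u := by
  apply Units.ext
  apply RingOfIntegers.ext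
  rw [unitsGal_coe_coe]
  rfl

/-- Pull back an infinite place along an automorphism. -/
noncomputable def placeComap (σ : K ≃ₐ[ℚ] K) (w : InfinitePlace K) : InfinitePlace K :=
  w.comap (σ.toRingEquiv : K →+* K)

lemma placeComap_apply (σ : K ≃ₐ[ℚ] K) (w : InfinitePlace K) (x : K) :
    placeComap σ w x = w (σ x) := rfl

lemma mult_placeComap (σ : K ≃ₐ[ℚ] K) (w : InfinitePlace K) :
    mult (placeComap σ w) = mult w := by
  unfold mult placeComap
  rw [isReal_comap_iff]

lemma placeComap_mul (σ τ : K ≃ₐ[ℚ] K) (w : InfinitePlace K) :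
    placeComap (σ * τ) w = placeComap τ (placeComap σ w) := by
  apply InfinitePlace.ext
  intro x
  rfl

lemma placeComap_one (w : InfinitePlace K) : placeComap (1 : K ≃ₐ[ℚ] K) w = w := by
  apply InfinitePlace.ext
  intro x
  rfl

lemma placeComap_injective (σ : K ≃ₐ[ℚ] K) : Function.Injective (placeComap σ) := by
  intro w w' h
  have := congrArg (placeComap σ⁻¹) h
  rwa [← placeComap_mul, ← placeComap_mul, mul_inv_cancel, placeComap_one, placeComap_one] at this

lemma place_unitsGal (σ : K ≃ₐ[ℚ] K) (w : InfinitePlace K) (u : (𝓞 K)ˣ) :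
    w (((unitsGal σ u : (𝓞 K)ˣ) : 𝓞 K) : K) = placeComap σ w ((u : 𝓞 K) : K) := by
  rw [unitsGal_coe_coe, placeComap_apply]

lemma unitsGal_mem_torsion (σ : K ≃ₐ[ℚ] K) {u : (𝓞 K)ˣ} (hu : u ∈ torsion K) :
    unitsGal σ u ∈ torsion K := by
  rw [mem_torsion] at hu ⊢
  intro w
  rw [place_unitsGal]
  exact hu _

/-! ### The exponent vector -/

variable (K) in
/-- The exponent vector of a unit with respect to the fundamental system. -/
noncomputable def expVec (u : (𝓞 K)ˣ) : Fin (rank K) → ℤ :=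
  (exist_unique_eq_mul_prod K u).exists.choose.2

/-- Every unit is a torsion unit times the product of the fundamental units raised to the
exponent vector. -/
lemma exists_torsion_mul_prod (u : (𝓞 K)ˣ) :
    ∃ ζ ∈ torsion K, u = ζ * ∏ i, fundSystem K i ^ expVec K u i :=
  ⟨((exist_unique_eq_mul_prod K u).exists.choose.1 : (𝓞 K)ˣ),
    (exist_unique_eq_mul_prod K u).exists.choose.1.2,
    (exist_unique_eq_mul_prod K u).exists.choose_spec⟩

lemma expVec_eq_of_eq {u ζ : (𝓞 K)ˣ} (hζ : ζ ∈ torsion K) {e : Fin (rank K) → ℤ}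
    (h : u = ζ * ∏ i, fundSystem K i ^ e i) : expVec K u = e := by
  have h1 := (exist_unique_eq_mul_prod K u).unique
    (exist_unique_eq_mul_prod K u).exists.choose_spec
    (y₂ := (⟨ζ, hζ⟩, e)) h
  exact congrArg Prod.snd h1

lemma expVec_mul (u v : (𝓞 K)ˣ) : expVec K (u * v) = expVec K u + expVec K v := by
  obtain ⟨ζ, hζ, hu⟩ := exists_torsion_mul_prod u
  obtain ⟨ζ', hζ', hv⟩ := exists_torsion_mul_prod v
  apply expVec_eq_of_eq (Subgroup.mul_mem _ hζ hζ')
  conv_lhs => rw [hu, hv]
  simp only [Pi.add_apply, zpow_add, Finset.prod_mul_distrib]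
  rw [mul_mul_mul_comm]

lemma expVec_eq_zero_iff {u : (𝓞 K)ˣ} : expVec K u = 0 ↔ u ∈ torsion K := by
  constructor
  · intro h
    obtain ⟨ζ, hζ, hu⟩ := exists_torsion_mul_prod u
    rw [h] at hu
    simp only [Pi.zero_apply, zpow_zero, Finset.prod_const_one, mul_one] at hu
    rw [hu]; exact hζ
  · intro h
    apply expVec_eq_of_eq h
    simp

lemma expVec_one : expVec K (1 : (𝓞 K)ˣ) = 0 :=
  expVec_eq_zero_iff.mpr (Subgroup.one_mem _)

lemma expVec_pow (u : (𝓞 K)ˣ) (n : ℕ) : expVec K (u ^ n) = n • expVec K u := by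
  induction n with
  | zero => simp [expVec_one]
  | succ n ih => rw [pow_succ, expVec_mul, ih, succ_nsmul]

lemma expVec_inv (u : (𝓞 K)ˣ) : expVec K u⁻¹ = - expVec K u := by
  have h := expVec_mul u u⁻¹
  rw [mul_inv_cancel, expVec_one] at h
  exact eq_neg_of_add_eq_zero_right h.symm

lemma expVec_zpow (u : (𝓞 K)ˣ) (n : ℤ) : expVec K (u ^ n) = n • expVec K u := by
  cases n with
  | ofNat n => simp [expVec_pow]
  | negSucc n =>
    rw [zpow_negSucc, expVec_inv, expVec_pow, negSucc_zsmul]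

lemma expVec_prod {ι : Type*} (s : Finset ι) (f : ι → (𝓞 K)ˣ) :
    expVec K (∏ i ∈ s, f i) = ∑ i ∈ s, expVec K (f i) := by
  classical
  induction s using Finset.induction_on with
  | empty => simp [expVec_one]
  | insert a s ha ih => rw [Finset.prod_insert ha, Finset.sum_insert ha, expVec_mul, ih]

lemma expVec_fundSystem (j : Fin (rank K)) :
    expVec K (fundSystem K j) = Pi.single j 1 := by
  classical
  apply expVec_eq_of_eq (Subgroup.one_mem _)
  rw [one_mul, Finset.prod_eq_single j]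
  · simp
  · intro i _ hij
    rw [Pi.single_apply, if_neg hij, zpow_zero]
  · intro h; exact absurd (Finset.mem_univ j) h

/-- A unit whose exponent vector is divisible by `n` is a torsion unit times an `n`-th power. -/
lemma exists_torsion_mul_pow_of_expVec (u : (𝓞 K)ˣ) (n : ℕ) (d : Fin (rank K) → ℤ)
    (h : expVec K u = (n : ℤ) • d) :
    ∃ ζ ∈ torsion K, ∃ k : (𝓞 K)ˣ, u = ζ * k ^ n := by
  obtain ⟨ζ, hζ, hu⟩ := exists_torsion_mul_prod u
  refine ⟨ζ, hζ, ∏ i, fundSystem K i ^ d i, ?_⟩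
  rw [hu, ← Finset.prod_pow]
  congr 2 with i
  rw [h, Pi.smul_apply, smul_eq_mul, mul_comm, zpow_mul, zpow_natCast]

/-! ### The Galois matrix -/

variable (K) in
/-- The matrix of the Galois action on units modulo torsion. -/
noncomputable def galMat (σ : K ≃ₐ[ℚ] K) : Matrix (Fin (rank K)) (Fin (rank K)) ℤ :=
  fun i j => expVec K (unitsGal σ (fundSystem K j)) i

lemma expVec_unitsGal (σ : K ≃ₐ[ℚ] K) (u : (𝓞 K)ˣ) :
    expVec K (unitsGal σ u) = (galMat K σ).mulVec (expVec K u) := by
  obtain ⟨ζ, hζ, hu⟩ := exists_torsion_mul_prod u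
  conv_lhs => rw [hu]
  rw [map_mul, map_prod, expVec_mul, expVec_eq_zero_iff.mpr (unitsGal_mem_torsion σ hζ), zero_add,
    expVec_prod]
  ext i
  rw [Finset.sum_apply, Matrix.mulVec, dotProduct]
  refine Finset.sum_congr rfl fun j _ => ?_
  rw [map_zpow, expVec_zpow, Pi.smul_apply, smul_eq_mul, mul_comm]
  rfl

lemma galMat_mul (σ τ : K ≃ₐ[ℚ] K) : galMat K (σ * τ) = galMat K σ * galMat K τ := by
  ext i j
  have h := congrFun (expVec_unitsGal σ (unitsGal τ (fundSystem K j))) i
  rw [← unitsGal_mul] at h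
  rw [Matrix.mul_apply]
  exact h

lemma galMat_one : galMat K (1 : K ≃ₐ[ℚ] K) = 1 := by
  classical
  ext i j
  unfold galMat
  rw [unitsGal_one, expVec_fundSystem, Matrix.one_apply, Pi.single_apply]

lemma galMat_pow (σ : K ≃ₐ[ℚ] K) (k : ℕ) : galMat K (σ ^ k) = galMat K σ ^ k := by
  induction k with
  | zero => simp [galMat_one]
  | succ k ih => rw [pow_succ, galMat_mul, ih, pow_succ]

/-- If `σ` fixes every infinite place, it acts trivially on units modulo torsion. -/
lemma galMat_eq_one_of_fix (σ : K ≃ₐ[ℚ] K) (hfix : ∀ w, placeComap σ w = w) :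
    galMat K σ = 1 := by
  classical
  ext i j
  have h1 : unitsGal σ (fundSystem K j) * (fundSystem K j)⁻¹ ∈ torsion K := by
    rw [mem_torsion]
    intro w
    have := place_unitsGal σ w (fundSystem K j)
    rw [hfix] at this
    rw [Units.val_mul, map_mul, map_mul, this, ← map_mul, ← map_mul, ← Units.val_mul,
      mul_inv_cancel, Units.val_one, map_one, map_one]
  have h2 := expVec_eq_zero_iff.mpr h1
  rw [expVec_mul, expVec_inv, add_neg_eq_zero] at h2
  unfold galMat
  rw [h2, expVec_fundSystem, Matrix.one_apply, Pi.single_apply]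

/-! ### The real picture: action on the logarithmic space -/

open scoped Classical in
/-- The action of `σ` on the logarithmic space. -/
noncomputable def logAct (σ : K ≃ₐ[ℚ] K) : logSpace K →ₗ[ℝ] logSpace K where
  toFun x := fun w =>
    if h : placeComap σ w.1 = w₀ then -∑ w', x w' else x ⟨placeComap σ w.1, h⟩
  map_add' x y := by
    ext w
    simp only [Pi.add_apply]
    split_ifs with h
    · rw [Finset.sum_add_distrib]; ring
    · rfl
  map_smul' c x := by
    ext w
    simp only [Pi.smul_apply, smul_eq_mul, RingHom.id_apply]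
    split_ifs with h
    · rw [← Finset.mul_sum]; ring
    · rfl

open scoped Classical in
lemma logAct_apply (σ : K ≃ₐ[ℚ] K) (x : logSpace K) (w : {w : InfinitePlace K // w ≠ w₀}) :
    logAct σ x w =
      if h : placeComap σ w.1 = w₀ then -∑ w', x w' else x ⟨placeComap σ w.1, h⟩ := rfl

lemma logEmbedding_unitsGal (σ : K ≃ₐ[ℚ] K) (u : (𝓞 K)ˣ) :
    logEmbedding K (Additive.ofMul (unitsGal σ u)) =
      logAct σ (logEmbedding K (Additive.ofMul u)) := by
  classical
  ext w
  rw [logEmbedding_component, place_unitsGal, logAct_apply]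
  split_ifs with h
  · rw [sum_logEmbedding_component, neg_mul, neg_neg]
    have h1 : mult (w₀ : InfinitePlace K) = mult w.1 := by
      rw [← mult_placeComap σ w.1, h]
    rw [h1, h]
  · rw [logEmbedding_component, mult_placeComap]

lemma trace_logAct (σ : K ≃ₐ[ℚ] K) (hfix : ∀ w, placeComap σ w ≠ w) :
    LinearMap.trace ℝ (logSpace K) (logAct σ) = -1 := by
  classical
  rw [LinearMap.trace_eq_matrix_trace ℝ (Pi.basisFun ℝ _), Matrix.trace]
  simp only [Matrix.diag_apply, LinearMap.toMatrix_apply, Pi.basisFun_apply, Pi.basisFun_repr]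
  have hstar : placeComap σ (placeComap σ⁻¹ (w₀ : InfinitePlace K)) = w₀ := by
    rw [← placeComap_mul, inv_mul_cancel, placeComap_one]
  have hne : placeComap σ⁻¹ (w₀ : InfinitePlace K) ≠ w₀ := by
    intro h
    rw [h] at hstar
    exact hfix _ hstar
  rw [Finset.sum_eq_single (⟨placeComap σ⁻¹ w₀, hne⟩ : {w : InfinitePlace K // w ≠ w₀})]
  · rw [logAct_apply, dif_pos hstar, Finset.sum_pi_single']
    simp
  · intro w _ hw
    have h1 : placeComap σ w.1 ≠ w₀ := by
      intro h
      apply hw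
      apply Subtype.ext
      apply placeComap_injective σ
      rw [h, hstar]
    rw [logAct_apply, dif_neg h1, Pi.single_apply, if_neg]
    intro h2
    exact hfix w.1 (congrArg Subtype.val h2)
  · intro h; exact absurd (Finset.mem_univ _) h

/-- The log embedding of a unit in terms of its exponent vector. -/
lemma logEmbedding_eq_sum (u : (𝓞 K)ˣ) :
    logEmbedding K (Additive.ofMul u) =
      ∑ k, (expVec K u k : ℝ) • logEmbedding K (Additive.ofMul (fundSystem K k)) := by
  obtain ⟨ζ, hζ, hu⟩ := exists_torsion_mul_prod u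
  conv_lhs => rw [hu]
  rw [ofMul_mul, map_add, logEmbedding_eq_zero_iff.mpr hζ, zero_add, ofMul_prod, map_sum]
  refine Finset.sum_congr rfl fun k _ => ?_
  rw [ofMul_zpow, map_zsmul, Int.cast_smul_eq_zsmul]

lemma trace_galMat_eq (σ : K ≃ₐ[ℚ] K) :
    (((galMat K σ).trace : ℤ) : ℝ) = LinearMap.trace ℝ (logSpace K) (logAct σ) := by
  classical
  have hB : ∀ j, (basisUnitLattice K).ofZLatticeBasis ℝ (unitLattice K) j =
      logEmbedding K (Additive.ofMul (fundSystem K j)) := by
    intro j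
    rw [Basis.ofZLatticeBasis_apply, logEmbedding_fundSystem]
  rw [LinearMap.trace_eq_matrix_trace ℝ ((basisUnitLattice K).ofZLatticeBasis ℝ (unitLattice K))]
  have : LinearMap.toMatrix ((basisUnitLattice K).ofZLatticeBasis ℝ (unitLattice K))
      ((basisUnitLattice K).ofZLatticeBasis ℝ (unitLattice K)) (logAct σ) =
      (galMat K σ).map (Int.cast : ℤ → ℝ) := by
    ext i j
    rw [LinearMap.toMatrix_apply, Matrix.map_apply, hB j, ← logEmbedding_unitsGal,
      logEmbedding_eq_sum]
    simp_rw [← hB]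
    rw [Basis.repr_sum_self]
    rfl
  rw [this]
  simp [Matrix.trace, Matrix.map_apply]

/-- **Trace formula**: if `σ` fixes no infinite place, the trace of its action on units modulo
torsion is `-1`. -/
theorem trace_galMat (σ : K ≃ₐ[ℚ] K) (hfix : ∀ w, placeComap σ w ≠ w) :
    (galMat K σ).trace = -1 := by
  have h := trace_galMat_eq σ
  rw [trace_logAct σ hfix] at h
  exact_mod_cast h

end Fermat.Agent.S14.helper9
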