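import Mathlib
import Fermat.Agent.S14.helper9_EigenLin
import Fermat.Agent.S14.helper9_UnitTrace

/-!
# helper9: the `ω²`-eigenspace of units modulo `p`-th powers has dimension `≤ 1`
(task S14-R2-U of helper99's route R2 for S14)
-/

set_option autoImplicit false

namespace Fermat.Agent.S14.helper9

open NumberField NumberField.Units NumberField.InfinitePlace Module

variable {p : ℕ} [Fact p.Prime] {K : Type*} [Field K] [NumberField K]
  [IsCyclotomicExtension {p} ℚ K]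

/-! ### Galois automorphisms of the cyclotomic field -/

/-- Two ring homomorphisms from the cyclotomic field to a field of characteristic zero agreeing
on `ζ` are equal. -/
lemma ringHom_ext_of_apply_zeta {ζ : K} (hζ : IsPrimitiveRoot ζ p) {L : Type*} [Field L]
    [CharZero L] (φ ψ : K →+* L) (h : φ ζ = ψ ζ) : φ = ψ := by
  have h1 : φ.toRatAlgHom = ψ.toRatAlgHom := by
    apply (hζ.powerBasis ℚ).algHom_ext
    rw [IsPrimitiveRoot.powerBasis_gen]
    exact h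
  ext x
  exact congrArg (fun f : K →ₐ[ℚ] L => f x) h1

/-- For every unit `g` of `ZMod p` there is an automorphism raising `ζ` to the power `g`. -/
lemma exists_aut_pow {ζ : K} (hζ : IsPrimitiveRoot ζ p) (g : (ZMod p)ˣ) :
    ∃ σ : K ≃ₐ[ℚ] K, σ ζ = ζ ^ (g : ZMod p).val := by
  have hirr : Irreducible (Polynomial.cyclotomic p ℚ) :=
    Polynomial.cyclotomic.irreducible_rat (Fact.out : p.Prime).pos
  refine ⟨(IsCyclotomicExtension.autEquivPow K hirr).symm g, ?_⟩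
  have h1 := (IsCyclotomicExtension.zeta_spec p ℚ K).autToPow_spec ℚ
    ((IsCyclotomicExtension.autEquivPow K hirr).symm g)
  have h2 : (IsCyclotomicExtension.zeta_spec p ℚ K).autToPow ℚ
      ((IsCyclotomicExtension.autEquivPow K hirr).symm g) = g :=
    (IsCyclotomicExtension.autEquivPow K hirr).apply_symm_apply g
  rw [h2] at h1
  obtain ⟨k, -, hk⟩ := (IsCyclotomicExtension.zeta_spec p ℚ K).eq_pow_of_pow_eq_one hζ.pow_eq_one
  rw [← hk, map_pow, ← h1, ← pow_mul, ← pow_mul, mul_comm]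

lemma aut_pow_apply {ζ : K} (σ : K ≃ₐ[ℚ] K) (n : ℕ) (hσ : σ ζ = ζ ^ n) (k : ℕ) :
    (σ ^ k) ζ = ζ ^ (n ^ k) := by
  induction k with
  | zero => simp
  | succ k ih =>
    rw [pow_succ, AlgEquiv.mul_apply, hσ, map_pow, ih, ← pow_mul, pow_succ]

omit [IsCyclotomicExtension {p} ℚ K] in
/-- If `τ ζ = ζ ^ a` and `τ` fixes some infinite place, then `a = ±1` in `ZMod p`. -/
lemma eq_one_or_neg_one_of_placeComap_eq {ζ : K} (hζ : IsPrimitiveRoot ζ p)
    (τ : K ≃ₐ[ℚ] K) (a : ℕ) (hτ : τ ζ = ζ ^ a) (w : InfinitePlace K)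
    (hw : placeComap τ w = w) : (a : ZMod p) = 1 ∨ (a : ZMod p) = -1 := by
  have hp0 : p ≠ 0 := (Fact.out : p.Prime).ne_zero
  have hz : IsPrimitiveRoot (w.embedding ζ) p := hζ.map_of_injective w.embedding.injective
  have hw' : InfinitePlace.mk (w.embedding.comp (τ.toRingEquiv : K →+* K)) =
      InfinitePlace.mk w.embedding := by
    have : placeComap τ (InfinitePlace.mk w.embedding) = InfinitePlace.mk w.embedding := by
      rw [mk_embedding]; exact hw
    exact this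
  rw [mk_eq_iff] at hw'
  rcases hw' with h | h
  · left
    have h1 : w.embedding (τ ζ) = w.embedding ζ := congrArg (fun f : K →+* ℂ => f ζ) h
    have h2 : w.embedding ζ ^ a = w.embedding ζ := by
      rw [← map_pow, ← hτ]; exact h1
    have hz0 : w.embedding ζ ≠ 0 := hz.ne_zero hp0
    rcases Nat.eq_zero_or_pos a with ha | ha
    · exfalso
      rw [ha, pow_zero] at h2
      have h3 := hz.dvd_of_pow_eq_one 1 (by rw [pow_one]; exact h2.symm)
      exact (Fact.out : p.Prime).one_lt.ne' (Nat.dvd_one.mp h3)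
    · obtain ⟨b, rfl⟩ : ∃ b, a = b + 1 := ⟨a - 1, by omega⟩
      rw [pow_succ] at h2
      have h3 : w.embedding ζ ^ b = 1 := by
        have := mul_right_cancel₀ hz0 (h2.trans (one_mul _).symm)
        exact this
      have h4 := hz.dvd_of_pow_eq_one _ h3
      rw [← ZMod.natCast_eq_zero_iff] at h4
      push_cast
      rw [h4, zero_add]
  · right
    have h1 : (starRingEnd ℂ) (w.embedding (τ ζ)) = w.embedding ζ :=
      congrArg (fun f : K →+* ℂ => f ζ) h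
    have hnorm : ‖w.embedding ζ‖ = 1 := Complex.norm_eq_one_of_pow_eq_one hz.pow_eq_one hp0
    have hz0 : w.embedding ζ ≠ 0 := hz.ne_zero hp0
    have h2 : w.embedding ζ ^ (a + 1) = 1 := by
      rw [hτ, map_pow, map_pow, ← Complex.inv_eq_conj hnorm] at h1
      rw [pow_succ]
      nth_rewrite 2 [← h1]
      rw [inv_pow, mul_inv_cancel₀ (pow_ne_zero _ hz0)]
    have h3 := hz.dvd_of_pow_eq_one _ h2
    rw [← ZMod.natCast_eq_zero_iff] at h3
    push_cast at h3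
    exact eq_neg_of_add_eq_zero_left h3

/-- If `τ ζ = ζ ^ a` with `a = -1` in `ZMod p`, then `τ` fixes every infinite place. -/
lemma placeComap_eq_of_neg_one {ζ : K} (hζ : IsPrimitiveRoot ζ p)
    (τ : K ≃ₐ[ℚ] K) (a : ℕ) (hτ : τ ζ = ζ ^ a) (ha : (a : ZMod p) = -1)
    (w : InfinitePlace K) : placeComap τ w = w := by
  have hp0 : p ≠ 0 := (Fact.out : p.Prime).ne_zero
  have hz : IsPrimitiveRoot (w.embedding ζ) p := hζ.map_of_injective w.embedding.injective
  have hnorm : ‖w.embedding ζ‖ = 1 := Complex.norm_eq_one_of_pow_eq_one hz.pow_eq_one hp0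
  have hz0 : w.embedding ζ ≠ 0 := hz.ne_zero hp0
  have h1 : w.embedding ζ ^ (a + 1) = 1 := by
    have : ((a + 1 : ℕ) : ZMod p) = 0 := by push_cast; rw [ha]; ring
    rw [ZMod.natCast_eq_zero_iff] at this
    obtain ⟨c, hc⟩ := this
    rw [hc, pow_mul, hz.pow_eq_one, one_pow]
  have h2 : ComplexEmbedding.conjugate (w.embedding.comp (τ.toRingEquiv : K →+* K)) =
      w.embedding := by
    apply ringHom_ext_of_apply_zeta hζ
    rw [ComplexEmbedding.conjugate_coe_eq]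
    change (starRingEnd ℂ) (w.embedding (τ ζ)) = w.embedding ζ
    rw [hτ, map_pow, map_pow, ← Complex.inv_eq_conj hnorm, inv_pow]
    rw [pow_succ] at h1
    exact inv_eq_of_mul_eq_one_right h1
  have h3 : placeComap τ (InfinitePlace.mk w.embedding) = InfinitePlace.mk w.embedding := by
    change InfinitePlace.mk (w.embedding.comp (τ.toRingEquiv : K →+* K)) = _
    rw [mk_eq_iff]
    exact Or.inr h2
  rwa [mk_embedding] at h3

/-! ### Torsion units -/

/-- A torsion unit `t` with `σ t = t ^ (n ^ 2) * y ^ p` where `σ ζ = ζ ^ n`, `n ≠ 0, 1` mod `p`,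
satisfies `t ^ p = t`. -/
lemma torsion_pow_eq_self (hp2 : p ≠ 2) {ζ : K} (hζ : IsPrimitiveRoot ζ p)
    (σ : K ≃ₐ[ℚ] K) (n : ℕ) (hσ : σ ζ = ζ ^ n) (hn0 : (n : ZMod p) ≠ 0)
    (hn1 : (n : ZMod p) ≠ 1) {t : (𝓞 K)ˣ} (ht : t ∈ torsion K) (y : (𝓞 K)ˣ)
    (h : unitsGal σ t = t ^ (n ^ 2) * y ^ p) : t ^ p = t := by
  have hpp : p.Prime := Fact.out
  have hp0 : p ≠ 0 := hpp.ne_zero
  have hodd : Odd p := hpp.odd_of_ne_two hp2
  -- `y` is torsion
  have hy : y ∈ torsion K := by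
    have h1 : y ^ p ∈ torsion K := by
      have : y ^ p = (t ^ (n ^ 2))⁻¹ * unitsGal σ t := by rw [h, inv_mul_cancel_left]
      rw [this]
      exact Subgroup.mul_mem _ (Subgroup.inv_mem _ (Subgroup.pow_mem _ ht _))
        (unitsGal_mem_torsion σ ht)
    exact IsOfFinOrder.of_pow h1 hp0
  -- explicit shapes in `K`
  have htK : IsOfFinOrder (((t : 𝓞 K) : K)) := by
    have h1 : IsOfFinOrder t := ht
    have h2 : IsOfFinOrder (t : 𝓞 K) := Units.isOfFinOrder_val.mpr h1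
    exact MonoidHom.isOfFinOrder ((algebraMap (𝓞 K) K : 𝓞 K →+* K) : 𝓞 K →* K) h2
  have hyK : IsOfFinOrder (((y : 𝓞 K) : K)) := by
    have h1 : IsOfFinOrder y := hy
    have h2 : IsOfFinOrder (y : 𝓞 K) := Units.isOfFinOrder_val.mpr h1
    exact MonoidHom.isOfFinOrder ((algebraMap (𝓞 K) K : 𝓞 K →+* K) : 𝓞 K →* K) h2
  obtain ⟨r, -, hr⟩ := hζ.exists_pow_or_neg_mul_pow_of_isOfFinOrder hodd htK
  obtain ⟨s, -, hs⟩ := hζ.exists_pow_or_neg_mul_pow_of_isOfFinOrder hodd hyK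
  have ht2 : (((t : 𝓞 K) : K)) ^ 2 = ζ ^ (2 * r) := by
    rcases hr with hr | hr <;> rw [hr] <;> ring
  have hy2 : ((((y : 𝓞 K) : K)) ^ p) ^ 2 = 1 := by
    have : (((y : 𝓞 K) : K)) ^ 2 = ζ ^ (2 * s) := by
      rcases hs with hs | hs <;> rw [hs] <;> ring
    rw [← pow_mul, mul_comm, pow_mul, this, ← pow_mul, mul_comm, pow_mul, hζ.pow_eq_one, one_pow]
  -- the equation in `K`
  have hK : σ ((t : 𝓞 K) : K) = ((t : 𝓞 K) : K) ^ (n ^ 2) * ((y : 𝓞 K) : K) ^ p := by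
    rw [← unitsGal_coe_coe, h]
    push_cast
    rfl
  have hK2 : σ (((t : 𝓞 K) : K) ^ 2) = (((t : 𝓞 K) : K) ^ 2) ^ (n ^ 2) := by
    rw [map_pow, hK, mul_pow, hy2, mul_one, ← pow_mul, ← pow_mul, mul_comm]
  rw [ht2, map_pow, hσ, ← pow_mul, ← pow_mul] at hK2
  -- so `n * (2 * r) ≡ 2 * r * n ^ 2` mod `p`
  have hcong : ((n * (2 * r) : ℕ) : ZMod p) = ((2 * r * n ^ 2 : ℕ) : ZMod p) := by
    have hz0 : ζ ≠ 0 := hζ.ne_zero hp0
    have h1 : ζ ^ (((n * (2 * r) : ℕ) : ℤ) - ((2 * r * n ^ 2 : ℕ) : ℤ)) = 1 := by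
      rw [zpow_sub₀ hz0, zpow_natCast, zpow_natCast, hK2, div_self (pow_ne_zero _ hz0)]
    rw [hζ.zpow_eq_one_iff_dvd] at h1
    have h2 := (ZMod.intCast_zmod_eq_zero_iff_dvd _ p).mpr h1
    push_cast at h2
    push_cast
    exact sub_eq_zero.mp h2
  have hr0 : (r : ZMod p) = 0 := by
    push_cast at hcong
    have h2 : (2 : ZMod p) ≠ 0 := by
      intro h2
      have : ((2 : ℕ) : ZMod p) = 0 := by exact_mod_cast h2
      rw [ZMod.natCast_eq_zero_iff] at this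
      have := (Nat.prime_dvd_prime_iff_eq hpp Nat.prime_two).mp this
      exact hp2 this
    have h3 : (2 : ZMod p) * (r : ZMod p) * (n : ZMod p) * (1 - (n : ZMod p)) = 0 := by
      linear_combination hcong
    have h1n : (1 - (n : ZMod p)) ≠ 0 := sub_ne_zero.mpr (Ne.symm hn1)
    rcases mul_eq_zero.mp h3 with h4 | h4
    · rcases mul_eq_zero.mp h4 with h5 | h5
      · rcases mul_eq_zero.mp h5 with h6 | h6
        · exact absurd h6 h2
        · exact h6
      · exact absurd h5 hn0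
    · exact absurd h4 h1n
  have hζr : ζ ^ r = 1 := by
    rw [hζ.pow_eq_one_iff_dvd, ← ZMod.natCast_eq_zero_iff]
    exact hr0
  -- hence `t = ± 1`
  have htsq : ((t : 𝓞 K) : K) ^ 2 = 1 := by
    rw [ht2, pow_mul', hζr, one_pow]
  have htp : ((t : 𝓞 K) : K) ^ p = ((t : 𝓞 K) : K) := by
    obtain ⟨c, hc⟩ := hodd
    rw [hc, pow_succ, pow_mul, htsq, one_pow, one_mul]
  apply Units.ext
  apply RingOfIntegers.ext
  push_cast
  exact htp

/-! ### The eigen-condition -/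

/-- `x` is an `ω²`-eigenvector modulo `p`-th powers for `σ` (with `σ ζ = ζ ^ n`). -/
def IsEig (p : ℕ) (σ : K ≃ₐ[ℚ] K) (n : ℕ) (x : (𝓞 K)ˣ) : Prop :=
  ∃ y : (𝓞 K)ˣ, unitsGal σ x = x ^ (n ^ 2) * y ^ p

omit [Fact p.Prime] [IsCyclotomicExtension {p} ℚ K] in
lemma IsEig.mul {σ : K ≃ₐ[ℚ] K} {n : ℕ} {x x' : (𝓞 K)ˣ} (h : IsEig p σ n x)
    (h' : IsEig p σ n x') : IsEig p σ n (x * x') := by
  obtain ⟨y, hy⟩ := h
  obtain ⟨y', hy'⟩ := h'
  exact ⟨y * y', by rw [map_mul, hy, hy', mul_pow, mul_pow, mul_mul_mul_comm]⟩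

omit [Fact p.Prime] [IsCyclotomicExtension {p} ℚ K] in
lemma IsEig.inv {σ : K ≃ₐ[ℚ] K} {n : ℕ} {x : (𝓞 K)ˣ} (h : IsEig p σ n x) :
    IsEig p σ n x⁻¹ := by
  obtain ⟨y, hy⟩ := h
  exact ⟨y⁻¹, by rw [map_inv, hy, mul_inv, inv_pow, inv_pow]⟩

omit [Fact p.Prime] [IsCyclotomicExtension {p} ℚ K] in
lemma IsEig.pow {σ : K ≃ₐ[ℚ] K} {n : ℕ} {x : (𝓞 K)ˣ} (h : IsEig p σ n x) (j : ℕ) :
    IsEig p σ n (x ^ j) := by
  obtain ⟨y, hy⟩ := h
  exact ⟨y ^ j, by rw [map_pow, hy, mul_pow, pow_right_comm x, pow_right_comm y]⟩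

omit [Fact p.Prime] [IsCyclotomicExtension {p} ℚ K] in
lemma isEig_pow_p (σ : K ≃ₐ[ℚ] K) (n : ℕ) (k : (𝓞 K)ˣ) : IsEig p σ n (k ^ p) :=
  ⟨unitsGal σ k * (k ^ (n ^ 2))⁻¹, by
    rw [map_pow, mul_pow, inv_pow, pow_right_comm k, mul_comm, inv_mul_cancel_right]⟩

/-- An eigen-unit whose exponent vector is divisible by `p` is a `p`-th power. -/
lemma exists_eq_pow_of_expVec_dvd (hp2 : p ≠ 2) {ζ : K} (hζ : IsPrimitiveRoot ζ p)
    (σ : K ≃ₐ[ℚ] K) (n : ℕ) (hσ : σ ζ = ζ ^ n) (hn0 : (n : ZMod p) ≠ 0)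
    (hn1 : (n : ZMod p) ≠ 1) (w : (𝓞 K)ˣ) (hw : IsEig p σ n w)
    (hdiv : ∀ i, (p : ℤ) ∣ expVec K w i) : ∃ k : (𝓞 K)ˣ, w = k ^ p := by
  choose d hd using hdiv
  obtain ⟨t, ht, k, hk⟩ := exists_torsion_mul_pow_of_expVec w p d
    (by ext i; rw [hd i, Pi.smul_apply, smul_eq_mul])
  have ht' : t = w * (k ^ p)⁻¹ := by rw [hk, mul_inv_cancel_right]
  have hteig : IsEig p σ n t := by
    rw [ht']
    exact hw.mul (isEig_pow_p σ n k).inv
  obtain ⟨y, hy⟩ := hteig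
  have h2 := torsion_pow_eq_self hp2 hζ σ n hσ hn0 hn1 ht y hy
  exact ⟨t * k, by rw [mul_pow, h2]; exact hk⟩

/-! ### Cardinalities -/

lemma rank_add_one (hp : 5 ≤ p) : rank K + 1 = (p - 1) / 2 := by
  have hpp : p.Prime := Fact.out
  have h1 : Fintype.card (InfinitePlace K) = (p - 1) / 2 := by
    rw [card_eq_nrRealPlaces_add_nrComplexPlaces,
      IsCyclotomicExtension.Rat.nrRealPlaces_eq_zero (n := p) K (by omega),
      IsCyclotomicExtension.Rat.nrComplexPlaces_eq_totient_div_two p K, zero_add,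
      Nat.totient_prime hpp]
  unfold rank
  rw [h1]
  have : 2 ≤ (p - 1) / 2 := by omega
  omega

/-! ### Reduction modulo `p` -/

/-- Reduction of an integral vector modulo `p`. -/
def redVec (p : ℕ) {ι : Type*} (x : ι → ℤ) : ι → ZMod p := fun i => ((x i : ℤ) : ZMod p)

omit [IsCyclotomicExtension {p} ℚ K] in
lemma toLin'_redVec (σ : K ≃ₐ[ℚ] K) (u : (𝓞 K)ˣ) :
    Matrix.toLin' ((galMat K σ).map (Int.castRingHom (ZMod p))) (redVec p (expVec K u)) =
      redVec p (expVec K (unitsGal σ u)) := by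
  rw [Matrix.toLin'_apply, expVec_unitsGal]
  ext i
  exact (RingHom.map_mulVec (Int.castRingHom (ZMod p)) (galMat K σ) (expVec K u) i).symm

omit [IsCyclotomicExtension {p} ℚ K] in
lemma toLin'_pow_galMat (σ : K ≃ₐ[ℚ] K) (k : ℕ) :
    (Matrix.toLin' ((galMat K σ).map (Int.castRingHom (ZMod p)))) ^ k =
      Matrix.toLin' ((galMat K (σ ^ k)).map (Int.castRingHom (ZMod p))) := by
  induction k with
  | zero =>
    rw [pow_zero, pow_zero, galMat_one, Matrix.map_one _ (map_zero _) (map_one _),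
      Matrix.toLin'_one]
    rfl
  | succ k ih =>
    rw [pow_succ, ih, pow_succ, galMat_mul, Matrix.map_mul, Matrix.toLin'_mul]
    rfl

/-- **Task S14-R2-U.** The `ω²`-eigenspace of the units of `ℚ(ζ_p)` modulo `p`-th powers has
dimension at most one. -/
theorem unit_eigenspace_dim_le_one (hp : 5 ≤ p) {ζ : K} (hζ : IsPrimitiveRoot ζ p)
    (u v : (𝓞 K)ˣ)
    (hu : ∀ (σ : K ≃ₐ[ℚ] K) (n : ℕ), σ ζ = ζ ^ n → ∃ k : (𝓞 K)ˣ,
      galRestrict ℤ ℚ K (𝓞 K) σ (u : 𝓞 K) = (u : 𝓞 K) ^ (n ^ 2) * (k : 𝓞 K) ^ p)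
    (hv : ∀ (σ : K ≃ₐ[ℚ] K) (n : ℕ), σ ζ = ζ ^ n → ∃ k : (𝓞 K)ˣ,
      galRestrict ℤ ℚ K (𝓞 K) σ (v : 𝓞 K) = (v : 𝓞 K) ^ (n ^ 2) * (k : 𝓞 K) ^ p)
    (hv' : ¬ ∃ k : (𝓞 K)ˣ, k ^ p = v) :
    ∃ (j : ℕ) (k : (𝓞 K)ˣ), u = v ^ j * k ^ p := by
  classical
  have hpp : p.Prime := Fact.out
  have hp2 : p ≠ 2 := by omega
  have hp0 : p ≠ 0 := hpp.ne_zero
  -- a generator of `(ZMod p)ˣ`
  obtain ⟨g, hg⟩ := IsCyclic.exists_generator (α := (ZMod p)ˣ)
  have hord : orderOf g = p - 1 := by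
    rw [orderOf_eq_card_of_forall_mem_zpowers hg, Nat.card_eq_fintype_card, ZMod.card_units]
  obtain ⟨σ, hσ⟩ := exists_aut_pow hζ g
  set n : ℕ := (g : ZMod p).val with hn
  have hng : (n : ZMod p) = (g : ZMod p) := ZMod.natCast_zmod_val _
  set m : ℕ := (p - 1) / 2 with hm
  have h2m : 2 * m = p - 1 := by
    have := hpp.odd_of_ne_two hp2
    obtain ⟨c, hc⟩ := this
    omega
  have hm2 : 2 ≤ m := by omega
  -- powers of `n` modulo `p`
  have hpow1 : ∀ k : ℕ, ((n ^ k : ℕ) : ZMod p) = 1 ↔ (p - 1) ∣ k := by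
    intro k
    rw [Nat.cast_pow, hng, ← Units.val_pow_eq_pow_val, ← hord, orderOf_dvd_iff_pow_eq_one,
      ← Units.val_one, Units.val_inj]
  have hpowne : ∀ k : ℕ, 0 < k → k < m →
      ((n ^ k : ℕ) : ZMod p) ≠ 1 ∧ ((n ^ k : ℕ) : ZMod p) ≠ -1 := by
    intro k hk0 hkm
    constructor
    · rw [Ne, hpow1]
      intro hdvd
      have := Nat.le_of_dvd hk0 hdvd
      omega
    · intro hneg
      have h1 : ((n ^ (2 * k) : ℕ) : ZMod p) = 1 := by
        rw [mul_comm, pow_mul, Nat.cast_pow, hneg]; ring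
      rw [hpow1] at h1
      have := Nat.le_of_dvd (by omega) h1
      omega
  have hpowm : ((n ^ m : ℕ) : ZMod p) = -1 := by
    have h1 : ((n ^ m : ℕ) : ZMod p) ^ 2 = 1 := by
      rw [← Nat.cast_pow, ← pow_mul, mul_comm, h2m, hpow1]
    have h2 : ((n ^ m : ℕ) : ZMod p) ≠ 1 := by
      rw [Ne, hpow1]
      intro hdvd
      have := Nat.le_of_dvd (by omega) hdvd
      omega
    rcases mul_self_eq_one_iff.mp ((sq _).symm.trans h1) with h3 | h3
    · exact absurd h3 h2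
    · exact h3
  have hn0 : (n : ZMod p) ≠ 0 := by
    rw [hng]; exact Units.ne_zero g
  have hn1 : (n : ZMod p) ≠ 1 := by
    have := (hpowne 1 one_pos (by omega)).1
    rwa [pow_one] at this
  -- eigen-conditions
  have hue : IsEig p σ n u := by
    obtain ⟨k, hk⟩ := hu σ n hσ
    exact ⟨k, Units.ext (by rw [unitsGal_coe, hk]; push_cast; rfl)⟩
  have hve : IsEig p σ n v := by
    obtain ⟨k, hk⟩ := hv σ n hσ
    exact ⟨k, Units.ext (by rw [unitsGal_coe, hk]; push_cast; rfl)⟩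
  -- the linear algebra
  set f := Matrix.toLin' ((galMat K σ).map (Int.castRingHom (ZMod p))) with hf
  set c : ZMod p := (n : ZMod p) ^ 2 with hc
  have hrank : rank K + 1 = m := rank_add_one hp
  have hmF : ((m : ℕ) : ZMod p) ≠ 0 := by
    rw [Ne, ZMod.natCast_eq_zero_iff]
    intro hdvd
    have := Nat.le_of_dvd (by omega) hdvd
    omega
  have hfm : f ^ m = 1 := by
    rw [hf, toLin'_pow_galMat, galMat_eq_one_of_fix (σ ^ m)
      (placeComap_eq_of_neg_one hζ (σ ^ m) (n ^ m) (aut_pow_apply σ n hσ m) hpowm),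
      Matrix.map_one _ (map_zero _) (map_one _), Matrix.toLin'_one]
    rfl
  have hcm : c ^ m = 1 := by
    rw [hc, ← pow_mul, h2m, ← Nat.cast_pow, hpow1]
  have hc1 : c ≠ 1 := by
    rw [hc, ← Nat.cast_pow, Ne, hpow1]
    intro hdvd
    have := Nat.le_of_dvd (by omega) hdvd
    omega
  have htr : ∀ k, 0 < k → k < m → LinearMap.trace (ZMod p) _ (f ^ k) = -1 := by
    intro k hk0 hkm
    rw [hf, toLin'_pow_galMat, Matrix.trace_toLin'_eq]
    have h1 : (galMat K (σ ^ k)).trace = -1 := by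
      apply trace_galMat
      intro w hw
      rcases eq_one_or_neg_one_of_placeComap_eq hζ (σ ^ k) (n ^ k) (aut_pow_apply σ n hσ k) w hw
        with h | h
      · exact (hpowne k hk0 hkm).1 h
      · exact (hpowne k hk0 hkm).2 h
    have h2 : ((galMat K (σ ^ k)).map (Int.castRingHom (ZMod p))).trace =
        Int.castRingHom (ZMod p) ((galMat K (σ ^ k)).trace) := by
      simp [Matrix.trace, Matrix.map_apply]
    rw [h2, h1]
    simp
  have hdim : finrank (ZMod p) (Fin (rank K) → ZMod p) + 1 = m := by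
    rw [Module.finrank_fin_fun]; exact hrank
  have hlt : finrank (ZMod p) (Fin (rank K) → ZMod p) < p := by
    rw [Module.finrank_fin_fun]; omega
  -- eigenvectors
  have heig : ∀ x : (𝓞 K)ˣ, IsEig p σ n x →
      f (redVec p (expVec K x)) = c • redVec p (expVec K x) := by
    intro x hx
    obtain ⟨y, hy⟩ := hx
    rw [hf, toLin'_redVec, hy, expVec_mul, expVec_pow, expVec_pow]
    ext i
    change (((n ^ 2 • expVec K x + p • expVec K y) i : ℤ) : ZMod p) =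
      c * ((expVec K x i : ℤ) : ZMod p)
    rw [Pi.add_apply, Pi.smul_apply, Pi.smul_apply, nsmul_eq_mul, nsmul_eq_mul]
    push_cast
    rw [ZMod.natCast_self, zero_mul, add_zero, hc]
  -- `v` is nonzero modulo `p`
  have hv0 : redVec p (expVec K v) ≠ 0 := by
    intro h0
    apply hv'
    have hdiv : ∀ i, (p : ℤ) ∣ expVec K v i := by
      intro i
      have := congrFun h0 i
      simp only [redVec, Pi.zero_apply] at this
      exact (ZMod.intCast_zmod_eq_zero_iff_dvd _ _).mp this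
    obtain ⟨k, hk⟩ := exists_eq_pow_of_expVec_dvd hp2 hζ σ n hσ hn0 hn1 v hve hdiv
    exact ⟨k, hk.symm⟩
  obtain ⟨a, ha⟩ := exists_smul_eq_of_eigen p f m hmF hfm c hcm hc1 htr hdim hlt
    hpp.one_lt (heig u hue) (heig v hve) hv0
  -- conclusion
  have hw : IsEig p σ n (u * (v ^ a.val)⁻¹) := hue.mul (hve.pow a.val).inv
  have hdiv : ∀ i, (p : ℤ) ∣ expVec K (u * (v ^ a.val)⁻¹) i := by
    intro i
    rw [expVec_mul, expVec_inv, expVec_pow, ← ZMod.intCast_zmod_eq_zero_iff_dvd]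
    have := congrFun ha i
    simp only [redVec, Pi.smul_apply, smul_eq_mul] at this
    rw [Pi.add_apply, Pi.neg_apply, Pi.smul_apply, nsmul_eq_mul]
    push_cast
    rw [this, ZMod.natCast_zmod_val]
    ring
  obtain ⟨k, hk⟩ := exists_eq_pow_of_expVec_dvd hp2 hζ σ n hσ hn0 hn1 _ hw hdiv
  refine ⟨a.val, k, ?_⟩
  rw [← hk, mul_comm, inv_mul_cancel_right]

end Fermat.Agent.S14.helper9
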