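import Mathlib
import Fermat.Agent.S14.helper15_CycE2
import Fermat.Agent.S14.helper9_UnitEigen

/-!
# S14 route R2, assembly sub-piece R2-A-E (helper96, task 286)

`core_kummer_endgame`: if `α = u * β₀ ^ p` with `u` a unit of `ℤ[ζ_p]`, `α` is an
`ω²`-eigenvector modulo `p`-th powers and satisfies the local condition at `ζ - 1`, then `α` is
a `p`-th power.  Uses R2-U (`helper9.unit_eigenspace_dim_le_one`) and R2-D
(`helper15.exists_cycE2`).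
-/

set_option autoImplicit false

namespace Fermat.Agent.S14.helper96

open NumberField

variable {p : ℕ} [Fact p.Prime] {K : Type*} [Field K] [NumberField K]
  [IsCyclotomicExtension {p} ℚ K]

omit [IsCyclotomicExtension {p} ℚ K] in
/-- An element of `K` whose `p`-th power is a unit of `𝓞 K` is (the image of) a unit. -/
theorem exists_unit_of_pow_eq (hp0 : p ≠ 0) (k : K) (w : (𝓞 K)ˣ)
    (h : k ^ p = ((w : 𝓞 K) : K)) : ∃ k' : (𝓞 K)ˣ, ((k' : 𝓞 K) : K) = k := by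
  have hint : IsIntegral ℤ k := by
    apply IsIntegral.of_pow (Nat.pos_of_ne_zero hp0)
    rw [h]
    exact RingOfIntegers.isIntegral_coe _
  obtain ⟨k0, hk0⟩ : ∃ k0 : 𝓞 K, (k0 : K) = k := ⟨⟨k, hint⟩, rfl⟩
  have hk0p : k0 ^ p = (w : 𝓞 K) := by
    apply RingOfIntegers.coe_injective
    rw [map_pow]
    show (k0 : K) ^ p = ((w : 𝓞 K) : K)
    rw [hk0, h]
  have hunit : IsUnit k0 := by
    have : IsUnit (k0 ^ p) := by rw [hk0p]; exact w.isUnit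
    exact (isUnit_pow_iff hp0).mp this
  exact ⟨hunit.unit, by rw [IsUnit.unit_spec, hk0]⟩

omit [Fact p.Prime] [IsCyclotomicExtension {p} ℚ K] [NumberField K] [Field K] in
/-- Cancelling powers of a prime element. -/
theorem eq_of_prime_pow_mul_eq {R : Type*} [CommRing R] [IsDomain R] {π : R} (hπ : Prime π)
    {m m' : ℕ} {X Y : R} (hX : ¬ π ∣ X) (hY : ¬ π ∣ Y) (h : π ^ m * X = π ^ m' * Y) : X = Y := by
  rcases Nat.lt_trichotomy m m' with hlt | heq | hgt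
  · exfalso
    obtain ⟨t, rfl⟩ : ∃ t, m' = m + (t + 1) := ⟨m' - m - 1, by omega⟩
    rw [pow_add, mul_assoc] at h
    have h2 := mul_left_cancel₀ (pow_ne_zero m hπ.ne_zero) h
    apply hX
    rw [h2, pow_succ, mul_assoc, mul_comm (π ^ t), mul_assoc]
    exact dvd_mul_right _ _
  · subst heq
    exact mul_left_cancel₀ (pow_ne_zero m hπ.ne_zero) h
  · exfalso
    obtain ⟨t, rfl⟩ : ∃ t, m = m' + (t + 1) := ⟨m - m' - 1, by omega⟩
    rw [pow_add, mul_assoc] at h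
    have h2 := mul_left_cancel₀ (pow_ne_zero m' hπ.ne_zero) h
    apply hY
    rw [← h2, pow_succ, mul_assoc, mul_comm (π ^ t), mul_assoc]
    exact dvd_mul_right _ _

theorem core_kummer_endgame (hp : 5 ≤ p) {ζ : 𝓞 K} (hζ : IsPrimitiveRoot ζ p) (α : K) (hα : α ≠ 0)
    (hb : ∀ (σ : K ≃ₐ[ℚ] K) (n : ℕ), σ (ζ : K) = (ζ : K) ^ n →
      ∃ k : K, σ α = α ^ (n ^ 2) * k ^ p)
    (hd : ∃ (a b : 𝓞 K) (x : ℤ), ¬ (ζ - 1 ∣ a) ∧ ¬ (ζ - 1 ∣ b) ∧ α * (b : K) = (a : K) ∧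
      (ζ - 1) ^ 3 ∣ a - x * b)
    (u : (𝓞 K)ˣ) (β₀ : K) (hαu : α = ((u : 𝓞 K) : K) * β₀ ^ p) : ∃ β : K, β ^ p = α := by
  have hpp : p.Prime := Fact.out
  have hp0 : p ≠ 0 := hpp.ne_zero
  obtain ⟨E, -, hE2, hE3⟩ := helper15.exists_cycE2 hp hζ
  have hπ : Prime (ζ - 1) := helper15.zeta_sub_one_prime_int hζ
  have hζK : IsPrimitiveRoot (ζ : K) p := helper15.isPrimitiveRoot_coe hζ
  have hβ₀ : β₀ ≠ 0 := by
    rintro rfl
    rw [zero_pow hp0, mul_zero] at hαu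
    exact hα hαu
  have hu0 : ((u : 𝓞 K) : K) ≠ 0 := by
    intro h
    rw [h, zero_mul] at hαu
    exact hα hαu
  -- (i) `u` is an eigen-unit
  have hu : ∀ (σ : K ≃ₐ[ℚ] K) (n : ℕ), σ (ζ : K) = (ζ : K) ^ n → ∃ k : (𝓞 K)ˣ,
      galRestrict ℤ ℚ K (𝓞 K) σ (u : 𝓞 K) = (u : 𝓞 K) ^ (n ^ 2) * (k : 𝓞 K) ^ p := by
    intro σ n hσ
    obtain ⟨k, hk⟩ := hb σ n hσ
    have hσβ : σ β₀ ≠ 0 := by
      rw [Ne, map_eq_zero]; exact hβ₀
    -- σ u = u^(n²) * k1^p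
    have h1 : σ ((u : 𝓞 K) : K) = ((u : 𝓞 K) : K) ^ (n ^ 2) * (β₀ ^ (n ^ 2) * k / σ β₀) ^ p := by
      rw [hαu, map_mul, map_pow] at hk
      have h0 : σ ((u : 𝓞 K) : K) = (((u : 𝓞 K) : K) * β₀ ^ p) ^ (n ^ 2) * k ^ p / (σ β₀) ^ p := by
        rw [eq_div_iff (pow_ne_zero _ hσβ)]
        exact hk
      rw [h0, div_pow, mul_pow, mul_pow, ← pow_mul, ← pow_mul, mul_comm p (n ^ 2)]
      ring
    -- k1^p is a unit
    let w : (𝓞 K)ˣ := Units.map (galRestrict ℤ ℚ K (𝓞 K) σ : 𝓞 K →* 𝓞 K) u * (u ^ (n ^ 2))⁻¹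
    have hw : (β₀ ^ (n ^ 2) * k / σ β₀) ^ p = ((w : 𝓞 K) : K) := by
      have h2 : ((w : 𝓞 K) : K) * ((u : 𝓞 K) : K) ^ (n ^ 2) = σ ((u : 𝓞 K) : K) := by
        have h3 : (w : 𝓞 K) * (u : 𝓞 K) ^ (n ^ 2) = galRestrict ℤ ℚ K (𝓞 K) σ (u : 𝓞 K) := by
          simp only [w, Units.val_mul, Units.coe_map, MonoidHom.coe_coe]
          rw [mul_assoc, ← Units.val_pow_eq_pow_val, Units.inv_mul, mul_one]
        have h4 := congrArg (fun x : 𝓞 K => (x : K)) h3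
        simp only [map_mul, map_pow] at h4
        rw [h4]
        exact algebraMap_galRestrict_apply ℤ σ (u : 𝓞 K)
      rw [h1] at h2
      have hune : ((u : 𝓞 K) : K) ^ (n ^ 2) ≠ 0 := pow_ne_zero _ hu0
      have := mul_right_cancel₀ hune (h2.trans (mul_comm _ _))
      exact this.symm
    obtain ⟨k', hk'⟩ := exists_unit_of_pow_eq hp0 _ w hw
    refine ⟨k', ?_⟩
    apply RingOfIntegers.coe_injective
    have h5 : ((galRestrict ℤ ℚ K (𝓞 K) σ (u : 𝓞 K) : 𝓞 K) : K) = σ ((u : 𝓞 K) : K) :=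
      algebraMap_galRestrict_apply ℤ σ (u : 𝓞 K)
    rw [map_mul, map_pow, map_pow]
    show ((galRestrict ℤ ℚ K (𝓞 K) σ (u : 𝓞 K) : 𝓞 K) : K) = _
    rw [h5, h1]
    show _ = ((u : 𝓞 K) : K) ^ (n ^ 2) * ((k' : 𝓞 K) : K) ^ p
    rw [hk']
  -- (ii) `E` is not a `p`-th power
  have hv' : ¬ ∃ k : (𝓞 K)ˣ, k ^ p = E := by
    rintro ⟨k, hk⟩
    have h1 : ¬ (ζ - 1 ∣ (1 : 𝓞 K)) := fun h => hπ.not_isUnit (isUnit_of_dvd_one h)
    have hkd : ¬ (ζ - 1 ∣ (k : 𝓞 K)) := fun h => hπ.not_isUnit (isUnit_of_dvd_unit h k.isUnit)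
    have h2 := hE3 1 1 1 1 (k : 𝓞 K) 1 h1 h1 h1 hkd
      (by rw [pow_one, one_pow, mul_one, mul_one, one_mul, ← hk, Units.val_pow_eq_pow_val])
      (by simp)
    exact hpp.one_lt.ne' (Nat.dvd_one.mp h2)
  -- (iii)
  obtain ⟨j, k2, hjk⟩ := helper9.unit_eigenspace_dim_le_one hp hζK u E hu hE2 hv'
  -- α = E^j * β1^p
  set β1 : K := ((k2 : 𝓞 K) : K) * β₀ with hβ1
  have hβ1ne : β1 ≠ 0 := by
    refine mul_ne_zero ?_ hβ₀
    have := k2.isUnit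
    exact (map_ne_zero_iff _ RingOfIntegers.coe_injective).mpr k2.ne_zero
  have hαE : α = (((E : 𝓞 K) : K)) ^ j * β1 ^ p := by
    rw [hαu, hjk, hβ1, mul_pow]
    simp only [Units.val_mul, Units.val_pow_eq_pow_val, map_mul, map_pow]
    ring
  -- (iv) the local condition forces `p ∣ j`
  obtain ⟨a, b, x, ha, hb', hab, hx⟩ := hd
  obtain ⟨c0, d0, hd0, hcd⟩ := IsFractionRing.div_surjective (A := 𝓞 K) β1
  have hd0ne : d0 ≠ 0 := nonZeroDivisors.ne_zero hd0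
  have hc0ne : c0 ≠ 0 := by
    rintro rfl
    rw [map_zero, zero_div] at hcd
    exact hβ1ne hcd.symm
  obtain ⟨m, c, hc, hc0⟩ := WfDvdMonoid.max_power_factor hc0ne hπ.irreducible
  obtain ⟨m', d, hd, hd0'⟩ := WfDvdMonoid.max_power_factor hd0ne hπ.irreducible
  have hd0K : (algebraMap (𝓞 K) K d0) ≠ 0 :=
    (map_ne_zero_iff _ RingOfIntegers.coe_injective).mpr hd0ne
  -- E^j * c0^p * b = a * d0^p
  have hmain : (E : 𝓞 K) ^ j * c0 ^ p * b = a * d0 ^ p := by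
    apply RingOfIntegers.coe_injective
    simp only [map_mul, map_pow]
    have hab' : α * algebraMap (𝓞 K) K b = algebraMap (𝓞 K) K a := hab
    have hαE' : α = (algebraMap (𝓞 K) K (E : 𝓞 K)) ^ j * β1 ^ p := hαE
    rw [← hab', hαE', ← hcd, div_pow]
    field_simp
  rw [hc0, hd0', mul_pow, mul_pow, ← pow_mul, ← pow_mul] at hmain
  have hEj : ¬ (ζ - 1 ∣ (E : 𝓞 K) ^ j) := fun h =>
    hπ.not_isUnit (isUnit_of_dvd_unit h ((E.isUnit).pow j))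
  have hX : ¬ (ζ - 1 ∣ (E : 𝓞 K) ^ j * c ^ p * b) := by
    intro h
    rcases hπ.dvd_or_dvd h with h1 | h1
    · rcases hπ.dvd_or_dvd h1 with h2 | h2
      · exact hEj h2
      · exact hc (hπ.dvd_of_dvd_pow h2)
    · exact hb' h1
  have hY : ¬ (ζ - 1 ∣ a * d ^ p) := by
    intro h
    rcases hπ.dvd_or_dvd h with h1 | h1
    · exact ha h1
    · exact hd (hπ.dvd_of_dvd_pow h1)
  have hmain' : (ζ - 1) ^ (m * p) * ((E : 𝓞 K) ^ j * c ^ p * b)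
      = (ζ - 1) ^ (m' * p) * (a * d ^ p) := by
    calc (ζ - 1) ^ (m * p) * ((E : 𝓞 K) ^ j * c ^ p * b)
        = (E : 𝓞 K) ^ j * ((ζ - 1) ^ (m * p) * c ^ p) * b := by ring
      _ = a * ((ζ - 1) ^ (m' * p) * d ^ p) := hmain
      _ = (ζ - 1) ^ (m' * p) * (a * d ^ p) := by ring
  have hfin := eq_of_prime_pow_mul_eq hπ hX hY hmain'
  obtain ⟨j1, hj1⟩ := hE3 j a b c d x ha hb' hc hd hfin hx
  refine ⟨((E : 𝓞 K) : K) ^ j1 * β1, ?_⟩
  rw [hαE, hj1, mul_pow, ← pow_mul, mul_comm j1 p]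

end Fermat.Agent.S14.helper96
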