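import Mathlib
import Fermat.Agent.S14.helper99_CKDefs
import Fermat.Agent.S14.helper15_CycE2
import Fermat.Agent.S14.helper62_ThaineCombo
import Fermat.Agent.S14.helper77_ClassEigen
import Fermat.Agent.S14.helper96_CKEndgame
import Fermat.Agent.S14.helper40_TheoremG

/-!
# S14, route R2, assembly R2-A (helper99): `core_kummer`

`α ∈ K = ℚ(ζ_p)`, `p ≥ 5`, in the `ω²`-eigenspace of `K^× / K^{×p}`, with `(α) = I ^ p` and the
local condition at `(1 - ζ)`, is a `p`-th power.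

* the class `x = [J]` (`J` an integral ideal with `J ^ p = (α d ^ p)`) satisfies `x ^ p = 1` and
  `σ x = x ^ (χ σ)²` (helper77);
* Thaine relations combined for the cyclotomic unit `E₂` (helper62, helper56) and Theorem G
  (helper40) give `E_op (Cl) ⊆ Cl ^ p` for `E_op = ∑ χ(σ)² σ⁻¹`;
* `E_op x = x⁻¹`, so `x ∈ Cl ^ (p ^ N)` for all `N`, hence `x = 1` (`eq_one_of_endo_pow`);
* the unit endgame (helper96, using helper9 and helper15).
-/

set_option autoImplicit false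

namespace Fermat.Agent.S14.helper99

open NumberField
open scoped nonZeroDivisors
open Fermat.Agent.S14.helper15 (expE2)

/-- (B) the iteration argument: an endomorphism with values in `p`-th powers which inverts an
element of order dividing `p` forces that element to be trivial. -/
theorem eq_one_of_endo_pow {G : Type*} [CommGroup G] [Finite G] {p : ℕ} (hp : p.Prime)
    (E : G →* G) (hE : ∀ c : G, ∃ y : G, E c = y ^ p) (x : G) (hx : x ^ p = 1)
    (hEx : E x = x⁻¹) : x = 1 := by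
  have h1 : ∀ N : ℕ, ∀ c : G, ∃ y : G, (E^[N]) c = y ^ (p ^ N) := by
    intro N
    induction N with
    | zero => intro c; exact ⟨c, by simp⟩
    | succ N ih =>
      intro c
      obtain ⟨y, hy⟩ := ih c
      obtain ⟨z, hz⟩ := hE y
      refine ⟨z, ?_⟩
      rw [Function.iterate_succ_apply', hy, map_pow, hz, ← pow_mul, pow_succ, mul_comm]
  have h2 : ∀ N : ℕ, (E^[N]) x = x ∨ (E^[N]) x = x⁻¹ := by
    intro N
    induction N with
    | zero => left; rfl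
    | succ N ih =>
      rw [Function.iterate_succ_apply']
      rcases ih with h | h
      · right; rw [h, hEx]
      · left; rw [h, map_inv, hEx, inv_inv]
  have h3 : ∀ N : ℕ, ∃ y : G, x = y ^ (p ^ N) := by
    intro N
    obtain ⟨y, hy⟩ := h1 N x
    rcases h2 N with h | h
    · exact ⟨y, by rw [← hy, h]⟩
    · refine ⟨y⁻¹, ?_⟩
      rw [inv_pow, ← hy, h, inv_inv]
  have hne : Nat.card G ≠ 0 := Nat.card_pos.ne'
  obtain ⟨a, m, hm, hcard⟩ := Nat.exists_eq_pow_mul_and_not_dvd hne p hp.ne_one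
  obtain ⟨y, hy⟩ := h3 a
  have hxm : x ^ m = 1 := by
    rw [hy, ← pow_mul, ← hcard]
    exact pow_card_eq_one'
  have ho1 : orderOf x ∣ p := orderOf_dvd_of_pow_eq_one hx
  have ho2 : orderOf x ∣ m := orderOf_dvd_of_pow_eq_one hxm
  rcases (Nat.dvd_prime hp).mp ho1 with h | h
  · exact orderOf_eq_one_iff.mp h
  · exact absurd (h ▸ ho2) hm

lemma modEq_of_pow_eq_pow {M : Type*} [CommMonoid M] {ζ : M} {k : ℕ} (hk : k ≠ 0)
    (h : IsPrimitiveRoot ζ k) {i j : ℕ} (H : ζ ^ i = ζ ^ j) : i ≡ j [MOD k] := by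
  obtain ⟨u, rfl⟩ := h.isUnit hk
  have H' : u ^ i = u ^ j := Units.ext (by simpa using H)
  have := pow_eq_pow_iff_modEq.mp H'
  rwa [← orderOf_units, ← h.eq_orderOf] at this

section generic

variable {K : Type*} [Field K] [NumberField K]

/-- reduction to integral data: `(α) = I ^ p` gives `d, a ∈ 𝓞 K` and an integral ideal `J` with
`a = α d ^ p` and `(a) = J ^ p`. -/
theorem exists_integral_data {p : ℕ} (hp0 : p ≠ 0) (α : K) (hα : α ≠ 0)
    (hc : ∃ I : FractionalIdeal (nonZeroDivisors (𝓞 K)) K,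
      FractionalIdeal.spanSingleton (nonZeroDivisors (𝓞 K)) α = I ^ p) :
    ∃ (d a : 𝓞 K) (J : (Ideal (𝓞 K))⁰), d ≠ 0 ∧ a ≠ 0 ∧ (a : K) = α * (d : K) ^ p ∧
      Ideal.span {a} = (J : Ideal (𝓞 K)) ^ p := by
  obtain ⟨I, hI⟩ := hc
  obtain ⟨d, J, hd, hIJ⟩ := FractionalIdeal.exists_eq_spanSingleton_mul I
  have hdK : (algebraMap (𝓞 K) K d) ≠ 0 := by
    rwa [Ne, map_eq_zero_iff _ (FaithfulSMul.algebraMap_injective (𝓞 K) K)]
  have h1 : FractionalIdeal.spanSingleton (𝓞 K)⁰ (α * (algebraMap (𝓞 K) K d) ^ p) =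
      ((J ^ p : Ideal (𝓞 K)) : FractionalIdeal (𝓞 K)⁰ K) := by
    rw [← FractionalIdeal.spanSingleton_mul_spanSingleton, hI, hIJ, mul_pow,
      FractionalIdeal.spanSingleton_pow, FractionalIdeal.coeIdeal_pow,
      mul_comm, ← mul_assoc, FractionalIdeal.spanSingleton_mul_spanSingleton, ← mul_pow,
      mul_inv_cancel₀ hdK, one_pow, FractionalIdeal.spanSingleton_one, one_mul]
  have h2 : α * (algebraMap (𝓞 K) K d) ^ p ∈
      ((J ^ p : Ideal (𝓞 K)) : FractionalIdeal (𝓞 K)⁰ K) := by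
    rw [← h1]
    exact FractionalIdeal.mem_spanSingleton_self _ _
  rw [FractionalIdeal.mem_coeIdeal] at h2
  obtain ⟨a, _, ha⟩ := h2
  have ha0 : a ≠ 0 := by
    rintro rfl
    rw [map_zero] at ha
    exact mul_ne_zero hα (pow_ne_zero p hdK) ha.symm
  have h3 : Ideal.span {a} = J ^ p := by
    apply FractionalIdeal.coeIdeal_injective (K := K)
    show ((Ideal.span {a} : Ideal (𝓞 K)) : FractionalIdeal (𝓞 K)⁰ K) =
      ((J ^ p : Ideal (𝓞 K)) : FractionalIdeal (𝓞 K)⁰ K)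
    rw [FractionalIdeal.coeIdeal_span_singleton, ha, h1]
  have hJ0 : J ≠ ⊥ := by
    rintro rfl
    rw [Ideal.bot_pow hp0, Ideal.span_singleton_eq_bot] at h3
    exact ha0 h3
  exact ⟨d, a, ⟨J, mem_nonZeroDivisors_of_ne_zero hJ0⟩, hd, ha0, ha, h3⟩

end generic

section cyclo

variable {p : ℕ} [Fact p.Prime] {K : Type} [Field K] [NumberField K]
  [IsCyclotomicExtension {p} ℚ K]

/-- `E₂` is not a `p`-th power in `K` (consequence of its local property). -/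
lemma not_exists_pow_eq_of_local {ζ : 𝓞 K} (hζ : IsPrimitiveRoot ζ p) (E : (𝓞 K)ˣ)
    (hE3 : ∀ (j : ℕ) (a b c d : 𝓞 K) (x : ℤ), ¬ (ζ - 1 ∣ a) → ¬ (ζ - 1 ∣ b) → ¬ (ζ - 1 ∣ c) →
        ¬ (ζ - 1 ∣ d) → (E : 𝓞 K) ^ j * c ^ p * b = a * d ^ p → (ζ - 1) ^ 3 ∣ a - x * b →
        p ∣ j) :
    ¬ ∃ v : K, v ^ p = ((E : 𝓞 K) : K) := by
  have hpp : p.Prime := Fact.out
  rintro ⟨v, hv⟩
  have hvint : IsIntegral ℤ v := by
    apply IsIntegral.of_pow hpp.pos
    rw [hv]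
    exact RingOfIntegers.isIntegral_coe _
  set w : 𝓞 K := ⟨v, hvint⟩ with hw
  have hwp : w ^ p = (E : 𝓞 K) := by
    apply RingOfIntegers.coe_injective
    show (algebraMap (𝓞 K) K) (w ^ p) = _
    rw [map_pow]
    exact hv
  have hwu : IsUnit w := by
    have : IsUnit (w ^ p) := hwp ▸ E.isUnit
    exact (isUnit_pow_iff hpp.ne_zero).mp this
  have hζK : IsPrimitiveRoot (ζ : K) p := hζ.map_of_injective RingOfIntegers.coe_injective
  have hprime : Prime (ζ - 1) := by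
    have h := hζK.zeta_sub_one_prime'
    have hint : hζK.toInteger = ζ := RingOfIntegers.ext rfl
    rwa [hint] at h
  have hnu : ∀ t : 𝓞 K, IsUnit t → ¬ (ζ - 1 ∣ t) := fun t ht h =>
    hprime.not_isUnit (isUnit_of_dvd_unit h ht)
  have := hE3 1 1 1 1 w 1 (hnu 1 isUnit_one) (hnu 1 isUnit_one) (hnu 1 isUnit_one) (hnu w hwu)
    (by rw [pow_one, one_pow, mul_one, mul_one, one_mul, hwp]) (by simp)
  have h1 := Nat.le_of_dvd Nat.one_pos this
  have h2 := hpp.two_le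
  omega

/-- R2-A = CORE-K, conditional on R2-T and R2-G (as hypotheses). -/
theorem core_kummer_of (hT : ThaineRelationStatement p K) (hG : TheoremGStatement p K)
    (hp : 5 ≤ p) {ζ : 𝓞 K} (hζ : IsPrimitiveRoot ζ p) (α : K) (hα : α ≠ 0)
    (hb : ∀ (σ : K ≃ₐ[ℚ] K) (n : ℕ), σ (ζ : K) = (ζ : K) ^ n → ∃ k : K, σ α = α ^ (n ^ 2) * k ^ p)
    (hc : ∃ I : FractionalIdeal (nonZeroDivisors (𝓞 K)) K,
      FractionalIdeal.spanSingleton (nonZeroDivisors (𝓞 K)) α = I ^ p)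
    (hd : ∃ (a b : 𝓞 K) (x : ℤ), ¬ (ζ - 1 ∣ a) ∧ ¬ (ζ - 1 ∣ b) ∧ α * (b : K) = (a : K) ∧
      (ζ - 1) ^ 3 ∣ a - x * b) :
    ∃ β : K, β ^ p = α := by
  classical
  have hpp : p.Prime := Fact.out
  have hp0 : p ≠ 0 := hpp.ne_zero
  have hp2 : p ≠ 2 := by omega
  have hζK : IsPrimitiveRoot (ζ : K) p := hζ.map_of_injective RingOfIntegers.coe_injective
  obtain ⟨E, hE1, hE2, hE3⟩ := helper15.exists_cycE2 hp hζ
  have hχ' : ∀ σ : K ≃ₐ[ℚ] K, ∃ n : ℕ, σ (ζ : K) = (ζ : K) ^ n := by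
    intro σ
    have h1 : (σ (ζ : K)) ^ p = 1 := by rw [← map_pow, hζK.pow_eq_one, map_one]
    obtain ⟨n, _, hn⟩ := hζK.eq_pow_of_pow_eq_one h1
    exact ⟨n, hn.symm⟩
  choose χ hχ using hχ'
  have hEnp : ¬ ∃ v : K, v ^ p = ((E : 𝓞 K) : K) := not_exists_pow_eq_of_local hζ E hE3
  -- Theorem G
  have hEop : ∀ c : ClassGroup (𝓞 K), ∃ y : ClassGroup (𝓞 K), eOp χ c = y ^ p := by
    set P : Subgroup (ClassGroup (𝓞 K)) :=
      (powMonoidHom p : ClassGroup (𝓞 K) →* ClassGroup (𝓞 K)).range with hP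
    have hH : P.comap (eOp χ) = ⊤ := by
      apply hG hp2 hζK (E : 𝓞 K) hEnp
      intro ℓ _ ψ hℓp hnr
      rw [Subgroup.mem_comap, eOp_kerClass]
      obtain ⟨y, hy⟩ := helper62.h62_eOp_kerClass_mem hT hp hζ E hE1 hE2 χ hχ ψ hℓp hnr
      exact ⟨y, hy.symm⟩
    intro c
    have hc : c ∈ P.comap (eOp χ) := hH ▸ Subgroup.mem_top c
    rw [Subgroup.mem_comap] at hc
    obtain ⟨y, hy⟩ := hc
    exact ⟨y, hy.symm⟩
  -- integral data
  obtain ⟨d, a, J, hd0, ha0, had, hJ⟩ := exists_integral_data hp0 α hα hc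
  have hdK : (algebraMap (𝓞 K) K d) ≠ 0 := by
    rwa [Ne, map_eq_zero_iff _ (FaithfulSMul.algebraMap_injective (𝓞 K) K)]
  have hxp : ClassGroup.mk0 J ^ p = 1 := by
    rw [← map_pow, ClassGroup.mk0_eq_one_iff (SetLike.coe_mem _)]
    refine ⟨⟨a, ?_⟩⟩
    rw [SubmonoidClass.coe_pow, ← hJ]
  have hba : ∀ (σ : K ≃ₐ[ℚ] K) (n : ℕ), σ (ζ : K) = (ζ : K) ^ n →
      ∃ k : K, σ (a : K) = (a : K) ^ (n ^ 2) * k ^ p := by
    intro σ n hσ
    obtain ⟨k, hk⟩ := hb σ n hσ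
    refine ⟨k * σ (d : K) / (d : K) ^ (n ^ 2), ?_⟩
    have hdn : (algebraMap (𝓞 K) K d) ^ (n ^ 2) ≠ 0 := pow_ne_zero _ hdK
    rw [had, map_mul, map_pow, hk, div_pow, mul_pow, mul_pow, ← pow_mul, ← pow_mul,
      mul_comm (n ^ 2) p]
    field_simp
  have hact : ∀ σ : K ≃ₐ[ℚ] K,
      (clAct σ⁻¹ (ClassGroup.mk0 J)) ^ ((χ σ) ^ 2) = ClassGroup.mk0 J := by
    intro σ
    obtain ⟨k, hk⟩ := hba σ⁻¹ (χ σ⁻¹) (hχ σ⁻¹)
    rw [helper77.clAct_mk0_eq_pow hp0 a ha0 J hJ σ⁻¹ _ k hk, ← pow_mul, ← mul_pow]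
    have h1 : (ζ : K) ^ (χ σ⁻¹ * χ σ) = (ζ : K) ^ 1 := by
      rw [pow_mul, ← hχ σ⁻¹, ← map_pow, ← hχ σ, pow_one]
      exact σ.symm_apply_apply _
    have h2 : χ σ⁻¹ * χ σ ≡ 1 [MOD p] := modEq_of_pow_eq_pow hp0 hζK h1
    have h3 : (χ σ⁻¹ * χ σ) ^ 2 ≡ 1 [MOD p] := by simpa using h2.pow 2
    have h0 : 1 ≤ (χ σ⁻¹ * χ σ) ^ 2 := by
      apply Nat.one_le_pow
      apply Nat.pos_of_ne_zero
      intro h0
      rw [h0] at h2
      have h6 := (Nat.modEq_iff_dvd' (Nat.zero_le 1)).mp h2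
      have h7 := Nat.le_of_dvd Nat.one_pos (by simpa using h6)
      omega
    obtain ⟨t, ht⟩ := (Nat.modEq_iff_dvd' h0).mp h3.symm
    have h5 : (χ σ⁻¹ * χ σ) ^ 2 = 1 + p * t := by
      rw [← ht]; omega
    rw [h5, pow_add, pow_one, pow_mul, hxp, one_pow, mul_one]
  have hcard : Fintype.card (K ≃ₐ[ℚ] K) = p - 1 := by
    have : IsGalois ℚ K := IsCyclotomicExtension.isGalois {p} ℚ K
    have : NeZero p := ⟨hp0⟩
    rw [← Nat.card_eq_fintype_card, IsGalois.card_aut_eq_finrank,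
      IsCyclotomicExtension.Rat.finrank p K, Nat.totient_prime hpp]
  have hEx : eOp χ (ClassGroup.mk0 J) = (ClassGroup.mk0 J)⁻¹ := by
    rw [eOp_apply, Finset.prod_congr rfl (fun σ _ => hact σ), Finset.prod_const, Finset.card_univ,
      hcard, eq_inv_iff_mul_eq_one, ← pow_succ]
    have : p - 1 + 1 = p := by omega
    rw [this, hxp]
  have hx1 : ClassGroup.mk0 J = 1 := eq_one_of_endo_pow hpp (eOp χ) hEop _ hxp hEx
  rw [ClassGroup.mk0_eq_one_iff (SetLike.coe_mem _)] at hx1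
  obtain ⟨β₀, hβ₀⟩ := hx1
  have hspan : Ideal.span {a} = Ideal.span {β₀ ^ p} := by
    rw [hJ, ← Ideal.span_singleton_pow]
    congr 1
  rw [Ideal.span_singleton_eq_span_singleton] at hspan
  obtain ⟨u, hu⟩ := hspan
  refine helper96.core_kummer_endgame hp hζ α hα hb hd u⁻¹ ((β₀ : K) / (d : K)) ?_
  have h1 : (a : K) * ((u : 𝓞 K) : K) = (β₀ : K) ^ p := by
    have := congrArg (algebraMap (𝓞 K) K) hu
    simpa using this
  have h2 : (((u⁻¹ : (𝓞 K)ˣ) : 𝓞 K) : K) * ((u : 𝓞 K) : K) = 1 := by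
    have := congrArg (algebraMap (𝓞 K) K) (Units.inv_mul u)
    simpa using this
  have h3 : ((u : 𝓞 K) : K) ≠ 0 := by
    intro h; rw [h, mul_zero] at h2; exact zero_ne_one h2
  rw [div_pow, ← h1]
  have hα' : α = (a : K) / (d : K) ^ p := by
    rw [had]; field_simp
  rw [hα']
  field_simp
  linear_combination (-(a : K)) * h2

omit [IsCyclotomicExtension {p} ℚ K] in
/-- Theorem G (helper40) in the shape `TheoremGStatement`. -/
theorem theoremGStatement : TheoremGStatement p K := by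
  intro hp2 ζ hζ u hu H hH
  apply helper40.classGroup_eq_top_of_nonresidue_primes p hp2 hζ u hu H
  intro ℓ _ ψ hℓp hnr h
  exact hH ℓ ψ hℓp hnr

/-- **R2-A = CORE-K**: the final statement inside `K = ℚ(ζ_p)`, `p ≥ 5`. -/
theorem core_kummer (hp : 5 ≤ p) {ζ : 𝓞 K} (hζ : IsPrimitiveRoot ζ p) (α : K) (hα : α ≠ 0)
    (hb : ∀ (σ : K ≃ₐ[ℚ] K) (n : ℕ), σ (ζ : K) = (ζ : K) ^ n → ∃ k : K, σ α = α ^ (n ^ 2) * k ^ p)
    (hc : ∃ I : FractionalIdeal (nonZeroDivisors (𝓞 K)) K,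
      FractionalIdeal.spanSingleton (nonZeroDivisors (𝓞 K)) α = I ^ p)
    (hd : ∃ (a b : 𝓞 K) (x : ℤ), ¬ (ζ - 1 ∣ a) ∧ ¬ (ζ - 1 ∣ b) ∧ α * (b : K) = (a : K) ∧
      (ζ - 1) ^ 3 ∣ a - x * b) :
    ∃ β : K, β ^ p = α :=
  core_kummer_of helper62.h62_thaineRelationStatement theoremGStatement hp hζ α hα hb hc hd

end cyclo

end Fermat.Agent.S14.helper99
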