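import Mathlib

/-!
# S14 (2c): abstract endgame of the reciprocity argument (helper10)

Pure group theory.  `C` plays the role of the class group of `K`, `G` of `Gal(L/K)` (of prime
order `p`), `ι` of the set of degree-one primes of `K` outside a finite exceptional set, `cls`
is the ideal class, `frob` the Frobenius and `r` the residue characteristic.
-/

namespace Fermat.Agent.S14.helper10

open Subgroup

/-- The subgroup generated by the classes of the "split" primes. -/
def splitSubgroup {C G ι : Type*} [CommGroup C] [Group G] (cls : ι → C) (frob : ι → G) :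
    Subgroup C :=
  Subgroup.closure {c | ∃ P, frob P = 1 ∧ cls P = c}

theorem cls_mem_splitSubgroup {C G ι : Type*} [CommGroup C] [Group G] (cls : ι → C)
    (frob : ι → G) {P : ι} (h : frob P = 1) : cls P ∈ splitSubgroup cls frob :=
  Subgroup.subset_closure ⟨P, h, rfl⟩

theorem exists_pow_eq_of_prime_card {G : Type*} [Group G] {p : ℕ} (hp : p.Prime)
    (hG : Nat.card G = p) {g : G} (hg : g ≠ 1) (x : G) : ∃ k : ℕ, x = g ^ k := by
  have : Fact p.Prime := ⟨hp⟩
  have : Finite G := Nat.finite_of_card_ne_zero (hG ▸ hp.ne_zero)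
  have h := zpowers_eq_top_of_prime_card hG hg
  have hx : x ∈ Subgroup.zpowers g := h ▸ Subgroup.mem_top x
  rw [← mem_powers_iff_mem_zpowers] at hx
  obtain ⟨k, hk⟩ := hx
  exact ⟨k, hk.symm⟩

theorem orderOf_eq_of_prime_card {G : Type*} [Group G] {p : ℕ} (hp : p.Prime)
    (hG : Nat.card G = p) {g : G} (hg : g ≠ 1) : orderOf g = p := by
  have : Finite G := Nat.finite_of_card_ne_zero (hG ▸ hp.ne_zero)
  have h1 : orderOf g ∣ p := hG ▸ orderOf_dvd_natCard g
  rcases (Nat.dvd_prime hp).1 h1 with h | h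
  · exact absurd (orderOf_eq_one_iff.1 h) hg
  · exact h

/-- **Abstract endgame.** From generation by primes, `H ≠ ⊤` and the crossing relation, the
Frobenius map factors through an injective homomorphism into the class group modulo `H`. -/
theorem exists_hom_of_crossing {C G ι : Type*} [CommGroup C] [Group G] (p : ℕ) (hp : p.Prime)
    (hG : Nat.card G = p) (cls : ι → C) (frob : ι → G) (r : ι → ℕ) (H : Subgroup C)
    (gen : ∀ S : Finset ℕ, Subgroup.closure {c | ∃ P, r P ∉ S ∧ cls P = c} = ⊤)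
    (hsplit : ∀ P, frob P = 1 → cls P ∈ H)
    (ne : H ≠ ⊤)
    (cross : ∀ P P' k, r P ≠ r P' → frob P' ≠ 1 → frob P = frob P' ^ k →
      cls P * cls P' ^ ((p - 1) * k) ∈ H) :
    ∃ θ : G →* C ⧸ H, Function.Injective θ ∧
      ∀ P, θ (frob P) = QuotientGroup.mk (cls P) := by
  classical
  have : Fact p.Prime := ⟨hp⟩
  have : Finite G := Nat.finite_of_card_ne_zero (hG ▸ hp.ne_zero)
  -- Step 1
  obtain ⟨P0, hP0⟩ : ∃ P0, frob P0 ≠ 1 := by
    by_contra hcon
    push Not at hcon
    apply ne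
    rw [eq_top_iff, ← gen ∅, Subgroup.closure_le]
    rintro c ⟨P, -, rfl⟩
    exact hsplit P (hcon P)
  -- Step 2
  obtain ⟨P1, hr1, hP1⟩ : ∃ P1, r P1 ≠ r P0 ∧ frob P1 ≠ 1 := by
    by_contra hcon
    push Not at hcon
    apply ne
    rw [eq_top_iff, ← gen {r P0}, Subgroup.closure_le]
    rintro c ⟨P, hP, rfl⟩
    exact hsplit P (hcon P (by simpa using hP))
  set g0 := frob P0 with hg0
  have hg0p : g0 ^ p = 1 := by
    have := orderOf_eq_of_prime_card hp hG hP0
    rw [← this]; exact pow_orderOf_eq_one g0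
  set u : C ⧸ H := QuotientGroup.mk (cls P0) with hu
  set w : C ⧸ H := (u ^ (p - 1))⁻¹ with hw
  -- crossing relation in the quotient
  have crossq : ∀ P P' k, r P ≠ r P' → frob P' ≠ 1 → frob P = frob P' ^ k →
      (QuotientGroup.mk (cls P) : C ⧸ H) = ((QuotientGroup.mk (cls P') : C ⧸ H) ^ ((p - 1) * k))⁻¹ := by
    intro P P' k h1 h2 h3
    have := cross P P' k h1 h2 h3
    rw [← QuotientGroup.eq_one_iff] at this
    rw [eq_inv_iff_mul_eq_one]
    simpa using this
  have crossw : ∀ P k, r P ≠ r P0 → frob P = g0 ^ k → (QuotientGroup.mk (cls P) : C ⧸ H) = w ^ k := by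
    intro P k h1 h3
    rw [crossq P P0 k h1 hP0 h3, hw, pow_mul, inv_pow]
  -- Claim A
  obtain ⟨a, ha⟩ := exists_pow_eq_of_prime_card hp hG hP0 (frob P1)
  have hwp : w ^ p = 1 := by
    have h1 := crossw P1 a hr1 ha
    have h2 := crossw P1 (a + p) hr1 (by rw [pow_add, hg0p, mul_one]; exact ha)
    rw [pow_add, ← h1] at h2
    exact (mul_eq_left.mp h2.symm)
  have hw1 : ((w ^ (p - 1))⁻¹ : C ⧸ H) = w := by
    rw [inv_eq_iff_eq_inv, eq_inv_iff_mul_eq_one, ← pow_succ]
    rw [Nat.sub_add_cancel hp.one_le, hwp]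
  -- Claim B
  have claimB : ∀ P k, frob P = g0 ^ k → (QuotientGroup.mk (cls P) : C ⧸ H) = w ^ k := by
    intro P k hk
    by_cases hr : r P = r P0
    · have hr' : r P ≠ r P1 := fun h => hr1 (h.symm.trans hr)
      obtain ⟨b, hb⟩ := exists_pow_eq_of_prime_card hp hG hP1 g0
      have h3 : frob P = frob P1 ^ (b * k) := by rw [pow_mul, ← hb, hk]
      have h4 := crossq P P1 (b * k) hr' hP1 h3
      rw [crossw P1 a hr1 ha] at h4
      have e1 : ∀ z : C ⧸ H,
          ((z ^ a) ^ ((p - 1) * (b * k)))⁻¹ = ((z ^ (p - 1))⁻¹) ^ (b * k * a) := by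
        intro z
        rw [← pow_mul, inv_pow, ← pow_mul]
        congr 2
        ring
      rw [h4, e1 w, hw1]
      -- w ^ (b * k * a) = w ^ k
      have hab : g0 ^ (a * b) = g0 := by rw [pow_mul, ← ha, ← hb]
      have hmod : a * b ≡ 1 [MOD p] := by
        have ho := orderOf_eq_of_prime_card hp hG hP0
        have := (pow_eq_pow_iff_modEq (x := g0) (n := a * b) (m := 1)).1 (by simpa using hab)
        rwa [ho] at this
      have hmod' : b * k * a ≡ k [MOD p] := by
        have := hmod.mul_right k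
        rw [one_mul] at this
        have e : b * k * a = a * b * k := by ring
        rw [e]; exact this
      have hwo : orderOf w ∣ p := orderOf_dvd_of_pow_eq_one hwp
      exact (pow_eq_pow_iff_modEq).2 (hmod'.of_dvd hwo)
    · exact crossw P k hr hk
  -- Step 5
  have hzp : ∀ x : G, x ∈ Subgroup.zpowers g0 := fun x => by
    rw [zpowers_eq_top_of_prime_card hG hP0]; exact Subgroup.mem_top x
  have hord : orderOf w ∣ orderOf g0 := by
    rw [orderOf_eq_of_prime_card hp hG hP0]
    exact orderOf_dvd_of_pow_eq_one hwp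
  let θ : G →* C ⧸ H := monoidHomOfForallMemZpowers hzp hord
  have hθ0 : θ g0 = w := monoidHomOfForallMemZpowers_apply_gen hzp hord
  have hθ : ∀ P, θ (frob P) = QuotientGroup.mk (cls P) := by
    intro P
    obtain ⟨k, hk⟩ := exists_pow_eq_of_prime_card hp hG hP0 (frob P)
    rw [claimB P k hk, hk, map_pow, hθ0]
  refine ⟨θ, ?_, hθ⟩
  -- Step 6
  have hw_ne : w ≠ 1 := by
    intro hw1'
    apply ne
    rw [eq_top_iff, ← gen ∅]
    rw [Subgroup.closure_le]
    rintro c ⟨P, -, rfl⟩
    have := hθ P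
    obtain ⟨k, hk⟩ := exists_pow_eq_of_prime_card hp hG hP0 (frob P)
    rw [hk, map_pow, hθ0, hw1', one_pow] at this
    exact (QuotientGroup.eq_one_iff _).1 this.symm
  have hwo : orderOf w = p := by
    rcases (Nat.dvd_prime hp).1 (orderOf_dvd_of_pow_eq_one hwp) with h | h
    · exact absurd (orderOf_eq_one_iff.1 h) hw_ne
    · exact h
  rw [injective_iff_map_eq_one]
  intro x hx
  obtain ⟨k, rfl⟩ := exists_pow_eq_of_prime_card hp hG hP0 x
  rw [map_pow, hθ0] at hx
  have : p ∣ k := hwo ▸ orderOf_dvd_of_pow_eq_one hx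
  obtain ⟨m, rfl⟩ := this
  rw [pow_mul, hg0p, one_pow]

end Fermat.Agent.S14.helper10
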