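import Mathlib
import Fermat.Agent.S14.helper10_Endgame

/-!
# S14 (2c): the kernel lemma (helper10)

Pure group theory: if the Frobenius map kills every principal product (explicit reciprocity in
the crossing extension) and the split classes generate a subgroup of index at most `p` (second
inequality), then every product of primes with trivial Frobenius has its class in the subgroup
generated by the split classes.
-/

namespace Fermat.Agent.S14.helper10

open Subgroup

/-- In a finite group, every element of the closure of the range of `cls` is a product of a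
multiset of values of `cls`. -/
theorem exists_multiset_prod_eq_of_mem_closure {C ι : Type*} [CommGroup C] [Finite C]
    (cls : ι → C) (S : Set ι) {x : C} (hx : x ∈ Subgroup.closure (cls '' S)) :
    ∃ m : Multiset ι, (∀ i ∈ m, i ∈ S) ∧ (m.map cls).prod = x := by
  classical
  induction hx using Subgroup.closure_induction with
  | mem x hx =>
    obtain ⟨i, hi, rfl⟩ := hx
    exact ⟨{i}, by simpa using hi, by simp⟩
  | one => exact ⟨0, by simp, by simp⟩
  | mul x y _ _ hx hy =>
    obtain ⟨m, hm, rfl⟩ := hx
    obtain ⟨m', hm', rfl⟩ := hy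
    refine ⟨m + m', ?_, by simp⟩
    intro i hi
    rcases Multiset.mem_add.1 hi with h | h
    · exact hm i h
    · exact hm' i h
  | inv x _ hx =>
    obtain ⟨m, hm, rfl⟩ := hx
    refine ⟨(Nat.card C - 1) • m, ?_, ?_⟩
    · intro i hi
      exact hm i (Multiset.mem_of_mem_nsmul hi)
    · rw [Multiset.map_nsmul, Multiset.prod_nsmul]
      have h1 : (m.map cls).prod ^ Nat.card C = 1 := pow_card_eq_one'
      have hpos : 0 < Nat.card C := Nat.card_pos
      rw [eq_inv_iff_mul_eq_one, ← pow_succ, Nat.sub_add_cancel hpos, h1]

/-- **Kernel lemma.** `frob` takes values in a group killed by the prime `p`, kills principal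
products (`hrec`) and the primes in `S₀`; if the classes of the primes in `S₀` generate a subgroup
of index at most `p` and `frob` is not trivial, then every product of primes with trivial
Frobenius has its class in the subgroup generated by the classes of the primes in `S₀`. -/
theorem prod_cls_mem_closure_of_index_le {C G ι : Type*} [CommGroup C] [Finite C] [CommGroup G]
    (p : ℕ) (hp : p.Prime) (hG : ∀ g : G, g ^ p = 1) (cls : ι → C) (frob : ι → G)
    (S₀ : Set ι)
    (gen : Subgroup.closure (Set.range cls) = ⊤)
    (hS₀ : ∀ i ∈ S₀, frob i = 1)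
    (idx : (Subgroup.closure (cls '' S₀)).index ≤ p)
    (hrec : ∀ m : Multiset ι, (m.map cls).prod = 1 → (m.map frob).prod = 1)
    (hne : ∃ i, frob i ≠ 1)
    (m : Multiset ι) (hm : (m.map frob).prod = 1) :
    (m.map cls).prod ∈ Subgroup.closure (cls '' S₀) := by
  classical
  have : Fact p.Prime := ⟨hp⟩
  set H := Subgroup.closure (cls '' S₀) with hH
  -- representatives
  have hrep : ∀ x : C, ∃ m : Multiset ι, (m.map cls).prod = x := by
    intro x
    have hx : x ∈ Subgroup.closure (cls '' Set.univ) := by
      rw [Set.image_univ, gen]; exact Subgroup.mem_top x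
    obtain ⟨m, -, hm⟩ := exists_multiset_prod_eq_of_mem_closure cls Set.univ hx
    exact ⟨m, hm⟩
  -- well-definedness
  have hW : ∀ m m' : Multiset ι, (m.map cls).prod = (m'.map cls).prod →
      (m.map frob).prod = (m'.map frob).prod := by
    intro m m' h
    set n := Nat.card C with hn
    have hpos : 0 < n := Nat.card_pos
    have h1 : ((m + (n - 1) • m').map cls).prod = 1 := by
      rw [Multiset.map_add, Multiset.prod_add, Multiset.map_nsmul, Multiset.prod_nsmul, h,
        ← pow_succ', Nat.sub_add_cancel hpos]
      exact pow_card_eq_one'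
    have h2 : ((n • m').map cls).prod = 1 := by
      rw [Multiset.map_nsmul, Multiset.prod_nsmul]
      exact pow_card_eq_one'
    have h3 := hrec _ h1
    have h4 := hrec _ h2
    rw [Multiset.map_add, Multiset.prod_add, Multiset.map_nsmul, Multiset.prod_nsmul] at h3
    rw [Multiset.map_nsmul, Multiset.prod_nsmul] at h4
    have h5 : (m'.map frob).prod ^ n = (m'.map frob).prod ^ (n - 1) * (m'.map frob).prod := by
      rw [← pow_succ, Nat.sub_add_cancel hpos]
    rw [h5] at h4
    have h6 : (m.map frob).prod * (m'.map frob).prod ^ (n - 1) =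
        (m'.map frob).prod * (m'.map frob).prod ^ (n - 1) := by
      rw [h3, mul_comm, h4]
    exact mul_right_cancel h6
  choose rep hrepc using hrep
  let ψ : C →* G := MonoidHom.mk' (fun x => ((rep x).map frob).prod) (by
    intro x y
    rw [← Multiset.prod_add, ← Multiset.map_add]
    apply hW
    rw [Multiset.map_add, Multiset.prod_add, hrepc, hrepc, hrepc])
  have hψ : ∀ m : Multiset ι, ψ ((m.map cls).prod) = (m.map frob).prod := by
    intro m
    show ((rep _).map frob).prod = _
    apply hW
    rw [hrepc]
  have hψi : ∀ i, ψ (cls i) = frob i := by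
    intro i
    have := hψ {i}
    simpa using this
  have hHle : H ≤ ψ.ker := by
    rw [hH, Subgroup.closure_le]
    rintro c ⟨P, hP, rfl⟩
    rw [SetLike.mem_coe, MonoidHom.mem_ker, hψi, hS₀ P hP]
  suffices hker : ψ.ker ≤ H by
    apply hker
    rw [MonoidHom.mem_ker, hψ, hm]
  obtain ⟨i0, hi0⟩ := hne
  -- the range of `ψ` has at least `p` elements
  have hord : orderOf (frob i0) = p := by
    rcases (Nat.dvd_prime hp).1 (orderOf_dvd_of_pow_eq_one (hG (frob i0))) with h | h
    · exact absurd (orderOf_eq_one_iff.1 h) hi0
    · exact h
  have hfin : Finite ψ.range := by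
    have : Finite (Set.range ψ) := Set.finite_range ψ
    exact this
  have hcard : p ≤ Nat.card ψ.range := by
    let g : ψ.range := ⟨frob i0, ⟨cls i0, hψi i0⟩⟩
    have hg : orderOf g = p := by
      rw [← hord]
      exact Subgroup.orderOf_mk _ _
    rw [← hg]
    exact orderOf_le_card
  have hidx : p ≤ ψ.ker.index := by
    rw [Subgroup.index_ker]; exact hcard
  have h1 := Subgroup.relIndex_mul_index hHle
  have hHne : H.index ≠ 0 := Subgroup.index_ne_zero_of_finite
  have h2 : H.relIndex ψ.ker = 1 := by
    have hpos : 0 < H.relIndex ψ.ker := by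
      rcases Nat.eq_zero_or_pos (H.relIndex ψ.ker) with h | h
      · rw [h, zero_mul] at h1; exact absurd h1.symm hHne
      · exact h
    by_contra hgt
    have h2' : 2 ≤ H.relIndex ψ.ker := by omega
    have h3 : 2 * p ≤ H.relIndex ψ.ker * ψ.ker.index := Nat.mul_le_mul h2' hidx
    have := hp.pos
    omega
  exact Subgroup.relIndex_eq_one.1 h2

end Fermat.Agent.S14.helper10
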