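import Mathlib

/-!
# S14 (2c): the norm residue symbol modulo an auxiliary prime (helper10)

`PowQuot l p` is the group `(ℤ/l)ˣ` modulo `p`-th powers and `normRes l p n` is the class of the
natural number `n` (junk value `1` if `n` is not prime to `l`).
-/

set_option autoImplicit false

namespace Fermat.Agent.S14.helper10

/-- The units of `ℤ/l` modulo `p`-th powers. -/
abbrev PowQuot (l p : ℕ) : Type :=
  (ZMod l)ˣ ⧸ (powMonoidHom p : (ZMod l)ˣ →* (ZMod l)ˣ).range

/-- The class of a unit. -/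
def PowQuot.mk (l p : ℕ) : (ZMod l)ˣ →* PowQuot l p :=
  QuotientGroup.mk' (powMonoidHom p : (ZMod l)ˣ →* (ZMod l)ˣ).range

theorem PowQuot.mk_surjective (l p : ℕ) : Function.Surjective (PowQuot.mk l p) :=
  QuotientGroup.mk'_surjective _

theorem PowQuot.mk_eq_one_iff (l p : ℕ) (u : (ZMod l)ˣ) :
    PowQuot.mk l p u = 1 ↔ ∃ v : (ZMod l)ˣ, v ^ p = u := by
  unfold PowQuot.mk
  rw [QuotientGroup.mk'_apply, QuotientGroup.eq_one_iff, MonoidHom.mem_range]
  simp [powMonoidHom_apply]

theorem PowQuot.pow_eq_one (l p : ℕ) (g : PowQuot l p) : g ^ p = 1 := by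
  obtain ⟨u, rfl⟩ := PowQuot.mk_surjective l p g
  rw [← map_pow, PowQuot.mk_eq_one_iff]
  exact ⟨u, rfl⟩

open Classical in
/-- The norm residue symbol: the class of `n` modulo `p`-th powers in `(ℤ/l)ˣ`. -/
noncomputable def normRes (l p n : ℕ) : PowQuot l p :=
  if h : n.Coprime l then PowQuot.mk l p (ZMod.unitOfCoprime n h) else 1

theorem normRes_of_coprime (l p : ℕ) {n : ℕ} (h : n.Coprime l) :
    normRes l p n = PowQuot.mk l p (ZMod.unitOfCoprime n h) := by
  unfold normRes
  rw [dif_pos h]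

theorem normRes_one (l p : ℕ) : normRes l p 1 = 1 := by
  rw [normRes_of_coprime l p (Nat.coprime_one_left l)]
  rw [PowQuot.mk_eq_one_iff]
  refine ⟨1, ?_⟩
  ext
  simp

theorem normRes_mul (l p : ℕ) {m n : ℕ} (hm : m.Coprime l) (hn : n.Coprime l) :
    normRes l p (m * n) = normRes l p m * normRes l p n := by
  rw [normRes_of_coprime l p hm, normRes_of_coprime l p hn,
    normRes_of_coprime l p (Nat.Coprime.mul_left hm hn), ← map_mul]
  congr 1
  ext
  simp

theorem normRes_pow (l p : ℕ) {m : ℕ} (hm : m.Coprime l) (k : ℕ) :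
    normRes l p (m ^ k) = normRes l p m ^ k := by
  induction k with
  | zero => simp [normRes_one]
  | succ k ih =>
    rw [pow_succ, normRes_mul l p (Nat.Coprime.pow_left k hm) hm, ih, pow_succ]

theorem normRes_eq_one_iff (l p : ℕ) (hp : p ≠ 0) {n : ℕ} (hn : n.Coprime l) :
    normRes l p n = 1 ↔ ∃ x : ZMod l, x ^ p = (n : ZMod l) := by
  rw [normRes_of_coprime l p hn, PowQuot.mk_eq_one_iff]
  constructor
  · rintro ⟨v, hv⟩
    refine ⟨(v : ZMod l), ?_⟩
    have := congrArg (fun u : (ZMod l)ˣ => (u : ZMod l)) hv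
    simpa using this
  · rintro ⟨x, hx⟩
    have hu : IsUnit (x ^ p) := by
      rw [hx]
      exact (ZMod.unitOfCoprime n hn).isUnit
    have hx' : IsUnit x := (isUnit_pow_iff hp).1 hu
    refine ⟨hx'.unit, ?_⟩
    ext
    simpa using hx

theorem normRes_multiset_prod (l p : ℕ) (s : Multiset ℕ) (hs : ∀ n ∈ s, n.Coprime l) :
    normRes l p s.prod = (s.map (normRes l p)).prod := by
  induction s using Multiset.induction_on with
  | empty => simp [normRes_one]
  | cons a s ih =>
    have ha : a.Coprime l := hs a (Multiset.mem_cons_self a s)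
    have hs' : ∀ n ∈ s, n.Coprime l := fun n hn => hs n (Multiset.mem_cons_of_mem hn)
    have hprod : s.prod.Coprime l := Nat.coprime_multiset_prod_left_iff.2 hs'
    rw [Multiset.prod_cons, normRes_mul l p ha hprod, ih hs', Multiset.map_cons,
      Multiset.prod_cons]

end Fermat.Agent.S14.helper10
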