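import Mathlib
import Fermat.Agent.S14.Defs
import Fermat.Agent.S14.helper34_Defs

/-!
# S14 (2c): interfaces consumed by the reciprocity endgame (helper10)

The endgame (task 174) consumes the following statements, stated here as `Prop`-valued
definitions so that the endgame can be written before the inputs land:

* `AuxPrimeStatement p` : the auxiliary prime `l` (helper30, task 172);
* `CrossingStatement p K L` : the crossing fields `E ⊆ M` (helper39, task 160);
* `SplitSumStatement E M` : the density of split primes (AN1 (3), helper52, task 153).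
-/

set_option autoImplicit false

open NumberField IsDedekindDomain
open scoped nonZeroDivisors

namespace Fermat.Agent.S14.helper10

universe u

/-- The auxiliary prime (exact statement of helper30's `exists_aux_prime`). -/
def AuxPrimeStatement (p : ℕ) : Prop :=
  ∀ (q r : ℕ), q.Prime → r.Prime → q ≠ r → q ≠ p → r ≠ p → ∀ (a b : ℕ), ¬ p ∣ b →
    ∀ S : Finset ℕ, ∃ l : ℕ, l.Prime ∧ l ∉ S ∧ l % p = 1 ∧
      (∃ x : ZMod l, x ^ p = (q : ZMod l) ^ a * (r : ZMod l) ^ b) ∧
      ¬ ∃ x : ZMod l, x ^ p = (q : ZMod l)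

/-- AN1 (3): the primes of `E` which split completely in `M` have density `1/[M:E]`. -/
def SplitSumStatement (E M : Type*) [Field E] [NumberField E] [Field M] [NumberField M]
    [Algebra E M] : Prop :=
  ∃ B : ℝ, ∀ s : ℝ, 1 < s → s ≤ 2 →
    |(Module.finrank E M : ℝ) * ∑' 𝔭 : helper34.splitSet E M,
      (Ideal.absNorm 𝔭.1.asIdeal : ℝ) ^ (-s) - Real.log (1 / (s - 1))| ≤ B

/-- The crossing fields (helper39): for primes `Q`, `R` of `K` which do not split in `L`, lying
over distinct rational primes `q ≠ r` different from `p`, an auxiliary prime `l` and exponents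
`a`, `b` with `Frob_Q ^ a * Frob_R ^ b = 1`, there are number fields `K ⊆ E ⊆ M` with `M / E`
Galois of degree `p` such that
* (F1) the norm of a prime of `E` prime to `l` which splits in `M` is a `p`-th power mod `l`;
* (F2) the norm of a principal ideal of `E` prime to `l` is a `p`-th power mod `l`;
* (F3) `Q` and `R` are relative norms of primes of `E`;
* (F4) the relative norm to `K` of a prime of `E` which splits in `M` is the relative norm of an
  ideal of `L`. -/
def CrossingStatement (p : ℕ) (K L : Type u) [Field K] [NumberField K] [Field L] [NumberField L]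
    [Algebra K L] [IsGalois K L] : Prop :=
  ∀ (Q R : HeightOneSpectrum (𝓞 K)) (q r l a b : ℕ),
    q.Prime → r.Prime → l.Prime → q ≠ r → q ≠ p → r ≠ p → l ≠ p → l ≠ q → l ≠ r → l % p = 1 →
    (q : 𝓞 K) ∈ Q.asIdeal → (r : 𝓞 K) ∈ R.asIdeal →
    Q ∉ helper34.splitSet K L → R ∉ helper34.splitSet K L →
    (∃ x : ZMod l, x ^ p =
      (Ideal.absNorm Q.asIdeal : ZMod l) ^ a * (Ideal.absNorm R.asIdeal : ZMod l) ^ b) →
    (¬ ∃ x : ZMod l, x ^ p = (Ideal.absNorm Q.asIdeal : ZMod l)) →
    frobAt K L Q.asIdeal ^ a * frobAt K L R.asIdeal ^ b = 1 →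
    ∃ (E M : Type u) (_ : Field E) (_ : NumberField E) (_ : Field M) (_ : NumberField M)
      (_ : Algebra K E) (_ : Algebra E M) (_ : IsGalois E M),
      Module.finrank E M = p ∧
      (∀ P : HeightOneSpectrum (𝓞 E), P ∈ helper34.splitSet E M → (l : 𝓞 E) ∉ P.asIdeal →
        ∃ x : ZMod l, x ^ p = (Ideal.absNorm P.asIdeal : ZMod l)) ∧
      (∀ γ : 𝓞 E, γ ≠ 0 → Ideal.span {γ} ⊔ Ideal.span {(l : 𝓞 E)} = ⊤ →
        ∃ x : ZMod l, x ^ p = (Ideal.absNorm (Ideal.span {γ}) : ZMod l)) ∧
      (∃ Q' R' : HeightOneSpectrum (𝓞 E),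
        Ideal.relNorm (𝓞 K) Q'.asIdeal = Q.asIdeal ∧
        Ideal.relNorm (𝓞 K) R'.asIdeal = R.asIdeal) ∧
      (∀ P : HeightOneSpectrum (𝓞 E), P ∈ helper34.splitSet E M →
        ∃ J : Ideal (𝓞 L), J ≠ ⊥ ∧
          Ideal.relNorm (𝓞 K) J = Ideal.relNorm (𝓞 K) P.asIdeal)

end Fermat.Agent.S14.helper10
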