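import Mathlib
import Fermat.Agent.S14.helper10_Interface
import Fermat.Agent.S14.helper89_SecondIneq
import Fermat.Agent.S14.helper34_AN0Final
import Fermat.Agent.S14.helper52_PrimeSum

/-!
# S14 (2c): the second inequality in the form used by the endgame (helper10)

* `index_le_of_splitSum` : helper89's `second_inequality'` with helper34's AN0 plugged in;
* `splitSumStatement_self` : the density statement for the trivial extension `E / E`;
* `closure_primeClass_eq_top` : the classes of the primes outside a finite set generate the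
  class group.
-/

set_option autoImplicit false

open NumberField IsDedekindDomain
open scoped nonZeroDivisors

namespace Fermat.Agent.S14.helper10

variable (E : Type*) [Field E] [NumberField E]

/-- The analytic second inequality, with a finite exceptional set. -/
theorem index_le_of_splitSum (M : Type*) [Field M] [NumberField M] [Algebra E M]
    (hSS : SplitSumStatement E M) (H : Subgroup (ClassGroup (𝓞 E)))
    (T : Finset (HeightOneSpectrum (𝓞 E)))
    (hH : ∀ 𝔭 ∈ helper34.splitSet E M, 𝔭 ∉ T → helper34.primeClass E 𝔭 ∈ H) :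
    H.index ≤ Module.finrank E M :=
  helper89.second_inequality' H M (helper34.partialZeta_sub_bounded E)
    (helper34.partialZeta_le E) (helper34.summable_partialZeta E) hSS T hH

omit [NumberField E] in
theorem algebraMap_ringOfIntegers_self (x : 𝓞 E) :
    @algebraMap (𝓞 E) (𝓞 E) _ _ (NumberField.inst_ringOfIntegersAlgebra E E) x = x := by
  apply NumberField.RingOfIntegers.ext
  rfl

omit [NumberField E] in
theorem under_ringOfIntegers_self (P : Ideal (𝓞 E)) :
    @Ideal.under (𝓞 E) _ (𝓞 E) _ (NumberField.inst_ringOfIntegersAlgebra E E) P = P := by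
  ext x
  rw [Ideal.under, Ideal.mem_comap, algebraMap_ringOfIntegers_self]

theorem splitSet_self : helper34.splitSet E E = Set.univ := by
  ext 𝔭
  simp only [helper34.splitSet, Set.mem_ofPred_eq, Set.mem_univ, iff_true, Module.finrank_self]
  rw [Set.ncard_eq_one]
  refine ⟨𝔭.asIdeal, ?_⟩
  ext P
  simp only [Ideal.primesOver, Set.mem_ofPred_eq, Set.mem_singleton_iff]
  constructor
  · rintro ⟨-, h⟩
    have := h.over
    rw [this, under_ringOfIntegers_self]
  · rintro rfl
    exact ⟨𝔭.isPrime, ⟨(under_ringOfIntegers_self E _).symm⟩⟩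

theorem splitSumStatement_self : SplitSumStatement E E := by
  obtain ⟨B, hB⟩ := helper52.primeIdeal_sum_sub_log_bounded E
  refine ⟨B, fun s hs hs2 => ?_⟩
  have h := hB s hs hs2
  have e : ∑' 𝔭 : helper34.splitSet E E, (Ideal.absNorm 𝔭.1.asIdeal : ℝ) ^ (-s) =
      ∑' 𝔭 : HeightOneSpectrum (𝓞 E), (Ideal.absNorm 𝔭.asIdeal : ℝ) ^ (-s) := by
    rw [splitSet_self]
    exact tsum_univ (fun 𝔭 : HeightOneSpectrum (𝓞 E) => (Ideal.absNorm 𝔭.asIdeal : ℝ) ^ (-s))
  rw [e, Module.finrank_self, Nat.cast_one, one_mul]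
  exact h

/-- The classes of the primes outside a finite set generate the class group. -/
theorem closure_primeClass_eq_top (T : Finset (HeightOneSpectrum (𝓞 E))) :
    Subgroup.closure {c | ∃ 𝔭 : HeightOneSpectrum (𝓞 E), 𝔭 ∉ T ∧ helper34.primeClass E 𝔭 = c}
      = ⊤ := by
  set H := Subgroup.closure
    {c | ∃ 𝔭 : HeightOneSpectrum (𝓞 E), 𝔭 ∉ T ∧ helper34.primeClass E 𝔭 = c} with hH
  have h1 : H.index ≤ Module.finrank E E :=
    index_le_of_splitSum E E (splitSumStatement_self E) H T
      (fun 𝔭 _ h𝔭 => Subgroup.subset_closure ⟨𝔭, h𝔭, rfl⟩)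
  rw [Module.finrank_self] at h1
  have h2 : H.index ≠ 0 := Subgroup.index_ne_zero_of_finite
  exact Subgroup.index_eq_one.1 (by omega)

/-- The primes containing a nonzero natural number form a finite set. -/
theorem finite_primes_natCast_mem {n : ℕ} (hn : n ≠ 0) :
    {𝔭 : HeightOneSpectrum (𝓞 E) | (n : 𝓞 E) ∈ 𝔭.asIdeal}.Finite := by
  have h0 : Ideal.span {(n : 𝓞 E)} ≠ 0 := by
    rw [Ne, Ideal.zero_eq_bot, Ideal.span_singleton_eq_bot]
    exact_mod_cast hn
  refine (Ideal.finite_factors h0).subset ?_
  intro 𝔭 h𝔭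
  simp only [Set.mem_ofPred_eq] at h𝔭 ⊢
  rw [Ideal.dvd_iff_le, Ideal.span_singleton_le_iff_mem]
  exact h𝔭

end Fermat.Agent.S14.helper10
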