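import Mathlib
import Fermat.Agent.S14.helper10_Kernel
import Fermat.Agent.S14.helper10_NormRes
import Fermat.Agent.S14.helper10_SecondIneq

/-!
# S14 (2c): the endgame in the crossing field `E` (helper10)

`M / E` is the crossing extension (of degree `p`), `l` the auxiliary prime.  The norm residue
symbol `Ψ(P) = N(P) mod l mod p-th powers` on the primes of `E` prime to `l` kills the primes
which split in `M` (F1) and the principal ideals (F2).  The second inequality shows that the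
classes of the split primes generate the kernel of `Ψ` on the class group of `E`.
-/

set_option autoImplicit false

open NumberField IsDedekindDomain
open scoped nonZeroDivisors

namespace Fermat.Agent.S14.helper10

section Coprime

variable {E : Type*} [Field E] [NumberField E]

/-- The norm of a prime not containing the prime number `l` is prime to `l`. -/
theorem coprime_absNorm_of_natCast_not_mem {l : ℕ} (hl : l.Prime)
    (P : HeightOneSpectrum (𝓞 E)) (h : (l : 𝓞 E) ∉ P.asIdeal) :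
    (Ideal.absNorm P.asIdeal).Coprime l := by
  rw [Nat.coprime_comm, hl.coprime_iff_not_dvd]
  intro hdvd
  apply h
  have : Fact l.Prime := ⟨hl⟩
  have hmax : P.asIdeal.IsMaximal := P.isMaximal
  have hfin : Finite (𝓞 E ⧸ P.asIdeal) := Ideal.finiteQuotientOfFreeOfNeBot _ P.ne_bot
  let _ : Fintype (𝓞 E ⧸ P.asIdeal) := Fintype.ofFinite _
  let _ : Field (𝓞 E ⧸ P.asIdeal) := Ideal.Quotient.field P.asIdeal
  have hcard : l ∣ Fintype.card (𝓞 E ⧸ P.asIdeal) := by
    rw [← Nat.card_eq_fintype_card, ← Submodule.cardQuot_apply, ← Ideal.absNorm_apply]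
    exact hdvd
  have hnu : ¬ IsUnit ((l : ℕ) : 𝓞 E ⧸ P.asIdeal) := not_isUnit_prime_of_dvd_card hcard
  have h0 : ((l : ℕ) : 𝓞 E ⧸ P.asIdeal) = 0 := by
    by_contra hne
    exact hnu (isUnit_iff_ne_zero.2 hne)
  rw [← Ideal.Quotient.eq_zero_iff_mem]
  simpa using h0

/-- A prime not containing `l` is coprime to `l`. -/
theorem sup_span_natCast_eq_top {l : ℕ} (P : HeightOneSpectrum (𝓞 E))
    (h : (l : 𝓞 E) ∉ P.asIdeal) : Ideal.span {(l : 𝓞 E)} ⊔ P.asIdeal = ⊤ := by
  have hmax : P.asIdeal.IsMaximal := P.isMaximal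
  by_contra hne
  apply h
  have h1 : P.asIdeal = Ideal.span {(l : 𝓞 E)} ⊔ P.asIdeal := hmax.eq_of_le hne le_sup_right
  have h2 : Ideal.span {(l : 𝓞 E)} ≤ P.asIdeal := by
    rw [h1]; exact le_sup_left
  exact (Ideal.span_singleton_le_iff_mem _).1 h2

end Coprime

section Main

variable {E : Type*} [Field E] [NumberField E]

/-- The primes of `E` not containing `l`. -/
abbrev PrimeAway (E : Type*) [Field E] [NumberField E] (l : ℕ) : Type _ :=
  {P : HeightOneSpectrum (𝓞 E) // (l : 𝓞 E) ∉ P.asIdeal}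

/-- A prime as a nonzero ideal. -/
noncomputable def primeIdeal0 (P : HeightOneSpectrum (𝓞 E)) : (Ideal (𝓞 E))⁰ :=
  ⟨P.asIdeal, mem_nonZeroDivisors_of_ne_zero P.ne_bot⟩

theorem mk0_primeIdeal0 (P : HeightOneSpectrum (𝓞 E)) :
    ClassGroup.mk0 (primeIdeal0 P) = helper34.primeClass E P := rfl

/-- (F2) implies that the norm residue symbol kills the principal products of primes. -/
theorem prod_normRes_eq_one_of_prod_class_eq_one (p l : ℕ) (hp : p.Prime) (hl : l.Prime)
    (F2 : ∀ γ : 𝓞 E, γ ≠ 0 → Ideal.span {γ} ⊔ Ideal.span {(l : 𝓞 E)} = ⊤ →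
      ∃ x : ZMod l, x ^ p = (Ideal.absNorm (Ideal.span {γ}) : ZMod l))
    (m : Multiset (PrimeAway E l))
    (hm : (m.map (fun P => helper34.primeClass E P.1)).prod = 1) :
    (m.map (fun P => normRes l p (Ideal.absNorm P.1.asIdeal))).prod = 1 := by
  classical
  set J : (Ideal (𝓞 E))⁰ := (m.map (fun P => primeIdeal0 P.1)).prod with hJ
  have hJcls : ClassGroup.mk0 J = 1 := by
    rw [hJ, map_multiset_prod, Multiset.map_map]
    exact hm
  have hJcoe : (J : Ideal (𝓞 E)) = (m.map (fun P => P.1.asIdeal)).prod := by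
    rw [hJ, ← Submonoid.coe_subtype, map_multiset_prod, Multiset.map_map]
    rfl
  rw [ClassGroup.mk0_eq_one_iff J.2] at hJcls
  obtain ⟨γ, hγ⟩ := hJcls
  rw [Ideal.submodule_span_eq] at hγ
  have hγ0 : γ ≠ 0 := by
    rintro rfl
    have : (J : Ideal (𝓞 E)) = ⊥ := by rw [hγ]; simp
    exact nonZeroDivisors.coe_ne_zero J this
  have hcop : Ideal.span {γ} ⊔ Ideal.span {(l : 𝓞 E)} = ⊤ := by
    rw [← hγ, hJcoe, sup_comm]
    apply Ideal.sup_multiset_prod_eq_top
    intro I hI
    obtain ⟨P, -, rfl⟩ := Multiset.mem_map.1 hI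
    exact sup_span_natCast_eq_top P.1 P.2
  obtain ⟨x, hx⟩ := F2 γ hγ0 hcop
  have hN : Ideal.absNorm (Ideal.span {γ}) = (m.map (fun P => Ideal.absNorm P.1.asIdeal)).prod := by
    rw [← hγ, hJcoe, map_multiset_prod, Multiset.map_map]
    rfl
  have hcop' : ∀ n ∈ m.map (fun P => Ideal.absNorm P.1.asIdeal), n.Coprime l := by
    intro n hn
    obtain ⟨P, -, rfl⟩ := Multiset.mem_map.1 hn
    exact coprime_absNorm_of_natCast_not_mem hl P.1 P.2
  have h1 : normRes l p (m.map (fun P => Ideal.absNorm P.1.asIdeal)).prod = 1 := by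
    rw [normRes_eq_one_iff l p hp.ne_zero (Nat.coprime_multiset_prod_left_iff.2 hcop')]
    exact ⟨x, by rw [hx, hN]⟩
  rw [normRes_multiset_prod l p _ hcop', Multiset.map_map] at h1
  exact h1

/-- **The endgame in the crossing field.** If the norm residue symbol modulo `l` kills the split
primes (F1) and the principal ideals (F2) of `E`, is nontrivial at `Q'` and trivial at
`Q' ^ a * R' ^ b`, then the class of `Q' ^ a * R' ^ b` is generated by classes of primes of `E`
which split completely in `M`. -/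
theorem crossing_class_mem {M : Type*} [Field M] [NumberField M] [Algebra E M]
    (p l : ℕ) (hp : p.Prime) (hl : l.Prime)
    (hdeg : Module.finrank E M = p) (hSS : SplitSumStatement E M)
    (F1 : ∀ P : HeightOneSpectrum (𝓞 E), P ∈ helper34.splitSet E M → (l : 𝓞 E) ∉ P.asIdeal →
      ∃ x : ZMod l, x ^ p = (Ideal.absNorm P.asIdeal : ZMod l))
    (F2 : ∀ γ : 𝓞 E, γ ≠ 0 → Ideal.span {γ} ⊔ Ideal.span {(l : 𝓞 E)} = ⊤ →
      ∃ x : ZMod l, x ^ p = (Ideal.absNorm (Ideal.span {γ}) : ZMod l))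
    (Q' R' : HeightOneSpectrum (𝓞 E)) (hQ' : (l : 𝓞 E) ∉ Q'.asIdeal)
    (hR' : (l : 𝓞 E) ∉ R'.asIdeal) (a b : ℕ)
    (hres : ∃ x : ZMod l, x ^ p =
      (Ideal.absNorm Q'.asIdeal : ZMod l) ^ a * (Ideal.absNorm R'.asIdeal : ZMod l) ^ b)
    (hnon : ¬ ∃ x : ZMod l, x ^ p = (Ideal.absNorm Q'.asIdeal : ZMod l)) :
    helper34.primeClass E Q' ^ a * helper34.primeClass E R' ^ b ∈
      Subgroup.closure {c | ∃ P : HeightOneSpectrum (𝓞 E), P ∈ helper34.splitSet E M ∧
        helper34.primeClass E P = c} := by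
  classical
  set cls : PrimeAway E l → ClassGroup (𝓞 E) := fun P => helper34.primeClass E P.1 with hcls
  set Ψ : PrimeAway E l → PowQuot l p := fun P => normRes l p (Ideal.absNorm P.1.asIdeal) with hΨ
  set S₀ : Set (PrimeAway E l) := {P | P.1 ∈ helper34.splitSet E M} with hS₀
  set T : Finset (HeightOneSpectrum (𝓞 E)) :=
    (finite_primes_natCast_mem E hl.ne_zero).toFinset with hT
  have hTmem : ∀ 𝔭 : HeightOneSpectrum (𝓞 E), 𝔭 ∉ T ↔ (l : 𝓞 E) ∉ 𝔭.asIdeal := by
    intro 𝔭
    rw [hT, Set.Finite.mem_toFinset]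
    rfl
  have cQ : (Ideal.absNorm Q'.asIdeal).Coprime l := coprime_absNorm_of_natCast_not_mem hl Q' hQ'
  have cR : (Ideal.absNorm R'.asIdeal).Coprime l := coprime_absNorm_of_natCast_not_mem hl R' hR'
  -- generation
  have gen : Subgroup.closure (Set.range cls) = ⊤ := by
    rw [eq_top_iff, ← closure_primeClass_eq_top E T]
    apply Subgroup.closure_mono
    rintro c ⟨𝔭, h𝔭, rfl⟩
    exact ⟨⟨𝔭, (hTmem 𝔭).1 h𝔭⟩, rfl⟩
  -- the split primes are killed
  have hS₀1 : ∀ i ∈ S₀, Ψ i = 1 := by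
    intro P hP
    rw [hΨ]
    show normRes l p (Ideal.absNorm P.1.asIdeal) = 1
    rw [normRes_eq_one_iff l p hp.ne_zero (coprime_absNorm_of_natCast_not_mem hl P.1 P.2)]
    exact F1 P.1 hP P.2
  -- the index
  have idx : (Subgroup.closure (cls '' S₀)).index ≤ p := by
    rw [← hdeg]
    apply index_le_of_splitSum E M hSS _ T
    intro 𝔭 h𝔭 h𝔭T
    apply Subgroup.subset_closure
    exact ⟨⟨𝔭, (hTmem 𝔭).1 h𝔭T⟩, h𝔭, rfl⟩
  -- reciprocity
  have hrec : ∀ m : Multiset (PrimeAway E l), (m.map cls).prod = 1 → (m.map Ψ).prod = 1 :=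
    fun m hm => prod_normRes_eq_one_of_prod_class_eq_one p l hp hl F2 m hm
  -- nontriviality
  have hne : ∃ i, Ψ i ≠ 1 := by
    refine ⟨⟨Q', hQ'⟩, ?_⟩
    rw [hΨ]
    show normRes l p (Ideal.absNorm Q'.asIdeal) ≠ 1
    rw [Ne, normRes_eq_one_iff l p hp.ne_zero cQ]
    exact hnon
  -- the multiset
  set m : Multiset (PrimeAway E l) := a • {⟨Q', hQ'⟩} + b • {⟨R', hR'⟩} with hm
  have hmΨ : (m.map Ψ).prod = 1 := by
    rw [hm, Multiset.map_add, Multiset.prod_add, Multiset.map_nsmul, Multiset.map_nsmul,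
      Multiset.prod_nsmul, Multiset.prod_nsmul, Multiset.map_singleton, Multiset.map_singleton,
      Multiset.prod_singleton, Multiset.prod_singleton]
    show normRes l p (Ideal.absNorm Q'.asIdeal) ^ a * normRes l p (Ideal.absNorm R'.asIdeal) ^ b
      = 1
    rw [← normRes_pow l p cQ, ← normRes_pow l p cR,
      ← normRes_mul l p (Nat.Coprime.pow_left a cQ) (Nat.Coprime.pow_left b cR),
      normRes_eq_one_iff l p hp.ne_zero
        (Nat.Coprime.mul_left (Nat.Coprime.pow_left a cQ) (Nat.Coprime.pow_left b cR))]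
    obtain ⟨x, hx⟩ := hres
    exact ⟨x, by rw [hx]; push_cast; rfl⟩
  have key := prod_cls_mem_closure_of_index_le p hp (PowQuot.pow_eq_one l p) cls Ψ S₀ gen hS₀1 idx
    hrec hne m hmΨ
  have hmc : (m.map cls).prod = helper34.primeClass E Q' ^ a * helper34.primeClass E R' ^ b := by
    rw [hm, Multiset.map_add, Multiset.prod_add, Multiset.map_nsmul, Multiset.map_nsmul,
      Multiset.prod_nsmul, Multiset.prod_nsmul, Multiset.map_singleton, Multiset.map_singleton,
      Multiset.prod_singleton, Multiset.prod_singleton]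
  rw [hmc] at key
  refine Subgroup.closure_mono ?_ key
  rintro c ⟨P, hP, rfl⟩
  exact ⟨P.1, hP, rfl⟩

end Main

end Fermat.Agent.S14.helper10
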