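import Mathlib

/-!
# S14 (2c): the norm map on class groups (helper10)
-/

namespace Fermat.Agent.S14.helper10

open NumberField nonZeroDivisors

section Norm

variable (K E : Type*) [Field K] [NumberField K] [Field E] [NumberField E] [Algebra K E]

theorem relNorm_mem_nonZeroDivisors (I : (Ideal (𝓞 E))⁰) :
    Ideal.relNorm (𝓞 K) (I : Ideal (𝓞 E)) ∈ (Ideal (𝓞 K))⁰ := by
  apply mem_nonZeroDivisors_of_ne_zero
  rw [Ne, Ideal.zero_eq_bot, Ideal.relNorm_eq_bot_iff]
  exact nonZeroDivisors.ne_zero I.2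

/-- The relative norm as a monoid homomorphism on nonzero ideals. -/
noncomputable def relNorm0 : (Ideal (𝓞 E))⁰ →* (Ideal (𝓞 K))⁰ where
  toFun I := ⟨Ideal.relNorm (𝓞 K) (I : Ideal (𝓞 E)), relNorm_mem_nonZeroDivisors K E I⟩
  map_one' := by
    ext1
    simp
  map_mul' I J := by
    ext1
    simp

@[simp] theorem coe_relNorm0 (I : (Ideal (𝓞 E))⁰) :
    ((relNorm0 K E I : (Ideal (𝓞 K))⁰) : Ideal (𝓞 K)) = Ideal.relNorm (𝓞 K) (I : Ideal (𝓞 E)) :=
  rfl

theorem mk0_relNorm0_eq_of_mk0_eq {I J : (Ideal (𝓞 E))⁰}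
    (h : ClassGroup.mk0 I = ClassGroup.mk0 J) :
    ClassGroup.mk0 (relNorm0 K E I) = ClassGroup.mk0 (relNorm0 K E J) := by
  rw [ClassGroup.mk0_eq_mk0_iff] at h ⊢
  obtain ⟨x, y, hx, hy, hxy⟩ := h
  refine ⟨Algebra.intNorm (𝓞 K) (𝓞 E) x, Algebra.intNorm (𝓞 K) (𝓞 E) y, ?_, ?_, ?_⟩
  · rwa [Ne, Algebra.intNorm_eq_zero]
  · rwa [Ne, Algebra.intNorm_eq_zero]
  · have := congrArg (Ideal.relNorm (𝓞 K)) hxy
    rw [map_mul, map_mul, Ideal.relNorm_singleton, Ideal.relNorm_singleton] at this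
    exact this

/-- The norm map on class groups. -/
noncomputable def classNorm : ClassGroup (𝓞 E) →* ClassGroup (𝓞 K) :=
  MonoidHom.mk'
    (fun c => ClassGroup.mk0 (relNorm0 K E (Function.surjInv ClassGroup.mk0_surjective c)))
    (by
      intro a b
      rw [← map_mul, ← map_mul]
      apply mk0_relNorm0_eq_of_mk0_eq
      rw [map_mul, Function.surjInv_eq ClassGroup.mk0_surjective,
        Function.surjInv_eq ClassGroup.mk0_surjective,
        Function.surjInv_eq ClassGroup.mk0_surjective])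

theorem classNorm_mk0 (I : (Ideal (𝓞 E))⁰) :
    classNorm K E (ClassGroup.mk0 I) = ClassGroup.mk0 (relNorm0 K E I) := by
  show ClassGroup.mk0 (relNorm0 K E (Function.surjInv ClassGroup.mk0_surjective _)) = _
  apply mk0_relNorm0_eq_of_mk0_eq
  rw [Function.surjInv_eq ClassGroup.mk0_surjective]

end Norm

end Fermat.Agent.S14.helper10
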