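import Mathlib
import Fermat.Agent.S14.helper12_Artin

/-!
# S14 (1), part 3: the Artin map kills norms (helper12)

* `frobAt_pow_inertiaDeg` : `Frob_𝔭 ^ f = 1`.
* `artinMap_relNorm` : the Artin map of an unramified abelian extension kills the norms of the
  nonzero ideals of `𝓞 M`.
* `exists_relNorm_eq_of_frobAt_eq_one` : a prime with trivial Frobenius is a norm.
-/

set_option autoImplicit false
set_option linter.unusedSectionVars false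
set_option linter.style.haveILetI false
set_option linter.overlappingInstances false

open scoped NumberField IsMulCommutative nonZeroDivisors Pointwise

namespace Fermat.Agent.S14.helper12

open Fermat.Agent.S14

/-- Iterating an arithmetic Frobenius. -/
lemma isArithFrobAt_pow_apply {R S : Type*} [CommRing R] [CommRing S] [Algebra R S]
    {G : Type*} [Group G] [MulSemiringAction G S] [SMulCommClass G R S]
    {Q : Ideal S} {σ : G} (h : IsArithFrobAt R σ Q) (n : ℕ) (x : S) :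
    (σ ^ n) • x - x ^ (Nat.card (R ⧸ Q.under R) ^ n) ∈ Q := by
  induction n generalizing x with
  | zero => simp
  | succ n ih =>
    have h1 := ih (σ • x)
    have h2 : σ • x - x ^ Nat.card (R ⧸ Q.under R) ∈ Q := h x
    have h3 : (σ • x) ^ (Nat.card (R ⧸ Q.under R) ^ n) -
        (x ^ Nat.card (R ⧸ Q.under R)) ^ (Nat.card (R ⧸ Q.under R) ^ n) ∈ Q := by
      rw [← Ideal.Quotient.eq] at h2 ⊢
      rw [map_pow, map_pow, h2]
    have h4 := Q.add_mem h1 h3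
    have e1 : (σ ^ (n + 1)) • x = (σ ^ n) • (σ • x) := by
      rw [pow_succ, mul_smul]
    have e2 : x ^ (Nat.card (R ⧸ Q.under R) ^ (n + 1)) =
        (x ^ Nat.card (R ⧸ Q.under R)) ^ (Nat.card (R ⧸ Q.under R) ^ n) := by
      rw [← pow_mul, pow_succ, mul_comm]
    rw [e1, e2]
    convert h4 using 1
    ring

variable (E M : Type*) [Field E] [NumberField E] [Field M] [NumberField M] [Algebra E M]

section Abelian

variable [IsAbelianGalois E M]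

/-- The cardinality of the residue field in terms of the inertia degree. -/
lemma card_quot_eq_pow_inertiaDeg (𝔭 : Ideal (𝓞 E)) [𝔭.IsPrime] (h𝔭 : 𝔭 ≠ ⊥)
    (P : Ideal (𝓞 M)) [P.IsPrime] [P.LiesOver 𝔭] :
    Nat.card (𝓞 M ⧸ P) = Nat.card (𝓞 E ⧸ 𝔭) ^ P.inertiaDeg (𝓞 E) := by
  have hP0 : P ≠ ⊥ := by
    apply ne_bot_of_under_ne_bot E M P
    rw [← Ideal.LiesOver.over (p := 𝔭) (P := P)]
    exact h𝔭
  haveI : Finite (𝓞 M ⧸ P) := Ideal.finiteQuotientOfFreeOfNeBot P hP0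
  haveI : Finite (𝓞 E ⧸ 𝔭) := Ideal.finiteQuotientOfFreeOfNeBot 𝔭 h𝔭
  haveI : P.IsMaximal := Ideal.isMaximal_of_isPrime_of_ne_bot P hP0
  haveI : 𝔭.IsMaximal := Ideal.isMaximal_of_isPrime_of_ne_bot 𝔭 h𝔭
  letI : Field (𝓞 M ⧸ P) := Ideal.Quotient.field P
  letI : Field (𝓞 E ⧸ 𝔭) := Ideal.Quotient.field 𝔭
  haveI := Fintype.ofFinite (𝓞 M ⧸ P)
  haveI := Fintype.ofFinite (𝓞 E ⧸ 𝔭)
  rw [Ideal.inertiaDeg_eq_of_isMaximal 𝔭 P, Nat.card_eq_fintype_card, Nat.card_eq_fintype_card,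
    Module.card_eq_pow_finrank (K := 𝓞 E ⧸ 𝔭) (V := 𝓞 M ⧸ P)]

/-- `Frob_𝔭 ^ f = 1` where `f` is the residue degree of a prime `P` over `𝔭` with trivial
inertia. -/
theorem frobAt_pow_inertiaDeg (𝔭 : Ideal (𝓞 E)) [𝔭.IsPrime] (h𝔭 : 𝔭 ≠ ⊥)
    (P : Ideal (𝓞 M)) [P.IsPrime] [P.LiesOver 𝔭]
    (hunr : ∀ σ : Gal(M/E), (∀ x : 𝓞 M, σ • x - x ∈ P) → σ = 1) :
    frobAt E M 𝔭 ^ P.inertiaDeg (𝓞 E) = 1 := by
  have hP𝔭 : P.under (𝓞 E) = 𝔭 := (Ideal.LiesOver.over (p := 𝔭) (P := P)).symm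
  have hP0 : P ≠ ⊥ := by
    apply ne_bot_of_under_ne_bot E M P
    rw [hP𝔭]; exact h𝔭
  have hfrob := isArithFrobAt_frobAt E M 𝔭 h𝔭 P hP𝔭
  apply hunr
  intro x
  have h1 := isArithFrobAt_pow_apply hfrob (P.inertiaDeg (𝓞 E)) x
  rw [hP𝔭, ← card_quot_eq_pow_inertiaDeg E M 𝔭 h𝔭 P] at h1
  haveI : Finite (𝓞 M ⧸ P) := Ideal.finiteQuotientOfFreeOfNeBot P hP0
  haveI : P.IsMaximal := Ideal.isMaximal_of_isPrime_of_ne_bot P hP0
  letI : Field (𝓞 M ⧸ P) := Ideal.Quotient.field P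
  haveI := Fintype.ofFinite (𝓞 M ⧸ P)
  have h2 : x ^ Nat.card (𝓞 M ⧸ P) - x ∈ P := by
    rw [← Ideal.Quotient.eq, map_pow, Nat.card_eq_fintype_card]
    exact FiniteField.pow_card _
  have := P.add_mem h1 h2
  convert this using 1
  ring

/-- The Artin map kills the norm of a nonzero prime. -/
theorem artinMap_relNorm_prime (hunr : IsUnramifiedEverywhere E M)
    (P : Ideal (𝓞 M)) [P.IsPrime] (hP0 : P ≠ ⊥)
    (h : Ideal.relNorm (𝓞 E) P ∈ (Ideal (𝓞 E))⁰) :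
    artinMap E M ⟨Ideal.relNorm (𝓞 E) P, h⟩ = 1 := by
  set 𝔭 := P.under (𝓞 E) with h𝔭def
  have h𝔭 : 𝔭 ≠ ⊥ := under_ne_bot E M P hP0
  haveI : 𝔭.IsPrime := Ideal.IsPrime.under (𝓞 E) P
  haveI : P.LiesOver 𝔭 := ⟨rfl⟩
  haveI : P.IsMaximal := Ideal.isMaximal_of_isPrime_of_ne_bot P hP0
  haveI : 𝔭.IsMaximal := Ideal.isMaximal_of_isPrime_of_ne_bot 𝔭 h𝔭
  have hrel : Ideal.relNorm (𝓞 E) P = 𝔭 ^ P.inertiaDeg (𝓞 E) :=
    Ideal.relNorm_eq_pow_of_isMaximal P 𝔭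
  have key : artinMap E M ⟨𝔭 ^ P.inertiaDeg (𝓞 E),
      mem_nonZeroDivisors_of_ne_zero (pow_ne_zero _ h𝔭)⟩ = 1 := by
    rw [artinMap_mk_pow E M 𝔭 h𝔭, artinMap_prime E M 𝔭 h𝔭]
    exact frobAt_pow_inertiaDeg E M 𝔭 h𝔭 P (hunr P inferInstance hP0)
  rw [← key]
  congr 1
  exact Subtype.ext hrel

/-- **The Artin map kills norms.** -/
theorem artinMap_relNorm (hunr : IsUnramifiedEverywhere E M)
    (𝔄 : Ideal (𝓞 M)) (h𝔄 : 𝔄 ≠ ⊥)
    (h : Ideal.relNorm (𝓞 E) 𝔄 ∈ (Ideal (𝓞 E))⁰) :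
    artinMap E M ⟨Ideal.relNorm (𝓞 E) 𝔄, h⟩ = 1 := by
  revert h
  induction 𝔄 using UniqueFactorizationMonoid.induction_on_prime with
  | h₁ => exact absurd rfl h𝔄
  | h₂ u hu =>
    intro h
    have hu' : u = ⊤ := by simpa using hu
    subst hu'
    have : (⟨Ideal.relNorm (𝓞 E) (⊤ : Ideal (𝓞 M)), h⟩ : (Ideal (𝓞 E))⁰) = 1 := by
      apply Subtype.ext
      simp [Ideal.one_eq_top]
    rw [this, map_one]
  | h₃ 𝔄 P h𝔄0 hP ih =>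
    intro h
    have hP0 : P ≠ ⊥ := hP.ne_zero
    haveI : P.IsPrime := Ideal.isPrime_of_prime hP
    have h𝔄' : 𝔄 ≠ ⊥ := h𝔄0
    have hN1 : Ideal.relNorm (𝓞 E) P ≠ ⊥ := by
      rw [Ne, Ideal.relNorm_eq_bot_iff]; exact hP0
    have hN2 : Ideal.relNorm (𝓞 E) 𝔄 ≠ ⊥ := by
      rw [Ne, Ideal.relNorm_eq_bot_iff]; exact h𝔄'
    have e : (⟨Ideal.relNorm (𝓞 E) (P * 𝔄), h⟩ : (Ideal (𝓞 E))⁰) =
        ⟨Ideal.relNorm (𝓞 E) P, mem_nonZeroDivisors_of_ne_zero hN1⟩ *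
          ⟨Ideal.relNorm (𝓞 E) 𝔄, mem_nonZeroDivisors_of_ne_zero hN2⟩ := by
      apply Subtype.ext
      simp [map_mul]
    rw [e, map_mul, artinMap_relNorm_prime E M hunr P hP0, ih h𝔄', one_mul]

/-- A prime with trivial Frobenius is the norm of every prime above it. -/
theorem relNorm_eq_of_frobAt_eq_one (hunr : IsUnramifiedEverywhere E M)
    (P : Ideal (𝓞 M)) [P.IsPrime] (hP0 : P ≠ ⊥)
    (h : frobAt E M (P.under (𝓞 E)) = 1) :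
    Ideal.relNorm (𝓞 E) P = P.under (𝓞 E) := by
  set 𝔭 := P.under (𝓞 E) with h𝔭def
  have h𝔭 : 𝔭 ≠ ⊥ := under_ne_bot E M P hP0
  haveI : 𝔭.IsPrime := Ideal.IsPrime.under (𝓞 E) P
  haveI : P.LiesOver 𝔭 := ⟨rfl⟩
  haveI : P.IsMaximal := Ideal.isMaximal_of_isPrime_of_ne_bot P hP0
  haveI : 𝔭.IsMaximal := Ideal.isMaximal_of_isPrime_of_ne_bot 𝔭 h𝔭
  have hrel : Ideal.relNorm (𝓞 E) P = 𝔭 ^ P.inertiaDeg (𝓞 E) :=
    Ideal.relNorm_eq_pow_of_isMaximal P 𝔭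
  have hcard := (frobAt_eq_one_iff_card E M P hP0 (hunr P inferInstance hP0)).mp h
  have hf : P.inertiaDeg (𝓞 E) = 1 := (inertiaDeg_eq_one_iff_card E M 𝔭 h𝔭 P).mpr hcard
  rw [hrel, hf, pow_one]

/-- A prime with trivial Frobenius is a norm. -/
theorem exists_relNorm_eq_of_frobAt_eq_one (hunr : IsUnramifiedEverywhere E M)
    (𝔭 : Ideal (𝓞 E)) [𝔭.IsPrime] (h𝔭 : 𝔭 ≠ ⊥) (h : frobAt E M 𝔭 = 1) :
    ∃ P : Ideal (𝓞 M), P.IsPrime ∧ P ≠ ⊥ ∧ Ideal.relNorm (𝓞 E) P = 𝔭 := by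
  obtain ⟨P, hP, hP0, hP𝔭⟩ := exists_prime_over E M 𝔭 h𝔭
  haveI := hP
  refine ⟨P, hP, hP0, ?_⟩
  have := relNorm_eq_of_frobAt_eq_one E M hunr P hP0 (by rw [hP𝔭]; exact h)
  rw [this, hP𝔭]

end Abelian

end Fermat.Agent.S14.helper12
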