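import Mathlib
import Fermat.Agent.S14.helper10_ELevel
import Fermat.Agent.S14.helper10_Primes
import Fermat.Agent.S14.helper10_Endgame
import Fermat.Agent.S14.helper12_ArtinNorm

/-!
# S14 (2c): from the crossing fields to the crossing relation in `K` (helper10)
-/

set_option autoImplicit false
set_option linter.unusedSectionVars false

open NumberField IsDedekindDomain
open scoped nonZeroDivisors

namespace Fermat.Agent.S14.helper10

section Transfer

variable {K L E M : Type*} [Field K] [NumberField K] [Field L] [NumberField L]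
  [Field E] [NumberField E] [Field M] [NumberField M] [Algebra K L] [Algebra K E] [Algebra E M]

/-- A prime whose norm is prime to `l` does not contain `l`. -/
theorem natCast_not_mem_of_coprime_absNorm {l : ℕ} (P : HeightOneSpectrum (𝓞 E))
    (h : (Ideal.absNorm P.asIdeal).Coprime l) : (l : 𝓞 E) ∉ P.asIdeal := by
  intro hl
  have h1 : ((Ideal.absNorm P.asIdeal : ℕ) : 𝓞 E) ∈ P.asIdeal := Ideal.absNorm_mem _
  obtain ⟨u, v, huv⟩ := (Nat.isCoprime_iff_coprime.2 h)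
  have h2 : ((u * (Ideal.absNorm P.asIdeal : ℤ) + v * (l : ℤ) : ℤ) : 𝓞 E) ∈ P.asIdeal := by
    push_cast
    exact P.asIdeal.add_mem (P.asIdeal.mul_mem_left _ h1) (P.asIdeal.mul_mem_left _ hl)
  rw [huv] at h2
  apply P.isPrime.ne_top
  rw [Ideal.eq_top_iff_one]
  simpa using h2

theorem absNorm_eq_of_relNorm_eq (Q : HeightOneSpectrum (𝓞 K)) (Q' : HeightOneSpectrum (𝓞 E))
    (h : Ideal.relNorm (𝓞 K) Q'.asIdeal = Q.asIdeal) :
    Ideal.absNorm Q'.asIdeal = Ideal.absNorm Q.asIdeal := by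
  rw [← h, Ideal.absNorm_relNorm]

/-- The class of the relative norm of a nonzero ideal of `L` lies in `normClasses K L`. -/
theorem mk0_mem_normClasses (J : Ideal (𝓞 L)) (hJ : J ≠ ⊥) (𝔞 : (Ideal (𝓞 K))⁰)
    (h : (𝔞 : Ideal (𝓞 K)) = Ideal.relNorm (𝓞 K) J) :
    ClassGroup.mk0 𝔞 ∈ normClasses K L :=
  Subgroup.subset_closure ⟨⟨J, mem_nonZeroDivisors_of_ne_zero hJ⟩, 𝔞, h, rfl⟩

theorem classNorm_primeClass (P : HeightOneSpectrum (𝓞 E)) :
    classNorm K E (helper34.primeClass E P) =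
      ClassGroup.mk0 (relNorm0 K E (primeIdeal0 P)) := by
  rw [← mk0_primeIdeal0, classNorm_mk0]

theorem classNorm_primeClass_of_relNorm_eq (Q : HeightOneSpectrum (𝓞 K))
    (Q' : HeightOneSpectrum (𝓞 E)) (h : Ideal.relNorm (𝓞 K) Q'.asIdeal = Q.asIdeal) :
    classNorm K E (helper34.primeClass E Q') = helper34.primeClass K Q := by
  rw [classNorm_primeClass, ← mk0_primeIdeal0]
  congr 1
  exact Subtype.ext h

/-- **Transfer to `K`.** From the data of the crossing fields, the class of `Q ^ a * R ^ b` lies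
in the norm classes of `L / K`. -/
theorem crossing_class_mem_normClasses (p l : ℕ) (hp : p.Prime) (hl : l.Prime)
    (hdeg : Module.finrank E M = p) (hSS : SplitSumStatement E M)
    (F1 : ∀ P : HeightOneSpectrum (𝓞 E), P ∈ helper34.splitSet E M → (l : 𝓞 E) ∉ P.asIdeal →
      ∃ x : ZMod l, x ^ p = (Ideal.absNorm P.asIdeal : ZMod l))
    (F2 : ∀ γ : 𝓞 E, γ ≠ 0 → Ideal.span {γ} ⊔ Ideal.span {(l : 𝓞 E)} = ⊤ →
      ∃ x : ZMod l, x ^ p = (Ideal.absNorm (Ideal.span {γ}) : ZMod l))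
    (F4 : ∀ P : HeightOneSpectrum (𝓞 E), P ∈ helper34.splitSet E M →
      ∃ J : Ideal (𝓞 L), J ≠ ⊥ ∧ Ideal.relNorm (𝓞 K) J = Ideal.relNorm (𝓞 K) P.asIdeal)
    (Q R : HeightOneSpectrum (𝓞 K)) (Q' R' : HeightOneSpectrum (𝓞 E))
    (hQ : Ideal.relNorm (𝓞 K) Q'.asIdeal = Q.asIdeal)
    (hR : Ideal.relNorm (𝓞 K) R'.asIdeal = R.asIdeal)
    (hQl : (Ideal.absNorm Q.asIdeal).Coprime l) (hRl : (Ideal.absNorm R.asIdeal).Coprime l)
    (a b : ℕ)
    (hres : ∃ x : ZMod l, x ^ p =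
      (Ideal.absNorm Q.asIdeal : ZMod l) ^ a * (Ideal.absNorm R.asIdeal : ZMod l) ^ b)
    (hnon : ¬ ∃ x : ZMod l, x ^ p = (Ideal.absNorm Q.asIdeal : ZMod l)) :
    helper34.primeClass K Q ^ a * helper34.primeClass K R ^ b ∈ normClasses K L := by
  have hNQ := absNorm_eq_of_relNorm_eq Q Q' hQ
  have hNR := absNorm_eq_of_relNorm_eq R R' hR
  have hQ'l : (l : 𝓞 E) ∉ Q'.asIdeal :=
    natCast_not_mem_of_coprime_absNorm Q' (by rw [hNQ]; exact hQl)
  have hR'l : (l : 𝓞 E) ∉ R'.asIdeal :=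
    natCast_not_mem_of_coprime_absNorm R' (by rw [hNR]; exact hRl)
  have key := crossing_class_mem (E := E) (M := M) p l hp hl hdeg hSS F1 F2 Q' R' hQ'l hR'l a b
    (by rw [hNQ, hNR]; exact hres) (by rw [hNQ]; exact hnon)
  have h1 : classNorm K E (helper34.primeClass E Q' ^ a * helper34.primeClass E R' ^ b) ∈
      (Subgroup.closure {c | ∃ P : HeightOneSpectrum (𝓞 E), P ∈ helper34.splitSet E M ∧
        helper34.primeClass E P = c}).map (classNorm K E) :=
    Subgroup.mem_map_of_mem _ key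
  rw [map_mul, map_pow, map_pow, classNorm_primeClass_of_relNorm_eq Q Q' hQ,
    classNorm_primeClass_of_relNorm_eq R R' hR] at h1
  refine (?_ : Subgroup.map (classNorm K E) _ ≤ normClasses K L) h1
  rw [MonoidHom.map_closure, Subgroup.closure_le]
  rintro c ⟨c', ⟨P, hP, rfl⟩, rfl⟩
  obtain ⟨J, hJ0, hJ⟩ := F4 P hP
  rw [classNorm_primeClass]
  exact mk0_mem_normClasses J hJ0 _ hJ.symm

end Transfer

section Arith

variable {K : Type*} [Field K] [NumberField K]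

/-- The norm of a prime over the rational prime `q` is `q ^ f` with `1 ≤ f ≤ [K : ℚ]`. -/
theorem exists_absNorm_eq_pow {q : ℕ} (hq : q.Prime) (Q : HeightOneSpectrum (𝓞 K))
    (hQ : (q : 𝓞 K) ∈ Q.asIdeal) :
    ∃ f : ℕ, 1 ≤ f ∧ f ≤ Module.finrank ℚ K ∧ Ideal.absNorm Q.asIdeal = q ^ f := by
  have h1 : Ideal.span {(q : 𝓞 K)} ≤ Q.asIdeal := (Ideal.span_singleton_le_iff_mem _).2 hQ
  have h2 := Ideal.absNorm_dvd_absNorm_of_le h1
  rw [Ideal.absNorm_span_natCast, RingOfIntegers.rank] at h2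
  obtain ⟨f, hf, hN⟩ := (Nat.dvd_prime_pow hq).1 h2
  refine ⟨f, ?_, hf, hN⟩
  rcases Nat.eq_zero_or_pos f with h0 | h0
  · exfalso
    rw [h0, pow_zero, Ideal.absNorm_eq_one_iff] at hN
    exact Q.isPrime.ne_top hN
  · exact h0

/-- If `q` is not a `p`-th power modulo `l` and `p ∤ f`, then `q ^ f` is not a `p`-th power
modulo `l`. -/
theorem not_pow_residue_pow {p l q f : ℕ} (hp : p.Prime) (hql : q.Coprime l) (hf : ¬ p ∣ f)
    (h : ¬ ∃ x : ZMod l, x ^ p = (q : ZMod l)) :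
    ¬ ∃ x : ZMod l, x ^ p = ((q ^ f : ℕ) : ZMod l) := by
  rw [← normRes_eq_one_iff l p hp.ne_zero hql] at h
  rw [← normRes_eq_one_iff l p hp.ne_zero (Nat.Coprime.pow_left f hql), normRes_pow l p hql]
  intro h1
  apply h
  have h2 : orderOf (normRes l p q) ∣ Nat.gcd f p :=
    Nat.dvd_gcd (orderOf_dvd_of_pow_eq_one h1)
      (orderOf_dvd_of_pow_eq_one (PowQuot.pow_eq_one l p _))
  have h3 : Nat.gcd f p = 1 := by
    rw [Nat.gcd_comm]
    exact (Nat.Prime.coprime_iff_not_dvd hp).2 hf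
  rw [h3, Nat.dvd_one] at h2
  exact orderOf_eq_one_iff.1 h2

end Arith

section Cross

universe u

variable {K L : Type u} [Field K] [NumberField K] [Field L] [NumberField L] [Algebra K L]
  [IsAbelianGalois K L]

theorem natCast_not_mem_of_ne {q l : ℕ} (hq : q.Prime) (hl : l.Prime) (hne : l ≠ q)
    (Q : HeightOneSpectrum (𝓞 K)) (hQ : (q : 𝓞 K) ∈ Q.asIdeal) : (l : 𝓞 K) ∉ Q.asIdeal := by
  intro hlQ
  have hcop : Nat.Coprime q l := (Nat.coprime_primes hq hl).2 (Ne.symm hne)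
  obtain ⟨u, v, huv⟩ := (Nat.isCoprime_iff_coprime.2 hcop)
  have h2 : ((u * (q : ℤ) + v * (l : ℤ) : ℤ) : 𝓞 K) ∈ Q.asIdeal := by
    push_cast
    exact Q.asIdeal.add_mem (Q.asIdeal.mul_mem_left _ hQ) (Q.asIdeal.mul_mem_left _ hlQ)
  rw [huv] at h2
  apply Q.isPrime.ne_top
  rw [Ideal.eq_top_iff_one]
  simpa using h2

theorem not_mem_splitSet_of_frobAt_ne_one (hunr : IsUnramifiedEverywhere K L)
    (Q : HeightOneSpectrum (𝓞 K)) (h : frobAt K L Q.asIdeal ≠ 1) :
    Q ∉ helper34.splitSet K L := by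
  intro hQ
  have := Q.isPrime
  exact h ((helper12.frobAt_eq_one_iff_ncard K L hunr Q.asIdeal Q.ne_bot).2 hQ)

/-- **The key relation.** For primes `Q`, `R` of `K` with nontrivial Frobenius, over distinct
rational primes different from `p`: if `Frob_Q ^ a * Frob_R ^ b = 1` with `p ∤ b`, then the class
of `Q ^ a * R ^ b` lies in the norm classes. -/
theorem class_mem_normClasses_of_frob {p : ℕ} (hp : p.Prime)
    (hK : Module.finrank ℚ K < p)
    (hunr : IsUnramifiedEverywhere K L)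
    (hAux : AuxPrimeStatement p) (hCross : CrossingStatement p K L)
    (hSS : ∀ (E M : Type u) [Field E] [NumberField E] [Field M] [NumberField M] [Algebra E M]
      [IsGalois E M], SplitSumStatement E M)
    (Q R : HeightOneSpectrum (𝓞 K)) (q r : ℕ) (hq : q.Prime) (hr : r.Prime) (hqr : q ≠ r)
    (hqp : q ≠ p) (hrp : r ≠ p) (hQ : (q : 𝓞 K) ∈ Q.asIdeal) (hR : (r : 𝓞 K) ∈ R.asIdeal)
    (hQns : frobAt K L Q.asIdeal ≠ 1) (hRns : frobAt K L R.asIdeal ≠ 1)
    (a b : ℕ) (hb : ¬ p ∣ b)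
    (hab : frobAt K L Q.asIdeal ^ a * frobAt K L R.asIdeal ^ b = 1) :
    helper34.primeClass K Q ^ a * helper34.primeClass K R ^ b ∈ normClasses K L := by
  obtain ⟨fQ, hfQ1, hfQ2, hNQ⟩ := exists_absNorm_eq_pow hq Q hQ
  obtain ⟨fR, hfR1, hfR2, hNR⟩ := exists_absNorm_eq_pow hr R hR
  have hpfQ : ¬ p ∣ fQ := fun h => by
    have := Nat.le_of_dvd (by omega) h
    omega
  have hpfR : ¬ p ∣ fR := fun h => by
    have := Nat.le_of_dvd (by omega) h
    omega
  have hb' : ¬ p ∣ fR * b := fun h => by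
    rcases (Nat.Prime.dvd_mul hp).1 h with h | h
    · exact hpfR h
    · exact hb h
  obtain ⟨l, hl, hlS, hl1, hres0, hnon0⟩ :=
    hAux q r hq hr hqr hqp hrp (fQ * a) (fR * b) hb' {p, q, r}
  have hlp : l ≠ p := fun h => hlS (by simp [h])
  have hlq : l ≠ q := fun h => hlS (by simp [h])
  have hlr : l ≠ r := fun h => hlS (by simp [h])
  have cq : Nat.Coprime q l := (Nat.coprime_primes hq hl).2 (Ne.symm hlq)
  have cr : Nat.Coprime r l := (Nat.coprime_primes hr hl).2 (Ne.symm hlr)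
  have hres : ∃ x : ZMod l, x ^ p =
      (Ideal.absNorm Q.asIdeal : ZMod l) ^ a * (Ideal.absNorm R.asIdeal : ZMod l) ^ b := by
    obtain ⟨x, hx⟩ := hres0
    refine ⟨x, ?_⟩
    rw [hx, hNQ, hNR]
    push_cast
    rw [← pow_mul, ← pow_mul]
  have hnon : ¬ ∃ x : ZMod l, x ^ p = (Ideal.absNorm Q.asIdeal : ZMod l) := by
    rw [hNQ]
    exact not_pow_residue_pow hp cq hpfQ hnon0
  obtain ⟨E, M, _, _, _, _, _, _, _, hdeg, F1, F2, ⟨Q', R', hQ', hR'⟩, F4⟩ :=
    hCross Q R q r l a b hq hr hl hqr hqp hrp hlp hlq hlr hl1 hQ hR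
      (not_mem_splitSet_of_frobAt_ne_one hunr Q hQns)
      (not_mem_splitSet_of_frobAt_ne_one hunr R hRns) hres hnon hab
  exact crossing_class_mem_normClasses (E := E) (M := M) p l hp hl hdeg (hSS E M) F1 F2 F4 Q R Q' R'
    hQ' hR' (by rw [hNQ]; exact Nat.Coprime.pow_left _ cq)
    (by rw [hNR]; exact Nat.Coprime.pow_left _ cr) a b hres hnon

end Cross

end Fermat.Agent.S14.helper10
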