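import Mathlib
import Fermat.Agent.S14.helper10_KLevel

/-!
# S14 (2c): reciprocity for the primes not over `p` (helper10)

`exists_hom_frobAt` : the Frobenius map `𝔮 ↦ frobAt K L 𝔮` factors through an INJECTIVE
homomorphism `θ : Gal(L/K) → Cl(K) / normClasses K L` with `θ (Frob_𝔮) = [𝔮]`, for the primes
`𝔮` not over `p`.  Consequently (`artinMap_eq_one_of_isPrincipal`) the Artin map kills every
principal product of primes not over `p`.
-/

set_option autoImplicit false
set_option linter.unusedSectionVars false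

open NumberField IsDedekindDomain
open scoped nonZeroDivisors

namespace Fermat.Agent.S14.helper10

section ResChar

variable {K : Type*} [Field K] [NumberField K]

/-- The residue characteristic of a prime. -/
noncomputable def resChar (Q : HeightOneSpectrum (𝓞 K)) : ℕ := ringChar (𝓞 K ⧸ Q.asIdeal)

theorem natCast_mem_iff_resChar_dvd (Q : HeightOneSpectrum (𝓞 K)) (n : ℕ) :
    (n : 𝓞 K) ∈ Q.asIdeal ↔ resChar Q ∣ n := by
  rw [resChar, ← ringChar.spec, ← Ideal.Quotient.eq_zero_iff_mem, map_natCast]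

theorem natCast_resChar_mem (Q : HeightOneSpectrum (𝓞 K)) :
    ((resChar Q : ℕ) : 𝓞 K) ∈ Q.asIdeal :=
  (natCast_mem_iff_resChar_dvd Q _).2 dvd_rfl

theorem resChar_prime (Q : HeightOneSpectrum (𝓞 K)) : (resChar Q).Prime := by
  have hmax : Q.asIdeal.IsMaximal := Q.isMaximal
  have hfin : Finite (𝓞 K ⧸ Q.asIdeal) := Ideal.finiteQuotientOfFreeOfNeBot _ Q.ne_bot
  have hdom : IsDomain (𝓞 K ⧸ Q.asIdeal) := Ideal.Quotient.isDomain Q.asIdeal
  rcases CharP.char_is_prime_or_zero (𝓞 K ⧸ Q.asIdeal) (ringChar (𝓞 K ⧸ Q.asIdeal)) with h | h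
  · exact h
  · exact absurd h (CharP.char_ne_zero_of_finite (𝓞 K ⧸ Q.asIdeal) _)

theorem resChar_eq_of_mem {q : ℕ} (hq : q.Prime) (Q : HeightOneSpectrum (𝓞 K))
    (h : (q : 𝓞 K) ∈ Q.asIdeal) : resChar Q = q := by
  have h1 := (natCast_mem_iff_resChar_dvd Q q).1 h
  exact ((Nat.prime_dvd_prime_iff_eq (resChar_prime Q) hq).1 h1)

theorem finite_resChar_eq (s : ℕ) : {Q : HeightOneSpectrum (𝓞 K) | resChar Q = s}.Finite := by
  rcases Nat.eq_zero_or_pos s with h0 | h0
  · convert Set.finite_empty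
    ext Q
    simp only [Set.mem_ofPred_eq, Set.mem_empty_iff_false, iff_false]
    intro h
    have := resChar_prime Q
    rw [h, h0] at this
    exact Nat.not_prime_zero this
  · refine (finite_primes_natCast_mem K h0.ne').subset ?_
    intro Q hQ
    simp only [Set.mem_ofPred_eq] at hQ ⊢
    rw [← hQ]
    exact natCast_resChar_mem Q

theorem finite_resChar_mem (S : Finset ℕ) :
    {Q : HeightOneSpectrum (𝓞 K) | resChar Q ∈ S}.Finite := by
  have : {Q : HeightOneSpectrum (𝓞 K) | resChar Q ∈ S} =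
      ⋃ s ∈ S, {Q : HeightOneSpectrum (𝓞 K) | resChar Q = s} := by
    ext Q
    simp
  rw [this]
  exact S.finite_toSet.biUnion (fun s _ => finite_resChar_eq s)

end ResChar

section Main

universe u

variable {K L : Type u} [Field K] [NumberField K] [Field L] [NumberField L] [Algebra K L]
  [IsAbelianGalois K L]

/-- The class of a prime with trivial Frobenius is a norm class. -/
theorem primeClass_mem_normClasses_of_frobAt_eq_one (hunr : IsUnramifiedEverywhere K L)
    (Q : HeightOneSpectrum (𝓞 K)) (h : frobAt K L Q.asIdeal = 1) :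
    helper34.primeClass K Q ∈ normClasses K L := by
  have := Q.isPrime
  obtain ⟨P, -, hP0, hP⟩ :=
    helper12.exists_relNorm_eq_of_frobAt_eq_one K L hunr Q.asIdeal Q.ne_bot h
  exact mk0_mem_normClasses P hP0 _ hP.symm

/-- The `[L : K]`-th power of every class is a norm class. -/
theorem primeClass_pow_finrank_mem_normClasses (Q : HeightOneSpectrum (𝓞 K)) :
    helper34.primeClass K Q ^ Module.finrank K L ∈ normClasses K L := by
  have h1 : Ideal.relNorm (𝓞 K) (Q.asIdeal.map (algebraMap (𝓞 K) (𝓞 L))) =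
      Q.asIdeal ^ Module.finrank K L := by
    rw [Ideal.relNorm_algebraMap, IsFractionRing.finrank_eq (𝓞 K) K (𝓞 L) L]
  have h0 : Q.asIdeal.map (algebraMap (𝓞 K) (𝓞 L)) ≠ ⊥ := by
    intro h
    rw [h, Ideal.relNorm_bot] at h1
    exact pow_ne_zero _ Q.ne_bot h1.symm
  have h2 : helper34.primeClass K Q ^ Module.finrank K L =
      ClassGroup.mk0 (primeIdeal0 Q ^ Module.finrank K L) := by
    rw [map_pow, mk0_primeIdeal0]
  rw [h2]
  refine mk0_mem_normClasses _ h0 _ ?_
  rw [h1]
  rfl

/-- **Reciprocity, structural form.** The Frobenius map on the primes not over `p` factors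
through an injective homomorphism `Gal(L/K) → Cl(K) / normClasses K L`. -/
theorem exists_hom_frobAt {p : ℕ} (hp : p.Prime)
    (hK : Module.finrank ℚ K < p) (hdeg : Module.finrank K L = p)
    (hunr : IsUnramifiedEverywhere K L)
    (hAux : AuxPrimeStatement p) (hCross : CrossingStatement p K L)
    (hSS : ∀ (E M : Type u) [Field E] [NumberField E] [Field M] [NumberField M] [Algebra E M]
      [IsGalois E M], SplitSumStatement E M)
    (hFI : normClasses K L ≠ ⊤) :
    ∃ θ : Gal(L/K) →* ClassGroup (𝓞 K) ⧸ normClasses K L, Function.Injective θ ∧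
      ∀ Q : HeightOneSpectrum (𝓞 K), (p : 𝓞 K) ∉ Q.asIdeal →
        θ (frobAt K L Q.asIdeal) = QuotientGroup.mk (helper34.primeClass K Q) := by
  classical
  have hG : Nat.card Gal(L/K) = p := by rw [IsGalois.card_aut_eq_finrank, hdeg]
  set ι : Type u := {Q : HeightOneSpectrum (𝓞 K) // (p : 𝓞 K) ∉ Q.asIdeal} with hι
  set cls : ι → ClassGroup (𝓞 K) := fun Q => helper34.primeClass K Q.1 with hcls
  set frob : ι → Gal(L/K) := fun Q => frobAt K L Q.1.asIdeal with hfrob
  set r : ι → ℕ := fun Q => resChar Q.1 with hr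
  have hrp : ∀ Q : ι, r Q ≠ p := by
    intro Q h
    apply Q.2
    have := natCast_resChar_mem Q.1
    rw [hr] at h
    simp only at h
    rwa [h] at this
  -- generation
  have gen : ∀ S : Finset ℕ, Subgroup.closure {c | ∃ P : ι, r P ∉ S ∧ cls P = c} = ⊤ := by
    intro S
    set T : Finset (HeightOneSpectrum (𝓞 K)) :=
      (finite_resChar_mem (K := K) (insert p S)).toFinset with hT
    rw [eq_top_iff, ← closure_primeClass_eq_top K T]
    apply Subgroup.closure_mono
    rintro c ⟨Q, hQ, rfl⟩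
    rw [hT, Set.Finite.mem_toFinset, Set.mem_ofPred_eq, Finset.mem_insert, not_or] at hQ
    have hQp : (p : 𝓞 K) ∉ Q.asIdeal := by
      intro h
      exact hQ.1 (resChar_eq_of_mem hp Q h)
    exact ⟨⟨Q, hQp⟩, hQ.2, rfl⟩
  -- split primes
  have hsplit : ∀ P : ι, frob P = 1 → cls P ∈ normClasses K L :=
    fun P h => primeClass_mem_normClasses_of_frobAt_eq_one hunr P.1 h
  -- crossing
  have cross : ∀ (P P' : ι) (k : ℕ), r P ≠ r P' → frob P' ≠ 1 → frob P = frob P' ^ k →
      cls P * cls P' ^ ((p - 1) * k) ∈ normClasses K L := by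
    intro P P' k hrr hP' hk
    by_cases h1 : frob P = 1
    · have hord : orderOf (frob P') = p := orderOf_eq_of_prime_card hp hG hP'
      have hk' : p ∣ k := by
        rw [← hord]
        apply orderOf_dvd_of_pow_eq_one
        rw [← hk, h1]
      obtain ⟨t, rfl⟩ := hk'
      have h2 : cls P' ^ ((p - 1) * (p * t)) = (cls P' ^ p) ^ ((p - 1) * t) := by
        rw [← pow_mul]
        congr 1
        ring
      rw [h2]
      apply Subgroup.mul_mem _ (hsplit P h1)
      apply Subgroup.pow_mem
      have := primeClass_pow_finrank_mem_normClasses (L := L) P'.1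
      rwa [hdeg] at this
    · have hab : frobAt K L P'.1.asIdeal ^ ((p - 1) * k) * frobAt K L P.1.asIdeal ^ 1 = 1 := by
        have hk2 : frobAt K L P.1.asIdeal = frobAt K L P'.1.asIdeal ^ k := hk
        rw [pow_one, hk2, ← pow_add]
        have e : (p - 1) * k + k = p * k := by
          have := hp.one_le
          have : (p - 1) + 1 = p := Nat.sub_add_cancel this
          calc (p - 1) * k + k = ((p - 1) + 1) * k := by ring
            _ = p * k := by rw [this]
        rw [e, pow_mul]
        have hord : orderOf (frob P') = p := orderOf_eq_of_prime_card hp hG hP'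
        have : frobAt K L P'.1.asIdeal ^ p = 1 := by
          have := pow_orderOf_eq_one (frob P')
          rwa [hord] at this
        rw [this, one_pow]
      have key := class_mem_normClasses_of_frob hp hK hunr hAux hCross hSS P'.1 P.1
        (r P') (r P) (resChar_prime _) (resChar_prime _) (Ne.symm hrr) (hrp P') (hrp P)
        (natCast_resChar_mem _) (natCast_resChar_mem _) hP' h1 ((p - 1) * k) 1
        (by
          intro h
          have := Nat.le_of_dvd Nat.one_pos h
          have := hp.one_lt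
          omega) hab
      rw [pow_one, mul_comm] at key
      exact key
  obtain ⟨θ, hθi, hθ⟩ := exists_hom_of_crossing p hp hG cls frob r (normClasses K L) gen hsplit
    hFI cross
  exact ⟨θ, hθi, fun Q hQ => hθ ⟨Q, hQ⟩⟩

open scoped IsMulCommutative in
/-- **Reciprocity (R) in the shape consumed by helper14's `core_of_rec_of_nonsplit_of_good`**
(with `good q := q ≠ p`): the Artin map kills the principal products of primes of degree one
over a rational prime `q ≠ p`. -/
theorem artinMap_eq_one_of_isPrincipal {p : ℕ} (hp : p.Prime)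
    (hK : Module.finrank ℚ K < p) (hdeg : Module.finrank K L = p)
    (hunr : IsUnramifiedEverywhere K L)
    (hAux : AuxPrimeStatement p) (hCross : CrossingStatement p K L)
    (hSS : ∀ (E M : Type u) [Field E] [NumberField E] [Field M] [NumberField M] [Algebra E M]
      [IsGalois E M], SplitSumStatement E M)
    (hFI : normClasses K L ≠ ⊤)
    (s : Finset ℕ) (𝔯 : ℕ → (Ideal (𝓞 K))⁰) (q : ℕ) (hqp : q ≠ p)
    (h𝔯 : ∀ a ∈ s, ((𝔯 a : (Ideal (𝓞 K))⁰) : Ideal (𝓞 K)).IsPrime ∧
      Ideal.absNorm ((𝔯 a : (Ideal (𝓞 K))⁰) : Ideal (𝓞 K)) = q) (hq : q.Prime)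
    (hprinc : ((∏ a ∈ s, 𝔯 a : (Ideal (𝓞 K))⁰) : Ideal (𝓞 K)).IsPrincipal) :
    artinMap K L (∏ a ∈ s, 𝔯 a) = 1 := by
  classical
  obtain ⟨θ, hθi, hθ⟩ := exists_hom_frobAt hp hK hdeg hunr hAux hCross hSS hFI
  apply hθi
  rw [map_one, map_prod, map_prod]
  have h1 : ∀ a ∈ s, θ (artinMap K L (𝔯 a)) =
      (QuotientGroup.mk' (normClasses K L)) (ClassGroup.mk0 (𝔯 a)) := by
    intro a ha
    obtain ⟨hprime, hN⟩ := h𝔯 a ha
    have h0 : ((𝔯 a : (Ideal (𝓞 K))⁰) : Ideal (𝓞 K)) ≠ ⊥ := nonZeroDivisors.coe_ne_zero _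
    set Q : HeightOneSpectrum (𝓞 K) := ⟨(𝔯 a : Ideal (𝓞 K)), hprime, h0⟩ with hQ
    have hqQ : (q : 𝓞 K) ∈ Q.asIdeal := by
      have := Ideal.absNorm_mem ((𝔯 a : (Ideal (𝓞 K))⁰) : Ideal (𝓞 K))
      rwa [hN] at this
    have hpQ : (p : 𝓞 K) ∉ Q.asIdeal := natCast_not_mem_of_ne hq hp (Ne.symm hqp) Q hqQ
    have h2 := hθ Q hpQ
    have h3 : artinMap K L (𝔯 a) = frobAt K L Q.asIdeal := by
      have := hprime
      have := helper12.artinMap_prime K L ((𝔯 a : (Ideal (𝓞 K))⁰) : Ideal (𝓞 K)) h0
      rw [← this]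
    rw [h3, h2]
    rfl
  rw [Finset.prod_congr rfl h1, ← map_prod, ← map_prod]
  rw [QuotientGroup.mk'_apply, QuotientGroup.eq_one_iff]
  have : ClassGroup.mk0 (∏ a ∈ s, 𝔯 a) = 1 := by
    rw [ClassGroup.mk0_eq_one_iff (∏ a ∈ s, 𝔯 a).2]
    exact hprinc
  rw [this]
  exact Subgroup.one_mem _

end Main

section Cyclo

theorem finrank_lt_of_isCyclotomicExtension (p : ℕ) (hp : p.Prime) (K : Type*) [Field K]
    [NumberField K] [IsCyclotomicExtension {p} ℚ K] : Module.finrank ℚ K < p := by
  have : NeZero p := ⟨hp.ne_zero⟩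
  rw [IsCyclotomicExtension.finrank K (Polynomial.cyclotomic.irreducible_rat hp.pos),
    Nat.totient_prime hp]
  have := hp.one_lt
  omega

end Cyclo

end Fermat.Agent.S14.helper10
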