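import Fermat.Agent.S14.helper14_Endgame
import Fermat.Agent.S14.helper12_Artin

/-!
# S14, route R1: CORE modulo reciprocity (R) and a non-split degree-one prime (Z) (helper14)

`core_of_rec_of_nonsplit` is the final R1 statement with the two inputs still to be landed by the
crossing team (R) and the zeta-pole team (Z) as explicit hypotheses, both for the shared Artin map
`Fermat.Agent.S14.artinMap`.
-/

set_option autoImplicit false
set_option linter.unusedSectionVars false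

open scoped NumberField nonZeroDivisors Pointwise

namespace Fermat.Agent.S14.helper14

open Fermat.Agent.S14

/-- A Galois extension of prime degree is abelian. -/
theorem isAbelianGalois_of_finrank_prime (K L : Type*) [Field K] [Field L] [Algebra K L]
    [FiniteDimensional K L] [IsGalois K L] {p : ℕ} (hp : p.Prime)
    (hdeg : Module.finrank K L = p) : IsAbelianGalois K L := by
  have hcard : Nat.card Gal(L/K) = p := by rw [IsGalois.card_aut_eq_finrank, hdeg]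
  have : Fact p.Prime := ⟨hp⟩
  have : IsCyclic Gal(L/K) := isCyclic_of_prime_card hcard
  exact IsAbelianGalois.of_isCyclic K L

section Core

variable {p : ℕ} [Fact p.Prime] {K L : Type*} [Field K] [NumberField K] [Field L] [NumberField L]
  [Algebra K L] [IsCyclotomicExtension {p} ℚ K] [IsGalois ℚ L] [IsAbelianGalois K L]

/-- **CORE of route R1**, modulo
* `(R)`: the Artin map of `L/K` kills every principal ideal which is a product of primes of
  degree one;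
* `(Z)`: some prime of degree one of `K` does not split completely in `L`. -/
theorem core_of_rec_of_nonsplit (hp : p ≠ 2) (hdeg : Module.finrank K L = p)
    (hunr : IsUnramifiedEverywhere K L)
    (hact : ∀ (τ : Gal(L/ℚ)) (σ : Gal(L/K)) (n : ℕ),
      (∀ ζ : L, ζ ^ p = 1 → τ ζ ^ n = ζ) → ∀ x : L, τ (σ (τ.symm x)) = (σ ^ n) x)
    (hR : ∀ (s : Finset ℕ) (𝔯 : ℕ → (Ideal (𝓞 K))⁰),
      (∀ a ∈ s, ((𝔯 a : (Ideal (𝓞 K))⁰) : Ideal (𝓞 K)).IsPrime ∧
        (Ideal.absNorm ((𝔯 a : (Ideal (𝓞 K))⁰) : Ideal (𝓞 K))).Prime) →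
      ((∏ a ∈ s, 𝔯 a : (Ideal (𝓞 K))⁰) : Ideal (𝓞 K)).IsPrincipal →
        artinMap K L (∏ a ∈ s, 𝔯 a) = 1)
    (hZ : ∃ 𝔮 : Ideal (𝓞 K), 𝔮.IsPrime ∧ 𝔮 ≠ ⊥ ∧ (Ideal.absNorm 𝔮).Prime ∧
      (Ideal.primesOver 𝔮 (𝓞 L)).ncard ≠ Module.finrank K L) : False := by
  refine false_of_reciprocity hp hdeg hunr hact (artinMap K L) ?_ hR ?_
  · intro P hP hP0 𝔮 h𝔮
    have := hP
    have h0 : P.under (𝓞 K) ≠ ⊥ := Fermat.Agent.S14.helper12.under_ne_bot K L P hP0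
    have := Fermat.Agent.S14.helper12.isArithFrobAt_artinMap K L (P.under (𝓞 K)) h0 P rfl
    have he : 𝔮 = ⟨P.under (𝓞 K), mem_nonZeroDivisors_of_ne_zero h0⟩ := Subtype.ext h𝔮
    rw [he]
    exact this
  · obtain ⟨𝔮, h𝔮, h𝔮0, hN, hsplit⟩ := hZ
    have := h𝔮
    refine ⟨⟨𝔮, mem_nonZeroDivisors_of_ne_zero h𝔮0⟩, h𝔮, hN, ?_⟩
    intro h1
    exact hsplit ((Fermat.Agent.S14.helper12.artinMap_prime_eq_one_iff K L hunr 𝔮 h𝔮0).mp h1)

/-- Same with full reciprocity `HasReciprocity K L` as the hypothesis `(R)`. -/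
theorem core_of_hasReciprocity_of_nonsplit (hp : p ≠ 2) (hdeg : Module.finrank K L = p)
    (hunr : IsUnramifiedEverywhere K L)
    (hact : ∀ (τ : Gal(L/ℚ)) (σ : Gal(L/K)) (n : ℕ),
      (∀ ζ : L, ζ ^ p = 1 → τ ζ ^ n = ζ) → ∀ x : L, τ (σ (τ.symm x)) = (σ ^ n) x)
    (hR : HasReciprocity K L)
    (hZ : ∃ 𝔮 : Ideal (𝓞 K), 𝔮.IsPrime ∧ 𝔮 ≠ ⊥ ∧ (Ideal.absNorm 𝔮).Prime ∧
      (Ideal.primesOver 𝔮 (𝓞 L)).ncard ≠ Module.finrank K L) : False :=
  core_of_rec_of_nonsplit hp hdeg hunr hact (fun _ _ _ h => hR _ h) hZ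

/-- **CORE of route R1, flexible form.** `good` is any predicate on rational primes (e.g.
`fun q => q ∉ S`); `(R)` is only needed for principal products of degree-one primes over ONE good
rational prime, `(Z)` must produce a non-split degree-one prime over a good rational prime. -/
theorem core_of_rec_of_nonsplit_of_good (hp : p ≠ 2) (hdeg : Module.finrank K L = p)
    (hunr : IsUnramifiedEverywhere K L)
    (hact : ∀ (τ : Gal(L/ℚ)) (σ : Gal(L/K)) (n : ℕ),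
      (∀ ζ : L, ζ ^ p = 1 → τ ζ ^ n = ζ) → ∀ x : L, τ (σ (τ.symm x)) = (σ ^ n) x)
    (good : ℕ → Prop)
    (hR : ∀ (s : Finset ℕ) (𝔯 : ℕ → (Ideal (𝓞 K))⁰) (q : ℕ), good q →
      (∀ a ∈ s, ((𝔯 a : (Ideal (𝓞 K))⁰) : Ideal (𝓞 K)).IsPrime ∧
        Ideal.absNorm ((𝔯 a : (Ideal (𝓞 K))⁰) : Ideal (𝓞 K)) = q) → q.Prime →
      ((∏ a ∈ s, 𝔯 a : (Ideal (𝓞 K))⁰) : Ideal (𝓞 K)).IsPrincipal →
        artinMap K L (∏ a ∈ s, 𝔯 a) = 1)
    (hZ : ∃ 𝔮 : Ideal (𝓞 K), 𝔮.IsPrime ∧ 𝔮 ≠ ⊥ ∧ (Ideal.absNorm 𝔮).Prime ∧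
      good (Ideal.absNorm 𝔮) ∧
      (Ideal.primesOver 𝔮 (𝓞 L)).ncard ≠ Module.finrank K L) : False := by
  refine false_of_reciprocity_of_good hp hdeg hunr hact (artinMap K L) ?_ good hR ?_
  · intro P hP hP0 𝔮 h𝔮
    have := hP
    have h0 : P.under (𝓞 K) ≠ ⊥ := Fermat.Agent.S14.helper12.under_ne_bot K L P hP0
    have := Fermat.Agent.S14.helper12.isArithFrobAt_artinMap K L (P.under (𝓞 K)) h0 P rfl
    have he : 𝔮 = ⟨P.under (𝓞 K), mem_nonZeroDivisors_of_ne_zero h0⟩ := Subtype.ext h𝔮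
    rw [he]
    exact this
  · obtain ⟨𝔮, h𝔮, h𝔮0, hN, hg, hsplit⟩ := hZ
    have := h𝔮
    refine ⟨⟨𝔮, mem_nonZeroDivisors_of_ne_zero h𝔮0⟩, h𝔮, hN, hg, ?_⟩
    intro h1
    exact hsplit ((Fermat.Agent.S14.helper12.artinMap_prime_eq_one_iff K L hunr 𝔮 h𝔮0).mp h1)

end Core

end Fermat.Agent.S14.helper14
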