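import Mathlib
import Fermat.Agent.S14.helper10_Reciprocity
import Fermat.Agent.S14.helper14_Core

/-!
# S14, route R1: the CORE from the inputs of the crossing argument (helper10)

`core_of_crossing_inputs` : helper14's `core_of_rec_of_nonsplit_of_good` with the reciprocity
hypothesis (R) discharged by `artinMap_eq_one_of_isPrincipal`.  The remaining hypotheses are the
four inputs of the crossing argument and the non-split prime (Z).
-/

set_option autoImplicit false
set_option linter.unusedSectionVars false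

open NumberField IsDedekindDomain
open scoped nonZeroDivisors

namespace Fermat.Agent.S14.helper10

universe u

theorem core_of_crossing_inputs {p : ℕ} [Fact p.Prime] {K L : Type u} [Field K] [NumberField K]
    [Field L] [NumberField L] [Algebra K L] [IsCyclotomicExtension {p} ℚ K] [IsGalois ℚ L]
    [IsAbelianGalois K L] (hp : p ≠ 2) (hdeg : Module.finrank K L = p)
    (hunr : IsUnramifiedEverywhere K L)
    (hact : ∀ (τ : Gal(L/ℚ)) (σ : Gal(L/K)) (n : ℕ),
      (∀ ζ : L, ζ ^ p = 1 → τ ζ ^ n = ζ) → ∀ x : L, τ (σ (τ.symm x)) = (σ ^ n) x)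
    (hAux : AuxPrimeStatement p) (hCross : CrossingStatement p K L)
    (hSS : ∀ (E M : Type u) [Field E] [NumberField E] [Field M] [NumberField M] [Algebra E M]
      [IsGalois E M], SplitSumStatement E M)
    (hFI : normClasses K L ≠ ⊤)
    (hZ : ∃ 𝔮 : Ideal (𝓞 K), 𝔮.IsPrime ∧ 𝔮 ≠ ⊥ ∧ (Ideal.absNorm 𝔮).Prime ∧
      Ideal.absNorm 𝔮 ≠ p ∧
      (Ideal.primesOver 𝔮 (𝓞 L)).ncard ≠ Module.finrank K L) : False :=
  helper14.core_of_rec_of_nonsplit_of_good hp hdeg hunr hact (fun q => q ≠ p)
    (fun s 𝔯 q hq h𝔯 hqp hprinc =>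
      artinMap_eq_one_of_isPrincipal (Fact.out : p.Prime)
        (finrank_lt_of_isCyclotomicExtension p Fact.out K) hdeg hunr hAux hCross hSS hFI
        s 𝔯 q hq h𝔯 hqp hprinc) hZ

end Fermat.Agent.S14.helper10
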