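import Mathlib
import Fermat.Agent.S14.helper12_Artin

/-!
# S14 (2c), crossing construction: generic tower lemmas (helper12)

Lemmas about primes in towers of number fields, none of which refers to a specific construction.

* `inertiaDeg_eq_one_of_card_eq`, `relNorm_eq_under_of_card_eq` : a prime `P` of `𝓞 E` whose residue
  field has the same cardinality as the residue field of the prime below has relative norm
  `P.under (𝓞 K)` (no Galois hypothesis).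
* `card_quot_under_eq_of_fixed` : if a Frobenius at `𝔔` for `Ω/K` fixes the intermediate field `E`
  pointwise, the prime `𝔔 ∩ E` has residue degree one over `K`.
* `inertiaDeg_eq_one_of_ncard_primesOver`, `card_quot_eq_of_ncard_primesOver` : a prime splitting
  completely in a Galois extension has residue degree one (at every prime above).
* `exists_relNorm_eq_relNorm_of_split` (F4) : in towers `K ⊆ E ⊆ M`, `K ⊆ L ⊆ M`, the relative
  norm to `K` of a prime of `E` splitting completely in `M` is a relative norm from `L`.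
* `mk0_relNorm_mem_normClasses_of_split` : the same, as a statement about `normClasses K L`.
* `ncard_primesOver_under_of_split` : if moreover `L/K` is Galois and unramified at the primes
  above `P ∩ K` and `P` has residue degree one over `K`, then `P ∩ K` splits completely in `L`.
-/

set_option autoImplicit false
set_option linter.unusedSectionVars false
set_option linter.style.haveILetI false
set_option linter.overlappingInstances false

open scoped NumberField nonZeroDivisors Pointwise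

namespace Fermat.Agent.S14.helper12

open Fermat.Agent.S14

section NoGalois

variable (K E : Type*) [Field K] [NumberField K] [Field E] [NumberField E] [Algebra K E]

/-- The residue field of a nonzero prime is at least as big as the one below
(no Galois hypothesis). -/
lemma card_quot_under_le' (P : Ideal (𝓞 E)) [P.IsPrime] (hP0 : P ≠ ⊥) :
    Nat.card (𝓞 K ⧸ P.under (𝓞 K)) ≤ Nat.card (𝓞 E ⧸ P) := by
  haveI : Finite (𝓞 E ⧸ P) := Ideal.finiteQuotientOfFreeOfNeBot P hP0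
  exact Nat.card_le_card_of_injective _ (Ideal.algebraMap_quotient_injective (R := 𝓞 K))

/-- Residue degree one from equality of the cardinalities of the residue fields
(no Galois hypothesis). -/
lemma inertiaDeg_eq_one_of_card_eq (P : Ideal (𝓞 E)) [P.IsPrime] (hP0 : P ≠ ⊥)
    (hf : Nat.card (𝓞 E ⧸ P) = Nat.card (𝓞 K ⧸ P.under (𝓞 K))) :
    P.inertiaDeg (𝓞 K) = 1 := by
  set 𝔭 := P.under (𝓞 K) with h𝔭def
  have h𝔭 : 𝔭 ≠ ⊥ := Ideal.under_ne_bot (𝓞 K) hP0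
  haveI : 𝔭.IsPrime := Ideal.IsPrime.under (𝓞 K) P
  haveI : P.LiesOver 𝔭 := ⟨rfl⟩
  haveI : Finite (𝓞 E ⧸ P) := Ideal.finiteQuotientOfFreeOfNeBot P hP0
  haveI : Finite (𝓞 K ⧸ 𝔭) := Ideal.finiteQuotientOfFreeOfNeBot 𝔭 h𝔭
  haveI : P.IsMaximal := Ideal.isMaximal_of_isPrime_of_ne_bot P hP0
  haveI : 𝔭.IsMaximal := Ideal.isMaximal_of_isPrime_of_ne_bot 𝔭 h𝔭
  letI : Field (𝓞 E ⧸ P) := Ideal.Quotient.field P
  letI : Field (𝓞 K ⧸ 𝔭) := Ideal.Quotient.field 𝔭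
  haveI := Fintype.ofFinite (𝓞 E ⧸ P)
  haveI := Fintype.ofFinite (𝓞 K ⧸ 𝔭)
  rw [Nat.card_eq_fintype_card, Nat.card_eq_fintype_card,
    Module.card_eq_pow_finrank (K := 𝓞 K ⧸ 𝔭) (V := 𝓞 E ⧸ P)] at hf
  rw [Ideal.inertiaDeg_eq_of_isMaximal 𝔭 P]
  have h2 : 1 < Fintype.card (𝓞 K ⧸ 𝔭) := Fintype.one_lt_card
  exact Nat.pow_right_injective h2 (by simpa using hf)

/-- A prime of residue degree one has relative norm the prime below it. -/
theorem relNorm_eq_under_of_card_eq (P : Ideal (𝓞 E)) [P.IsPrime] (hP0 : P ≠ ⊥)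
    (hf : Nat.card (𝓞 E ⧸ P) = Nat.card (𝓞 K ⧸ P.under (𝓞 K))) :
    Ideal.relNorm (𝓞 K) P = P.under (𝓞 K) := by
  have h1 := inertiaDeg_eq_one_of_card_eq K E P hP0 hf
  set 𝔭 := P.under (𝓞 K) with h𝔭def
  have h𝔭 : 𝔭 ≠ ⊥ := Ideal.under_ne_bot (𝓞 K) hP0
  haveI : 𝔭.IsPrime := Ideal.IsPrime.under (𝓞 K) P
  haveI : P.LiesOver 𝔭 := ⟨rfl⟩
  haveI : P.IsMaximal := Ideal.isMaximal_of_isPrime_of_ne_bot P hP0
  haveI : 𝔭.IsMaximal := Ideal.isMaximal_of_isPrime_of_ne_bot 𝔭 h𝔭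
  rw [Ideal.relNorm_eq_pow_of_isMaximal P 𝔭, h1, pow_one]

/-- The absolute norm of a prime of residue degree one over `K` is the absolute norm of the prime
below it. -/
theorem absNorm_eq_absNorm_under_of_card_eq (P : Ideal (𝓞 E))
    (hf : Nat.card (𝓞 E ⧸ P) = Nat.card (𝓞 K ⧸ P.under (𝓞 K))) :
    Ideal.absNorm P = Ideal.absNorm (P.under (𝓞 K)) := by
  rw [Ideal.absNorm_apply, Ideal.absNorm_apply]
  exact hf

end NoGalois

section Fixed

variable (K E Ω : Type*) [Field K] [NumberField K] [Field E] [NumberField E]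
  [Field Ω] [NumberField Ω] [Algebra K E] [Algebra K Ω] [Algebra E Ω] [IsScalarTower K E Ω]
  [IsGalois K Ω]

/-- If an arithmetic Frobenius `φ` at the prime `𝔔` of `Ω` (for `Ω/K`) fixes the intermediate
field `E` pointwise, then the prime `𝔔 ∩ E` of `E` has residue degree one over `K`. -/
theorem card_quot_under_eq_of_fixed (𝔔 : Ideal (𝓞 Ω)) [𝔔.IsPrime] (h𝔔 : 𝔔 ≠ ⊥)
    (φ : Gal(Ω/K)) (hφ : IsArithFrobAt (𝓞 K) φ 𝔔)
    (hfix : ∀ x : E, φ (algebraMap E Ω x) = algebraMap E Ω x) :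
    Nat.card (𝓞 E ⧸ 𝔔.under (𝓞 E)) = Nat.card (𝓞 K ⧸ (𝔔.under (𝓞 E)).under (𝓞 K)) := by
  set Q := 𝔔.under (𝓞 E) with hQdef
  haveI : Q.IsPrime := Ideal.IsPrime.under (𝓞 E) 𝔔
  have hQ0 : Q ≠ ⊥ := Ideal.under_ne_bot (𝓞 E) h𝔔
  have h𝔮0 : Q.under (𝓞 K) ≠ ⊥ := Ideal.under_ne_bot (𝓞 K) hQ0
  haveI : (Q.under (𝓞 K)).IsPrime := Ideal.IsPrime.under (𝓞 K) Q
  haveI : Finite (𝓞 E ⧸ Q) := Ideal.finiteQuotientOfFreeOfNeBot Q hQ0
  haveI : Q.IsMaximal := Ideal.isMaximal_of_isPrime_of_ne_bot Q hQ0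
  letI : Field (𝓞 E ⧸ Q) := Ideal.Quotient.field Q
  have huu : Q.under (𝓞 K) = 𝔔.under (𝓞 K) := by
    rw [hQdef, Ideal.under_under]
  apply le_antisymm
  · apply card_le_of_forall_pow_eq (two_le_card_quot K _ h𝔮0)
    intro y
    obtain ⟨x, rfl⟩ := Ideal.Quotient.mk_surjective y
    have h1 : φ • (algebraMap (𝓞 E) (𝓞 Ω) x) -
        (algebraMap (𝓞 E) (𝓞 Ω) x) ^ Nat.card (𝓞 K ⧸ 𝔔.under (𝓞 K)) ∈ 𝔔 :=
      hφ (algebraMap (𝓞 E) (𝓞 Ω) x)
    have h2 : φ • (algebraMap (𝓞 E) (𝓞 Ω) x) = algebraMap (𝓞 E) (𝓞 Ω) x := by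
      apply NumberField.RingOfIntegers.ext
      exact hfix (x : E)
    rw [h2, ← huu] at h1
    have h3 := 𝔔.neg_mem h1
    rw [neg_sub] at h3
    rw [← map_pow, Ideal.Quotient.eq]
    change algebraMap (𝓞 E) (𝓞 Ω) (x ^ Nat.card (𝓞 K ⧸ Q.under (𝓞 K)) - x) ∈ 𝔔
    rw [map_sub, map_pow]
    exact h3
  · exact Nat.card_le_card_of_injective _ (Ideal.algebraMap_quotient_injective (R := 𝓞 K))

end Fixed

section Split

variable (E M : Type*) [Field E] [NumberField E] [Field M] [NumberField M] [Algebra E M]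
  [IsGalois E M]

/-- A prime which splits completely in a Galois extension has residue degree one at every prime
above it. -/
lemma inertiaDeg_eq_one_of_ncard_primesOver (P : Ideal (𝓞 E)) [P.IsPrime]
    (hsplit : (Ideal.primesOver P (𝓞 M)).ncard = Module.finrank E M)
    (𝔓 : Ideal (𝓞 M)) [𝔓.IsPrime] [𝔓.LiesOver P] :
    𝔓.inertiaDeg (𝓞 E) = 1 := by
  have h := Ideal.ncard_primesOver_mul_card_inertia_mul_finrank (G := Gal(M/E)) P 𝔓
  rw [IsGalois.card_aut_eq_finrank, hsplit, mul_assoc] at h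
  have hpos : 0 < Module.finrank E M := Module.finrank_pos
  have h1 : Nat.card (Ideal.inertia Gal(M/E) 𝔓) * 𝔓.inertiaDeg (𝓞 E) = 1 :=
    Nat.eq_of_mul_eq_mul_left hpos (by rw [h, mul_one])
  exact Nat.eq_one_of_mul_eq_one_left h1

/-- A prime which splits completely in a Galois extension has trivial inertia at every prime
above it. -/
lemma card_inertia_eq_one_of_ncard_primesOver (P : Ideal (𝓞 E)) [P.IsPrime]
    (hsplit : (Ideal.primesOver P (𝓞 M)).ncard = Module.finrank E M)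
    (𝔓 : Ideal (𝓞 M)) [𝔓.IsPrime] [𝔓.LiesOver P] :
    Nat.card (Ideal.inertia Gal(M/E) 𝔓) = 1 := by
  have h := Ideal.ncard_primesOver_mul_card_inertia_mul_finrank (G := Gal(M/E)) P 𝔓
  rw [IsGalois.card_aut_eq_finrank, hsplit, mul_assoc] at h
  have hpos : 0 < Module.finrank E M := Module.finrank_pos
  have h1 : Nat.card (Ideal.inertia Gal(M/E) 𝔓) * 𝔓.inertiaDeg (𝓞 E) = 1 :=
    Nat.eq_of_mul_eq_mul_left hpos (by rw [h, mul_one])
  exact Nat.eq_one_of_mul_eq_one_right h1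

/-- A prime which splits completely in a Galois extension: the residue fields above and below
have the same cardinality. -/
lemma card_quot_eq_of_ncard_primesOver (P : Ideal (𝓞 E)) [P.IsPrime] (hP0 : P ≠ ⊥)
    (hsplit : (Ideal.primesOver P (𝓞 M)).ncard = Module.finrank E M)
    (𝔓 : Ideal (𝓞 M)) [𝔓.IsPrime] [𝔓.LiesOver P] :
    Nat.card (𝓞 M ⧸ 𝔓) = Nat.card (𝓞 E ⧸ P) :=
  (inertiaDeg_eq_one_iff_card E M P hP0 𝔓).mp
    (inertiaDeg_eq_one_of_ncard_primesOver E M P hsplit 𝔓)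

/-- A Frobenius at a prime above a completely split prime is trivial. -/
lemma eq_one_of_isArithFrobAt_of_ncard_primesOver (P : Ideal (𝓞 E)) [P.IsPrime] (hP0 : P ≠ ⊥)
    (hsplit : (Ideal.primesOver P (𝓞 M)).ncard = Module.finrank E M)
    (𝔓 : Ideal (𝓞 M)) [𝔓.IsPrime] [𝔓.LiesOver P] (σ : Gal(M/E))
    (hσ : IsArithFrobAt (𝓞 E) σ 𝔓) : σ = 1 := by
  have hP𝔓 : 𝔓.under (𝓞 E) = P := (Ideal.LiesOver.over (p := P) (P := 𝔓)).symm
  have h𝔓0 : 𝔓 ≠ ⊥ := by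
    apply ne_bot_of_under_ne_bot E M 𝔓
    rw [hP𝔓]; exact hP0
  have hcard := card_quot_eq_of_ncard_primesOver E M P hP0 hsplit 𝔓
  have h1 : IsArithFrobAt (𝓞 E) (1 : Gal(M/E)) 𝔓 := by
    rw [isArithFrobAt_one_iff E M 𝔓 h𝔓0, hP𝔓]
    exact hcard
  have h2 := hσ.mul_inv_mem_inertia h1
  have h3 : Ideal.inertia Gal(M/E) 𝔓 = ⊥ := by
    apply Subgroup.eq_bot_of_card_eq
    exact card_inertia_eq_one_of_ncard_primesOver E M P hsplit 𝔓
  have h4 : σ * (1 : Gal(M/E))⁻¹ ∈ Ideal.inertia Gal(M/E) 𝔓 := h2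
  rw [h3, Subgroup.mem_bot] at h4
  simpa using h4

end Split

section Towers

variable (K E L M : Type*) [Field K] [NumberField K] [Field E] [NumberField E]
  [Field L] [NumberField L] [Field M] [NumberField M]
  [Algebra K E] [Algebra K L] [Algebra K M] [Algebra E M] [Algebra L M]
  [IsScalarTower K E M] [IsScalarTower K L M] [IsGalois E M]

/-- **(F4)** In towers `K ⊆ E ⊆ M` and `K ⊆ L ⊆ M` with `M/E` Galois: the relative norm to `K`
of a prime of `E` which splits completely in `M` is the relative norm of a nonzero ideal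
of `L`. -/
theorem exists_relNorm_eq_relNorm_of_split (P : Ideal (𝓞 E)) [P.IsPrime] (hP0 : P ≠ ⊥)
    (hsplit : (Ideal.primesOver P (𝓞 M)).ncard = Module.finrank E M) :
    ∃ 𝔞 : Ideal (𝓞 L), 𝔞 ≠ ⊥ ∧ Ideal.relNorm (𝓞 K) P = Ideal.relNorm (𝓞 K) 𝔞 := by
  obtain ⟨𝔓, h𝔓, h𝔓0, h𝔓P⟩ := exists_prime_over E M P hP0
  haveI := h𝔓
  haveI : 𝔓.LiesOver P := ⟨h𝔓P.symm⟩
  haveI : 𝔓.IsMaximal := Ideal.isMaximal_of_isPrime_of_ne_bot 𝔓 h𝔓0
  haveI : P.IsMaximal := Ideal.isMaximal_of_isPrime_of_ne_bot P hP0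
  have h1 : Ideal.relNorm (𝓞 E) 𝔓 = P := by
    rw [Ideal.relNorm_eq_pow_of_isMaximal 𝔓 P,
      inertiaDeg_eq_one_of_ncard_primesOver E M P hsplit 𝔓, pow_one]
  refine ⟨Ideal.relNorm (𝓞 L) 𝔓, ?_, ?_⟩
  · rw [Ne, Ideal.relNorm_eq_bot_iff]; exact h𝔓0
  · rw [Ideal.relNorm_relNorm (𝓞 K) (𝓞 L) 𝔓, ← h1, Ideal.relNorm_relNorm (𝓞 K) (𝓞 E) 𝔓]

/-- **(F4)**, class-group form: the class of the relative norm to `K` of a prime of `E` which
splits completely in `M` lies in `normClasses K L`. -/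
theorem mk0_relNorm_mem_normClasses_of_split (P : Ideal (𝓞 E)) [P.IsPrime] (hP0 : P ≠ ⊥)
    (hsplit : (Ideal.primesOver P (𝓞 M)).ncard = Module.finrank E M)
    (𝔞 : (Ideal (𝓞 K))⁰) (h𝔞 : (𝔞 : Ideal (𝓞 K)) = Ideal.relNorm (𝓞 K) P) :
    ClassGroup.mk0 𝔞 ∈ normClasses K L := by
  obtain ⟨𝔟, h𝔟0, h𝔟⟩ := exists_relNorm_eq_relNorm_of_split K E L M P hP0 hsplit
  apply Subgroup.subset_closure
  exact ⟨⟨𝔟, mem_nonZeroDivisors_of_ne_zero h𝔟0⟩, 𝔞, by rw [h𝔞, h𝔟], rfl⟩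

/-- In towers `K ⊆ E ⊆ M` and `K ⊆ L ⊆ M` with `M/E` and `L/K` Galois, `L/K` unramified:
if the prime `P` of `E` has residue degree one over `K` and splits completely in `M`, then the
prime `P ∩ K` splits completely in `L`. -/
theorem ncard_primesOver_under_of_split [IsGalois K L]
    (hunr : IsUnramifiedEverywhere K L)
    (P : Ideal (𝓞 E)) [P.IsPrime] (hP0 : P ≠ ⊥)
    (hf : Nat.card (𝓞 E ⧸ P) = Nat.card (𝓞 K ⧸ P.under (𝓞 K)))
    (hsplit : (Ideal.primesOver P (𝓞 M)).ncard = Module.finrank E M) :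
    (Ideal.primesOver (P.under (𝓞 K)) (𝓞 L)).ncard = Module.finrank K L := by
  obtain ⟨𝔓, h𝔓, h𝔓0, h𝔓P⟩ := exists_prime_over E M P hP0
  haveI := h𝔓
  haveI : 𝔓.LiesOver P := ⟨h𝔓P.symm⟩
  have hc1 := card_quot_eq_of_ncard_primesOver E M P hP0 hsplit 𝔓
  set 𝔩 := 𝔓.under (𝓞 L) with h𝔩def
  haveI : 𝔩.IsPrime := Ideal.IsPrime.under (𝓞 L) 𝔓
  have h𝔩0 : 𝔩 ≠ ⊥ := Ideal.under_ne_bot (𝓞 L) h𝔓0
  have hu : 𝔩.under (𝓞 K) = P.under (𝓞 K) := by
    rw [h𝔩def, Ideal.under_under, ← h𝔓P, Ideal.under_under]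
  have h𝔭0 : P.under (𝓞 K) ≠ ⊥ := Ideal.under_ne_bot (𝓞 K) hP0
  haveI : (P.under (𝓞 K)).IsPrime := Ideal.IsPrime.under (𝓞 K) P
  haveI : 𝔩.LiesOver (P.under (𝓞 K)) := ⟨hu.symm⟩
  rw [ncard_primesOver_eq_finrank_iff K L (P.under (𝓞 K)) h𝔭0 𝔩 (hunr 𝔩 inferInstance h𝔩0)]
  apply le_antisymm
  · calc Nat.card (𝓞 L ⧸ 𝔩) ≤ Nat.card (𝓞 M ⧸ 𝔓) := card_quot_under_le' L M 𝔓 h𝔓0
      _ = Nat.card (𝓞 E ⧸ P) := hc1
      _ = Nat.card (𝓞 K ⧸ P.under (𝓞 K)) := hf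
  · have := card_quot_under_le' K L 𝔩 h𝔩0
    rwa [hu] at this

end Towers

end Fermat.Agent.S14.helper12
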