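import Fermat.Agent.S14.helper69_Bridge
import Fermat.Agent.S14.helper14_Core

/-!
# S14: conditional assembly of route R1 (helper14)

`s14_of_inputs` proves `ExtVanishingCts p` from the three inputs still in progress:
* `hbridge` : the field translation of an obstruction (helper91, `exists_core_data`);
* `hRZ` : for the fields produced, reciprocity `(R)` on principal products of degree-one primes
  over one good rational prime (crossing team) and `(Z)` a non-split degree-one prime over a good
  rational prime (zeta-pole team).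
-/

set_option autoImplicit false

open scoped NumberField nonZeroDivisors
open ExtCitation

namespace Fermat.Agent.S14.helper14

open Fermat.Agent.S14 Fermat.Agent.S14.helper69

/-- The conjugation rule in the shape of CORE. -/
def ConjRule (p : ℕ) (K L : Type*) [Field K] [Field L] [NumberField L] [Algebra K L] : Prop :=
  ∀ (τ : Gal(L/ℚ)) (σ : Gal(L/K)) (n : ℕ),
    (∀ ζ : L, ζ ^ p = 1 → τ ζ ^ n = ζ) → ∀ x : L, τ (σ (τ.symm x)) = (σ ^ n) x

/-- Input `(R)` for a predicate `good` on rational primes. -/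
def RecInput (K L : Type*) [Field K] [NumberField K] [Field L] [NumberField L] [Algebra K L]
    [IsAbelianGalois K L] (good : ℕ → Prop) : Prop :=
  ∀ (s : Finset ℕ) (𝔯 : ℕ → (Ideal (𝓞 K))⁰) (q : ℕ), good q →
    (∀ a ∈ s, ((𝔯 a : (Ideal (𝓞 K))⁰) : Ideal (𝓞 K)).IsPrime ∧
      Ideal.absNorm ((𝔯 a : (Ideal (𝓞 K))⁰) : Ideal (𝓞 K)) = q) → q.Prime →
    ((∏ a ∈ s, 𝔯 a : (Ideal (𝓞 K))⁰) : Ideal (𝓞 K)).IsPrincipal →
      artinMap K L (∏ a ∈ s, 𝔯 a) = 1

/-- Input `(Z)` for a predicate `good` on rational primes. -/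
def NonsplitInput (K L : Type*) [Field K] [NumberField K] [Field L] [NumberField L]
    [Algebra K L] (good : ℕ → Prop) : Prop :=
  ∃ 𝔮 : Ideal (𝓞 K), 𝔮.IsPrime ∧ 𝔮 ≠ ⊥ ∧ (Ideal.absNorm 𝔮).Prime ∧
    good (Ideal.absNorm 𝔮) ∧ (Ideal.primesOver 𝔮 (𝓞 L)).ncard ≠ Module.finrank K L

/-- **Conditional assembly of S14 (route R1).** -/
theorem s14_of_inputs {p : ℕ} [Fact p.Prime] (h3 : 3 ≤ p)
    (hbridge : ∀ N : Subgroup GQ, IsObstruction p N →
      ∃ (K L : Type) (_ : Field K) (_ : NumberField K) (_ : Field L) (_ : NumberField L)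
        (_ : Algebra K L) (_ : IsCyclotomicExtension {p} ℚ K) (_ : IsGalois ℚ L)
        (_ : IsGalois K L),
        Module.finrank K L = p ∧ IsUnramifiedEverywhere K L ∧ ConjRule p K L)
    (hRZ : ∀ (K L : Type) [Field K] [NumberField K] [Field L] [NumberField L] [Algebra K L]
      [IsCyclotomicExtension {p} ℚ K] [IsGalois ℚ L] [IsAbelianGalois K L],
      Module.finrank K L = p → IsUnramifiedEverywhere K L → ConjRule p K L →
        ∃ good : ℕ → Prop, RecInput K L good ∧ NonsplitInput K L good) :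
    ExtVanishingCts p := by
  refine extVanishingCts_of_forall_not_isObstruction p (fun N hN => ?_)
  obtain ⟨K, L, _, _, _, _, _, _, _, _, hdeg, hunr, hact⟩ := hbridge N hN
  have hab : IsAbelianGalois K L :=
    isAbelianGalois_of_finrank_prime K L (Fact.out : p.Prime) hdeg
  obtain ⟨good, hR, hZ⟩ := hRZ K L hdeg hunr hact
  exact core_of_rec_of_nonsplit_of_good (by omega) hdeg hunr hact good hR hZ

end Fermat.Agent.S14.helper14
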