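import Fermat.Agent.S14.helper91_FieldObstruction
import Fermat.Agent.S14.helper14_Assembly

/-!
# S14: conditional assembly of route R1, bridge plugged in (helper14)

`s14_of_RZ` : `ExtVanishingCts p` from the inputs `(R)` and `(Z)` only
(the bridge `helper91.extVanishingCts_of_core` is landed).
-/

set_option autoImplicit false

open scoped NumberField nonZeroDivisors
open ExtCitation

namespace Fermat.Agent.S14.helper14

open Fermat.Agent.S14

/-- CORE of route R1 from `(R)` and `(Z)`, in the shape of `helper91.CoreStatement`. -/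
theorem coreStatement_of_RZ {p : ℕ} [Fact p.Prime] (h3 : 3 ≤ p)
    (hRZ : ∀ (K L : Type) [Field K] [NumberField K] [Field L] [NumberField L] [Algebra K L]
      [IsCyclotomicExtension {p} ℚ K] [IsGalois ℚ L] [IsAbelianGalois K L],
      Module.finrank K L = p → IsUnramifiedEverywhere K L → ConjRule p K L →
        ∃ good : ℕ → Prop, RecInput K L good ∧ NonsplitInput K L good) :
    Fermat.Agent.S14.helper91.CoreStatement p := by
  intro K L _ _ _ _ _ _ _ _ hdeg hunr hact
  have hab : IsAbelianGalois K L :=
    isAbelianGalois_of_finrank_prime K L (Fact.out : p.Prime) hdeg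
  obtain ⟨good, hR, hZ⟩ := hRZ K L hdeg hunr hact
  exact core_of_rec_of_nonsplit_of_good (by omega) hdeg hunr hact good hR hZ

/-- **S14 from `(R)` and `(Z)`.** -/
theorem s14_of_RZ {p : ℕ} [Fact p.Prime] (h3 : 3 ≤ p)
    (hRZ : ∀ (K L : Type) [Field K] [NumberField K] [Field L] [NumberField L] [Algebra K L]
      [IsCyclotomicExtension {p} ℚ K] [IsGalois ℚ L] [IsAbelianGalois K L],
      Module.finrank K L = p → IsUnramifiedEverywhere K L → ConjRule p K L →
        ∃ good : ℕ → Prop, RecInput K L good ∧ NonsplitInput K L good) :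
    ExtVanishingCts p :=
  Fermat.Agent.S14.helper91.extVanishingCts_of_core (coreStatement_of_RZ h3 hRZ)

end Fermat.Agent.S14.helper14
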