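import Fermat.Agent.S14.helper69_ZetaPole
import Fermat.Agent.S14.helper14_Assembly2

/-!
# S14: conditional assembly of route R1, bridge and `(Z)` plugged in (helper14)

`s14_of_rec` : `ExtVanishingCts p` from the reciprocity input `(R)` only, with
`good q := q ≠ p` (the shape produced by the crossing endgame).
`s14_of_rec_of_finset` : the same with `good q := q ∉ S` for a finite set `S`
depending on `K`, `L`.
-/

set_option autoImplicit false

open scoped NumberField nonZeroDivisors
open ExtCitation

namespace Fermat.Agent.S14.helper14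

open Fermat.Agent.S14

/-- `(Z)` in the shape of `NonsplitInput`, for any `good` that only excludes finitely many
primes. -/
theorem nonsplitInput_of_finset (K L : Type) [Field K] [NumberField K] [Field L]
    [NumberField L] [Algebra K L] (h : 1 < Module.finrank K L) (good : ℕ → Prop)
    (S : Finset ℕ) (hgood : ∀ q, q.Prime → q ∉ S → good q) : NonsplitInput K L good :=
  Fermat.Agent.S14.helper69.exists_degree_one_prime_not_split_of_good K L h good S hgood

/-- **S14 from `(R)` only**, where `(R)` may exclude a finite set of residue characteristics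
depending on `K` and `L`. -/
theorem s14_of_rec_of_finset {p : ℕ} [Fact p.Prime] (h3 : 3 ≤ p)
    (hR : ∀ (K L : Type) [Field K] [NumberField K] [Field L] [NumberField L] [Algebra K L]
      [IsCyclotomicExtension {p} ℚ K] [IsGalois ℚ L] [IsAbelianGalois K L],
      Module.finrank K L = p → IsUnramifiedEverywhere K L → ConjRule p K L →
        ∃ S : Finset ℕ, RecInput K L (fun q => q ∉ S)) :
    ExtVanishingCts p := by
  refine s14_of_RZ h3 ?_
  intro K L _ _ _ _ _ _ _ _ hdeg hunr hact
  obtain ⟨S, hS⟩ := hR K L hdeg hunr hact
  have h1 : 1 < Module.finrank K L := by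
    rw [hdeg]; exact (Fact.out : p.Prime).one_lt
  exact ⟨fun q => q ∉ S, hS,
    nonsplitInput_of_finset K L h1 _ S (fun q _ hq => hq)⟩

/-- **S14 from `(R)` only**, `good q := q ≠ p`. -/
theorem s14_of_rec {p : ℕ} [Fact p.Prime] (h3 : 3 ≤ p)
    (hR : ∀ (K L : Type) [Field K] [NumberField K] [Field L] [NumberField L] [Algebra K L]
      [IsCyclotomicExtension {p} ℚ K] [IsGalois ℚ L] [IsAbelianGalois K L],
      Module.finrank K L = p → IsUnramifiedEverywhere K L → ConjRule p K L →
        RecInput K L (fun q => q ≠ p)) :
    ExtVanishingCts p := by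
  refine s14_of_RZ h3 ?_
  intro K L _ _ _ _ _ _ _ _ hdeg hunr hact
  have h1 : 1 < Module.finrank K L := by
    rw [hdeg]; exact (Fact.out : p.Prime).one_lt
  exact ⟨fun q => q ≠ p, hR K L hdeg hunr hact,
    nonsplitInput_of_finset K L h1 _ {p} (fun q _ hq => by simpa using hq)⟩

end Fermat.Agent.S14.helper14
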