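import Mathlib
import Fermat.Prelude.Def_Stickelberger_Basic

/-!
# Stickelberger's theorem for degree one primes of `ℚ(ζ_p)` via Jacobi sums (helper62)
-/

namespace Fermat.Agent.S14.helper62

open Finset

section FiniteFieldSum

variable {F : Type*} [Field F] [Fintype F]

/-- `∑ x, x^n (1-x)^n = 0` in a finite field with `q` elements if `2n < q-1`. -/
theorem h62_sum_pow_mul_one_sub_pow (n : ℕ) (h : 2 * n < Fintype.card F - 1) :
    ∑ x : F, x ^ n * (1 - x) ^ n = 0 := by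
  have key : ∀ x : F, x ^ n * (1 - x) ^ n =
      ∑ j ∈ range (n + 1), ((n.choose j : F) * (-1) ^ j) * x ^ (n + j) := by
    intro x
    rw [sub_eq_add_neg, add_comm, add_pow, mul_sum]
    refine sum_congr rfl fun j _ => ?_
    rw [one_pow, mul_one, neg_pow, pow_add]
    ring
  simp_rw [key]
  rw [sum_comm]
  refine sum_eq_zero fun j hj => ?_
  rw [← mul_sum, FiniteField.sum_pow_lt_card_sub_one, mul_zero]
  have := mem_range.mp hj
  omega

end FiniteFieldSum

section Character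

variable {F : Type*} [Field F] [Fintype F]
variable {R : Type*} [CommRing R]

/-- The identity map of a field as a multiplicative character. -/
noncomputable def h62_idChar (F : Type*) [Field F] : MulChar F F :=
  MulChar.ofUnitHom (MonoidHom.id Fˣ)

omit [Fintype F] in
lemma h62_idChar_apply (x : F) : h62_idChar F x = x := by
  by_cases hx : x = 0
  · subst hx
    exact MulChar.map_zero _
  · obtain ⟨u, rfl⟩ := isUnit_iff_ne_zero.mpr hx
    simp [h62_idChar]

lemma h62_dvd_card_sub_one {p : ℕ} (hp : p ≠ 0) {ξ : F} (hξ : IsPrimitiveRoot ξ p) :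
    p ∣ Fintype.card F - 1 := by
  apply hξ.dvd_of_pow_eq_one
  apply FiniteField.pow_card_sub_one_eq_one
  intro h
  have := hξ.pow_eq_one
  rw [h, zero_pow hp] at this
  exact zero_ne_one this

/-- Existence of the `p`-th power residue character. -/
theorem h62_exists_char [DecidableEq F] {p : ℕ} (hp : p ≠ 0) (π : R →+* F) {ζ : R}
    (hζ : IsPrimitiveRoot ζ p) (hζ' : IsPrimitiveRoot (π ζ) p) :
    ∃ χ : MulChar F R, χ ^ p = 1 ∧
      χ.ringHomComp π = (h62_idChar F) ^ ((Fintype.card F - 1) / p) := by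
  have hdvd := h62_dvd_card_sub_one hp hζ'
  obtain ⟨m, hm⟩ := hdvd
  have hm' : (Fintype.card F - 1) / p = m := by
    rw [hm, Nat.mul_div_cancel_left _ (Nat.pos_of_ne_zero hp)]
  rw [hm']
  obtain ⟨g, hg⟩ := IsCyclic.exists_generator (α := Fˣ)
  have hy : ((g : F) ^ m) ^ p = 1 := by
    rw [← pow_mul, mul_comm, ← hm]
    exact FiniteField.pow_card_sub_one_eq_one _ g.ne_zero
  have : NeZero p := ⟨hp⟩
  obtain ⟨c, -, hc⟩ := hζ'.eq_pow_of_pow_eq_one hy
  let u : Rˣ := (hζ.isUnit hp).unit ^ c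
  have hu : u ∈ rootsOfUnity (Fintype.card Fˣ) R := by
    rw [mem_rootsOfUnity, Fintype.card_units, hm]
    ext
    simp only [u, Units.val_pow_eq_pow_val, IsUnit.unit_spec, Units.val_one]
    rw [← pow_mul, mul_comm, mul_assoc, pow_mul, hζ.pow_eq_one, one_pow]
  refine ⟨MulChar.ofRootOfUnity hu hg, ?_, ?_⟩
  · rw [MulChar.eq_iff hg, MulChar.pow_apply_coe, MulChar.ofRootOfUnity_spec, MulChar.one_apply_coe]
    simp only [u, Units.val_pow_eq_pow_val, IsUnit.unit_spec]
    rw [← pow_mul, mul_comm, pow_mul, hζ.pow_eq_one, one_pow]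
  · rw [MulChar.eq_iff hg, MulChar.ringHomComp_apply, MulChar.pow_apply_coe,
      MulChar.ofRootOfUnity_spec, h62_idChar_apply]
    simp only [u, Units.val_pow_eq_pow_val, IsUnit.unit_spec, map_pow]
    exact hc

/-- Powers of the identity character only depend on the exponent mod `q - 1`. -/
lemma h62_idChar_pow_apply {k n : ℕ} (hn : 0 < n) (hkn : k ≡ n [MOD Fintype.card F - 1])
    (x : F) : ((h62_idChar F) ^ k) x = x ^ n := by
  classical
  have h1 : (h62_idChar F) ^ k = (h62_idChar F) ^ n := by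
    rw [pow_eq_pow_iff_modEq]
    refine Nat.ModEq.of_dvd ?_ hkn
    apply orderOf_dvd_of_pow_eq_one
    rw [← Fintype.card_units]
    exact MulChar.pow_card_eq_one _
  rw [h1, MulChar.pow_apply' _ hn.ne', h62_idChar_apply]

/-- The key congruence: the Jacobi sum of a suitable power of the residue character vanishes
in the residue field. -/
theorem h62_jacobiSum_map_eq_zero {p : ℕ} (π : R →+* F) (χ : MulChar F R)
    (hχ : χ.ringHomComp π = (h62_idChar F) ^ ((Fintype.card F - 1) / p))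
    (b n : ℕ) (hn : 0 < n) (h2n : 2 * n < Fintype.card F - 1)
    (hbn : (Fintype.card F - 1) / p * b ≡ n [MOD Fintype.card F - 1]) :
    π (jacobiSum (χ ^ b) (χ ^ b)) = 0 := by
  rw [← jacobiSum_ringHomComp, ← MulChar.ringHomComp_pow, hχ, ← pow_mul, jacobiSum]

  simp_rw [h62_idChar_pow_apply hn hbn]
  exact h62_sum_pow_mul_one_sub_pow n h2n

/-- A ring homomorphism raising `ζ` to the `a`-th power raises a character of order dividing `p`
to the `a`-th power. -/
theorem h62_ringHomComp_eq_pow [IsDomain R] {p : ℕ} (hp : p ≠ 0) {ζ : R}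
    (hζ : IsPrimitiveRoot ζ p) (χ : MulChar F R) (hχ : χ ^ p = 1) (σ : R →+* R) (a : ℕ)
    (hσ : σ ζ = ζ ^ a) : χ.ringHomComp σ = χ ^ a := by
  have : NeZero p := ⟨hp⟩
  ext u
  rw [MulChar.ringHomComp_apply, MulChar.pow_apply_coe]
  obtain ⟨k, -, hk⟩ := MulChar.exists_apply_eq_pow hχ hζ u.ne_zero
  rw [hk, map_pow, hσ, ← pow_mul, ← pow_mul, mul_comm]

theorem h62_map_jacobiSum [IsDomain R] {p : ℕ} (hp : p ≠ 0) {ζ : R}
    (hζ : IsPrimitiveRoot ζ p) (χ : MulChar F R) (hχ : χ ^ p = 1) (σ : R →+* R) (a : ℕ)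
    (hσ : σ ζ = ζ ^ a) : σ (jacobiSum χ χ) = jacobiSum (χ ^ a) (χ ^ a) := by
  rw [← jacobiSum_ringHomComp, h62_ringHomComp_eq_pow hp hζ χ hχ σ a hσ]

/-- A character reducing to the `m`-th power map, `m = (q-1)/p`, has exact order `p`. -/
theorem h62_dvd_of_pow_eq_one {p : ℕ} (hp : p ≠ 0) (hdvd : p ∣ Fintype.card F - 1)
    (π : R →+* F) (χ : MulChar F R)
    (hχ : χ.ringHomComp π = (h62_idChar F) ^ ((Fintype.card F - 1) / p))
    (k : ℕ) (hk : χ ^ k = 1) : p ∣ k := by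
  classical
  obtain ⟨m, hm⟩ := hdvd
  have hm' : (Fintype.card F - 1) / p = m := by
    rw [hm, Nat.mul_div_cancel_left _ (Nat.pos_of_ne_zero hp)]
  rw [hm'] at hχ
  have hm0 : m ≠ 0 := by
    rintro rfl
    have := Fintype.one_lt_card (α := F)
    omega
  obtain ⟨g, hg⟩ := IsCyclic.exists_generator (α := Fˣ)
  have h1 : (χ ^ k).ringHomComp π = 1 := by
    rw [hk]
    ext u
    simp
  rw [← MulChar.ringHomComp_pow, hχ, ← pow_mul] at h1
  have h2 : ((h62_idChar F) ^ (m * k)) g = 1 := by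
    rw [h1, MulChar.one_apply_coe]
  rw [MulChar.pow_apply_coe, h62_idChar_apply] at h2
  have h3 : g ^ (m * k) = 1 := by
    ext
    simpa using h2
  have h4 : orderOf g = Fintype.card F - 1 := by
    rw [orderOf_eq_card_of_forall_mem_zpowers hg, Nat.card_eq_fintype_card, Fintype.card_units]
  have h5 := orderOf_dvd_of_pow_eq_one h3
  rw [h4, hm, mul_comm] at h5
  exact (Nat.mul_dvd_mul_iff_left (Nat.pos_of_ne_zero hm0)).mp h5

/-- In a field of prime cardinality every element is a natural number. -/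
theorem h62_exists_natCast {q : ℕ} (hq : q.Prime) (hF : Fintype.card F = q) (y : F) :
    ∃ s : ℕ, (s : F) = y := by
  have : Fact q.Prime := ⟨hq⟩
  let e := ZMod.ringEquivOfPrime F hq hF
  refine ⟨(e.symm y).val, ?_⟩
  have : e ((e.symm y).val : ZMod q) = y := by
    rw [ZMod.natCast_zmod_val, RingEquiv.apply_symm_apply]
  exact (map_natCast e _).symm.trans this

end Character

section NF

open NumberField


variable {p : ℕ} [hpF : Fact p.Prime] {K : Type*} [Field K] [NumberField K]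
  [IsCyclotomicExtension {p} ℚ K]

/-- existence of the automorphism `ζ ↦ ζ ^ b` of `𝓞 K`. -/
theorem h62_exists_aut {ζ : 𝓞 K} (hζ : IsPrimitiveRoot ζ p) (b : ℕ) (hb : b.Coprime p) :
    ∃ τ : 𝓞 K ≃+* 𝓞 K, τ ζ = ζ ^ b := by
  have hζK : IsPrimitiveRoot (ζ : K) p := hζ.map_of_injective RingOfIntegers.coe_injective
  have hirr : Irreducible (Polynomial.cyclotomic p ℚ) :=
    Polynomial.cyclotomic.irreducible_rat hpF.out.pos
  have hζb := hζK.pow_of_coprime b hb
  let g : K ≃ₐ[ℚ] K := (hζK.powerBasis ℚ).equivOfMinpoly (hζb.powerBasis ℚ) (by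
    simp only [IsPrimitiveRoot.powerBasis_gen]
    rw [← hζK.minpoly_eq_cyclotomic_of_irreducible hirr,
      ← hζb.minpoly_eq_cyclotomic_of_irreducible hirr])
  have hg : g (ζ : K) = (ζ : K) ^ b := by
    have := (hζK.powerBasis ℚ).equivOfMinpoly_gen (hζb.powerBasis ℚ) (by
      simp only [IsPrimitiveRoot.powerBasis_gen]
      rw [← hζK.minpoly_eq_cyclotomic_of_irreducible hirr,
        ← hζb.minpoly_eq_cyclotomic_of_irreducible hirr])
    simpa only [IsPrimitiveRoot.powerBasis_gen] using this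
  refine ⟨RingOfIntegers.mapRingEquiv g.toRingEquiv, ?_⟩
  apply RingOfIntegers.coe_injective
  change g.toRingEquiv (ζ : K) = _
  rw [map_pow]
  exact hg

omit hpF [IsCyclotomicExtension {p} ℚ K] in
/-- invariance of the absolute norm under ring automorphisms -/
theorem h62_absNorm_comap (e : 𝓞 K ≃+* 𝓞 K) (I : Ideal (𝓞 K)) :
    Ideal.absNorm (I.comap e) = Ideal.absNorm I := by
  rw [Ideal.absNorm_apply, Ideal.absNorm_apply, Submodule.cardQuot_apply, Submodule.cardQuot_apply]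
  exact Nat.card_congr (Ideal.quotientEquiv (I.comap e) I e
    (Ideal.map_comap_of_surjective e e.surjective I).symm).toEquiv


end NF

set_option linter.style.haveILetI false

lemma h62_card_exponentSet {p : ℕ} (hp : p.Prime) (hp2 : p ≠ 2) :
    2 * (Stickelberger.exponentSet p).card = p - 1 := by
  have h : Stickelberger.exponentSet p = Finset.Icc 1 ((p - 1) / 2) := by
    ext c
    rw [Stickelberger.mem_exponentSet, Finset.mem_Icc]
    have := hp.two_le
    constructor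
    · rintro ⟨h1, h2⟩
      exact ⟨h1, by omega⟩
    · rintro ⟨h1, h2⟩
      exact ⟨h1, by omega⟩
  rw [h, Nat.card_Icc]
  have hodd := hp.eq_two_or_odd'.resolve_left hp2
  obtain ⟨k, hk⟩ := hodd
  omega

section Main

open NumberField

variable {p : ℕ} [hpF : Fact p.Prime] {K : Type*} [Field K] [NumberField K]
  [IsCyclotomicExtension {p} ℚ K]

theorem h62_stickelberger_core (hp2 : p ≠ 2) {ζ : 𝓞 K} (hζ : IsPrimitiveRoot ζ p)
    (𝔮 : Ideal (𝓞 K)) [h𝔮 : 𝔮.IsPrime] {q : ℕ} (hq : q.Prime) (hN : Ideal.absNorm 𝔮 = q)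
    (hqp : q ≠ p) (σ : ℕ → (𝓞 K ≃+* 𝓞 K))
    (hσ : ∀ a ∈ Stickelberger.exponentSet p, σ a ζ = ζ ^ a) :
    ∃ J : 𝓞 K, Ideal.span {J} = ∏ a ∈ Stickelberger.exponentSet p, 𝔮.comap (σ a) := by
  classical
  have hp := hpF.out
  have hne : 𝔮 ≠ ⊥ := by
    rintro rfl
    rw [Ideal.absNorm_bot] at hN
    exact hq.ne_zero hN.symm
  haveI hmax : 𝔮.IsMaximal := h𝔮.isMaximal hne
  letI : Field (𝓞 K ⧸ 𝔮) := Ideal.Quotient.field 𝔮
  have hcard : Nat.card (𝓞 K ⧸ 𝔮) = q := by
    rw [← hN, Ideal.absNorm_apply, Submodule.cardQuot_apply]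
  haveI : Finite (𝓞 K ⧸ 𝔮) := Nat.finite_of_card_ne_zero (hcard ▸ hq.ne_zero)
  letI : Fintype (𝓞 K ⧸ 𝔮) := Fintype.ofFinite _
  have hcardF : Fintype.card (𝓞 K ⧸ 𝔮) = q := by rw [← Nat.card_eq_fintype_card, hcard]
  let π : 𝓞 K →+* (𝓞 K ⧸ 𝔮) := Ideal.Quotient.mk 𝔮
  have hπ : ∀ x, π x = 0 ↔ x ∈ 𝔮 := fun x => Ideal.Quotient.eq_zero_iff_mem
  -- π ζ primitive
  have hζ' : IsPrimitiveRoot (π ζ) p := by
    have h1 : (π ζ) ^ p = 1 := by rw [← map_pow, hζ.pow_eq_one, map_one]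
    have h2 : π ζ ≠ 1 := by
      intro h
      have hgeom := hζ.geom_sum_eq_zero hp.one_lt
      have h3 := congrArg π hgeom
      rw [map_sum] at h3
      simp only [map_pow, h, one_pow, sum_const, card_range, nsmul_eq_mul, mul_one,
        map_zero] at h3
      have hqF : (q : 𝓞 K ⧸ 𝔮) = 0 := by rw [← hcardF]; exact Nat.cast_card_eq_zero _
      have hcop : Nat.Coprime p q := (Nat.coprime_primes hp hq).mpr (Ne.symm hqp)
      have h4 : ((Nat.gcd p q : ℕ) : 𝓞 K ⧸ 𝔮) = 0 := by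
        have := Nat.gcd_eq_gcd_ab p q
        have h5 : ((Nat.gcd p q : ℤ) : 𝓞 K ⧸ 𝔮) = 0 := by
          rw [this]
          push_cast
          rw [h3, hqF]
          ring
        exact_mod_cast h5
      rw [hcop, Nat.cast_one] at h4
      exact one_ne_zero h4
    rw [← orderOf_eq_prime h1 h2]
    exact IsPrimitiveRoot.orderOf _
  have hdvd : p ∣ Fintype.card (𝓞 K ⧸ 𝔮) - 1 := h62_dvd_card_sub_one hp.ne_zero hζ'
  obtain ⟨χ, hχp, hχ⟩ := h62_exists_char hp.ne_zero π hζ hζ'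
  obtain ⟨m, hm⟩ := id hdvd
  have hm' : (Fintype.card (𝓞 K ⧸ 𝔮) - 1) / p = m := by
    rw [hm, Nat.mul_div_cancel_left _ hp.pos]
  have hm0 : 0 < m := by
    rcases Nat.eq_zero_or_pos m with h | h
    · subst h
      have := Fintype.one_lt_card (α := 𝓞 K ⧸ 𝔮)
      omega
    · exact h
  have hχinv : χ⁻¹ ^ p = 1 := by rw [inv_pow, hχp, inv_one]
  -- memberships
  have hmem : ∀ (τ : 𝓞 K ≃+* 𝓞 K) (a : ℕ), 0 < a → 2 * a < p → τ ζ = ζ ^ a →
      jacobiSum χ χ ∈ 𝔮.comap τ := by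
    intro τ a ha0 ha hτ
    rw [Ideal.mem_comap, ← hπ]
    have h1 := h62_map_jacobiSum hp.ne_zero hζ χ hχp (τ : 𝓞 K →+* 𝓞 K) a hτ
    rw [RingEquiv.coe_toRingHom] at h1
    rw [h1]
    apply h62_jacobiSum_map_eq_zero π χ hχ a (m * a) (Nat.mul_pos hm0 ha0) ?_ ?_
    · rw [hm]
      nlinarith
    · rw [hm']
  have hmem' : ∀ (τ : 𝓞 K ≃+* 𝓞 K) (a : ℕ), 0 < a → 2 * a < p → τ ζ = ζ ^ (p - a) →
      jacobiSum χ⁻¹ χ⁻¹ ∈ 𝔮.comap τ := by
    intro τ a ha0 ha hτ
    rw [Ideal.mem_comap, ← hπ]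
    have h1 := h62_map_jacobiSum hp.ne_zero hζ χ⁻¹ hχinv (τ : 𝓞 K →+* 𝓞 K) (p - a) hτ
    rw [RingEquiv.coe_toRingHom] at h1
    have h2 : χ⁻¹ ^ (p - a) = χ ^ a := by
      rw [inv_pow, inv_eq_iff_eq_inv, eq_inv_iff_mul_eq_one, ← pow_add,
        Nat.sub_add_cancel (by omega), hχp]
    rw [h1, h2]
    apply h62_jacobiSum_map_eq_zero π χ hχ a (m * a) (Nat.mul_pos hm0 ha0) ?_ ?_
    · rw [hm]
      nlinarith
    · rw [hm']
  -- the product formula
  have hχ1 : χ ≠ 1 := fun h => by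
    have := h62_dvd_of_pow_eq_one hp.ne_zero hdvd π χ hχ 1 (by rw [pow_one, h])
    exact hp.one_lt.ne' (Nat.dvd_one.mp this)
  have hχ2 : χ * χ ≠ 1 := fun h => by
    have := h62_dvd_of_pow_eq_one hp.ne_zero hdvd π χ hχ 2 (by rw [pow_two, h])
    exact hp2 ((Nat.prime_dvd_prime_iff_eq hp Nat.prime_two).mp this)
  have hJJ : jacobiSum χ χ * jacobiSum χ⁻¹ χ⁻¹ = (q : 𝓞 K) := by
    have hinj : Function.Injective (algebraMap (𝓞 K) K) := RingOfIntegers.coe_injective
    apply hinj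
    have hchar : ringChar K ≠ ringChar (𝓞 K ⧸ 𝔮) := by
      rw [ringChar.eq_zero]
      intro h
      have : CharZero (𝓞 K ⧸ 𝔮) := by
        have := ringChar.charP (𝓞 K ⧸ 𝔮)
        rw [← h] at this
        exact CharP.charP_to_charZero _
      exact not_finite (𝓞 K ⧸ 𝔮)
    have key := jacobiSum_mul_jacobiSum_inv hchar
      (χ := χ.ringHomComp (algebraMap (𝓞 K) K)) (φ := χ.ringHomComp (algebraMap (𝓞 K) K))
      ((MulChar.ringHomComp_ne_one_iff hinj).mpr hχ1) ((MulChar.ringHomComp_ne_one_iff hinj).mpr hχ1)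
      (by rw [← MulChar.ringHomComp_mul]; exact (MulChar.ringHomComp_ne_one_iff hinj).mpr hχ2)
    rw [map_mul, ← jacobiSum_ringHomComp, ← jacobiSum_ringHomComp, ← MulChar.ringHomComp_inv, key,
      hcardF, map_natCast]
  -- distinctness of the conjugate primes
  have hdist : ∀ (τ τ' : 𝓞 K ≃+* 𝓞 K) (a a' : ℕ), a < p → a' < p → τ ζ = ζ ^ a →
      τ' ζ = ζ ^ a' → 𝔮.comap τ = 𝔮.comap τ' → a = a' := by
    intro τ τ' a a' ha ha' hτ hτ' h
    obtain ⟨s, hs⟩ := h62_exists_natCast hq hcardF ((π ζ) ^ a)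
    have h1 : ζ - (s : 𝓞 K) ∈ 𝔮.comap τ := by
      rw [Ideal.mem_comap, ← hπ, map_sub, map_natCast, hτ, map_sub, map_pow, map_natCast, hs,
        sub_self]
    rw [h, Ideal.mem_comap, ← hπ, map_sub, map_natCast, hτ', map_sub, map_pow, map_natCast, hs,
      sub_eq_zero] at h1
    exact (hζ'.pow_inj ha' ha h1).symm
  -- the norm argument
  have hEmem : ∀ a ∈ Stickelberger.exponentSet p, 0 < a ∧ 2 * a < p :=
    fun a ha => Stickelberger.mem_exponentSet.mp ha
  have hτ' : ∀ a : ℕ, ∃ τ : 𝓞 K ≃+* 𝓞 K, a ∈ Stickelberger.exponentSet p →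
      τ ζ = ζ ^ (p - a) := by
    intro a
    by_cases ha : a ∈ Stickelberger.exponentSet p
    · obtain ⟨h1, h2⟩ := hEmem a ha
      have hcop : (p - a).Coprime p := by
        apply Nat.Coprime.symm
        rw [Nat.Prime.coprime_iff_not_dvd hp]
        intro hd
        have := Nat.le_of_dvd (by omega) hd
        omega
      obtain ⟨τ, hτ⟩ := h62_exists_aut hζ (p - a) hcop
      exact ⟨τ, fun _ => hτ⟩
    · exact ⟨RingEquiv.refl _, fun h => absurd h ha⟩
  choose τ' hτ' using hτ'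
  have hId : (∏ a ∈ Stickelberger.exponentSet p, 𝔮.comap (σ a)) ∣
      Ideal.span {jacobiSum χ χ} := by
    apply Finset.prod_dvd_of_coprime
    · intro a ha b hb hab
      simp only [Function.onFun]
      rw [Ideal.isCoprime_iff_sup_eq]
      apply Ideal.IsMaximal.coprime_of_ne inferInstance inferInstance
      intro h
      have h1 := hEmem a ha
      have h2 := hEmem b hb
      exact hab (hdist (σ a) (σ b) a b (by omega) (by omega) (hσ a ha) (hσ b hb) h)
    · intro a ha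
      rw [Ideal.dvd_span_singleton]
      exact hmem (σ a) a (hEmem a ha).1 (hEmem a ha).2 (hσ a ha)
  have hId' : (∏ a ∈ Stickelberger.exponentSet p, 𝔮.comap (τ' a)) ∣
      Ideal.span {jacobiSum χ⁻¹ χ⁻¹} := by
    apply Finset.prod_dvd_of_coprime
    · intro a ha b hb hab
      simp only [Function.onFun]
      rw [Ideal.isCoprime_iff_sup_eq]
      apply Ideal.IsMaximal.coprime_of_ne inferInstance inferInstance
      intro h
      have h1 := hEmem a ha
      have h2 := hEmem b hb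
      have := hdist (τ' a) (τ' b) (p - a) (p - b) (by omega) (by omega) (hτ' a ha) (hτ' b hb) h
      exact hab (by omega)
    · intro a ha
      rw [Ideal.dvd_span_singleton]
      exact hmem' (τ' a) a (hEmem a ha).1 (hEmem a ha).2 (hτ' a ha)
  obtain ⟨C, hC⟩ := hId
  obtain ⟨C', hC'⟩ := hId'
  have hNI : Ideal.absNorm (∏ a ∈ Stickelberger.exponentSet p, 𝔮.comap (σ a)) =
      q ^ (Stickelberger.exponentSet p).card := by
    rw [map_prod]
    simp only [h62_absNorm_comap, hN, Finset.prod_const]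
  have hNI' : Ideal.absNorm (∏ a ∈ Stickelberger.exponentSet p, 𝔮.comap (τ' a)) =
      q ^ (Stickelberger.exponentSet p).card := by
    rw [map_prod]
    simp only [h62_absNorm_comap, hN, Finset.prod_const]
  have hprod : Ideal.span {jacobiSum χ χ} * Ideal.span {jacobiSum χ⁻¹ χ⁻¹} =
      Ideal.span {(q : 𝓞 K)} := by
    rw [Ideal.span_singleton_mul_span_singleton, hJJ]
  have hirr : Irreducible (Polynomial.cyclotomic p ℚ) :=
    Polynomial.cyclotomic.irreducible_rat hp.pos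
  have hNq : Ideal.absNorm (Ideal.span {(q : 𝓞 K)}) = q ^ (p - 1) := by
    rw [Ideal.absNorm_span_natCast, RingOfIntegers.rank, IsCyclotomicExtension.finrank K hirr,
      Nat.totient_prime hp]
  have hnorm := congrArg Ideal.absNorm hprod
  rw [hC, hC', map_mul, map_mul, map_mul, hNI, hNI', hNq] at hnorm
  have hcardE := h62_card_exponentSet hp hp2
  have hNC : Ideal.absNorm C = 1 := by
    have h1 : q ^ (p - 1) * (Ideal.absNorm C * Ideal.absNorm C') = q ^ (p - 1) * 1 := by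
      rw [mul_one]
      nth_rewrite 2 [← hnorm]
      rw [← hcardE, two_mul, pow_add]
      ring
    have h2 := Nat.eq_of_mul_eq_mul_left (pow_pos hq.pos _) h1
    exact Nat.eq_one_of_mul_eq_one_right h2
  rw [Ideal.absNorm_eq_one_iff] at hNC
  refine ⟨jacobiSum χ χ, ?_⟩
  rw [hC, hNC, Ideal.mul_top]

end Main


section Ext

open NumberField


variable {p : ℕ} [hpF : Fact p.Prime] {K : Type*} [Field K] [NumberField K]
  [IsCyclotomicExtension {p} ℚ K]

omit hpF [IsCyclotomicExtension {p} ℚ K] [NumberField K] in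
lemma h62_comap_span_singleton (e : 𝓞 K ≃+* 𝓞 K) (x : 𝓞 K) :
    (Ideal.span {x}).comap e = Ideal.span {e.symm x} := by
  rw [← Ideal.map_symm, Ideal.map_span, Set.image_singleton]

/-- The prime above `p` is principal. -/
theorem h62_eq_span_of_absNorm_eq {ζ : 𝓞 K} (hζ : IsPrimitiveRoot ζ p)
    (𝔮 : Ideal (𝓞 K)) [h𝔮 : 𝔮.IsPrime] (hN : Ideal.absNorm 𝔮 = p) :
    𝔮 = Ideal.span {ζ - 1} := by
  have hp := hpF.out
  have hpmem : (p : 𝓞 K) ∈ 𝔮 := by
    rw [← hN]
    exact Ideal.absNorm_mem 𝔮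
  have hζK : IsPrimitiveRoot (ζ : K) p := hζ.map_of_injective RingOfIntegers.coe_injective
  have hint : hζK.toInteger = ζ := RingOfIntegers.ext rfl
  have hassoc : Associated ((ζ - 1) ^ (p - 1)) (p : 𝓞 K) := by
    have := IsCyclotomicExtension.Rat.associated_zeta_sub_one_pow_prime p hζK
    rwa [hint] at this
  have h1 : (ζ - 1) ^ (p - 1) ∈ 𝔮 := by
    obtain ⟨u, hu⟩ := hassoc.symm
    rw [← hu]
    exact Ideal.mul_mem_right _ _ hpmem
  have h2 : ζ - 1 ∈ 𝔮 := h𝔮.mem_of_pow_mem _ h1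
  have hprime : Prime (ζ - 1) := by
    have := hζK.zeta_sub_one_prime'
    rwa [hint] at this
  have hmax : (Ideal.span {ζ - 1}).IsMaximal := by
    have : (Ideal.span {ζ - 1}).IsPrime := (Ideal.span_singleton_prime hprime.ne_zero).mpr hprime
    exact this.isMaximal (by
      rw [Ne, Ideal.span_singleton_eq_bot]
      exact hprime.ne_zero)
  exact (hmax.eq_of_le h𝔮.ne_top ((Ideal.span_singleton_le_iff_mem _).mpr h2)).symm

/-- **Stickelberger's theorem for primes of degree one** (Jacobi sum form):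
if `𝔮` is a prime of `𝓞 K`, `K = ℚ(ζ_p)`, of prime absolute norm, and `σ a` are ring automorphisms
with `σ a ζ = ζ ^ a`, then `∏_{0 < a < p/2} (σ a)⁻¹(𝔮)` is a principal ideal. -/
theorem stickelberger_degree_one (hp2 : p ≠ 2) {ζ : 𝓞 K} (hζ : IsPrimitiveRoot ζ p)
    (𝔮 : Ideal (𝓞 K)) [h𝔮 : 𝔮.IsPrime] (hN : (Ideal.absNorm 𝔮).Prime)
    (σ : ℕ → (𝓞 K ≃+* 𝓞 K))
    (hσ : ∀ a ∈ Stickelberger.exponentSet p, σ a ζ = ζ ^ a) :
    ∃ J : 𝓞 K, Ideal.span {J} = ∏ a ∈ Stickelberger.exponentSet p, 𝔮.comap (σ a) := by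
  by_cases hqp : Ideal.absNorm 𝔮 = p
  · refine ⟨∏ a ∈ Stickelberger.exponentSet p, (σ a).symm (ζ - 1), ?_⟩
    rw [← Ideal.prod_span_singleton]
    refine Finset.prod_congr rfl fun a _ => ?_
    rw [← h62_comap_span_singleton, ← h62_eq_span_of_absNorm_eq hζ 𝔮 hqp]
  · exact h62_stickelberger_core hp2 hζ 𝔮 hN rfl hqp σ hσ

end Ext

end Fermat.Agent.S14.helper62
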