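import Fermat.Agent.S14.Defs
import Fermat.Agent.S14.helper62_Stickelberger

/-!
# S14, route R1, step (4): the endgame (helper14)

From reciprocity (the Artin map kills principal ideals), Stickelberger's theorem for primes of
degree one (helper62) and the conjugation rule `τ σ τ⁻¹ = σ ^ n`, every prime of degree one has
trivial Frobenius; this contradicts the existence of a degree-one prime which does not split.
-/

set_option autoImplicit false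
set_option linter.unusedSectionVars false

open scoped NumberField nonZeroDivisors Pointwise

namespace Fermat.Agent.S14.helper14

open Fermat.Agent.S14

section General

variable {E M : Type*} [Field E] [NumberField E] [Field M] [NumberField M] [Algebra E M]
  [IsGalois E M]

/-- In an extension unramified at `P`, the Frobenius at `P` is unique. -/
lemma frob_unique (hunr : IsUnramifiedEverywhere E M) (P : Ideal (𝓞 M)) [P.IsPrime] (hP : P ≠ ⊥)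
    {σ σ' : Gal(M/E)} (h : IsArithFrobAt (𝓞 E) σ P) (h' : IsArithFrobAt (𝓞 E) σ' P) :
    σ = σ' := by
  have hmem : σ * σ'⁻¹ ∈ P.inertia Gal(M/E) := h.mul_inv_mem_inertia h'
  have h1 : σ * σ'⁻¹ = 1 := hunr P inferInstance hP _ (fun x => hmem x)
  exact mul_inv_eq_one.mp h1

end General

section Conj

variable {K L : Type*} [Field K] [NumberField K] [Field L] [NumberField L] [Algebra K L]
  [IsGalois ℚ K] [IsGalois ℚ L] [IsGalois K L]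

lemma smul_algebraMap (τ : Gal(L/ℚ)) (x : 𝓞 K) :
    τ • (algebraMap (𝓞 K) (𝓞 L) x) =
      algebraMap (𝓞 K) (𝓞 L) ((AlgEquiv.restrictNormalHom K τ) • x) := by
  apply NumberField.RingOfIntegers.ext
  show τ (algebraMap K L (x : K)) = algebraMap K L ((AlgEquiv.restrictNormalHom K τ) (x : K))
  exact (AlgEquiv.restrictNormal_commutes τ K (x : K)).symm

lemma under_smul (τ : Gal(L/ℚ)) (P : Ideal (𝓞 L)) :
    (τ • P).under (𝓞 K) = (AlgEquiv.restrictNormalHom K τ) • (P.under (𝓞 K)) := by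
  ext x
  simp only [Ideal.under, Ideal.mem_comap, Ideal.mem_pointwise_smul_iff_inv_smul_mem]
  rw [smul_algebraMap, map_inv]

lemma absNorm_smul (g : Gal(K/ℚ)) (I : Ideal (𝓞 K)) :
    Ideal.absNorm (g • I) = Ideal.absNorm I := by
  rw [Ideal.pointwise_smul_eq_comap]
  exact Fermat.Agent.S14.helper62.h62_absNorm_comap _ I

lemma card_quot_under_smul (τ : Gal(L/ℚ)) (P : Ideal (𝓞 L)) :
    Nat.card (𝓞 K ⧸ (τ • P).under (𝓞 K)) = Nat.card (𝓞 K ⧸ P.under (𝓞 K)) := by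
  rw [under_smul, ← Submodule.cardQuot_apply, ← Submodule.cardQuot_apply, ← Ideal.absNorm_apply,
    ← Ideal.absNorm_apply, absNorm_smul]

/-- Conjugating a Frobenius at `P` by `τ ∈ Gal(L/ℚ)` gives a Frobenius at `τ • P`. -/
lemma frob_conj (τ : Gal(L/ℚ)) (σ σ' : Gal(L/K)) (P : Ideal (𝓞 L))
    (h : IsArithFrobAt (𝓞 K) σ P) (hσ' : ∀ x : L, σ' x = τ (σ (τ.symm x))) :
    IsArithFrobAt (𝓞 K) σ' (τ • P) := by
  intro x
  rw [Ideal.mem_pointwise_smul_iff_inv_smul_mem, card_quot_under_smul]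
  have h1 := h (τ⁻¹ • x)
  have h2 : τ⁻¹ • ((MulSemiringAction.toAlgHom (𝓞 K) (𝓞 L) σ') x -
      x ^ Nat.card (𝓞 K ⧸ P.under (𝓞 K))) =
      (MulSemiringAction.toAlgHom (𝓞 K) (𝓞 L) σ) (τ⁻¹ • x) -
        (τ⁻¹ • x) ^ Nat.card (𝓞 K ⧸ P.under (𝓞 K)) := by
    rw [smul_sub, smul_pow']
    congr 1
    apply NumberField.RingOfIntegers.ext
    show τ⁻¹ (σ' (x : L)) = σ (τ⁻¹ (x : L))
    rw [hσ']
    show τ.symm (τ (σ (τ.symm (x : L)))) = σ (τ.symm (x : L))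
    simp
  rw [h2]
  exact h1

end Conj

section Arith

/-- `exponentSet p` is `{1, …, (p-1)/2}` and its sum is prime to `p`. -/
lemma not_dvd_sum_exponentSet {p : ℕ} (hp : p.Prime) (hp2 : p ≠ 2) :
    ¬ p ∣ ∑ c ∈ Stickelberger.exponentSet p, c := by
  obtain ⟨m, hm⟩ : ∃ m, p = 2 * m + 1 := by
    rcases Nat.Prime.eq_two_or_odd hp with h | h
    · exact absurd h hp2
    · exact ⟨p / 2, by omega⟩
  have hset : Stickelberger.exponentSet p = (Finset.range (m + 1)).filter (fun c => 0 < c) := by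
    ext c
    simp only [Stickelberger.mem_exponentSet, Finset.mem_filter, Finset.mem_range]
    omega
  have hsum : ∑ c ∈ Stickelberger.exponentSet p, c = ∑ c ∈ Finset.range (m + 1), c := by
    rw [hset, Finset.sum_filter]
    refine Finset.sum_congr rfl fun c _ => ?_
    by_cases hc : 0 < c
    · simp [hc]
    · have : c = 0 := by omega
      simp [this]
  rw [hsum]
  intro hdvd
  have h2 : p ∣ (∑ c ∈ Finset.range (m + 1), c) * 2 := Dvd.dvd.mul_right hdvd 2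
  rw [Finset.sum_range_id_mul_two] at h2
  have h3 : p ∣ (m + 1) * m := by simpa using h2
  rcases (Nat.Prime.dvd_mul hp).mp h3 with h | h
  · have := Nat.le_of_dvd (by omega) h
    have hm0 : 0 < m := by
      rcases Nat.eq_zero_or_pos m with h0 | h0
      · subst h0; simp at hm; exact absurd hm hp.one_lt.ne'
      · exact h0
    omega
  · rcases Nat.eq_zero_or_pos m with h0 | h0
    · subst h0; simp at hm; exact absurd hm hp.one_lt.ne'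
    · have := Nat.le_of_dvd h0 h
      omega

end Arith

section Main

variable {p : ℕ} [Fact p.Prime] {K L : Type*} [Field K] [NumberField K] [Field L] [NumberField L]
  [Algebra K L] [IsCyclotomicExtension {p} ℚ K] [IsGalois ℚ L] [IsGalois K L]

variable (K) in
include K in
/-- For `a` prime to `p` there is `τ ∈ Gal(L/ℚ)` raising every `p`-th root of unity of `L` to the
`a`-th power. -/
lemma exists_gal_pow (a : ℕ) (ha : a.Coprime p) :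
    ∃ τ : Gal(L/ℚ), ∀ ξ : L, ξ ^ p = 1 → τ ξ = ξ ^ a := by
  have : NeZero p := ⟨(Fact.out : p.Prime).ne_zero⟩
  have : IsGalois ℚ K := IsCyclotomicExtension.isGalois {p} ℚ K
  have hζ : IsPrimitiveRoot (IsCyclotomicExtension.zeta p ℚ K) p :=
    IsCyclotomicExtension.zeta_spec p ℚ K
  have hirr : Irreducible (Polynomial.cyclotomic p ℚ) :=
    Polynomial.cyclotomic.irreducible_rat (Fact.out : p.Prime).pos
  set g : Gal(K/ℚ) := IsCyclotomicExtension.fromZetaAut (hζ.pow_of_coprime a ha) hirr with hg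
  have hgζ : g (IsCyclotomicExtension.zeta p ℚ K) = IsCyclotomicExtension.zeta p ℚ K ^ a :=
    IsCyclotomicExtension.fromZetaAut_spec (hζ.pow_of_coprime a ha) hirr
  obtain ⟨τ, hτ⟩ := AlgEquiv.restrictNormalHom_surjective (F := ℚ) (K₁ := K) L g
  refine ⟨τ, fun ξ hξ => ?_⟩
  have hζL : IsPrimitiveRoot (algebraMap K L (IsCyclotomicExtension.zeta p ℚ K)) p :=
    hζ.map_of_injective (algebraMap K L).injective
  obtain ⟨i, -, rfl⟩ := hζL.eq_pow_of_pow_eq_one hξ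
  have h1 : τ (algebraMap K L (IsCyclotomicExtension.zeta p ℚ K)) =
      algebraMap K L (IsCyclotomicExtension.zeta p ℚ K) ^ a := by
    have := AlgEquiv.restrictNormal_commutes τ K (IsCyclotomicExtension.zeta p ℚ K)
    rw [← this]
    have h2 : τ.restrictNormal K = g := hτ
    rw [h2, hgζ, map_pow]
  rw [map_pow, h1, ← pow_mul, ← pow_mul, mul_comm]

/-- **Key step of the endgame.** Under reciprocity, every prime of degree one of `K = ℚ(ζ_p)` has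
trivial Artin symbol in `L/K`. Here `ψ` is ANY monoid hom on nonzero ideals whose value at a prime
is a Frobenius at the primes above it. -/
theorem artin_eq_one_of_degree_one_of_good (hp : p ≠ 2) (hdeg : Module.finrank K L = p)
    (hunr : IsUnramifiedEverywhere K L)
    (hact : ∀ (τ : Gal(L/ℚ)) (σ : Gal(L/K)) (n : ℕ),
      (∀ ζ : L, ζ ^ p = 1 → τ ζ ^ n = ζ) → ∀ x : L, τ (σ (τ.symm x)) = (σ ^ n) x)
    (ψ : (Ideal (𝓞 K))⁰ →* Gal(L/K))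
    (hψ : ∀ (P : Ideal (𝓞 L)), P.IsPrime → P ≠ ⊥ → ∀ 𝔮 : (Ideal (𝓞 K))⁰,
      (𝔮 : Ideal (𝓞 K)) = P.under (𝓞 K) → IsArithFrobAt (𝓞 K) (ψ 𝔮) P)
    (good : ℕ → Prop)
    (hrec : ∀ (s : Finset ℕ) (𝔯 : ℕ → (Ideal (𝓞 K))⁰) (q : ℕ), good q →
      (∀ a ∈ s, ((𝔯 a : (Ideal (𝓞 K))⁰) : Ideal (𝓞 K)).IsPrime ∧
        Ideal.absNorm ((𝔯 a : (Ideal (𝓞 K))⁰) : Ideal (𝓞 K)) = q) → q.Prime →
      ((∏ a ∈ s, 𝔯 a : (Ideal (𝓞 K))⁰) : Ideal (𝓞 K)).IsPrincipal → ψ (∏ a ∈ s, 𝔯 a) = 1)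
    (𝔮 : (Ideal (𝓞 K))⁰) (h𝔮 : (𝔮 : Ideal (𝓞 K)).IsPrime)
    (hN : (Ideal.absNorm (𝔮 : Ideal (𝓞 K))).Prime)
    (hgood : good (Ideal.absNorm (𝔮 : Ideal (𝓞 K)))) : ψ 𝔮 = 1 := by
  classical
  have hpp : p.Prime := Fact.out
  have : NeZero p := ⟨hpp.ne_zero⟩
  have : IsGalois ℚ K := IsCyclotomicExtension.isGalois {p} ℚ K
  have hζK : IsPrimitiveRoot (IsCyclotomicExtension.zeta p ℚ K) p :=
    IsCyclotomicExtension.zeta_spec p ℚ K
  set ζ : 𝓞 K := hζK.toInteger with hζdef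
  have hζ : IsPrimitiveRoot ζ p := hζK.toInteger_isPrimitiveRoot
  -- the automorphisms
  have hex : ∀ a : ℕ, ∃ τ : Gal(L/ℚ), a.Coprime p → ∀ ξ : L, ξ ^ p = 1 → τ ξ = ξ ^ a := by
    intro a
    by_cases ha : a.Coprime p
    · obtain ⟨τ, hτ⟩ := exists_gal_pow (p := p) (L := L) K a ha
      exact ⟨τ, fun _ => hτ⟩
    · exact ⟨1, fun h => absurd h ha⟩
  choose τ hτ using hex
  set σ : ℕ → (𝓞 K ≃+* 𝓞 K) := fun a =>
    MulSemiringAction.toRingEquiv Gal(K/ℚ) (𝓞 K) (AlgEquiv.restrictNormalHom K (τ a)) with hσdef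
  have hcop : ∀ a ∈ Stickelberger.exponentSet p, a.Coprime p := by
    intro a ha
    rw [Stickelberger.mem_exponentSet] at ha
    exact (Nat.coprime_of_lt_prime (by omega) (by omega) hpp).symm
  -- `σ a ζ = ζ ^ a`
  have hσ : ∀ a ∈ Stickelberger.exponentSet p, σ a ζ = ζ ^ a := by
    intro a ha
    apply NumberField.RingOfIntegers.ext
    apply (algebraMap K L).injective
    show algebraMap K L ((AlgEquiv.restrictNormalHom K (τ a)) (ζ : K)) = _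
    have h1 := AlgEquiv.restrictNormal_commutes (τ a) K (ζ : K)
    have h2 : (algebraMap K L (ζ : K)) ^ p = 1 := by
      rw [← map_pow]
      have : ((ζ : K)) ^ p = 1 := by
        have := hζ.pow_eq_one
        exact_mod_cast congrArg (fun x : 𝓞 K => (x : K)) this
      rw [this, map_one]
    have h3 := hτ a (hcop a ha) _ h2
    show algebraMap K L ((τ a).restrictNormal K (ζ : K)) = _
    rw [h1, h3]
    simp [map_pow]
  -- Stickelberger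
  have := h𝔮
  obtain ⟨J, hJ⟩ := Fermat.Agent.S14.helper62.stickelberger_degree_one hp hζ
    (𝔮 : Ideal (𝓞 K)) hN σ hσ
  have h𝔮0 : (𝔮 : Ideal (𝓞 K)) ≠ ⊥ := nonZeroDivisors.coe_ne_zero 𝔮
  -- a prime `P` of `L` over `𝔮`
  obtain ⟨P, -, hPprime, hPover⟩ :=
    Ideal.exists_ideal_over_prime_of_isIntegral (𝔮 : Ideal (𝓞 K)) (⊥ : Ideal (𝓞 L))
      (by simp [Ideal.comap_bot_of_injective _
        (FaithfulSMul.algebraMap_injective (𝓞 K) (𝓞 L))])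
  have hPne : P ≠ ⊥ := by
    rintro rfl
    apply h𝔮0
    rw [← hPover]
    exact Ideal.comap_bot_of_injective _ (FaithfulSMul.algebraMap_injective (𝓞 K) (𝓞 L))
  have hFrobP : IsArithFrobAt (𝓞 K) (ψ 𝔮) P := hψ P hPprime hPne 𝔮 hPover.symm
  -- the conjugate primes
  have hne : ∀ a : ℕ, (𝔮 : Ideal (𝓞 K)).comap (σ a) ∈ (Ideal (𝓞 K))⁰ := by
    intro a
    apply mem_nonZeroDivisors_of_ne_zero
    intro h0
    apply h𝔮0
    have : ((𝔮 : Ideal (𝓞 K)).comap (σ a)).map (σ a) = (𝔮 : Ideal (𝓞 K)) :=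
      Ideal.map_comap_of_surjective _ (σ a).surjective _
    rw [← this, h0]
    simp
  set 𝔮' : ℕ → (Ideal (𝓞 K))⁰ := fun a => ⟨(𝔮 : Ideal (𝓞 K)).comap (σ a), hne a⟩ with h𝔮'
  have hkey : ∀ a ∈ Stickelberger.exponentSet p, ψ (𝔮' a) = ψ 𝔮 ^ a := by
    intro a ha
    set t : Gal(L/ℚ) := (τ a)⁻¹ with ht
    have hP' : (t • P).IsPrime := inferInstance
    have hP'ne : t • P ≠ ⊥ := by
      intro h0
      apply hPne
      have : P = t⁻¹ • (t • P) := by rw [inv_smul_smul]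
      rw [this, h0]
      simp
    have hunder : ((𝔮' a : (Ideal (𝓞 K))⁰) : Ideal (𝓞 K)) = (t • P).under (𝓞 K) := by
      rw [under_smul]
      ext x
      rw [Ideal.mem_pointwise_smul_iff_inv_smul_mem]
      show σ a x ∈ (𝔮 : Ideal (𝓞 K)) ↔ _
      have hu : Ideal.under (𝓞 K) P = (𝔮 : Ideal (𝓞 K)) := hPover
      rw [hu, ht, map_inv, inv_inv]
      rfl
    have h1 : IsArithFrobAt (𝓞 K) (ψ (𝔮' a)) (t • P) := hψ (t • P) hP' hP'ne (𝔮' a) hunder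
    have hroot : ∀ ξ : L, ξ ^ p = 1 → t ξ ^ a = ξ := by
      intro ξ hξ
      rw [← map_pow, ← hτ a (hcop a ha) ξ hξ, ht]
      show (τ a).symm ((τ a) ξ) = ξ
      simp
    have h2 : IsArithFrobAt (𝓞 K) (ψ 𝔮 ^ a) (t • P) :=
      frob_conj t (ψ 𝔮) (ψ 𝔮 ^ a) P hFrobP (fun x => (hact t (ψ 𝔮) a hroot x).symm)
    exact frob_unique hunr (t • P) hP'ne h1 h2
  -- the product
  have hprod : ∀ s : Finset ℕ, (∀ a ∈ s, ψ (𝔮' a) = ψ 𝔮 ^ a) →
      ψ (∏ a ∈ s, 𝔮' a) = ψ 𝔮 ^ (∑ a ∈ s, a) := by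
    intro s
    induction s using Finset.induction_on with
    | empty => intro _; simp
    | insert a s has ih =>
      intro h
      rw [Finset.prod_insert has, Finset.sum_insert has, map_mul, pow_add,
        h a (Finset.mem_insert_self a s),
        ih (fun b hb => h b (Finset.mem_insert_of_mem hb))]
  have hprinc : ((∏ a ∈ Stickelberger.exponentSet p, 𝔮' a : (Ideal (𝓞 K))⁰) :
      Ideal (𝓞 K)).IsPrincipal := by
    rw [Submonoid.coe_finsetProd]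
    exact ⟨J, by rw [← hJ]⟩
  have hdeg1 : ∀ a ∈ Stickelberger.exponentSet p,
      ((𝔮' a : (Ideal (𝓞 K))⁰) : Ideal (𝓞 K)).IsPrime ∧
        Ideal.absNorm ((𝔮' a : (Ideal (𝓞 K))⁰) : Ideal (𝓞 K)) =
          Ideal.absNorm (𝔮 : Ideal (𝓞 K)) := by
    intro a _
    refine ⟨Ideal.comap_isPrime (σ a) _, ?_⟩
    show Ideal.absNorm (Ideal.comap (σ a) (𝔮 : Ideal (𝓞 K))) = _
    rw [Fermat.Agent.S14.helper62.h62_absNorm_comap]
  have h1 : ψ 𝔮 ^ (∑ a ∈ Stickelberger.exponentSet p, a) = 1 := by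
    rw [← hprod _ hkey]
    exact hrec _ 𝔮' _ hgood hdeg1 hN hprinc
  have h2 : ψ 𝔮 ^ p = 1 := by
    have hcard : Nat.card Gal(L/K) = p := by
      rw [IsGalois.card_aut_eq_finrank, hdeg]
    rw [← hcard]
    exact pow_card_eq_one'
  have h3 : orderOf (ψ 𝔮) ∣ Nat.gcd (∑ a ∈ Stickelberger.exponentSet p, a) p :=
    Nat.dvd_gcd (orderOf_dvd_of_pow_eq_one h1) (orderOf_dvd_of_pow_eq_one h2)
  have h4 : Nat.gcd (∑ a ∈ Stickelberger.exponentSet p, a) p = 1 := by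
    rw [Nat.gcd_comm]
    exact (Nat.Prime.coprime_iff_not_dvd hpp).mpr (not_dvd_sum_exponentSet hpp hp)
  rw [h4, Nat.dvd_one] at h3
  exact orderOf_eq_one_iff.mp h3

/-- Under reciprocity on principal products of degree-one primes, every prime of degree one of
`K = ℚ(ζ_p)` has trivial Artin symbol in `L/K`. -/
theorem artin_eq_one_of_degree_one (hp : p ≠ 2) (hdeg : Module.finrank K L = p)
    (hunr : IsUnramifiedEverywhere K L)
    (hact : ∀ (τ : Gal(L/ℚ)) (σ : Gal(L/K)) (n : ℕ),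
      (∀ ζ : L, ζ ^ p = 1 → τ ζ ^ n = ζ) → ∀ x : L, τ (σ (τ.symm x)) = (σ ^ n) x)
    (ψ : (Ideal (𝓞 K))⁰ →* Gal(L/K))
    (hψ : ∀ (P : Ideal (𝓞 L)), P.IsPrime → P ≠ ⊥ → ∀ 𝔮 : (Ideal (𝓞 K))⁰,
      (𝔮 : Ideal (𝓞 K)) = P.under (𝓞 K) → IsArithFrobAt (𝓞 K) (ψ 𝔮) P)
    (hrec : ∀ (s : Finset ℕ) (𝔯 : ℕ → (Ideal (𝓞 K))⁰),
      (∀ a ∈ s, ((𝔯 a : (Ideal (𝓞 K))⁰) : Ideal (𝓞 K)).IsPrime ∧
        (Ideal.absNorm ((𝔯 a : (Ideal (𝓞 K))⁰) : Ideal (𝓞 K))).Prime) →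
      ((∏ a ∈ s, 𝔯 a : (Ideal (𝓞 K))⁰) : Ideal (𝓞 K)).IsPrincipal → ψ (∏ a ∈ s, 𝔯 a) = 1)
    (𝔮 : (Ideal (𝓞 K))⁰) (h𝔮 : (𝔮 : Ideal (𝓞 K)).IsPrime)
    (hN : (Ideal.absNorm (𝔮 : Ideal (𝓞 K))).Prime) : ψ 𝔮 = 1 :=
  artin_eq_one_of_degree_one_of_good hp hdeg hunr hact ψ hψ (fun _ => True)
    (fun s 𝔯 _ _ h hq hprinc => hrec s 𝔯 (fun a ha => ⟨(h a ha).1, (h a ha).2 ▸ hq⟩) hprinc)
    𝔮 h𝔮 hN trivial

/-- Variant of `artin_eq_one_of_degree_one` with full reciprocity as hypothesis. -/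
theorem artin_eq_one_of_degree_one' (hp : p ≠ 2) (hdeg : Module.finrank K L = p)
    (hunr : IsUnramifiedEverywhere K L)
    (hact : ∀ (τ : Gal(L/ℚ)) (σ : Gal(L/K)) (n : ℕ),
      (∀ ζ : L, ζ ^ p = 1 → τ ζ ^ n = ζ) → ∀ x : L, τ (σ (τ.symm x)) = (σ ^ n) x)
    (ψ : (Ideal (𝓞 K))⁰ →* Gal(L/K))
    (hψ : ∀ (P : Ideal (𝓞 L)), P.IsPrime → P ≠ ⊥ → ∀ 𝔮 : (Ideal (𝓞 K))⁰,
      (𝔮 : Ideal (𝓞 K)) = P.under (𝓞 K) → IsArithFrobAt (𝓞 K) (ψ 𝔮) P)
    (hrec : ∀ 𝔞 : (Ideal (𝓞 K))⁰, (𝔞 : Ideal (𝓞 K)).IsPrincipal → ψ 𝔞 = 1)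
    (𝔮 : (Ideal (𝓞 K))⁰) (h𝔮 : (𝔮 : Ideal (𝓞 K)).IsPrime)
    (hN : (Ideal.absNorm (𝔮 : Ideal (𝓞 K))).Prime) : ψ 𝔮 = 1 :=
  artin_eq_one_of_degree_one hp hdeg hunr hact ψ hψ (fun _ _ _ h => hrec _ h) 𝔮 h𝔮 hN

/-- **The endgame of route R1**: reciprocity on principal products of degree-one primes,
together with one degree-one prime with nontrivial Artin symbol, is contradictory. -/
theorem false_of_reciprocity (hp : p ≠ 2) (hdeg : Module.finrank K L = p)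
    (hunr : IsUnramifiedEverywhere K L)
    (hact : ∀ (τ : Gal(L/ℚ)) (σ : Gal(L/K)) (n : ℕ),
      (∀ ζ : L, ζ ^ p = 1 → τ ζ ^ n = ζ) → ∀ x : L, τ (σ (τ.symm x)) = (σ ^ n) x)
    (ψ : (Ideal (𝓞 K))⁰ →* Gal(L/K))
    (hψ : ∀ (P : Ideal (𝓞 L)), P.IsPrime → P ≠ ⊥ → ∀ 𝔮 : (Ideal (𝓞 K))⁰,
      (𝔮 : Ideal (𝓞 K)) = P.under (𝓞 K) → IsArithFrobAt (𝓞 K) (ψ 𝔮) P)
    (hrec : ∀ (s : Finset ℕ) (𝔯 : ℕ → (Ideal (𝓞 K))⁰),
      (∀ a ∈ s, ((𝔯 a : (Ideal (𝓞 K))⁰) : Ideal (𝓞 K)).IsPrime ∧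
        (Ideal.absNorm ((𝔯 a : (Ideal (𝓞 K))⁰) : Ideal (𝓞 K))).Prime) →
      ((∏ a ∈ s, 𝔯 a : (Ideal (𝓞 K))⁰) : Ideal (𝓞 K)).IsPrincipal → ψ (∏ a ∈ s, 𝔯 a) = 1)
    (hZ : ∃ 𝔮 : (Ideal (𝓞 K))⁰, (𝔮 : Ideal (𝓞 K)).IsPrime ∧
      (Ideal.absNorm (𝔮 : Ideal (𝓞 K))).Prime ∧ ψ 𝔮 ≠ 1) : False := by
  obtain ⟨𝔮, h𝔮, hN, hne⟩ := hZ
  exact hne (artin_eq_one_of_degree_one hp hdeg hunr hact ψ hψ hrec 𝔮 h𝔮 hN)

/-- **The endgame of route R1, flexible form**: `good` is any predicate on rational primes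
(e.g. `q ∉ S` for a finite set `S`); reciprocity is only needed for principal products of
degree-one primes lying over ONE good rational prime `q`. -/
theorem false_of_reciprocity_of_good (hp : p ≠ 2) (hdeg : Module.finrank K L = p)
    (hunr : IsUnramifiedEverywhere K L)
    (hact : ∀ (τ : Gal(L/ℚ)) (σ : Gal(L/K)) (n : ℕ),
      (∀ ζ : L, ζ ^ p = 1 → τ ζ ^ n = ζ) → ∀ x : L, τ (σ (τ.symm x)) = (σ ^ n) x)
    (ψ : (Ideal (𝓞 K))⁰ →* Gal(L/K))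
    (hψ : ∀ (P : Ideal (𝓞 L)), P.IsPrime → P ≠ ⊥ → ∀ 𝔮 : (Ideal (𝓞 K))⁰,
      (𝔮 : Ideal (𝓞 K)) = P.under (𝓞 K) → IsArithFrobAt (𝓞 K) (ψ 𝔮) P)
    (good : ℕ → Prop)
    (hrec : ∀ (s : Finset ℕ) (𝔯 : ℕ → (Ideal (𝓞 K))⁰) (q : ℕ), good q →
      (∀ a ∈ s, ((𝔯 a : (Ideal (𝓞 K))⁰) : Ideal (𝓞 K)).IsPrime ∧
        Ideal.absNorm ((𝔯 a : (Ideal (𝓞 K))⁰) : Ideal (𝓞 K)) = q) → q.Prime →
      ((∏ a ∈ s, 𝔯 a : (Ideal (𝓞 K))⁰) : Ideal (𝓞 K)).IsPrincipal → ψ (∏ a ∈ s, 𝔯 a) = 1)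
    (hZ : ∃ 𝔮 : (Ideal (𝓞 K))⁰, (𝔮 : Ideal (𝓞 K)).IsPrime ∧
      (Ideal.absNorm (𝔮 : Ideal (𝓞 K))).Prime ∧ good (Ideal.absNorm (𝔮 : Ideal (𝓞 K))) ∧
      ψ 𝔮 ≠ 1) : False := by
  obtain ⟨𝔮, h𝔮, hN, hg, hne⟩ := hZ
  exact hne (artin_eq_one_of_degree_one_of_good hp hdeg hunr hact ψ hψ good hrec 𝔮 h𝔮 hN hg)

end Main

end Fermat.Agent.S14.helper14
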