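import Mathlib

/-!
# S14-(2c-X1) : auxiliary primes for the Artin crossing

For an odd prime `p`, distinct primes `r ≠ r'` different from `p`, an exponent `k` and a finite
set `T` of natural numbers, there is a prime `ℓ ∉ T`, `ℓ ≡ 1 mod p`, such that `r'` is **not**
a `p`-th power modulo `ℓ` while `r = r' ^ k * c ^ p` modulo `ℓ`.

The proof is Kummer theory over `ℚ(ζ_p)`:
`F = ℚ(ζ_p, u^(1/p))` with `u = r * r' ^ (k (p - 1))`, `N = F(r'^(1/p))`, `N ≠ F`, and a
degree-one prime of `F` which does not split completely in `N` (the zeta-pole lemma (Z3), taken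
as the explicit hypothesis `ZetaPoleHyp`).

Main declarations (namespace `Fermat.Agent.S14.helper58`):
* `ZetaPoleHyp` : the shape of (Z3) used here;
* `exists_aux_prime_of_zetaPole` : the auxiliary prime, from `ZetaPoleHyp`;
* `exists_pow_eq_mul_pow` : Kummer independence;
* `not_pow_mod_of_not_split` : a degree-one prime which does not split completely in
  `K(r'^(1/p))` has `r'` a non-residue.
-/

set_option autoImplicit false

open Polynomial NumberField
open scoped Pointwise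

namespace Fermat.Agent.S14.helper58


/-- If a natural number `w` is a `p`-th power in a number field whose degree is prime to
`p`, then `p` divides all the valuations of `w`. -/
theorem dvd_padicValNat_of_pow_eq {K0 : Type*} [Field K0] [NumberField K0] {p : ℕ}
    (hd : (Module.finrank ℚ K0).Coprime p) {w : ℕ} {b : K0}
    (hb : b ^ p = (w : K0)) (q : ℕ) [hq : Fact q.Prime] :
    p ∣ padicValNat q w := by
  set x : ℚ := Algebra.norm ℚ b with hx
  have h1 : x ^ p = (w : ℚ) ^ Module.finrank ℚ K0 := by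
    rw [hx, ← map_pow, hb]
    have : (w : K0) = algebraMap ℚ K0 (w : ℚ) := by simp
    rw [this, Algebra.norm_algebraMap]
  have h2 := congrArg (padicValRat q) h1
  rw [padicValRat.pow, padicValRat.pow, padicValRat.of_nat] at h2
  have h3 : (p : ℤ) ∣ (Module.finrank ℚ K0 : ℤ) * (padicValNat q w : ℤ) := ⟨_, h2.symm⟩
  have h4 : IsCoprime (p : ℤ) (Module.finrank ℚ K0 : ℤ) :=
    Nat.isCoprime_iff_coprime.mpr hd.symm
  exact Int.natCast_dvd_natCast.mp (h4.dvd_of_dvd_mul_left h3)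

/-- **Kummer independence.**  Let `K0` be a field containing a primitive `p`-th root of unity,
`a ∈ K0` with `X ^ p - a` irreducible and `K` the splitting field of `X ^ p - a`.  If `b ∈ K`
has `b ^ p = c ∈ K0`, then `c * a ^ j` is a `p`-th power in `K0` for some `1 ≤ j ≤ p`. -/
theorem exists_pow_eq_mul_pow {K0 K : Type*} [Field K0] [Field K] [Algebra K0 K] {p : ℕ}
    (hp : p.Prime) {ζ : K0} (hζ : IsPrimitiveRoot ζ p) {a : K0}
    (H : Irreducible (X ^ p - C a)) [IsSplittingField K0 K (X ^ p - C a)] {c : K0} {b : K}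
    (hb : b ^ p = algebraMap K0 K c) :
    ∃ j : ℕ, 0 < j ∧ j ≤ p ∧ ∃ d : K0, d ^ p = c * a ^ j := by
  haveI : NeZero p := ⟨hp.ne_zero⟩
  have hζ' : (primitiveRoots p K0).Nonempty := ⟨ζ, (mem_primitiveRoots hp.pos).mpr hζ⟩
  have hinj : Function.Injective (algebraMap K0 K) := (algebraMap K0 K).injective
  rcases eq_or_ne b 0 with rfl | hb0
  · refine ⟨p, hp.pos, le_rfl, 0, ?_⟩
    rw [zero_pow hp.ne_zero] at hb
    have hc : c = 0 := hinj (by rw [← hb, map_zero])
    rw [hc, zero_pow hp.ne_zero, zero_mul]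
  haveI : IsGalois K0 K := isGalois_of_isSplittingField_X_pow_sub_C hζ' H K
  haveI : FiniteDimensional K0 K := IsSplittingField.finiteDimensional K (X ^ p - C a)
  set α : K := rootOfSplitsXPowSubC hp.pos a K with hαdef
  have hα : α ^ p = algebraMap K0 K a := rootOfSplitsXPowSubC_pow a K
  set e := autEquivZmod H K hζ with hedef
  set σ : Gal(K/K0) := e.symm (Multiplicative.ofAdd (1 : ZMod p)) with hσdef
  have hσα : σ α = algebraMap K0 K ζ * α := by
    have := autEquivZmod_symm_apply_natCast H K hα hζ 1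
    simpa [Algebra.smul_def] using this
  have hζK : IsPrimitiveRoot (algebraMap K0 K ζ) p := hζ.map_of_injective hinj
  -- `σ b = ζ ^ i * b`
  have h1 : (σ b / b) ^ p = 1 := by
    rw [div_pow, ← map_pow, hb, AlgEquiv.commutes, div_self]
    rw [← hb]; exact pow_ne_zero _ hb0
  obtain ⟨i, hi, hiζ⟩ := hζK.eq_pow_of_pow_eq_one h1
  have hσb : σ b = algebraMap K0 K ζ ^ i * b := by
    rw [hiζ, div_mul_cancel₀ _ hb0]
  -- the element `b * α ^ (p - i)` is fixed by `σ`
  have hfix : σ (b * α ^ (p - i)) = b * α ^ (p - i) := by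
    rw [map_mul, map_pow, hσb, hσα, mul_pow]
    have : algebraMap K0 K ζ ^ i * algebraMap K0 K ζ ^ (p - i) = 1 := by
      rw [← pow_add, Nat.add_sub_cancel' hi.le, hζK.pow_eq_one]
    calc algebraMap K0 K ζ ^ i * b * (algebraMap K0 K ζ ^ (p - i) * α ^ (p - i))
        = (algebraMap K0 K ζ ^ i * algebraMap K0 K ζ ^ (p - i)) * (b * α ^ (p - i)) := by ring
      _ = b * α ^ (p - i) := by rw [this, one_mul]
  -- hence by the whole Galois group
  have hgen : ∀ τ : Gal(K/K0), ∃ m : ℕ, τ = σ ^ m := by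
    intro τ
    refine ⟨(Multiplicative.toAdd (e τ)).val, ?_⟩
    apply e.injective
    rw [map_pow, hσdef, MulEquiv.apply_symm_apply, ← ofAdd_nsmul, nsmul_one, ZMod.natCast_val,
      ZMod.cast_id', id_eq, ofAdd_toAdd]
  have hfix' : ∀ τ : Gal(K/K0), τ (b * α ^ (p - i)) = b * α ^ (p - i) := by
    intro τ
    obtain ⟨m, rfl⟩ := hgen τ
    induction m with
    | zero => simp
    | succ m ih => rw [pow_succ, AlgEquiv.mul_apply, hfix, ih]
  obtain ⟨d, hd⟩ := (IsGalois.mem_range_algebraMap_iff_fixed (F := K0) (E := K) _).mpr hfix'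
  refine ⟨p - i, Nat.sub_pos_of_lt hi, Nat.sub_le _ _, d, hinj ?_⟩
  rw [map_pow, hd, mul_pow, hb, ← pow_mul, mul_comm (p - i) p, pow_mul, hα, map_mul, map_pow]


/-! ## The Kummer generators `u = r * r' ^ (k * (p - 1))` and `r'` -/

/-- the auxiliary number `u = r * r' ^ (k * (p - 1))` -/
def auxU (p r r' k : ℕ) : ℕ := r * r' ^ (k * (p - 1))

theorem auxU_ne_zero {p r r' k : ℕ} (hr : r.Prime) (hr' : r'.Prime) : auxU p r r' k ≠ 0 :=
  mul_ne_zero hr.ne_zero (pow_ne_zero _ hr'.ne_zero)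

theorem padicValNat_auxU_left {p r r' k : ℕ} (hr : r.Prime) (hr' : r'.Prime) (hrr' : r ≠ r') :
    padicValNat r (auxU p r r' k) = 1 := by
  haveI := Fact.mk hr
  haveI := Fact.mk hr'
  rw [auxU, padicValNat.mul hr.ne_zero (pow_ne_zero _ hr'.ne_zero), padicValNat_self,
    padicValNat.pow, padicValNat_primes hrr', mul_zero, add_zero]

theorem padicValNat_auxU_right {p r r' k : ℕ} (hr : r.Prime) (hr' : r'.Prime) (hrr' : r ≠ r') :
    padicValNat r' (auxU p r r' k) = k * (p - 1) := by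
  haveI := Fact.mk hr
  haveI := Fact.mk hr'
  rw [auxU, padicValNat.mul hr.ne_zero (pow_ne_zero _ hr'.ne_zero), padicValNat_primes hrr'.symm,
    padicValNat.pow, padicValNat_self, mul_one, zero_add]

/-- `u` is not a `p`-th power in a number field of degree prime to `p`. -/
theorem auxU_not_pow {K0 : Type*} [Field K0] [NumberField K0] {p r r' k : ℕ} (hp : p.Prime)
    (hd : (Module.finrank ℚ K0).Coprime p) (hr : r.Prime) (hr' : r'.Prime) (hrr' : r ≠ r')
    (b : K0) : b ^ p ≠ (auxU p r r' k : K0) := by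
  intro hb
  haveI := Fact.mk hr
  have := dvd_padicValNat_of_pow_eq hd hb r
  rw [padicValNat_auxU_left hr hr' hrr', Nat.dvd_one] at this
  exact hp.one_lt.ne' this

/-- `r'` is not a `p`-th power in the Kummer extension `K0(u^(1/p))`. -/
theorem not_pow_of_splittingField {K0 K : Type*} [Field K0] [NumberField K0] [Field K]
    [Algebra K0 K] {p r r' k : ℕ} (hp : p.Prime)
    (hd : (Module.finrank ℚ K0).Coprime p) {ζ : K0} (hζ : IsPrimitiveRoot ζ p)
    (hr : r.Prime) (hr' : r'.Prime) (hrr' : r ≠ r')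
    [IsSplittingField K0 K (X ^ p - C (auxU p r r' k : K0))]
    (b : K) : b ^ p ≠ (r' : K) := by
  intro hb
  haveI := Fact.mk hr
  haveI := Fact.mk hr'
  have H : Irreducible (X ^ p - C (auxU p r r' k : K0)) :=
    X_pow_sub_C_irreducible_of_prime hp (auxU_not_pow hp hd hr hr' hrr')
  have hb' : b ^ p = algebraMap K0 K (r' : K0) := by rw [hb, map_natCast]
  obtain ⟨j, hj0, hjp, d, hd'⟩ := exists_pow_eq_mul_pow hp hζ H hb'
  have hd'' : d ^ p = ((r' * auxU p r r' k ^ j : ℕ) : K0) := by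
    rw [hd']; push_cast; rfl
  have hu0 := auxU_ne_zero (p := p) (k := k) hr hr'
  have h1 := dvd_padicValNat_of_pow_eq hd hd'' r
  have h2 := dvd_padicValNat_of_pow_eq hd hd'' r'
  rw [padicValNat.mul hr'.ne_zero (pow_ne_zero _ hu0), padicValNat.pow] at h1 h2
  rw [padicValNat_primes hrr', padicValNat_auxU_left hr hr' hrr', zero_add, mul_one] at h1
  rw [padicValNat_self, padicValNat_auxU_right hr hr' hrr'] at h2
  have hj : j = p := le_antisymm hjp (Nat.le_of_dvd hj0 h1)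
  subst hj
  have h3 : j ∣ 1 := by
    have : j ∣ j * (k * (j - 1)) := dvd_mul_right _ _
    exact (Nat.dvd_add_left this).mp h2
  exact hp.one_lt.ne' (Nat.dvd_one.mp h3)



/-- The residue map to `ZMod ℓ` at a prime of norm `ℓ`. -/
theorem exists_residue_map {K : Type*} [Field K] [NumberField K] (v : Ideal (𝓞 K)) {ℓ : ℕ}
    (hℓ : ℓ.Prime) (hv : Ideal.absNorm v = ℓ) :
    ∃ φ : 𝓞 K →+* ZMod ℓ, Function.Surjective φ ∧ ∀ x, φ x = 0 ↔ x ∈ v := by
  have hcard : Nat.card (𝓞 K ⧸ v) = ℓ := by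
    rw [← hv, Ideal.absNorm_apply, Submodule.cardQuot_apply]
  haveI : Finite (𝓞 K ⧸ v) := Nat.finite_of_card_ne_zero (hcard ▸ hℓ.ne_zero)
  letI : Fintype (𝓞 K ⧸ v) := Fintype.ofFinite _
  have hcard' : Fintype.card (𝓞 K ⧸ v) = ℓ := by rw [← Nat.card_eq_fintype_card, hcard]
  let e := ZMod.ringEquivOfPrime (𝓞 K ⧸ v) hℓ hcard'
  refine ⟨(e.symm : (𝓞 K ⧸ v) →+* ZMod ℓ).comp (Ideal.Quotient.mk v), ?_, ?_⟩
  · exact e.symm.surjective.comp Ideal.Quotient.mk_surjective
  · intro x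
    rw [RingHom.comp_apply, RingHom.coe_coe, map_eq_zero_iff _ e.symm.injective,
      Ideal.Quotient.eq_zero_iff_mem]

/-- For a prime `ℓ ≠ p` and a ring hom `φ` to `ZMod ℓ` from a domain containing a primitive `p`-th
root of unity `ζ`, we have `φ ζ ≠ 1`. -/
theorem residue_zeta_ne_one {R : Type*} [CommRing R] [IsDomain R] {p ℓ : ℕ} (hp : p.Prime)
    (hℓ : ℓ.Prime) (hℓp : ℓ ≠ p) {ζ : R} (hζ : IsPrimitiveRoot ζ p) (φ : R →+* ZMod ℓ) :
    φ ζ ≠ 1 := by
  intro h1
  have hsum : ∑ i ∈ Finset.range p, ζ ^ i = 0 := hζ.geom_sum_eq_zero hp.one_lt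
  have := congrArg φ hsum
  rw [map_sum, map_zero] at this
  simp only [map_pow, h1, one_pow, Finset.sum_const, Finset.card_range, nsmul_eq_mul,
    mul_one] at this
  rw [ZMod.natCast_eq_zero_iff] at this
  exact hℓp ((Nat.prime_dvd_prime_iff_eq hℓ hp).mp this)

/-- `ℓ ≡ 1 mod p` as soon as `ZMod ℓ` contains an element of order `p`. -/
theorem mod_eq_one_of_pow_eq_one {p ℓ : ℕ} (hp : p.Prime) (hℓ : ℓ.Prime) {z : ZMod ℓ}
    (hz : z ^ p = 1) (hz1 : z ≠ 1) : ℓ % p = 1 := by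
  haveI := Fact.mk hℓ
  haveI := Fact.mk hp
  have hz0 : z ≠ 0 := by
    rintro rfl
    rw [zero_pow hp.ne_zero] at hz
    exact zero_ne_one hz
  have hord : orderOf z = p := orderOf_eq_prime hz hz1
  have h2 : z ^ (ℓ - 1) = 1 := ZMod.pow_card_sub_one_eq_one hz0
  have h3 : p ∣ ℓ - 1 := hord ▸ orderOf_dvd_of_pow_eq_one h2
  obtain ⟨m, hm⟩ := h3
  have hℓ1 : ℓ = p * m + 1 := by have := hℓ.one_lt; omega
  rw [hℓ1, Nat.mul_add_mod, Nat.mod_eq_of_lt hp.one_lt]


theorem not_pow_mod_of_not_split {K L : Type*} [Field K] [NumberField K] [Field L] [NumberField L]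
    [Algebra K L] {p : ℕ} (hp : p.Prime) {ζ : K} (hζ : IsPrimitiveRoot ζ p) {r' : ℕ}
    (hirr : Irreducible (X ^ p - C (r' : K))) [IsSplittingField K L (X ^ p - C (r' : K))]
    (v : Ideal (𝓞 K)) [v.IsPrime] {ℓ : ℕ} (hℓ : ℓ.Prime) (hℓp : ℓ ≠ p) (hℓr' : ¬ ℓ ∣ r')
    (φ : 𝓞 K →+* ZMod ℓ) (hφ : ∀ x, φ x = 0 ↔ x ∈ v) (hφs : Function.Surjective φ)
    (hns : (v.primesOver (𝓞 L)).ncard ≠ Module.finrank K L) :
    ¬ ∃ c : ZMod ℓ, c ^ p = r' := by
  rintro ⟨c, hc⟩
  haveI : NeZero p := ⟨hp.ne_zero⟩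
  haveI := Fact.mk hℓ
  have hζ' : (primitiveRoots p K).Nonempty := ⟨ζ, (mem_primitiveRoots hp.pos).mpr hζ⟩
  haveI : IsGalois K L := isGalois_of_isSplittingField_X_pow_sub_C hζ' hirr L
  haveI : FiniteDimensional K L := IsSplittingField.finiteDimensional L (X ^ p - C (r' : K))
  have hfin : Module.finrank K L = p := finrank_of_isSplittingField_X_pow_sub_C hζ' hirr L
  have hfund := Ideal.ncard_primesOver_mul_ramificationIdxIn_mul_inertiaDegIn v (𝓞 L) Gal(L/K)
  rw [IsGalois.card_aut_eq_finrank, hfin] at hfund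
  have h1 : (v.primesOver (𝓞 L)).ncard = 1 := by
    have hdvd : (v.primesOver (𝓞 L)).ncard ∣ p := ⟨_, hfund.symm⟩
    rcases (Nat.dvd_prime hp).mp hdvd with h | h
    · exact h
    · exact absurd (h.trans hfin.symm) hns
  obtain ⟨P, hP⟩ := Set.ncard_eq_one.mp h1
  have hPmem : P ∈ v.primesOver (𝓞 L) := hP ▸ Set.mem_singleton P
  haveI hPprime : P.IsPrime := hPmem.1
  haveI hPover : P.LiesOver v := hPmem.2
  -- the Kummer generator and the Galois element
  set θ : L := rootOfSplitsXPowSubC hp.pos (r' : K) L with hθdef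
  have hθ : θ ^ p = algebraMap K L (r' : K) := rootOfSplitsXPowSubC_pow (r' : K) L
  set σ : Gal(L/K) := (autEquivZmod hirr L hζ).symm (Multiplicative.ofAdd (1 : ZMod p)) with hσdef
  have hσθ : σ θ = algebraMap K L ζ * θ := by
    have := autEquivZmod_symm_apply_natCast hirr L hθ hζ 1
    simpa [Algebra.smul_def] using this
  -- integral versions
  have hθint : IsIntegral ℤ θ := by
    refine IsIntegral.of_pow (R := ℤ) hp.pos ?_
    rw [hθ, map_natCast]
    exact isIntegral_natCast (R := ℤ) (B := L) r'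
  let θ' : 𝓞 L := ⟨θ, hθint⟩
  let ζ' : 𝓞 K := ⟨ζ, hζ.isIntegral hp.pos⟩
  have hζ'prim : IsPrimitiveRoot ζ' p :=
    IsPrimitiveRoot.of_map_of_injective (f := algebraMap (𝓞 K) K)
      (by exact hζ) (RingOfIntegers.coe_injective)
  -- σ fixes P
  have hσP : σ • P = P := by
    have hmem : σ • P ∈ v.primesOver (𝓞 L) := ⟨inferInstance, inferInstance⟩
    rw [hP] at hmem
    exact hmem
  -- a lift of `c`
  obtain ⟨ct, hct⟩ := hφs c
  have hc0 : c ≠ 0 := by
    rintro rfl
    rw [zero_pow hp.ne_zero] at hc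
    exact hℓr' ((ZMod.natCast_eq_zero_iff _ _).mp hc.symm)
  have hφζ : φ ζ' ≠ 1 := residue_zeta_ne_one hp hℓ hℓp hζ'prim φ
  -- `θ' ^ p - ct ^ p ∈ P`
  have hmemP : θ' ^ p - algebraMap (𝓞 K) (𝓞 L) ct ^ p ∈ P := by
    have h2 : (r' : 𝓞 K) - ct ^ p ∈ v := by
      rw [← hφ, map_sub, map_natCast, map_pow, hct, hc, sub_self]
    have h3 : algebraMap (𝓞 K) (𝓞 L) ((r' : 𝓞 K) - ct ^ p) ∈ P := by
      exact (Ideal.mem_of_liesOver P v _).mp h2
    have h4 : θ' ^ p = (r' : 𝓞 L) := by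
      apply RingOfIntegers.coe_injective
      rw [map_pow, map_natCast]
      change θ ^ p = _
      rw [hθ, map_natCast]
    rw [h4]
    simpa using h3
  -- factor `θ' ^ p - ct ^ p`
  have hinj : Function.Injective (algebraMap (𝓞 K) (𝓞 L)) :=
    FaithfulSMul.algebraMap_injective (𝓞 K) (𝓞 L)
  have hζL : IsPrimitiveRoot (algebraMap (𝓞 K) (𝓞 L) ζ') p := hζ'prim.map_of_injective hinj
  rw [hζL.pow_sub_pow_eq_prod_sub_mul θ' (algebraMap (𝓞 K) (𝓞 L) ct) hp.pos,
    Ideal.IsPrime.prod_mem_iff] at hmemP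
  obtain ⟨ξ, hξ, hξP⟩ := hmemP
  have hξ1 : ξ ^ p = 1 := (mem_nthRootsFinset hp.pos 1).mp hξ
  obtain ⟨j, hj, rfl⟩ := hζL.eq_pow_of_pow_eq_one hξ1
  -- apply `σ`
  have hσθ' : σ • θ' = algebraMap (𝓞 K) (𝓞 L) ζ' * θ' := by
    apply RingOfIntegers.coe_injective
    change σ θ = algebraMap K L ζ * θ
    exact hσθ
  have h5 : σ • (θ' - algebraMap (𝓞 K) (𝓞 L) ζ' ^ j * algebraMap (𝓞 K) (𝓞 L) ct) ∈ σ • P :=
    Ideal.smul_mem_pointwise_smul_iff.mpr hξP
  rw [hσP, smul_sub, smul_mul', smul_pow', smul_algebraMap, smul_algebraMap, hσθ'] at h5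
  -- combine
  have h6 : (algebraMap (𝓞 K) (𝓞 L) ζ' - 1) * algebraMap (𝓞 K) (𝓞 L) ct ∈ P := by
    have h7 := P.sub_mem h5 (P.mul_mem_left (algebraMap (𝓞 K) (𝓞 L) ζ') hξP)
    have h8 := P.mul_mem_left (algebraMap (𝓞 K) (𝓞 L) ζ' ^ (p - j)) h7
    have h10 : algebraMap (𝓞 K) (𝓞 L) ζ' ^ (p - j) * algebraMap (𝓞 K) (𝓞 L) ζ' ^ j = 1 := by
      rw [← pow_add, Nat.sub_add_cancel hj.le, hζL.pow_eq_one]
    convert h8 using 1
    linear_combination (-(algebraMap (𝓞 K) (𝓞 L) ζ' - 1) * algebraMap (𝓞 K) (𝓞 L) ct) * h10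
  have h9 : (ζ' - 1) * ct ∈ v := by
    rw [Ideal.mem_of_liesOver P v, map_mul, map_sub, map_one]
    exact h6
  rw [← hφ, map_mul, map_sub, map_one, hct, mul_eq_zero, sub_eq_zero] at h9
  rcases h9 with h9 | h9
  · exact hφζ h9
  · exact hc0 h9


/-! ## The zeta-pole hypothesis and the final statement -/

/-- The zeta-pole lemma (Z3): in a nontrivial Galois extension `L/K` of number fields, outside any
finite set there is a degree-one prime of `K` which does not split completely in `L`. -/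
def ZetaPoleHyp : Prop :=
  ∀ (K L : Type) [Field K] [Field L] [NumberField K] [NumberField L] [Algebra K L] [IsGalois K L],
    1 < Module.finrank K L → ∀ T : Finset (IsDedekindDomain.HeightOneSpectrum (𝓞 K)),
      ∃ v : IsDedekindDomain.HeightOneSpectrum (𝓞 K), v ∉ T ∧ (Ideal.absNorm v.asIdeal).Prime ∧
        (v.asIdeal.primesOver (𝓞 L)).ncard ≠ Module.finrank K L

/-- The degree of the `p`-th cyclotomic field is prime to `p`. -/
theorem coprime_finrank_cyclotomicField (p : ℕ) (hp : p.Prime) :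
    (Module.finrank ℚ (CyclotomicField p ℚ)).Coprime p := by
  haveI : NeZero p := ⟨hp.ne_zero⟩
  have h : @Module.finrank ℚ (CyclotomicField p ℚ) _ _
      (@Algebra.toModule ℚ (CyclotomicField p ℚ) _ _ (CyclotomicField.algebra p ℚ)) =
      p.totient := by
    letI : Algebra ℚ (CyclotomicField p ℚ) := CyclotomicField.algebra p ℚ
    exact IsCyclotomicExtension.finrank (n := p) (K := ℚ) (CyclotomicField p ℚ)
      (Polynomial.cyclotomic.irreducible_rat hp.pos)
  have key : (DivisionRing.toRatAlgebra : Algebra ℚ (CyclotomicField p ℚ)) =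
      CyclotomicField.algebra p ℚ := Subsingleton.elim _ _
  have h' : Module.finrank ℚ (CyclotomicField p ℚ) = p.totient := by
    rw [← h, key]
  rw [h', Nat.totient_prime hp]
  have h2 := hp.two_le
  exact (Nat.coprime_of_lt_prime (by omega) (by omega) hp).symm

theorem exists_zeta_cyclotomicField (p : ℕ) (hp : p.Prime) :
    ∃ ζ : CyclotomicField p ℚ, IsPrimitiveRoot ζ p := by
  haveI : NeZero p := ⟨hp.ne_zero⟩
  letI : Algebra ℚ (CyclotomicField p ℚ) := CyclotomicField.algebra p ℚ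
  exact ⟨_, IsCyclotomicExtension.zeta_spec p ℚ (CyclotomicField p ℚ)⟩

/-- The set of height-one primes whose norm lies in a given finite set is finite. -/
theorem finite_setOf_absNorm_mem {K : Type*} [Field K] [NumberField K] (T : Finset ℕ) :
    {v : IsDedekindDomain.HeightOneSpectrum (𝓞 K) | Ideal.absNorm v.asIdeal ∈ T}.Finite := by
  have h1 : {I : Ideal (𝓞 K) | Ideal.absNorm I ∈ T}.Finite := by
    have : {I : Ideal (𝓞 K) | Ideal.absNorm I ∈ T} =
        ⋃ n ∈ T, {I : Ideal (𝓞 K) | Ideal.absNorm I = n} := by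
      ext I; simp
    rw [this]
    exact Set.Finite.biUnion T.finite_toSet fun n _ => Ideal.finite_setOfPred_absNorm_eq n
  exact Set.Finite.preimage (f := fun v : IsDedekindDomain.HeightOneSpectrum (𝓞 K) => v.asIdeal)
    (fun v _ w _ h => IsDedekindDomain.HeightOneSpectrum.ext h) h1

/-- The core of the construction, for abstract fields `K0 ⊆ K ⊆ L`. -/
theorem exists_aux_prime_core (hZ : ZetaPoleHyp) {K0 K L : Type} [Field K0] [NumberField K0]
    [Field K] [NumberField K] [Algebra K0 K] [Field L] [NumberField L] [Algebra K L]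
    (p : ℕ) (hp : p.Prime) (r r' : ℕ) (hr : r.Prime) (hr' : r'.Prime) (hrr' : r ≠ r')
    (k : ℕ) (T : Finset ℕ) {ζ : K0} (hζ : IsPrimitiveRoot ζ p)
    (hd : (Module.finrank ℚ K0).Coprime p)
    [IsSplittingField K0 K (X ^ p - C (auxU p r r' k : K0))]
    [IsSplittingField K L (X ^ p - C (r' : K))] :
    ∃ ℓ : ℕ, ℓ.Prime ∧ ℓ ∉ T ∧ ℓ % p = 1 ∧ (¬ ∃ c : ZMod ℓ, c ^ p = (r' : ZMod ℓ)) ∧
      (∃ c : ZMod ℓ, (r : ZMod ℓ) = (r' : ZMod ℓ) ^ k * c ^ p) := by
  haveI : NeZero p := ⟨hp.ne_zero⟩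
  have hinj0 : Function.Injective (algebraMap K0 K) := (algebraMap K0 K).injective
  have hζK : IsPrimitiveRoot (algebraMap K0 K ζ) p := hζ.map_of_injective hinj0
  set α : K := rootOfSplitsXPowSubC hp.pos (auxU p r r' k : K0) K with hαdef
  have hα : α ^ p = (auxU p r r' k : K) := by
    have := rootOfSplitsXPowSubC_pow (auxU p r r' k : K0) K (n := p)
    rw [map_natCast] at this
    exact this
  -- the second Kummer extension `L = K(r'^(1/p))`
  have hnot : ∀ b : K, b ^ p ≠ (r' : K) :=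
    not_pow_of_splittingField (K0 := K0) (k := k) hp hd hζ hr hr' hrr'
  have H1 : Irreducible (X ^ p - C (r' : K)) := X_pow_sub_C_irreducible_of_prime hp hnot
  have hζ' : (primitiveRoots p K).Nonempty := ⟨_, (mem_primitiveRoots hp.pos).mpr hζK⟩
  haveI : IsGalois K L := isGalois_of_isSplittingField_X_pow_sub_C hζ' H1 L
  have hfin : Module.finrank K L = p := finrank_of_isSplittingField_X_pow_sub_C hζ' H1 L
  -- the exceptional set and the prime
  have hTfin := finite_setOf_absNorm_mem (K := K) (insert p (insert r' T))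
  obtain ⟨v, hvT, hvprime, hvns⟩ := hZ K L (by rw [hfin]; exact hp.one_lt) hTfin.toFinset
  set ℓ : ℕ := Ideal.absNorm v.asIdeal with hℓdef
  have hvT' : ℓ ∉ insert p (insert r' T) := by
    intro h
    exact hvT (hTfin.mem_toFinset.mpr h)
  simp only [Finset.mem_insert, not_or] at hvT'
  obtain ⟨hℓp, hℓr', hℓT⟩ := hvT'
  have hℓr'' : ¬ ℓ ∣ r' := fun h => hℓr' ((Nat.prime_dvd_prime_iff_eq hvprime hr').mp h)
  obtain ⟨φ, hφs, hφ⟩ := exists_residue_map v.asIdeal hvprime hℓdef.symm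
  haveI := Fact.mk hvprime
  -- integral elements
  let ζ' : 𝓞 K := ⟨algebraMap K0 K ζ, hζK.isIntegral hp.pos⟩
  have hζ'prim : IsPrimitiveRoot ζ' p :=
    IsPrimitiveRoot.of_map_of_injective (f := algebraMap (𝓞 K) K)
      (by exact hζK) (RingOfIntegers.coe_injective)
  have hαint : IsIntegral ℤ α := by
    refine IsIntegral.of_pow (R := ℤ) hp.pos ?_
    rw [hα]
    exact isIntegral_natCast (R := ℤ) (B := K) _
  let α' : 𝓞 K := ⟨α, hαint⟩
  have hα' : α' ^ p = (auxU p r r' k : 𝓞 K) := by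
    apply RingOfIntegers.coe_injective
    rw [map_pow, map_natCast]
    exact hα
  refine ⟨ℓ, hvprime, hℓT, ?_, ?_, ?_⟩
  · -- `ℓ ≡ 1 mod p`
    refine mod_eq_one_of_pow_eq_one hp hvprime (z := φ ζ') ?_
      (residue_zeta_ne_one hp hvprime hℓp hζ'prim φ)
    rw [← map_pow, hζ'prim.pow_eq_one, map_one]
  · -- `r'` is not a `p`-th power
    exact not_pow_mod_of_not_split hp hζK H1 v.asIdeal hvprime hℓp hℓr'' φ hφ hφs hvns
  · -- `r = r' ^ k * c ^ p`
    have hu : (φ α') ^ p = (auxU p r r' k : ZMod ℓ) := by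
      rw [← map_pow, hα', map_natCast]
    have hr'0 : (r' : ZMod ℓ) ≠ 0 := by
      rw [Ne, ZMod.natCast_eq_zero_iff]
      exact hℓr''
    refine ⟨φ α' * ((r' : ZMod ℓ) ^ k)⁻¹, ?_⟩
    rw [mul_pow, hu, auxU, Nat.cast_mul, Nat.cast_pow, inv_pow]
    have h1 : ((r' : ZMod ℓ) ^ k) ^ p = (r' : ZMod ℓ) ^ k * (r' : ZMod ℓ) ^ (k * (p - 1)) := by
      rw [← pow_mul, ← pow_add]
      congr 1
      have := hp.one_le
      calc k * p = k * (1 + (p - 1)) := by rw [Nat.add_sub_cancel' this]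
        _ = k + k * (p - 1) := by ring
    have h2 : (r' : ZMod ℓ) ^ k ≠ 0 := pow_ne_zero _ hr'0
    have h3 : (r' : ZMod ℓ) ^ (k * (p - 1)) ≠ 0 := pow_ne_zero _ hr'0
    rw [h1]
    field_simp

/-- **S14-(2c-X1), auxiliary prime**, from the zeta-pole lemma. -/
theorem exists_aux_prime_of_zetaPole (hZ : ZetaPoleHyp) (p : ℕ) (hp : p.Prime) (hp2 : p ≠ 2)
    (r r' : ℕ) (hr : r.Prime) (hr' : r'.Prime) (hrr' : r ≠ r') (hrp : r ≠ p) (hr'p : r' ≠ p)
    (k : ℕ) (T : Finset ℕ) :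
    ∃ ℓ : ℕ, ℓ.Prime ∧ ℓ ∉ T ∧ ℓ % p = 1 ∧ (¬ ∃ c : ZMod ℓ, c ^ p = (r' : ZMod ℓ)) ∧
      (∃ c : ZMod ℓ, (r : ZMod ℓ) = (r' : ZMod ℓ) ^ k * c ^ p) := by
  obtain ⟨ζ, hζ⟩ := exists_zeta_cyclotomicField p hp
  have hd := coprime_finrank_cyclotomicField p hp
  haveI : NumberField (X ^ p - C (auxU p r r' k : CyclotomicField p ℚ)).SplittingField :=
    NumberField.of_module_finite (CyclotomicField p ℚ) _
  haveI : NumberField (X ^ p - C (r' :
      (X ^ p - C (auxU p r r' k : CyclotomicField p ℚ)).SplittingField)).SplittingField :=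
    NumberField.of_module_finite
      (X ^ p - C (auxU p r r' k : CyclotomicField p ℚ)).SplittingField _
  exact exists_aux_prime_core hZ (K0 := CyclotomicField p ℚ)
    (K := (X ^ p - C (auxU p r r' k : CyclotomicField p ℚ)).SplittingField)
    (L := (X ^ p - C (r' :
      (X ^ p - C (auxU p r r' k : CyclotomicField p ℚ)).SplittingField)).SplittingField)
    p hp r r' hr hr' hrr' k T hζ hd

end Fermat.Agent.S14.helper58
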