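import Mathlib
import Fermat.Agent.S14.helper89_SecondIneq
import Fermat.Agent.S14.helper34_AN0Final
import Fermat.Agent.S14.helper52_PrimeDensity
import Fermat.Agent.S14.helper69_ZetaPole
import Fermat.Agent.S14.helper97_KummerSplit
import Fermat.Agent.S14.helper99_CKDefs
import Fermat.Agent.S14.helper58_AuxPrime

/-!
# S14, route R2: Theorem G (helper14)

`theoremG` : the classes of the degree-one primes at which `u` is a `p`-th power non-residue
generate the class group (`helper99.TheoremGStatement`).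

Proof by comparing prime sums (no `L`-functions beyond the landed `helper89.subgroup_sum_le`):
all primes `= log (1/(s-1)) + O(1)`, split primes of `M = K(u^(1/p))` contribute
`(1/p) log (1/(s-1)) + O(1)`, primes with class in `H` at most `(1/h) log (1/(s-1)) + O(1)`.
-/

set_option autoImplicit false

open NumberField IsDedekindDomain Polynomial
open scoped nonZeroDivisors

namespace Fermat.Agent.S14.helper14

/-- `log (1/(s-1))` is unbounded on `(1, 2]`. -/
lemma false_of_log_bound {c C : ℝ} (hc : 0 < c)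
    (h : ∀ s : ℝ, 1 < s → s ≤ 2 → c * Real.log (1 / (s - 1)) ≤ C) : False := by
  set t : ℝ := max (C / c) 0 + 1 with ht
  have ht0 : 0 < t := by positivity
  have hs1 : 1 < 1 + Real.exp (-t) := by linarith [Real.exp_pos (-t)]
  have hs2 : 1 + Real.exp (-t) ≤ 2 := by
    have : Real.exp (-t) ≤ 1 := Real.exp_le_one_iff.mpr (by linarith)
    linarith
  have h1 := h _ hs1 hs2
  have h2 : Real.log (1 / (1 + Real.exp (-t) - 1)) = t := by
    rw [add_sub_cancel_left, one_div, ← Real.exp_neg, neg_neg, Real.log_exp]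
  rw [h2] at h1
  have h3 : C / c < t := by
    have := le_max_left (C / c) 0
    linarith
  rw [div_lt_iff₀ hc] at h3
  linarith

section density

variable {K : Type*} [Field K] [NumberField K]

/-- **Density comparison.** If all but finitely many degree-one primes of `K` either split
completely in the Galois extension `M/K` of degree `≥ 3` or have their class in `H`, then
`H` is the whole class group. -/
theorem eq_top_of_split_or_mem (M : Type*) [Field M] [NumberField M] [Algebra K M]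
    [IsGalois K M] (H : Subgroup (ClassGroup (𝓞 K))) (hM : 3 ≤ Module.finrank K M)
    (T : Finset (HeightOneSpectrum (𝓞 K)))
    (hcover : ∀ 𝔭 : HeightOneSpectrum (𝓞 K), (Ideal.absNorm 𝔭.asIdeal).Prime → 𝔭 ∉ T →
      𝔭 ∈ helper34.splitSet K M ∨ helper34.primeClass K 𝔭 ∈ H) : H = ⊤ := by
  classical
  rw [← Subgroup.index_eq_one]
  by_contra hne
  have hh0 : H.index ≠ 0 := Subgroup.index_ne_zero_of_finite
  have hh2 : 2 ≤ H.index := by omega
  obtain ⟨B₁, hB₁0, hB₁⟩ := helper89.exists_bound_finset_sum H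
    (helper34.partialZeta_sub_bounded K) (helper34.partialZeta_le K)
    (helper34.summable_partialZeta K)
  obtain ⟨B₂, hB₂⟩ := helper52.primeIdeal_sum_sub_log_bounded K
  obtain ⟨B₃, hB₃⟩ := helper52.split_sum_sub_log_bounded K M
  set n := Module.finrank K M with hn
  set h := H.index with hh
  have hn3 : (3 : ℝ) ≤ n := by exact_mod_cast hM
  have hh2' : (2 : ℝ) ≤ h := by exact_mod_cast hh2
  set D : ℝ := Module.finrank ℚ K * helper69.zetaTwo with hD
  refine false_of_log_bound (c := 1 / 6) (C := |B₂| + |B₃| + B₁ + T.card + D) (by norm_num) ?_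
  intro s hs1 hs2
  set L := Real.log (1 / (s - 1)) with hL
  have hL0 : 0 ≤ L := by
    apply Real.log_nonneg
    rw [le_div_iff₀ (by linarith)]
    linarith
  set f : HeightOneSpectrum (𝓞 K) → ℝ := fun 𝔭 => (Ideal.absNorm 𝔭.asIdeal : ℝ) ^ (-s) with hf
  have hf0 : ∀ 𝔭, 0 ≤ f 𝔭 := fun 𝔭 => Real.rpow_nonneg (Nat.cast_nonneg _) _
  have hf1 : ∀ 𝔭, f 𝔭 ≤ 1 := by
    intro 𝔭
    have h1 : (1 : ℝ) ≤ (Ideal.absNorm 𝔭.asIdeal : ℝ) := by
      have := helper52.two_le_absNorm K 𝔭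
      exact_mod_cast (by omega : 1 ≤ Ideal.absNorm 𝔭.asIdeal)
    exact Real.rpow_le_one_of_one_le_of_nonpos h1 (by linarith)
  have hsum : Summable f := helper52.summable_primeIdeal K s hs1
  -- the split part
  have hsplit : (n : ℝ) * ∑' 𝔭 : helper34.splitSet K M, f 𝔭.1 ≤ L + |B₃| := by
    have h1 : (n : ℝ) * ∑' 𝔭 : helper34.splitSet K M, f 𝔭.1 - L ≤ B₃ :=
      (abs_le.mp (hB₃ s hs1 hs2)).2
    have h3 := le_abs_self B₃
    linarith
  have hsplitF : ∀ F : Finset (HeightOneSpectrum (𝓞 K)),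
      ∑ 𝔭 ∈ F.filter (· ∈ helper34.splitSet K M), f 𝔭 ≤ (L + |B₃|) / 3 := by
    intro F
    have h1 : ∑ 𝔭 ∈ F.filter (· ∈ helper34.splitSet K M), f 𝔭 ≤
        ∑' 𝔭 : helper34.splitSet K M, f 𝔭.1 := by
      rw [tsum_subtype (helper34.splitSet K M) f, Finset.sum_filter]
      have hind : Summable ((helper34.splitSet K M).indicator f) := hsum.indicator _
      refine le_trans (le_of_eq ?_) (hind.sum_le_tsum F (fun 𝔭 _ =>
        Set.indicator_nonneg (fun x _ => hf0 x) 𝔭))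
      refine Finset.sum_congr rfl (fun 𝔭 _ => ?_)
      by_cases h𝔭 : 𝔭 ∈ helper34.splitSet K M
      · simp [h𝔭]
      · simp [h𝔭]
    have h2 : 0 ≤ ∑' 𝔭 : helper34.splitSet K M, f 𝔭.1 := tsum_nonneg (fun 𝔭 => hf0 𝔭.1)
    have h3 : (3 : ℝ) * ∑' 𝔭 : helper34.splitSet K M, f 𝔭.1 ≤ L + |B₃| :=
      le_trans (mul_le_mul_of_nonneg_right hn3 h2) hsplit
    linarith
  -- the part with class in `H`
  have hHF : ∀ F : Finset (HeightOneSpectrum (𝓞 K)),
      ∑ 𝔭 ∈ F.filter (fun 𝔭 => helper34.primeClass K 𝔭 ∈ H), f 𝔭 ≤ (L + B₁) / 2 := by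
    intro F
    have h1 := hB₁ s hs1 hs2 (F.filter (fun 𝔭 => helper34.primeClass K 𝔭 ∈ H))
      (fun 𝔭 h𝔭 => (Finset.mem_filter.mp h𝔭).2)
    have h2 : 0 ≤ ∑ 𝔭 ∈ F.filter (fun 𝔭 => helper34.primeClass K 𝔭 ∈ H), f 𝔭 :=
      Finset.sum_nonneg (fun 𝔭 _ => hf0 𝔭)
    have h3 : (2 : ℝ) * ∑ 𝔭 ∈ F.filter (fun 𝔭 => helper34.primeClass K 𝔭 ∈ H), f 𝔭 ≤ L + B₁ :=
      le_trans (mul_le_mul_of_nonneg_right hh2' h2) h1
    linarith
  -- the finite exceptional part
  have hTF : ∀ F : Finset (HeightOneSpectrum (𝓞 K)),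
      ∑ 𝔭 ∈ F.filter (· ∈ T), f 𝔭 ≤ T.card := by
    intro F
    calc ∑ 𝔭 ∈ F.filter (· ∈ T), f 𝔭 ≤ ∑ 𝔭 ∈ T, f 𝔭 :=
          Finset.sum_le_sum_of_subset_of_nonneg
            (fun 𝔭 h𝔭 => (Finset.mem_filter.mp h𝔭).2) (fun 𝔭 _ _ => hf0 𝔭)
      _ ≤ ∑ _𝔭 ∈ T, (1 : ℝ) := Finset.sum_le_sum (fun 𝔭 _ => hf1 𝔭)
      _ = T.card := by simp
  -- the part of degree `≥ 2`
  have hDF : ∀ F : Finset (HeightOneSpectrum (𝓞 K)),
      ∑ 𝔭 ∈ F.filter (fun 𝔭 => ¬ (Ideal.absNorm 𝔭.asIdeal).Prime), f 𝔭 ≤ D :=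
    fun F => helper69.sum_nonDegOne_le K hs1.le _ (fun 𝔭 h𝔭 => (Finset.mem_filter.mp h𝔭).2)
  -- all primes
  have hall : ∑' 𝔭, f 𝔭 ≤ (L + |B₃|) / 3 + (L + B₁) / 2 + T.card + D := by
    apply Real.tsum_le_of_sum_le hf0
    intro F
    have hpt : ∀ 𝔭 ∈ F, f 𝔭 ≤
        (if 𝔭 ∈ helper34.splitSet K M then f 𝔭 else 0) +
        (if helper34.primeClass K 𝔭 ∈ H then f 𝔭 else 0) +
        (if 𝔭 ∈ T then f 𝔭 else 0) +
        (if ¬ (Ideal.absNorm 𝔭.asIdeal).Prime then f 𝔭 else 0) := by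
      intro 𝔭 _
      have h0 := hf0 𝔭
      by_cases hdeg : (Ideal.absNorm 𝔭.asIdeal).Prime
      · by_cases hT : 𝔭 ∈ T
        · simp only [hT, if_true]
          split_ifs <;> linarith
        · rcases hcover 𝔭 hdeg hT with h1 | h1
          · simp only [h1, if_true]
            split_ifs <;> linarith
          · simp only [h1, if_true]
            split_ifs <;> linarith
      · simp only [hdeg, not_false_eq_true, if_true]
        split_ifs <;> linarith
    calc ∑ 𝔭 ∈ F, f 𝔭 ≤ ∑ 𝔭 ∈ F, ((if 𝔭 ∈ helper34.splitSet K M then f 𝔭 else 0) +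
        (if helper34.primeClass K 𝔭 ∈ H then f 𝔭 else 0) +
        (if 𝔭 ∈ T then f 𝔭 else 0) +
        (if ¬ (Ideal.absNorm 𝔭.asIdeal).Prime then f 𝔭 else 0)) := Finset.sum_le_sum hpt
      _ = ∑ 𝔭 ∈ F.filter (· ∈ helper34.splitSet K M), f 𝔭 +
          ∑ 𝔭 ∈ F.filter (fun 𝔭 => helper34.primeClass K 𝔭 ∈ H), f 𝔭 +
          ∑ 𝔭 ∈ F.filter (· ∈ T), f 𝔭 +
          ∑ 𝔭 ∈ F.filter (fun 𝔭 => ¬ (Ideal.absNorm 𝔭.asIdeal).Prime), f 𝔭 := by
        simp only [Finset.sum_add_distrib, Finset.sum_filter]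
      _ ≤ _ := by
        have a1 := hsplitF F
        have a2 := hHF F
        have a3 := hTF F
        have a4 := hDF F
        linarith
  have hlow : L - |B₂| ≤ ∑' 𝔭, f 𝔭 := by
    have h1 : -B₂ ≤ ∑' 𝔭, f 𝔭 - L := (abs_le.mp (hB₂ s hs1 hs2)).1
    have h3 := le_abs_self B₂
    linarith
  have hB3 := abs_nonneg B₃
  linarith

end density

section kummer

variable {K : Type*} [Field K] [NumberField K]

/-- Theorem G for a given Kummer extension `M = K(θ)`, `θ ^ p = u`. -/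
theorem theoremG_of_kummer (M : Type*) [Field M] [NumberField M] [Algebra K M] [IsGalois K M]
    (p : ℕ) [hp : Fact p.Prime] (hp2 : p ≠ 2) {ζ : K} (hζ : IsPrimitiveRoot ζ p) (u : 𝓞 K)
    (hu : ¬ ∃ v : K, v ^ p = (u : K)) (θ : 𝓞 M) (hθ : θ ^ p = algebraMap (𝓞 K) (𝓞 M) u)
    (hM : Module.finrank K M = p)
    (H : Subgroup (ClassGroup (𝓞 K)))
    (hH : ∀ (ℓ : ℕ) [Fact ℓ.Prime] (ψ : 𝓞 K →+* ZMod ℓ), ℓ ≠ p →
      (¬ ∃ c : ZMod ℓ, c ^ p = ψ u) → helper99.kerClass ψ ∈ H) : H = ⊤ := by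
  classical
  have hp3 : 3 ≤ p := by have := hp.out.two_le; omega
  have hu0 : u ≠ 0 := by
    rintro rfl
    exact hu ⟨0, by simp [hp.out.ne_zero]⟩
  have hx0 : ((p : 𝓞 K) * u) ≠ 0 := mul_ne_zero (by exact_mod_cast hp.out.ne_zero) hu0
  have hI0 : Ideal.span {(p : 𝓞 K) * u} ≠ 0 := by
    rw [Ne, Ideal.zero_eq_bot, Ideal.span_singleton_eq_bot]
    exact hx0
  have hfin := Ideal.finite_factors hI0
  refine eq_top_of_split_or_mem M H (hM ▸ hp3) hfin.toFinset ?_
  intro 𝔭 hdeg hT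
  rw [Set.Finite.mem_toFinset, Set.mem_ofPred_eq, Ideal.dvd_span_singleton] at hT
  have : Fact (Ideal.absNorm 𝔭.asIdeal).Prime := ⟨hdeg⟩
  obtain ⟨ψ, hψs, hψ⟩ := helper58.exists_residue_map 𝔭.asIdeal hdeg rfl
  have hker : RingHom.ker ψ = 𝔭.asIdeal := by
    ext x
    rw [RingHom.mem_ker, hψ]
  have hpu : (p : 𝓞 K) ∉ 𝔭.asIdeal ∧ u ∉ 𝔭.asIdeal :=
    ⟨fun h => hT (Ideal.mul_mem_right _ _ h), fun h => hT (Ideal.mul_mem_left _ _ h)⟩
  have hℓp : Ideal.absNorm 𝔭.asIdeal ≠ p := by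
    intro h
    apply hpu.1
    rw [← hψ, ← h, map_natCast, ZMod.natCast_self]
  by_cases hc : ∃ c : ZMod (Ideal.absNorm 𝔭.asIdeal), c ^ p = ψ u
  · left
    obtain ⟨c, hc⟩ := hc
    have hc0 : c ≠ 0 := by
      rintro rfl
      rw [zero_pow hp.out.ne_zero] at hc
      exact hpu.2 ((hψ u).mp hc.symm)
    obtain ⟨P, hPinj, hP⟩ := helper97.exists_primes_over p hζ u hu θ hθ hM hℓp ψ c hc hc0
    show (Ideal.primesOver 𝔭.asIdeal (𝓞 M)).ncard = Module.finrank K M
    apply le_antisymm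
    · rw [helper69.finrank_eq_finrank_ringOfIntegers K M]
      exact helper69.ncard_primesOver_le_finrank 𝔭.asIdeal
    · rw [hM]
      have hsub : Set.range P ⊆ Ideal.primesOver 𝔭.asIdeal (𝓞 M) := by
        rintro _ ⟨i, rfl⟩
        obtain ⟨hmax, -, hcomap⟩ := hP i
        exact ⟨hmax.isPrime, ⟨by rw [Ideal.under, hcomap, hker]⟩⟩
      have hfinite : (Ideal.primesOver 𝔭.asIdeal (𝓞 M)).Finite :=
        Algebra.QuasiFinite.finite_primesOver 𝔭.asIdeal
      calc p = (Set.range P).ncard := by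
            rw [Set.ncard_range_of_injective hPinj, Nat.card_fin]
        _ ≤ _ := Set.ncard_le_ncard hsub hfinite
  · right
    have h1 := hH (Ideal.absNorm 𝔭.asIdeal) ψ hℓp hc
    have heq : helper34.primeClass K 𝔭 = helper99.kerClass ψ := by
      unfold helper34.primeClass helper99.kerClass
      congr 1
      exact Subtype.ext hker.symm
    rw [heq]
    exact h1

/-- Theorem G, given a splitting field `M` of `X ^ p - u` which is a number field. -/
theorem theoremG_of_isSplittingField (p : ℕ) [hp : Fact p.Prime] (hp2 : p ≠ 2)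
    {ζ : K} (hζ : IsPrimitiveRoot ζ p) (u : 𝓞 K) (hu : ¬ ∃ v : K, v ^ p = (u : K))
    (M : Type*) [Field M] [NumberField M] [Algebra K M]
    [IsSplittingField K M (X ^ p - C (u : K))]
    (H : Subgroup (ClassGroup (𝓞 K)))
    (hH : ∀ (ℓ : ℕ) [Fact ℓ.Prime] (ψ : 𝓞 K →+* ZMod ℓ), ℓ ≠ p →
      (¬ ∃ c : ZMod ℓ, c ^ p = ψ u) → helper99.kerClass ψ ∈ H) : H = ⊤ := by
  classical
  have : NeZero p := ⟨hp.out.ne_zero⟩
  have hirr : Irreducible (X ^ p - C (u : K)) :=
    X_pow_sub_C_irreducible_of_prime hp.out (fun b hb => hu ⟨b, hb⟩)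
  have hζ' : (primitiveRoots p K).Nonempty := ⟨ζ, (mem_primitiveRoots hp.out.pos).mpr hζ⟩
  have : IsGalois K M := isGalois_of_isSplittingField_X_pow_sub_C hζ' hirr M
  have hM : Module.finrank K M = p := finrank_of_isSplittingField_X_pow_sub_C hζ' hirr M
  -- a root of `X ^ p - u` in `M`
  have hsplits := IsSplittingField.splits M (X ^ p - C (u : K))
  have hdeg : ((X ^ p - C (u : K)).map (algebraMap K M)).degree ≠ 0 := by
    rw [degree_map, degree_X_pow_sub_C hp.out.pos]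
    exact_mod_cast hp.out.ne_zero
  obtain ⟨t, ht⟩ := hsplits.exists_eval_eq_zero hdeg
  have ht' : t ^ p = algebraMap K M (u : K) := by
    simpa [sub_eq_zero] using ht
  have hint : IsIntegral ℤ t := by
    have h1 : IsIntegral ℤ (algebraMap K M (u : K)) :=
      (RingOfIntegers.isIntegral_coe u).map (IsScalarTower.toAlgHom ℤ K M)
    rw [← ht'] at h1
    exact IsIntegral.of_pow hp.out.pos h1
  obtain ⟨θ, hθt⟩ := (IsIntegralClosure.isIntegral_iff (R := ℤ) (A := 𝓞 M) (B := M)).mp hint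
  have hθ : θ ^ p = algebraMap (𝓞 K) (𝓞 M) u := by
    apply RingOfIntegers.coe_injective
    have h1 : algebraMap (𝓞 M) M (algebraMap (𝓞 K) (𝓞 M) u) = algebraMap K M (u : K) := by
      rw [← IsScalarTower.algebraMap_apply, IsScalarTower.algebraMap_apply (𝓞 K) K M]
    rw [h1, map_pow, hθt]
    exact ht'
  exact theoremG_of_kummer M p hp2 hζ u hu θ hθ hM H hH

/-- **Theorem G** (statement of task 166, `K : Type*`). -/
theorem h14_classGroup_eq_top_of_nonresidue_primes (p : ℕ) [hp : Fact p.Prime] (hp2 : p ≠ 2)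
    {ζ : K} (hζ : IsPrimitiveRoot ζ p) (u : 𝓞 K) (hu : ¬ ∃ v : K, v ^ p = (u : K))
    (H : Subgroup (ClassGroup (𝓞 K)))
    (hH : ∀ (ℓ : ℕ) [Fact ℓ.Prime] (ψ : 𝓞 K →+* ZMod ℓ), ℓ ≠ p →
      (¬ ∃ c : ZMod ℓ, c ^ p = ψ u) → helper99.kerClass ψ ∈ H) : H = ⊤ := by
  have : NumberField (X ^ p - C (u : K)).SplittingField :=
    NumberField.of_module_finite K _
  exact theoremG_of_isSplittingField p hp2 hζ u hu (X ^ p - C (u : K)).SplittingField H hH

/-- **Theorem G** in the shape consumed by R2-A. -/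
theorem theoremGStatement (p : ℕ) [Fact p.Prime] (K : Type) [Field K] [NumberField K] :
    helper99.TheoremGStatement p K :=
  fun hp2 _ hζ u hu H hH => h14_classGroup_eq_top_of_nonresidue_primes p hp2 hζ u hu H hH

end kummer

end Fermat.Agent.S14.helper14
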