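import Mathlib

/-!
# S14 (2a-H90), helper15: integral cyclic Hilbert 90, universe polymorphic

`hilbert90_int`: for a cyclic Galois extension `L/K` of number fields with generator `σ` of order
`n` and nonzero `a b : 𝓞 L` with `∏_{i<n} σ^i a = ∏_{i<n} σ^i b` there is a nonzero `δ : 𝓞 L`
with `b * σ δ = a * δ`.
-/

set_option autoImplicit false
set_option linter.unusedSectionVars false

namespace Fermat.Agent.S14.helper15

open NumberField

section FieldH90

variable {K L : Type*} [Field K] [Field L] [Algebra K L] [FiniteDimensional K L]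

/-- partial norms `∏_{j<i} σ^j z`. -/
noncomputable def partialNorm (σ : Gal(L/K)) (z : Lˣ) (i : ℕ) : Lˣ :=
  ∏ j ∈ Finset.range i, (σ ^ j) • z

theorem partialNorm_zero (σ : Gal(L/K)) (z : Lˣ) : partialNorm σ z 0 = 1 := by
  simp [partialNorm]

theorem partialNorm_one (σ : Gal(L/K)) (z : Lˣ) : partialNorm σ z 1 = z := by
  rw [partialNorm, Finset.prod_range_one, pow_zero, one_smul]

theorem partialNorm_add (σ : Gal(L/K)) (z : Lˣ) (i j : ℕ) :
    partialNorm σ z (i + j) = partialNorm σ z i * (σ ^ i) • partialNorm σ z j := by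
  unfold partialNorm
  rw [Finset.prod_range_add, Finset.smul_prod']
  congr 1
  refine Finset.prod_congr rfl fun k _ => ?_
  rw [smul_smul, ← pow_add]

theorem partialNorm_add_mul (σ : Gal(L/K)) (z : Lˣ) {n : ℕ}
    (hz : partialNorm σ z n = 1) (i t : ℕ) :
    partialNorm σ z (i + n * t) = partialNorm σ z i := by
  induction t with
  | zero => simp
  | succ t ih =>
    rw [mul_add, mul_one, ← add_assoc, partialNorm_add, ih, hz, smul_one, mul_one]

theorem partialNorm_congr (σ : Gal(L/K)) (z : Lˣ) {n : ℕ}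
    (hz : partialNorm σ z n = 1) {i j : ℕ} (hij : i ≡ j [MOD n]) :
    partialNorm σ z i = partialNorm σ z j := by
  wlog h : i ≤ j generalizing i j
  · exact (this hij.symm (le_of_not_ge h)).symm
  obtain ⟨t, ht⟩ := (Nat.modEq_iff_dvd' h).mp hij
  have hj : j = i + n * t := by omega
  rw [hj, partialNorm_add_mul σ z hz]

/-- **Hilbert 90** for a cyclic extension, in product form and universe polymorphic. -/
theorem hilbert90_field {σ : Gal(L/K)} {n : ℕ} (hord : orderOf σ = n)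
    (hgen : ∀ τ : Gal(L/K), τ ∈ Subgroup.zpowers σ) (z : Lˣ)
    (hz : ∏ i ∈ Finset.range n, (σ ^ i) • z = 1) : ∃ β : Lˣ, σ • β = z * β := by
  have hfin : IsOfFinOrder σ := isOfFinOrder_of_finite σ
  have hex : ∀ τ : Gal(L/K), ∃ i : ℕ, σ ^ i = τ := by
    intro τ
    have := hgen τ
    rw [← hfin.mem_powers_iff_mem_zpowers] at this
    exact (Submonoid.mem_powers_iff _ _).mp this
  choose k hk using hex
  have hz' : partialNorm σ z n = 1 := hz
  let f : Gal(L/K) → Lˣ := fun τ => partialNorm σ z (k τ)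
  have hf : groupCohomology.IsMulCocycle₁ f := by
    intro g h
    change partialNorm σ z (k (g * h)) = g • partialNorm σ z (k h) * partialNorm σ z (k g)
    have h1 : k (g * h) ≡ k g + k h [MOD n] := by
      rw [← hord, ← pow_eq_pow_iff_modEq, hk, pow_add, hk, hk]
    rw [partialNorm_congr σ z hz' h1, partialNorm_add, hk, mul_comm]
  obtain ⟨β, hβ⟩ := groupCohomology.isMulCoboundary₁_of_isMulCocycle₁_of_aut_to_units f hf
  refine ⟨β, ?_⟩
  have h1 := hβ σ
  have h2 : f σ = z := by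
    change partialNorm σ z (k σ) = z
    have h3 : k σ ≡ 1 [MOD n] := by
      rw [← hord, ← pow_eq_pow_iff_modEq, hk, pow_one]
    rw [partialNorm_congr σ z hz' h3, partialNorm_one]
  rw [h2, div_eq_iff_eq_mul] at h1
  exact h1

end FieldH90

section IntH90

variable {K L : Type*} [Field K] [NumberField K] [Field L] [NumberField L] [Algebra K L]
  [IsGalois K L]

/-- **Integral cyclic Hilbert 90** (the order of `σ` is `n`). -/
theorem hilbert90_int_of_orderOf {σ : Gal(L/K)} {n : ℕ} (hord : orderOf σ = n)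
    (hgen : ∀ τ : Gal(L/K), τ ∈ Subgroup.zpowers σ)
    (a b : 𝓞 L) (ha : a ≠ 0) (hb : b ≠ 0)
    (h : ∏ i ∈ Finset.range n, (σ ^ i) • a = ∏ i ∈ Finset.range n, (σ ^ i) • b) :
    ∃ δ : 𝓞 L, δ ≠ 0 ∧ b * σ • δ = a * δ := by
  have haL : (a : L) ≠ 0 := by
    intro h0; exact ha (RingOfIntegers.coe_injective (by simpa using h0))
  have hbL : (b : L) ≠ 0 := by
    intro h0; exact hb (RingOfIntegers.coe_injective (by simpa using h0))
  set ua : Lˣ := Units.mk0 (a : L) haL with hua
  set ub : Lˣ := Units.mk0 (b : L) hbL with hub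
  have hprod : ∀ (c : 𝓞 L) (hc : (c : L) ≠ 0),
      ((∏ i ∈ Finset.range n, (σ ^ i) • Units.mk0 (c : L) hc : Lˣ) : L)
        = ((∏ i ∈ Finset.range n, (σ ^ i) • c : 𝓞 L) : L) := by
    intro c hc
    rw [Units.coe_prod]
    change _ = algebraMap (𝓞 L) L (∏ i ∈ Finset.range n, (σ ^ i) • c)
    rw [map_prod]
    rfl
  have hz : ∏ i ∈ Finset.range n, (σ ^ i) • (ua / ub) = 1 := by
    simp only [smul_div']
    rw [Finset.prod_div_distrib, div_eq_one]
    apply Units.ext
    rw [hprod a haL, hprod b hbL, h]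
  obtain ⟨β, hβ⟩ := hilbert90_field hord hgen (ua / ub) hz
  have halg : IsAlgebraic ℤ (β : L) :=
    (IsFractionRing.isAlgebraic_iff ℤ ℚ L).mpr (Algebra.IsAlgebraic.isAlgebraic (β : L))
  obtain ⟨y, hy0, hyint⟩ := halg.exists_integral_multiple
  refine ⟨⟨y • (β : L), hyint⟩, ?_, ?_⟩
  · intro h0
    have h1 : y • (β : L) = 0 := congrArg (fun c : 𝓞 L => (c : L)) h0
    rw [smul_eq_zero] at h1
    rcases h1 with h1 | h1
    · exact hy0 h1
    · exact β.ne_zero h1
  · apply RingOfIntegers.coe_injective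
    have h2 : σ (β : L) = (a : L) / (b : L) * (β : L) := by
      have := congrArg (fun u : Lˣ => (u : L)) hβ
      simpa [hua, hub] using this
    change (b : L) * σ (y • (β : L)) = (a : L) * (y • (β : L))
    rw [map_zsmul, h2, zsmul_eq_mul, zsmul_eq_mul]
    field_simp

/-- **Integral cyclic Hilbert 90**, prime order: `σ ≠ 1`, `σ ^ p = 1`. -/
theorem hilbert90_int_of_prime {σ : Gal(L/K)} {n : ℕ} (hprime : n.Prime) (hσ : σ ≠ 1)
    (hn : σ ^ n = 1) (hgen : ∀ τ : Gal(L/K), τ ∈ Subgroup.zpowers σ)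
    (a b : 𝓞 L) (ha : a ≠ 0) (hb : b ≠ 0)
    (h : ∏ i ∈ Finset.range n, (σ ^ i) • a = ∏ i ∈ Finset.range n, (σ ^ i) • b) :
    ∃ δ : 𝓞 L, δ ≠ 0 ∧ b * σ • δ = a * δ :=
  haveI : Fact n.Prime := ⟨hprime⟩
  hilbert90_int_of_orderOf (orderOf_eq_prime hn hσ) hgen a b ha hb h

/-- **Integral cyclic Hilbert 90**, with `n = [L : K]`. -/
theorem hilbert90_int_of_finrank {σ : Gal(L/K)} {n : ℕ} (hn : Module.finrank K L = n)
    (hgen : ∀ τ : Gal(L/K), τ ∈ Subgroup.zpowers σ)
    (a b : 𝓞 L) (ha : a ≠ 0) (hb : b ≠ 0)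
    (h : ∏ i ∈ Finset.range n, (σ ^ i) • a = ∏ i ∈ Finset.range n, (σ ^ i) • b) :
    ∃ δ : 𝓞 L, δ ≠ 0 ∧ b * σ • δ = a * δ := by
  refine hilbert90_int_of_orderOf ?_ hgen a b ha hb h
  rw [orderOf_eq_card_of_forall_mem_zpowers hgen, IsGalois.card_aut_eq_finrank, hn]

end IntH90

end Fermat.Agent.S14.helper15
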