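import Mathlib

/-!
# S14 / R2-T-GL: valuations of a principal ideal give a relation in the class group

If `B ≠ 0` has `v`-adic valuation `exp (-(n v))` for `v ∈ S` and a valuation whose exponent is a
multiple of `m` for every `v ∉ S`, then `∏ v ∈ S, [v] ^ n v` is an `m`-th power in the class
group.
-/

set_option autoImplicit false

open IsDedekindDomain
open scoped nonZeroDivisors

namespace Fermat.Agent.S14.helper17

theorem exists_classGroup_pow_eq_of_valuations {R : Type*} [CommRing R] [IsDedekindDomain R]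
    (B : R) (hB : B ≠ 0) (m : ℕ) (S : Finset (HeightOneSpectrum R))
    (n : HeightOneSpectrum R → ℕ)
    (hS : ∀ v ∈ S, v.intValuation B = WithZero.exp (-(n v : ℤ)))
    (hS' : ∀ v ∉ S, ∃ k : ℕ, v.intValuation B = WithZero.exp (-((m * k : ℕ) : ℤ))) :
    ∃ J : ClassGroup R,
      ∏ v ∈ S, ClassGroup.mk0 ⟨v.asIdeal, mem_nonZeroDivisors_of_ne_zero v.ne_bot⟩ ^ n v
        = J ^ m := by
  classical
  have hI0 : (Ideal.span {B} : Ideal R) ≠ 0 := by
    simpa [Ideal.zero_eq_bot, Ideal.span_singleton_eq_bot] using hB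
  -- the exponents
  set e : HeightOneSpectrum R → ℕ := fun v =>
    (Associates.mk v.asIdeal).count (Associates.mk (Ideal.span {B} : Ideal R)).factors with he_def
  have he : ∀ v : HeightOneSpectrum R, v.intValuation B = WithZero.exp (-(e v : ℤ)) :=
    fun v => v.intValuation_if_neg hB
  have heS : ∀ v ∈ S, e v = n v := by
    intro v hv
    have h := (he v).symm.trans (hS v hv)
    rw [WithZero.exp_inj] at h
    exact_mod_cast neg_injective h
  have hek : ∀ v ∉ S, e v = m * (e v / m) := by
    intro v hv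
    obtain ⟨k, hk⟩ := hS' v hv
    have h := (he v).symm.trans hk
    rw [WithZero.exp_inj] at h
    have h' : e v = m * k := by exact_mod_cast neg_injective h
    exact (Nat.mul_div_cancel' ⟨k, h'⟩).symm
  -- the prime ideals as nonzero divisors
  set P : HeightOneSpectrum R → (Ideal R)⁰ := fun v =>
    ⟨v.asIdeal, mem_nonZeroDivisors_of_ne_zero v.ne_bot⟩ with hP_def
  -- finite factorisation
  have hfin : (Function.mulSupport fun v : HeightOneSpectrum R =>
      v.maxPowDividing (Ideal.span {B} : Ideal R)).Finite := Ideal.hasFiniteMulSupport hI0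
  set T : Finset (HeightOneSpectrum R) := hfin.toFinset ∪ S with hT_def
  have hprod : ∏ v ∈ T, v.asIdeal ^ e v = Ideal.span {B} := by
    have h1 := Ideal.finprod_heightOneSpectrum_factorization hI0
    rw [finprod_eq_prod_of_mulSupport_subset _ (s := T) (by
      intro v hv
      rw [hT_def, Finset.coe_union, Set.Finite.coe_toFinset]
      exact Or.inl hv)] at h1
    exact h1
  have hprod' : ∏ v ∈ T, P v ^ e v = ⟨Ideal.span {B}, mem_nonZeroDivisors_of_ne_zero hI0⟩ := by
    apply Subtype.ext
    rw [Submonoid.coe_finsetProd]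
    simp only [SubmonoidClass.coe_pow, hP_def]
    exact hprod
  have h1 : ∏ v ∈ T, ClassGroup.mk0 (P v) ^ e v = 1 := by
    have : ∏ v ∈ T, ClassGroup.mk0 (P v) ^ e v = ClassGroup.mk0 (∏ v ∈ T, P v ^ e v) := by
      rw [map_prod]
      simp only [map_pow]
    rw [this, hprod', ClassGroup.mk0_eq_one_iff]
    exact ⟨⟨B, rfl⟩⟩
  have hST : S ⊆ T := Finset.subset_union_right
  rw [← Finset.prod_sdiff hST] at h1
  have h2 : ∏ v ∈ T \ S, ClassGroup.mk0 (P v) ^ e v
      = (∏ v ∈ T \ S, ClassGroup.mk0 (P v) ^ (e v / m)) ^ m := by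
    rw [← Finset.prod_pow]
    refine Finset.prod_congr rfl fun v hv => ?_
    have hv' : v ∉ S := (Finset.mem_sdiff.mp hv).2
    rw [← pow_mul, mul_comm, ← hek v hv']
  have h3 : ∏ v ∈ S, ClassGroup.mk0 (P v) ^ e v = ∏ v ∈ S, ClassGroup.mk0 (P v) ^ n v :=
    Finset.prod_congr rfl fun v hv => by rw [heS v hv]
  rw [h2, h3] at h1
  refine ⟨(∏ v ∈ T \ S, ClassGroup.mk0 (P v) ^ (e v / m))⁻¹, ?_⟩
  rw [inv_pow]
  exact eq_inv_of_mul_eq_one_right h1

end Fermat.Agent.S14.helper17
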