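/-
S14-(2c-X2) NORM CONGRUENCE (task 177, helper27).

`E/K` Galois of prime degree `p`, every prime of `E` over `ℓ` has full inertia group
(`γ z ≡ z` for all `γ ∈ Gal(E/K)`), every prime of `K` over `ℓ` has norm `ℓ`, `K/ℚ` Galois:
then `N_{E/ℚ}(x)` is a `p`-th power mod `ℓ` for every `x ∈ 𝓞 E`.
-/
import Mathlib

open NumberField

namespace Fermat.Agent.S14.helper27

section Descent

variable {K E : Type*} [Field K] [Field E] [Algebra K E]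

/-- The coercion of `algebraMap (𝓞 K) (𝓞 E) a` to `E`. -/
lemma coe_algebraMap_ringOfIntegers (a : 𝓞 K) :
    ((algebraMap (𝓞 K) (𝓞 E) a : 𝓞 E) : E) = algebraMap K E (a : K) := by
  rfl

/-- An element of `𝓞 E` fixed by `Gal(E/K)` comes from `𝓞 K`. -/
lemma exists_algebraMap_eq_of_fixed [NumberField K] [NumberField E] [IsGalois K E] (y : 𝓞 E)
    (hy : ∀ γ : Gal(E/K), γ • y = y) :
    ∃ y₀ : 𝓞 K, algebraMap (𝓞 K) (𝓞 E) y₀ = y := by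
  have hfix : ∀ γ : Gal(E/K), γ (y : E) = (y : E) := by
    intro γ
    exact congrArg (fun w : 𝓞 E => (w : E)) (hy γ)
  obtain ⟨k, hk⟩ := (IsGalois.mem_range_algebraMap_iff_fixed (F := K) (E := E) (y : E)).2 hfix
  have hkint : IsIntegral ℤ k := by
    have h1 : IsIntegral ℤ (algebraMap K E k) := by
      rw [hk]; exact RingOfIntegers.isIntegral_coe y
    exact (isIntegral_algebraMap_iff (algebraMap K E).injective).1 h1
  refine ⟨IsIntegralClosure.mk' (𝓞 K) k hkint, ?_⟩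
  apply RingOfIntegers.ext
  rw [coe_algebraMap_ringOfIntegers, ← hk]
  congr 1
  exact IsIntegralClosure.algebraMap_mk' (𝓞 K) k hkint

end Descent

section ResidueField

variable {K : Type*} [Field K] [NumberField K]

/-- If a prime `𝔩` of `𝓞 K` has absolute norm a prime number `ℓ`, every element of `𝓞 K` is
congruent to a rational integer modulo `𝔩`. -/
lemma exists_int_sub_mem_of_absNorm_prime {ℓ : ℕ} (hℓ : ℓ.Prime) (𝔩 : Ideal (𝓞 K))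
    (h𝔩 : Ideal.absNorm 𝔩 = ℓ) (a : 𝓞 K) : ∃ z : ℤ, a - (z : 𝓞 K) ∈ 𝔩 := by
  have : Fact ℓ.Prime := ⟨hℓ⟩
  have hcard : Nat.card (𝓞 K ⧸ 𝔩) = ℓ := by
    rw [← h𝔩, Ideal.absNorm_apply]; rfl
  have hne : 𝔩 ≠ ⊤ := by
    intro h
    rw [h, Ideal.absNorm_top] at h𝔩
    exact hℓ.one_lt.ne h𝔩
  have h1 : (1 : 𝓞 K ⧸ 𝔩) ≠ 0 := by
    intro h
    apply hne
    rw [Ideal.eq_top_iff_one]
    exact Ideal.Quotient.eq_zero_iff_mem.1 h
  have hmem : (Ideal.Quotient.mk 𝔩 a) ∈ AddSubgroup.zmultiples (1 : 𝓞 K ⧸ 𝔩) :=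
    mem_zmultiples_of_prime_card hcard h1
  obtain ⟨z, hz⟩ := AddSubgroup.mem_zmultiples_iff.1 hmem
  refine ⟨z, ?_⟩
  rw [← Ideal.Quotient.eq_zero_iff_mem, map_sub, ← hz]
  simp

end ResidueField

section Main

variable {K E : Type*} [Field K] [NumberField K] [Field E] [NumberField E] [Algebra K E]
  [IsGalois K E]

omit [IsGalois K E] in
lemma smul_sum_conj (x : 𝓞 E) (γ : Gal(E/K)) :
    γ • (∑ σ : Gal(E/K), σ • x) = ∑ σ : Gal(E/K), σ • x := by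
  rw [Finset.smul_sum]
  simp_rw [← mul_smul]
  exact Fintype.sum_equiv (Equiv.mulLeft γ) _ _ (fun _ => rfl)

omit [IsGalois K E] in
lemma smul_prod_conj (x : 𝓞 E) (γ : Gal(E/K)) :
    γ • (∏ σ : Gal(E/K), σ • x) = ∏ σ : Gal(E/K), σ • x := by
  rw [Finset.smul_prod']
  simp_rw [← mul_smul]
  exact Fintype.prod_equiv (Equiv.mulLeft γ) _ _ (fun _ => rfl)

lemma card_gal_eq {p : ℕ} (hdeg : Module.finrank K E = p) : Fintype.card Gal(E/K) = p := by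
  rw [← Nat.card_eq_fintype_card, IsGalois.card_aut_eq_finrank, hdeg]

/-- Under full inertia at `𝔏` (and residue field `𝔽_ℓ` downstairs, `ℓ ≠ p = [E:K]`), every
element of `𝓞 E` is congruent to a rational integer modulo `𝔏`. -/
lemma exists_int_sub_mem_of_inertia {p ℓ : ℕ} (hp : p.Prime) (hℓ : ℓ.Prime) (hpℓ : ℓ ≠ p)
    (hdeg : Module.finrank K E = p)
    (hsplit : ∀ 𝔩 : Ideal (𝓞 K), 𝔩.IsPrime → (ℓ : 𝓞 K) ∈ 𝔩 → Ideal.absNorm 𝔩 = ℓ)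
    (𝔏 : Ideal (𝓞 E)) (h𝔏 : 𝔏.IsPrime) (hℓ𝔏 : (ℓ : 𝓞 E) ∈ 𝔏)
    (hram : ∀ (γ : Gal(E/K)) (z : 𝓞 E), γ • z - z ∈ 𝔏) (x : 𝓞 E) :
    ∃ z : ℤ, x - (z : 𝓞 E) ∈ 𝔏 := by
  obtain ⟨t₀, ht₀⟩ := exists_algebraMap_eq_of_fixed (K := K) (∑ σ : Gal(E/K), σ • x)
    (smul_sum_conj x)
  have h𝔩p : (𝔏.comap (algebraMap (𝓞 K) (𝓞 E))).IsPrime := Ideal.comap_isPrime _ _
  have hℓ𝔩 : (ℓ : 𝓞 K) ∈ 𝔏.comap (algebraMap (𝓞 K) (𝓞 E)) := by
    rw [Ideal.mem_comap, map_natCast]; exact hℓ𝔏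
  obtain ⟨z', hz'⟩ := exists_int_sub_mem_of_absNorm_prime hℓ _ (hsplit _ h𝔩p hℓ𝔩) t₀
  have h1 : (∑ σ : Gal(E/K), σ • x) - (z' : 𝓞 E) ∈ 𝔏 := by
    have := hz'
    rw [Ideal.mem_comap, map_sub, ht₀, map_intCast] at this
    exact this
  have h2 : (∑ σ : Gal(E/K), σ • x) - (p : 𝓞 E) * x ∈ 𝔏 := by
    have : (∑ σ : Gal(E/K), σ • x) - (p : 𝓞 E) * x = ∑ σ : Gal(E/K), (σ • x - x) := by
      rw [Finset.sum_sub_distrib, Finset.sum_const, Finset.card_univ, card_gal_eq hdeg,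
        nsmul_eq_mul]
    rw [this]
    exact Ideal.sum_mem _ (fun σ _ => hram σ x)
  have hcop : IsCoprime (p : ℤ) (ℓ : ℤ) := by
    rw [Nat.isCoprime_iff_coprime]
    exact (Nat.coprime_primes hp hℓ).2 (Ne.symm hpℓ)
  obtain ⟨u, v, huv⟩ := hcop
  refine ⟨u * z', ?_⟩
  have huvE : (u : 𝓞 E) * (p : 𝓞 E) + (v : 𝓞 E) * (ℓ : 𝓞 E) = 1 := by
    have := congrArg (fun n : ℤ => (n : 𝓞 E)) huv
    simpa using this
  have key : x - ((u * z' : ℤ) : 𝓞 E)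
      = (u : 𝓞 E) * (((∑ σ : Gal(E/K), σ • x) - (z' : 𝓞 E))
          - ((∑ σ : Gal(E/K), σ • x) - (p : 𝓞 E) * x))
        + (v : 𝓞 E) * x * (ℓ : 𝓞 E) := by
    have hx1 : x = ((u : 𝓞 E) * (p : 𝓞 E) + (v : 𝓞 E) * (ℓ : 𝓞 E)) * x := by
      rw [huvE, one_mul]
    push_cast
    linear_combination hx1
  rw [key]
  exact 𝔏.add_mem (𝔏.mul_mem_left _ (𝔏.sub_mem h1 h2)) (𝔏.mul_mem_left _ hℓ𝔏)

/-- The absolute norm of `x ∈ 𝓞 E` equals the absolute norm of the relative norm. -/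
lemma norm_int_eq_of_prod_conj (x : 𝓞 E) (y₀ : 𝓞 K)
    (hy₀ : algebraMap (𝓞 K) (𝓞 E) y₀ = ∏ σ : Gal(E/K), σ • x) :
    Algebra.norm ℤ x = Algebra.norm ℤ y₀ := by
  have hK : Algebra.norm K (x : E) = (y₀ : K) := by
    apply (algebraMap K E).injective
    rw [Algebra.norm_eq_prod_automorphisms, ← coe_algebraMap_ringOfIntegers, hy₀]
    simp only [map_prod]
    rfl
  have h : ((Algebra.norm ℤ x : ℤ) : ℚ) = ((Algebra.norm ℤ y₀ : ℤ) : ℚ) := by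
    rw [Algebra.coe_norm_int, Algebra.coe_norm_int, ← Algebra.norm_norm (S := K), hK]
  exact_mod_cast h

end Main

section Final

/-- **Norm congruence** (S14-(2c-X2)). -/
theorem norm_isPow_of_totallyRamified (K E : Type*) [Field K] [NumberField K] [Field E]
    [NumberField E] [Algebra K E] [IsGalois K E] [IsGalois ℚ K] (p ℓ : ℕ) (hp : p.Prime)
    (hℓ : ℓ.Prime) (hdeg : Module.finrank K E = p)
    (hsplit : ∀ 𝔩 : Ideal (𝓞 K), 𝔩.IsPrime → (ℓ : 𝓞 K) ∈ 𝔩 → Ideal.absNorm 𝔩 = ℓ)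
    (hram : ∀ 𝔏 : Ideal (𝓞 E), 𝔏.IsPrime → (ℓ : 𝓞 E) ∈ 𝔏 →
      ∀ (γ : Gal(E/K)) (z : 𝓞 E), γ • z - z ∈ 𝔏)
    (x : 𝓞 E) (hx : IsCoprime (Algebra.norm ℤ x) (ℓ : ℤ)) :
    ∃ c : ZMod ℓ, c ^ p = ((Algebra.norm ℤ x : ℤ) : ZMod ℓ) := by
  have _ := hx
  have : Fact ℓ.Prime := ⟨hℓ⟩
  by_cases hpℓ : ℓ = p
  · subst hpℓ
    exact ⟨_, ZMod.pow_card _⟩
  -- the relative norm `y₀`
  obtain ⟨y₀, hy₀⟩ := exists_algebraMap_eq_of_fixed (K := K) (∏ σ : Gal(E/K), σ • x)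
    (smul_prod_conj x)
  rw [norm_int_eq_of_prod_conj x y₀ hy₀]
  -- a prime `𝔩₁` of `𝓞 K` over `ℓ`
  have hPprime : (Ideal.span {(ℓ : ℤ)}).IsPrime :=
    (Ideal.span_singleton_prime (by exact_mod_cast hℓ.ne_zero)).2
      (Nat.prime_iff_prime_int.1 hℓ)
  obtain ⟨𝔩₁, -, h𝔩₁p, h𝔩₁⟩ := Ideal.exists_ideal_over_prime_of_isIntegral
    (S := 𝓞 K) (Ideal.span {(ℓ : ℤ)}) (⊥ : Ideal (𝓞 K)) (by
      intro a ha
      rw [Ideal.mem_comap, Ideal.mem_bot] at ha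
      have : a = 0 := by
        apply (RingHom.injective_int (algebraMap ℤ (𝓞 K)))
        rw [ha, map_zero]
      rw [this]; exact Ideal.zero_mem _)
  -- for each `τ`, an integer `z τ` with `τ • y₀ - z τ ^ p ∈ 𝔩₁`
  have hτ : ∀ τ : Gal(K/ℚ), ∃ z : ℤ, τ • y₀ - ((z : 𝓞 K)) ^ p ∈ 𝔩₁ := by
    intro τ
    set f : 𝓞 K →+* 𝓞 K := MulSemiringAction.toRingHom Gal(K/ℚ) (𝓞 K) τ with hf
    have h𝔩τp : (𝔩₁.comap f).IsPrime := Ideal.comap_isPrime _ _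
    have hℓτ : (ℓ : 𝓞 K) ∈ 𝔩₁.comap f := by
      rw [Ideal.mem_comap, map_natCast]
      have : ((ℓ : ℤ)) ∈ Ideal.comap (algebraMap ℤ (𝓞 K)) 𝔩₁ := by
        rw [h𝔩₁]; exact Ideal.mem_span_singleton_self _
      rw [Ideal.mem_comap] at this
      simpa using this
    have := h𝔩τp
    obtain ⟨𝔏, -, h𝔏p, h𝔏⟩ := Ideal.exists_ideal_over_prime_of_isIntegral
      (S := 𝓞 E) (𝔩₁.comap f) (⊥ : Ideal (𝓞 E)) (by
        intro a ha
        rw [Ideal.mem_comap, Ideal.mem_bot] at ha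
        have : a = 0 := by
          apply (FaithfulSMul.algebraMap_injective (𝓞 K) (𝓞 E))
          rw [ha, map_zero]
        rw [this]; exact Ideal.zero_mem _)
    have hℓ𝔏 : (ℓ : 𝓞 E) ∈ 𝔏 := by
      have : (ℓ : 𝓞 K) ∈ Ideal.comap (algebraMap (𝓞 K) (𝓞 E)) 𝔏 := by rw [h𝔏]; exact hℓτ
      rw [Ideal.mem_comap, map_natCast] at this
      exact this
    obtain ⟨z, hz⟩ := exists_int_sub_mem_of_inertia hp hℓ hpℓ hdeg hsplit 𝔏 h𝔏p hℓ𝔏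
      (hram 𝔏 h𝔏p hℓ𝔏) x
    refine ⟨z, ?_⟩
    -- `∏ σ • x ≡ z ^ p` mod `𝔏`
    have hprod : (∏ σ : Gal(E/K), σ • x) - ((z : 𝓞 E)) ^ p ∈ 𝔏 := by
      rw [← Ideal.Quotient.eq_zero_iff_mem, map_sub, sub_eq_zero, map_prod, map_pow]
      have hσ : ∀ σ : Gal(E/K), Ideal.Quotient.mk 𝔏 (σ • x) = Ideal.Quotient.mk 𝔏 (z : 𝓞 E) := by
        intro σ
        rw [← sub_eq_zero, ← map_sub, Ideal.Quotient.eq_zero_iff_mem]
        have : σ • x - (z : 𝓞 E) = (σ • x - x) + (x - (z : 𝓞 E)) := by ring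
        rw [this]
        exact 𝔏.add_mem (hram 𝔏 h𝔏p hℓ𝔏 σ x) hz
      rw [Finset.prod_congr rfl (fun σ _ => hσ σ), Finset.prod_const, Finset.card_univ,
        card_gal_eq hdeg]
    have h3 : y₀ - ((z : 𝓞 K)) ^ p ∈ 𝔩₁.comap f := by
      rw [← h𝔏, Ideal.mem_comap, map_sub, hy₀, map_pow, map_intCast]
      exact hprod
    rw [Ideal.mem_comap, map_sub, map_pow, map_intCast] at h3
    exact h3
  choose z hz using hτ
  refine ⟨((∏ τ : Gal(K/ℚ), z τ : ℤ) : ZMod ℓ), ?_⟩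
  -- the norm of `y₀` is the product of the conjugates
  have hnorm : ((Algebra.norm ℤ y₀ : ℤ) : 𝓞 K) = ∏ τ : Gal(K/ℚ), τ • y₀ := by
    apply RingOfIntegers.ext
    have h1 : (((Algebra.norm ℤ y₀ : ℤ) : 𝓞 K) : K) = algebraMap ℚ K (Algebra.norm ℚ (y₀ : K)) := by
      rw [← Algebra.coe_norm_int]
      simp
    rw [h1, Algebra.norm_eq_prod_automorphisms]
    simp only [map_prod]
    rfl
  have hmem : ((Algebra.norm ℤ y₀ : ℤ) : 𝓞 K) - (((∏ τ : Gal(K/ℚ), z τ : ℤ) ^ p : ℤ) : 𝓞 K) ∈ 𝔩₁ := by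
    rw [hnorm, ← Ideal.Quotient.eq_zero_iff_mem, map_sub, sub_eq_zero, map_prod]
    push_cast
    rw [map_pow, map_prod, ← Finset.prod_pow]
    refine Finset.prod_congr rfl (fun τ _ => ?_)
    rw [← map_pow, ← sub_eq_zero, ← map_sub, Ideal.Quotient.eq_zero_iff_mem]
    exact hz τ
  have hint : (Algebra.norm ℤ y₀ - (∏ τ : Gal(K/ℚ), z τ) ^ p : ℤ) ∈ Ideal.span {(ℓ : ℤ)} := by
    rw [← h𝔩₁, Ideal.mem_comap]
    have : algebraMap ℤ (𝓞 K) (Algebra.norm ℤ y₀ - (∏ τ : Gal(K/ℚ), z τ) ^ p)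
        = ((Algebra.norm ℤ y₀ : ℤ) : 𝓞 K) - (((∏ τ : Gal(K/ℚ), z τ : ℤ) ^ p : ℤ) : 𝓞 K) := by
      simp
    rw [this]
    exact hmem
  rw [Ideal.mem_span_singleton] at hint
  have := (ZMod.intCast_zmod_eq_zero_iff_dvd _ ℓ).2 hint
  push_cast at this ⊢
  rw [sub_eq_zero] at this
  exact this.symm

end Final

end Fermat.Agent.S14.helper27
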