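/-
S14-R2-T-ram (task 198, helper27): ramification indices in `K(ζ_ℓ)/K`, `K = ℚ(ζ_p)`:
`e = ℓ - 1` over `ℓ`, `e = 1` elsewhere.
-/
import Mathlib

open NumberField IsDedekindDomain

namespace Fermat.Agent.S14.helper27

/-- `ℚ(ζ_p)(ζ_ℓ)` is the `p * ℓ`-th cyclotomic field. -/
theorem isCyclotomicExtension_mul_of_tower (p ℓ : ℕ) [Fact p.Prime] [Fact ℓ.Prime] (hpl : p ≠ ℓ)
    (K F : Type*) [Field K] [NumberField K] [IsCyclotomicExtension {p} ℚ K] [Field F]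
    [NumberField F] [Algebra K F] [IsCyclotomicExtension {ℓ} K F] :
    IsCyclotomicExtension {p * ℓ} ℚ F := by
  have hp : p.Prime := Fact.out
  have hℓ : ℓ.Prime := Fact.out
  have : NeZero p := ⟨hp.ne_zero⟩
  have : NeZero ℓ := ⟨hℓ.ne_zero⟩
  have : NeZero (p * ℓ) := ⟨mul_ne_zero hp.ne_zero hℓ.ne_zero⟩
  have h1 : IsCyclotomicExtension ({p} ∪ {ℓ}) ℚ F :=
    IsCyclotomicExtension.trans {p} {ℓ} ℚ K F (algebraMap K F).injective
  -- a primitive `p * ℓ`-th root of unity in `F`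
  obtain ⟨ζp, hζp⟩ := IsCyclotomicExtension.exists_isPrimitiveRoot ℚ K (S := {p})
    (Set.mem_singleton p) hp.ne_zero
  obtain ⟨ζℓ, hζℓ⟩ := IsCyclotomicExtension.exists_isPrimitiveRoot K F (S := {ℓ})
    (Set.mem_singleton ℓ) hℓ.ne_zero
  have hζp' : IsPrimitiveRoot (algebraMap K F ζp) p := hζp.map_of_injective
    (algebraMap K F).injective
  have hcop : Nat.Coprime p ℓ := (Nat.coprime_primes hp hℓ).2 hpl
  have hprod : IsPrimitiveRoot (algebraMap K F ζp * ζℓ) (p * ℓ) := by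
    rw [IsPrimitiveRoot.iff_orderOf]
    rw [(Commute.all _ _).orderOf_mul_eq_mul_orderOf_of_coprime, ← hζp'.eq_orderOf,
      ← hζℓ.eq_orderOf]
    rw [← hζp'.eq_orderOf, ← hζℓ.eq_orderOf]
    exact hcop
  have h2 : IsCyclotomicExtension ({p} ∪ {ℓ} ∪ {p * ℓ}) ℚ F :=
    IsCyclotomicExtension.union_of_isPrimitiveRoot _ ℚ F hprod
  have hset : ({p} ∪ {ℓ} ∪ {p * ℓ} : Set ℕ) = ({p * ℓ} ∪ {p}) ∪ {ℓ} := by
    ext x; simp only [Set.mem_union, Set.mem_singleton_iff]; tauto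
  rw [hset] at h2
  have e1 : IsCyclotomicExtension ({p * ℓ} ∪ {p}) ℚ F ↔
      IsCyclotomicExtension (({p * ℓ} ∪ {p}) ∪ {ℓ}) ℚ F :=
    IsCyclotomicExtension.iff_union_of_dvd ℚ F
      ⟨p * ℓ, by simp, mul_ne_zero hp.ne_zero hℓ.ne_zero, dvd_mul_left ℓ p⟩
  have e2 : IsCyclotomicExtension ({p * ℓ}) ℚ F ↔
      IsCyclotomicExtension ({p * ℓ} ∪ {p}) ℚ F :=
    IsCyclotomicExtension.iff_union_of_dvd ℚ F
      ⟨p * ℓ, by simp, mul_ne_zero hp.ne_zero hℓ.ne_zero, dvd_mul_right p ℓ⟩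
  exact e2.2 (e1.2 h2)

/-- New-style ramification index of `w` over `𝓞 K` in `K(ζ_ℓ)/K`, `K = ℚ(ζ_p)`. -/
theorem ramificationIdx_cyclotomic_ext (p ℓ : ℕ) [Fact p.Prime] [Fact ℓ.Prime] (hpl : p ≠ ℓ)
    (K F : Type*) [Field K] [NumberField K] [IsCyclotomicExtension {p} ℚ K] [Field F]
    [NumberField F] [Algebra K F] [IsCyclotomicExtension {ℓ} K F]
    (v : Ideal (𝓞 K)) (w : Ideal (𝓞 F)) [w.IsPrime] (hw : w ≠ ⊥) [w.LiesOver v] :
    (((ℓ : ℕ) : 𝓞 K) ∈ v → w.ramificationIdx (𝓞 K) = ℓ - 1) ∧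
      (((ℓ : ℕ) : 𝓞 K) ∉ v → w.ramificationIdx (𝓞 K) = 1) := by
  have hp : p.Prime := Fact.out
  have hℓ : ℓ.Prime := Fact.out
  have : NeZero p := ⟨hp.ne_zero⟩
  have : NeZero (p * ℓ) := ⟨mul_ne_zero hp.ne_zero hℓ.ne_zero⟩
  have hF : IsCyclotomicExtension {p * ℓ} ℚ F := isCyclotomicExtension_mul_of_tower p ℓ hpl K F
  have : NeZero w := ⟨hw⟩
  have hvp : v.IsPrime := Ideal.isPrime_of_liesOver w v
  -- the rational prime `q` below `w`
  set q : ℕ := Ideal.absNorm (Ideal.under ℤ w) with hq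
  have hqp : q.Prime := Nat.absNorm_under_prime w
  have : Fact q.Prime := ⟨hqp⟩
  have hwq : w.LiesOver (Ideal.span {(q : ℤ)}) := Int.liesOver_span_absNorm w
  have hvq : v.LiesOver (Ideal.span {(q : ℤ)}) := by
    have h1 : Ideal.under ℤ v = Ideal.under ℤ w := by
      rw [Ideal.over_def w v, Ideal.under_under]
    rw [Ideal.liesOver_iff, h1]
    exact (Ideal.liesOver_iff _ _).1 hwq
  -- tower formula
  have htower : w.ramificationIdx ℤ = v.ramificationIdx ℤ * w.ramificationIdx (𝓞 K) :=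
    Ideal.ramificationIdx_tower v w
  -- membership of `ℓ` in `v` in terms of `q`
  have hmem : ((ℓ : ℕ) : 𝓞 K) ∈ v ↔ q = ℓ := by
    have h1 : ((ℓ : ℕ) : 𝓞 K) ∈ v ↔ ((ℓ : ℤ)) ∈ Ideal.under ℤ v := by
      rw [Ideal.under_def, Ideal.mem_comap]; simp
    rw [h1, ← (Ideal.liesOver_iff _ _).1 hvq, Ideal.mem_span_singleton, Int.natCast_dvd_natCast,
      Nat.prime_dvd_prime_iff_eq hqp hℓ]
  constructor
  · intro h
    have hqℓ : q = ℓ := hmem.1 h
    have hw' : w.LiesOver (Ideal.span {(ℓ : ℤ)}) := hqℓ ▸ hwq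
    have hv' : v.LiesOver (Ideal.span {(ℓ : ℤ)}) := hqℓ ▸ hvq
    have e1 : w.ramificationIdx ℤ = ℓ ^ 0 * (ℓ - 1) :=
      IsCyclotomicExtension.Rat.ramificationIdx_eq (p * ℓ) (m := p) (p := ℓ) (k := 0) F w
        (by ring) (fun hd => hpl ((Nat.prime_dvd_prime_iff_eq hℓ hp).1 hd).symm)
    have e2 : v.ramificationIdx ℤ = 1 :=
      IsCyclotomicExtension.Rat.ramificationIdx_eq_of_not_dvd (m := p) ℓ K v
        (fun hd => hpl ((Nat.prime_dvd_prime_iff_eq hℓ hp).1 hd).symm)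
    rw [e1, e2, one_mul, pow_zero, one_mul] at htower
    exact htower.symm
  · intro h
    have hqℓ : q ≠ ℓ := fun hh => h (hmem.2 hh)
    by_cases hqp' : q = p
    · have hw' : w.LiesOver (Ideal.span {(p : ℤ)}) := hqp' ▸ hwq
      have hv' : v.LiesOver (Ideal.span {(p : ℤ)}) := hqp' ▸ hvq
      have e1 : w.ramificationIdx ℤ = p ^ 0 * (p - 1) :=
        IsCyclotomicExtension.Rat.ramificationIdx_eq (p * ℓ) (m := ℓ) (p := p) (k := 0) F w
          (by ring) (fun hd => hpl ((Nat.prime_dvd_prime_iff_eq hp hℓ).1 hd))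
      have e2 : v.ramificationIdx ℤ = p - 1 :=
        IsCyclotomicExtension.Rat.ramificationIdx_eq_of_prime p K v
      rw [e1, e2, pow_zero, one_mul] at htower
      have hpos : 0 < p - 1 := Nat.sub_pos_of_lt hp.one_lt
      exact (Nat.eq_of_mul_eq_mul_left hpos (by rw [mul_one]; exact htower)).symm
    · have e1 : w.ramificationIdx ℤ = 1 :=
        IsCyclotomicExtension.Rat.ramificationIdx_eq_of_not_dvd (m := p * ℓ) q F w (by
          intro hd
          rcases (Nat.Prime.dvd_mul hqp).1 hd with h1 | h1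
          · exact hqp' ((Nat.prime_dvd_prime_iff_eq hqp hp).1 h1)
          · exact hqℓ ((Nat.prime_dvd_prime_iff_eq hqp hℓ).1 h1))
      rw [e1] at htower
      exact Nat.eq_one_of_mul_eq_one_left htower.symm

/-- **S14-R2-T-ram**: old-style ramification indices in `K(ζ_ℓ)/K`, `K = ℚ(ζ_p)`. -/
theorem ramificationIdx'_cyclotomic_ext (p ℓ : ℕ) [Fact p.Prime] [Fact ℓ.Prime] (hpl : p ≠ ℓ)
    (K F : Type) [Field K] [NumberField K] [IsCyclotomicExtension {p} ℚ K] [Field F]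
    [NumberField F] [Algebra K F] [IsCyclotomicExtension {ℓ} K F]
    (v : HeightOneSpectrum (𝓞 K)) (w : HeightOneSpectrum (𝓞 F))
    [w.asIdeal.LiesOver v.asIdeal] :
    (((ℓ : ℕ) : 𝓞 K) ∈ v.asIdeal → v.asIdeal.ramificationIdx' w.asIdeal = ℓ - 1) ∧
      (((ℓ : ℕ) : 𝓞 K) ∉ v.asIdeal → v.asIdeal.ramificationIdx' w.asIdeal = 1) := by
  have hw : w.asIdeal.IsPrime := w.isPrime
  rw [Ideal.ramificationIdx'_eq_ramificationIdx v.asIdeal w.asIdeal v.ne_bot]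
  exact ramificationIdx_cyclotomic_ext p ℓ hpl K F v.asIdeal w.asIdeal w.ne_bot

/-- Consequence for the adic valuations: over `ℓ`. -/
theorem intValuation_cyclotomic_ext_of_mem (p ℓ : ℕ) [Fact p.Prime] [Fact ℓ.Prime] (hpl : p ≠ ℓ)
    (K F : Type) [Field K] [NumberField K] [IsCyclotomicExtension {p} ℚ K] [Field F]
    [NumberField F] [Algebra K F] [IsCyclotomicExtension {ℓ} K F]
    (v : HeightOneSpectrum (𝓞 K)) (w : HeightOneSpectrum (𝓞 F))
    [w.asIdeal.LiesOver v.asIdeal] (h : ((ℓ : ℕ) : 𝓞 K) ∈ v.asIdeal) (x : 𝓞 K) :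
    w.intValuation (algebraMap (𝓞 K) (𝓞 F) x) = v.intValuation x ^ (ℓ - 1) := by
  rw [← (ramificationIdx'_cyclotomic_ext p ℓ hpl K F v w).1 h]
  exact (HeightOneSpectrum.intValuation_liesOver v w x).symm

/-- Consequence for the adic valuations: away from `ℓ`. -/
theorem intValuation_cyclotomic_ext_of_notMem (p ℓ : ℕ) [Fact p.Prime] [Fact ℓ.Prime]
    (hpl : p ≠ ℓ)
    (K F : Type) [Field K] [NumberField K] [IsCyclotomicExtension {p} ℚ K] [Field F]
    [NumberField F] [Algebra K F] [IsCyclotomicExtension {ℓ} K F]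
    (v : HeightOneSpectrum (𝓞 K)) (w : HeightOneSpectrum (𝓞 F))
    [w.asIdeal.LiesOver v.asIdeal] (h : ((ℓ : ℕ) : 𝓞 K) ∉ v.asIdeal) (x : 𝓞 K) :
    w.intValuation (algebraMap (𝓞 K) (𝓞 F) x) = v.intValuation x := by
  have := (HeightOneSpectrum.intValuation_liesOver v w x).symm
  rw [(ramificationIdx'_cyclotomic_ext p ℓ hpl K F v w).2 h, pow_one] at this
  exact this

end Fermat.Agent.S14.helper27
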