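import Mathlib

/-!
# S14 / AN0-L : abstract lattice comparison (helper2)

Let `E` be a finite dimensional real normed space, `L` a discrete subgroup of `E`, and
`ι : A →+ E` an injective additive map with values in `L`.  Let `F : ℝ → E → ℝ` be a family of
functions satisfying, uniformly for `s ∈ (1, 2]`,

* (decay) `|F s x| ≤ C * ‖x‖ ^ (-(d * s))`,
* (translation) `|F s (x + r) - F s x| ≤ C * ‖r‖ * ‖x‖ ^ (-(d * s) - 1)` whenever `‖r‖ ≤ ρ * ‖x‖`,

where `d ≥ 1` is at least the rank of `L`.  Then for every subgroup `A' ≤ A` of finite index `m`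
the difference `∑_{a ∈ A} F s (ι a) - m * ∑_{a ∈ A'} F s (ι a)` is bounded on `(1, 2]`.
-/

set_option autoImplicit false

open Module Filter Topology

namespace Fermat.Agent.S14.helper2

section Majorant

/-- Uniform majorant of `t ^ (-(d s) - e)` for `s ∈ [1, 2]`. -/
lemma rpow_le_majorant (d e : ℝ) (hd : 0 ≤ d) (hde : 0 < d + e) {s : ℝ}
    (hs1 : 1 ≤ s) (hs2 : s ≤ 2) {t : ℝ} (ht : 0 ≤ t) :
    t ^ (-(d * s) - e) ≤ t ^ (-d - e) + t ^ (-(2 * d) - e) := by
  rcases ht.eq_or_lt with h0 | hpos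
  · subst h0
    have h1 : -(d * s) - e ≠ 0 := by nlinarith
    rw [Real.zero_rpow h1]
    have h2 : (0:ℝ) ≤ (0:ℝ) ^ (-d - e) := Real.rpow_nonneg le_rfl _
    have h3 : (0:ℝ) ≤ (0:ℝ) ^ (-(2 * d) - e) := Real.rpow_nonneg le_rfl _
    linarith
  · rcases le_total t 1 with h1 | h1
    · have : t ^ (-(d * s) - e) ≤ t ^ (-(2 * d) - e) :=
        Real.rpow_le_rpow_of_exponent_ge hpos h1 (by nlinarith)
      have h2 : (0:ℝ) ≤ t ^ (-d - e) := Real.rpow_nonneg ht _
      linarith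
    · have : t ^ (-(d * s) - e) ≤ t ^ (-d - e) :=
        Real.rpow_le_rpow_of_exponent_le h1 (by nlinarith)
      have h2 : (0:ℝ) ≤ t ^ (-(2 * d) - e) := Real.rpow_nonneg ht _
      linarith

end Majorant

section Coset

variable {A : Type*} [AddCommGroup A] (A' : AddSubgroup A)

/-- The bijection `(A ⧸ A') × A' ≃ A`, `(q, b) ↦ out q + b`. -/
noncomputable def cosetEquiv : (A ⧸ A') × A' ≃ A where
  toFun x := Quotient.out x.1 + (x.2 : A)
  invFun a := ((a : A ⧸ A'), ⟨-(Quotient.out (a : A ⧸ A')) + a, by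
    rw [← QuotientAddGroup.eq, QuotientAddGroup.out_eq']⟩)
  left_inv := by
    rintro ⟨q, b⟩
    have h1 : ((Quotient.out q + (b : A) : A) : A ⧸ A') = q := by
      rw [QuotientAddGroup.mk_add_of_mem _ b.2, QuotientAddGroup.out_eq']
    ext
    · exact h1
    · simp only [h1]
      simp
  right_inv := by
    intro a
    simp

@[simp] lemma cosetEquiv_apply (x : (A ⧸ A') × A') :
    cosetEquiv A' x = Quotient.out x.1 + (x.2 : A) := rfl

end Coset

section Abstract

variable {E : Type*} [NormedAddCommGroup E] [NormedSpace ℝ E] [FiniteDimensional ℝ E]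
variable (L : Submodule ℤ E) [DiscreteTopology L]
variable {A : Type*} [AddCommGroup A] (ι : A →+ E)

include L in
lemma summable_norm_rpow_comp (hι : Function.Injective ι) (hL : ∀ a, ι a ∈ L) (r : ℝ)
    (hr : r < -Module.finrank ℤ L) : Summable fun a : A => ‖ι a‖ ^ r := by
  have h := ZLattice.summable_norm_rpow L r hr
  have hinj : Function.Injective (fun a : A => (⟨ι a, hL a⟩ : L)) :=
    fun a b hab => hι (by simpa using congrArg Subtype.val hab)
  have h2 := h.comp_injective hinj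
  refine h2.congr fun a => ?_
  rfl

include L in
lemma finite_norm_le (hι : Function.Injective ι) (hL : ∀ a, ι a ∈ L) (R : ℝ) :
    {a : A | ‖ι a‖ ≤ R}.Finite := by
  have H : IsClosed (X := E) L := @AddSubgroup.isClosed_of_discrete _ _ _ _ _
    L.toAddSubgroup (inferInstanceAs (DiscreteTopology L))
  have hfin := Metric.finite_isBounded_inter_isClosed (K := Metric.closedBall (0:E) R)
    (s := (L : Set E)) DiscreteTopology.isDiscrete Metric.isBounded_closedBall H
  refine (hfin.preimage hι.injOn).subset ?_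
  intro a ha
  simp only [Set.mem_preimage, Set.mem_inter_iff, Metric.mem_closedBall, dist_zero_right,
    SetLike.mem_coe]
  exact ⟨ha, hL a⟩

end Abstract

section Main

variable {E : Type*} [NormedAddCommGroup E] [NormedSpace ℝ E] [FiniteDimensional ℝ E]
variable (L : Submodule ℤ E) [DiscreteTopology L]
variable {A : Type*} [AddCommGroup A] (ι : A →+ E)

include L in
/-- Summability of `a ↦ F s (ι a)` from the decay hypothesis. -/
theorem summable_of_decay (hι : Function.Injective ι) (hL : ∀ a, ι a ∈ L)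
    (d : ℕ) (hd1 : 1 ≤ d) (hd : Module.finrank ℤ L ≤ d) (F : ℝ → E → ℝ) (C : ℝ)
    (hdecay : ∀ s : ℝ, 1 < s → s ≤ 2 → ∀ x : E, |F s x| ≤ C * ‖x‖ ^ (-((d : ℝ) * s)))
    {s : ℝ} (hs1 : 1 < s) (hs2 : s ≤ 2) : Summable fun a : A => F s (ι a) := by
  have hd1' : (1 : ℝ) ≤ d := by exact_mod_cast hd1
  have hd' : (Module.finrank ℤ L : ℝ) ≤ d := by exact_mod_cast hd
  have hr : -((d : ℝ) * s) < -(Module.finrank ℤ L : ℝ) := by nlinarith
  have h := (summable_norm_rpow_comp L ι hι hL _ hr).mul_left C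
  refine Summable.of_norm_bounded h fun a => ?_
  rw [Real.norm_eq_abs]
  exact hdecay s hs1 hs2 (ι a)

include L in
/-- **Abstract lattice comparison.** -/
theorem exists_bound_sum_sub (hι : Function.Injective ι) (hL : ∀ a, ι a ∈ L)
    (A' : AddSubgroup A) [A'.FiniteIndex]
    (d : ℕ) (hd1 : 1 ≤ d) (hd : Module.finrank ℤ L ≤ d) (F : ℝ → E → ℝ) (C ρ : ℝ)
    (hC : 0 ≤ C) (hρ : 0 < ρ)
    (hdecay : ∀ s : ℝ, 1 < s → s ≤ 2 → ∀ x : E, |F s x| ≤ C * ‖x‖ ^ (-((d : ℝ) * s)))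
    (htrans : ∀ s : ℝ, 1 < s → s ≤ 2 → ∀ x r : E, ‖r‖ ≤ ρ * ‖x‖ →
      |F s (x + r) - F s x| ≤ C * ‖r‖ * ‖x‖ ^ (-((d : ℝ) * s) - 1)) :
    ∃ B : ℝ, ∀ s : ℝ, 1 < s → s ≤ 2 →
      |∑' a : A, F s (ι a) - (A'.index : ℝ) * ∑' b : A', F s (ι b)| ≤ B := by
  classical
  have hd1' : (1 : ℝ) ≤ d := by exact_mod_cast hd1
  have hd' : (Module.finrank ℤ L : ℝ) ≤ d := by exact_mod_cast hd
  have : Finite (A ⧸ A') := A'.finite_quotient_of_finiteIndex
  let _ : Fintype (A ⧸ A') := Fintype.ofFinite _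
  -- the restriction of `ι` to `A'`
  obtain ⟨ι', hι'⟩ : ∃ ι' : A' →+ E, ∀ b : A', ι' b = ι (b : A) :=
    ⟨ι.comp A'.subtype, fun _ => rfl⟩
  have hι'inj : Function.Injective ι' := by
    intro b b' h
    rw [hι', hι'] at h
    exact Subtype.ext (hι h)
  have hL' : ∀ b, ι' b ∈ L := fun b => by rw [hι']; exact hL _
  -- coset representatives
  obtain ⟨r, hr⟩ : ∃ r : A ⧸ A' → E, ∀ q, r q = ι (Quotient.out q) := ⟨_, fun _ => rfl⟩
  -- the majorant
  obtain ⟨T, hT⟩ : ∃ T : A ⧸ A' → A' → ℝ, ∀ q b, T q b =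
    C * ‖r q‖ * (‖ι' b‖ ^ (-(d : ℝ) - 1) + ‖ι' b‖ ^ (-(2 * (d : ℝ)) - 1)) +
      (if ρ * ‖ι' b‖ < ‖r q‖ then
        C * (‖ι' b + r q‖ ^ (-(d : ℝ) - 0) + ‖ι' b + r q‖ ^ (-(2 * (d : ℝ)) - 0)) +
          C * (‖ι' b‖ ^ (-(d : ℝ) - 0) + ‖ι' b‖ ^ (-(2 * (d : ℝ)) - 0))
      else 0) := ⟨_, fun _ _ => rfl⟩
  have hTsum : ∀ q, Summable (T q) := by
    intro q
    have hTq : T q = fun b => C * ‖r q‖ * (‖ι' b‖ ^ (-(d : ℝ) - 1) + ‖ι' b‖ ^ (-(2 * (d : ℝ)) - 1)) +
      (if ρ * ‖ι' b‖ < ‖r q‖ then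
        C * (‖ι' b + r q‖ ^ (-(d : ℝ) - 0) + ‖ι' b + r q‖ ^ (-(2 * (d : ℝ)) - 0)) +
          C * (‖ι' b‖ ^ (-(d : ℝ) - 0) + ‖ι' b‖ ^ (-(2 * (d : ℝ)) - 0))
      else 0) := funext fun b => hT q b
    rw [hTq]
    refine Summable.add ?_ ?_
    · refine Summable.mul_left _ (Summable.add ?_ ?_)
      · exact summable_norm_rpow_comp L ι' hι'inj hL' _ (by linarith)
      · exact summable_norm_rpow_comp L ι' hι'inj hL' _ (by linarith)
    · refine summable_of_hasFiniteSupport ?_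
      refine (finite_norm_le L ι' hι'inj hL' (‖r q‖ / ρ)).subset ?_
      intro b hb
      simp only [Function.mem_support, ne_eq, ite_eq_right_iff, Classical.not_imp] at hb
      simp only [Set.mem_ofPred_eq]
      rw [le_div_iff₀ hρ]
      linarith [hb.1]
  have hTbound : ∀ s : ℝ, 1 < s → s ≤ 2 → ∀ q b,
      |F s (r q + ι' b) - F s (ι' b)| ≤ T q b := by
    intro s hs1 hs2 q b
    rw [hT]
    have hn1 : (0:ℝ) ≤ ‖ι' b‖ := norm_nonneg _
    have hn2 : (0:ℝ) ≤ ‖ι' b + r q‖ := norm_nonneg _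
    have hM1 := rpow_le_majorant (d : ℝ) 1 (by linarith) (by linarith) hs1.le hs2 hn1
    have hM0 := rpow_le_majorant (d : ℝ) 0 (by linarith) (by linarith) hs1.le hs2 hn1
    have hM0' := rpow_le_majorant (d : ℝ) 0 (by linarith) (by linarith) hs1.le hs2 hn2
    have hpos1 : 0 ≤ C * ‖r q‖ * (‖ι' b‖ ^ (-(d : ℝ) - 1) + ‖ι' b‖ ^ (-(2 * (d : ℝ)) - 1)) := by
      have := Real.rpow_nonneg hn1 (-(d : ℝ) - 1)
      have := Real.rpow_nonneg hn1 (-(2 * (d : ℝ)) - 1)
      positivity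
    by_cases hcase : ρ * ‖ι' b‖ < ‖r q‖
    · rw [if_pos hcase]
      have h1 := hdecay s hs1 hs2 (ι' b + r q)
      have h2 := hdecay s hs1 hs2 (ι' b)
      have h3 : |F s (r q + ι' b) - F s (ι' b)| ≤ |F s (ι' b + r q)| + |F s (ι' b)| := by
        rw [add_comm (r q)]
        exact abs_sub _ _
      have h4 : C * ‖ι' b + r q‖ ^ (-((d : ℝ) * s)) ≤
          C * (‖ι' b + r q‖ ^ (-(d : ℝ) - 0) + ‖ι' b + r q‖ ^ (-(2 * (d : ℝ)) - 0)) := by
        apply mul_le_mul_of_nonneg_left _ hC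
        simpa using hM0'
      have h5 : C * ‖ι' b‖ ^ (-((d : ℝ) * s)) ≤
          C * (‖ι' b‖ ^ (-(d : ℝ) - 0) + ‖ι' b‖ ^ (-(2 * (d : ℝ)) - 0)) := by
        apply mul_le_mul_of_nonneg_left _ hC
        simpa using hM0
      linarith
    · rw [if_neg hcase, add_zero]
      rw [not_lt] at hcase
      have h1 := htrans s hs1 hs2 (ι' b) (r q) hcase
      rw [add_comm (r q)]
      refine h1.trans ?_
      have : C * ‖r q‖ * ‖ι' b‖ ^ (-((d : ℝ) * s) - 1) ≤
          C * ‖r q‖ * (‖ι' b‖ ^ (-(d : ℝ) - 1) + ‖ι' b‖ ^ (-(2 * (d : ℝ)) - 1)) := by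
        apply mul_le_mul_of_nonneg_left hM1
        positivity
      exact this
  refine ⟨∑ q, ∑' b, T q b, fun s hs1 hs2 => ?_⟩
  have hS : Summable fun a : A => F s (ι a) :=
    summable_of_decay L ι hι hL d hd1 hd F C hdecay hs1 hs2
  have hS' : Summable fun b : A' => F s (ι' b) := by
    refine (hS.comp_injective (Subtype.val_injective (p := fun a => a ∈ A'))).congr fun b => ?_
    simp only [Function.comp_apply, hι']
  have hSq : ∀ q : A ⧸ A', Summable fun b : A' => F s (r q + ι' b) := by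
    intro q
    have hinj : Function.Injective (fun b : A' => Quotient.out q + (b : A)) :=
      fun b b' h => Subtype.ext (add_left_cancel h)
    refine (hS.comp_injective hinj).congr fun b => ?_
    simp only [Function.comp_apply, map_add, hr, hι']
  have e1 : ∑' a : A, F s (ι a) = ∑ q, ∑' b : A', F s (r q + ι' b) := by
    have hprod : Summable fun x : (A ⧸ A') × A' => F s (r x.1 + ι' x.2) := by
      have h := hS.comp_injective (cosetEquiv A').injective
      refine h.congr fun x => ?_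
      simp only [Function.comp_apply, cosetEquiv_apply, map_add, hr, hι']
    have h1 : ∑' a : A, F s (ι a) = ∑' x : (A ⧸ A') × A', F s (r x.1 + ι' x.2) := by
      rw [← (cosetEquiv A').tsum_eq (fun a => F s (ι a))]
      refine tsum_congr fun x => ?_
      simp only [cosetEquiv_apply, map_add, hr, hι']
    rw [h1, hprod.tsum_prod, tsum_fintype]
  have e2 : (A'.index : ℝ) * ∑' b : A', F s (ι b) = ∑ q : A ⧸ A', ∑' b : A', F s (ι' b) := by
    rw [Finset.sum_const, Finset.card_univ, AddSubgroup.index_eq_card, Nat.card_eq_fintype_card,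
      nsmul_eq_mul]
    congr 1
    exact tsum_congr fun b => by rw [hι']
  rw [e1, e2, ← Finset.sum_sub_distrib]
  refine (Finset.abs_sum_le_sum_abs _ _).trans ?_
  refine Finset.sum_le_sum fun q _ => ?_
  rw [← (hSq q).tsum_sub hS', ← Real.norm_eq_abs]
  refine tsum_of_norm_bounded (hTsum q).hasSum fun b => ?_
  rw [Real.norm_eq_abs]
  exact hTbound s hs1 hs2 q b

end Main

end Fermat.Agent.S14.helper2
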