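import Mathlib
import Fermat.Agent.S14.helper2_LatticeSum
import Fermat.Agent.S14.helper34_Defs
import Fermat.Agent.S14.helper78_OrbitSum

/-!
# S14 / AN0 : boundedness of differences of partial zeta functions (helper2)

Number field specialisation of the abstract lattice comparison, pole bound via `J = (2)`,
and the assembly `AN0` for `helper34.partialZeta`, with the estimates on `helper34.G`
(decay, homogeneity, translation) as hypotheses.
-/

set_option autoImplicit false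

open NumberField NumberField.mixedEmbedding
open scoped nonZeroDivisors

namespace Fermat.Agent.S14.helper2

section NF

variable (K : Type*) [Field K] [NumberField K]

/-- The additive map `𝓞 K → mixedSpace K`. -/
noncomputable def intEmb : 𝓞 K →+ mixedSpace K :=
  (mixedEmbedding K).toAddMonoidHom.comp (algebraMap (𝓞 K) K).toAddMonoidHom

omit [NumberField K] in
@[simp] lemma intEmb_apply (a : 𝓞 K) : intEmb K a = mixedEmbedding K (a : K) := rfl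

lemma intEmb_injective : Function.Injective (intEmb K) := by
  intro a b h
  simp only [intEmb_apply] at h
  exact RingOfIntegers.ext ((mixedEmbedding_injective K) h)

omit [NumberField K] in
lemma intEmb_mem (a : 𝓞 K) : intEmb K a ∈ mixedEmbedding.integerLattice K := by
  rw [intEmb_apply]
  exact ⟨a, rfl⟩

open scoped Classical in
lemma finrank_integerLattice :
    Module.finrank ℤ (mixedEmbedding.integerLattice K) = Module.finrank ℚ K := by
  have h := ZLattice.rank (K := ℝ) (E := mixedSpace K) (L := mixedEmbedding.integerLattice K)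
  rw [mixedEmbedding.finrank] at h
  exact h

open scoped Classical in
/-- **(L2)** Lattice comparison for an ideal `J` of `𝓞 K`. -/
theorem exists_bound_ideal (F : ℝ → mixedSpace K → ℝ) (C ρ : ℝ) (hC : 0 ≤ C) (hρ : 0 < ρ)
    (hdecay : ∀ s : ℝ, 1 < s → s ≤ 2 → ∀ x : mixedSpace K,
      |F s x| ≤ C * ‖x‖ ^ (-((Module.finrank ℚ K : ℝ) * s)))
    (htrans : ∀ s : ℝ, 1 < s → s ≤ 2 → ∀ x r : mixedSpace K, ‖r‖ ≤ ρ * ‖x‖ →
      |F s (x + r) - F s x| ≤ C * ‖r‖ * ‖x‖ ^ (-((Module.finrank ℚ K : ℝ) * s) - 1))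
    (J : (Ideal (𝓞 K))⁰) :
    ∃ B : ℝ, ∀ s : ℝ, 1 < s → s ≤ 2 →
      |∑' a : 𝓞 K, F s (mixedEmbedding K (a : K)) -
        (Ideal.absNorm (J : Ideal (𝓞 K)) : ℝ) *
          ∑' a : (J : Ideal (𝓞 K)), F s (mixedEmbedding K ((a : 𝓞 K) : K))| ≤ B := by
  have hJ0 : Ideal.absNorm (J : Ideal (𝓞 K)) ≠ 0 :=
    (Ideal.absNorm_pos_of_nonZeroDivisors J).ne'
  have : (Submodule.toAddSubgroup (J : Ideal (𝓞 K))).FiniteIndex := ⟨hJ0⟩
  have hd1 : 1 ≤ Module.finrank ℚ K := Module.finrank_pos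
  obtain ⟨B, hB⟩ := exists_bound_sum_sub (E := mixedSpace K) (mixedEmbedding.integerLattice K)
    (intEmb K) (intEmb_injective K) (intEmb_mem K) (Submodule.toAddSubgroup (J : Ideal (𝓞 K)))
    (Module.finrank ℚ K) hd1 (finrank_integerLattice K).le F C ρ hC hρ hdecay htrans
  exact ⟨B, fun s hs1 hs2 => hB s hs1 hs2⟩

/-- Elementary lower bound: `1 - 2^n * 2^(-(n s)) ≥ c (s - 1)` on `(1, 2]`. -/
lemma one_sub_two_rpow_ge (n : ℕ) {s : ℝ} (hs1 : 1 < s) (hs2 : s ≤ 2) :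
    (s - 1) * ((n : ℝ) * Real.log 2 / (1 + n * Real.log 2)) ≤
      1 - (2 : ℝ) ^ n * (2 : ℝ) ^ (-((n : ℝ) * s)) := by
  have hlog : 0 < Real.log 2 := Real.log_pos (by norm_num)
  have hn0 : (0 : ℝ) ≤ n := Nat.cast_nonneg n
  set t : ℝ := (n : ℝ) * (s - 1) * Real.log 2 with ht
  have ht0 : 0 ≤ t := by
    have : 0 ≤ s - 1 := by linarith
    positivity
  have htn : t ≤ n * Real.log 2 := by
    have h1 : (n : ℝ) * (s - 1) ≤ n * 1 := mul_le_mul_of_nonneg_left (by linarith) hn0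
    calc t = ((n : ℝ) * (s - 1)) * Real.log 2 := rfl
      _ ≤ ((n : ℝ) * 1) * Real.log 2 := mul_le_mul_of_nonneg_right h1 hlog.le
      _ = n * Real.log 2 := by ring
  have hexp : (2 : ℝ) ^ n * (2 : ℝ) ^ (-((n : ℝ) * s)) = Real.exp (-t) := by
    rw [← Real.rpow_natCast, ← Real.rpow_add (by norm_num : (0:ℝ) < 2),
      Real.rpow_def_of_pos (by norm_num : (0:ℝ) < 2)]
    congr 1
    rw [ht]; ring
  rw [hexp]
  -- `exp (-t) ≤ 1 / (1 + t)`
  have h1 : (1 + t) * Real.exp (-t) ≤ 1 := by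
    have h2 : 1 + t ≤ Real.exp t := by linarith [Real.add_one_le_exp t]
    have h3 : Real.exp t * Real.exp (-t) = 1 := by rw [← Real.exp_add]; simp
    have h4 : 0 ≤ Real.exp (-t) := (Real.exp_pos _).le
    nlinarith
  have hpos : 0 < 1 + (n : ℝ) * Real.log 2 := by positivity
  have hpos' : 0 < 1 + t := by linarith
  have h5 : Real.exp (-t) ≤ 1 / (1 + t) := by
    rw [le_div_iff₀ hpos']; linarith
  have h6 : t / (1 + (n : ℝ) * Real.log 2) ≤ t / (1 + t) :=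
    div_le_div_of_nonneg_left ht0 hpos' (by linarith)
  have h7 : 1 - 1 / (1 + t) = t / (1 + t) := by
    field_simp; ring
  have h8 : (s - 1) * ((n : ℝ) * Real.log 2 / (1 + n * Real.log 2)) =
      t / (1 + (n : ℝ) * Real.log 2) := by
    rw [ht]; ring
  rw [h8]
  linarith

lemma absNorm_span_two :
    Ideal.absNorm (Ideal.span {(2 : 𝓞 K)}) = 2 ^ Module.finrank ℚ K := by
  rw [Ideal.absNorm_span_singleton]
  have h : (2 : 𝓞 K) = algebraMap ℤ (𝓞 K) 2 := by simp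
  rw [h, Algebra.norm_algebraMap, RingOfIntegers.rank]
  simp [Int.natAbs_pow]

/-- The nonzero ideal `(2)`. -/
noncomputable def twoIdeal : (Ideal (𝓞 K))⁰ :=
  ⟨Ideal.span {(2 : 𝓞 K)}, mem_nonZeroDivisors_of_ne_zero (by
    intro h
    exact two_ne_zero (Ideal.span_singleton_eq_bot.mp h))⟩

/-- The bijection `a ↦ 2 a` from `𝓞 K` onto the ideal `(2)`. -/
noncomputable def mulTwoEquiv : 𝓞 K ≃ ((twoIdeal K : (Ideal (𝓞 K))⁰) : Ideal (𝓞 K)) :=
  Equiv.ofBijective (fun a => ⟨2 * a, Ideal.mem_span_singleton.mpr ⟨a, rfl⟩⟩) (by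
    constructor
    · intro a b h
      have h2 : (2 : 𝓞 K) * a = 2 * b := congrArg Subtype.val h
      exact mul_left_cancel₀ two_ne_zero h2
    · rintro ⟨x, hx⟩
      obtain ⟨a, rfl⟩ := Ideal.mem_span_singleton.mp hx
      exact ⟨a, rfl⟩)

lemma mulTwoEquiv_coe (a : 𝓞 K) : ((mulTwoEquiv K a : 𝓞 K)) = 2 * a := rfl

omit [NumberField K] in
lemma mixedEmbedding_two_mul (a : 𝓞 K) :
    mixedEmbedding K (((2 * a : 𝓞 K)) : K) = (2 : ℝ) • mixedEmbedding K (a : K) := by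
  rw [two_mul, two_smul]
  push_cast
  rw [map_add]

open scoped Classical in
/-- **(L3)** Pole bound: `|∑_{a ∈ 𝓞 K} F s a| ≤ B / (s - 1)` on `(1, 2]`. -/
theorem exists_pole_bound (F : ℝ → mixedSpace K → ℝ) (C ρ : ℝ) (hC : 0 ≤ C) (hρ : 0 < ρ)
    (hdecay : ∀ s : ℝ, 1 < s → s ≤ 2 → ∀ x : mixedSpace K,
      |F s x| ≤ C * ‖x‖ ^ (-((Module.finrank ℚ K : ℝ) * s)))
    (htrans : ∀ s : ℝ, 1 < s → s ≤ 2 → ∀ x r : mixedSpace K, ‖r‖ ≤ ρ * ‖x‖ →
      |F s (x + r) - F s x| ≤ C * ‖r‖ * ‖x‖ ^ (-((Module.finrank ℚ K : ℝ) * s) - 1))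
    (hhom : ∀ s : ℝ, 1 < s → s ≤ 2 → ∀ x : mixedSpace K,
      F s ((2 : ℝ) • x) = (2 : ℝ) ^ (-((Module.finrank ℚ K : ℝ) * s)) * F s x) :
    ∃ B : ℝ, 0 ≤ B ∧ ∀ s : ℝ, 1 < s → s ≤ 2 →
      |∑' a : 𝓞 K, F s (mixedEmbedding K (a : K))| ≤ B / (s - 1) := by
  obtain ⟨B, hB⟩ := exists_bound_ideal K F C ρ hC hρ hdecay htrans (twoIdeal K)
  set n := Module.finrank ℚ K with hn
  have hn1 : 1 ≤ n := Module.finrank_pos
  have hlog : 0 < Real.log 2 := Real.log_pos (by norm_num)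
  set c : ℝ := (n : ℝ) * Real.log 2 / (1 + n * Real.log 2) with hc
  have hcpos : 0 < c := by
    have : (0:ℝ) < n := by exact_mod_cast hn1
    positivity
  have hB0 : 0 ≤ B := (abs_nonneg _).trans (hB 2 (by norm_num) le_rfl)
  refine ⟨B / c, div_nonneg hB0 hcpos.le, fun s hs1 hs2 => ?_⟩
  have h1 := hB s hs1 hs2
  have h2 : ∑' a : ((twoIdeal K : (Ideal (𝓞 K))⁰) : Ideal (𝓞 K)),
      F s (mixedEmbedding K ((a : 𝓞 K) : K)) =
      (2 : ℝ) ^ (-((n : ℝ) * s)) * ∑' a : 𝓞 K, F s (mixedEmbedding K (a : K)) := by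
    rw [← (mulTwoEquiv K).tsum_eq, ← tsum_mul_left]
    refine tsum_congr fun a => ?_
    rw [mulTwoEquiv_coe, mixedEmbedding_two_mul, hhom s hs1 hs2]
  have h3 : (Ideal.absNorm ((twoIdeal K : (Ideal (𝓞 K))⁰) : Ideal (𝓞 K)) : ℝ) = (2 : ℝ) ^ n := by
    have : ((twoIdeal K : (Ideal (𝓞 K))⁰) : Ideal (𝓞 K)) = Ideal.span {(2 : 𝓞 K)} := rfl
    rw [this, absNorm_span_two]
    push_cast
    rfl
  rw [h2, h3] at h1
  set S := ∑' a : 𝓞 K, F s (mixedEmbedding K (a : K)) with hS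
  have h4 : S - (2 : ℝ) ^ n * ((2 : ℝ) ^ (-((n : ℝ) * s)) * S) =
      (1 - (2 : ℝ) ^ n * (2 : ℝ) ^ (-((n : ℝ) * s))) * S := by ring
  rw [h4, abs_mul] at h1
  have h5 := one_sub_two_rpow_ge n hs1 hs2
  have hs0 : 0 < s - 1 := by linarith
  have h6 : 0 < (s - 1) * c := by positivity
  have h7 : (s - 1) * c ≤ |1 - (2 : ℝ) ^ n * (2 : ℝ) ^ (-((n : ℝ) * s))| :=
    h5.trans (le_abs_self _)
  have h8 : (s - 1) * c * |S| ≤ B :=
    (mul_le_mul_of_nonneg_right h7 (abs_nonneg S)).trans h1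
  rw [div_div, le_div_iff₀ (by positivity)]
  calc |S| * (c * (s - 1)) = (s - 1) * c * |S| := by ring
    _ ≤ B := h8

lemma abs_rpow_sub_one_le {a : ℝ} (ha : 1 ≤ a) {s : ℝ} (hs1 : 1 < s) (hs2 : s ≤ 2) :
    |a ^ (s - 1) - 1| ≤ (a - 1) * (s - 1) := by
  have h1 : 1 ≤ a ^ (s - 1) := Real.one_le_rpow ha (by linarith)
  have h2 := _root_.rpow_one_add_le_one_add_mul_self (s := a - 1) (by linarith)
    (p := s - 1) (by linarith) (by linarith)
  rw [show 1 + (a - 1) = a by ring] at h2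
  rw [abs_of_nonneg (by linarith)]
  linarith

open Fermat.Agent.S14.helper34 in
open scoped Classical in
/-- **Comparison of `w * ζ_C(s)` with the lattice sum over `𝓞 K`.** -/
theorem exists_bound_partialZeta_sub (C₀ ρ : ℝ) (hC : 0 ≤ C₀) (hρ : 0 < ρ)
    (hdecay : ∀ s : ℝ, 1 < s → s ≤ 2 → ∀ x : mixedSpace K,
      |G K s x| ≤ C₀ * ‖x‖ ^ (-((Module.finrank ℚ K : ℝ) * s)))
    (htrans : ∀ s : ℝ, 1 < s → s ≤ 2 → ∀ x r : mixedSpace K, ‖r‖ ≤ ρ * ‖x‖ →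
      |G K s (x + r) - G K s x| ≤ C₀ * ‖r‖ * ‖x‖ ^ (-((Module.finrank ℚ K : ℝ) * s) - 1))
    (hhom : ∀ s : ℝ, 1 < s → s ≤ 2 → ∀ x : mixedSpace K,
      G K s ((2 : ℝ) • x) = (2 : ℝ) ^ (-((Module.finrank ℚ K : ℝ) * s)) * G K s x)
    (C : ClassGroup (𝓞 K)) :
    ∃ B : ℝ, ∀ s : ℝ, 1 < s → s ≤ 2 →
      |(NumberField.Units.torsionOrder K : ℝ) * partialZeta K C s -
        ∑' a : 𝓞 K, G K s (mixedEmbedding K (a : K))| ≤ B := by
  obtain ⟨J, hJ⟩ := ClassGroup.mk0_surjective (C⁻¹)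
  obtain ⟨B₀, hB₀0, hB₀⟩ := exists_pole_bound K (G K) C₀ ρ hC hρ hdecay htrans hhom
  obtain ⟨BJ, hBJ⟩ := exists_bound_ideal K (G K) C₀ ρ hC hρ hdecay htrans J
  set N : ℝ := (Ideal.absNorm (J : Ideal (𝓞 K)) : ℝ) with hN
  have hN1 : 1 ≤ N := by
    have := Ideal.absNorm_pos_of_nonZeroDivisors J
    rw [hN]; exact_mod_cast this
  refine ⟨(N - 1) * B₀ + N * BJ, fun s hs1 hs2 => ?_⟩
  have hsumO : Summable fun a : 𝓞 K => G K s (mixedEmbedding K (a : K)) :=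
    summable_of_decay (E := mixedSpace K) (mixedEmbedding.integerLattice K)
      (intEmb K) (intEmb_injective K) (intEmb_mem K) (Module.finrank ℚ K) Module.finrank_pos
      (finrank_integerLattice K).le (G K) C₀ hdecay hs1 hs2
  have hsumJ : Summable fun a : (J : Ideal (𝓞 K)) => G K s (mixedEmbedding K ((a : 𝓞 K) : K)) :=
    hsumO.comp_injective Subtype.val_injective
  have hz := Fermat.Agent.S14.helper78.torsionOrder_mul_partialZeta K C J hJ s hs1 hsumJ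
  rw [hz]
  set SO := ∑' a : 𝓞 K, G K s (mixedEmbedding K (a : K)) with hSO
  set SJ := ∑' a : (J : Ideal (𝓞 K)), G K s (mixedEmbedding K ((a : 𝓞 K) : K)) with hSJ
  have h1 : |SO - N * SJ| ≤ BJ := hBJ s hs1 hs2
  have h2 : |SO| ≤ B₀ / (s - 1) := hB₀ s hs1 hs2
  have hs0 : 0 < s - 1 := by linarith
  have hNpos : 0 < N := by linarith
  have h3 : N ^ s = N ^ (s - 1) * N := by
    rw [← Real.rpow_add_one hNpos.ne']
    congr 1; ring
  have h4 : |N ^ (s - 1) - 1| ≤ (N - 1) * (s - 1) := abs_rpow_sub_one_le hN1 hs1 hs2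
  have h5 : N ^ (s - 1) ≤ N := by
    calc N ^ (s - 1) ≤ N ^ (1 : ℝ) := Real.rpow_le_rpow_of_exponent_le hN1 (by linarith)
      _ = N := Real.rpow_one N
  have h5' : 0 ≤ N ^ (s - 1) := Real.rpow_nonneg hNpos.le _
  have h6 : N ^ s * SJ - SO = (N ^ (s - 1) - 1) * SO - N ^ (s - 1) * (SO - N * SJ) := by
    rw [h3]; ring
  rw [h6]
  have h7 : |(N ^ (s - 1) - 1) * SO| ≤ (N - 1) * B₀ := by
    rw [abs_mul]
    calc |N ^ (s - 1) - 1| * |SO| ≤ ((N - 1) * (s - 1)) * (B₀ / (s - 1)) :=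
          mul_le_mul h4 h2 (abs_nonneg _) (by nlinarith)
      _ = (N - 1) * B₀ := by field_simp
  have h8 : |N ^ (s - 1) * (SO - N * SJ)| ≤ N * BJ := by
    rw [abs_mul, abs_of_nonneg h5']
    exact mul_le_mul h5 h1 (abs_nonneg _) hNpos.le
  calc |(N ^ (s - 1) - 1) * SO - N ^ (s - 1) * (SO - N * SJ)|
      ≤ |(N ^ (s - 1) - 1) * SO| + |N ^ (s - 1) * (SO - N * SJ)| := abs_sub _ _
    _ ≤ (N - 1) * B₀ + N * BJ := add_le_add h7 h8

open Fermat.Agent.S14.helper34 in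
open scoped Classical in
/-- **AN0, summability** (`hsum` of task 154). -/
theorem summable_partialZeta_of_estimates (C₀ : ℝ)
    (hdecay : ∀ s : ℝ, 1 < s → s ≤ 2 → ∀ x : mixedSpace K,
      |G K s x| ≤ C₀ * ‖x‖ ^ (-((Module.finrank ℚ K : ℝ) * s)))
    (C : ClassGroup (𝓞 K)) (s : ℝ) (hs : 1 < s) :
    Summable fun I : {I : (Ideal (𝓞 K))⁰ // ClassGroup.mk0 I = C} =>
      ((Ideal.absNorm (I.1 : Ideal (𝓞 K)) : ℝ)) ^ (-s) := by
  obtain ⟨J, hJ⟩ := ClassGroup.mk0_surjective (C⁻¹)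
  have key : ∀ t : ℝ, 1 < t → t ≤ 2 →
      Summable fun I : {I : (Ideal (𝓞 K))⁰ // ClassGroup.mk0 I = C} =>
        ((Ideal.absNorm (I.1 : Ideal (𝓞 K)) : ℝ)) ^ (-t) := by
    intro t ht1 ht2
    have hsumO : Summable fun a : 𝓞 K => G K t (mixedEmbedding K (a : K)) :=
      summable_of_decay (E := mixedSpace K) (mixedEmbedding.integerLattice K)
        (intEmb K) (intEmb_injective K) (intEmb_mem K) (Module.finrank ℚ K) Module.finrank_pos
        (finrank_integerLattice K).le (G K) C₀ hdecay ht1 ht2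
    have hsumJ : Summable fun a : (J : Ideal (𝓞 K)) =>
        G K t (mixedEmbedding K ((a : 𝓞 K) : K)) :=
      hsumO.comp_injective Subtype.val_injective
    exact Fermat.Agent.S14.helper78.summable_partialZeta K C J hJ t ht1 hsumJ
  rcases le_total s 2 with h2 | h2
  · exact key s hs h2
  · refine Summable.of_nonneg_of_le (fun I => Real.rpow_nonneg (Nat.cast_nonneg _) _)
      (fun I => ?_) (key 2 (by norm_num) le_rfl)
    have hI : (1 : ℝ) ≤ (Ideal.absNorm (I.1 : Ideal (𝓞 K)) : ℝ) := by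
      have := Ideal.absNorm_pos_of_nonZeroDivisors I.1
      exact_mod_cast this
    exact Real.rpow_le_rpow_of_exponent_le hI (by linarith)

open Fermat.Agent.S14.helper34 in
open scoped Classical in
/-- **AN0** (`hAN0` of task 154): partial zeta functions of two classes differ by a bounded
function on `(1, 2]`. -/
theorem partialZeta_sub_bounded_of_estimates (C₀ ρ : ℝ) (hC : 0 ≤ C₀) (hρ : 0 < ρ)
    (hdecay : ∀ s : ℝ, 1 < s → s ≤ 2 → ∀ x : mixedSpace K,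
      |G K s x| ≤ C₀ * ‖x‖ ^ (-((Module.finrank ℚ K : ℝ) * s)))
    (htrans : ∀ s : ℝ, 1 < s → s ≤ 2 → ∀ x r : mixedSpace K, ‖r‖ ≤ ρ * ‖x‖ →
      |G K s (x + r) - G K s x| ≤ C₀ * ‖r‖ * ‖x‖ ^ (-((Module.finrank ℚ K : ℝ) * s) - 1))
    (hhom : ∀ s : ℝ, 1 < s → s ≤ 2 → ∀ x : mixedSpace K,
      G K s ((2 : ℝ) • x) = (2 : ℝ) ^ (-((Module.finrank ℚ K : ℝ) * s)) * G K s x)
    (C C' : ClassGroup (𝓞 K)) :
    ∃ B : ℝ, ∀ s : ℝ, 1 < s → s ≤ 2 → |partialZeta K C s - partialZeta K C' s| ≤ B := by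
  obtain ⟨B₁, hB₁⟩ := exists_bound_partialZeta_sub K C₀ ρ hC hρ hdecay htrans hhom C
  obtain ⟨B₂, hB₂⟩ := exists_bound_partialZeta_sub K C₀ ρ hC hρ hdecay htrans hhom C'
  set w : ℝ := (NumberField.Units.torsionOrder K : ℝ) with hw
  have hw1 : 1 ≤ w := by
    have := NumberField.Units.torsionOrder_pos K
    rw [hw]; exact_mod_cast this
  refine ⟨B₁ + B₂, fun s hs1 hs2 => ?_⟩
  have h1 := hB₁ s hs1 hs2
  have h2 := hB₂ s hs1 hs2
  set S := ∑' a : 𝓞 K, G K s (mixedEmbedding K (a : K))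
  have h3 : |w * partialZeta K C s - w * partialZeta K C' s| ≤ B₁ + B₂ := by
    have : w * partialZeta K C s - w * partialZeta K C' s =
        (w * partialZeta K C s - S) - (w * partialZeta K C' s - S) := by ring
    rw [this]
    exact (abs_sub _ _).trans (add_le_add h1 h2)
  rw [← mul_sub, abs_mul, abs_of_nonneg (by linarith : (0:ℝ) ≤ w)] at h3
  calc |partialZeta K C s - partialZeta K C' s|
      ≤ w * |partialZeta K C s - partialZeta K C' s| :=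
        le_mul_of_one_le_left (abs_nonneg _) hw1
    _ ≤ B₁ + B₂ := h3

open Fermat.Agent.S14.helper34 in
open scoped Classical in
/-- **AN0'** (`hAN0'` of task 154): pole bound `partialZeta K C s ≤ B / (s - 1)` on `(1, 2]`. -/
theorem partialZeta_le_of_estimates (C₀ ρ : ℝ) (hC : 0 ≤ C₀) (hρ : 0 < ρ)
    (hdecay : ∀ s : ℝ, 1 < s → s ≤ 2 → ∀ x : mixedSpace K,
      |G K s x| ≤ C₀ * ‖x‖ ^ (-((Module.finrank ℚ K : ℝ) * s)))
    (htrans : ∀ s : ℝ, 1 < s → s ≤ 2 → ∀ x r : mixedSpace K, ‖r‖ ≤ ρ * ‖x‖ →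
      |G K s (x + r) - G K s x| ≤ C₀ * ‖r‖ * ‖x‖ ^ (-((Module.finrank ℚ K : ℝ) * s) - 1))
    (hhom : ∀ s : ℝ, 1 < s → s ≤ 2 → ∀ x : mixedSpace K,
      G K s ((2 : ℝ) • x) = (2 : ℝ) ^ (-((Module.finrank ℚ K : ℝ) * s)) * G K s x)
    (C : ClassGroup (𝓞 K)) :
    ∃ B : ℝ, ∀ s : ℝ, 1 < s → s ≤ 2 → partialZeta K C s ≤ B / (s - 1) := by
  obtain ⟨B₁, hB₁⟩ := exists_bound_partialZeta_sub K C₀ ρ hC hρ hdecay htrans hhom C
  obtain ⟨B₀, hB₀0, hB₀⟩ := exists_pole_bound K (G K) C₀ ρ hC hρ hdecay htrans hhom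
  set w : ℝ := (NumberField.Units.torsionOrder K : ℝ) with hw
  have hw1 : 1 ≤ w := by
    have := NumberField.Units.torsionOrder_pos K
    rw [hw]; exact_mod_cast this
  have hB₁0 : 0 ≤ B₁ := (abs_nonneg _).trans (hB₁ 2 (by norm_num) le_rfl)
  refine ⟨B₀ + B₁, fun s hs1 hs2 => ?_⟩
  have h1 := hB₁ s hs1 hs2
  have h2 := hB₀ s hs1 hs2
  have hs0 : 0 < s - 1 := by linarith
  set S := ∑' a : 𝓞 K, G K s (mixedEmbedding K (a : K))
  have h3 : w * partialZeta K C s ≤ B₀ / (s - 1) + B₁ := by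
    have h4 : w * partialZeta K C s - S ≤ B₁ := (le_abs_self _).trans h1
    have h5 : S ≤ B₀ / (s - 1) := (le_abs_self _).trans h2
    linarith
  have h6 : B₁ ≤ B₁ / (s - 1) := by
    rw [le_div_iff₀ hs0]
    nlinarith
  have h7 : B₀ / (s - 1) + B₁ ≤ (B₀ + B₁) / (s - 1) := by
    rw [add_div]; linarith
  have hζ0 : 0 ≤ partialZeta K C s :=
    tsum_nonneg fun I => Real.rpow_nonneg (Nat.cast_nonneg _) _
  calc partialZeta K C s ≤ w * partialZeta K C s := le_mul_of_one_le_left hζ0 hw1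
    _ ≤ B₀ / (s - 1) + B₁ := h3
    _ ≤ (B₀ + B₁) / (s - 1) := h7

end NF

end Fermat.Agent.S14.helper2
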