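import Mathlib

/-!
# S14 (2c-Aux): auxiliary primes for the Artin crossing (helper30)

For an odd prime `p`, distinct primes `q ≠ r` (both `≠ p`), exponents `a b` with `p ∤ b` and a
finite set `S` of natural numbers, there is a prime `ℓ ∉ S` with `ℓ ≡ 1 mod p` such that
`q ^ a * r ^ b` is a `p`-th power modulo `ℓ` while `q` is not.

The proof applies the zeta-pole lemma ("in a nontrivial Galois extension of number fields there is
a prime of absolute degree one, outside any finite set, that does not split completely") to the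
Kummer extension `F'' = F(q^(1/p))` of `F = ℚ(ζ_p, (q^a r^b)^(1/p))`.  The zeta-pole lemma is taken
as a hypothesis (`ZetaPoleShape`, the shape (Z3) of helper69; it is definitionally equal to
`Fermat.Agent.S14.helper58.ZetaPoleHyp`) so that this file only depends on Mathlib.

Main declarations (namespace `Fermat.Agent.S14.helper30`):
* `ZetaPoleShape` : the shape of (Z3) used here;
* `exists_aux_prime_of_zetaPole` : the auxiliary prime, from `ZetaPoleShape`;
* `auxPrimeStatement_of_zetaPole` : the same in the binder shape of `helper10.AuxPrimeStatement`;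
* `not_pow_in_kummer` : Kummer independence (`q` is not a `p`-th power in `K((q^a r^b)^(1/p))`);
* `exists_stabilizer_ne_one` : a prime with `#primesOver ≠ degree` in a Galois extension has a
  prime above it with nontrivial decomposition group;
* `residue_facts`, `not_residue` : the residue computations at a degree-one prime.
-/

set_option autoImplicit false

open Polynomial NumberField

namespace Fermat.Agent.S14.helper30

/-- A nonzero rational number that is a `p`-th power in a number field `K` whose degree is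
coprime to `p` is a `p`-th power in `ℚ`. -/
theorem rat_pow_of_pow_in_field {K : Type*} [Field K] [NumberField K] {p : ℕ}
    (hcop : Nat.Coprime (Module.finrank ℚ K) p) (n : ℚ) (hn : n ≠ 0) (d : K)
    (hd : d ^ p = algebraMap ℚ K n) : ∃ m : ℚ, m ^ p = n := by
  set D := Module.finrank ℚ K with hD
  set N := Algebra.norm ℚ d with hN
  have h1 : N ^ p = n ^ D := by
    rw [hN, ← map_pow, hd, Algebra.norm_algebraMap]
  -- Bezout
  have hb : (D : ℤ) * Int.gcdA D p + (p : ℤ) * Int.gcdB D p = 1 := by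
    have := Int.gcd_eq_gcd_ab (D : ℤ) (p : ℤ)
    rw [Int.gcd_natCast_natCast, hcop] at this
    simpa using this.symm
  refine ⟨N ^ (Int.gcdA D p) * n ^ (Int.gcdB D p), ?_⟩
  calc (N ^ (Int.gcdA D p) * n ^ (Int.gcdB D p)) ^ p
      = (N ^ p) ^ (Int.gcdA D p) * n ^ ((p : ℤ) * Int.gcdB D p) := by
        rw [mul_pow]
        congr 1
        · rw [← zpow_natCast, ← zpow_natCast, ← zpow_mul, ← zpow_mul, mul_comm]
        · rw [← zpow_natCast, ← zpow_mul, mul_comm]
    _ = n ^ ((D : ℤ) * Int.gcdA D p) * n ^ ((p : ℤ) * Int.gcdB D p) := by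
        rw [h1, ← zpow_natCast n D, ← zpow_mul]
    _ = n := by rw [← zpow_add₀ hn, hb, zpow_one]

/-- If `q ^ x * r ^ y` is a `p`-th power of a rational number (`q ≠ r` primes), then `p ∣ x` and
`p ∣ y`. -/
theorem dvd_of_rat_pow_eq {p q r x y : ℕ} (hp : 0 < p) (hq : q.Prime) (hr : r.Prime)
    (hqr : q ≠ r) (m : ℚ) (hm : m ^ p = (q : ℚ) ^ x * (r : ℚ) ^ y) : p ∣ x ∧ p ∣ y := by
  have := Fact.mk hq
  have := Fact.mk hr
  have hq0 : (q : ℚ) ≠ 0 := by exact_mod_cast hq.ne_zero
  have hr0 : (r : ℚ) ≠ 0 := by exact_mod_cast hr.ne_zero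
  have hm0 : m ≠ 0 := by
    rintro rfl
    rw [zero_pow hp.ne'] at hm
    exact absurd hm.symm (mul_ne_zero (pow_ne_zero _ hq0) (pow_ne_zero _ hr0))
  have key : ∀ {s t : ℕ} (hs : s.Prime) (ht : t.Prime) (hst : s ≠ t) (u v : ℕ)
      (h : m ^ p = (s : ℚ) ^ u * (t : ℚ) ^ v), p ∣ u := by
    intro s t hs ht hst u v h
    have := Fact.mk hs
    have := Fact.mk ht
    have hs0 : (s : ℚ) ≠ 0 := by exact_mod_cast hs.ne_zero
    have ht0 : (t : ℚ) ≠ 0 := by exact_mod_cast ht.ne_zero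
    have h' := congrArg (padicValRat s) h
    rw [padicValRat.pow, padicValRat.mul (pow_ne_zero _ hs0) (pow_ne_zero _ ht0),
      padicValRat.pow, padicValRat.pow] at h'
    have e1 : padicValRat s (s : ℚ) = 1 := padicValRat.self hs.one_lt
    have e2 : padicValRat s (t : ℚ) = 0 := by
      have : padicValRat s ((t : ℕ) : ℚ) = (padicValNat s t : ℤ) := padicValRat.of_nat
      rw [this, padicValNat_primes hst]; simp
    rw [e1, e2] at h'
    simp only [mul_one, mul_zero, add_zero] at h'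
    exact Int.natCast_dvd_natCast.mp ⟨_, h'.symm⟩
  exact ⟨key hq hr hqr x y hm, key hr hq (Ne.symm hqr) y x (by rw [hm, mul_comm])⟩

section Kummer

variable {p : ℕ} [hp : Fact p.Prime] {K : Type*} [Field K] [NumberField K]
  [IsCyclotomicExtension {p} ℚ K]

include hp in
theorem finrank_coprime (K : Type*) [Field K] [NumberField K]
    [IsCyclotomicExtension {p} ℚ K] : Nat.Coprime (Module.finrank ℚ K) p := by
  have : NeZero p := ⟨hp.out.ne_zero⟩
  rw [IsCyclotomicExtension.Rat.finrank p K, Nat.totient_prime hp.out]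
  have h1 : 1 ≤ p := hp.out.one_lt.le
  have := (Nat.coprime_self_sub_right h1).mpr (Nat.coprime_one_right p)
  exact this.symm

include hp in
/-- In the `p`-th cyclotomic field, `q ^ x * r ^ y` is a `p`-th power only if `p ∣ x`, `p ∣ y`. -/
theorem dvd_of_pow_eq_in_cyclo {q r x y : ℕ} (hq : q.Prime) (hr : r.Prime) (hqr : q ≠ r)
    (d : K) (hd : d ^ p = (q : K) ^ x * (r : K) ^ y) : p ∣ x ∧ p ∣ y := by
  have hq0 : (q : ℚ) ≠ 0 := by exact_mod_cast hq.ne_zero
  have hr0 : (r : ℚ) ≠ 0 := by exact_mod_cast hr.ne_zero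
  obtain ⟨m, hm⟩ := rat_pow_of_pow_in_field (finrank_coprime (p := p) K)
    ((q : ℚ) ^ x * (r : ℚ) ^ y) (mul_ne_zero (pow_ne_zero _ hq0) (pow_ne_zero _ hr0)) d
    (by rw [hd]; simp)
  exact dvd_of_rat_pow_eq hp.out.pos hq hr hqr m hm

include hp in
theorem primitiveRoots_nonempty (K : Type*) [Field K] [NumberField K]
    [IsCyclotomicExtension {p} ℚ K] : (primitiveRoots p K).Nonempty := by
  have : NeZero p := ⟨hp.out.ne_zero⟩
  obtain ⟨ζ, hζ⟩ := IsCyclotomicExtension.exists_isPrimitiveRoot ℚ K (Set.mem_singleton p)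
    hp.out.ne_zero
  exact ⟨ζ, (mem_primitiveRoots hp.out.pos).mpr hζ⟩

include hp in
theorem irreducible_gamma {q r a b : ℕ} (hq : q.Prime) (hr : r.Prime) (hqr : q ≠ r)
    (hb : ¬ p ∣ b) : Irreducible (X ^ p - C ((q : K) ^ a * (r : K) ^ b)) := by
  rw [X_pow_sub_C_irreducible_iff_of_prime hp.out]
  intro d hd
  exact hb (dvd_of_pow_eq_in_cyclo hq hr hqr d hd).2

variable {F : Type*} [Field F] [Algebra K F]

include hp in
/-- Kummer theory: `q` is not a `p`-th power in `K((q^a r^b)^(1/p))`. -/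
theorem not_pow_in_kummer {q r a b : ℕ} (hq : q.Prime) (hr : r.Prime) (hqr : q ≠ r)
    (hb : ¬ p ∣ b) [IsSplittingField K F (X ^ p - C ((q : K) ^ a * (r : K) ^ b))]
    (c : F) : c ^ p ≠ (q : F) := by
  intro hc
  have hpne : NeZero p := ⟨hp.out.ne_zero⟩
  set γ : K := (q : K) ^ a * (r : K) ^ b with hγ
  have hq0 : (q : K) ≠ 0 := by exact_mod_cast hq.ne_zero
  have hr0 : (r : K) ≠ 0 := by exact_mod_cast hr.ne_zero
  have hγ0 : γ ≠ 0 := mul_ne_zero (pow_ne_zero _ hq0) (pow_ne_zero _ hr0)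
  have H : Irreducible (X ^ p - C γ) := irreducible_gamma hq hr hqr hb
  have hζ := primitiveRoots_nonempty (p := p) K
  obtain ⟨ζ, hζm⟩ := hζ
  have hζ' : IsPrimitiveRoot ζ p := (mem_primitiveRoots hp.out.pos).mp hζm
  have hgal : IsGalois K F := isGalois_of_isSplittingField_X_pow_sub_C ⟨ζ, hζm⟩ H F
  have hfd : FiniteDimensional K F := IsSplittingField.finiteDimensional F (X ^ p - C γ)
  set α : F := rootOfSplitsXPowSubC hp.out.pos γ F with hα
  have hαp : α ^ p = algebraMap K F γ := rootOfSplitsXPowSubC_pow γ F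
  have hα0 : α ≠ 0 := by
    intro h0
    rw [h0, zero_pow hp.out.ne_zero] at hαp
    exact hγ0 ((map_eq_zero _).mp hαp.symm)
  set e := autEquivZmod H F hζ' with he
  set σ : Gal(F/K) := e.symm (Multiplicative.ofAdd (1 : ZMod p)) with hσ
  have hσα : σ α = ζ • α := by
    have := autEquivZmod_symm_apply_natCast H F hαp hζ' 1
    rw [Nat.cast_one, pow_one] at this
    exact this
  have hζF : IsPrimitiveRoot (algebraMap K F ζ) p :=
    hζ'.map_of_injective (algebraMap K F).injective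
  have hc0 : c ≠ 0 := by
    intro h0
    rw [h0, zero_pow hp.out.ne_zero] at hc
    have : (q : F) ≠ 0 := by
      have := (map_ne_zero (algebraMap K F)).mpr hq0
      simpa using this
    exact this hc.symm
  -- σ c = ζ^j c
  have h1 : (σ c / c) ^ p = 1 := by
    rw [div_pow, ← map_pow, hc, map_natCast, div_self]
    have := (map_ne_zero (algebraMap K F)).mpr hq0
    simpa using this
  obtain ⟨j, hj, hjc⟩ := hζF.eq_pow_of_pow_eq_one h1
  have hσc : σ c = (algebraMap K F ζ) ^ j * c := by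
    rw [hjc, div_mul_cancel₀ _ hc0]
  -- d = c / α^j is fixed by σ
  set d : F := c / α ^ j with hd
  have hσd : σ d = d := by
    rw [hd, map_div₀, map_pow, hσc, hσα, Algebra.smul_def, mul_pow, mul_div_mul_left]
    exact pow_ne_zero _ (hζF.ne_zero hp.out.ne_zero)
  -- every element of the Galois group is a power of σ
  have hgen : ∀ τ : Gal(F/K), τ d = d := by
    intro τ
    obtain ⟨k, hk⟩ : ∃ k : ℕ, τ = σ ^ k := by
      refine ⟨(Multiplicative.toAdd (e τ)).val, ?_⟩
      apply e.injective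
      rw [map_pow, hσ, MulEquiv.apply_symm_apply, ← ofAdd_nsmul]
      simp
    rw [hk]
    clear hk
    induction k with
    | zero => simp
    | succ k ih => rw [pow_succ, AlgEquiv.mul_apply, hσd, ih]
  obtain ⟨d₀, hd₀⟩ := (IsGalois.mem_range_algebraMap_iff_fixed d).mpr hgen
  -- q = d₀^p * γ^j in K
  have hq_eq : (q : K) = d₀ ^ p * γ ^ j := by
    apply (algebraMap K F).injective
    rw [map_mul, map_pow, map_pow, hd₀, ← hαp, map_natCast, ← hc, hd, div_pow, ← pow_mul,
      ← pow_mul, mul_comm j p, div_mul_cancel₀]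
    exact pow_ne_zero _ hα0
  -- (d₀ γ)^p = q^(1 + a (p - j)) r^(b (p - j))
  have hfin : (d₀ * γ) ^ p = (q : K) ^ (1 + a * (p - j)) * (r : K) ^ (b * (p - j)) := by
    have hjp : j + (p - j) = p := by omega
    calc (d₀ * γ) ^ p = d₀ ^ p * γ ^ j * γ ^ (p - j) := by
          rw [mul_pow, mul_assoc, ← pow_add, hjp]
      _ = (q : K) * γ ^ (p - j) := by rw [← hq_eq]
      _ = _ := by rw [hγ, mul_pow, ← pow_mul, ← pow_mul, pow_add, pow_one]; ring
  obtain ⟨h2, h3⟩ := dvd_of_pow_eq_in_cyclo hq hr hqr (d₀ * γ) hfin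
  have h4 : p ∣ p - j := (hp.out.dvd_mul.mp h3).resolve_left hb
  have hj0 : j = 0 := by
    rcases h4 with ⟨t, ht⟩
    rcases Nat.eq_zero_or_pos t with rfl | htpos
    · omega
    · have : p ≤ p - j := by rw [ht]; exact Nat.le_mul_of_pos_right p htpos
      omega
  rw [hj0, Nat.sub_zero] at h2
  have : p ∣ 1 := (Nat.dvd_add_left (Dvd.intro_left a rfl)).mp h2
  exact hp.out.one_lt.ne' (Nat.dvd_one.mp this)

end Kummer

section Residue

variable {p : ℕ} [hp : Fact p.Prime]
variable {F : Type*} [Field F] [NumberField F]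

/-- Residue data at a degree-one prime: a ring hom onto `ZMod ℓ` with kernel `P`. -/
theorem exists_ringHom_zmod (P : Ideal (𝓞 F)) (ℓ : ℕ) (hℓ : ℓ.Prime)
    (hN : Ideal.absNorm P = ℓ) :
    ∃ φ : 𝓞 F →+* ZMod ℓ, ∀ x, φ x = 0 ↔ x ∈ P := by
  have hcard : Nat.card (𝓞 F ⧸ P) = ℓ := by
    rw [← hN, Ideal.absNorm_apply]; rfl
  have hfin : Finite (𝓞 F ⧸ P) := Nat.finite_of_card_ne_zero (by rw [hcard]; exact hℓ.ne_zero)
  have : Fintype (𝓞 F ⧸ P) := Fintype.ofFinite _
  have hcard' : Fintype.card (𝓞 F ⧸ P) = ℓ := by rw [← Nat.card_eq_fintype_card, hcard]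
  let e := ZMod.ringEquivOfPrime (𝓞 F ⧸ P) hℓ hcard'
  refine ⟨(e.symm : (𝓞 F ⧸ P) →+* ZMod ℓ).comp (Ideal.Quotient.mk P), fun x => ?_⟩
  simp only [RingHom.coe_comp, RingHom.coe_coe, Function.comp_apply,
    EmbeddingLike.map_eq_zero_iff, Ideal.Quotient.eq_zero_iff_mem]

theorem isIntegral_of_pow_eq_natCast {L : Type*} [Field L] {n : ℕ} (hn : 0 < n) (x : L) (g : ℕ)
    (hx : x ^ n = (g : L)) : IsIntegral ℤ x := by
  refine ⟨X ^ n - C (g : ℤ), monic_X_pow_sub_C _ hn.ne', ?_⟩
  simp [hx]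

include hp in
theorem residue_facts (ζ : F) (hζ : IsPrimitiveRoot ζ p) (g : ℕ) (α : F) (hα : α ^ p = (g : F))
    (P : Ideal (𝓞 F)) (ℓ : ℕ) (hℓ : ℓ.Prime) (hN : Ideal.absNorm P = ℓ) (hℓp : ℓ ≠ p) :
    ℓ % p = 1 ∧ ∃ x : ZMod ℓ, x ^ p = (g : ZMod ℓ) := by
  have := Fact.mk hℓ
  obtain ⟨φ, hφ⟩ := exists_ringHom_zmod P ℓ hℓ hN
  have hp1 : 1 < p := hp.out.one_lt
  let Z : 𝓞 F := ⟨ζ, isIntegral_of_pow_eq_natCast hp.out.pos ζ 1 (by simpa using hζ.pow_eq_one)⟩
  let A : 𝓞 F := ⟨α, isIntegral_of_pow_eq_natCast hp.out.pos α g hα⟩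
  have hZp : Z ^ p = 1 := by
    apply RingOfIntegers.ext
    show ζ ^ p = 1
    exact hζ.pow_eq_one
  have hZprim : IsPrimitiveRoot Z p :=
    IsPrimitiveRoot.of_map_of_injective (f := algebraMap (𝓞 F) F) (by exact hζ)
      RingOfIntegers.coe_injective
  have hZsum : ∑ i ∈ Finset.range p, Z ^ i = 0 := hZprim.geom_sum_eq_zero hp1
  have hAp : A ^ p = (g : 𝓞 F) := by
    apply RingOfIntegers.ext
    show α ^ p = _
    rw [hα]; simp
  constructor
  · -- order of φ Z is p
    have h1 : φ Z ^ p = 1 := by rw [← map_pow, hZp, map_one]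
    have h2 : φ Z ≠ 1 := by
      intro h
      have : (p : ZMod ℓ) = 0 := by
        have := congrArg φ hZsum
        rw [map_sum, map_zero] at this
        simp only [map_pow, h, one_pow, Finset.sum_const, Finset.card_range, nsmul_eq_mul,
          mul_one] at this
        exact this
      rw [ZMod.natCast_eq_zero_iff] at this
      exact hℓp ((Nat.prime_dvd_prime_iff_eq hℓ hp.out).mp this)
    have h3 : orderOf (φ Z) = p := orderOf_eq_prime h1 h2
    have h4 : φ Z ≠ 0 := by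
      intro h
      rw [h, zero_pow hp.out.ne_zero] at h1
      exact zero_ne_one h1
    have h5 : p ∣ ℓ - 1 := by
      rw [← h3]
      exact orderOf_dvd_of_pow_eq_one (ZMod.pow_card_sub_one_eq_one h4)
    obtain ⟨k, hk⟩ := h5
    have hℓ1 : 1 ≤ ℓ := hℓ.one_lt.le
    have : ℓ = 1 + p * k := by omega
    rw [this, Nat.add_mul_mod_self_left, Nat.mod_eq_of_lt hp1]
  · exact ⟨φ A, by rw [← map_pow, hAp, map_natCast]⟩

variable {F'' : Type*} [Field F''] [NumberField F''] [Algebra F F'']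

include hp in
theorem not_residue (ζ : F) (hζ : IsPrimitiveRoot ζ p) (q : ℕ) (β : F'')
    (hβ : β ^ p = (q : F'')) (hgen : ∀ σ : Gal(F''/F), σ β = β → σ = 1)
    (P : Ideal (𝓞 F)) (ℓ : ℕ) (hℓ : ℓ.Prime) (hN : Ideal.absNorm P = ℓ) (hℓp : ℓ ≠ p)
    (hℓq : ¬ ℓ ∣ q)
    (Q : Ideal (𝓞 F'')) [hQp : Q.IsPrime] (hQ : Q.comap (algebraMap (𝓞 F) (𝓞 F'')) = P)
    (σ : Gal(F''/F)) (hσ : σ ≠ 1) (hσQ : ∀ x ∈ Q, σ • x ∈ Q) :
    ¬ ∃ x : ZMod ℓ, x ^ p = (q : ZMod ℓ) := by
  rintro ⟨x, hx⟩
  have := Fact.mk hℓ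
  have hp1 : 1 < p := hp.out.one_lt
  have hpne : NeZero p := ⟨hp.out.ne_zero⟩
  obtain ⟨φ, hφ⟩ := exists_ringHom_zmod P ℓ hℓ hN
  have hmemQ : ∀ y : 𝓞 F, algebraMap (𝓞 F) (𝓞 F'') y ∈ Q ↔ y ∈ P := by
    intro y; rw [← hQ, Ideal.mem_comap]
  let Z : 𝓞 F := ⟨ζ, isIntegral_of_pow_eq_natCast hp.out.pos ζ 1 (by simpa using hζ.pow_eq_one)⟩
  have hZprim : IsPrimitiveRoot Z p :=
    IsPrimitiveRoot.of_map_of_injective (f := algebraMap (𝓞 F) F) (by exact hζ)
      RingOfIntegers.coe_injective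
  have hZsum : ∑ i ∈ Finset.range p, Z ^ i = 0 := hZprim.geom_sum_eq_zero hp1
  have hφZ : φ Z ≠ 1 := by
    intro h
    have : (p : ZMod ℓ) = 0 := by
      have := congrArg φ hZsum
      rw [map_sum, map_zero] at this
      simp only [map_pow, h, one_pow, Finset.sum_const, Finset.card_range, nsmul_eq_mul,
        mul_one] at this
      exact this
    rw [ZMod.natCast_eq_zero_iff] at this
    exact hℓp ((Nat.prime_dvd_prime_iff_eq hℓ hp.out).mp this)
  -- the quotient
  let π := Ideal.Quotient.mk Q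
  let Z'' : 𝓞 F'' := algebraMap (𝓞 F) (𝓞 F'') Z
  have hZ''p : Z'' ^ p = 1 := by
    show (algebraMap (𝓞 F) (𝓞 F'') Z) ^ p = 1
    rw [← map_pow, hZprim.pow_eq_one, map_one]
  have hπZ1 : π Z'' ≠ 1 := by
    intro h
    have h1 : Z'' - 1 ∈ Q := by
      rw [← Ideal.Quotient.eq_zero_iff_mem, map_sub, map_one]
      exact sub_eq_zero.mpr h
    have h2 : Z - 1 ∈ P := by
      rw [← hmemQ, map_sub, map_one]; exact h1
    have h3 := (hφ _).mpr h2
    rw [map_sub, map_one, sub_eq_zero] at h3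
    exact hφZ h3
  have hπZprim : IsPrimitiveRoot (π Z'') p := by
    have h1 : (π Z'') ^ p = 1 := by rw [← map_pow, hZ''p, map_one]
    have := orderOf_eq_prime h1 hπZ1
    rw [← this]
    exact IsPrimitiveRoot.orderOf _
  let B : 𝓞 F'' := ⟨β, isIntegral_of_pow_eq_natCast hp.out.pos β q hβ⟩
  have hBp : B ^ p = (q : 𝓞 F'') := by
    apply RingOfIntegers.ext
    show β ^ p = _
    rw [hβ]; simp
  -- q ∉ Q
  have hqQ : (q : 𝓞 F'') ∉ Q := by
    intro h
    have h1 : ((q : ℕ) : 𝓞 F) ∈ P := by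
      rw [← hmemQ, map_natCast]; exact h
    have h2 := (hφ _).mpr h1
    rw [map_natCast, ZMod.natCast_eq_zero_iff] at h2
    exact hℓq h2
  have hBQ : B ∉ Q := by
    intro h
    apply hqQ
    rw [← hBp]
    exact Ideal.pow_mem_of_mem Q h p hp.out.pos
  -- lift x
  let x₀ : ℕ := x.val
  have hx₀ : ((x₀ : ℕ) : ZMod ℓ) = x := ZMod.natCast_zmod_val x
  have hxQ : π ((x₀ : 𝓞 F'')) ^ p = π (q : 𝓞 F'') := by
    rw [← map_pow, ← sub_eq_zero, ← map_sub, Ideal.Quotient.eq_zero_iff_mem]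
    have h1 : ((x₀ : 𝓞 F)) ^ p - (q : 𝓞 F) ∈ P := by
      rw [← hφ, map_sub, map_pow, map_natCast, map_natCast, hx₀, hx, sub_self]
    have h2 := (hmemQ _).mpr h1
    simpa using h2
  -- factorization
  have hfac := X_pow_sub_C_eq_prod hπZprim hp.out.pos hxQ
  have heval : ∏ i ∈ Finset.range p, (π B - (π Z'') ^ i * π (x₀ : 𝓞 F'')) = 0 := by
    have := congrArg (Polynomial.eval (π B)) hfac
    simp only [eval_sub, eval_pow, eval_X, eval_C, eval_prod] at this
    rw [← this, ← map_pow, hBp, sub_self]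
  obtain ⟨i, -, hi⟩ := Finset.prod_eq_zero_iff.mp heval
  let y : 𝓞 F := Z ^ i * (x₀ : 𝓞 F)
  have hy : B - algebraMap (𝓞 F) (𝓞 F'') y ∈ Q := by
    rw [← Ideal.Quotient.eq_zero_iff_mem, map_sub]
    show π B - π (algebraMap (𝓞 F) (𝓞 F'') (Z ^ i * (x₀ : 𝓞 F))) = 0
    rw [map_mul, map_pow, map_natCast, map_mul, map_pow]
    exact hi
  have hσy : σ • (algebraMap (𝓞 F) (𝓞 F'') y) = algebraMap (𝓞 F) (𝓞 F'') y := by
    apply RingOfIntegers.ext
    show σ ((algebraMap (𝓞 F) (𝓞 F'') y : 𝓞 F'') : F'') = _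
    have : ((algebraMap (𝓞 F) (𝓞 F'') y : 𝓞 F'') : F'') = algebraMap F F'' (y : F) := rfl
    rw [this]
    exact σ.commutes _
  have hσB : σ • B - B ∈ Q := by
    have h1 := hσQ _ hy
    rw [smul_sub, hσy] at h1
    have := Q.sub_mem h1 hy
    simpa using this
  -- σ β = ζ^k β
  have hq0 : (q : F'') ≠ 0 := by
    have : q ≠ 0 := by rintro rfl; exact hℓq (dvd_zero _)
    exact_mod_cast this
  have hβ0 : β ≠ 0 := by
    intro h0
    rw [h0, zero_pow hp.out.ne_zero] at hβ
    exact hq0 hβ.symm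
  have hζ'' : IsPrimitiveRoot (algebraMap F F'' ζ) p :=
    hζ.map_of_injective (algebraMap F F'').injective
  have h1 : (σ β / β) ^ p = 1 := by
    rw [div_pow, ← map_pow, hβ, map_natCast, div_self hq0]
  obtain ⟨k, hk, hkc⟩ := hζ''.eq_pow_of_pow_eq_one h1
  have hσβ : σ β = (algebraMap F F'' ζ) ^ k * β := by
    rw [hkc, div_mul_cancel₀ _ hβ0]
  have hσB' : σ • B = Z'' ^ k * B := by
    apply RingOfIntegers.ext
    show σ β = _
    rw [hσβ]
    rfl
  rw [hσB'] at hσB
  have h2 : (Z'' ^ k - 1) * B ∈ Q := by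
    have : (Z'' ^ k - 1) * B = Z'' ^ k * B - B := by ring
    rw [this]; exact hσB
  rcases hQp.mem_or_mem h2 with h3 | h3
  · have h4 : (π Z'') ^ k = 1 := by
      rw [← map_pow, ← sub_eq_zero, ← map_one π, ← map_sub, Ideal.Quotient.eq_zero_iff_mem]
      exact h3
    have h5 : p ∣ k := hπZprim.dvd_of_pow_eq_one k h4
    have hk0 : k = 0 := Nat.eq_zero_of_dvd_of_lt h5 hk
    rw [hk0, pow_zero, one_mul] at hσβ
    exact hσ (hgen σ hσβ)
  · exact hBQ h3

end Residue

section Main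

open scoped Pointwise

/-- The conclusion of the zeta-pole lemma in the form used here: outside any finite set of ideals
there is a prime `P` of `𝓞 F` of prime absolute norm and a prime `Q` of `𝓞 F''` over `P` whose
stabiliser in `Gal(F''/F)` is nontrivial. -/
def NonSplitPrimeExists (F F'' : Type*) [Field F] [NumberField F] [Field F''] [NumberField F'']
    [Algebra F F''] : Prop :=
  ∀ T : Finset (Ideal (𝓞 F)), ∃ P : Ideal (𝓞 F), P ∉ T ∧ (Ideal.absNorm P).Prime ∧
    ∃ (Q : Ideal (𝓞 F'')) (σ : Gal(F''/F)), Q.IsPrime ∧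
      Q.comap (algebraMap (𝓞 F) (𝓞 F'')) = P ∧ σ ≠ 1 ∧ ∀ x ∈ Q, σ • x ∈ Q

/-- Auxiliary primes from a non-split prime of the Kummer extension `F''/F`, where
`F = K((q^a r^b)^(1/p))`, `F'' = F(q^(1/p))` and `K` is the `p`-th cyclotomic field. -/
theorem exists_aux_prime_aux (p : ℕ) [hp : Fact p.Prime] (q r : ℕ) (hq : q.Prime) (hr : r.Prime)
    (hqr : q ≠ r) (a b : ℕ) (hb : ¬ p ∣ b) (S : Finset ℕ)
    (K : Type) [Field K] [NumberField K] [IsCyclotomicExtension {p} ℚ K]
    (F : Type) [Field F] [NumberField F] [Algebra K F]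
    [IsSplittingField K F (X ^ p - C ((q : K) ^ a * (r : K) ^ b))]
    (F'' : Type) [Field F''] [NumberField F''] [Algebra F F'']
    [IsSplittingField F F'' (X ^ p - C (q : F))]
    (hZ : IsGalois F F'' → 1 < Module.finrank F F'' → NonSplitPrimeExists F F'') :
    ∃ l : ℕ, l.Prime ∧ l ∉ S ∧ l % p = 1 ∧
      (∃ x : ZMod l, x ^ p = (q : ZMod l) ^ a * (r : ZMod l) ^ b) ∧
      ¬ ∃ x : ZMod l, x ^ p = (q : ZMod l) := by
  have hpne : NeZero p := ⟨hp.out.ne_zero⟩
  set γ : K := (q : K) ^ a * (r : K) ^ b with hγ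
  -- primitive roots
  obtain ⟨ζ, hζm⟩ := primitiveRoots_nonempty (p := p) K
  have hζ : IsPrimitiveRoot ζ p := (mem_primitiveRoots hp.out.pos).mp hζm
  have hζF : IsPrimitiveRoot (algebraMap K F ζ) p :=
    hζ.map_of_injective (algebraMap K F).injective
  have hζFm : (primitiveRoots p F).Nonempty :=
    ⟨_, (mem_primitiveRoots hp.out.pos).mpr hζF⟩
  -- Kummer theory
  have H1 : Irreducible (X ^ p - C (q : F)) :=
    (X_pow_sub_C_irreducible_iff_of_prime hp.out).mpr
      (fun c => not_pow_in_kummer (K := K) (F := F) (a := a) (b := b) hq hr hqr hb c)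
  have hGal : IsGalois F F'' := isGalois_of_isSplittingField_X_pow_sub_C hζFm H1 F''
  have hfin : Module.finrank F F'' = p := finrank_of_isSplittingField_X_pow_sub_C hζFm H1 F''
  have hdeg : 1 < Module.finrank F F'' := by rw [hfin]; exact hp.out.one_lt
  -- the roots
  let α : F := rootOfSplitsXPowSubC hp.out.pos γ F
  have hα : α ^ p = ((q ^ a * r ^ b : ℕ) : F) := by
    have : α ^ p = algebraMap K F γ := rootOfSplitsXPowSubC_pow γ F
    rw [this]
    simp [γ]
  let β : F'' := rootOfSplitsXPowSubC hp.out.pos (q : F) F''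
  have hβ' : β ^ p = algebraMap F F'' (q : F) := rootOfSplitsXPowSubC_pow (q : F) F''
  have hβ : β ^ p = (q : F'') := by rw [hβ', map_natCast]
  have hgen : ∀ σ : Gal(F''/F), σ β = β → σ = 1 := by
    intro σ hσ
    have htop : Algebra.adjoin F {β} = ⊤ :=
      Algebra.adjoin_root_eq_top_of_isSplittingField hζFm H1 hβ'
    have : (σ : F'' →ₐ[F] F'') = ((1 : Gal(F''/F)) : F'' →ₐ[F] F'') := by
      apply AlgHom.ext_of_adjoin_eq_top htop
      intro x hx
      rw [Set.mem_singleton_iff] at hx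
      subst hx
      simpa using hσ
    exact AlgEquiv.coe_toAlgHom_injective this
  -- the finite set of excluded ideals
  have hTfin : {I : Ideal (𝓞 F) | Ideal.absNorm I ∈ insert p (insert q S)}.Finite := by
    have : {I : Ideal (𝓞 F) | Ideal.absNorm I ∈ insert p (insert q S)} =
        ⋃ n ∈ (insert p (insert q S) : Finset ℕ), {I : Ideal (𝓞 F) | Ideal.absNorm I = n} := by
      ext I; simp
    rw [this]
    exact Set.Finite.biUnion (Finset.finite_toSet _)
      (fun n _ => Ideal.finite_setOfPred_absNorm_eq n)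
  obtain ⟨P, hPT, hPprime, Q, σ, hQp, hQ, hσ, hσQ⟩ := hZ hGal hdeg hTfin.toFinset
  set l := Ideal.absNorm P with hl
  have hlS : l ∉ insert p (insert q S) := by
    intro h
    apply hPT
    rw [Set.Finite.mem_toFinset]
    exact h
  simp only [Finset.mem_insert, not_or] at hlS
  obtain ⟨hlp, hlq, hlS⟩ := hlS
  have hlq' : ¬ l ∣ q := fun h => hlq ((Nat.prime_dvd_prime_iff_eq hPprime hq).mp h)
  obtain ⟨h1, x, hx⟩ := residue_facts (p := p) (algebraMap K F ζ) hζF (q ^ a * r ^ b) α hα P l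
    hPprime rfl hlp
  refine ⟨l, hPprime, hlS, h1, ⟨x, ?_⟩, ?_⟩
  · rw [hx]; push_cast; rfl
  · exact not_residue (p := p) (algebraMap K F ζ) hζF q β hβ hgen P l hPprime rfl hlp hlq' Q hQ
      σ hσ hσQ

/-- Auxiliary primes, conditional on the zeta-pole lemma (for all Galois extensions of number
fields in `Type`). -/
theorem exists_aux_prime_of_nonSplit
    (hZ : ∀ (F F'' : Type) [Field F] [NumberField F] [Field F''] [NumberField F'']
      [Algebra F F''] [IsGalois F F''], 1 < Module.finrank F F'' → NonSplitPrimeExists F F'')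
    (p : ℕ) [hp : Fact p.Prime] (q r : ℕ) (hq : q.Prime) (hr : r.Prime) (hqr : q ≠ r)
    (a b : ℕ) (hb : ¬ p ∣ b) (S : Finset ℕ) :
    ∃ l : ℕ, l.Prime ∧ l ∉ S ∧ l % p = 1 ∧
      (∃ x : ZMod l, x ^ p = (q : ZMod l) ^ a * (r : ZMod l) ^ b) ∧
      ¬ ∃ x : ZMod l, x ^ p = (q : ZMod l) := by
  have hcyc : @IsCyclotomicExtension {p} ℚ (CyclotomicField p ℚ) _ _ DivisionRing.toRatAlgebra := by
    have h : @IsCyclotomicExtension {p} ℚ (CyclotomicField p ℚ) _ _
        (CyclotomicField.algebra p ℚ) := inferInstance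
    have e : (CyclotomicField.algebra p ℚ) = DivisionRing.toRatAlgebra := Subsingleton.elim _ _
    rw [e] at h
    exact h
  have : NumberField (X ^ p - C ((q : CyclotomicField p ℚ) ^ a *
      (r : CyclotomicField p ℚ) ^ b)).SplittingField :=
    NumberField.of_module_finite (CyclotomicField p ℚ) _
  have : NumberField (X ^ p - C (q : (X ^ p - C ((q : CyclotomicField p ℚ) ^ a *
      (r : CyclotomicField p ℚ) ^ b)).SplittingField)).SplittingField :=
    NumberField.of_module_finite (X ^ p - C ((q : CyclotomicField p ℚ) ^ a *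
      (r : CyclotomicField p ℚ) ^ b)).SplittingField _
  exact exists_aux_prime_aux p q r hq hr hqr a b hb S (CyclotomicField p ℚ)
    (X ^ p - C ((q : CyclotomicField p ℚ) ^ a * (r : CyclotomicField p ℚ) ^ b)).SplittingField
    (X ^ p - C (q : (X ^ p - C ((q : CyclotomicField p ℚ) ^ a *
      (r : CyclotomicField p ℚ) ^ b)).SplittingField)).SplittingField
    (fun _ h => hZ _ _ h)

/-- In a Galois extension of number fields, a prime `P` of the base whose number of primes above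
is not the degree has a prime `Q` above it with nontrivial decomposition group. -/
theorem exists_stabilizer_ne_one (F F'' : Type*) [Field F] [NumberField F] [Field F'']
    [NumberField F''] [Algebra F F''] [IsGalois F F'']
    (P : Ideal (𝓞 F)) [P.IsPrime]
    (hns : (P.primesOver (𝓞 F'')).ncard ≠ Module.finrank F F'') :
    ∃ (Q : Ideal (𝓞 F'')) (σ : Gal(F''/F)), Q.IsPrime ∧
      Q.comap (algebraMap (𝓞 F) (𝓞 F'')) = P ∧ σ ≠ 1 ∧ ∀ x ∈ Q, σ • x ∈ Q := by
  obtain ⟨⟨Q, hQp, hQo⟩⟩ := (inferInstance : Nonempty (P.primesOver (𝓞 F'')))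
  have horb := Algebra.IsInvariant.orbit_eq_primesOver (𝓞 F) (𝓞 F'') Gal(F''/F) P Q
  have hcard := Nat.card_congr (MulAction.orbitProdStabilizerEquivGroup Gal(F''/F) Q)
  rw [Nat.card_prod, horb] at hcard
  have hG : Nat.card Gal(F''/F) = Module.finrank F F'' := IsGalois.card_aut_eq_finrank F F''
  by_contra hcon
  push Not at hcon
  apply hns
  have hstab : MulAction.stabilizer Gal(F''/F) Q = ⊥ := by
    rw [eq_bot_iff]
    intro σ hσ
    rw [Subgroup.mem_bot]
    by_contra hσ1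
    obtain ⟨x, hx, hxn⟩ := hcon Q σ hQp hQo.over.symm hσ1
    apply hxn
    have : σ • x ∈ σ • Q := Ideal.smul_mem_pointwise_smul σ x Q hx
    rwa [MulAction.mem_stabilizer_iff.mp hσ] at this
  rw [hstab] at hcard
  simp at hcard
  rw [← hG, hcard, Nat.card_eq_fintype_card]

/-- The zeta-pole lemma (Z3) in the shape announced by helper69 (and used by
`Fermat.Agent.S14.helper58.ZetaPoleHyp`, to which this is definitionally equal): in a nontrivial
Galois extension `L/K` of number fields, outside any finite set there is a degree-one prime of `K`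
which does not split completely in `L`. -/
def ZetaPoleShape : Prop :=
  ∀ (K L : Type) [Field K] [Field L] [NumberField K] [NumberField L] [Algebra K L] [IsGalois K L],
    1 < Module.finrank K L → ∀ T : Finset (IsDedekindDomain.HeightOneSpectrum (𝓞 K)),
      ∃ v : IsDedekindDomain.HeightOneSpectrum (𝓞 K), v ∉ T ∧ (Ideal.absNorm v.asIdeal).Prime ∧
        (v.asIdeal.primesOver (𝓞 L)).ncard ≠ Module.finrank K L

/-- (Z3) gives `NonSplitPrimeExists`. -/
theorem nonSplitPrimeExists_of_zetaPole (hZ : ZetaPoleShape) (F F'' : Type) [Field F]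
    [NumberField F] [Field F''] [NumberField F''] [Algebra F F''] [IsGalois F F'']
    (h : 1 < Module.finrank F F'') : NonSplitPrimeExists F F'' := by
  classical
  intro T
  obtain ⟨v, hvT, hvp, hns⟩ := hZ F F'' h
    (T.preimage (fun v : IsDedekindDomain.HeightOneSpectrum (𝓞 F) => v.asIdeal)
      (fun v _ w _ hvw => IsDedekindDomain.HeightOneSpectrum.ext hvw))
  have := v.isPrime
  refine ⟨v.asIdeal, ?_, hvp, exists_stabilizer_ne_one F F'' v.asIdeal hns⟩
  intro hmem
  exact hvT (Finset.mem_preimage.mpr hmem)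

/-- **S14-(2c-Aux), auxiliary primes for the Artin crossing**, from the zeta-pole lemma (Z3).
For a prime `p`, distinct primes `q ≠ r`, exponents `a`, `b` with `p ∤ b` and a finite set `S`
there is a prime `l ∉ S`, `l ≡ 1 mod p`, such that `q ^ a * r ^ b` is a `p`-th power modulo `l`
while `q` is not. -/
theorem exists_aux_prime_of_zetaPole (hZ : ZetaPoleShape)
    (p : ℕ) [hp : Fact p.Prime] (q r : ℕ) (hq : q.Prime) (hr : r.Prime) (hqr : q ≠ r)
    (a b : ℕ) (hb : ¬ p ∣ b) (S : Finset ℕ) :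
    ∃ l : ℕ, l.Prime ∧ l ∉ S ∧ l % p = 1 ∧
      (∃ x : ZMod l, x ^ p = (q : ZMod l) ^ a * (r : ZMod l) ^ b) ∧
      ¬ ∃ x : ZMod l, x ^ p = (q : ZMod l) :=
  exists_aux_prime_of_nonSplit
    (fun F F'' _ _ _ _ _ _ h => nonSplitPrimeExists_of_zetaPole hZ F F'' h)
    p q r hq hr hqr a b hb S

/-- The same statement in the exact binder shape of `helper10.AuxPrimeStatement p`
(findings #413). -/
theorem auxPrimeStatement_of_zetaPole (hZ : ZetaPoleShape) (p : ℕ) (hp : p.Prime) :
    ∀ (q r : ℕ), q.Prime → r.Prime → q ≠ r → q ≠ p → r ≠ p → ∀ (a b : ℕ), ¬ p ∣ b →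
      ∀ S : Finset ℕ, ∃ l : ℕ, l.Prime ∧ l ∉ S ∧ l % p = 1 ∧
        (∃ x : ZMod l, x ^ p = (q : ZMod l) ^ a * (r : ZMod l) ^ b) ∧
        ¬ ∃ x : ZMod l, x ^ p = (q : ZMod l) := by
  intro q r hq hr hqr _ _ a b hb S
  have : Fact p.Prime := ⟨hp⟩
  exact exists_aux_prime_of_zetaPole hZ p q r hq hr hqr a b hb S

end Main

end Fermat.Agent.S14.helper30
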