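import Fermat.Agent.S14.helper30_AuxPrime
import Fermat.Agent.S14.helper69_ZetaPole

/-!
# S14 (2c-Aux): auxiliary primes for the Artin crossing, unconditional (helper30)

Wiring of `helper30_AuxPrime` (Kummer theory, conditional on the zeta-pole lemma) with the landed
zeta-pole lemma (Z3) `Fermat.Agent.S14.helper69.exists_degree_one_prime_not_split`.

Main declarations (namespace `Fermat.Agent.S14.helper30`):
* `zetaPoleShape` : (Z3) in the shape `ZetaPoleShape`;
* `exists_aux_prime` : the auxiliary prime (announced signature of task 172);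
* `auxPrimeStatement` : the same in the binder shape of `helper10.AuxPrimeStatement p`.
-/

set_option autoImplicit false

namespace Fermat.Agent.S14.helper30

/-- The zeta-pole lemma (Z3), landed by helper69, in the shape `ZetaPoleShape`. -/
theorem zetaPoleShape : ZetaPoleShape :=
  fun K L _ _ _ _ _ _ h T => helper69.exists_degree_one_prime_not_split K L h T

/-- **S14-(2c-Aux), auxiliary primes for the Artin crossing.**  For a prime `p`, distinct primes
`q ≠ r`, exponents `a`, `b` with `p ∤ b` and a finite set `S` there is a prime `l ∉ S`,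
`l ≡ 1 mod p`, such that `q ^ a * r ^ b` is a `p`-th power modulo `l` while `q` is not.
(The hypotheses `hp2`, `hqp`, `hrp` are not needed; they are kept for the announced signature.) -/
theorem exists_aux_prime (p : ℕ) [Fact p.Prime] (_hp2 : p ≠ 2) (q r : ℕ) (hq : q.Prime)
    (hr : r.Prime) (hqr : q ≠ r) (_hqp : q ≠ p) (_hrp : r ≠ p) (a b : ℕ) (hb : ¬ p ∣ b)
    (S : Finset ℕ) :
    ∃ l : ℕ, l.Prime ∧ l ∉ S ∧ l % p = 1 ∧
      (∃ x : ZMod l, x ^ p = (q : ZMod l) ^ a * (r : ZMod l) ^ b) ∧
      ¬ ∃ x : ZMod l, x ^ p = (q : ZMod l) :=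
  exists_aux_prime_of_zetaPole zetaPoleShape p q r hq hr hqr a b hb S

/-- The auxiliary-prime statement in the exact binder shape of `helper10.AuxPrimeStatement p`
(findings #413), unconditionally. -/
theorem auxPrimeStatement (p : ℕ) (hp : p.Prime) :
    ∀ (q r : ℕ), q.Prime → r.Prime → q ≠ r → q ≠ p → r ≠ p → ∀ (a b : ℕ), ¬ p ∣ b →
      ∀ S : Finset ℕ, ∃ l : ℕ, l.Prime ∧ l ∉ S ∧ l % p = 1 ∧
        (∃ x : ZMod l, x ^ p = (q : ZMod l) ^ a * (r : ZMod l) ^ b) ∧
        ¬ ∃ x : ZMod l, x ^ p = (q : ZMod l) :=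
  auxPrimeStatement_of_zetaPole zetaPoleShape p hp

end Fermat.Agent.S14.helper30
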