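import Fermat.Agent.S14.helper34_Pole

/-!
# S14 (2b) AN0: partial zeta functions of two ideal classes differ by a bounded function

Main results (conditional on the orbit-sum identity `OrbitSumIdentity K`, task B1):

* `partialZeta_sub_bounded_of_orbit` : `|partialZeta K C s - partialZeta K C' s| ≤ B` on `(1, 2]`;
* `partialZeta_le_of_orbit` : `partialZeta K C s ≤ B / (s - 1)` on `(1, 2]`.
-/

set_option autoImplicit false
set_option linter.unusedSectionVars false

open NumberField NumberField.mixedEmbedding NumberField.InfinitePlace NumberField.Units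
  NumberField.Units.dirichletUnitTheorem Module
open scoped nonZeroDivisors

namespace Fermat.Agent.S14.helper34

variable (K : Type*) [Field K] [NumberField K]

/-- The orbit-sum identity (task B1): the partial zeta function of the class `C` is, up to the
factor `N(J)^s / w`, the lattice sum of `G` over an ideal `J` in the inverse class. -/
def OrbitSumIdentity : Prop :=
  ∀ (C : ClassGroup (𝓞 K)) (J : (Ideal (𝓞 K))⁰), ClassGroup.mk0 J = C⁻¹ → ∀ s : ℝ, 1 < s →
    Summable (fun a : (J : Ideal (𝓞 K)) => G K s (mixedEmbedding K ((a : 𝓞 K) : K))) →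
    (torsionOrder K : ℝ) * partialZeta K C s =
      (Ideal.absNorm (J : Ideal (𝓞 K)) : ℝ) ^ s *
        ∑' a : (J : Ideal (𝓞 K)), G K s (mixedEmbedding K ((a : 𝓞 K) : K))

theorem summable_G_ideal (J : Ideal (𝓞 K)) {s : ℝ} (hs : 1 < s) :
    Summable (fun a : J => G K s (mixedEmbedding K ((a : 𝓞 K) : K))) :=
  (summable_F K hs).comp_injective (i := fun a : J => (a : 𝓞 K)) Subtype.val_injective

theorem tsum_ideal_eq (J : Ideal (𝓞 K)) (s : ℝ) :
    ∑' a : J, G K s (mixedEmbedding K ((a : 𝓞 K) : K)) = ∑' h : J.toAddSubgroup, F K s h := by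
  let e : J ≃ J.toAddSubgroup := Equiv.subtypeEquivRight fun _ => Iff.rfl
  rw [← e.tsum_eq (fun h : J.toAddSubgroup => F K s h)]
  rfl

theorem rpow_sub_one_le {N : ℝ} (hN : 1 ≤ N) {u : ℝ} (hu0 : 0 ≤ u) (hu1 : u ≤ 1) :
    N ^ u - 1 ≤ u * (N * Real.log N) := by
  have hN0 : 0 < N := by linarith
  have hlog : 0 ≤ Real.log N := Real.log_nonneg hN
  rw [Real.rpow_def_of_pos hN0]
  have h1 := abs_exp_sub_one_le_mul_exp (Real.log N * u)
  have h2 : 0 ≤ Real.log N * u := mul_nonneg hlog hu0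
  rw [abs_of_nonneg h2] at h1
  have h3 : Real.exp (Real.log N * u) ≤ N := by
    calc Real.exp (Real.log N * u) ≤ Real.exp (Real.log N) :=
          Real.exp_le_exp.mpr (by nlinarith)
      _ = N := Real.exp_log hN0
  have h4 := (le_abs_self _).trans h1
  calc Real.exp (Real.log N * u) - 1 ≤ Real.log N * u * Real.exp (Real.log N * u) := h4
    _ ≤ Real.log N * u * N := mul_le_mul_of_nonneg_left h3 h2
    _ = u * (N * Real.log N) := by ring

/-- Key estimate: `w * partialZeta C s` differs from the lattice sum over `𝓞 K` by a bounded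
function on `(1, 2]`. -/
theorem exists_bound_partialZeta_sub (hB1 : OrbitSumIdentity K) (C : ClassGroup (𝓞 K)) :
    ∃ B : ℝ, 0 ≤ B ∧ ∀ s : ℝ, 1 < s → s ≤ 2 →
      |(torsionOrder K : ℝ) * partialZeta K C s - ∑' a : 𝓞 K, F K s a| ≤ B := by
  obtain ⟨J, hJ⟩ := ClassGroup.mk0_surjective C⁻¹
  have hJ0 : (J : Ideal (𝓞 K)) ≠ ⊥ := nonZeroDivisors.coe_ne_zero J
  obtain ⟨D, hD0, hD⟩ := exists_bound_tsum_F_sub K (J : Ideal (𝓞 K)) hJ0
  obtain ⟨D₂, hD₂0, hD₂⟩ := exists_bound_tsum_F K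
  set N : ℝ := (Ideal.absNorm (J : Ideal (𝓞 K)) : ℝ) with hNdef
  have hN1 : 1 ≤ N := by
    have : 1 ≤ Ideal.absNorm (J : Ideal (𝓞 K)) :=
      Nat.one_le_iff_ne_zero.mpr (Ideal.absNorm_ne_zero_of_nonZeroDivisors J)
    rw [hNdef]
    exact_mod_cast this
  have hN0 : 0 < N := by linarith
  have hlog : 0 ≤ Real.log N := Real.log_nonneg hN1
  refine ⟨N * D + D₂ * (N * Real.log N), by positivity, fun s hs1 hs2 => ?_⟩
  have h1 := hB1 C J hJ s hs1 (summable_G_ideal K _ hs1)
  rw [tsum_ideal_eq] at h1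
  rw [h1]
  set S := ∑' a : 𝓞 K, F K s a with hS
  set SJ := ∑' h : (J : Ideal (𝓞 K)).toAddSubgroup, F K s h with hSJ
  have hS0 : 0 ≤ S := tsum_nonneg fun a => F_nonneg K s a
  have h2 := hD s hs1 hs2
  have h3 := hD₂ s hs1 hs2
  have hu0 : 0 ≤ s - 1 := by linarith
  have hu1 : s - 1 ≤ 1 := by linarith
  have hpow : N ^ s = N ^ (s - 1) * N := by
    rw [← Real.rpow_add_one hN0.ne']
    congr 1; ring
  have hp1 : 1 ≤ N ^ (s - 1) := Real.one_le_rpow hN1 hu0
  have hpN : N ^ (s - 1) ≤ N := by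
    calc N ^ (s - 1) ≤ N ^ (1 : ℝ) := Real.rpow_le_rpow_of_exponent_le hN1 hu1
      _ = N := Real.rpow_one N
  have hsplit : N ^ s * SJ - S = N ^ (s - 1) * (N * SJ - S) + (N ^ (s - 1) - 1) * S := by
    rw [hpow]; ring
  rw [hsplit]
  refine (abs_add_le _ _).trans (add_le_add ?_ ?_)
  · rw [abs_mul, abs_of_nonneg (by linarith : (0 : ℝ) ≤ N ^ (s - 1)), abs_sub_comm]
    exact mul_le_mul hpN h2 (abs_nonneg _) hN0.le
  · rw [abs_mul, abs_of_nonneg (by linarith : (0 : ℝ) ≤ N ^ (s - 1) - 1), abs_of_nonneg hS0]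
    have h4 := rpow_sub_one_le hN1 hu0 hu1
    have hs1' : 0 < s - 1 := by linarith
    calc (N ^ (s - 1) - 1) * S ≤ ((s - 1) * (N * Real.log N)) * (D₂ / (s - 1)) :=
          mul_le_mul h4 h3 hS0 (by positivity)
      _ = D₂ * (N * Real.log N) := by field_simp

theorem torsionOrder_pos_real : (0 : ℝ) < torsionOrder K := by
  exact_mod_cast torsionOrder_pos K

/-- **AN0, first form**: partial zeta functions of two classes differ by a bounded function. -/
theorem partialZeta_sub_bounded_of_orbit (hB1 : OrbitSumIdentity K) (C C' : ClassGroup (𝓞 K)) :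
    ∃ B : ℝ, ∀ s : ℝ, 1 < s → s ≤ 2 → |partialZeta K C s - partialZeta K C' s| ≤ B := by
  obtain ⟨B, hB0, hB⟩ := exists_bound_partialZeta_sub K hB1 C
  obtain ⟨B', hB'0, hB'⟩ := exists_bound_partialZeta_sub K hB1 C'
  have hw := torsionOrder_pos_real K
  refine ⟨(B + B') / torsionOrder K, fun s hs1 hs2 => ?_⟩
  have h1 := hB s hs1 hs2
  have h2 := hB' s hs1 hs2
  rw [le_div_iff₀ hw]
  have h3 : |partialZeta K C s - partialZeta K C' s| * (torsionOrder K : ℝ) =
      |((torsionOrder K : ℝ) * partialZeta K C s - ∑' a : 𝓞 K, F K s a) -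
        ((torsionOrder K : ℝ) * partialZeta K C' s - ∑' a : 𝓞 K, F K s a)| := by
    rw [← abs_of_pos hw, ← abs_mul, abs_of_pos hw]
    congr 1; ring
  rw [h3]
  exact (abs_sub _ _).trans (add_le_add h1 h2)

/-- **AN0, second form**: the pole bound for partial zeta functions. -/
theorem partialZeta_le_of_orbit (hB1 : OrbitSumIdentity K) (C : ClassGroup (𝓞 K)) :
    ∃ B : ℝ, ∀ s : ℝ, 1 < s → s ≤ 2 → partialZeta K C s ≤ B / (s - 1) := by
  obtain ⟨B, hB0, hB⟩ := exists_bound_partialZeta_sub K hB1 C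
  obtain ⟨D₂, hD₂0, hD₂⟩ := exists_bound_tsum_F K
  have hw := torsionOrder_pos_real K
  refine ⟨(B + D₂) / torsionOrder K, fun s hs1 hs2 => ?_⟩
  have h1 := (abs_le.mp (hB s hs1 hs2)).2
  have h2 := hD₂ s hs1 hs2
  have hs : 0 < s - 1 := by linarith
  rw [div_div, le_div_iff₀ (by positivity)]
  have h3 : D₂ / (s - 1) * (s - 1) = D₂ := by field_simp
  have h4 : (torsionOrder K : ℝ) * partialZeta K C s ≤ B + D₂ / (s - 1) := by linarith
  have h5 : B * (s - 1) ≤ B := by nlinarith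
  calc partialZeta K C s * ((torsionOrder K : ℝ) * (s - 1))
      = ((torsionOrder K : ℝ) * partialZeta K C s) * (s - 1) := by ring
    _ ≤ (B + D₂ / (s - 1)) * (s - 1) := mul_le_mul_of_nonneg_right h4 hs.le
    _ = B * (s - 1) + D₂ := by rw [add_mul, h3]
    _ ≤ B + D₂ := by linarith

end Fermat.Agent.S14.helper34
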