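import Fermat.Agent.S14.helper34_Weight

/-!
# S14 (2b) AN0: on the support of the weight all coordinates are comparable (helper34)
-/

set_option autoImplicit false

open NumberField NumberField.mixedEmbedding NumberField.InfinitePlace NumberField.Units
  NumberField.Units.dirichletUnitTheorem Module
open scoped nonZeroDivisors

namespace Fermat.Agent.S14.helper34

variable (K : Type*) [Field K] [NumberField K]

open scoped Classical in
/-- A bound for `‖logMap x‖` on the support of the weight. -/
noncomputable def logBound : ℝ :=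
  ∑ i, ‖((basisUnitLattice K).ofZLatticeBasis ℝ (unitLattice K)) i‖

theorem logBound_nonneg : 0 ≤ logBound K := by
  classical
  exact Finset.sum_nonneg fun _ _ => norm_nonneg _

open scoped Classical in
theorem norm_logMap_le {x : mixedSpace K} (hx : weight K x ≠ 0) : ‖logMap x‖ ≤ logBound K := by
  set B := (basisUnitLattice K).ofZLatticeBasis ℝ (unitLattice K) with hB
  have h := B.sum_repr (logMap x)
  rw [← h]
  refine (norm_sum_le _ _).trans (Finset.sum_le_sum fun i _ => ?_)
  rw [_root_.norm_smul]
  have h1 : ‖(B.repr (logMap x)) i‖ ≤ 1 := by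
    rw [Real.norm_eq_abs]
    exact (abs_logCoord_lt_one K hx i).le
  calc ‖(B.repr (logMap x)) i‖ * ‖B i‖ ≤ 1 * ‖B i‖ :=
        mul_le_mul_of_nonneg_right h1 (norm_nonneg _)
    _ = ‖B i‖ := one_mul _

/-- The deviation of `log (normAtPlace w x)` from the mean `log (norm x) / n`. -/
noncomputable def dev (x : mixedSpace K) (w : InfinitePlace K) : ℝ :=
  Real.log (normAtPlace w x) - Real.log (mixedEmbedding.norm x) * (finrank ℚ K : ℝ)⁻¹

theorem logMap_eq_mult_mul_dev (x : mixedSpace K) (w : {w : InfinitePlace K // w ≠ w₀}) :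
    logMap x w = mult w.val * dev K x w.val := rfl

theorem sum_mult_mul_dev {x : mixedSpace K} (hx : mixedEmbedding.norm x ≠ 0) :
    ∑ w : InfinitePlace K, (mult w : ℝ) * dev K x w = 0 := by
  have hn : (finrank ℚ K : ℝ) ≠ 0 := Nat.cast_ne_zero.mpr finrank_pos.ne'
  have h1 : Real.log (mixedEmbedding.norm x) =
      ∑ w : InfinitePlace K, (mult w : ℝ) * Real.log (normAtPlace w x) := by
    rw [mixedEmbedding.norm_apply, Real.log_prod]
    · refine Finset.sum_congr rfl fun w _ => ?_
      rw [Real.log_pow]
    · intro w _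
      exact pow_ne_zero _ (mixedEmbedding.norm_ne_zero_iff.mp hx w)
  have h2 : ∑ w : InfinitePlace K, (mult w : ℝ) = finrank ℚ K := by
    rw [← Nat.cast_sum, sum_mult_eq]
  simp only [dev, mul_sub, Finset.sum_sub_distrib]
  rw [← h1, ← Finset.sum_mul, h2]
  field_simp
  ring

/-- The constant bounding all the deviations on the support of the weight. -/
noncomputable def devBound : ℝ := (Fintype.card (InfinitePlace K) : ℝ) * logBound K

theorem devBound_nonneg : 0 ≤ devBound K :=
  mul_nonneg (Nat.cast_nonneg _) (logBound_nonneg K)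

open scoped Classical in
theorem abs_dev_le {x : mixedSpace K} (hN : mixedEmbedding.norm x ≠ 0) (hx : weight K x ≠ 0)
    (w : InfinitePlace K) : |dev K x w| ≤ devBound K := by
  have hM := norm_logMap_le K hx
  have hcard : (1 : ℝ) ≤ Fintype.card (InfinitePlace K) := by
    exact_mod_cast Fintype.card_pos
  have hne : ∀ v : {w : InfinitePlace K // w ≠ w₀}, |(mult v.val : ℝ) * dev K x v.val| ≤
      logBound K := by
    intro v
    rw [← logMap_eq_mult_mul_dev]
    exact ((norm_le_pi_norm (logMap x) v).trans hM)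
  have hmul : ∀ v : InfinitePlace K, |dev K x v| ≤ |(mult v : ℝ) * dev K x v| := by
    intro v
    rw [abs_mul]
    have : (1 : ℝ) ≤ |(mult v : ℝ)| := by
      rw [abs_of_nonneg (Nat.cast_nonneg _)]
      exact one_le_mult
    calc |dev K x v| = 1 * |dev K x v| := (one_mul _).symm
      _ ≤ |(mult v : ℝ)| * |dev K x v| := mul_le_mul_of_nonneg_right this (abs_nonneg _)
  by_cases hw : w = w₀
  · subst hw
    have h0 := sum_mult_mul_dev K hN
    rw [Fintype.sum_eq_add_sum_subtype_ne _ w₀] at h0
    have h1 : (mult (w₀ : InfinitePlace K) : ℝ) * dev K x w₀ =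
        - ∑ v : {w : InfinitePlace K // w ≠ w₀}, (mult v.val : ℝ) * dev K x v.val := by
      linarith
    refine (hmul _).trans ?_
    rw [h1, abs_neg]
    refine (Finset.abs_sum_le_sum_abs _ _).trans ?_
    refine (Finset.sum_le_sum fun v _ => hne v).trans ?_
    rw [Finset.sum_const, nsmul_eq_mul, devBound]
    refine mul_le_mul_of_nonneg_right ?_ (logBound_nonneg K)
    rw [Finset.card_univ]
    exact_mod_cast Fintype.card_subtype_le _
  · refine (hmul w).trans ((hne ⟨w, hw⟩).trans ?_)
    rw [devBound]
    calc logBound K = 1 * logBound K := (one_mul _).symm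
      _ ≤ _ := mul_le_mul_of_nonneg_right hcard (logBound_nonneg K)

/-- The balance constant: on the support of the weight, `c₀ * ‖x‖ ≤ normAtPlace w x`. -/
noncomputable def c₀ : ℝ := Real.exp (-(2 * devBound K))

theorem c₀_pos : 0 < c₀ K := Real.exp_pos _

theorem c₀_le_one : c₀ K ≤ 1 := by
  rw [c₀, ← Real.exp_zero]
  exact Real.exp_le_exp.mpr (by linarith [devBound_nonneg K])

open scoped Classical in
theorem balanced {x : mixedSpace K} (hN : mixedEmbedding.norm x ≠ 0) (hx : weight K x ≠ 0)
    (w : InfinitePlace K) : c₀ K * ‖x‖ ≤ normAtPlace w x := by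
  set L := Real.log (mixedEmbedding.norm x) * (finrank ℚ K : ℝ)⁻¹ with hL
  have hpos : ∀ v, 0 < normAtPlace v x := fun v =>
    lt_of_le_of_ne (normAtPlace_nonneg v x) (Ne.symm (mixedEmbedding.norm_ne_zero_iff.mp hN v))
  have hdev : ∀ v, |Real.log (normAtPlace v x) - L| ≤ devBound K := fun v => abs_dev_le K hN hx v
  have hup : ∀ v, normAtPlace v x ≤ Real.exp (L + devBound K) := by
    intro v
    rw [← Real.exp_log (hpos v)]
    exact Real.exp_le_exp.mpr (by linarith [(abs_le.mp (hdev v)).2])
  have hlow : Real.exp (L - devBound K) ≤ normAtPlace w x := by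
    rw [← Real.exp_log (hpos w)]
    exact Real.exp_le_exp.mpr (by linarith [(abs_le.mp (hdev w)).1])
  have hnorm : ‖x‖ ≤ Real.exp (L + devBound K) := by
    rw [norm_eq_sup'_normAtPlace]
    exact Finset.sup'_le _ _ fun v _ => hup v
  calc c₀ K * ‖x‖ ≤ c₀ K * Real.exp (L + devBound K) :=
        mul_le_mul_of_nonneg_left hnorm (c₀_pos K).le
    _ = Real.exp (L - devBound K) := by
        rw [c₀, ← Real.exp_add]; congr 1; ring
    _ ≤ _ := hlow

open scoped Classical in
theorem pow_le_norm {x : mixedSpace K} (hN : mixedEmbedding.norm x ≠ 0) (hx : weight K x ≠ 0) :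
    (c₀ K * ‖x‖) ^ (finrank ℚ K) ≤ mixedEmbedding.norm x := by
  rw [mixedEmbedding.norm_apply, ← sum_mult_eq, ← Finset.prod_pow_eq_pow_sum]
  refine Finset.prod_le_prod (fun w _ => pow_nonneg (mul_nonneg (c₀_pos K).le (norm_nonneg _)) _)
    fun w _ => ?_
  exact pow_le_pow_left₀ (mul_nonneg (c₀_pos K).le (norm_nonneg _)) (balanced K hN hx w) _

end Fermat.Agent.S14.helper34
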