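import Fermat.Agent.S14.helper34_LatticeSum

/-!
# S14 (2b) AN0: comparing the lattice sums over `𝓞 K` and over an ideal (helper34)
-/

set_option autoImplicit false
set_option linter.unusedSectionVars false

open NumberField NumberField.mixedEmbedding NumberField.InfinitePlace NumberField.Units
  NumberField.Units.dirichletUnitTheorem Module
open scoped nonZeroDivisors

namespace Fermat.Agent.S14.helper34

section coset

variable {A : Type*} [AddCommGroup A] (H : AddSubgroup A)

/-- An explicit bijection `(A ⧸ H) × H ≃ A`, `(q, h) ↦ q.out + h`. -/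
noncomputable def cosetEquiv : (A ⧸ H) × H ≃ A where
  toFun p := Quotient.out p.1 + (p.2 : A)
  invFun a := ((a : A ⧸ H), ⟨-(Quotient.out (a : A ⧸ H)) + a,
    QuotientAddGroup.eq.mp (QuotientAddGroup.out_eq' (a : A ⧸ H))⟩)
  left_inv := by
    rintro ⟨q, h⟩
    have h1 : ((Quotient.out q + (h : A) : A) : A ⧸ H) = q := by
      rw [QuotientAddGroup.mk_add, QuotientAddGroup.out_eq']
      have : ((h : A) : A ⧸ H) = 0 := (QuotientAddGroup.eq_zero_iff _).mpr h.2
      rw [this, add_zero]
    ext
    · exact h1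
    · simp only
      rw [h1]
      abel
  right_inv := by
    intro a
    simp

theorem cosetEquiv_apply (q : A ⧸ H) (h : H) : cosetEquiv H (q, h) = Quotient.out q + (h : A) :=
  rfl

theorem tsum_eq_sum_cosets [Fintype (A ⧸ H)] {f : A → ℝ} (hf : Summable f) :
    ∑' a, f a = ∑ q : A ⧸ H, ∑' h : H, f (Quotient.out q + (h : A)) := by
  have h1 : Summable (fun p : (A ⧸ H) × H => f (cosetEquiv H p)) :=
    (cosetEquiv H).summable_iff.mpr hf
  rw [← (cosetEquiv H).tsum_eq f, Summable.tsum_prod h1, tsum_fintype]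
  rfl

end coset

variable (K : Type*) [Field K] [NumberField K]

/-- The sum of the translation bounds over a set of representatives of the cosets. -/
noncomputable def cosetBound (J : Ideal (𝓞 K)) [Fintype (𝓞 K ⧸ J.toAddSubgroup)] : ℝ :=
  ∑ q : 𝓞 K ⧸ J.toAddSubgroup, ∑' h : 𝓞 K, bnd K (Quotient.out q) h

theorem abs_tsum_F_sub_le (J : Ideal (𝓞 K)) [Fintype (𝓞 K ⧸ J.toAddSubgroup)]
    {s : ℝ} (hs1 : 1 < s) (hs2 : s ≤ 2) :
    |∑' a : 𝓞 K, F K s a -
        (Fintype.card (𝓞 K ⧸ J.toAddSubgroup) : ℝ) * ∑' h : J.toAddSubgroup, F K s h| ≤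
      cosetBound K J := by
  have hF := summable_F K hs1
  have hsub : Summable fun h : J.toAddSubgroup => F K s h :=
    hF.comp_injective (i := fun h : J.toAddSubgroup => (h : 𝓞 K)) Subtype.val_injective
  have hshift : ∀ r : 𝓞 K, Summable fun h : J.toAddSubgroup => F K s (r + h) := by
    intro r
    have h0 : Summable (F K s ∘ (Equiv.addLeft r)) := (Equiv.addLeft r).summable_iff.mpr hF
    have h1 : Summable fun a : 𝓞 K => F K s (r + a) := by
      refine h0.congr fun a => ?_
      simp only [Function.comp_apply, Equiv.coe_addLeft]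
    exact h1.comp_injective (i := fun h : J.toAddSubgroup => (h : 𝓞 K)) Subtype.val_injective
  have h1 := tsum_eq_sum_cosets J.toAddSubgroup hF
  have h2 : (Fintype.card (𝓞 K ⧸ J.toAddSubgroup) : ℝ) * ∑' h : J.toAddSubgroup, F K s h =
      ∑ q : 𝓞 K ⧸ J.toAddSubgroup, ∑' h : J.toAddSubgroup, F K s h := by
    rw [Finset.sum_const, Finset.card_univ, nsmul_eq_mul]
  rw [h1, h2, ← Finset.sum_sub_distrib]
  refine (Finset.abs_sum_le_sum_abs _ _).trans (Finset.sum_le_sum fun q _ => ?_)
  rw [← (hshift _).tsum_sub hsub]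
  have hb : Summable fun h : J.toAddSubgroup => bnd K (Quotient.out q) h :=
    (summable_bnd K _).comp_injective (i := fun h : J.toAddSubgroup => (h : 𝓞 K))
      Subtype.val_injective
  have h3 : |∑' h : J.toAddSubgroup, (F K s (Quotient.out q + h) - F K s h)| ≤
      ∑' h : J.toAddSubgroup, bnd K (Quotient.out q) h := by
    rw [← Real.norm_eq_abs]
    refine tsum_of_norm_bounded hb.hasSum fun h => ?_
    rw [Real.norm_eq_abs]
    exact abs_F_sub_le_bnd K _ _ hs1.le hs2
  refine h3.trans ?_
  exact tsum_comp_le_tsum_of_inj (i := fun h : J.toAddSubgroup => (h : 𝓞 K)) (summable_bnd K _)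
    (bnd_nonneg K _) Subtype.val_injective

end Fermat.Agent.S14.helper34
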