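import Fermat.Agent.S14.helper34_Translate

/-!
# S14 (2b) AN0: lattice sums of `G` over ideals (helper34)
-/

set_option autoImplicit false
set_option linter.unusedSectionVars false

open NumberField NumberField.mixedEmbedding NumberField.InfinitePlace NumberField.Units
  NumberField.Units.dirichletUnitTheorem Module
open scoped nonZeroDivisors

namespace Fermat.Agent.S14.helper34

variable (K : Type*) [Field K] [NumberField K]

/-- The function `G` evaluated at (the image of) an algebraic integer. -/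
noncomputable def F (s : ℝ) (a : 𝓞 K) : ℝ := G K s (mixedEmbedding K (a : K))

/-- The mixed embedding of an algebraic integer. -/
noncomputable def ι (a : 𝓞 K) : mixedSpace K := mixedEmbedding K (a : K)

theorem F_def (s : ℝ) (a : 𝓞 K) : F K s a = G K s (ι K a) := rfl

theorem ι_injective : Function.Injective (ι K) :=
  (mixedEmbedding_injective K).comp RingOfIntegers.coe_injective

theorem ι_add (a b : 𝓞 K) : ι K (a + b) = ι K a + ι K b := by
  simp [ι]

theorem ι_zero : ι K 0 = 0 := by simp [ι]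

theorem ι_ne_zero {a : 𝓞 K} (ha : a ≠ 0) : ι K a ≠ 0 := by
  rw [← ι_zero K]
  exact fun h => ha (ι_injective K h)

theorem F_nonneg (s : ℝ) (a : 𝓞 K) : 0 ≤ F K s a := G_nonneg K s _

theorem norm_ι_ge_one {a : 𝓞 K} (ha : a ≠ 0) : 1 ≤ mixedEmbedding.norm (ι K a) := by
  rw [ι, norm_eq_norm]
  have h1 : Algebra.norm ℤ a ≠ 0 := Algebra.norm_ne_zero_iff.mpr ha
  have h2 : (Algebra.norm ℚ (a : K)) = ((Algebra.norm ℤ a : ℤ) : ℚ) :=
    (Algebra.coe_norm_int a).symm
  rw [h2]
  have h3 : (1 : ℤ) ≤ |Algebra.norm ℤ a| := Int.one_le_abs h1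
  have : ((1 : ℤ) : ℝ) ≤ ((|Algebra.norm ℤ a| : ℤ) : ℝ) := by exact_mod_cast h3
  simpa using this

theorem F_le_one {s : ℝ} (hs : 0 < s) (a : 𝓞 K) : F K s a ≤ 1 := by
  by_cases ha : a = 0
  · subst ha
    rw [F_def, ι_zero, G_zero K hs.ne']
    exact zero_le_one
  · have h1 := norm_ι_ge_one K ha
    have h2 : (mixedEmbedding.norm (ι K a)) ^ (-s) ≤ 1 :=
      Real.rpow_le_one_of_one_le_of_nonpos h1 (by linarith)
    calc F K s a = weight K (ι K a) * (mixedEmbedding.norm (ι K a)) ^ (-s) := rfl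
      _ ≤ 1 * 1 := mul_le_mul (weight_le_one K _) h2
          (Real.rpow_nonneg (mixedEmbedding.norm_nonneg _) _) zero_le_one
      _ = 1 := one_mul 1

open scoped Classical in
theorem summable_norm_ι_rpow {r : ℝ} (hr : r < -(finrank ℚ K : ℝ)) :
    Summable fun a : 𝓞 K => ‖ι K a‖ ^ r := by
  have hrank : finrank ℤ (mixedEmbedding.integerLattice K) = finrank ℚ K := by
    rw [ZLattice.rank ℝ, mixedEmbedding.finrank]
  have h1 := ZLattice.summable_norm_rpow (mixedEmbedding.integerLattice K) r (by rw [hrank]; exact hr)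
  have hmem : ∀ a : 𝓞 K, ι K a ∈ mixedEmbedding.integerLattice K := by
    intro a
    exact LinearMap.mem_range_self
      ((mixedEmbedding K).comp (algebraMap (𝓞 K) K)).toIntAlgHom.toLinearMap a
  let e : 𝓞 K → mixedEmbedding.integerLattice K := fun a => ⟨ι K a, hmem a⟩
  have he : Function.Injective e := fun a b h => ι_injective K (Subtype.ext_iff.mp h)
  have h2 := h1.comp_injective he
  refine h2.congr fun a => ?_
  simp only [Function.comp_apply]
  rfl

open scoped Classical in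
theorem F_le_rpow {s : ℝ} (hs : 0 < s) (a : 𝓞 K) :
    F K s a ≤ (c₀ K) ^ (-((finrank ℚ K : ℝ) * s)) * ‖ι K a‖ ^ (-((finrank ℚ K : ℝ) * s)) := by
  have hn0 : (0 : ℝ) < finrank ℚ K := by exact_mod_cast (finrank_pos : 0 < finrank ℚ K)
  by_cases ha : a = 0
  · subst ha
    rw [F_def, ι_zero, G_zero K hs.ne', norm_zero,
      Real.zero_rpow (by nlinarith : -((finrank ℚ K : ℝ) * s) ≠ 0), mul_zero]
  · rw [← Real.mul_rpow (c₀_pos K).le (norm_nonneg _)]
    exact G_le K (ι_ne_zero K ha) hs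

open scoped Classical in
theorem summable_F {s : ℝ} (hs : 1 < s) : Summable (F K s) := by
  have hn0 : (0 : ℝ) < finrank ℚ K := by exact_mod_cast (finrank_pos : 0 < finrank ℚ K)
  have h1 : Summable fun a : 𝓞 K => ‖ι K a‖ ^ (-((finrank ℚ K : ℝ) * s)) :=
    summable_norm_ι_rpow K (by nlinarith)
  exact Summable.of_nonneg_of_le (F_nonneg K s) (F_le_rpow K (by linarith)) (h1.mul_left _)

open scoped Classical in
/-- The radius beyond which the translation estimate applies. -/
noncomputable def Rr (r : 𝓞 K) : ℝ := max 1 (4 * ‖ι K r‖ / c₀ K)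

open scoped Classical in
/-- The constant in the pointwise bound for the translation by `r`. -/
noncomputable def Er (r : 𝓞 K) : ℝ := Rr K r ^ (finrank ℚ K + 1) + C₂ K * ‖ι K r‖

open scoped Classical in
/-- The (summable, `s`-independent) bound for `|F s (r + h) - F s h|`. -/
noncomputable def bnd (r h : 𝓞 K) : ℝ :=
  (if h = 0 then 1 else 0) + Er K r * ‖ι K h‖ ^ (-((finrank ℚ K : ℝ) + 1))

theorem Rr_ge_one (r : 𝓞 K) : 1 ≤ Rr K r := le_max_left _ _

open scoped Classical in
theorem Er_nonneg (r : 𝓞 K) : 0 ≤ Er K r := by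
  unfold Er
  have h1 : 0 ≤ Rr K r := zero_le_one.trans (Rr_ge_one K r)
  have := C₂_nonneg K
  positivity

open scoped Classical in
theorem bnd_nonneg (r h : 𝓞 K) : 0 ≤ bnd K r h := by
  unfold bnd
  have := Er_nonneg K r
  have : (0 : ℝ) ≤ if h = 0 then 1 else 0 := by split_ifs <;> norm_num
  positivity

open scoped Classical in
theorem summable_bnd (r : 𝓞 K) : Summable (bnd K r) := by
  have h1 : Summable fun h : 𝓞 K => ‖ι K h‖ ^ (-((finrank ℚ K : ℝ) + 1)) :=
    summable_norm_ι_rpow K (by linarith)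
  have h2 : Summable fun h : 𝓞 K => (if h = 0 then (1 : ℝ) else 0) := by
    refine summable_of_ne_finset_zero (s := {0}) fun h hh => ?_
    rw [if_neg (by simpa using hh)]
  exact h2.add (h1.mul_left _)

open scoped Classical in
theorem abs_F_sub_le_bnd (r h : 𝓞 K) {s : ℝ} (hs1 : 1 ≤ s) (hs2 : s ≤ 2) :
    |F K s (r + h) - F K s h| ≤ bnd K r h := by
  have hs0 : 0 < s := by linarith
  have hn0 : (0 : ℝ) < finrank ℚ K := by exact_mod_cast (finrank_pos : 0 < finrank ℚ K)
  have h01 : ∀ a, |F K s a - F K s h| ≤ 1 := by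
    intro a
    rw [abs_le]
    constructor <;> linarith [F_nonneg K s a, F_nonneg K s h, F_le_one K hs0 a, F_le_one K hs0 h]
  by_cases hh : h = 0
  · subst hh
    unfold bnd
    rw [if_pos rfl, ι_zero, norm_zero,
      Real.zero_rpow (by linarith : -((finrank ℚ K : ℝ) + 1) ≠ 0), mul_zero, add_zero (1 : ℝ)]
    exact h01 (r + 0)
  · unfold bnd
    rw [if_neg hh, zero_add]
    have hx : ι K h ≠ 0 := ι_ne_zero K hh
    have hxpos : 0 < ‖ι K h‖ := norm_pos_iff.mpr hx
    have hR1 := Rr_ge_one K r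
    have hpow : 0 < ‖ι K h‖ ^ (-((finrank ℚ K : ℝ) + 1)) := Real.rpow_pos_of_pos hxpos _
    by_cases hbig : Rr K r ≤ ‖ι K h‖
    · -- translation estimate
      have hr : ‖ι K r‖ ≤ c₀ K / 4 * ‖ι K h‖ := by
        have h0 : 4 * ‖ι K r‖ / c₀ K ≤ Rr K r := le_max_right _ _
        have h1 : 4 * ‖ι K r‖ / c₀ K ≤ ‖ι K h‖ := h0.trans hbig
        rw [div_le_iff₀ (c₀_pos K)] at h1
        linarith
      have h1 := translate_estimate K hx hr hs0 hs2
      have h2 : F K s (r + h) = G K s (ι K h + ι K r) := by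
        rw [F_def, ι_add, add_comm]
      rw [h2, F_def]
      refine h1.trans ?_
      have hge1 : 1 ≤ ‖ι K h‖ := hR1.trans hbig
      have h3 : ‖ι K h‖⁻¹ * ‖ι K h‖ ^ (-((finrank ℚ K : ℝ) * s)) ≤
          ‖ι K h‖ ^ (-((finrank ℚ K : ℝ) + 1)) := by
        rw [← Real.rpow_neg_one, ← Real.rpow_add hxpos]
        refine Real.rpow_le_rpow_of_exponent_le hge1 ?_
        nlinarith
      calc C₂ K * ‖ι K r‖ * ‖ι K h‖⁻¹ * ‖ι K h‖ ^ (-((finrank ℚ K : ℝ) * s))
          = (C₂ K * ‖ι K r‖) * (‖ι K h‖⁻¹ * ‖ι K h‖ ^ (-((finrank ℚ K : ℝ) * s))) := by ring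
        _ ≤ (C₂ K * ‖ι K r‖) * ‖ι K h‖ ^ (-((finrank ℚ K : ℝ) + 1)) :=
            mul_le_mul_of_nonneg_left h3 (mul_nonneg (C₂_nonneg K) (norm_nonneg _))
        _ ≤ Er K r * ‖ι K h‖ ^ (-((finrank ℚ K : ℝ) + 1)) := by
            refine mul_le_mul_of_nonneg_right ?_ hpow.le
            unfold Er
            have : 0 ≤ Rr K r ^ (finrank ℚ K + 1) := by positivity
            linarith
    · -- trivial bound
      rw [not_le] at hbig
      refine (h01 _).trans ?_
      have h1 : 1 ≤ (Rr K r / ‖ι K h‖) ^ (finrank ℚ K + 1) := by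
        refine one_le_pow₀ ?_
        rw [le_div_iff₀ hxpos]
        linarith
      have h2 : (Rr K r / ‖ι K h‖) ^ (finrank ℚ K + 1) =
          Rr K r ^ (finrank ℚ K + 1) * ‖ι K h‖ ^ (-((finrank ℚ K : ℝ) + 1)) := by
        rw [div_pow, div_eq_mul_inv, ← Real.rpow_natCast ‖ι K h‖, ← Real.rpow_neg hxpos.le]
        push_cast
        ring_nf
      rw [h2] at h1
      refine h1.trans (mul_le_mul_of_nonneg_right ?_ hpow.le)
      unfold Er
      have := mul_nonneg (C₂_nonneg K) (norm_nonneg (ι K r))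
      linarith

end Fermat.Agent.S14.helper34
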