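import Fermat.Agent.S14.helper34_Coset

/-!
# S14 (2b) AN0: homogeneity of `G` and the pole bound for the lattice sum over `𝓞 K` (helper34)
-/

set_option autoImplicit false
set_option linter.unusedSectionVars false

open NumberField NumberField.mixedEmbedding NumberField.InfinitePlace NumberField.Units
  NumberField.Units.dirichletUnitTheorem Module
open scoped nonZeroDivisors

namespace Fermat.Agent.S14.helper34

variable (K : Type*) [Field K] [NumberField K]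

theorem weight_smul {c : ℝ} (hc : c ≠ 0) {x : mixedSpace K} (hx : mixedEmbedding.norm x ≠ 0) :
    weight K (c • x) = weight K x := by
  unfold weight logCoord
  rw [logMap_real_smul hx hc]

theorem G_smul {c : ℝ} (hc : c ≠ 0) (x : mixedSpace K) {s : ℝ} (hs : s ≠ 0) :
    G K s (c • x) = |c| ^ (-((finrank ℚ K : ℝ) * s)) * G K s x := by
  by_cases hx : mixedEmbedding.norm x = 0
  · have h1 : mixedEmbedding.norm (c • x) = 0 := by
      rw [mixedEmbedding.norm_smul, hx, mul_zero]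
    rw [G_eq_zero_of_norm_eq_zero K hs h1, G_eq_zero_of_norm_eq_zero K hs hx, mul_zero]
  · unfold G
    rw [weight_smul K hc hx, mixedEmbedding.norm_smul,
      Real.mul_rpow (pow_nonneg (abs_nonneg c) _) (mixedEmbedding.norm_nonneg x),
      ← Real.rpow_natCast, ← Real.rpow_mul (abs_nonneg c)]
    have : (finrank ℚ K : ℝ) * -s = -((finrank ℚ K : ℝ) * s) := by ring
    rw [this]
    ring

theorem ι_two_mul (a : 𝓞 K) : ι K (2 * a) = (2 : ℝ) • ι K a := by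
  have h1 : ι K (2 * a) = ι K a + ι K a := by rw [two_mul, ι_add]
  rw [h1, two_smul]

theorem F_two_mul (a : 𝓞 K) {s : ℝ} (hs : s ≠ 0) :
    F K s (2 * a) = (2 : ℝ) ^ (-((finrank ℚ K : ℝ) * s)) * F K s a := by
  rw [F_def, ι_two_mul, G_smul K two_ne_zero _ hs, abs_two, F_def]

theorem natCard_quot (J : Ideal (𝓞 K)) :
    Nat.card (𝓞 K ⧸ J.toAddSubgroup) = Ideal.absNorm J := rfl

theorem finite_quot {J : Ideal (𝓞 K)} (hJ : J ≠ ⊥) : Finite (𝓞 K ⧸ J.toAddSubgroup) := by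
  refine Nat.finite_of_card_ne_zero ?_
  rw [natCard_quot]
  exact fun h => hJ (Ideal.absNorm_eq_zero_iff.mp h)

/-- The comparison between the lattice sums over `𝓞 K` and over a nonzero ideal `J`. -/
theorem exists_bound_tsum_F_sub (J : Ideal (𝓞 K)) (hJ : J ≠ ⊥) :
    ∃ D : ℝ, 0 ≤ D ∧ ∀ s : ℝ, 1 < s → s ≤ 2 →
      |∑' a : 𝓞 K, F K s a - (Ideal.absNorm J : ℝ) * ∑' h : J.toAddSubgroup, F K s h| ≤ D := by
  haveI := finite_quot K hJ
  letI := Fintype.ofFinite (𝓞 K ⧸ J.toAddSubgroup)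
  refine ⟨cosetBound K J, ?_, fun s hs1 hs2 => ?_⟩
  · unfold cosetBound
    exact Finset.sum_nonneg fun q _ => tsum_nonneg fun h => bnd_nonneg K _ _
  · have h := abs_tsum_F_sub_le K J hs1 hs2
    rwa [← Nat.card_eq_fintype_card, natCard_quot] at h

/-- The principal ideal `(2)`. -/
noncomputable def J₂ : Ideal (𝓞 K) := Ideal.span {(2 : 𝓞 K)}

theorem J₂_ne_bot : J₂ K ≠ ⊥ := by
  unfold J₂
  rw [Ne, Ideal.span_singleton_eq_bot]
  exact two_ne_zero

theorem absNorm_J₂ : Ideal.absNorm (J₂ K) = 2 ^ finrank ℚ K := by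
  unfold J₂
  rw [Ideal.absNorm_span_singleton]
  have h1 : (2 : 𝓞 K) = algebraMap ℤ (𝓞 K) 2 := by simp
  rw [h1, Algebra.norm_algebraMap, RingOfIntegers.rank]
  simp [Int.natAbs_pow]

/-- Multiplication by `2` as a bijection from `𝓞 K` onto the ideal `(2)`. -/
noncomputable def twoEquiv : 𝓞 K ≃ (J₂ K).toAddSubgroup :=
  Equiv.ofBijective (fun a => ⟨2 * a, Ideal.mem_span_singleton.mpr (dvd_mul_right 2 a)⟩) (by
    constructor
    · intro a b h
      have h1 : (2 : 𝓞 K) * a = 2 * b := Subtype.ext_iff.mp h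
      exact mul_left_cancel₀ two_ne_zero h1
    · rintro ⟨h, hh⟩
      obtain ⟨a, ha⟩ := Ideal.mem_span_singleton.mp hh
      exact ⟨a, Subtype.ext ha.symm⟩)

theorem twoEquiv_apply (a : 𝓞 K) : ((twoEquiv K a : (J₂ K).toAddSubgroup) : 𝓞 K) = 2 * a := rfl

theorem tsum_F_J₂ {s : ℝ} (hs : s ≠ 0) :
    ∑' h : (J₂ K).toAddSubgroup, F K s h =
      (2 : ℝ) ^ (-((finrank ℚ K : ℝ) * s)) * ∑' a : 𝓞 K, F K s a := by
  rw [← (twoEquiv K).tsum_eq (fun h : (J₂ K).toAddSubgroup => F K s h), ← tsum_mul_left]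
  refine tsum_congr fun a => ?_
  rw [twoEquiv_apply, F_two_mul K a hs]

theorem one_sub_two_rpow_ge {u v : ℝ} (hu0 : 0 ≤ u) (hu1 : u ≤ 1) (huv : u ≤ v) :
    u / 3 ≤ 1 - (2 : ℝ) ^ (-v) := by
  have hlog : (1 : ℝ) / 2 ≤ Real.log 2 := by
    have := Real.log_two_gt_d9
    linarith
  have h1 : (2 : ℝ) ^ (-v) ≤ (2 : ℝ) ^ (-u) :=
    Real.rpow_le_rpow_of_exponent_le (by norm_num) (by linarith)
  have h2 : (2 : ℝ) ^ (-u) = Real.exp (-(u * Real.log 2)) := by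
    rw [Real.rpow_def_of_pos (by norm_num)]
    congr 1; ring
  have h3 : 1 + u / 2 ≤ Real.exp (u * Real.log 2) := by
    have := Real.add_one_le_exp (u * Real.log 2)
    nlinarith
  have h4 : Real.exp (-(u * Real.log 2)) ≤ (1 + u / 2)⁻¹ := by
    rw [Real.exp_neg]
    exact inv_anti₀ (by linarith) h3
  have h5 : (1 + u / 2)⁻¹ ≤ 1 - u / 3 := by
    rw [inv_le_iff_one_le_mul₀ (by linarith)]
    nlinarith
  linarith

/-- **Pole bound**: the lattice sum over `𝓞 K` is `O(1 / (s - 1))`. -/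
theorem exists_bound_tsum_F :
    ∃ D : ℝ, 0 ≤ D ∧ ∀ s : ℝ, 1 < s → s ≤ 2 → ∑' a : 𝓞 K, F K s a ≤ D / (s - 1) := by
  obtain ⟨D, hD0, hD⟩ := exists_bound_tsum_F_sub K (J₂ K) (J₂_ne_bot K)
  refine ⟨3 * D, by positivity, fun s hs1 hs2 => ?_⟩
  have hn1 : (1 : ℝ) ≤ finrank ℚ K := by exact_mod_cast (finrank_pos : 0 < finrank ℚ K)
  have h := hD s hs1 hs2
  set S := ∑' a : 𝓞 K, F K s a with hS
  have hS0 : 0 ≤ S := tsum_nonneg fun a => F_nonneg K s a
  rw [tsum_F_J₂ K (by linarith : s ≠ 0), absNorm_J₂] at h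
  have h1 : ((2 ^ finrank ℚ K : ℕ) : ℝ) * ((2 : ℝ) ^ (-((finrank ℚ K : ℝ) * s)) * S) =
      (2 : ℝ) ^ (-((finrank ℚ K : ℝ) * (s - 1))) * S := by
    have h2 : ((2 ^ finrank ℚ K : ℕ) : ℝ) = (2 : ℝ) ^ ((finrank ℚ K : ℝ)) := by
      rw [Real.rpow_natCast]; push_cast; ring
    rw [h2, ← mul_assoc, ← Real.rpow_add (by norm_num)]
    congr 2; ring
  rw [h1] at h
  have h3 : S - (2 : ℝ) ^ (-((finrank ℚ K : ℝ) * (s - 1))) * S =
      (1 - (2 : ℝ) ^ (-((finrank ℚ K : ℝ) * (s - 1)))) * S := by ring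
  rw [h3] at h
  have h4 : (s - 1) / 3 ≤ 1 - (2 : ℝ) ^ (-((finrank ℚ K : ℝ) * (s - 1))) :=
    one_sub_two_rpow_ge (by linarith) (by linarith) (by nlinarith)
  have h5 : (s - 1) / 3 * S ≤ D :=
    (mul_le_mul_of_nonneg_right h4 hS0).trans ((le_abs_self _).trans h)
  rw [le_div_iff₀ (by linarith)]
  nlinarith

end Fermat.Agent.S14.helper34
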