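import Fermat.Agent.S14.helper34_Balanced

/-!
# S14 (2b) AN0: the translation estimate for `G` (helper34)

`|G s (x + r) - G s x| ≤ C * ‖r‖ * ‖x‖⁻¹ * ‖x‖ ^ (-(n * s))` for `‖r‖ ≤ c₀ / 4 * ‖x‖`, `0 ≤ s ≤ 2`.
-/

set_option autoImplicit false

open NumberField NumberField.mixedEmbedding NumberField.InfinitePlace NumberField.Units
  NumberField.Units.dirichletUnitTheorem Module
open scoped nonZeroDivisors

namespace Fermat.Agent.S14.helper34

/-! ### Elementary real inequalities -/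

theorem abs_log_sub_log_le {a p q : ℝ} (ha : 0 < a) (hp : a ≤ p) (hq : a ≤ q) :
    |Real.log p - Real.log q| ≤ |p - q| / a := by
  have hp0 : 0 < p := ha.trans_le hp
  have hq0 : 0 < q := ha.trans_le hq
  have key : ∀ {u v : ℝ}, a ≤ u → a ≤ v → u ≤ v → |Real.log v - Real.log u| ≤ |v - u| / a := by
    intro u v hu hv huv
    have hu0 : 0 < u := ha.trans_le hu
    have hv0 : 0 < v := ha.trans_le hv
    have h1 : 0 ≤ Real.log v - Real.log u := sub_nonneg.mpr (Real.log_le_log hu0 huv)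
    rw [abs_of_nonneg h1, abs_of_nonneg (sub_nonneg.mpr huv)]
    have h2 : Real.log v - Real.log u = Real.log (v / u) := (Real.log_div hv0.ne' hu0.ne').symm
    rw [h2]
    have h3 : Real.log (v / u) ≤ v / u - 1 := Real.log_le_sub_one_of_pos (div_pos hv0 hu0)
    have h4 : v / u - 1 = (v - u) / u := by field_simp
    rw [h4] at h3
    exact h3.trans (div_le_div_of_nonneg_left (sub_nonneg.mpr huv) ha hu)
  rcases le_total p q with h | h
  · rw [abs_sub_comm, abs_sub_comm p q]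
    exact key hp hq h
  · exact key hq hp h

theorem abs_exp_sub_one_le_mul_exp (t : ℝ) : |Real.exp t - 1| ≤ |t| * Real.exp |t| := by
  rcases le_total 0 t with h | h
  · rw [abs_of_nonneg h, abs_of_nonneg (by linarith [Real.add_one_le_exp t])]
    have h1 : 1 - t ≤ Real.exp (-t) := by linarith [Real.add_one_le_exp (-t)]
    have h2 : Real.exp t * Real.exp (-t) = 1 := by rw [← Real.exp_add]; simp
    nlinarith [Real.exp_pos t, Real.exp_pos (-t)]
  · rw [abs_of_nonpos h, abs_of_nonpos (by linarith [Real.exp_le_one_iff.mpr h])]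
    have h1 : 1 + t ≤ Real.exp t := by linarith [Real.add_one_le_exp t]
    have h2 : 1 ≤ Real.exp (-t) := Real.one_le_exp (by linarith)
    nlinarith [Real.exp_pos t]

variable (K : Type*) [Field K] [NumberField K]

open scoped Classical in
theorem normAtPlace_le_norm (w : InfinitePlace K) (y : mixedSpace K) :
    normAtPlace w y ≤ ‖y‖ := by
  rw [norm_eq_sup'_normAtPlace]
  exact Finset.le_sup' (fun w => normAtPlace w y) (Finset.mem_univ w)

open scoped Classical in
theorem abs_normAtPlace_sub_le (w : InfinitePlace K) (y z : mixedSpace K) :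
    |normAtPlace w y - normAtPlace w z| ≤ ‖y - z‖ := by
  have h1 : normAtPlace w y ≤ normAtPlace w z + normAtPlace w (y - z) := by
    have := normAtPlace_add_le w z (y - z)
    simpa using this
  have h2 : normAtPlace w z ≤ normAtPlace w y + normAtPlace w (y - z) := by
    have := normAtPlace_add_le w y (z - y)
    have h3 : normAtPlace w (z - y) = normAtPlace w (y - z) := by
      rw [← normAtPlace_neg, neg_sub]
    simpa [h3] using this
  have h4 := normAtPlace_le_norm K w (y - z)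
  rw [abs_le]
  constructor <;> linarith

open scoped Classical in
/-- The operator norm of the coordinate map of the basis of the unit lattice. -/
noncomputable def coordBound : ℝ :=
  ‖(((basisUnitLattice K).ofZLatticeBasis ℝ (unitLattice K)).equivFunL :
      logSpace K →L[ℝ] (Fin (rank K) → ℝ))‖

theorem coordBound_nonneg : 0 ≤ coordBound K := by
  classical
  exact norm_nonneg _

open scoped Classical in
theorem abs_logCoord_sub_le (z z' : mixedSpace K) (i : Fin (rank K)) :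
    |logCoord K z i - logCoord K z' i| ≤ coordBound K * ‖logMap z - logMap z'‖ := by
  set B := (basisUnitLattice K).ofZLatticeBasis ℝ (unitLattice K) with hB
  have h1 : logCoord K z i - logCoord K z' i =
      (B.equivFunL : logSpace K →L[ℝ] (Fin (rank K) → ℝ)) (logMap z - logMap z') i := by
    simp [logCoord, ← hB, Basis.equivFunL]
  rw [h1, ← Real.norm_eq_abs]
  exact (norm_le_pi_norm _ i).trans (ContinuousLinearMap.le_opNorm _ _)

theorem log_norm_eq {x : mixedSpace K} (hx : mixedEmbedding.norm x ≠ 0) :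
    Real.log (mixedEmbedding.norm x) =
      ∑ w : InfinitePlace K, (mult w : ℝ) * Real.log (normAtPlace w x) := by
  rw [mixedEmbedding.norm_apply, Real.log_prod]
  · refine Finset.sum_congr rfl fun w _ => ?_
    rw [Real.log_pow]
  · intro w _
    exact pow_ne_zero _ (mixedEmbedding.norm_ne_zero_iff.mp hx w)

/-- The constant in the core estimate. -/
noncomputable def C₁ : ℝ :=
  4 * (rank K : ℝ) * coordBound K + 2 * (finrank ℚ K : ℝ) * Real.exp (2 * (finrank ℚ K : ℝ))

theorem C₁_nonneg : 0 ≤ C₁ K := by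
  unfold C₁
  have := coordBound_nonneg K
  positivity

open scoped Classical in
theorem core_estimate {z z' : mixedSpace K} (hN : mixedEmbedding.norm z ≠ 0)
    (hw : weight K z ≠ 0) (hzz' : ‖z - z'‖ ≤ c₀ K / 2 * ‖z‖) {s : ℝ} (hs0 : 0 ≤ s)
    (hs2 : s ≤ 2) :
    |G K s z - G K s z'| ≤
      C₁ K * (‖z - z'‖ / (c₀ K / 2 * ‖z‖)) * (mixedEmbedding.norm z) ^ (-s) := by
  have hn1 : (1 : ℝ) ≤ finrank ℚ K := by exact_mod_cast (finrank_pos : 0 < finrank ℚ K)
  have hn0 : (0 : ℝ) < finrank ℚ K := by linarith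
  have hz0 : z ≠ 0 := by
    rintro rfl
    exact hN (map_zero _)
  have hz : 0 < ‖z‖ := norm_pos_iff.mpr hz0
  set a := c₀ K / 2 * ‖z‖ with ha
  have ha0 : 0 < a := mul_pos (half_pos (c₀_pos K)) hz
  set ε := ‖z - z'‖ / a with hε
  have hε0 : 0 ≤ ε := div_nonneg (norm_nonneg _) ha0.le
  have hε1 : ε ≤ 1 := (div_le_one ha0).mpr hzz'
  have hν : ∀ w, 2 * a ≤ normAtPlace w z := by
    intro w
    have := balanced K hN hw w
    rw [ha]; linarith
  have hν' : ∀ w, a ≤ normAtPlace w z' := by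
    intro w
    have h1 := abs_normAtPlace_sub_le K w z z'
    have h2 := (abs_le.mp h1).2
    linarith [hν w]
  have hN' : mixedEmbedding.norm z' ≠ 0 :=
    mixedEmbedding.norm_ne_zero_iff.mpr fun w => (ha0.trans_le (hν' w)).ne'
  have hlog : ∀ w, |Real.log (normAtPlace w z) - Real.log (normAtPlace w z')| ≤ ε := by
    intro w
    refine (abs_log_sub_log_le ha0 (by linarith [hν w]) (hν' w)).trans ?_
    exact div_le_div_of_nonneg_right (abs_normAtPlace_sub_le K w z z') ha0.le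
  have hlogN : |Real.log (mixedEmbedding.norm z) - Real.log (mixedEmbedding.norm z')| ≤
      (finrank ℚ K : ℝ) * ε := by
    rw [log_norm_eq K hN, log_norm_eq K hN', ← Finset.sum_sub_distrib]
    refine (Finset.abs_sum_le_sum_abs _ _).trans ?_
    have h2 : ∑ w : InfinitePlace K, (mult w : ℝ) = finrank ℚ K := by
      rw [← Nat.cast_sum, sum_mult_eq]
    rw [← h2, Finset.sum_mul]
    refine Finset.sum_le_sum fun w _ => ?_
    rw [← mul_sub, abs_mul, abs_of_nonneg (Nat.cast_nonneg _)]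
    exact mul_le_mul_of_nonneg_left (hlog w) (Nat.cast_nonneg _)
  have hdev : ∀ w, |dev K z w - dev K z' w| ≤ 2 * ε := by
    intro w
    have h1 : dev K z w - dev K z' w =
        (Real.log (normAtPlace w z) - Real.log (normAtPlace w z')) -
        (Real.log (mixedEmbedding.norm z) - Real.log (mixedEmbedding.norm z')) *
          (finrank ℚ K : ℝ)⁻¹ := by
      simp only [dev]; ring
    rw [h1]
    refine (abs_sub _ _).trans ?_
    have h2 : |(Real.log (mixedEmbedding.norm z) - Real.log (mixedEmbedding.norm z')) *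
        (finrank ℚ K : ℝ)⁻¹| ≤ ε := by
      rw [abs_mul, abs_of_nonneg (inv_nonneg.mpr hn0.le)]
      calc |Real.log (mixedEmbedding.norm z) - Real.log (mixedEmbedding.norm z')| *
            (finrank ℚ K : ℝ)⁻¹ ≤ ((finrank ℚ K : ℝ) * ε) * (finrank ℚ K : ℝ)⁻¹ :=
              mul_le_mul_of_nonneg_right hlogN (inv_nonneg.mpr hn0.le)
        _ = ε := by field_simp
    linarith [hlog w]
  have hlogMap : ‖logMap z - logMap z'‖ ≤ 4 * ε := by
    rw [pi_norm_le_iff_of_nonneg (by positivity)]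
    intro v
    rw [Pi.sub_apply, logMap_eq_mult_mul_dev, logMap_eq_mult_mul_dev, ← mul_sub, Real.norm_eq_abs,
      abs_mul, abs_of_nonneg (Nat.cast_nonneg _)]
    have hm : (mult v.val : ℝ) ≤ 2 := by
      have : mult v.val ≤ 2 := by
        unfold mult; split_ifs <;> norm_num
      exact_mod_cast this
    calc (mult v.val : ℝ) * |dev K z v.val - dev K z' v.val| ≤ 2 * (2 * ε) :=
          mul_le_mul hm (hdev v.val) (abs_nonneg _) (by norm_num)
      _ = 4 * ε := by ring
  have hweight : |weight K z - weight K z'| ≤ 4 * (rank K : ℝ) * coordBound K * ε := by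
    refine (abs_weight_sub_le K z z').trans ?_
    have h1 : ∀ i : Fin (rank K), |logCoord K z i - logCoord K z' i| ≤ coordBound K * (4 * ε) :=
      fun i => (abs_logCoord_sub_le K z z' i).trans
        (mul_le_mul_of_nonneg_left hlogMap (coordBound_nonneg K))
    refine (Finset.sum_le_sum fun i _ => h1 i).trans ?_
    rw [Finset.sum_const, Finset.card_univ, Fintype.card_fin, nsmul_eq_mul]
    apply le_of_eq; ring
  have hNz : 0 < mixedEmbedding.norm z := lt_of_le_of_ne (mixedEmbedding.norm_nonneg z) (Ne.symm hN)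
  have hNz' : 0 < mixedEmbedding.norm z' :=
    lt_of_le_of_ne (mixedEmbedding.norm_nonneg z') (Ne.symm hN')
  have hpow : |(mixedEmbedding.norm z) ^ (-s) - (mixedEmbedding.norm z') ^ (-s)| ≤
      (mixedEmbedding.norm z) ^ (-s) *
        (2 * (finrank ℚ K : ℝ) * Real.exp (2 * (finrank ℚ K : ℝ)) * ε) := by
    set t := -s * (Real.log (mixedEmbedding.norm z') - Real.log (mixedEmbedding.norm z)) with ht
    have h1 : (mixedEmbedding.norm z') ^ (-s) = (mixedEmbedding.norm z) ^ (-s) * Real.exp t := by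
      rw [Real.rpow_def_of_pos hNz, Real.rpow_def_of_pos hNz', ← Real.exp_add]
      congr 1; rw [ht]; ring
    have h2 : |t| ≤ 2 * ((finrank ℚ K : ℝ) * ε) := by
      rw [ht, abs_mul, abs_neg, abs_of_nonneg hs0, abs_sub_comm]
      exact mul_le_mul hs2 hlogN (abs_nonneg _) (by norm_num)
    have h3 : |t| ≤ 2 * (finrank ℚ K : ℝ) := by
      refine h2.trans ?_
      have : (finrank ℚ K : ℝ) * ε ≤ (finrank ℚ K : ℝ) * 1 :=
        mul_le_mul_of_nonneg_left hε1 hn0.le
      linarith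
    have h4 : |Real.exp t - 1| ≤
        2 * (finrank ℚ K : ℝ) * Real.exp (2 * (finrank ℚ K : ℝ)) * ε := by
      refine (abs_exp_sub_one_le_mul_exp t).trans ?_
      calc |t| * Real.exp |t| ≤ (2 * ((finrank ℚ K : ℝ) * ε)) *
            Real.exp (2 * (finrank ℚ K : ℝ)) :=
            mul_le_mul h2 (Real.exp_le_exp.mpr h3) (Real.exp_pos _).le (by positivity)
        _ = _ := by ring
    rw [h1]
    have h5 : (mixedEmbedding.norm z) ^ (-s) - (mixedEmbedding.norm z) ^ (-s) * Real.exp t =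
        (mixedEmbedding.norm z) ^ (-s) * (1 - Real.exp t) := by ring
    rw [h5, abs_mul, abs_of_nonneg (Real.rpow_nonneg hNz.le _), abs_sub_comm]
    exact mul_le_mul_of_nonneg_left h4 (Real.rpow_nonneg hNz.le _)
  have hsplit : G K s z - G K s z' =
      (weight K z - weight K z') * (mixedEmbedding.norm z) ^ (-s) +
      weight K z' * ((mixedEmbedding.norm z) ^ (-s) - (mixedEmbedding.norm z') ^ (-s)) := by
    simp only [G]; ring
  rw [hsplit]
  refine (abs_add_le _ _).trans ?_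
  rw [abs_mul, abs_mul, abs_of_nonneg (Real.rpow_nonneg hNz.le _),
    abs_of_nonneg (weight_nonneg K z')]
  have hA : |weight K z - weight K z'| * (mixedEmbedding.norm z) ^ (-s) ≤
      (4 * (rank K : ℝ) * coordBound K * ε) * (mixedEmbedding.norm z) ^ (-s) :=
    mul_le_mul_of_nonneg_right hweight (Real.rpow_nonneg hNz.le _)
  have hB : weight K z' * |(mixedEmbedding.norm z) ^ (-s) - (mixedEmbedding.norm z') ^ (-s)| ≤
      1 * ((mixedEmbedding.norm z) ^ (-s) *
        (2 * (finrank ℚ K : ℝ) * Real.exp (2 * (finrank ℚ K : ℝ)) * ε)) :=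
    mul_le_mul (weight_le_one K z') hpow (abs_nonneg _) zero_le_one
  calc _ ≤ (4 * (rank K : ℝ) * coordBound K * ε) * (mixedEmbedding.norm z) ^ (-s) +
        1 * ((mixedEmbedding.norm z) ^ (-s) *
        (2 * (finrank ℚ K : ℝ) * Real.exp (2 * (finrank ℚ K : ℝ)) * ε)) := add_le_add hA hB
    _ = C₁ K * ε * (mixedEmbedding.norm z) ^ (-s) := by unfold C₁; ring

open scoped Classical in
theorem norm_rpow_neg_le {z : mixedSpace K} (hN : mixedEmbedding.norm z ≠ 0)
    (hw : weight K z ≠ 0) {s : ℝ} (hs0 : 0 ≤ s) :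
    (mixedEmbedding.norm z) ^ (-s) ≤ (c₀ K * ‖z‖) ^ (-((finrank ℚ K : ℝ) * s)) := by
  have hz0 : z ≠ 0 := by
    rintro rfl
    exact hN (map_zero _)
  have hz : 0 < ‖z‖ := norm_pos_iff.mpr hz0
  have hb : 0 < c₀ K * ‖z‖ := mul_pos (c₀_pos K) hz
  have h1 := pow_le_norm K hN hw
  have h2 : (c₀ K * ‖z‖) ^ (-((finrank ℚ K : ℝ) * s)) =
      ((c₀ K * ‖z‖) ^ (finrank ℚ K)) ^ (-s) := by
    rw [← Real.rpow_natCast, ← Real.rpow_mul hb.le]
    congr 1; ring
  rw [h2]
  exact Real.rpow_le_rpow_of_nonpos (pow_pos hb _) h1 (by linarith)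

open scoped Classical in
theorem G_le {z : mixedSpace K} (hz : z ≠ 0) {s : ℝ} (hs : 0 < s) :
    G K s z ≤ (c₀ K * ‖z‖) ^ (-((finrank ℚ K : ℝ) * s)) := by
  have hzpos : 0 < ‖z‖ := norm_pos_iff.mpr hz
  have hb : 0 < c₀ K * ‖z‖ := mul_pos (c₀_pos K) hzpos
  by_cases hN : mixedEmbedding.norm z = 0
  · rw [G_eq_zero_of_norm_eq_zero K hs.ne' hN]
    exact Real.rpow_nonneg hb.le _
  by_cases hw : weight K z = 0
  · rw [G, hw, zero_mul]
    exact Real.rpow_nonneg hb.le _
  calc G K s z ≤ 1 * (mixedEmbedding.norm z) ^ (-s) :=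
        mul_le_mul_of_nonneg_right (weight_le_one K z)
          (Real.rpow_nonneg (mixedEmbedding.norm_nonneg z) _)
    _ = (mixedEmbedding.norm z) ^ (-s) := one_mul _
    _ ≤ _ := norm_rpow_neg_le K hN hw hs.le

/-- The constant in the translation estimate. -/
noncomputable def C₂ : ℝ :=
  C₁ K * (4 / c₀ K) * ((c₀ K / 2)⁻¹) ^ (2 * finrank ℚ K)

theorem C₂_nonneg : 0 ≤ C₂ K := by
  unfold C₂
  have := C₁_nonneg K
  have := c₀_pos K
  positivity

open scoped Classical in
/-- Auxiliary one-sided version of the translation estimate. -/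
theorem translate_aux {z z' x : mixedSpace K} (hx : x ≠ 0) (hN : mixedEmbedding.norm z ≠ 0)
    (hw : weight K z ≠ 0) (hzx : ‖x‖ / 2 ≤ ‖z‖) (hzz' : ‖z - z'‖ ≤ c₀ K / 4 * ‖x‖)
    {s : ℝ} (hs0 : 0 ≤ s) (hs2 : s ≤ 2) :
    |G K s z - G K s z'| ≤
      C₂ K * ‖z - z'‖ * ‖x‖⁻¹ * ‖x‖ ^ (-((finrank ℚ K : ℝ) * s)) := by
  have hxpos : 0 < ‖x‖ := norm_pos_iff.mpr hx
  have hzpos : 0 < ‖z‖ := by linarith
  have hc := c₀_pos K
  have hc1 := c₀_le_one K
  have hzz'' : ‖z - z'‖ ≤ c₀ K / 2 * ‖z‖ := by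
    refine hzz'.trans ?_
    have : c₀ K / 4 * ‖x‖ = c₀ K / 2 * (‖x‖ / 2) := by ring
    rw [this]
    exact mul_le_mul_of_nonneg_left hzx (half_pos hc).le
  have h1 := core_estimate K hN hw hzz'' hs0 hs2
  have h2 := norm_rpow_neg_le K hN hw hs0
  have hns : 0 ≤ (finrank ℚ K : ℝ) * s := mul_nonneg (Nat.cast_nonneg _) hs0
  -- `(c₀ ‖z‖)^(-ns) ≤ (c₀/2 ‖x‖)^(-ns)`
  have h3 : (c₀ K * ‖z‖) ^ (-((finrank ℚ K : ℝ) * s)) ≤
      (c₀ K / 2 * ‖x‖) ^ (-((finrank ℚ K : ℝ) * s)) := by
    refine Real.rpow_le_rpow_of_nonpos (by positivity) ?_ (by linarith)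
    have : c₀ K / 2 * ‖x‖ = c₀ K * (‖x‖ / 2) := by ring
    rw [this]
    exact mul_le_mul_of_nonneg_left hzx hc.le
  have h4 : (c₀ K / 2 * ‖x‖) ^ (-((finrank ℚ K : ℝ) * s)) =
      ((c₀ K / 2)⁻¹) ^ ((finrank ℚ K : ℝ) * s) * ‖x‖ ^ (-((finrank ℚ K : ℝ) * s)) := by
    rw [Real.mul_rpow (by positivity) hxpos.le, Real.rpow_neg (by positivity),
      Real.inv_rpow (by positivity)]
  have h5 : ((c₀ K / 2)⁻¹) ^ ((finrank ℚ K : ℝ) * s) ≤ ((c₀ K / 2)⁻¹) ^ (2 * finrank ℚ K) := by
    rw [← Real.rpow_natCast]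
    refine Real.rpow_le_rpow_of_exponent_le ?_ ?_
    · rw [one_le_inv₀ (by positivity)]; linarith
    · push_cast
      nlinarith [(Nat.cast_nonneg (finrank ℚ K) : (0 : ℝ) ≤ finrank ℚ K)]
  have h6 : ‖z - z'‖ / (c₀ K / 2 * ‖z‖) ≤ 4 / c₀ K * ‖z - z'‖ * ‖x‖⁻¹ := by
    rw [div_le_iff₀ (by positivity)]
    have h7 : 4 / c₀ K * ‖z - z'‖ * ‖x‖⁻¹ * (c₀ K / 2 * ‖z‖) =
        ‖z - z'‖ * (2 * ‖z‖ * ‖x‖⁻¹) := by
      field_simp
      ring
    rw [h7]
    have h8 : 1 ≤ 2 * ‖z‖ * ‖x‖⁻¹ := by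
      rw [← div_eq_mul_inv, le_div_iff₀ hxpos]
      linarith
    calc ‖z - z'‖ = ‖z - z'‖ * 1 := (mul_one _).symm
      _ ≤ _ := mul_le_mul_of_nonneg_left h8 (norm_nonneg _)
  have hxn : 0 ≤ ‖x‖ ^ (-((finrank ℚ K : ℝ) * s)) := Real.rpow_nonneg hxpos.le _
  calc |G K s z - G K s z'|
      ≤ C₁ K * (‖z - z'‖ / (c₀ K / 2 * ‖z‖)) * (mixedEmbedding.norm z) ^ (-s) := h1
    _ ≤ C₁ K * (4 / c₀ K * ‖z - z'‖ * ‖x‖⁻¹) *
          (((c₀ K / 2)⁻¹) ^ (2 * finrank ℚ K) * ‖x‖ ^ (-((finrank ℚ K : ℝ) * s))) := by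
        refine mul_le_mul (mul_le_mul_of_nonneg_left h6 (C₁_nonneg K)) ?_
          (Real.rpow_nonneg (mixedEmbedding.norm_nonneg z) _) ?_
        · refine h2.trans (h3.trans ?_)
          rw [h4]
          exact mul_le_mul_of_nonneg_right h5 hxn
        · have := C₁_nonneg K
          positivity
    _ = C₂ K * ‖z - z'‖ * ‖x‖⁻¹ * ‖x‖ ^ (-((finrank ℚ K : ℝ) * s)) := by
        unfold C₂; ring

open scoped Classical in
/-- **Translation estimate** for `G`. -/
theorem translate_estimate {x r : mixedSpace K} (hx : x ≠ 0) (hr : ‖r‖ ≤ c₀ K / 4 * ‖x‖)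
    {s : ℝ} (hs0 : 0 < s) (hs2 : s ≤ 2) :
    |G K s (x + r) - G K s x| ≤
      C₂ K * ‖r‖ * ‖x‖⁻¹ * ‖x‖ ^ (-((finrank ℚ K : ℝ) * s)) := by
  have hxpos : 0 < ‖x‖ := norm_pos_iff.mpr hx
  have hc := c₀_pos K
  have hc1 := c₀_le_one K
  have hrx : ‖r‖ ≤ ‖x‖ / 4 := by
    refine hr.trans ?_
    have : c₀ K / 4 * ‖x‖ ≤ 1 / 4 * ‖x‖ :=
      mul_le_mul_of_nonneg_right (by linarith) hxpos.le
    linarith
  by_cases h1 : G K s x = 0
  · by_cases h2 : G K s (x + r) = 0
    · rw [h1, h2, sub_zero, abs_zero]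
      have := C₂_nonneg K
      have := Real.rpow_nonneg hxpos.le (-((finrank ℚ K : ℝ) * s))
      positivity
    · -- `z = x + r`
      have hN : mixedEmbedding.norm (x + r) ≠ 0 := fun h =>
        h2 (G_eq_zero_of_norm_eq_zero K hs0.ne' h)
      have hw : weight K (x + r) ≠ 0 := fun h => h2 (by rw [G, h, zero_mul])
      have hzx : ‖x‖ / 2 ≤ ‖x + r‖ := by
        have := norm_sub_norm_le x (-r)
        rw [sub_neg_eq_add, norm_neg] at this
        linarith
      have := translate_aux K (z := x + r) (z' := x) hx hN hw hzx (by simpa using hr) hs0.le hs2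
      simpa using this
  · have hN : mixedEmbedding.norm x ≠ 0 := fun h =>
      h1 (G_eq_zero_of_norm_eq_zero K hs0.ne' h)
    have hw : weight K x ≠ 0 := fun h => h1 (by rw [G, h, zero_mul])
    have := translate_aux K (z := x) (z' := x + r) hx hN hw (by linarith)
      (by simpa using hr) hs0.le hs2
    rw [abs_sub_comm]
    simpa using this

end Fermat.Agent.S14.helper34
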