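import Fermat.Agent.S14.helper34_Defs

/-!
# S14 (2b) AN0: basic properties of the tent weight (helper34)
-/

set_option autoImplicit false

open NumberField NumberField.mixedEmbedding NumberField.InfinitePlace NumberField.Units
  NumberField.Units.dirichletUnitTheorem Module
open scoped nonZeroDivisors

namespace Fermat.Agent.S14.helper34

/-! ### The tent function -/

theorem tent_nonneg (t : ℝ) : 0 ≤ tent t := le_max_left _ _

theorem tent_le_one (t : ℝ) : tent t ≤ 1 := by
  unfold tent
  exact max_le zero_le_one (by linarith [abs_nonneg t])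

theorem tent_eq_zero {t : ℝ} (ht : 1 ≤ |t|) : tent t = 0 := by
  unfold tent
  exact max_eq_left (by linarith)

theorem abs_lt_one_of_tent_ne_zero {t : ℝ} (ht : tent t ≠ 0) : |t| < 1 := by
  by_contra h
  exact ht (tent_eq_zero (not_lt.mp h))

theorem abs_tent_sub_le (u v : ℝ) : |tent u - tent v| ≤ |u - v| := by
  unfold tent
  have h1 : |max 0 (1 - |u|) - max 0 (1 - |v|)| ≤ |(1 - |u|) - (1 - |v|)| := by
    have := abs_max_sub_max_le_abs (1 - |u|) (1 - |v|) 0
    simpa [max_comm] using this
  have h2 : (1 - |u|) - (1 - |v|) = |v| - |u| := by ring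
  rw [h2] at h1
  exact h1.trans ((abs_abs_sub_abs_le_abs_sub v u).trans_eq (abs_sub_comm v u))

variable (K : Type*) [Field K] [NumberField K]

theorem weight_nonneg (x : mixedSpace K) : 0 ≤ weight K x :=
  Finset.prod_nonneg fun _ _ => tent_nonneg _

theorem weight_le_one (x : mixedSpace K) : weight K x ≤ 1 :=
  Finset.prod_le_one (fun _ _ => tent_nonneg _) fun _ _ => tent_le_one _

theorem abs_logCoord_lt_one {x : mixedSpace K} (hx : weight K x ≠ 0) (i : Fin (rank K)) :
    |logCoord K x i| < 1 := by
  apply abs_lt_one_of_tent_ne_zero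
  intro h
  exact hx (Finset.prod_eq_zero (Finset.mem_univ i) h)

theorem G_nonneg (s : ℝ) (x : mixedSpace K) : 0 ≤ G K s x :=
  mul_nonneg (weight_nonneg K x) (Real.rpow_nonneg (mixedEmbedding.norm_nonneg x) _)

theorem G_zero {s : ℝ} (hs : s ≠ 0) : G K s 0 = 0 := by
  simp [G, Real.zero_rpow (neg_ne_zero.mpr hs)]

theorem G_eq_zero_of_norm_eq_zero {s : ℝ} (hs : s ≠ 0) {x : mixedSpace K}
    (hx : mixedEmbedding.norm x = 0) : G K s x = 0 := by
  simp [G, hx, Real.zero_rpow (neg_ne_zero.mpr hs)]

theorem abs_weight_sub_le (x y : mixedSpace K) :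
    |weight K x - weight K y| ≤ ∑ i, |logCoord K x i - logCoord K y i| := by
  unfold weight
  have key : ∀ (s : Finset (Fin (rank K))),
      |∏ i ∈ s, tent (logCoord K x i) - ∏ i ∈ s, tent (logCoord K y i)| ≤
        ∑ i ∈ s, |logCoord K x i - logCoord K y i| := by
    intro s
    classical
    induction s using Finset.induction_on with
    | empty => simp
    | insert a s ha ih =>
      rw [Finset.prod_insert ha, Finset.prod_insert ha, Finset.sum_insert ha]
      have h1 : tent (logCoord K x a) * ∏ i ∈ s, tent (logCoord K x i) -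
          tent (logCoord K y a) * ∏ i ∈ s, tent (logCoord K y i) =
          (tent (logCoord K x a) - tent (logCoord K y a)) * ∏ i ∈ s, tent (logCoord K x i) +
          tent (logCoord K y a) *
            (∏ i ∈ s, tent (logCoord K x i) - ∏ i ∈ s, tent (logCoord K y i)) := by ring
      rw [h1]
      refine (abs_add_le _ _).trans (add_le_add ?_ ?_)
      · rw [abs_mul]
        have hp : |∏ i ∈ s, tent (logCoord K x i)| ≤ 1 := by
          rw [abs_of_nonneg (Finset.prod_nonneg fun _ _ => tent_nonneg _)]
          exact Finset.prod_le_one (fun _ _ => tent_nonneg _) fun _ _ => tent_le_one _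
        calc |tent (logCoord K x a) - tent (logCoord K y a)| * |∏ i ∈ s, tent (logCoord K x i)|
            ≤ |tent (logCoord K x a) - tent (logCoord K y a)| * 1 :=
              mul_le_mul_of_nonneg_left hp (abs_nonneg _)
          _ ≤ |logCoord K x a - logCoord K y a| := by
              rw [mul_one]; exact abs_tent_sub_le _ _
      · rw [abs_mul, abs_of_nonneg (tent_nonneg _)]
        calc tent (logCoord K y a) *
              |∏ i ∈ s, tent (logCoord K x i) - ∏ i ∈ s, tent (logCoord K y i)|
            ≤ 1 * |∏ i ∈ s, tent (logCoord K x i) - ∏ i ∈ s, tent (logCoord K y i)| :=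
              mul_le_mul_of_nonneg_right (tent_le_one _) (abs_nonneg _)
          _ ≤ ∑ i ∈ s, |logCoord K x i - logCoord K y i| := by rw [one_mul]; exact ih
  exact key Finset.univ

end Fermat.Agent.S14.helper34
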