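import Mathlib
import Fermat.Agent.S14.helper12_ArtinNorm
import Fermat.Agent.S14.helper12_ArtinFunct

/-!
# S14 (2c), crossing fields: generic Frobenius lemmas (helper38)

`Ω` is any number field, Galois over the relevant base.

* `card_quot_under_eq_of_frob_fixes` (FS-1): if a Frobenius at `𝔓` of `Ω/K` fixes the
  intermediate field `E` pointwise, then `𝔓 ∩ E` has residue degree one over `K`.
* `frob_fixes_of_split` (FS-2): a Frobenius of `Ω/E` over a prime `Q` of `E` which splits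
  completely in the Galois subextension `M/E` fixes `M` pointwise.
* `restrict_eq_frobAt_pow` (FS-3): the restriction to `L` of a Frobenius of `Ω/E` at `𝔔` is the
  `n`-th power of the Frobenius of `L/K` when `N(𝔔 ∩ E) = N(𝔔 ∩ K) ^ n` (`L/K` abelian unramified).
-/

set_option autoImplicit false
set_option linter.unusedSectionVars false
set_option linter.style.haveILetI false
set_option linter.overlappingInstances false

open scoped NumberField IsMulCommutative nonZeroDivisors Pointwise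

namespace Fermat.Agent.S14.helper38

open Fermat.Agent.S14

section FS1

variable (K E Ω : Type*) [Field K] [NumberField K] [Field E] [NumberField E]
  [Field Ω] [NumberField Ω] [Algebra K E] [Algebra E Ω] [Algebra K Ω] [IsScalarTower K E Ω]
  [IsGalois K E] [IsGalois K Ω]

/-- (FS-1) If an arithmetic Frobenius `σ` of `Ω/K` at the prime `𝔓` fixes the intermediate field
`E` pointwise, then the prime `𝔓 ∩ 𝓞 E` has the same residue field as `𝔓 ∩ 𝓞 K`. -/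
theorem card_quot_under_eq_of_frob_fixes (𝔓 : Ideal (𝓞 Ω)) [𝔓.IsPrime] (h𝔓 : 𝔓 ≠ ⊥)
    (σ : Gal(Ω/K)) (hσ : IsArithFrobAt (𝓞 K) σ 𝔓)
    (hfix : ∀ x : E, σ (algebraMap E Ω x) = algebraMap E Ω x) :
    Nat.card (𝓞 E ⧸ 𝔓.under (𝓞 E)) = Nat.card (𝓞 K ⧸ 𝔓.under (𝓞 K)) := by
  haveI : (𝔓.under (𝓞 E)).IsPrime := Ideal.IsPrime.under (𝓞 E) 𝔓
  have hS0 : 𝔓.under (𝓞 E) ≠ ⊥ := Ideal.under_ne_bot (𝓞 E) h𝔓
  have h1 : IsArithFrobAt (𝓞 K) (1 : Gal(E/K)) (𝔓.under (𝓞 E)) := by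
    refine helper12.isArithFrobAt_under_of_card_eq (A := 𝓞 K) (A' := 𝓞 K) (B := 𝓞 E)
      (B' := 𝓞 Ω) σ (1 : Gal(E/K)) ?_ 𝔓 hσ rfl
    intro y
    rw [one_smul]
    apply NumberField.RingOfIntegers.ext
    exact (hfix (y : E)).symm
  have h2 := (helper12.isArithFrobAt_one_iff K E (𝔓.under (𝓞 E)) hS0).1 h1
  rw [h2, Ideal.under_under]

end FS1

section FS2

variable (E M Ω : Type*) [Field E] [NumberField E] [Field M] [NumberField M]
  [Field Ω] [NumberField Ω] [Algebra E M] [Algebra M Ω] [Algebra E Ω] [IsScalarTower E M Ω]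
  [IsGalois E M] [IsGalois E Ω]

/-- A prime which splits completely in a Galois extension has trivial inertia and residue degree
one at every prime above it. -/
theorem inertia_eq_bot_and_card_eq_of_split (Q : Ideal (𝓞 E)) [Q.IsPrime] (hQ : Q ≠ ⊥)
    (hsplit : (Ideal.primesOver Q (𝓞 M)).ncard = Module.finrank E M)
    (𝔮 : Ideal (𝓞 M)) [𝔮.IsPrime] (h𝔮 : 𝔮.under (𝓞 E) = Q) :
    Ideal.inertia Gal(M/E) 𝔮 = ⊥ ∧ Nat.card (𝓞 M ⧸ 𝔮) = Nat.card (𝓞 E ⧸ Q) := by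
  haveI : 𝔮.LiesOver Q := ⟨h𝔮.symm⟩
  have h := Ideal.ncard_primesOver_mul_card_inertia_mul_finrank (G := Gal(M/E)) Q 𝔮
  rw [hsplit, IsGalois.card_aut_eq_finrank, mul_assoc] at h
  have hpos : 0 < Module.finrank E M := Module.finrank_pos
  have h1 : Nat.card (Ideal.inertia Gal(M/E) 𝔮) * 𝔮.inertiaDeg (𝓞 E) = 1 :=
    Nat.eq_of_mul_eq_mul_left hpos (by rw [h, mul_one])
  have h2 : Nat.card (Ideal.inertia Gal(M/E) 𝔮) = 1 := Nat.eq_one_of_mul_eq_one_right h1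
  have h3 : 𝔮.inertiaDeg (𝓞 E) = 1 := Nat.eq_one_of_mul_eq_one_left h1
  refine ⟨(Subgroup.card_eq_one).1 h2, ?_⟩
  exact (helper12.inertiaDeg_eq_one_iff_card E M Q hQ 𝔮).1 h3

/-- (FS-2) Let `Q` be a prime of `E` which splits completely in the Galois subextension `M/E` of
`Ω/E`. Every arithmetic Frobenius of `Ω/E` at a prime over `Q` fixes `M` pointwise. -/
theorem frob_fixes_of_split (Q : Ideal (𝓞 E)) [Q.IsPrime] (hQ : Q ≠ ⊥)
    (hsplit : (Ideal.primesOver Q (𝓞 M)).ncard = Module.finrank E M)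
    (𝔔 : Ideal (𝓞 Ω)) [𝔔.IsPrime] (h𝔔 : 𝔔.under (𝓞 E) = Q)
    (σ : Gal(Ω/E)) (hσ : IsArithFrobAt (𝓞 E) σ 𝔔) (x : M) :
    σ (algebraMap M Ω x) = algebraMap M Ω x := by
  haveI : (𝔔.under (𝓞 M)).IsPrime := Ideal.IsPrime.under (𝓞 M) 𝔔
  have h𝔮 : (𝔔.under (𝓞 M)).under (𝓞 E) = Q := by rw [Ideal.under_under, h𝔔]
  obtain ⟨hin, hcard⟩ := inertia_eq_bot_and_card_eq_of_split E M Q hQ hsplit (𝔔.under (𝓞 M)) h𝔮
  have h𝔮0 : 𝔔.under (𝓞 M) ≠ ⊥ := by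
    apply helper12.ne_bot_of_under_ne_bot E M
    rw [h𝔮]; exact hQ
  set τ : Gal(M/E) := AlgEquiv.restrictNormalHom M σ with hτ
  have hτc : ∀ y : M, algebraMap M Ω (τ y) = σ (algebraMap M Ω y) := fun y =>
    AlgEquiv.restrictNormal_commutes σ M y
  have h1 : IsArithFrobAt (𝓞 E) τ (𝔔.under (𝓞 M)) := by
    refine helper12.isArithFrobAt_under_of_card_eq (A := 𝓞 E) (A' := 𝓞 E) (B := 𝓞 M)
      (B' := 𝓞 Ω) σ τ ?_ 𝔔 hσ rfl
    intro y
    apply NumberField.RingOfIntegers.ext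
    exact hτc (y : M)
  have h2 : IsArithFrobAt (𝓞 E) (1 : Gal(M/E)) (𝔔.under (𝓞 M)) :=
    (helper12.isArithFrobAt_one_iff E M _ h𝔮0).2 (by rw [h𝔮]; exact hcard)
  have h3 := h1.mul_inv_mem_inertia h2
  rw [hin, Subgroup.mem_bot, inv_one, mul_one] at h3
  rw [← hτc, h3]
  rfl

end FS2

section FS3

variable (K E L Ω : Type*) [Field K] [NumberField K] [Field E] [NumberField E]
  [Field L] [NumberField L] [Field Ω] [NumberField Ω]
  [Algebra K E] [Algebra K L] [Algebra E Ω] [Algebra L Ω] [Algebra K Ω]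
  [IsScalarTower K E Ω] [IsScalarTower K L Ω] [IsAbelianGalois K L] [IsGalois E Ω]

/-- (FS-3) **Restriction of a Frobenius, arbitrary residue degree.** Let `L/K` be abelian and
unramified, `σ` an arithmetic Frobenius of `Ω/E` at `𝔔`, and assume
`N(𝔔 ∩ E) = N(𝔔 ∩ K) ^ n`. If `σL ∈ Gal(L/K)` is the restriction of `σ` to `L`, then
`σL = Frob_{L/K}(𝔔 ∩ K) ^ n`. -/
theorem restrict_eq_frobAt_pow (hunr : IsUnramifiedEverywhere K L)
    (𝔔 : Ideal (𝓞 Ω)) [𝔔.IsPrime] (h𝔔 : 𝔔 ≠ ⊥)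
    (σ : Gal(Ω/E)) (hσ : IsArithFrobAt (𝓞 E) σ 𝔔) (n : ℕ)
    (hn : Nat.card (𝓞 E ⧸ 𝔔.under (𝓞 E)) = Nat.card (𝓞 K ⧸ 𝔔.under (𝓞 K)) ^ n)
    (σL : Gal(L/K))
    (hσL : ∀ x : L, algebraMap L Ω (σL x) = σ (algebraMap L Ω x)) :
    σL = frobAt K L (𝔔.under (𝓞 K)) ^ n := by
  haveI : (𝔔.under (𝓞 L)).IsPrime := Ideal.IsPrime.under (𝓞 L) 𝔔
  haveI : (𝔔.under (𝓞 K)).IsPrime := Ideal.IsPrime.under (𝓞 K) 𝔔
  have hPL0 : 𝔔.under (𝓞 L) ≠ ⊥ := Ideal.under_ne_bot (𝓞 L) h𝔔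
  have hPK0 : 𝔔.under (𝓞 K) ≠ ⊥ := Ideal.under_ne_bot (𝓞 K) h𝔔
  have hLK : (𝔔.under (𝓞 L)).under (𝓞 K) = 𝔔.under (𝓞 K) := Ideal.under_under _
  have hfrob := helper12.isArithFrobAt_frobAt K L (𝔔.under (𝓞 K)) hPK0 (𝔔.under (𝓞 L)) hLK
  -- `σL y ≡ y ^ N(Q)` modulo `𝔔 ∩ L`
  have h1 : ∀ y : 𝓞 L, σL • y - y ^ (Nat.card (𝓞 K ⧸ 𝔔.under (𝓞 K)) ^ n) ∈ 𝔔.under (𝓞 L) := by
    intro y
    rw [Ideal.under_def, Ideal.mem_comap, map_sub, map_pow, ← hn]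
    have h := hσ (algebraMap (𝓞 L) (𝓞 Ω) y)
    have e : algebraMap (𝓞 L) (𝓞 Ω) (σL • y) = σ • (algebraMap (𝓞 L) (𝓞 Ω) y) := by
      apply NumberField.RingOfIntegers.ext
      exact hσL (y : L)
    rw [e]
    exact h
  have h2 : ∀ y : 𝓞 L, (frobAt K L (𝔔.under (𝓞 K)) ^ n) • y -
      y ^ (Nat.card (𝓞 K ⧸ 𝔔.under (𝓞 K)) ^ n) ∈ 𝔔.under (𝓞 L) := by
    intro y
    have := helper12.isArithFrobAt_pow_apply hfrob n y
    rwa [hLK] at this
  have h3 : σL * (frobAt K L (𝔔.under (𝓞 K)) ^ n)⁻¹ = 1 := by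
    apply hunr (𝔔.under (𝓞 L)) inferInstance hPL0
    intro x
    have := sub_mem (h1 ((frobAt K L (𝔔.under (𝓞 K)) ^ n)⁻¹ • x))
      (h2 ((frobAt K L (𝔔.under (𝓞 K)) ^ n)⁻¹ • x))
    simpa [mul_smul] using this
  exact mul_inv_eq_one.mp h3

end FS3

end Fermat.Agent.S14.helper38
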