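import Mathlib

/-!
# S14 (2c), crossing fields: the group theory (helper38)

`G` is a commutative group with a surjection `res : G →* A` onto a group of prime order `p`
and a hom `ψ : G →* U`; `Φ = (res, ψ)`. Given `φ₀` with `res φ₀ ≠ 1` we put
`Z = ⟨Φ φ₀⟩` and `H = Φ⁻¹ Z`. If `τ` satisfies `res τ = 1`, `ψ τ ≠ 1`, `(ψ τ) ^ p = 1` and
`ψ` takes values in `⟨ψ τ⟩`, then `G = ⟨τ⟩ H` and `H` has index `p`.
-/

set_option autoImplicit false
set_option linter.style.haveILetI false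

namespace Fermat.Agent.S14.helper38

section Cyclic

/-- In a finite cyclic group, an element of order dividing the prime `p` is a power of any
nontrivial element of order dividing `p`. -/
theorem mem_zpowers_of_pow_prime_eq_one {U : Type*} [CommGroup U] [Finite U] [IsCyclic U]
    {p : ℕ} (hp : p.Prime) {u w : U} (hu : u ^ p = 1) (hu1 : u ≠ 1) (hw : w ^ p = 1) :
    w ∈ Subgroup.zpowers u := by
  classical
  haveI := Fintype.ofFinite U
  -- the subgroup of elements killed by `p`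
  let T : Subgroup U := (powMonoidHom p : U →* U).ker
  have hTu : u ∈ T := by simpa [T, MonoidHom.mem_ker] using hu
  have hTw : w ∈ T := by simpa [T, MonoidHom.mem_ker] using hw
  have hle : Subgroup.zpowers u ≤ T := by
    rw [Subgroup.zpowers_le]; exact hTu
  have hcardT : Nat.card T ≤ p := by
    have h := IsCyclic.card_pow_eq_one_le (α := U) hp.pos
    have e : Nat.card T = (Finset.univ.filter fun a : U => a ^ p = 1).card := by
      rw [Nat.card_eq_fintype_card, Fintype.card_subtype]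
      congr 1
      ext a
      simp [T, MonoidHom.mem_ker]
    rw [e]
    exact h
  have hcardu : Nat.card (Subgroup.zpowers u) = p := by
    haveI : Fact p.Prime := ⟨hp⟩
    rw [Nat.card_zpowers]
    exact orderOf_eq_prime hu hu1
  have heq : Subgroup.zpowers u = T := by
    apply Subgroup.eq_of_le_of_card_ge hle
    rw [hcardu]
    exact hcardT
  rw [heq]
  exact hTw

end Cyclic

section Main

variable {G A U : Type*} [CommGroup G] [Group A] [CommGroup U] {p : ℕ}

/-- The subgroup `H = Φ⁻¹ ⟨Φ φ₀⟩`, `Φ = (res, ψ)`. -/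
def crossSubgroup (res : G →* A) (ψ : G →* U) (φ₀ : G) : Subgroup G :=
  (Subgroup.zpowers ((res.prod ψ) φ₀)).comap (res.prod ψ)

theorem mem_crossSubgroup_iff (res : G →* A) (ψ : G →* U) (φ₀ g : G) :
    g ∈ crossSubgroup res ψ φ₀ ↔ ∃ k : ℤ, res g = res φ₀ ^ k ∧ ψ g = ψ φ₀ ^ k := by
  unfold crossSubgroup
  rw [Subgroup.mem_comap, Subgroup.mem_zpowers_iff]
  constructor
  · rintro ⟨k, hk⟩
    refine ⟨k, ?_, ?_⟩
    · have := congrArg Prod.fst hk
      simpa using this.symm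
    · have := congrArg Prod.snd hk
      simpa using this.symm
  · rintro ⟨k, h1, h2⟩
    refine ⟨k, ?_⟩
    ext
    · simpa using h1.symm
    · simpa using h2.symm

theorem ker_le_crossSubgroup (res : G →* A) (ψ : G →* U) (φ₀ : G) :
    (res.prod ψ).ker ≤ crossSubgroup res ψ φ₀ := by
  intro g hg
  rw [MonoidHom.mem_ker] at hg
  unfold crossSubgroup
  rw [Subgroup.mem_comap, hg]
  exact one_mem _

theorem self_mem_crossSubgroup (res : G →* A) (ψ : G →* U) (φ₀ : G) :
    φ₀ ∈ crossSubgroup res ψ φ₀ := by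
  rw [mem_crossSubgroup_iff]
  exact ⟨1, by simp, by simp⟩

/-- Image of the cross subgroup under `Φ`. -/
theorem map_crossSubgroup (res : G →* A) (ψ : G →* U) (φ₀ : G) :
    (crossSubgroup res ψ φ₀).map (res.prod ψ) = Subgroup.zpowers ((res.prod ψ) φ₀) := by
  unfold crossSubgroup
  rw [Subgroup.map_comap_eq, inf_eq_right, Subgroup.zpowers_le]
  exact ⟨φ₀, rfl⟩

/-- The group `⟨Φ φ₀⟩` has order `p`. -/
theorem card_zpowers_prod (hp : p.Prime) (hA : Nat.card A = p) (res : G →* A) (ψ : G →* U)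
    (φ₀ : G) (hφ₀ : res φ₀ ≠ 1) (hψ : ψ φ₀ ^ p = 1) :
    Nat.card (Subgroup.zpowers ((res.prod ψ) φ₀)) = p := by
  haveI : Fact p.Prime := ⟨hp⟩
  rw [Nat.card_zpowers]
  apply orderOf_eq_prime
  · ext
    · simp only [MonoidHom.prod_apply, Prod.pow_mk, Prod.fst_one]
      rw [← hA]
      exact pow_card_eq_one'
    · simpa using hψ
  · intro h
    apply hφ₀
    simpa using congrArg Prod.fst h

/-- Every element of `G` is a power of `τ` times an element of the cross subgroup. -/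
theorem exists_zpow_mul_mem_crossSubgroup (hp : p.Prime) (hA : Nat.card A = p)
    (res : G →* A) (ψ : G →* U) (φ₀ τ : G) (hφ₀ : res φ₀ ≠ 1)
    (hτ : res τ = 1) (hV : ∀ g, ψ g ∈ Subgroup.zpowers (ψ τ)) (g : G) :
    ∃ (j : ℤ) (h : G), h ∈ crossSubgroup res ψ φ₀ ∧ g = τ ^ j * h := by
  haveI : Fact p.Prime := ⟨hp⟩
  have hgen : res g ∈ Subgroup.zpowers (res φ₀) := mem_zpowers_of_prime_card hA hφ₀
  obtain ⟨i, hi⟩ := Subgroup.mem_zpowers_iff.1 hgen
  obtain ⟨j, hj⟩ := Subgroup.mem_zpowers_iff.1 (hV (g * (φ₀ ^ i)⁻¹))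
  refine ⟨j, (τ ^ j)⁻¹ * g, ?_, by group⟩
  rw [mem_crossSubgroup_iff]
  refine ⟨i, ?_, ?_⟩
  · rw [map_mul, map_inv, map_zpow, hτ, one_zpow, inv_one, one_mul, hi]
  · rw [map_mul, map_inv, map_zpow, hj, map_mul, map_inv, map_zpow]
    group

/-- The cross subgroup has index `p`. -/
theorem index_crossSubgroup (hp : p.Prime) (hA : Nat.card A = p)
    (res : G →* A) (ψ : G →* U) (φ₀ τ : G) (hφ₀ : res φ₀ ≠ 1)
    (hτ : res τ = 1) (hτ1 : ψ τ ≠ 1) (hτp : ψ τ ^ p = 1)
    (hV : ∀ g, ψ g ∈ Subgroup.zpowers (ψ τ)) :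
    (crossSubgroup res ψ φ₀).index = p := by
  haveI : Fact p.Prime := ⟨hp⟩
  set H := crossSubgroup res ψ φ₀ with hH
  rw [Subgroup.index_eq_card]
  -- the class of `τ` generates the quotient
  have hgen : ∀ x : G ⧸ H, x ∈ Subgroup.zpowers (QuotientGroup.mk τ : G ⧸ H) := by
    intro x
    obtain ⟨g, rfl⟩ := QuotientGroup.mk_surjective x
    obtain ⟨j, h, hh, rfl⟩ :=
      exists_zpow_mul_mem_crossSubgroup hp hA res ψ φ₀ τ hφ₀ hτ hV g
    rw [Subgroup.mem_zpowers_iff]
    refine ⟨j, ?_⟩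
    rw [QuotientGroup.mk_mul, (QuotientGroup.eq_one_iff h).2 hh, mul_one, QuotientGroup.mk_zpow]
  rw [← orderOf_eq_card_of_forall_mem_zpowers hgen]
  apply orderOf_eq_prime
  · rw [← QuotientGroup.mk_pow, QuotientGroup.eq_one_iff, hH, mem_crossSubgroup_iff]
    refine ⟨0, by simp [hτ], by simpa using hτp⟩
  · rw [Ne, QuotientGroup.eq_one_iff, hH, mem_crossSubgroup_iff]
    rintro ⟨k, h1, h2⟩
    rw [hτ] at h1
    -- `res φ₀ ^ k = 1` forces `p ∣ k`
    have hord : orderOf (res φ₀) = p := by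
      apply orderOf_eq_prime _ hφ₀
      rw [← hA]; exact pow_card_eq_one'
    have hk : (p : ℤ) ∣ k := by
      rw [← hord]
      exact orderOf_dvd_iff_zpow_eq_one.2 h1.symm
    obtain ⟨m, rfl⟩ := hk
    apply hτ1
    rw [h2, zpow_mul, zpow_natCast]
    -- `ψ φ₀ ^ p = 1` since `ψ φ₀ ∈ ⟨ψ τ⟩`
    obtain ⟨i, hi⟩ := Subgroup.mem_zpowers_iff.1 (hV φ₀)
    rw [← hi, ← zpow_natCast, ← zpow_mul, ← zpow_mul, mul_comm, mul_assoc, zpow_mul,
      zpow_natCast, hτp, one_zpow]

end Main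

end Fermat.Agent.S14.helper38
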