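import Mathlib
import Fermat.Agent.S14.helper38_CrossFrob
import Fermat.Agent.S14.helper38_CrossGroup

/-!
# S14 (2c), crossing fields: the construction inside an abelian extension `Ω/K` (helper38)

`Ω/K` is an abelian extension of number fields containing `L` and a primitive `ℓ`-th root of
unity `ζ`; `ψ σ = χ_ℓ(σ) ^ ((ℓ - 1) / p)`, `Φ = (res_L, ψ)`.
-/

set_option autoImplicit false
set_option linter.unusedSectionVars false
set_option linter.style.haveILetI false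
set_option linter.overlappingInstances false

open scoped NumberField IsMulCommutative nonZeroDivisors Pointwise

namespace Fermat.Agent.S14.helper38

open Fermat.Agent.S14

universe u

section Psi

variable (K : Type*) {Ω : Type*} [Field K] [Field Ω] [Algebra K Ω]

/-- `ψ σ = χ_ℓ(σ) ^ ((ℓ - 1) / p)` where `χ_ℓ` is the mod `ℓ` cyclotomic character. -/
noncomputable def psiHom (p : ℕ) {ℓ : ℕ} [NeZero ℓ] {ζ : Ω} (hζ : IsPrimitiveRoot ζ ℓ) :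
    Gal(Ω/K) →* (ZMod ℓ)ˣ :=
  (powMonoidHom ((ℓ - 1) / p)).comp (hζ.autToPow K)

theorem psiHom_apply (p : ℕ) {ℓ : ℕ} [NeZero ℓ] {ζ : Ω} (hζ : IsPrimitiveRoot ζ ℓ)
    (σ : Gal(Ω/K)) : psiHom K p hζ σ = (hζ.autToPow K σ) ^ ((ℓ - 1) / p) := rfl

/-- If `σ ζ = ζ ^ N` then `χ_ℓ(σ) = N` in `ZMod ℓ`. -/
theorem autToPow_eq_of_apply_eq {ℓ : ℕ} [NeZero ℓ] {ζ : Ω} (hζ : IsPrimitiveRoot ζ ℓ)
    (σ : Gal(Ω/K)) (N : ℕ) (h : σ ζ = ζ ^ N) :
    ((hζ.autToPow K σ : (ZMod ℓ)ˣ) : ZMod ℓ) = (N : ZMod ℓ) := by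
  have h1 := hζ.autToPow_spec K σ
  rw [h] at h1
  have hζ0 : ζ ≠ 0 := hζ.ne_zero (NeZero.ne ℓ)
  have h2 : ζ ^ (((((hζ.autToPow K σ : (ZMod ℓ)ˣ) : ZMod ℓ).val : ℤ)) - (N : ℤ)) = 1 := by
    rw [zpow_sub₀ hζ0, zpow_natCast, zpow_natCast, h1, div_self (pow_ne_zero _ hζ0)]
  have h3 := (hζ.zpow_eq_one_iff_dvd _).1 h2
  have h4 := (ZMod.intCast_zmod_eq_zero_iff_dvd _ ℓ).2 h3
  rw [Int.cast_sub, Int.cast_natCast, Int.cast_natCast, ZMod.natCast_zmod_val, sub_eq_zero] at h4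
  exact h4

/-- If `σ ζ = ζ ^ N` then `ψ σ = N ^ ((ℓ - 1) / p)` in `ZMod ℓ`. -/
theorem psiHom_eq_of_apply_eq (p : ℕ) {ℓ : ℕ} [NeZero ℓ] {ζ : Ω} (hζ : IsPrimitiveRoot ζ ℓ)
    (σ : Gal(Ω/K)) (N : ℕ) (h : σ ζ = ζ ^ N) :
    ((psiHom K p hζ σ : (ZMod ℓ)ˣ) : ZMod ℓ) = (N : ZMod ℓ) ^ ((ℓ - 1) / p) := by
  rw [psiHom_apply, Units.val_pow_eq_pow_val, autToPow_eq_of_apply_eq K hζ σ N h]

/-- `ψ σ ^ p = 1`. -/
theorem psiHom_pow (p : ℕ) {ℓ : ℕ} [Fact ℓ.Prime] (hℓp : p ∣ ℓ - 1) {ζ : Ω}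
    (hζ : IsPrimitiveRoot ζ ℓ) (σ : Gal(Ω/K)) : psiHom K p hζ σ ^ p = 1 := by
  rw [psiHom_apply, ← pow_mul, Nat.div_mul_cancel hℓp]
  exact ZMod.units_pow_card_sub_one_eq_one ℓ _

end Psi

section Res

variable (K L Ω : Type*) [Field K] [NumberField K] [Field L] [NumberField L]
  [Field Ω] [NumberField Ω] [Algebra K L] [Algebra K Ω] [Algebra L Ω] [IsScalarTower K L Ω]
  [IsGalois K L] [IsGalois K Ω]

/-- Restriction `Gal(Ω/K) → Gal(L/K)`. -/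
noncomputable def resHom : Gal(Ω/K) →* Gal(L/K) := AlgEquiv.restrictNormalHom L

theorem resHom_commutes (σ : Gal(Ω/K)) (x : L) :
    algebraMap L Ω (resHom K L Ω σ x) = σ (algebraMap L Ω x) :=
  AlgEquiv.restrictNormal_commutes σ L x

theorem resHom_surjective : Function.Surjective (resHom K L Ω) :=
  AlgEquiv.restrictNormalHom_surjective Ω

theorem resHom_smul (σ : Gal(Ω/K)) (y : 𝓞 L) :
    algebraMap (𝓞 L) (𝓞 Ω) (resHom K L Ω σ • y) = σ • algebraMap (𝓞 L) (𝓞 Ω) y := by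
  apply NumberField.RingOfIntegers.ext
  exact resHom_commutes K L Ω σ (y : L)

/-- Elements of an inertia group of `Ω/K` restrict trivially to an unramified `L/K`. -/
theorem resHom_eq_one_of_inertia (hunr : IsUnramifiedEverywhere K L)
    (𝔓 : Ideal (𝓞 Ω)) [𝔓.IsPrime] (h𝔓 : 𝔓 ≠ ⊥) (τ : Gal(Ω/K))
    (hτ : ∀ x : 𝓞 Ω, τ • x - x ∈ 𝔓) : resHom K L Ω τ = 1 := by
  haveI : (𝔓.under (𝓞 L)).IsPrime := Ideal.IsPrime.under (𝓞 L) 𝔓
  apply hunr (𝔓.under (𝓞 L)) inferInstance (Ideal.under_ne_bot (𝓞 L) h𝔓)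
  intro y
  rw [Ideal.under_def, Ideal.mem_comap, map_sub, resHom_smul]
  exact hτ _

end Res

section FrobImage

variable (K L Ω : Type*) [Field K] [NumberField K] [Field L] [NumberField L]
  [Field Ω] [NumberField Ω] [Algebra K L] [Algebra K Ω] [Algebra L Ω] [IsScalarTower K L Ω]
  [IsAbelianGalois K L] [IsAbelianGalois K Ω]

theorem card_quot_eq_absNorm (P : Ideal (𝓞 K)) : Nat.card (𝓞 K ⧸ P) = Ideal.absNorm P := by
  rw [Ideal.absNorm_apply]; rfl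

/-- The restriction to `L` of the Frobenius of `Ω/K` at `P` is the Frobenius of `L/K`. -/
theorem resHom_frobAt (hunr : IsUnramifiedEverywhere K L) (P : Ideal (𝓞 K)) [P.IsPrime]
    (hP : P ≠ ⊥) : resHom K L Ω (frobAt K Ω P) = frobAt K L P := by
  obtain ⟨𝔔, h𝔔, h𝔔0, h𝔔P⟩ := helper12.exists_prime_over K Ω P hP
  haveI := h𝔔
  have hfrob := helper12.isArithFrobAt_frobAt K Ω P hP 𝔔 h𝔔P
  have h := restrict_eq_frobAt_pow K K L Ω hunr 𝔔 h𝔔0 (frobAt K Ω P) hfrob 1 (by rw [pow_one])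
    (resHom K L Ω (frobAt K Ω P)) (fun x => resHom_commutes K L Ω _ x)
  rw [h, pow_one, h𝔔P]

/-- The value of `ψ` at the Frobenius of `Ω/K` at a prime `P` not over `ℓ`. -/
theorem psiHom_frobAt (p : ℕ) {ℓ : ℕ} [NeZero ℓ] {ζ : Ω} (hζ : IsPrimitiveRoot ζ ℓ)
    (P : Ideal (𝓞 K)) [P.IsPrime] (hP : P ≠ ⊥) (hℓP : (ℓ : 𝓞 K) ∉ P) :
    ((psiHom K p hζ (frobAt K Ω P) : (ZMod ℓ)ˣ) : ZMod ℓ) =
      ((Ideal.absNorm P : ℕ) : ZMod ℓ) ^ ((ℓ - 1) / p) := by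
  apply psiHom_eq_of_apply_eq
  rw [← card_quot_eq_absNorm]
  exact helper12.frobAt_apply_of_pow_eq_one K Ω P hP hζ.pow_eq_one hℓP

end FrobImage

section Construction

variable (p : ℕ) {ℓ : ℕ} [hpF : Fact p.Prime] [hlF : Fact ℓ.Prime]
variable (K L Ω : Type u) [Field K] [NumberField K] [Field L] [NumberField L]
  [Field Ω] [NumberField Ω] [Algebra K L] [Algebra K Ω] [Algebra L Ω] [IsScalarTower K L Ω]
  [IsAbelianGalois K L] [IsAbelianGalois K Ω]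
variable {ζ : Ω} (hζ : IsPrimitiveRoot ζ ℓ) (P' : Ideal (𝓞 K))

/-- The map `Φ = (res_L, ψ)`. -/
noncomputable def crossPhi : Gal(Ω/K) →* Gal(L/K) × (ZMod ℓ)ˣ :=
  (resHom K L Ω).prod (psiHom K p hζ)

/-- The subgroup `H_E = Φ⁻¹ ⟨Φ (Frob P')⟩`. -/
noncomputable def crossH : Subgroup Gal(Ω/K) :=
  crossSubgroup (resHom K L Ω) (psiHom K p hζ) (frobAt K Ω P')

/-- The field `E`. -/
noncomputable def crossE : IntermediateField K Ω :=
  IntermediateField.fixedField (crossH p K L Ω hζ P')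

/-- The map `Φ` on `Gal(Ω/E)`. -/
noncomputable def crossPhiE : Gal(Ω/crossE p K L Ω hζ P') →* Gal(L/K) × (ZMod ℓ)ˣ :=
  (crossPhi p K L Ω hζ).comp (AlgEquiv.restrictScalarsHom K)

/-- The field `M`. -/
noncomputable def crossM : IntermediateField (crossE p K L Ω hζ P') Ω :=
  IntermediateField.fixedField (crossPhiE p K L Ω hζ P').ker

theorem fixingSubgroup_crossE :
    (crossE p K L Ω hζ P').fixingSubgroup = crossH p K L Ω hζ P' :=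
  IntermediateField.fixingSubgroup_fixedField _

theorem fixingSubgroup_crossM :
    (crossM p K L Ω hζ P').fixingSubgroup = (crossPhiE p K L Ω hζ P').ker :=
  IntermediateField.fixingSubgroup_fixedField _

/-- Elements of `H_E` fix `E` pointwise. -/
theorem apply_eq_of_mem_crossH {σ : Gal(Ω/K)} (hσ : σ ∈ crossH p K L Ω hζ P')
    (x : crossE p K L Ω hζ P') : σ (algebraMap (crossE p K L Ω hζ P') Ω x) =
      algebraMap (crossE p K L Ω hζ P') Ω x := by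
  have := x.2
  unfold crossE at this
  rw [IntermediateField.mem_fixedField_iff] at this
  exact this σ hσ

/-- The image of `Gal(Ω/E)` in `Gal(Ω/K)` is `H_E`. -/
theorem range_restrictScalarsHom_crossE :
    (AlgEquiv.restrictScalarsHom K : Gal(Ω/crossE p K L Ω hζ P') →* Gal(Ω/K)).range =
      crossH p K L Ω hζ P' := by
  rw [← fixingSubgroup_crossE]
  ext σ
  rw [MonoidHom.mem_range, IntermediateField.mem_fixingSubgroup_iff]
  constructor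
  · rintro ⟨τ, rfl⟩ x hx
    exact τ.commutes ⟨x, hx⟩
  · intro h
    refine ⟨IntermediateField.fixingSubgroupEquiv _ ⟨σ, ?_⟩, ?_⟩
    · rw [IntermediateField.mem_fixingSubgroup_iff]
      exact h
    · ext x
      rfl

/-- `ψ` takes its values in the group generated by any nontrivial value. -/
theorem psiHom_mem_zpowers (hℓp : p ∣ ℓ - 1) (τ g : Gal(Ω/K)) (hτ : psiHom K p hζ τ ≠ 1) :
    psiHom K p hζ g ∈ Subgroup.zpowers (psiHom K p hζ τ) :=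
  mem_zpowers_of_pow_prime_eq_one hpF.out (psiHom_pow K p hℓp hζ τ) hτ (psiHom_pow K p hℓp hζ g)

include hpF in
theorem card_gal_eq (hdeg : Module.finrank K L = p) : Nat.card Gal(L/K) = p := by
  rw [IsGalois.card_aut_eq_finrank, hdeg]

/-- `[E : K] = p`. -/
theorem finrank_crossE (hℓp : p ∣ ℓ - 1) (hdeg : Module.finrank K L = p)
    (hunr : IsUnramifiedEverywhere K L) [P'.IsPrime] (hP' : P' ≠ ⊥)
    (hne : frobAt K L P' ≠ 1) (τ : Gal(Ω/K)) (hτ : resHom K L Ω τ = 1)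
    (hτ1 : psiHom K p hζ τ ≠ 1) :
    Module.finrank K (crossE p K L Ω hζ P') = p := by
  rw [IntermediateField.finrank_eq_fixingSubgroup_index, fixingSubgroup_crossE]
  unfold crossH
  refine index_crossSubgroup hpF.out (card_gal_eq p K L hdeg) _ _ _ τ ?_ hτ hτ1
    (psiHom_pow K p hℓp hζ τ) (fun g => psiHom_mem_zpowers p K Ω hζ hℓp τ g hτ1)
  rw [resHom_frobAt K L Ω hunr P' hP']
  exact hne

/-- `[M : E] = p`. -/
theorem finrank_crossM (hℓp : p ∣ ℓ - 1) (hdeg : Module.finrank K L = p)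
    (hunr : IsUnramifiedEverywhere K L) [P'.IsPrime] (hP' : P' ≠ ⊥)
    (hne : frobAt K L P' ≠ 1) :
    Module.finrank (crossE p K L Ω hζ P') (crossM p K L Ω hζ P') = p := by
  rw [IntermediateField.finrank_eq_fixingSubgroup_index, fixingSubgroup_crossM,
    Subgroup.index_ker]
  unfold crossPhiE
  rw [MonoidHom.range_comp, range_restrictScalarsHom_crossE]
  unfold crossH crossPhi
  rw [map_crossSubgroup]
  refine card_zpowers_prod hpF.out (card_gal_eq p K L hdeg) _ _ _ ?_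
    (psiHom_pow K p hℓp hζ _)
  rw [resHom_frobAt K L Ω hunr P' hP']
  exact hne

/-- (HRAM) Every prime of `E` over `ℓ` is totally ramified over `K`: the whole Galois group
`Gal(E/K)` acts trivially on its residue field. -/
theorem crossE_inertia (hℓp : p ∣ ℓ - 1) (hdeg : Module.finrank K L = p)
    (hunr : IsUnramifiedEverywhere K L) [P'.IsPrime] (hP' : P' ≠ ⊥)
    (hne : frobAt K L P' ≠ 1)
    (hin : ∀ 𝔓 : Ideal (𝓞 Ω), 𝔓.IsPrime → (ℓ : 𝓞 Ω) ∈ 𝔓 →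
      ∃ τ : Gal(Ω/K), (∀ x : 𝓞 Ω, τ • x - x ∈ 𝔓) ∧ psiHom K p hζ τ ≠ 1)
    (𝔏 : Ideal (𝓞 (crossE p K L Ω hζ P'))) (h𝔏 : 𝔏.IsPrime)
    (hℓ : (ℓ : 𝓞 (crossE p K L Ω hζ P')) ∈ 𝔏)
    (γ : Gal((crossE p K L Ω hζ P')/K)) (z : 𝓞 (crossE p K L Ω hζ P')) :
    γ • z - z ∈ 𝔏 := by
  haveI := h𝔏
  have h𝔏0 : 𝔏 ≠ ⊥ := by
    rintro rfl
    rw [Ideal.mem_bot] at hℓ
    exact (Nat.cast_ne_zero.2 hlF.out.ne_zero) hℓ
  obtain ⟨𝔓, h𝔓, h𝔓0, h𝔓𝔏⟩ := helper12.exists_prime_over (crossE p K L Ω hζ P') Ω 𝔏 h𝔏0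
  haveI := h𝔓
  have hℓ𝔓 : (ℓ : 𝓞 Ω) ∈ 𝔓 := by
    have : algebraMap (𝓞 (crossE p K L Ω hζ P')) (𝓞 Ω) (ℓ : 𝓞 (crossE p K L Ω hζ P')) ∈ 𝔓 := by
      rw [← Ideal.mem_comap, ← Ideal.under_def, h𝔓𝔏]
      exact hℓ
    simpa using this
  obtain ⟨τ, hτin, hτ1⟩ := hin 𝔓 h𝔓 hℓ𝔓
  have hτ : resHom K L Ω τ = 1 := resHom_eq_one_of_inertia K L Ω hunr 𝔓 h𝔓0 τ hτin
  obtain ⟨g, rfl⟩ := AlgEquiv.restrictNormalHom_surjective Ω γ
  have hφ₀ : resHom K L Ω (frobAt K Ω P') ≠ 1 := by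
    rw [resHom_frobAt K L Ω hunr P' hP']
    exact hne
  obtain ⟨j, h, hh, rfl⟩ := exists_zpow_mul_mem_crossSubgroup hpF.out (card_gal_eq p K L hdeg)
    (resHom K L Ω) (psiHom K p hζ) (frobAt K Ω P') τ hφ₀ hτ
    (fun g => psiHom_mem_zpowers p K Ω hζ hℓp τ g hτ1) g
  have hτ0 : τ ∈ 𝔓.inertia Gal(Ω/K) := fun x => hτin x
  have hτj : τ ^ j ∈ 𝔓.inertia Gal(Ω/K) := zpow_mem hτ0 j
  rw [← h𝔓𝔏, Ideal.under_def, Ideal.mem_comap, map_sub]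
  have e : algebraMap (𝓞 (crossE p K L Ω hζ P')) (𝓞 Ω)
      (AlgEquiv.restrictNormalHom (crossE p K L Ω hζ P') (τ ^ j * h) • z) =
      (τ ^ j) • algebraMap (𝓞 (crossE p K L Ω hζ P')) (𝓞 Ω) z := by
    apply NumberField.RingOfIntegers.ext
    have h1 := AlgEquiv.restrictNormal_commutes (τ ^ j * h) (crossE p K L Ω hζ P') (z : _)
    have h2 := apply_eq_of_mem_crossH p K L Ω hζ P' hh (z : _)
    change algebraMap _ Ω ((AlgEquiv.restrictNormalHom (crossE p K L Ω hζ P') (τ ^ j * h))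
      (z : crossE p K L Ω hζ P')) = (τ ^ j) (algebraMap _ Ω (z : crossE p K L Ω hζ P'))
    exact h1.trans (by rw [AlgEquiv.mul_apply, h2])
  rw [e]
  exact hτj _

/-- (F3) A prime `P` of `K` whose Frobenius data is a power of that of `P'` has a prime of
residue degree one above it in `E`. -/
theorem exists_prime_crossE (hunr : IsUnramifiedEverywhere K L) [P'.IsPrime] (hP' : P' ≠ ⊥)
    (hℓP' : (ℓ : 𝓞 K) ∉ P') (P : Ideal (𝓞 K)) [P.IsPrime] (hP : P ≠ ⊥) (hℓP : (ℓ : 𝓞 K) ∉ P)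
    (k : ℕ) (hfrob : frobAt K L P = frobAt K L P' ^ k)
    (hpow : ((Ideal.absNorm P : ℕ) : ZMod ℓ) ^ ((ℓ - 1) / p) =
      (((Ideal.absNorm P' : ℕ) : ZMod ℓ) ^ ((ℓ - 1) / p)) ^ k) :
    ∃ S : Ideal (𝓞 (crossE p K L Ω hζ P')), S.IsPrime ∧ S.under (𝓞 K) = P ∧
      Ideal.absNorm S = Ideal.absNorm P := by
  have hmem : frobAt K Ω P ∈ crossH p K L Ω hζ P' := by
    unfold crossH
    rw [mem_crossSubgroup_iff]
    refine ⟨(k : ℤ), ?_, ?_⟩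
    · rw [resHom_frobAt K L Ω hunr P hP, resHom_frobAt K L Ω hunr P' hP', hfrob, zpow_natCast]
    · apply Units.ext
      rw [zpow_natCast, Units.val_pow_eq_pow_val, psiHom_frobAt K Ω p hζ P hP hℓP,
        psiHom_frobAt K Ω p hζ P' hP' hℓP', hpow]
  obtain ⟨𝔓, h𝔓, h𝔓0, h𝔓P⟩ := helper12.exists_prime_over K Ω P hP
  haveI := h𝔓
  have hfrobΩ := helper12.isArithFrobAt_frobAt K Ω P hP 𝔓 h𝔓P
  refine ⟨𝔓.under (𝓞 (crossE p K L Ω hζ P')), Ideal.IsPrime.under _ 𝔓, ?_, ?_⟩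
  · rw [Ideal.under_under, h𝔓P]
  · have h := card_quot_under_eq_of_frob_fixes K (crossE p K L Ω hζ P') Ω 𝔓 h𝔓0 (frobAt K Ω P)
      hfrobΩ (fun x => apply_eq_of_mem_crossH p K L Ω hζ P' hmem x)
    rw [← card_quot_eq_absNorm, ← card_quot_eq_absNorm, h, h𝔓P]

/-- The Frobenius of `Ω/E` at a prime of `E` which splits completely in `M` lies in the kernel
of `Φ`. -/
theorem crossPhi_frobAt_of_split (Q : Ideal (𝓞 (crossE p K L Ω hζ P'))) [Q.IsPrime] (hQ : Q ≠ ⊥)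
    (hsplit : (Ideal.primesOver Q (𝓞 (crossM p K L Ω hζ P'))).ncard =
      Module.finrank (crossE p K L Ω hζ P') (crossM p K L Ω hζ P')) :
    crossPhi p K L Ω hζ (AlgEquiv.restrictScalarsHom K
      (frobAt (crossE p K L Ω hζ P') Ω Q)) = 1 := by
  obtain ⟨𝔔, h𝔔, h𝔔0, h𝔔Q⟩ := helper12.exists_prime_over (crossE p K L Ω hζ P') Ω Q hQ
  haveI := h𝔔
  have hfrob := helper12.isArithFrobAt_frobAt (crossE p K L Ω hζ P') Ω Q hQ 𝔔 h𝔔Q
  have hfix := frob_fixes_of_split (crossE p K L Ω hζ P') (crossM p K L Ω hζ P') Ω Q hQ hsplit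
    𝔔 h𝔔Q _ hfrob
  have hmem : frobAt (crossE p K L Ω hζ P') Ω Q ∈ (crossM p K L Ω hζ P').fixingSubgroup := by
    rw [IntermediateField.mem_fixingSubgroup_iff]
    intro x hx
    exact hfix ⟨x, hx⟩
  rw [fixingSubgroup_crossM, MonoidHom.mem_ker] at hmem
  exact hmem

/-- (F1) Primes of `E` not over `ℓ` which split completely in `M` have norm a `p`-th power
residue modulo `ℓ`. -/
theorem absNorm_pow_eq_one_of_split (Q : Ideal (𝓞 (crossE p K L Ω hζ P'))) [Q.IsPrime]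
    (hQ : Q ≠ ⊥) (hℓQ : (ℓ : 𝓞 (crossE p K L Ω hζ P')) ∉ Q)
    (hsplit : (Ideal.primesOver Q (𝓞 (crossM p K L Ω hζ P'))).ncard =
      Module.finrank (crossE p K L Ω hζ P') (crossM p K L Ω hζ P')) :
    ((Ideal.absNorm Q : ℕ) : ZMod ℓ) ^ ((ℓ - 1) / p) = 1 := by
  have h1 := crossPhi_frobAt_of_split p K L Ω hζ P' Q hQ hsplit
  have h2 : psiHom K p hζ (AlgEquiv.restrictScalarsHom K
      (frobAt (crossE p K L Ω hζ P') Ω Q)) = 1 := by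
    have := congrArg Prod.snd h1
    simpa [crossPhi] using this
  have h3 := psiHom_eq_of_apply_eq K p hζ (AlgEquiv.restrictScalarsHom K
      (frobAt (crossE p K L Ω hζ P') Ω Q)) (Ideal.absNorm Q) (by
    rw [← card_quot_eq_absNorm]
    exact helper12.frobAt_apply_of_pow_eq_one (crossE p K L Ω hζ P') Ω Q hQ hζ.pow_eq_one hℓQ)
  rw [h2] at h3
  rw [← h3]
  rfl

/-- (F4) If a prime `Q` of `E` splits completely in `M` and `N(Q) = N(Q ∩ K) ^ n`, then the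
`n`-th power of the Frobenius of `L/K` at `Q ∩ K` is trivial. -/
theorem frobAt_pow_eq_one_of_split (hunr : IsUnramifiedEverywhere K L)
    (Q : Ideal (𝓞 (crossE p K L Ω hζ P'))) [Q.IsPrime] (hQ : Q ≠ ⊥)
    (hsplit : (Ideal.primesOver Q (𝓞 (crossM p K L Ω hζ P'))).ncard =
      Module.finrank (crossE p K L Ω hζ P') (crossM p K L Ω hζ P'))
    (n : ℕ) (hn : Ideal.absNorm Q = Ideal.absNorm (Q.under (𝓞 K)) ^ n) :
    frobAt K L (Q.under (𝓞 K)) ^ n = 1 := by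
  have h1 := crossPhi_frobAt_of_split p K L Ω hζ P' Q hQ hsplit
  have h2 : resHom K L Ω (AlgEquiv.restrictScalarsHom K
      (frobAt (crossE p K L Ω hζ P') Ω Q)) = 1 := by
    have := congrArg Prod.fst h1
    simpa [crossPhi] using this
  obtain ⟨𝔔, h𝔔, h𝔔0, h𝔔Q⟩ := helper12.exists_prime_over (crossE p K L Ω hζ P') Ω Q hQ
  haveI := h𝔔
  have hfrob := helper12.isArithFrobAt_frobAt (crossE p K L Ω hζ P') Ω Q hQ 𝔔 h𝔔Q
  have hK : 𝔔.under (𝓞 K) = Q.under (𝓞 K) := by rw [← h𝔔Q, Ideal.under_under]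
  have h3 := restrict_eq_frobAt_pow K (crossE p K L Ω hζ P') L Ω hunr 𝔔 h𝔔0 _ hfrob n
    (by rw [h𝔔Q, hK, card_quot_eq_absNorm, card_quot_eq_absNorm, hn])
    (resHom K L Ω (AlgEquiv.restrictScalarsHom K (frobAt (crossE p K L Ω hζ P') Ω Q)))
    (fun x => resHom_commutes K L Ω _ x)
  rw [h2, hK] at h3
  exact h3.symm

end Construction

section Assembly

variable (p ℓ : ℕ) [hpF : Fact p.Prime] [hlF : Fact ℓ.Prime]
variable (K L Ω : Type u) [Field K] [NumberField K] [Field L] [NumberField L]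
  [Field Ω] [NumberField Ω] [Algebra K L] [Algebra K Ω] [Algebra L Ω] [IsScalarTower K L Ω]
  [IsGalois K L] [IsAbelianGalois K Ω]

include hpF hlF in
theorem dvd_sub_one_of_mod (hℓp : ℓ % p = 1) : p ∣ ℓ - 1 :=
  (Nat.modEq_iff_dvd' hlF.out.one_le).1 (by
    rw [Nat.ModEq, hℓp, Nat.mod_eq_of_lt hpF.out.one_lt])

/-- There is a prime of `𝓞 Ω` containing `ℓ`. -/
theorem exists_prime_mem (Ω : Type*) [Field Ω] [NumberField Ω] (ℓ : ℕ) (hℓ : ℓ.Prime) :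
    ∃ 𝔓 : Ideal (𝓞 Ω), 𝔓.IsPrime ∧ (ℓ : 𝓞 Ω) ∈ 𝔓 := by
  haveI : (Ideal.span {(ℓ : ℤ)}).IsPrime :=
    (Ideal.span_singleton_prime (by exact_mod_cast hℓ.ne_zero)).2 (Nat.prime_iff_prime_int.1 hℓ)
  obtain ⟨𝔓, -, h𝔓, h𝔓ℓ⟩ := Ideal.exists_ideal_over_prime_of_isIntegral
    (Ideal.span {(ℓ : ℤ)}) (⊥ : Ideal (𝓞 Ω)) (by
      rw [Ideal.comap_bot_of_injective _ (FaithfulSMul.algebraMap_injective ℤ (𝓞 Ω))]
      exact bot_le)
  refine ⟨𝔓, h𝔓, ?_⟩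
  have h1 : (ℓ : ℤ) ∈ Ideal.comap (algebraMap ℤ (𝓞 Ω)) 𝔓 := by
    rw [h𝔓ℓ]; exact Ideal.mem_span_singleton_self _
  rw [Ideal.mem_comap] at h1
  simpa using h1

/-- **Crossing fields inside an abelian extension `Ω/K`** containing `L` and the `ℓ`-th roots of
unity, given that the inertia groups at the primes over `ℓ` are not killed by `ψ`. -/
theorem exists_crossing_fields_of_abelian (hℓp : ℓ % p = 1)
    (hdeg : Module.finrank K L = p) (hunr : IsUnramifiedEverywhere K L)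
    {ζ : Ω} (hζ : IsPrimitiveRoot ζ ℓ)
    (hin : ∀ 𝔓 : Ideal (𝓞 Ω), 𝔓.IsPrime → (ℓ : 𝓞 Ω) ∈ 𝔓 →
      ∃ τ : Gal(Ω/K), (∀ x : 𝓞 Ω, τ • x - x ∈ 𝔓) ∧ psiHom K p hζ τ ≠ 1)
    (P P' : Ideal (𝓞 K)) [P.IsPrime] [P'.IsPrime] (hP : P ≠ ⊥) (hP' : P' ≠ ⊥)
    (hℓP : (ℓ : 𝓞 K) ∉ P) (hℓP' : (ℓ : 𝓞 K) ∉ P') (k : ℕ)
    (hfrob : frobAt K L P = frobAt K L P' ^ k) (hne : frobAt K L P' ≠ 1)
    (hpow : ((Ideal.absNorm P : ℕ) : ZMod ℓ) ^ ((ℓ - 1) / p) =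
      (((Ideal.absNorm P' : ℕ) : ZMod ℓ) ^ ((ℓ - 1) / p)) ^ k) :
    ∃ (E M : Type u) (_ : Field E) (_ : NumberField E) (_ : Field M) (_ : NumberField M)
      (_ : Algebra K E) (_ : Algebra E M) (_ : IsGalois K E) (_ : IsGalois E M),
      Module.finrank K E = p ∧ Module.finrank E M = p ∧
      (∀ 𝔏 : Ideal (𝓞 E), 𝔏.IsPrime → (ℓ : 𝓞 E) ∈ 𝔏 → ∀ (γ : Gal(E/K)) (z : 𝓞 E),
        γ • z - z ∈ 𝔏) ∧
      (∀ Q : Ideal (𝓞 E), Q.IsPrime → Q ≠ ⊥ → (ℓ : 𝓞 E) ∉ Q →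
        (Ideal.primesOver Q (𝓞 M)).ncard = Module.finrank E M →
        ((Ideal.absNorm Q : ℕ) : ZMod ℓ) ^ ((ℓ - 1) / p) = 1) ∧
      (∀ Q : Ideal (𝓞 E), Q.IsPrime → Q ≠ ⊥ → (ℓ : 𝓞 E) ∉ Q →
        (Ideal.primesOver Q (𝓞 M)).ncard = Module.finrank E M →
        ∀ n : ℕ, Ideal.absNorm Q = Ideal.absNorm (Q.under (𝓞 K)) ^ n →
          frobAt K L (Q.under (𝓞 K)) ^ n = 1) ∧
      (∃ S : Ideal (𝓞 E), S.IsPrime ∧ S.under (𝓞 K) = P ∧
        Ideal.absNorm S = Ideal.absNorm P) ∧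
      (∃ S' : Ideal (𝓞 E), S'.IsPrime ∧ S'.under (𝓞 K) = P' ∧
        Ideal.absNorm S' = Ideal.absNorm P') := by
  haveI : IsAbelianGalois K L := IsAbelianGalois.tower_bot K L Ω
  have hdvd : p ∣ ℓ - 1 := dvd_sub_one_of_mod p ℓ hℓp
  -- an inertia element
  obtain ⟨𝔓₀, h𝔓₀, hℓ𝔓₀⟩ := exists_prime_mem Ω ℓ hlF.out
  haveI := h𝔓₀
  have h𝔓₀0 : 𝔓₀ ≠ ⊥ := by
    rintro rfl
    rw [Ideal.mem_bot] at hℓ𝔓₀
    exact (Nat.cast_ne_zero.2 hlF.out.ne_zero) hℓ𝔓₀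
  obtain ⟨τ, hτin, hτ1⟩ := hin 𝔓₀ h𝔓₀ hℓ𝔓₀
  have hτ : resHom K L Ω τ = 1 := resHom_eq_one_of_inertia K L Ω hunr 𝔓₀ h𝔓₀0 τ hτin
  refine ⟨crossE p K L Ω hζ P', crossM p K L Ω hζ P', inferInstance, inferInstance,
    inferInstance, inferInstance, inferInstance, inferInstance, inferInstance, inferInstance,
    ?_, ?_, ?_, ?_, ?_, ?_, ?_⟩
  · exact finrank_crossE p K L Ω hζ P' hdvd hdeg hunr hP' hne τ hτ hτ1
  · exact finrank_crossM p K L Ω hζ P' hdvd hdeg hunr hP' hne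
  · intro 𝔏 h𝔏 hℓ𝔏 γ z
    exact crossE_inertia p K L Ω hζ P' hdvd hdeg hunr hP' hne hin 𝔏 h𝔏 hℓ𝔏 γ z
  · intro Q hQ hQ0 hℓQ hsplit
    haveI := hQ
    exact absNorm_pow_eq_one_of_split p K L Ω hζ P' Q hQ0 hℓQ hsplit
  · intro Q hQ hQ0 _ hsplit n hn
    haveI := hQ
    exact frobAt_pow_eq_one_of_split p K L Ω hζ P' hunr Q hQ0 hsplit n hn
  · exact exists_prime_crossE p K L Ω hζ P' hunr hP' hℓP' P hP hℓP k hfrob hpow
  · exact exists_prime_crossE p K L Ω hζ P' hunr hP' hℓP' P' hP' hℓP' 1 (by rw [pow_one])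
      (by rw [pow_one])

end Assembly

end Fermat.Agent.S14.helper38
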