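import Mathlib
import Fermat.Agent.S14.helper12_ArtinNorm

/-!
# S14 (2c), crossing construction: generic lemmas on Frobenius elements (helper39)

`Ω/K` is a Galois extension of number fields and `E` is an intermediate field (given as a tower
`K → E → Ω`).  All Frobenius elements are taken inside `Gal(Ω/K)`.

* `inertia_apply_of_pow_eq_one` : inertia at `𝔓` fixes the roots of unity of order prime to `𝔓`.
* `exists_frob_over` : a Frobenius at `𝔓` over `E`, as an element of `Gal(Ω/K)` fixing `E`,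
  together with its action on roots of unity.
* `card_quot_under_le_of_frob` : if `σ` fixes `E` and `σ x ≡ x ^ q` mod `𝔓`, then the residue
  field of `𝔓 ∩ E` has at most `q` elements.
* `card_quot_eq_of_ncard_primesOver_eq` : primes over a completely split prime have residue
  degree one.
-/

set_option autoImplicit false
set_option linter.unusedSectionVars false
set_option linter.style.haveILetI false
set_option linter.overlappingInstances false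

open scoped NumberField nonZeroDivisors Pointwise

namespace Fermat.Agent.S14.helper39

open Fermat.Agent.S14

section Generic

variable {K Ω : Type*} [Field K] [NumberField K] [Field Ω] [NumberField Ω] [Algebra K Ω]
  [IsGalois K Ω]

/-- An integral root of unity, as an element of the ring of integers. -/
lemma exists_integer_of_pow_eq_one {ζ : Ω} {m : ℕ} (hm : m ≠ 0) (hζ : ζ ^ m = 1) :
    ∃ z : 𝓞 Ω, algebraMap (𝓞 Ω) Ω z = ζ ∧ z ^ m = 1 := by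
  have hζint : IsIntegral ℤ ζ := ⟨Polynomial.X ^ m - 1,
    Polynomial.monic_X_pow_sub_C 1 hm, by simp [hζ]⟩
  set z : 𝓞 Ω := ⟨ζ, hζint⟩ with hz
  have hzζ : algebraMap (𝓞 Ω) Ω z = ζ := rfl
  refine ⟨z, hzζ, ?_⟩
  apply NumberField.RingOfIntegers.ext
  rw [NumberField.RingOfIntegers.coe_eq_algebraMap, map_pow, hzζ, hζ,
    NumberField.RingOfIntegers.coe_eq_algebraMap, map_one]

/-- The product of an element of the inertia group and a Frobenius is a Frobenius. -/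
lemma isArithFrobAt_mul_of_inertia (𝔓 : Ideal (𝓞 Ω)) (σ φ : Gal(Ω/K))
    (hσ : ∀ x : 𝓞 Ω, σ • x - x ∈ 𝔓) (hφ : IsArithFrobAt (𝓞 K) φ 𝔓) :
    IsArithFrobAt (𝓞 K) (σ * φ) 𝔓 := by
  intro x
  have h1 := hσ (φ • x)
  have h2 : φ • x - x ^ Nat.card (𝓞 K ⧸ 𝔓.under (𝓞 K)) ∈ 𝔓 := hφ x
  have h3 : (σ * φ) • x - x ^ Nat.card (𝓞 K ⧸ 𝔓.under (𝓞 K)) =
      (σ • (φ • x) - φ • x) + (φ • x - x ^ Nat.card (𝓞 K ⧸ 𝔓.under (𝓞 K))) := by
    rw [mul_smul]; ring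
  show (σ * φ) • x - x ^ Nat.card (𝓞 K ⧸ 𝔓.under (𝓞 K)) ∈ 𝔓
  rw [h3]
  exact add_mem h1 h2

/-- Elements of the inertia group at `𝔓` fix the roots of unity of order prime to `𝔓`. -/
theorem inertia_apply_of_pow_eq_one (𝔓 : Ideal (𝓞 Ω)) [𝔓.IsPrime] (h𝔓 : 𝔓 ≠ ⊥)
    (σ : Gal(Ω/K)) (hσ : ∀ x : 𝓞 Ω, σ • x - x ∈ 𝔓) {ζ : Ω} {m : ℕ} (hζ : ζ ^ m = 1)
    (hm : (m : 𝓞 Ω) ∉ 𝔓) : σ ζ = ζ := by
  haveI : Finite (𝓞 Ω ⧸ 𝔓) := Ideal.finiteQuotientOfFreeOfNeBot 𝔓 h𝔓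
  have hm0 : m ≠ 0 := by rintro rfl; exact hm (by simp)
  obtain ⟨φ, hφ⟩ := IsArithFrobAt.exists_of_isInvariant (𝓞 K) Gal(Ω/K) 𝔓
  have hσφ := isArithFrobAt_mul_of_inertia 𝔓 σ φ hσ hφ
  -- apply both to `φ⁻¹ ζ`
  have hξ : (φ⁻¹ ζ) ^ m = 1 := by rw [← map_pow, hζ, map_one]
  obtain ⟨z, hz, hz1⟩ := exists_integer_of_pow_eq_one hm0 hξ
  have e1 := AlgHom.IsArithFrobAt.apply_of_pow_eq_one (R := 𝓞 K) hφ hz1 hm
  have e2 := AlgHom.IsArithFrobAt.apply_of_pow_eq_one (R := 𝓞 K) hσφ hz1 hm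
  have e3 : (σ * φ) • z = φ • z := by
    show (MulSemiringAction.toAlgHom (𝓞 K) (𝓞 Ω) (σ * φ)) z =
      (MulSemiringAction.toAlgHom (𝓞 K) (𝓞 Ω) φ) z
    rw [e1, e2]
  have e4 := congrArg (algebraMap (𝓞 Ω) Ω) e3
  have e5 : algebraMap (𝓞 Ω) Ω ((σ * φ) • z) = σ (φ (φ⁻¹ ζ)) := by
    rw [← hz]; rfl
  have e6 : algebraMap (𝓞 Ω) Ω (φ • z) = φ (φ⁻¹ ζ) := by
    rw [← hz]; rfl
  rw [e5, e6] at e4
  have e7 : φ (φ⁻¹ ζ) = ζ := by
    show (φ * φ⁻¹) ζ = ζ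
    rw [mul_inv_cancel]; rfl
  rwa [e7] at e4

end Generic

section Tower

variable {K Ω : Type*} [Field K] [NumberField K] [Field Ω] [NumberField Ω] [Algebra K Ω]
  [IsGalois K Ω]
variable (E : Type*) [Field E] [NumberField E] [Algebra K E] [Algebra E Ω] [IsScalarTower K E Ω]

/-- A Frobenius at `𝔓` over the intermediate field `E`, as an element of `Gal(Ω/K)`. -/
theorem exists_frob_over (𝔓 : Ideal (𝓞 Ω)) [𝔓.IsPrime] (h𝔓 : 𝔓 ≠ ⊥) :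
    ∃ σ : Gal(Ω/K), (∀ x : E, σ (algebraMap E Ω x) = algebraMap E Ω x) ∧
      (∀ x : 𝓞 Ω, σ • x - x ^ Nat.card (𝓞 E ⧸ 𝔓.under (𝓞 E)) ∈ 𝔓) ∧
      (∀ (ζ : Ω) (m : ℕ), ζ ^ m = 1 → (m : 𝓞 Ω) ∉ 𝔓 →
        σ ζ = ζ ^ Nat.card (𝓞 E ⧸ 𝔓.under (𝓞 E))) := by
  haveI : IsGalois E Ω := IsGalois.tower_top_of_isGalois K E Ω
  haveI : Finite (𝓞 Ω ⧸ 𝔓) := Ideal.finiteQuotientOfFreeOfNeBot 𝔓 h𝔓
  obtain ⟨σ', hσ'⟩ := IsArithFrobAt.exists_of_isInvariant (𝓞 E) Gal(Ω/E) 𝔓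
  refine ⟨σ'.restrictScalars K, fun x => σ'.commutes x, fun x => hσ' x, ?_⟩
  intro ζ m hζ hm
  have hm0 : m ≠ 0 := by rintro rfl; exact hm (by simp)
  obtain ⟨z, hz, hz1⟩ := exists_integer_of_pow_eq_one hm0 hζ
  have e1 := AlgHom.IsArithFrobAt.apply_of_pow_eq_one (R := 𝓞 E) hσ' hz1 hm
  have e2 := congrArg (algebraMap (𝓞 Ω) Ω) e1
  rw [map_pow, hz] at e2
  rw [← e2, ← hz]
  rfl

/-- If `σ ∈ Gal(Ω/K)` fixes `E` and satisfies `σ x ≡ x ^ q` modulo `𝔓`, then the residue field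
of `𝔓 ∩ 𝓞 E` has at most `q` elements. -/
theorem card_quot_under_le_of_frob (𝔓 : Ideal (𝓞 Ω)) [𝔓.IsPrime] (h𝔓 : 𝔓 ≠ ⊥)
    (σ : Gal(Ω/K)) (hσE : ∀ x : E, σ (algebraMap E Ω x) = algebraMap E Ω x)
    (q : ℕ) (hq : 2 ≤ q) (hσ : ∀ x : 𝓞 Ω, σ • x - x ^ q ∈ 𝔓) :
    Nat.card (𝓞 E ⧸ 𝔓.under (𝓞 E)) ≤ q := by
  have hQ0 : 𝔓.under (𝓞 E) ≠ ⊥ := Ideal.under_ne_bot (𝓞 E) h𝔓
  haveI : (𝔓.under (𝓞 E)).IsPrime := Ideal.IsPrime.under (𝓞 E) 𝔓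
  haveI : Finite (𝓞 E ⧸ 𝔓.under (𝓞 E)) := Ideal.finiteQuotientOfFreeOfNeBot _ hQ0
  haveI : (𝔓.under (𝓞 E)).IsMaximal := Ideal.isMaximal_of_isPrime_of_ne_bot _ hQ0
  letI : Field (𝓞 E ⧸ 𝔓.under (𝓞 E)) := Ideal.Quotient.field _
  apply helper12.card_le_of_forall_pow_eq hq
  intro y
  obtain ⟨x, rfl⟩ := Ideal.Quotient.mk_surjective y
  rw [← map_pow, Ideal.Quotient.eq, Ideal.under_def, Ideal.mem_comap, map_sub, map_pow]
  have h1 := hσ (algebraMap (𝓞 E) (𝓞 Ω) x)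
  have h2 : σ • (algebraMap (𝓞 E) (𝓞 Ω) x) = algebraMap (𝓞 E) (𝓞 Ω) x := by
    apply NumberField.RingOfIntegers.ext
    exact hσE (x : E)
  rw [h2] at h1
  have h3 := neg_mem h1
  rwa [neg_sub] at h3

/-- If a Frobenius at `𝔓` over `K` fixes `E`, then `𝔓 ∩ 𝓞 E` has residue degree one over `K`. -/
theorem card_quot_under_eq_of_frob (𝔓 : Ideal (𝓞 Ω)) [𝔓.IsPrime] (h𝔓 : 𝔓 ≠ ⊥)
    (σ : Gal(Ω/K)) (hσE : ∀ x : E, σ (algebraMap E Ω x) = algebraMap E Ω x)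
    (hσ : IsArithFrobAt (𝓞 K) σ 𝔓) :
    Nat.card (𝓞 E ⧸ 𝔓.under (𝓞 E)) = Nat.card (𝓞 K ⧸ 𝔓.under (𝓞 K)) := by
  have hQ0 : 𝔓.under (𝓞 E) ≠ ⊥ := Ideal.under_ne_bot (𝓞 E) h𝔓
  have hq0 : 𝔓.under (𝓞 K) ≠ ⊥ := Ideal.under_ne_bot (𝓞 K) h𝔓
  haveI : (𝔓.under (𝓞 E)).IsPrime := Ideal.IsPrime.under (𝓞 E) 𝔓
  haveI : (𝔓.under (𝓞 K)).IsPrime := Ideal.IsPrime.under (𝓞 K) 𝔓
  apply le_antisymm
  · exact card_quot_under_le_of_frob E 𝔓 h𝔓 σ hσE _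
      (helper12.two_le_card_quot K _ hq0) (fun x => hσ x)
  · haveI : Finite (𝓞 E ⧸ 𝔓.under (𝓞 E)) := Ideal.finiteQuotientOfFreeOfNeBot _ hQ0
    have : Nat.card (𝓞 K ⧸ (𝔓.under (𝓞 E)).under (𝓞 K)) ≤ Nat.card (𝓞 E ⧸ 𝔓.under (𝓞 E)) :=
      Nat.card_le_card_of_injective _ (Ideal.algebraMap_quotient_injective (R := 𝓞 K))
    rwa [Ideal.under_under] at this

end Tower

section Split

variable (E M : Type*) [Field E] [NumberField E] [Field M] [NumberField M] [Algebra E M]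
  [IsGalois E M]

/-- The primes above a prime which splits completely have residue degree one. -/
theorem card_quot_eq_of_ncard_primesOver_eq (Q : Ideal (𝓞 E)) [Q.IsPrime] (hQ : Q ≠ ⊥)
    (h : (Ideal.primesOver Q (𝓞 M)).ncard = Module.finrank E M)
    (P : Ideal (𝓞 M)) [P.IsPrime] [P.LiesOver Q] :
    Nat.card (𝓞 M ⧸ P) = Nat.card (𝓞 E ⧸ Q) := by
  rw [← helper12.inertiaDeg_eq_one_iff_card E M Q hQ P]
  have h1 := Ideal.ncard_primesOver_mul_card_inertia_mul_finrank (G := Gal(M/E)) Q P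
  rw [h, IsGalois.card_aut_eq_finrank, mul_assoc] at h1
  have hpos : 0 < Module.finrank E M := Module.finrank_pos
  have h2 : Nat.card (Ideal.inertia Gal(M/E) P) * P.inertiaDeg (𝓞 E) = 1 :=
    Nat.eq_of_mul_eq_mul_left hpos (by rw [h1, mul_one])
  exact Nat.eq_one_of_mul_eq_one_left h2

end Split

end Fermat.Agent.S14.helper39
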