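import Mathlib
import Fermat.Agent.S14.helper39_FrobGeneric

/-!
# S14 (2c), crossing construction: inertia and Frobenius in `Ω = L(ζ_ℓ)` (helper39)

Setting: `K ⊆ L ⊆ Ω` number fields, `L/K` and `Ω/K` Galois, `ζ ∈ Ω` a primitive `ℓ`-th root of
unity.

* `restrictNormalHom_eq_one_of_inertia` : if `L/K` is unramified, inertia of `Ω/K` dies in
  `Gal(L/K)`.
* `restrictNormalHom_eq_frobAt` : a Frobenius of `Ω/K` restricts to `frobAt K L`.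
* `sub_one_dvd_card_inertia` : for `K = ℚ(ζ_p)` and `𝔓 ∣ ℓ`, `ℓ - 1` divides the order of the
  inertia group of `𝔓` in `Gal(Ω/K)`.
* `exists_inertia_autToPow_eq` : inertia at `𝔓 ∣ ℓ` maps onto `(ZMod ℓ)ˣ`.
-/

set_option autoImplicit false
set_option linter.unusedSectionVars false
set_option linter.style.haveILetI false
set_option linter.overlappingInstances false

open scoped NumberField nonZeroDivisors Pointwise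

namespace Fermat.Agent.S14.helper39

open Fermat.Agent.S14

section Restrict

variable {K L Ω : Type*} [Field K] [NumberField K] [Field L] [NumberField L] [Field Ω]
  [NumberField Ω] [Algebra K L] [Algebra L Ω] [Algebra K Ω] [IsScalarTower K L Ω]
  [IsGalois K L] [IsGalois K Ω]

/-- Compatibility of the restriction `Gal(Ω/K) → Gal(L/K)` with the actions on integers. -/
lemma algebraMap_restrictNormalHom_smul (σ : Gal(Ω/K)) (y : 𝓞 L) :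
    algebraMap (𝓞 L) (𝓞 Ω) ((AlgEquiv.restrictNormalHom L σ) • y) =
      σ • (algebraMap (𝓞 L) (𝓞 Ω) y) := by
  apply NumberField.RingOfIntegers.ext
  show algebraMap L Ω ((AlgEquiv.restrictNormalHom L σ) (y : L)) = σ (algebraMap L Ω (y : L))
  exact AlgEquiv.restrictNormal_commutes σ L (y : L)

/-- If `σ x ≡ x ^ q` modulo `𝔓` on `𝓞 Ω`, the same holds for the restriction of `σ` to `L`
modulo `𝔓 ∩ 𝓞 L`. -/
lemma restrictNormalHom_frob (𝔓 : Ideal (𝓞 Ω)) (σ : Gal(Ω/K)) (q : ℕ)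
    (hσ : ∀ x : 𝓞 Ω, σ • x - x ^ q ∈ 𝔓) (y : 𝓞 L) :
    (AlgEquiv.restrictNormalHom L σ) • y - y ^ q ∈ 𝔓.under (𝓞 L) := by
  rw [Ideal.under_def, Ideal.mem_comap, map_sub, map_pow, algebraMap_restrictNormalHom_smul]
  exact hσ _

/-- If `L/K` is unramified, the inertia groups of `Ω/K` restrict trivially to `L`. -/
theorem restrictNormalHom_eq_one_of_inertia (hunr : IsUnramifiedEverywhere K L)
    (𝔓 : Ideal (𝓞 Ω)) [𝔓.IsPrime] (h𝔓 : 𝔓 ≠ ⊥)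
    (σ : Gal(Ω/K)) (hσ : ∀ x : 𝓞 Ω, σ • x - x ∈ 𝔓) :
    AlgEquiv.restrictNormalHom L σ = 1 := by
  have hPL0 : 𝔓.under (𝓞 L) ≠ ⊥ := Ideal.under_ne_bot (𝓞 L) h𝔓
  apply hunr (𝔓.under (𝓞 L)) (Ideal.IsPrime.under (𝓞 L) 𝔓) hPL0
  intro y
  have := restrictNormalHom_frob (L := L) 𝔓 σ 1 (fun x => by simpa using hσ x) y
  simpa using this

/-- If `L/K` is abelian and unramified, a Frobenius at `𝔓` of `Ω/K` restricts to the Frobenius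
of `𝔓 ∩ 𝓞 K` in `L/K`. -/
theorem restrictNormalHom_eq_frobAt [IsAbelianGalois K L] (hunr : IsUnramifiedEverywhere K L)
    (𝔓 : Ideal (𝓞 Ω)) [𝔓.IsPrime] (h𝔓 : 𝔓 ≠ ⊥)
    (σ : Gal(Ω/K)) (hσ : IsArithFrobAt (𝓞 K) σ 𝔓) :
    AlgEquiv.restrictNormalHom L σ = frobAt K L (𝔓.under (𝓞 K)) := by
  have hPL0 : 𝔓.under (𝓞 L) ≠ ⊥ := Ideal.under_ne_bot (𝓞 L) h𝔓
  haveI : (𝔓.under (𝓞 L)).IsPrime := Ideal.IsPrime.under (𝓞 L) 𝔓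
  have h1 : IsArithFrobAt (𝓞 K) (AlgEquiv.restrictNormalHom L σ) (𝔓.under (𝓞 L)) := by
    intro y
    show (AlgEquiv.restrictNormalHom L σ) • y -
      y ^ Nat.card (𝓞 K ⧸ (𝔓.under (𝓞 L)).under (𝓞 K)) ∈ _
    rw [Ideal.under_under]
    exact restrictNormalHom_frob (L := L) 𝔓 σ _ (fun x => hσ x) y
  have h2 := helper12.eq_frobAt_of_isArithFrobAt K L (𝔓.under (𝓞 L)) hPL0
    (hunr _ inferInstance hPL0) _ h1
  rw [h2, Ideal.under_under]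

end Restrict

section Ram

variable {K Ω : Type*} [Field K] [NumberField K] [Field Ω] [NumberField Ω] [Algebra K Ω]
  [IsGalois K Ω]

/-- A prime containing `ℓ` lies over `(ℓ)`. -/
lemma liesOver_span_of_mem {R : Type*} [CommRing R] (ℓ : ℕ) [Fact ℓ.Prime] (P : Ideal R) [P.IsPrime]
    (h : (ℓ : R) ∈ P) : P.LiesOver (Ideal.span {(ℓ : ℤ)}) := by
  have hℓ : ℓ.Prime := Fact.out
  constructor
  have hmax : (Ideal.span {(ℓ : ℤ)}).IsMaximal :=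
    Int.ideal_span_isMaximal_of_prime ℓ
  have hle : Ideal.span {(ℓ : ℤ)} ≤ P.under ℤ := by
    rw [Ideal.span_singleton_le_iff_mem, Ideal.under_def, Ideal.mem_comap]
    simpa using h
  have hne : P.under ℤ ≠ ⊤ := by
    have : (P.under ℤ).IsPrime := Ideal.IsPrime.under ℤ P
    exact this.ne_top
  exact hmax.eq_of_le hne hle

/-- `ℓ - 1` divides the ramification index over `ℤ` of a prime `𝔓 ∣ ℓ` of a number field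
containing a primitive `ℓ`-th root of unity. -/
theorem sub_one_dvd_ramificationIdx_int {ℓ : ℕ} [Fact ℓ.Prime] {ζ : Ω} (hζ : IsPrimitiveRoot ζ ℓ)
    (𝔓 : Ideal (𝓞 Ω)) [𝔓.IsPrime] (hℓ𝔓 : (ℓ : 𝓞 Ω) ∈ 𝔓) :
    (ℓ - 1) ∣ 𝔓.ramificationIdx ℤ := by
  have hℓ : ℓ.Prime := Fact.out
  haveI : NeZero ℓ := ⟨hℓ.ne_zero⟩
  let F₀ : IntermediateField ℚ Ω := IntermediateField.adjoin ℚ {ζ}
  haveI : IsCyclotomicExtension {ℓ} ℚ F₀ := hζ.intermediateField_adjoin_isCyclotomicExtension ℚ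
  let 𝔭₀ : Ideal (𝓞 F₀) := 𝔓.under (𝓞 F₀)
  haveI : 𝔭₀.IsPrime := Ideal.IsPrime.under (𝓞 F₀) 𝔓
  haveI : 𝔓.LiesOver 𝔭₀ := ⟨rfl⟩
  have hmem : (ℓ : 𝓞 F₀) ∈ 𝔭₀ := by
    show (ℓ : 𝓞 F₀) ∈ 𝔓.under (𝓞 F₀)
    rw [Ideal.under_def, Ideal.mem_comap]
    simpa using hℓ𝔓
  haveI : 𝔭₀.LiesOver (Ideal.span {(ℓ : ℤ)}) := liesOver_span_of_mem ℓ 𝔭₀ hmem
  have h1 : 𝔭₀.ramificationIdx ℤ = ℓ - 1 :=
    IsCyclotomicExtension.Rat.ramificationIdx_eq_of_prime ℓ F₀ 𝔭₀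
  rw [← h1]
  exact Ideal.ramificationIdx_below_dvd 𝔭₀ 𝔓

/-- For `K = ℚ(ζ_p)` and a prime `𝔓 ∣ ℓ ≠ p` of `Ω ∋ ζ_ℓ`, `ℓ - 1` divides the order of the
inertia group of `𝔓` in `Gal(Ω/K)`. -/
theorem sub_one_dvd_card_inertia (p : ℕ) {ℓ : ℕ} [Fact p.Prime] [Fact ℓ.Prime] (hpℓ : p ≠ ℓ)
    [IsCyclotomicExtension {p} ℚ K] {ζ : Ω} (hζ : IsPrimitiveRoot ζ ℓ)
    (𝔓 : Ideal (𝓞 Ω)) [𝔓.IsPrime] (hℓ𝔓 : (ℓ : 𝓞 Ω) ∈ 𝔓) :
    (ℓ - 1) ∣ Nat.card (𝔓.inertia Gal(Ω/K)) := by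
  have hp : p.Prime := Fact.out
  have hℓ : ℓ.Prime := Fact.out
  haveI : NeZero p := ⟨hp.ne_zero⟩
  let 𝔭 : Ideal (𝓞 K) := 𝔓.under (𝓞 K)
  haveI : 𝔭.IsPrime := Ideal.IsPrime.under (𝓞 K) 𝔓
  haveI : 𝔓.LiesOver 𝔭 := ⟨rfl⟩
  have hmem : (ℓ : 𝓞 K) ∈ 𝔭 := by
    show (ℓ : 𝓞 K) ∈ 𝔓.under (𝓞 K)
    rw [Ideal.under_def, Ideal.mem_comap]
    simpa using hℓ𝔓
  haveI : 𝔭.LiesOver (Ideal.span {(ℓ : ℤ)}) := liesOver_span_of_mem ℓ 𝔭 hmem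
  have h1 : 𝔭.ramificationIdx ℤ = 1 :=
    IsCyclotomicExtension.Rat.ramificationIdx_eq_of_not_dvd (m := p) ℓ K 𝔭
      (fun hd => hpℓ ((Nat.prime_dvd_prime_iff_eq hℓ hp).1 hd).symm)
  have h2 : 𝔓.ramificationIdx ℤ = 𝔭.ramificationIdx ℤ * 𝔓.ramificationIdx (𝓞 K) :=
    Ideal.ramificationIdx_tower 𝔭 𝔓
  rw [h1, one_mul] at h2
  have h3 : Nat.card (𝔓.inertia Gal(Ω/K)) = 𝔭.ramificationIdxIn (𝓞 Ω) :=
    Ideal.card_inertia_eq_ramificationIdxIn 𝔭 𝔓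
  rw [h3, Ideal.ramificationIdxIn_eq_ramificationIdx 𝔭 𝔓 Gal(Ω/K), ← h2]
  exact sub_one_dvd_ramificationIdx_int hζ 𝔓 hℓ𝔓

/-- For `K = ℚ(ζ_p)`, the inertia group at a prime `𝔓 ∣ ℓ` of `Ω ∋ ζ_ℓ` maps onto `(ZMod ℓ)ˣ`
under the cyclotomic character, provided the character is injective on it. -/
theorem exists_inertia_autToPow_eq (p : ℕ) {ℓ : ℕ} [Fact p.Prime] [Fact ℓ.Prime] (hpℓ : p ≠ ℓ)
    [IsCyclotomicExtension {p} ℚ K] {ζ : Ω} (hζ : IsPrimitiveRoot ζ ℓ)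
    (𝔓 : Ideal (𝓞 Ω)) [𝔓.IsPrime] (hℓ𝔓 : (ℓ : 𝓞 Ω) ∈ 𝔓)
    (hinj : ∀ σ : Gal(Ω/K), (∀ x : 𝓞 Ω, σ • x - x ∈ 𝔓) → σ ζ = ζ → σ = 1)
    (u : (ZMod ℓ)ˣ) :
    ∃ σ : Gal(Ω/K), (∀ x : 𝓞 Ω, σ • x - x ∈ 𝔓) ∧ hζ.autToPow K σ = u := by
  have hℓ : ℓ.Prime := Fact.out
  let I : Subgroup Gal(Ω/K) := 𝔓.inertia Gal(Ω/K)
  let f : I → (ZMod ℓ)ˣ := fun σ => hζ.autToPow K (σ : Gal(Ω/K))
  have hf : Function.Injective f := by
    intro σ τ hστ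
    have h1 : hζ.autToPow K ((σ : Gal(Ω/K)) * (τ : Gal(Ω/K))⁻¹) = 1 := by
      rw [map_mul, map_inv]
      show f σ * (f τ)⁻¹ = 1
      rw [hστ, mul_inv_cancel]
    have h2 := hζ.autToPow_spec K ((σ : Gal(Ω/K)) * (τ : Gal(Ω/K))⁻¹)
    rw [h1] at h2
    have h3 : ((1 : (ZMod ℓ)ˣ) : ZMod ℓ).val = 1 := by
      haveI : Fact (1 < ℓ) := ⟨hℓ.one_lt⟩
      rw [Units.val_one, ZMod.val_one]
    rw [h3, pow_one] at h2
    have h4 : (σ : Gal(Ω/K)) * (τ : Gal(Ω/K))⁻¹ = 1 :=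
      hinj _ (fun x => (I.mul_mem σ.2 (I.inv_mem τ.2)) x) h2.symm
    exact Subtype.ext (mul_inv_eq_one.mp h4)
  have hcard : Nat.card (ZMod ℓ)ˣ ≤ Nat.card I := by
    have h1 : Nat.card (ZMod ℓ)ˣ = ℓ - 1 := by
      rw [Nat.card_eq_fintype_card, ZMod.card_units]
    rw [h1]
    exact Nat.le_of_dvd Nat.card_pos (sub_one_dvd_card_inertia p hpℓ hζ 𝔓 hℓ𝔓)
  obtain ⟨σ, hσ⟩ := (hf.bijective_of_nat_card_le hcard).2 u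
  exact ⟨σ, fun x => σ.2 x, hσ⟩

end Ram

end Fermat.Agent.S14.helper39
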