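import Mathlib
import Fermat.Agent.S14.helper38_CrossAbstract
import Fermat.Agent.S14.helper39_CycloInertia

/-!
# S14 (2c): existence of the crossing fields (helper38, second prover of task 160)

`exists_crossing_fields` : the statement announced by helper39 (findings #425), proved with
`Ω = CyclotomicField ℓ L`, the abstract construction `exists_crossing_fields_of_abelian` and the
inertia lemma `helper39.exists_inertia_autToPow_eq`.
-/

set_option autoImplicit false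
set_option linter.unusedSectionVars false
set_option linter.style.haveILetI false
set_option linter.overlappingInstances false
set_option linter.unusedVariables false

open scoped NumberField IsMulCommutative nonZeroDivisors Pointwise

namespace Fermat.Agent.S14.helper38

open Fermat.Agent.S14

universe u

section Generation

variable (K L Ω : Type*) [Field K] [Field L] [Field Ω] [Algebra K L] [Algebra K Ω] [Algebra L Ω]
  [IsScalarTower K L Ω]

/-- If `Ω = L(ζ)`, a `K`-automorphism of `Ω` fixing `L` pointwise and `ζ` is trivial. -/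
theorem eq_one_of_fixes {ζ : Ω} (hgen : Algebra.adjoin L {ζ} = ⊤) (σ : Gal(Ω/K))
    (hL : ∀ x : L, σ (algebraMap L Ω x) = algebraMap L Ω x) (hζ : σ ζ = ζ) : σ = 1 := by
  ext y
  have hy : y ∈ Algebra.adjoin L {ζ} := hgen ▸ Algebra.mem_top
  rw [AlgEquiv.one_apply]
  induction hy using Algebra.adjoin_induction with
  | mem x hx =>
    rw [Set.mem_singleton_iff] at hx
    rw [hx, hζ]
  | algebraMap r => exact hL r
  | add x y _ _ hx hy => rw [map_add, hx, hy]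
  | mul x y _ _ hx hy => rw [map_mul, hx, hy]

/-- If `Ω = L(ζ)` with `L/K` normal and `ζ` a root of unity, then `Ω/K` is normal. -/
theorem normal_of_adjoin_root_of_unity [Normal K L] [Algebra.IsIntegral K Ω] {n : ℕ} [NeZero n]
    {ζ : Ω} (hζ : IsPrimitiveRoot ζ n) (hgen : Algebra.adjoin L {ζ} = ⊤) : Normal K Ω := by
  let E₁ : IntermediateField K Ω := (IsScalarTower.toAlgHom K L Ω).fieldRange
  let E₂ : IntermediateField K Ω := IntermediateField.adjoin K {ζ}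
  haveI : Normal K E₁ :=
    Normal.of_algEquiv (AlgEquiv.ofInjectiveField (IsScalarTower.toAlgHom K L Ω))
  haveI : IsCyclotomicExtension {n} K E₂ := hζ.intermediateField_adjoin_isCyclotomicExtension K
  haveI : Normal K E₂ := (IsCyclotomicExtension.isGalois {n} K E₂).to_normal
  have htop : E₁ ⊔ E₂ = ⊤ := by
    rw [eq_top_iff]
    intro y _
    have hy : y ∈ Algebra.adjoin L {ζ} := hgen ▸ Algebra.mem_top
    induction hy using Algebra.adjoin_induction with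
    | mem x hx =>
      rw [Set.mem_singleton_iff] at hx
      rw [hx]
      exact (le_sup_right : E₂ ≤ E₁ ⊔ E₂) (IntermediateField.mem_adjoin_simple_self K ζ)
    | algebraMap r =>
      exact (le_sup_left : E₁ ≤ E₁ ⊔ E₂) ⟨r, rfl⟩
    | add x y _ _ hx hy => exact add_mem (hx trivial) (hy trivial)
    | mul x y _ _ hx hy => exact mul_mem (hx trivial) (hy trivial)
  haveI : Normal K ↥(E₁ ⊔ E₂) := IntermediateField.normal_sup K Ω E₁ E₂
  haveI : Normal K ↥(⊤ : IntermediateField K Ω) := htop ▸ this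
  exact Normal.of_algEquiv (IntermediateField.topEquiv (F := K) (E := Ω))

end Generation

section Unit

/-- There is a unit of `ZMod ℓ` which is not a `p`-th power (Euler criterion form). -/
theorem exists_unit_pow_ne_one (p ℓ : ℕ) [hpF : Fact p.Prime] [hlF : Fact ℓ.Prime]
    (hdvd : p ∣ ℓ - 1) : ∃ u : (ZMod ℓ)ˣ, u ^ ((ℓ - 1) / p) ≠ 1 := by
  obtain ⟨g, hg⟩ := IsCyclic.exists_generator (α := (ZMod ℓ)ˣ)
  have hord : orderOf g = ℓ - 1 := by
    rw [orderOf_eq_card_of_forall_mem_zpowers hg, Nat.card_eq_fintype_card, ZMod.card_units]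
  have hpos : 0 < ℓ - 1 := Nat.sub_pos_of_lt hlF.out.one_lt
  refine ⟨g, pow_ne_one_of_lt_orderOf ?_ ?_⟩
  · exact (Nat.div_pos (Nat.le_of_dvd hpos hdvd) hpF.out.pos).ne'
  · rw [hord]
    exact Nat.div_lt_self hpos hpF.out.one_lt

end Unit

section Final

variable (p ℓ : ℕ) [hpF : Fact p.Prime] [hlF : Fact ℓ.Prime]

/-- The conclusion of `exists_crossing_fields`. -/
def CrossingFields (K L : Type u) [Field K] [NumberField K] [Field L] [NumberField L]
    [Algebra K L] [IsGalois K L] (P P' : Ideal (𝓞 K)) : Prop :=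
    ∃ (E M : Type u) (_ : Field E) (_ : NumberField E) (_ : Field M) (_ : NumberField M)
      (_ : Algebra K E) (_ : Algebra E M) (_ : IsGalois K E) (_ : IsGalois E M),
      Module.finrank K E = p ∧ Module.finrank E M = p ∧
      (∀ 𝔏 : Ideal (𝓞 E), 𝔏.IsPrime → (ℓ : 𝓞 E) ∈ 𝔏 → ∀ (γ : Gal(E/K)) (z : 𝓞 E),
        γ • z - z ∈ 𝔏) ∧
      (∀ Q : Ideal (𝓞 E), Q.IsPrime → Q ≠ ⊥ → (ℓ : 𝓞 E) ∉ Q →
        (Ideal.primesOver Q (𝓞 M)).ncard = Module.finrank E M →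
        ((Ideal.absNorm Q : ℕ) : ZMod ℓ) ^ ((ℓ - 1) / p) = 1) ∧
      (∀ Q : Ideal (𝓞 E), Q.IsPrime → Q ≠ ⊥ → (ℓ : 𝓞 E) ∉ Q →
        (Ideal.primesOver Q (𝓞 M)).ncard = Module.finrank E M →
        ∀ n : ℕ, Ideal.absNorm Q = Ideal.absNorm (Q.under (𝓞 K)) ^ n →
          frobAt K L (Q.under (𝓞 K)) ^ n = 1) ∧
      (∃ S : Ideal (𝓞 E), S.IsPrime ∧ S.under (𝓞 K) = P ∧
        Ideal.absNorm S = Ideal.absNorm P) ∧
      (∃ S' : Ideal (𝓞 E), S'.IsPrime ∧ S'.under (𝓞 K) = P' ∧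
        Ideal.absNorm S' = Ideal.absNorm P')

/-- The crossing fields, constructed inside a number field `Ω = L(ζ_ℓ)`. -/
theorem crossingFields_of_adjoin (hℓp : ℓ % p = 1) (K L Ω : Type u) [Field K] [NumberField K]
    [Field L] [NumberField L] [Field Ω] [NumberField Ω] [Algebra K L] [Algebra K Ω]
    [Algebra L Ω] [IsScalarTower K L Ω] [IsCyclotomicExtension {p} ℚ K] [IsGalois K L]
    {ζ : Ω} (hζ : IsPrimitiveRoot ζ ℓ) (hgen : Algebra.adjoin L {ζ} = ⊤)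
    (hdeg : Module.finrank K L = p) (hunr : IsUnramifiedEverywhere K L)
    (P P' : Ideal (𝓞 K)) [P.IsPrime] [P'.IsPrime] (hP : P ≠ ⊥) (hP' : P' ≠ ⊥)
    (hℓP : (ℓ : 𝓞 K) ∉ P) (hℓP' : (ℓ : 𝓞 K) ∉ P') (k : ℕ)
    (hfrob : frobAt K L P = frobAt K L P' ^ k) (hne : frobAt K L P' ≠ 1)
    (hpow : ((Ideal.absNorm P : ℕ) : ZMod ℓ) ^ ((ℓ - 1) / p) =
      (((Ideal.absNorm P' : ℕ) : ZMod ℓ) ^ ((ℓ - 1) / p)) ^ k) :
    CrossingFields p ℓ K L P P' := by
  have hp : p.Prime := hpF.out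
  have hl : ℓ.Prime := hlF.out
  have hdvd : p ∣ ℓ - 1 := dvd_sub_one_of_mod p ℓ hℓp
  have hpl : p ≠ ℓ := by
    rintro rfl
    rw [Nat.mod_self] at hℓp
    exact zero_ne_one hℓp
  haveI : Normal K Ω := normal_of_adjoin_root_of_unity K L Ω hζ hgen
  haveI : IsGalois K Ω := ⟨⟩
  -- `Gal(L/K)` is commutative
  have hcardL : Nat.card Gal(L/K) = p := by rw [IsGalois.card_aut_eq_finrank, hdeg]
  haveI : IsCyclic Gal(L/K) := isCyclic_of_prime_card hcardL
  haveI : IsAbelianGalois K L := IsAbelianGalois.of_isCyclic K L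
  -- `Gal(Ω/K)` is commutative
  have hinj : ∀ σ : Gal(Ω/K), resHom K L Ω σ = 1 → σ ζ = ζ → σ = 1 := by
    intro σ h1 h2
    refine eq_one_of_fixes K L Ω hgen σ (fun x => ?_) h2
    rw [← resHom_commutes K L Ω σ x, h1]
    rfl
  have hcomm : ∀ a b : Gal(Ω/K), a * b = b * a := by
    intro a b
    have h : a * b * (b * a)⁻¹ = 1 := by
      apply hinj
      · rw [map_mul, map_inv, map_mul, map_mul, mul_comm (resHom K L Ω a), mul_inv_cancel]
      · have h1 := hζ.autToPow_spec K (a * b * (b * a)⁻¹)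
        have h2 : hζ.autToPow K (a * b * (b * a)⁻¹) = 1 := by
          rw [map_mul, map_inv, map_mul, map_mul, mul_comm (hζ.autToPow K a), mul_inv_cancel]
        rw [h2] at h1
        haveI : Fact (1 < ℓ) := ⟨hl.one_lt⟩
        rw [Units.val_one, ZMod.val_one, pow_one] at h1
        exact h1.symm
    exact mul_inv_eq_one.mp h
  haveI : IsAbelianGalois K Ω := { is_comm := ⟨hcomm⟩ }
  -- the inertia groups at `ℓ`
  have hin : ∀ 𝔓 : Ideal (𝓞 Ω), 𝔓.IsPrime → (ℓ : 𝓞 Ω) ∈ 𝔓 →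
      ∃ τ : Gal(Ω/K), (∀ x : 𝓞 Ω, τ • x - x ∈ 𝔓) ∧ psiHom K p hζ τ ≠ 1 := by
    intro 𝔓 h𝔓 hℓ𝔓
    haveI := h𝔓
    have h𝔓0 : 𝔓 ≠ ⊥ := by
      rintro rfl
      rw [Ideal.mem_bot] at hℓ𝔓
      exact (Nat.cast_ne_zero.2 hl.ne_zero) hℓ𝔓
    obtain ⟨u, hu⟩ := exists_unit_pow_ne_one p ℓ hdvd
    obtain ⟨τ, hτin, hτu⟩ := helper39.exists_inertia_autToPow_eq p hpl hζ 𝔓 hℓ𝔓
      (fun σ hσ hσζ => hinj σ (resHom_eq_one_of_inertia K L Ω hunr 𝔓 h𝔓0 σ hσ) hσζ) u
    refine ⟨τ, hτin, ?_⟩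
    rw [psiHom_apply, hτu]
    exact hu
  exact exists_crossing_fields_of_abelian p ℓ K L Ω hℓp hdeg hunr hζ hin P P' hP hP' hℓP hℓP' k
    hfrob hne hpow

/-- **Existence of the crossing fields** (statement of helper39, findings #425). -/
theorem exists_crossing_fields (hℓp : ℓ % p = 1) (K L : Type u) [Field K] [NumberField K]
    [Field L] [NumberField L] [Algebra K L] [IsCyclotomicExtension {p} ℚ K] [IsGalois K L]
    (hdeg : Module.finrank K L = p) (hunr : IsUnramifiedEverywhere K L)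
    (P P' : Ideal (𝓞 K)) [P.IsPrime] [P'.IsPrime] (hP : P ≠ ⊥) (hP' : P' ≠ ⊥)
    (hℓP : (ℓ : 𝓞 K) ∉ P) (hℓP' : (ℓ : 𝓞 K) ∉ P') (k : ℕ)
    (hfrob : frobAt K L P = frobAt K L P' ^ k) (hne : frobAt K L P' ≠ 1)
    (hnon : ((Ideal.absNorm P' : ℕ) : ZMod ℓ) ^ ((ℓ - 1) / p) ≠ 1)
    (hpow : ((Ideal.absNorm P : ℕ) : ZMod ℓ) ^ ((ℓ - 1) / p) =
      (((Ideal.absNorm P' : ℕ) : ZMod ℓ) ^ ((ℓ - 1) / p)) ^ k) :
    ∃ (E M : Type u) (_ : Field E) (_ : NumberField E) (_ : Field M) (_ : NumberField M)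
      (_ : Algebra K E) (_ : Algebra E M) (_ : IsGalois K E) (_ : IsGalois E M),
      Module.finrank K E = p ∧ Module.finrank E M = p ∧
      (∀ 𝔏 : Ideal (𝓞 E), 𝔏.IsPrime → (ℓ : 𝓞 E) ∈ 𝔏 → ∀ (γ : Gal(E/K)) (z : 𝓞 E),
        γ • z - z ∈ 𝔏) ∧
      (∀ Q : Ideal (𝓞 E), Q.IsPrime → Q ≠ ⊥ → (ℓ : 𝓞 E) ∉ Q →
        (Ideal.primesOver Q (𝓞 M)).ncard = Module.finrank E M →
        ((Ideal.absNorm Q : ℕ) : ZMod ℓ) ^ ((ℓ - 1) / p) = 1) ∧
      (∀ Q : Ideal (𝓞 E), Q.IsPrime → Q ≠ ⊥ → (ℓ : 𝓞 E) ∉ Q →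
        (Ideal.primesOver Q (𝓞 M)).ncard = Module.finrank E M →
        ∀ n : ℕ, Ideal.absNorm Q = Ideal.absNorm (Q.under (𝓞 K)) ^ n →
          frobAt K L (Q.under (𝓞 K)) ^ n = 1) ∧
      (∃ S : Ideal (𝓞 E), S.IsPrime ∧ S.under (𝓞 K) = P ∧
        Ideal.absNorm S = Ideal.absNorm P) ∧
      (∃ S' : Ideal (𝓞 E), S'.IsPrime ∧ S'.under (𝓞 K) = P' ∧
        Ideal.absNorm S' = Ideal.absNorm P') :=
  crossingFields_of_adjoin p ℓ hℓp K L (CyclotomicField ℓ L)
    (IsCyclotomicExtension.zeta_spec ℓ L (CyclotomicField ℓ L))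
    (IsCyclotomicExtension.adjoin_primitive_root_eq_top
      (IsCyclotomicExtension.zeta_spec ℓ L (CyclotomicField ℓ L)))
    hdeg hunr P P' hP hP' hℓP hℓP' k hfrob hne hpow

end Final

end Fermat.Agent.S14.helper38
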