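import Mathlib
import Fermat.Agent.S14.helper38_CrossAbstract
import Fermat.Agent.S14.helper39_CycloInertia

/-!
# S14 (2c): the crossing fields (helper39, task 160)

`exists_crossing_fields` : for `K = ℚ(ζ_p)`, `L/K` Galois of degree `p` unramified at all finite
primes, an auxiliary prime `ℓ ≡ 1 mod p` and primes `P`, `P'` of `K` not over `ℓ` with
`Frob P = Frob P' ^ k ≠ ...`, there are number fields `K ⊆ E ⊆ M` (inside `Ω = L(ζ_ℓ)`) with
`[E : K] = [M : E] = p`, `E/K` totally ramified over `ℓ`, such that the primes of `E` splitting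
completely in `M` have norm a `p`-th power residue modulo `ℓ` and lie over primes of `K` with
trivial Frobenius (power) in `L/K`, and such that `P`, `P'` have primes of residue degree one
above them in `E`.

Ingredients: `helper38.exists_crossing_fields_of_abelian` (the construction inside an abelian
`Ω/K`, conditional on the inertia fact at `ℓ`), `exists_inertia_autToPow_eq` (the inertia fact),
and the field theory of `Ω = CyclotomicField ℓ L` over `K` proved here:
`isGalois_of_isCyclotomicExtension`, `eq_one_of_fixes`, `isAbelianGalois_of_isCyclotomicExtension`.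
-/

set_option autoImplicit false
set_option linter.unusedSectionVars false
set_option linter.style.haveILetI false
set_option linter.overlappingInstances false
set_option linter.unusedVariables false

open scoped NumberField nonZeroDivisors Pointwise IsMulCommutative

namespace Fermat.Agent.S14.helper39
open Fermat.Agent.S14

universe u

section E

variable (K L : Type u) [Field K] [NumberField K] [Field L] [NumberField L] [Algebra K L]
  [IsGalois K L] (ℓ : ℕ) [Fact ℓ.Prime]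

/-- The compositum of the image of `L` and `K(ζ)` inside `Ω = L(ζ_ℓ)` is everything. -/
theorem fieldRange_sup_adjoin_eq_top (Ω : Type u) [Field Ω] [Algebra K Ω] [Algebra L Ω]
    [IsScalarTower K L Ω] [IsCyclotomicExtension {ℓ} L Ω] {ζ : Ω} (hζ : IsPrimitiveRoot ζ ℓ) :
    (IsScalarTower.toAlgHom K L Ω).fieldRange ⊔ IntermediateField.adjoin K {ζ} = ⊤ := by
  rw [eq_top_iff]
  intro x _
  set S : IntermediateField K Ω :=
    (IsScalarTower.toAlgHom K L Ω).fieldRange ⊔ IntermediateField.adjoin K {ζ} with hS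
  -- `S` as an `L`-subalgebra
  let S' : Subalgebra L Ω :=
    { S.toSubalgebra.toSubsemiring with
      algebraMap_mem' := fun y => by
        have : algebraMap L Ω y ∈ (IsScalarTower.toAlgHom K L Ω).fieldRange := ⟨y, rfl⟩
        exact (le_sup_left : _ ≤ S) this }
  have hζS : ζ ∈ S' := by
    have : ζ ∈ IntermediateField.adjoin K {ζ} :=
      IntermediateField.subset_adjoin K {ζ} (Set.mem_singleton ζ)
    exact (le_sup_right : _ ≤ S) this
  have h1 : Algebra.adjoin L {ζ} ≤ S' := Algebra.adjoin_le (by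
    intro y hy
    rw [Set.mem_singleton_iff] at hy
    rw [hy]
    exact hζS)
  have h2 : Algebra.adjoin L {ζ} = ⊤ :=
    IsCyclotomicExtension.adjoin_primitive_root_eq_top hζ
  rw [h2] at h1
  exact h1 (Algebra.mem_top : x ∈ (⊤ : Subalgebra L Ω))

/-- `Ω = L(ζ_ℓ)` is Galois over `K` when `L/K` is. -/
theorem isGalois_of_isCyclotomicExtension (Ω : Type u) [Field Ω] [Algebra K Ω] [Algebra L Ω]
    [IsScalarTower K L Ω] [IsCyclotomicExtension {ℓ} L Ω] [FiniteDimensional K Ω]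
    [CharZero K] : IsGalois K Ω := by
  have hℓ : ℓ.Prime := Fact.out
  obtain ⟨ζ, hζ⟩ := IsCyclotomicExtension.exists_isPrimitiveRoot L Ω (S := {ℓ})
    (Set.mem_singleton ℓ) hℓ.ne_zero
  haveI h1 : Normal K (IsScalarTower.toAlgHom K L Ω).fieldRange :=
    Normal.of_algEquiv (AlgEquiv.ofInjectiveField (IsScalarTower.toAlgHom K L Ω))
  haveI : IsCyclotomicExtension {ℓ} K (IntermediateField.adjoin K {ζ}) :=
    hζ.intermediateField_adjoin_isCyclotomicExtension K
  haveI h2 : Normal K (IntermediateField.adjoin K {ζ}) :=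
    (IsCyclotomicExtension.isGalois {ℓ} K (IntermediateField.adjoin K {ζ})).to_normal
  have h3 : Normal K
      ((IsScalarTower.toAlgHom K L Ω).fieldRange ⊔ IntermediateField.adjoin K {ζ} :
        IntermediateField K Ω) := inferInstance
  rw [fieldRange_sup_adjoin_eq_top K L ℓ Ω hζ] at h3
  haveI : Normal K Ω := Normal.of_algEquiv (IntermediateField.topEquiv (F := K) (E := Ω))
  exact IsGalois.mk

/-- An automorphism of `Ω = L(ζ_ℓ)` over `K` fixing `L` and `ζ` is trivial. -/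
theorem eq_one_of_fixes (Ω : Type u) [Field Ω] [Algebra K Ω] [Algebra L Ω]
    [IsScalarTower K L Ω] [IsCyclotomicExtension {ℓ} L Ω] {ζ : Ω} (hζ : IsPrimitiveRoot ζ ℓ)
    (σ : Gal(Ω/K)) (hL : ∀ x : L, σ (algebraMap L Ω x) = algebraMap L Ω x) (hσζ : σ ζ = ζ) :
    σ = 1 := by
  have h1 : σ ∈ ((IsScalarTower.toAlgHom K L Ω).fieldRange).fixingSubgroup := by
    rw [IntermediateField.mem_fixingSubgroup_iff]
    rintro _ ⟨y, rfl⟩
    exact hL y
  have h2 : σ ∈ (IntermediateField.adjoin K {ζ}).fixingSubgroup := by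
    have : Subgroup.zpowers σ ≤ (IntermediateField.adjoin K {ζ}).fixingSubgroup := by
      rw [← IntermediateField.le_iff_le, IntermediateField.adjoin_simple_le_iff,
        IntermediateField.mem_fixedField_iff]
      intro f hf
      have hstab : Subgroup.zpowers σ ≤ MulAction.stabilizer Gal(Ω/K) ζ := by
        rw [Subgroup.zpowers_le, MulAction.mem_stabilizer_iff]
        exact hσζ
      exact MulAction.mem_stabilizer_iff.1 (hstab hf)
    exact this (Subgroup.mem_zpowers σ)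
  have h3 : σ ∈ ((IsScalarTower.toAlgHom K L Ω).fieldRange ⊔
      IntermediateField.adjoin K {ζ}).fixingSubgroup := by
    rw [IntermediateField.fixingSubgroup_sup]
    exact ⟨h1, h2⟩
  rw [fieldRange_sup_adjoin_eq_top K L ℓ Ω hζ, IntermediateField.fixingSubgroup_top] at h3
  exact Subgroup.mem_bot.1 h3

/-- `Gal(L(ζ_ℓ)/K)` is commutative when `Gal(L/K)` is. -/
theorem isAbelianGalois_of_isCyclotomicExtension [IsAbelianGalois K L] (Ω : Type u) [Field Ω]
    [Algebra K Ω] [Algebra L Ω] [IsScalarTower K L Ω] [IsCyclotomicExtension {ℓ} L Ω]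
    [FiniteDimensional K Ω] [CharZero K] : IsAbelianGalois K Ω := by
  have hℓ : ℓ.Prime := Fact.out
  haveI : IsGalois K Ω := isGalois_of_isCyclotomicExtension K L ℓ Ω
  obtain ⟨ζ, hζ⟩ := IsCyclotomicExtension.exists_isPrimitiveRoot L Ω (S := {ℓ})
    (Set.mem_singleton ℓ) hℓ.ne_zero
  have hcomm : ∀ σ τ : Gal(Ω/K), σ * τ = τ * σ := by
    intro σ τ
    have key : (σ * τ) * (τ * σ)⁻¹ = 1 := by
      apply eq_one_of_fixes K L ℓ Ω hζ
      · intro x
        have h1 : AlgEquiv.restrictNormalHom L ((σ * τ) * (τ * σ)⁻¹) = 1 := by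
          simp only [map_mul, map_inv]
          rw [mul_comm (AlgEquiv.restrictNormalHom L τ) (AlgEquiv.restrictNormalHom L σ)]
          exact mul_inv_cancel _
        have h2 := AlgEquiv.restrictNormal_commutes ((σ * τ) * (τ * σ)⁻¹) L x
        rw [← h2]
        have h3 : ((σ * τ) * (τ * σ)⁻¹).restrictNormal L = 1 := h1
        rw [h3]
        rfl
      · have h1 : hζ.autToPow K ((σ * τ) * (τ * σ)⁻¹) = 1 := by
          simp only [map_mul, map_inv]
          rw [mul_comm (hζ.autToPow K τ) (hζ.autToPow K σ)]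
          exact mul_inv_cancel _
        have h2 := hζ.autToPow_spec K ((σ * τ) * (τ * σ)⁻¹)
        rw [h1] at h2
        have h3 : ((1 : (ZMod ℓ)ˣ) : ZMod ℓ).val = 1 := by
          haveI : Fact (1 < ℓ) := ⟨hℓ.one_lt⟩
          rw [Units.val_one, ZMod.val_one]
        rw [h3, pow_one] at h2
        exact h2.symm
    exact mul_inv_eq_one.1 key
  exact { toIsGalois := inferInstance, toIsMulCommutative := ⟨⟨hcomm⟩⟩ }

end E

section Final

/-- There is a unit of `ZMod ℓ` which is not killed by the exponent `(ℓ - 1) / p`. -/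
theorem exists_unit_pow_ne_one (p ℓ : ℕ) [Fact p.Prime] [Fact ℓ.Prime] (hdvd : p ∣ ℓ - 1) :
    ∃ u : (ZMod ℓ)ˣ, u ^ ((ℓ - 1) / p) ≠ 1 := by
  have hp : p.Prime := Fact.out
  have hℓ : ℓ.Prime := Fact.out
  obtain ⟨g, hg⟩ := IsCyclic.exists_generator (α := (ZMod ℓ)ˣ)
  have hord : orderOf g = ℓ - 1 := by
    rw [orderOf_eq_card_of_forall_mem_zpowers hg, Nat.card_eq_fintype_card, ZMod.card_units]
  have hpos : 0 < ℓ - 1 := Nat.sub_pos_of_lt hℓ.one_lt
  refine ⟨g, pow_ne_one_of_lt_orderOf ?_ ?_⟩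
  · exact (Nat.div_pos (Nat.le_of_dvd hpos hdvd) hp.pos).ne'
  · rw [hord]
    exact Nat.div_lt_self hpos hp.one_lt

/-- **The crossing fields** (statement of findings #425). -/
theorem exists_crossing_fields
    (p ℓ : ℕ) [Fact p.Prime] [Fact ℓ.Prime] (hℓp : ℓ % p = 1)
    (K L : Type u) [Field K] [NumberField K] [Field L] [NumberField L] [Algebra K L]
    [IsCyclotomicExtension {p} ℚ K] [IsGalois K L]
    (hdeg : Module.finrank K L = p) (hunr : IsUnramifiedEverywhere K L)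
    (P P' : Ideal (𝓞 K)) [P.IsPrime] [P'.IsPrime] (hP : P ≠ ⊥) (hP' : P' ≠ ⊥)
    (hℓP : (ℓ : 𝓞 K) ∉ P) (hℓP' : (ℓ : 𝓞 K) ∉ P')
    (k : ℕ)
    (hfrob : frobAt K L P = frobAt K L P' ^ k)
    (hne : frobAt K L P' ≠ 1)
    (hnon : ((Ideal.absNorm P' : ℕ) : ZMod ℓ) ^ ((ℓ - 1) / p) ≠ 1)
    (hpow : ((Ideal.absNorm P : ℕ) : ZMod ℓ) ^ ((ℓ - 1) / p) =
      (((Ideal.absNorm P' : ℕ) : ZMod ℓ) ^ ((ℓ - 1) / p)) ^ k) :
    ∃ (E M : Type u) (_ : Field E) (_ : NumberField E) (_ : Field M) (_ : NumberField M)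
      (_ : Algebra K E) (_ : Algebra E M) (_ : IsGalois K E) (_ : IsGalois E M),
      Module.finrank K E = p ∧ Module.finrank E M = p ∧
      (∀ 𝔏 : Ideal (𝓞 E), 𝔏.IsPrime → (ℓ : 𝓞 E) ∈ 𝔏 →
        ∀ (γ : Gal(E/K)) (z : 𝓞 E), γ • z - z ∈ 𝔏) ∧
      (∀ Q : Ideal (𝓞 E), Q.IsPrime → Q ≠ ⊥ → (ℓ : 𝓞 E) ∉ Q →
        (Ideal.primesOver Q (𝓞 M)).ncard = Module.finrank E M →
          ((Ideal.absNorm Q : ℕ) : ZMod ℓ) ^ ((ℓ - 1) / p) = 1) ∧
      (∀ Q : Ideal (𝓞 E), Q.IsPrime → Q ≠ ⊥ → (ℓ : 𝓞 E) ∉ Q →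
        (Ideal.primesOver Q (𝓞 M)).ncard = Module.finrank E M →
          ∀ n : ℕ, Ideal.absNorm Q = Ideal.absNorm (Q.under (𝓞 K)) ^ n →
            frobAt K L (Q.under (𝓞 K)) ^ n = 1) ∧
      (∃ S : Ideal (𝓞 E), S.IsPrime ∧ S.under (𝓞 K) = P ∧ Ideal.absNorm S = Ideal.absNorm P) ∧
      (∃ S' : Ideal (𝓞 E), S'.IsPrime ∧ S'.under (𝓞 K) = P' ∧
        Ideal.absNorm S' = Ideal.absNorm P') := by
  have hp : p.Prime := Fact.out
  have hℓ : ℓ.Prime := Fact.out
  have hpℓ : p ≠ ℓ := by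
    rintro rfl
    rw [Nat.mod_self] at hℓp
    exact absurd hℓp (by norm_num)
  have hdvd : p ∣ ℓ - 1 := helper38.dvd_sub_one_of_mod p ℓ hℓp
  haveI : IsAbelianGalois K L := by
    have hcard : Nat.card Gal(L/K) = p := by rw [IsGalois.card_aut_eq_finrank, hdeg]
    haveI : IsCyclic Gal(L/K) := isCyclic_of_prime_card hcard
    exact IsAbelianGalois.of_isCyclic K L
  haveI : IsAbelianGalois K (CyclotomicField ℓ L) :=
    isAbelianGalois_of_isCyclotomicExtension K L ℓ (CyclotomicField ℓ L)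
  obtain ⟨ζ, hζ⟩ := IsCyclotomicExtension.exists_isPrimitiveRoot L (CyclotomicField ℓ L)
    (S := {ℓ}) (Set.mem_singleton ℓ) hℓ.ne_zero
  obtain ⟨u, hu⟩ := exists_unit_pow_ne_one p ℓ hdvd
  have hin : ∀ 𝔓 : Ideal (𝓞 (CyclotomicField ℓ L)), 𝔓.IsPrime →
      (ℓ : 𝓞 (CyclotomicField ℓ L)) ∈ 𝔓 →
      ∃ τ : Gal((CyclotomicField ℓ L)/K), (∀ x : 𝓞 (CyclotomicField ℓ L), τ • x - x ∈ 𝔓) ∧
        helper38.psiHom K p hζ τ ≠ 1 := by
    intro 𝔓 h𝔓 hℓ𝔓
    haveI := h𝔓
    have h𝔓0 : 𝔓 ≠ ⊥ := by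
      rintro rfl
      rw [Ideal.mem_bot] at hℓ𝔓
      exact (Nat.cast_ne_zero.2 hℓ.ne_zero) hℓ𝔓
    have hinj : ∀ σ : Gal((CyclotomicField ℓ L)/K),
        (∀ x : 𝓞 (CyclotomicField ℓ L), σ • x - x ∈ 𝔓) → σ ζ = ζ → σ = 1 := by
      intro σ hσ hσζ
      apply eq_one_of_fixes K L ℓ (CyclotomicField ℓ L) hζ σ _ hσζ
      intro x
      have h1 := restrictNormalHom_eq_one_of_inertia (L := L) hunr 𝔓 h𝔓0 σ hσ
      have h2 := AlgEquiv.restrictNormal_commutes σ L x
      rw [← h2]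
      have h3 : σ.restrictNormal L = 1 := h1
      rw [h3]
      rfl
    obtain ⟨τ, hτ, hτu⟩ := exists_inertia_autToPow_eq p hpℓ hζ 𝔓 hℓ𝔓 hinj u
    refine ⟨τ, hτ, ?_⟩
    rw [helper38.psiHom_apply, hτu]
    exact hu
  exact helper38.exists_crossing_fields_of_abelian p ℓ K L (CyclotomicField ℓ L) hℓp hdeg hunr
    hζ hin P P' hP hP' hℓP hℓP' k hfrob hne hpow

end Final
end Fermat.Agent.S14.helper39
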