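import Mathlib

/-!
# S14 (2c), crossing construction: a group-theoretic lemma (helper39)

Let `Φ : G →* A × B` with `A`, `B` of prime order `p`, `x y : G` with both coordinates of `Φ x`
nontrivial, and `Φ y = (1, b)` with `b ≠ 1`.  Then `Φ` is onto, the preimage `H` of the cyclic
group generated by `Φ x` has index `p`, the kernel has index `p ^ 2`, and `H ∩ Φ⁻¹(1 × B)` is the
kernel.
-/

set_option autoImplicit false
set_option linter.unusedSectionVars false
set_option linter.style.haveILetI false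

namespace Fermat.Agent.S14.helper39

section GroupLemma

variable {G A B : Type*} [Group G] [Group A] [Group B] {p : ℕ} [Fact p.Prime]

/-- In a group of prime order `p`, `a ^ j = 1` with `a ≠ 1` forces `p ∣ j`. -/
lemma dvd_of_pow_eq_one_of_card_prime (hA : Nat.card A = p) {a : A} (ha : a ≠ 1) {j : ℤ}
    (h : a ^ j = 1) : (p : ℤ) ∣ j := by
  have hp : p.Prime := Fact.out
  haveI : Finite A := Nat.finite_of_card_ne_zero (by rw [hA]; exact hp.ne_zero)
  have h1 : orderOf a = p := by
    have hdvd : orderOf a ∣ p := by rw [← hA]; exact orderOf_dvd_natCard a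
    rcases (Nat.dvd_prime hp).1 hdvd with h | h
    · exact absurd (orderOf_eq_one_iff.1 h) ha
    · exact h
  rw [← h1]
  exact orderOf_dvd_iff_zpow_eq_one.2 h

/-- In a group of prime order `p`, every `p`-th power is trivial. -/
lemma pow_card_prime_eq_one (hA : Nat.card A = p) (a : A) : a ^ p = 1 := by
  rw [← hA]; exact pow_card_eq_one'

variable (Φ : G →* A × B) (hA : Nat.card A = p) (hB : Nat.card B = p)

include hA hB in
/-- Elements of the cyclic group generated by `t` with trivial first coordinate are trivial,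
if the first coordinate of `t` is nontrivial. -/
lemma eq_one_of_mem_zpowers_of_fst_eq_one {t s : A × B} (ht : t.1 ≠ 1)
    (hs : s ∈ Subgroup.zpowers t) (hs1 : s.1 = 1) : s = 1 := by
  obtain ⟨j, rfl⟩ := Subgroup.mem_zpowers_iff.1 hs
  have h1 : t.1 ^ j = 1 := by simpa using hs1
  obtain ⟨m, rfl⟩ := dvd_of_pow_eq_one_of_card_prime hA ht h1
  have h2 : t ^ p = 1 := by
    ext
    · simpa using pow_card_prime_eq_one hA t.1
    · simpa using pow_card_prime_eq_one hB t.2
  rw [zpow_mul, zpow_natCast, h2, one_zpow]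

include hA hB in
/-- The crossing homomorphism is onto. -/
theorem crossing_surjective {x y : G} (hx1 : (Φ x).1 ≠ 1)
    (hy1 : (Φ y).1 = 1) (hy2 : (Φ y).2 ≠ 1) : Function.Surjective Φ := by
  have hp : p.Prime := Fact.out
  haveI : Finite A := Nat.finite_of_card_ne_zero (by rw [hA]; exact hp.ne_zero)
  haveI : Finite B := Nat.finite_of_card_ne_zero (by rw [hB]; exact hp.ne_zero)
  have hT : Nat.card (A × B) = p ^ 2 := by rw [Nat.card_prod, hA, hB, sq]
  rw [← MonoidHom.range_eq_top]
  set Z : Subgroup (A × B) := Subgroup.zpowers (Φ x) with hZ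
  have hZle : Z ≤ Φ.range := by
    rw [hZ, Subgroup.zpowers_le]
    exact ⟨x, rfl⟩
  have hyZ : Φ y ∉ Z := by
    intro h
    have := eq_one_of_mem_zpowers_of_fst_eq_one hA hB hx1 h hy1
    exact hy2 (by rw [this]; rfl)
  have hxp : (Φ x) ^ p = 1 := by
    ext
    · simpa using pow_card_prime_eq_one hA (Φ x).1
    · simpa using pow_card_prime_eq_one hB (Φ x).2
  have hx0 : Φ x ≠ 1 := fun h => hx1 (by rw [h]; rfl)
  have hcardZ : Nat.card Z = p := by
    rw [hZ, Nat.card_zpowers]
    exact orderOf_eq_prime hxp hx0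
  have hdvd : Nat.card Φ.range ∣ p ^ 2 := by
    rw [← hT]; exact Subgroup.card_subgroup_dvd_card _
  obtain ⟨m, hm, hcard⟩ := (Nat.dvd_prime_pow hp).1 hdvd
  have hZdvd : Nat.card Z ∣ Nat.card Φ.range := Subgroup.card_dvd_of_le hZle
  rw [hcardZ, hcard] at hZdvd
  have hm1 : 1 ≤ m := by
    rcases Nat.eq_zero_or_pos m with h0 | h0
    · subst h0
      rw [pow_zero, Nat.dvd_one] at hZdvd
      exact absurd hZdvd hp.one_lt.ne'
    · exact h0
  have hm2 : m = 2 := by
    rcases Nat.lt_or_ge m 2 with hlt | hge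
    · have hm' : m = 1 := by omega
      subst hm'
      rw [pow_one] at hcard
      exfalso
      apply hyZ
      have : Z = Φ.range := by
        apply Subgroup.eq_of_le_of_card_ge hZle
        rw [hcard, hcardZ]
      rw [this]
      exact ⟨y, rfl⟩
    · omega
  apply Subgroup.eq_top_of_card_eq
  rw [hcard, hm2, hT]

include hA hB in
/-- The preimage of the cyclic group generated by `Φ x` has index `p`. -/
theorem crossing_index_comap {x y : G} (hx1 : (Φ x).1 ≠ 1)
    (hy1 : (Φ y).1 = 1) (hy2 : (Φ y).2 ≠ 1) :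
    ((Subgroup.zpowers (Φ x)).comap Φ).index = p := by
  have hp : p.Prime := Fact.out
  haveI : Finite A := Nat.finite_of_card_ne_zero (by rw [hA]; exact hp.ne_zero)
  haveI : Finite B := Nat.finite_of_card_ne_zero (by rw [hB]; exact hp.ne_zero)
  have hT : Nat.card (A × B) = p * p := by rw [Nat.card_prod, hA, hB]
  rw [Subgroup.index_comap_of_surjective _ (crossing_surjective Φ hA hB hx1 hy1 hy2)]
  have hxp : (Φ x) ^ p = 1 := by
    ext
    · simpa using pow_card_prime_eq_one hA (Φ x).1
    · simpa using pow_card_prime_eq_one hB (Φ x).2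
  have hx0 : Φ x ≠ 1 := fun h => hx1 (by rw [h]; rfl)
  have hcardZ : Nat.card (Subgroup.zpowers (Φ x)) = p := by
    rw [Nat.card_zpowers]
    exact orderOf_eq_prime hxp hx0
  have h := Subgroup.index_mul_card (Subgroup.zpowers (Φ x))
  rw [hcardZ, hT] at h
  exact Nat.eq_of_mul_eq_mul_right hp.pos h

include hA hB in
/-- The kernel has index `p ^ 2`. -/
theorem crossing_index_ker {x y : G} (hx1 : (Φ x).1 ≠ 1)
    (hy1 : (Φ y).1 = 1) (hy2 : (Φ y).2 ≠ 1) : Φ.ker.index = p * p := by
  rw [Subgroup.index_ker, MonoidHom.range_eq_top.2 (crossing_surjective Φ hA hB hx1 hy1 hy2),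
    Subgroup.card_top, Nat.card_prod, hA, hB]

/-- The kernel is contained in the preimage of any subgroup. -/
lemma crossing_ker_le (Z : Subgroup (A × B)) : Φ.ker ≤ Z.comap Φ := by
  intro g hg
  rw [Subgroup.mem_comap, MonoidHom.mem_ker.1 hg]
  exact Z.one_mem

include hA hB in
/-- An element of the preimage of `⟨Φ x⟩` with trivial first coordinate lies in the kernel. -/
lemma crossing_mem_ker {x τ : G} (hx1 : (Φ x).1 ≠ 1)
    (hτ : τ ∈ (Subgroup.zpowers (Φ x)).comap Φ) (hτ1 : (Φ τ).1 = 1) : τ ∈ Φ.ker :=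
  MonoidHom.mem_ker.2 (eq_one_of_mem_zpowers_of_fst_eq_one hA hB hx1 hτ hτ1)

include hA hB in
/-- An element with trivial first and nontrivial second coordinate is not in the preimage of
`⟨Φ x⟩`. -/
lemma crossing_not_mem_comap {x y : G} (hx1 : (Φ x).1 ≠ 1)
    (hy1 : (Φ y).1 = 1) (hy2 : (Φ y).2 ≠ 1) : y ∉ (Subgroup.zpowers (Φ x)).comap Φ := by
  intro h
  have := eq_one_of_mem_zpowers_of_fst_eq_one hA hB hx1 h hy1
  exact hy2 (by rw [this]; rfl)

end GroupLemma

end Fermat.Agent.S14.helper39
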