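import Fermat.Agent.S14.helper40_TheoremG
import Fermat.Agent.S14.helper99_CKDefs

/-!
# S14, route R2: Theorem G in the vocabulary of `helper99_CKDefs` (helper40)

* `theoremGStatement p K : helper99.TheoremGStatement p K`;
* `classGroup_eq_top_of_kerClass` : the same statement, for `K` in any universe.
-/

set_option autoImplicit false

open NumberField

namespace Fermat.Agent.S14.helper40

/-- Theorem G with `helper99.kerClass`, for a number field in any universe. -/
theorem classGroup_eq_top_of_kerClass {K : Type*} [Field K] [NumberField K]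
    (p : ℕ) [Fact p.Prime] (hp2 : p ≠ 2) {ζ : K} (hζ : IsPrimitiveRoot ζ p) (u : 𝓞 K)
    (hu : ¬ ∃ v : K, v ^ p = (u : K)) (H : Subgroup (ClassGroup (𝓞 K)))
    (hH : ∀ (ℓ : ℕ) [Fact ℓ.Prime] (ψ : 𝓞 K →+* ZMod ℓ), ℓ ≠ p →
      (¬ ∃ c : ZMod ℓ, c ^ p = ψ u) → helper99.kerClass ψ ∈ H) :
    H = ⊤ :=
  classGroup_eq_top_of_nonresidue_primes p hp2 hζ u hu H
    (fun ℓ _ ψ hℓ hnr _ => hH ℓ ψ hℓ hnr)

/-- **Theorem G** in the exact shape `helper99.TheoremGStatement`. -/
theorem theoremGStatement (p : ℕ) [Fact p.Prime] (K : Type) [Field K] [NumberField K] :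
    helper99.TheoremGStatement p K :=
  fun hp2 _ hζ u hu H hH => classGroup_eq_top_of_kerClass p hp2 hζ u hu H hH

end Fermat.Agent.S14.helper40
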