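/-
S14 (2c) crossing construction, helper44 (task "S14-2nd 160"), part 1: the `ℓ`-part.

* `isGalois_of_cyclotomic_tower`, `isAbelianGalois_of_cyclotomic_tower`:
  `Ω = L(ζ_ℓ)` is Galois / abelian over `K` when `L/K` is.
* `algEquiv_ext_of_cyclotomic`, `eq_one_of_restrict_eq_one_of_autToPow_eq_one`:
  a `K`-automorphism of `Ω` is determined by its restriction to `L` and its value on `ζ`.
* `le_ramificationIdx_int`, `le_card_inertia`: primes over `ℓ` in a field containing `ζ_ℓ`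
  have absolute ramification index `≥ ℓ - 1`; if `ℓ` is unramified in `K`, the inertia group in
  `Gal(Ω/K)` has at least `ℓ - 1` elements.
* `restrict_eq_one_of_mem_inertia`: inertia of `Ω/K` dies in `Gal(L/K)` if `L/K` is unramified.
* `exists_mem_inertia_autToPow_eq`: the cyclotomic character is onto on every inertia group
  over `ℓ`.
-/
import Mathlib
import Fermat.Agent.S14.Defs
import Fermat.Agent.S14.helper90_Unramified

set_option linter.unusedSectionVars false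

open scoped NumberField
open Polynomial

namespace Fermat.Agent.S14.helper44

section EllAdic

variable {Ω : Type*} [Field Ω] [NumberField Ω] {ℓ : ℕ} [hℓ : Fact ℓ.Prime]

/-- A prime of `𝓞 Ω` containing `ℓ` contains `ζ - 1` for every `ℓ`-th root of unity `ζ`. -/
theorem sub_one_mem_of_natCast_mem (ζ : 𝓞 Ω) (hζ : ζ ^ ℓ = 1) (𝔔 : Ideal (𝓞 Ω)) [𝔔.IsPrime]
    (h𝔔 : (ℓ : 𝓞 Ω) ∈ 𝔔) : ζ - 1 ∈ 𝔔 := by
  have hchar : CharP (𝓞 Ω ⧸ 𝔔) ℓ := by
    have h0 : ((ℓ : ℕ) : 𝓞 Ω ⧸ 𝔔) = 0 := by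
      have := Ideal.Quotient.eq_zero_iff_mem.mpr h𝔔
      simpa using this
    exact (CharP.charP_iff_prime_eq_zero hℓ.out).mpr h0
  have h1 : (Ideal.Quotient.mk 𝔔 (ζ - 1)) ^ ℓ = 0 := by
    rw [map_sub, map_one, sub_pow_char, one_pow, ← map_pow, hζ, map_one, sub_self]
  have h2 : Ideal.Quotient.mk 𝔔 (ζ - 1) = 0 := pow_eq_zero_iff (hℓ.out.ne_zero) |>.mp h1
  exact Ideal.Quotient.eq_zero_iff_mem.mp h2

/-- `ℓ ∈ 𝔔 ^ (ℓ - 1)` for a prime `𝔔 ∋ ℓ` of a number field containing a primitive `ℓ`-th root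
of unity. -/
theorem natCast_mem_pow_of_isPrimitiveRoot {ζ : 𝓞 Ω} (hζ : IsPrimitiveRoot ζ ℓ)
    (𝔔 : Ideal (𝓞 Ω)) [𝔔.IsPrime] (h𝔔 : (ℓ : 𝓞 Ω) ∈ 𝔔) : (ℓ : 𝓞 Ω) ∈ 𝔔 ^ (ℓ - 1) := by
  obtain ⟨z, -, hz⟩ := hζ.self_sub_one_pow_dvd_order (k := ℓ - 1)
    (Nat.sub_lt hℓ.out.pos one_pos)
  rw [hz]
  exact Ideal.mul_mem_left _ _
    (Ideal.pow_mem_pow (sub_one_mem_of_natCast_mem ζ hζ.pow_eq_one 𝔔 h𝔔) _)

/-- The absolute ramification index of a prime over `ℓ` in a number field containing the `ℓ`-th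
roots of unity is at least `ℓ - 1`. -/
theorem le_ramificationIdx_int {ζ : 𝓞 Ω} (hζ : IsPrimitiveRoot ζ ℓ)
    (𝔔 : Ideal (𝓞 Ω)) [𝔔.IsPrime] (h𝔔 : (ℓ : 𝓞 Ω) ∈ 𝔔) :
    ℓ - 1 ≤ 𝔔.ramificationIdx ℤ := by
  have hlies : 𝔔.LiesOver (Ideal.span {(ℓ : ℤ)}) := by
    constructor
    have hmax : (Ideal.span {(ℓ : ℤ)}).IsMaximal :=
      (Ideal.span_singleton_prime (by exact_mod_cast hℓ.out.ne_zero)).mpr
        (Nat.prime_iff_prime_int.mp hℓ.out) |>.isMaximal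
        (by simpa using hℓ.out.ne_zero)
    have hle : Ideal.span {(ℓ : ℤ)} ≤ 𝔔.under ℤ := by
      rw [Ideal.span_singleton_le_iff_mem, Ideal.mem_comap]
      simpa using h𝔔
    have hne : 𝔔.under ℤ ≠ ⊤ := (Ideal.IsPrime.under ℤ 𝔔).ne_top
    exact (hmax.eq_of_le hne hle)
  have hmap : (Ideal.span {(ℓ : ℤ)}).map (algebraMap ℤ (𝓞 Ω)) = Ideal.span {(ℓ : 𝓞 Ω)} := by
    rw [Ideal.map_span, Set.image_singleton]
    simp
  have hne : (Ideal.span {(ℓ : ℤ)}).map (algebraMap ℤ (𝓞 Ω)) ≠ ⊥ := by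
    rw [hmap, Ne, Ideal.span_singleton_eq_bot]
    exact_mod_cast hℓ.out.ne_zero
  rw [Ideal.IsDedekindDomain.ramificationIdx_eq_multiplicity (Ideal.span {(ℓ : ℤ)}) 𝔔 hne]
  have h𝔔0 : 𝔔 ≠ ⊥ := by
    rintro rfl
    have : (ℓ : 𝓞 Ω) = 0 := by simpa using h𝔔
    exact hℓ.out.ne_zero (by exact_mod_cast this)
  have hfin : FiniteMultiplicity 𝔔 ((Ideal.span {(ℓ : ℤ)}).map (algebraMap ℤ (𝓞 Ω))) :=
    FiniteMultiplicity.of_prime_left (Ideal.prime_of_isPrime h𝔔0 inferInstance) hne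
  apply hfin.le_multiplicity_of_pow_dvd
  rw [Ideal.dvd_iff_le, hmap, Ideal.span_singleton_le_iff_mem]
  exact natCast_mem_pow_of_isPrimitiveRoot hζ 𝔔 h𝔔

end EllAdic

section Inertia

variable {K Ω : Type*} [Field K] [NumberField K] [Field Ω] [NumberField Ω] [Algebra K Ω]
  [IsGalois K Ω] {ℓ : ℕ} [hℓ : Fact ℓ.Prime]

/-- If `ℓ` is unramified in `K` and `Ω ⊇ K` contains the `ℓ`-th roots of unity, then the inertia
group in `Gal(Ω/K)` of every prime of `Ω` over `ℓ` has at least `ℓ - 1` elements. -/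
theorem le_card_inertia {ζ : 𝓞 Ω} (hζ : IsPrimitiveRoot ζ ℓ)
    (hK : ∀ 𝔩 : Ideal (𝓞 K), 𝔩.IsPrime → (ℓ : 𝓞 K) ∈ 𝔩 → 𝔩.ramificationIdx ℤ = 1)
    (𝔔 : Ideal (𝓞 Ω)) [𝔔.IsPrime] (h𝔔 : (ℓ : 𝓞 Ω) ∈ 𝔔) :
    ℓ - 1 ≤ Nat.card (Ideal.inertia Gal(Ω/K) 𝔔) := by
  have h𝔔0 : 𝔔 ≠ ⊥ := by
    rintro rfl
    have : (ℓ : 𝓞 Ω) = 0 := by simpa using h𝔔
    exact hℓ.out.ne_zero (by exact_mod_cast this)
  rw [helper90.card_inertia_eq_ramificationIdx (K := K) 𝔔 h𝔔0]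
  have h1 := le_ramificationIdx_int hζ 𝔔 h𝔔
  have htower := Ideal.ramificationIdx_tower (R := ℤ) (𝔔.under (𝓞 K)) 𝔔
  have hmem : (ℓ : 𝓞 K) ∈ 𝔔.under (𝓞 K) := by
    rw [Ideal.mem_comap]
    simpa using h𝔔
  rw [hK _ inferInstance hmem, one_mul] at htower
  rw [← htower]
  exact h1

end Inertia

section Tower

variable {K L Ω : Type*} [Field K] [Field L] [Field Ω] [Algebra K L] [Algebra L Ω] [Algebra K Ω]
  [IsScalarTower K L Ω] {ℓ : ℕ} [NeZero ℓ]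

/-- Two `K`-automorphisms of `Ω = L(ζ)` agreeing on `L` and on `ζ` are equal. -/
theorem algEquiv_ext_of_cyclotomic [IsCyclotomicExtension {ℓ} L Ω] {ζ : Ω}
    (hζ : IsPrimitiveRoot ζ ℓ) {σ τ : Ω ≃ₐ[K] Ω}
    (h1 : ∀ x : L, σ (algebraMap L Ω x) = τ (algebraMap L Ω x)) (h2 : σ ζ = τ ζ) : σ = τ := by
  have htop : Algebra.adjoin L {ζ} = ⊤ :=
    IsCyclotomicExtension.adjoin_primitive_root_eq_top hζ
  ext x
  have hx : x ∈ Algebra.adjoin L {ζ} := by rw [htop]; trivial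
  induction hx using Algebra.adjoin_induction with
  | mem y hy =>
    rw [Set.mem_singleton_iff] at hy
    rw [hy]; exact h2
  | algebraMap r => exact h1 r
  | add x y _ _ hx hy => rw [map_add, map_add, hx, hy]
  | mul x y _ _ hx hy => rw [map_mul, map_mul, hx, hy]

theorem exists_isSplittingField_ne_zero [FiniteDimensional K L] [Normal K L] :
    ∃ f : K[X], f ≠ 0 ∧ IsSplittingField K L f := by
  obtain ⟨f, hf⟩ := Normal.exists_isSplittingField K L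
  by_cases h0 : f = 0
  · subst h0
    refine ⟨1, one_ne_zero, ⟨?_, ?_⟩⟩
    · simp
    · have h := hf.adjoin_rootSet
      simpa using h
  · exact ⟨f, h0, hf⟩

/-- `Ω = L(ζ_ℓ)` is Galois over `K` when `L/K` is. -/
theorem isGalois_of_cyclotomic_tower [CharZero K] [FiniteDimensional K L] [IsGalois K L]
    [IsCyclotomicExtension {ℓ} L Ω] : IsGalois K Ω := by
  obtain ⟨f, hf0, hf⟩ := exists_isSplittingField_ne_zero (K := K) (L := L)
  have hg0 : (X ^ ℓ - 1 : K[X]) ≠ 0 := by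
    simpa using X_pow_sub_C_ne_zero (NeZero.pos ℓ) (1 : K)
  have h2 : IsSplittingField L Ω ((X ^ ℓ - 1 : K[X]).map (algebraMap K L)) := by
    have := IsCyclotomicExtension.isSplittingField_X_pow_sub_one ℓ L Ω
    simpa using this
  have h3 : IsSplittingField K Ω (f * (X ^ ℓ - 1)) := IsSplittingField.mul (K := L) Ω f _ hf0 hg0
  have hn : Normal K Ω := Normal.of_isSplittingField (f * (X ^ ℓ - 1))
  have : Algebra.IsAlgebraic K Ω := hn.toIsAlgebraic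
  exact { }

/-- The restriction to `L` of a `K`-automorphism of `Ω`. -/
theorem restrictNormalHom_apply_commutes [Normal K L] (σ : Ω ≃ₐ[K] Ω) (x : L) :
    algebraMap L Ω (AlgEquiv.restrictNormalHom L σ x) = σ (algebraMap L Ω x) :=
  AlgEquiv.restrictNormal_commutes σ L x

/-- `σ = 1` as soon as `σ` is trivial on `L` and has trivial cyclotomic character. -/
theorem eq_one_of_restrict_eq_one_of_autToPow_eq_one [Normal K L]
    [IsCyclotomicExtension {ℓ} L Ω] {ζ : Ω} (hζ : IsPrimitiveRoot ζ ℓ) (σ : Ω ≃ₐ[K] Ω)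
    (h1 : AlgEquiv.restrictNormalHom L σ = 1) (h2 : hζ.autToPow K σ = 1) : σ = 1 := by
  apply algEquiv_ext_of_cyclotomic (L := L) hζ
  · intro x
    rw [← restrictNormalHom_apply_commutes, h1]
    rfl
  · rw [← hζ.autToPow_spec K σ, h2]
    rw [Units.val_one, ZMod.val_one_eq_one_mod]
    conv_lhs => rw [hζ.eq_orderOf, pow_mod_orderOf, pow_one]
    rfl

open scoped IsMulCommutative in
/-- `Ω = L(ζ_ℓ)` is abelian over `K` when `L/K` is. -/
theorem isAbelianGalois_of_cyclotomic_tower [CharZero K] [FiniteDimensional K L]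
    [IsAbelianGalois K L] [IsCyclotomicExtension {ℓ} L Ω] : IsAbelianGalois K Ω := by
  have hgal : IsGalois K Ω := isGalois_of_cyclotomic_tower (L := L) (ℓ := ℓ)
  obtain ⟨ζ, hζ⟩ := IsCyclotomicExtension.exists_isPrimitiveRoot L Ω (Set.mem_singleton ℓ)
    (NeZero.ne ℓ)
  refine { is_comm := ⟨fun σ τ => ?_⟩ }
  apply algEquiv_ext_of_cyclotomic (L := L) hζ
  · intro x
    rw [AlgEquiv.mul_apply, AlgEquiv.mul_apply, ← restrictNormalHom_apply_commutes,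
      ← restrictNormalHom_apply_commutes, ← restrictNormalHom_apply_commutes,
      ← restrictNormalHom_apply_commutes, ← AlgEquiv.mul_apply, ← AlgEquiv.mul_apply,
      mul_comm]
  · rw [AlgEquiv.mul_apply, AlgEquiv.mul_apply, ← hζ.autToPow_spec K σ, ← hζ.autToPow_spec K τ,
      map_pow, map_pow, ← hζ.autToPow_spec K σ, ← hζ.autToPow_spec K τ, ← pow_mul, ← pow_mul,
      mul_comm]

end Tower

section InertiaEll

variable {K L Ω : Type*} [Field K] [NumberField K] [Field L] [NumberField L] [Field Ω]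
  [NumberField Ω] [Algebra K L] [Algebra L Ω] [Algebra K Ω] [IsScalarTower K L Ω]
  [IsGalois K L] [IsGalois K Ω] {ℓ : ℕ} [hℓ : Fact ℓ.Prime]

theorem ne_bot_of_natCast_mem (𝔔 : Ideal (𝓞 Ω)) (h𝔔 : (ℓ : 𝓞 Ω) ∈ 𝔔) : 𝔔 ≠ ⊥ := by
  rintro rfl
  have : (ℓ : 𝓞 Ω) = 0 := by simpa using h𝔔
  exact hℓ.out.ne_zero (by exact_mod_cast this)

/-- The Galois action on integers commutes with restriction to a normal subextension. -/
theorem algebraMap_restrictNormalHom_smul (σ : Gal(Ω/K)) (y : 𝓞 L) :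
    algebraMap (𝓞 L) (𝓞 Ω) (AlgEquiv.restrictNormalHom L σ • y) =
      σ • algebraMap (𝓞 L) (𝓞 Ω) y := by
  apply NumberField.RingOfIntegers.ext
  exact restrictNormalHom_apply_commutes σ (y : L)

/-- If `L/K` is unramified everywhere, every inertia group of `Ω/K` dies in `Gal(L/K)`. -/
theorem restrict_eq_one_of_mem_inertia (hunr : IsUnramifiedEverywhere K L)
    (𝔔 : Ideal (𝓞 Ω)) [𝔔.IsPrime] (h𝔔0 : 𝔔 ≠ ⊥) (σ : Gal(Ω/K))
    (hσ : ∀ x : 𝓞 Ω, σ • x - x ∈ 𝔔) : AlgEquiv.restrictNormalHom L σ = 1 := by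
  apply hunr (𝔔.under (𝓞 L)) inferInstance (Ideal.under_ne_bot (𝓞 L) h𝔔0)
  intro y
  rw [Ideal.mem_comap, map_sub, algebraMap_restrictNormalHom_smul]
  exact hσ _

variable [IsCyclotomicExtension {ℓ} L Ω]

/-- **Inertia at `ℓ` is as large as possible**: if `ℓ` is unramified in `K` and `L/K` is
unramified everywhere, then for every prime `𝔔` of `Ω = L(ζ_ℓ)` over `ℓ` and every
`u ∈ (ℤ/ℓ)ˣ` there is `σ` in the inertia group of `𝔔` in `Gal(Ω/K)`, trivial on `L`,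
with `σ ζ = ζ ^ u`. -/
theorem exists_mem_inertia_autToPow_eq (hunr : IsUnramifiedEverywhere K L)
    (hK : ∀ 𝔩 : Ideal (𝓞 K), 𝔩.IsPrime → (ℓ : 𝓞 K) ∈ 𝔩 → 𝔩.ramificationIdx ℤ = 1)
    {ζ : Ω} (hζ : IsPrimitiveRoot ζ ℓ) (𝔔 : Ideal (𝓞 Ω)) [𝔔.IsPrime] (h𝔔 : (ℓ : 𝓞 Ω) ∈ 𝔔)
    (u : (ZMod ℓ)ˣ) :
    ∃ σ : Gal(Ω/K), (∀ x : 𝓞 Ω, σ • x - x ∈ 𝔔) ∧ AlgEquiv.restrictNormalHom L σ = 1 ∧
      hζ.autToPow K σ = u := by
  have h𝔔0 := ne_bot_of_natCast_mem 𝔔 h𝔔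
  let I : Subgroup Gal(Ω/K) := Ideal.inertia Gal(Ω/K) 𝔔
  let f : I → (ZMod ℓ)ˣ := fun σ => hζ.autToPow K σ.1
  have hres : ∀ σ : I, AlgEquiv.restrictNormalHom L σ.1 = 1 := fun σ =>
    restrict_eq_one_of_mem_inertia hunr 𝔔 h𝔔0 σ.1 (fun x => σ.2 x)
  have hinj : Function.Injective f := by
    intro σ τ hστ
    have h1 : σ.1⁻¹ * τ.1 = 1 := by
      apply eq_one_of_restrict_eq_one_of_autToPow_eq_one (L := L) hζ
      · rw [map_mul, map_inv, hres σ, hres τ, inv_one, one_mul]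
      · rw [map_mul, map_inv]
        change (f σ)⁻¹ * f τ = 1
        rw [hστ, inv_mul_cancel]
    apply Subtype.ext
    exact inv_mul_eq_one.mp h1
  have hcard : Nat.card (ZMod ℓ)ˣ ≤ Nat.card I := by
    rw [Nat.card_eq_fintype_card, ZMod.card_units]
    have hζ' : IsPrimitiveRoot hζ.toInteger ℓ := hζ.toInteger_isPrimitiveRoot
    exact le_card_inertia hζ' hK 𝔔 h𝔔
  obtain ⟨σ, hσ⟩ := (hinj.bijective_of_nat_card_le hcard).surjective u
  exact ⟨σ.1, fun x => σ.2 x, hres σ, hσ⟩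

end InertiaEll

end Fermat.Agent.S14.helper44
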