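import Mathlib

/-!
# Herbrand-quotient algebra for an endomorphism of prime order (helper44, S14 (2a-iv))

Pure algebra: `q`-machinery for additive group homomorphisms (kernel/cokernel cardinalities
are multiplicative under composition), and the Herbrand quotient of a finitely generated abelian
group with an endomorphism `σ` with `σ ^ p = 1`.
-/

namespace Fermat.Agent.S14.helper44

open AddSubgroup Module Polynomial

section QMachinery

variable {A B C : Type*} [AddCommGroup A] [AddCommGroup B] [AddCommGroup C]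

/-- The kernel of a composite: `|ker (g ∘ f)| = |ker f| * |im f ∩ ker g|`. -/
theorem card_ker_comp (f : A →+ B) (g : B →+ C) :
    Nat.card (g.comp f).ker = Nat.card f.ker * Nat.card ↥(f.range ⊓ g.ker) := by
  have h1 : (g.comp f).ker = g.ker.comap f := rfl
  have h2 : f.ker ≤ g.ker.comap f := fun x hx => by
    simp only [AddSubgroup.mem_comap, AddMonoidHom.mem_ker] at hx ⊢
    rw [hx, map_zero]
  have h3 := AddSubgroup.relIndex_mul_relIndex (⊥ : AddSubgroup A) f.ker (g.ker.comap f)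
    bot_le h2
  rw [AddSubgroup.relIndex_bot_left, AddSubgroup.relIndex_bot_left] at h3
  have h4 : f.ker.relIndex (g.ker.comap f) = Nat.card ↥(f.range ⊓ g.ker) := by
    have : f.ker = (⊥ : AddSubgroup B).comap f := rfl
    rw [this, AddSubgroup.relIndex_comap, AddSubgroup.relIndex_bot_left,
      AddSubgroup.map_comap_eq]
  rw [h1, ← h3, h4]

/-- The range of a composite: `[C : im (g ∘ f)] = [B : im f + ker g] * [C : im g]`. -/
theorem index_range_comp (f : A →+ B) (g : B →+ C) :
    (g.comp f).range.index = (f.range ⊔ g.ker).index * g.range.index := by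
  rw [← AddMonoidHom.map_range, AddSubgroup.index_map]

theorem index_range_eq_mul (f : A →+ B) (g : B →+ C) :
    f.range.index = f.range.relIndex g.ker * (f.range ⊔ g.ker).index := by
  rw [← AddSubgroup.relIndex_sup_left, AddSubgroup.relIndex_mul_index le_sup_left]

theorem card_ker_eq_mul (f : A →+ B) (g : B →+ C) :
    Nat.card g.ker = Nat.card ↥(f.range ⊓ g.ker) * f.range.relIndex g.ker := by
  have h3 := AddSubgroup.relIndex_mul_relIndex (⊥ : AddSubgroup B) (f.range ⊓ g.ker) g.ker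
    bot_le inf_le_right
  rw [AddSubgroup.relIndex_bot_left, AddSubgroup.relIndex_bot_left,
    AddSubgroup.inf_relIndex_right] at h3
  exact h3.symm

/-- **Multiplicativity of `q`**: the kernel–cokernel identity for a composite of homomorphisms of
abelian groups, valid without any finiteness assumption (infinite cardinalities count as `0`). -/
theorem card_ker_comp_mul_index (f : A →+ B) (g : B →+ C) :
    Nat.card (g.comp f).ker * f.range.index * g.range.index =
      Nat.card f.ker * Nat.card g.ker * (g.comp f).range.index := by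
  rw [card_ker_comp, index_range_comp, index_range_eq_mul f g, card_ker_eq_mul f g]
  ring

end QMachinery

section Nsmul

variable (A : Type*) [AddCommGroup A] [Module.Finite ℤ A]

theorem finite_torsion_int : Finite ↥(Submodule.torsion ℤ A) := by
  have h1 : AddGroup.FG ↥(Submodule.torsion ℤ A) := by
    rw [← Module.Finite.iff_addGroup_fg]
    infer_instance
  refine AddCommGroup.finite_of_fg_isAddTorsion _ ?_
  intro x
  obtain ⟨a, ha⟩ := (Submodule.mem_torsion_iff (x : A)).mp x.2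
  have ha0 : (a : ℤ) ≠ 0 := nonZeroDivisors.coe_ne_zero a
  rw [isOfFinAddOrder_iff_zsmul_eq_zero]
  refine ⟨a, ha0, ?_⟩
  apply Subtype.ext
  have : ((a : ℤ) • (x : A)) = 0 := ha
  simpa using this

/-- For a finitely generated abelian group `A` and `n ≠ 0`:
`[A : nA] = n ^ rank A * |A[n]|`. -/
theorem index_range_nsmul_eq (n : ℕ) (hn : n ≠ 0) :
    (nsmulAddMonoidHom (α := A) n).range.index
      = n ^ Module.finrank ℤ A * Nat.card (nsmulAddMonoidHom (α := A) n).ker := by
  classical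
  have := finite_torsion_int A
  set tA := Submodule.torsion ℤ A with htA
  let F := A ⧸ tA
  let e : A →+ F := (tA.mkQ).toAddMonoidHom
  have he_surj : Function.Surjective e := tA.mkQ_surjective
  have he_range : e.range.index = 1 := by
    rw [AddMonoidHom.range_eq_top.mpr he_surj, AddSubgroup.index_top]
  have he_ker : Nat.card e.ker = Nat.card ↥tA := by
    have : e.ker = tA.toAddSubgroup := by
      ext x
      simp only [e, AddMonoidHom.mem_ker, LinearMap.toAddMonoidHom_coe, Submodule.mkQ_apply,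
        Submodule.mem_toAddSubgroup]
      exact Submodule.Quotient.mk_eq_zero tA
    rw [this]
    rfl
  have hcard_pos : Nat.card ↥tA ≠ 0 := Nat.card_pos.ne'
  let pA : A →+ A := nsmulAddMonoidHom n
  let pF : F →+ F := nsmulAddMonoidHom n
  have hcomm : e.comp pA = pF.comp e := by
    ext x
    simp [pA, pF]
  have hpF_inj : Function.Injective pF :=
    AddSubgroup.nsmulAddMonoidHom_injective_of_isTorsionFree hn
  have hpF_ker : Nat.card pF.ker = 1 := by
    rw [(AddMonoidHom.ker_eq_bot_iff pF).mpr hpF_inj]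
    simp
  have hpF_range : pF.range.index = n ^ Module.finrank ℤ A := by
    rw [AddSubgroup.index_range_nsmul F n, finrank_quotient_eq_of_le_torsion le_rfl]
  have h1 := card_ker_comp_mul_index pA e
  have h2 := card_ker_comp_mul_index e pF
  rw [hcomm] at h1
  rw [he_range, mul_one] at h1
  rw [he_range, mul_one, hpF_ker, mul_one, hpF_range] at h2
  -- h1 : K(h) * I(pA) = K(pA) * K(e) * I(h)
  -- h2 : K(h) * n^r = K(e) * I(h)
  have hKh : Nat.card (pF.comp e).ker = Nat.card e.ker := by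
    have : (pF.comp e).ker = e.ker := by
      ext x
      simp only [AddMonoidHom.mem_ker, AddMonoidHom.comp_apply]
      constructor
      · intro h
        exact hpF_inj (by rw [h, map_zero])
      · intro h
        rw [h, map_zero]
    rw [this]
  rw [hKh] at h1 h2
  rw [he_ker] at h1 h2
  have h3 : Nat.card ↥tA * pA.range.index
      = Nat.card ↥tA * (n ^ Module.finrank ℤ A * Nat.card pA.ker) := by
    rw [h1]
    calc Nat.card pA.ker * Nat.card ↥tA * (pF.comp e).range.index
        = Nat.card pA.ker * (Nat.card ↥tA * (pF.comp e).range.index) := by ring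
      _ = Nat.card pA.ker * (Nat.card ↥tA * n ^ Module.finrank ℤ A) := by rw [← h2]
      _ = _ := by ring
  exact Nat.eq_of_mul_eq_mul_left (Nat.pos_of_ne_zero hcard_pos) h3

end Nsmul


section PolyIdentities

variable (p : ℕ) [hp : Fact p.Prime]

/-- the polynomial `Φ_p = 1 + X + ... + X^(p-1)` -/
noncomputable def phiPoly : ℤ[X] := ∑ i ∈ Finset.range p, (X : ℤ[X]) ^ i

theorem phiPoly_dvd_of_aeval_eq_zero {ζ : ℂ} (hζ : IsPrimitiveRoot ζ p) (P : ℤ[X])
    (h : aeval ζ P = 0) : phiPoly p ∣ P := by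
  have hpos : 0 < p := hp.out.pos
  have h1 : phiPoly p = cyclotomic p ℤ := (cyclotomic_prime ℤ p).symm
  rw [h1, cyclotomic_eq_minpoly hζ hpos]
  exact (minpoly.isIntegrallyClosed_dvd_iff (hζ.isIntegral hpos) P).mp h

theorem exists_primitiveRoot_complex : ∃ ζ : ℂ, IsPrimitiveRoot ζ p :=
  ⟨_, Complex.isPrimitiveRoot_exp p hp.out.ne_zero⟩

/-- `U_i = 1 + X + ... + X^(i-1)` is a unit modulo `Φ_p` for `0 < i < p`. -/
theorem exists_geomSum_mul_eq (i : ℕ) (hi0 : 0 < i) (hip : i < p) :
    ∃ V G : ℤ[X], (∑ k ∈ Finset.range i, (X : ℤ[X]) ^ k) * V = 1 + phiPoly p * G := by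
  obtain ⟨ζ, hζ⟩ := exists_primitiveRoot_complex p
  have hcop : Nat.Coprime i p :=
    Nat.coprime_comm.mp ((Nat.Prime.coprime_iff_not_dvd hp.out).mpr
      (Nat.not_dvd_of_pos_of_lt hi0 hip))
  obtain ⟨j, -, hj⟩ := Nat.exists_mul_mod_eq_one_of_coprime hcop hp.out.one_lt
  set U : ℤ[X] := ∑ k ∈ Finset.range i, (X : ℤ[X]) ^ k with hU
  set V : ℤ[X] := ∑ k ∈ Finset.range j, ((X : ℤ[X]) ^ i) ^ k with hV
  have hζ1 : ζ ≠ 1 := hζ.ne_one hp.out.one_lt
  have hζij : ζ ^ (i * j) = ζ := by
    have h1 : i * j = p * (i * j / p) + 1 := by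
      have := Nat.div_add_mod (i * j) p
      omega
    rw [h1, pow_succ, pow_mul, hζ.pow_eq_one, one_pow, one_mul]
  have hUζ : aeval ζ U * (ζ - 1) = ζ ^ i - 1 := by
    simp only [hU, map_sum, map_pow, aeval_X]
    exact geom_sum_mul ζ i
  have hVζ : aeval ζ V * (ζ ^ i - 1) = ζ - 1 := by
    simp only [hV, map_sum, map_pow, aeval_X]
    rw [geom_sum_mul, ← pow_mul, hζij]
  have h0 : aeval ζ (U * V - 1) = 0 := by
    have h2 : (aeval ζ U * aeval ζ V - 1) * (ζ - 1) = 0 := by
      calc (aeval ζ U * aeval ζ V - 1) * (ζ - 1)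
          = aeval ζ V * (aeval ζ U * (ζ - 1)) - (ζ - 1) := by ring
        _ = 0 := by rw [hUζ, hVζ, sub_self]
    rcases mul_eq_zero.mp h2 with h | h
    · simpa using h
    · exact absurd (sub_eq_zero.mp h) hζ1
  obtain ⟨G, hG⟩ := phiPoly_dvd_of_aeval_eq_zero p hζ _ h0
  exact ⟨V, G, by rw [← hG]; ring⟩

/-- `∏_{i=1}^{p-1} (1 - X^i) ≡ p` modulo `Φ_p`. -/
theorem exists_prod_one_sub_eq :
    ∃ R : ℤ[X], ∏ i ∈ Finset.Ico 1 p, (1 - (X : ℤ[X]) ^ i) = C (p : ℤ) + phiPoly p * R := by
  obtain ⟨ζ, hζ⟩ := exists_primitiveRoot_complex p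
  have hpos : 0 < p := hp.out.pos
  have h1 : ∏ i ∈ Finset.Ico 1 p, (1 - ζ ^ i) = ∏ μ ∈ primitiveRoots p ℂ, (1 - μ) := by
    refine Finset.prod_bij (fun i _ => ζ ^ i) ?_ ?_ ?_ ?_
    · intro i hi
      rw [Finset.mem_Ico] at hi
      rw [mem_primitiveRoots hpos]
      exact hζ.pow_of_coprime i (Nat.coprime_comm.mp
        ((Nat.Prime.coprime_iff_not_dvd hp.out).mpr (Nat.not_dvd_of_pos_of_lt hi.1 hi.2)))
    · intro i hi j hj hij
      rw [Finset.mem_Ico] at hi hj
      exact hζ.pow_inj hi.2 hj.2 hij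
    · intro μ hμ
      rw [mem_primitiveRoots hpos] at hμ
      obtain ⟨i, hip, hi⟩ := hζ.eq_pow_of_pow_eq_one hμ.pow_eq_one
      refine ⟨i, ?_, hi⟩
      rw [Finset.mem_Ico]
      refine ⟨?_, hip⟩
      rcases Nat.eq_zero_or_pos i with h0 | h0
      · exfalso
        rw [h0, pow_zero] at hi
        exact hμ.ne_one hp.out.one_lt hi.symm
      · exact h0
    · intro i _
      rfl
  have h2 : ∏ μ ∈ primitiveRoots p ℂ, (1 - μ) = (p : ℂ) := by
    have := congrArg (eval 1) (cyclotomic_eq_prod_X_sub_primitiveRoots (K := ℂ) hζ)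
    rw [eval_one_cyclotomic_prime, eval_prod] at this
    simpa using this.symm
  have h0 : aeval ζ (∏ i ∈ Finset.Ico 1 p, (1 - (X : ℤ[X]) ^ i) - C (p : ℤ)) = 0 := by
    simp only [map_sub, map_prod, map_one, map_pow, aeval_X, aeval_C]
    rw [h1, h2]
    simp
  obtain ⟨R, hR⟩ := phiPoly_dvd_of_aeval_eq_zero p hζ _ h0
  exact ⟨R, by rw [← hR]; ring⟩

end PolyIdentities


section EndoY

variable {Y : Type*} [AddCommGroup Y]

/-- cardinality of the kernel of an endomorphism -/
noncomputable def kerCard (f : AddMonoid.End Y) : ℕ := Nat.card (AddMonoidHom.ker f)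

/-- index of the range of an endomorphism -/
noncomputable def rangeIndex (f : AddMonoid.End Y) : ℕ := (AddMonoidHom.range f).index

theorem kerCard_mul (g f : AddMonoid.End Y) :
    kerCard (g * f) * rangeIndex f * rangeIndex g = kerCard f * kerCard g * rangeIndex (g * f) :=
  card_ker_comp_mul_index (A := Y) (B := Y) (C := Y) f g

theorem rangeIndex_mul_of_right_inv (f u v : AddMonoid.End Y) (huv : u * v = 1) :
    rangeIndex (f * u) = rangeIndex f := by
  unfold rangeIndex
  congr 1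
  ext y
  constructor
  · rintro ⟨x, rfl⟩
    exact ⟨u x, rfl⟩
  · rintro ⟨x, rfl⟩
    refine ⟨v x, ?_⟩
    change f ((u * v) x) = f x
    rw [huv]
    rfl

theorem kerCard_mul_of_inv (f u v : AddMonoid.End Y) (huv : u * v = 1) (hvu : v * u = 1) :
    kerCard (f * u) = kerCard f := by
  unfold kerCard
  refine Nat.card_congr ⟨fun x => ⟨u x.1, ?_⟩, fun y => ⟨v y.1, ?_⟩, ?_, ?_⟩
  · have h : f (u x.1) = 0 := x.2
    exact h
  · have h : f y.1 = 0 := y.2
    change f ((u * v) y.1) = 0
    rw [huv]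
    exact h
  · intro x
    apply Subtype.ext
    change (v * u) x.1 = x.1
    rw [hvu]
    rfl
  · intro y
    apply Subtype.ext
    change (u * v) y.1 = y.1
    rw [huv]
    rfl

variable (s : AddMonoid.End Y) (p : ℕ) [hp : Fact p.Prime]

omit hp in
theorem aeval_phiPoly : aeval s (phiPoly p) = ∑ i ∈ Finset.range p, s ^ i := by
  simp [phiPoly]

variable {s p}

theorem kerCard_one_sub_pow (hs : ∑ i ∈ Finset.range p, s ^ i = 0) (i : ℕ) (hi0 : 0 < i)
    (hip : i < p) : kerCard (1 - s ^ i) = kerCard (1 - s) ∧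
      rangeIndex (1 - s ^ i) = rangeIndex (1 - s) := by
  obtain ⟨V, G, hVG⟩ := exists_geomSum_mul_eq p i hi0 hip
  set u : AddMonoid.End Y := ∑ k ∈ Finset.range i, s ^ k with hu
  set v : AddMonoid.End Y := aeval s V with hv
  have hu' : u = aeval s (∑ k ∈ Finset.range i, (X : ℤ[X]) ^ k) := by simp [hu]
  have huv : u * v = 1 := by
    rw [hu', hv, ← map_mul, hVG, map_add, map_mul, aeval_phiPoly, hs]
    simp
  have hvu : v * u = 1 := by
    rw [hu', hv, ← map_mul, mul_comm, hVG, map_add, map_mul, aeval_phiPoly, hs]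
    simp
  have hfac : 1 - s ^ i = (1 - s) * u := by
    rw [hu, ← neg_sub s 1, neg_mul, mul_geom_sum, neg_sub]
  rw [hfac]
  exact ⟨kerCard_mul_of_inv _ u v huv hvu, rangeIndex_mul_of_right_inv _ u v huv⟩

theorem kerCard_one : kerCard (1 : AddMonoid.End Y) = 1 := by
  unfold kerCard
  have : AddMonoidHom.ker (1 : AddMonoid.End Y) = ⊥ := by
    ext x
    constructor
    · intro h
      have h' : x = 0 := h
      simp [h']
    · intro h
      have h' : x = 0 := by simpa using h
      subst h'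
      exact (AddMonoidHom.ker (1 : AddMonoid.End Y)).zero_mem
  rw [this]
  simp

theorem rangeIndex_one : rangeIndex (1 : AddMonoid.End Y) = 1 := by
  unfold rangeIndex
  have : AddMonoidHom.range (1 : AddMonoid.End Y) = ⊤ := by
    ext x
    constructor
    · intro _
      trivial
    · intro _
      exact ⟨x, rfl⟩
  rw [this]
  simp

theorem rangeIndex_ne_zero_of_mul {g f : AddMonoid.End Y} (h : rangeIndex (g * f) ≠ 0) :
    rangeIndex g ≠ 0 := by
  unfold rangeIndex at h ⊢
  have hle : AddMonoidHom.range (g * f) ≤ AddMonoidHom.range g := by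
    rintro y ⟨x, rfl⟩
    exact ⟨f x, rfl⟩
  intro h0
  have := AddSubgroup.index_dvd_of_le hle
  rw [h0, zero_dvd_iff] at this
  exact h this

/-- On a group `Y` with an endomorphism `s` satisfying `1 + s + ... + s^(p-1) = 0`:
`|Y[p]| * [Y : (1-s)Y]^(p-1) = |ker (1-s)|^(p-1) * [Y : pY]`. -/
theorem kerCard_natCast_mul_rangeIndex_pow (hs : ∑ i ∈ Finset.range p, s ^ i = 0)
    (hI : rangeIndex ((p : ℕ) : AddMonoid.End Y) ≠ 0) :
    kerCard ((p : ℕ) : AddMonoid.End Y) * rangeIndex (1 - s) ^ (p - 1) =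
      kerCard (1 - s) ^ (p - 1) * rangeIndex ((p : ℕ) : AddMonoid.End Y) := by
  obtain ⟨R, hR⟩ := exists_prod_one_sub_eq p
  set P : ℕ → ℤ[X] := fun k => ∏ i ∈ Finset.Ico 1 (k + 1), (1 - (X : ℤ[X]) ^ i) with hP
  have hp1 : p - 1 + 1 = p := Nat.sub_add_cancel hp.out.one_le
  have hPtop : aeval s (P (p - 1)) = ((p : ℕ) : AddMonoid.End Y) := by
    simp only [hP, hp1]
    rw [hR, map_add, map_mul, aeval_phiPoly, hs]
    simp
  have hne : ∀ k, k + 1 ≤ p → rangeIndex (aeval s (P k)) ≠ 0 := by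
    intro k hk
    have hsplit : P (p - 1) = P k * ∏ i ∈ Finset.Ico (k + 1) p, (1 - (X : ℤ[X]) ^ i) := by
      simp only [hP, hp1]
      rw [Finset.prod_Ico_consecutive _ (by omega) hk]
    have : rangeIndex (aeval s (P k) *
        aeval s (∏ i ∈ Finset.Ico (k + 1) p, (1 - (X : ℤ[X]) ^ i))) ≠ 0 := by
      rw [← map_mul, ← hsplit, hPtop]
      exact hI
    exact rangeIndex_ne_zero_of_mul this
  have key : ∀ k, k + 1 ≤ p →
      kerCard (aeval s (P k)) * rangeIndex (1 - s) ^ k =
        kerCard (1 - s) ^ k * rangeIndex (aeval s (P k)) := by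
    intro k
    induction k with
    | zero =>
      intro _
      have h1 : aeval s (P 0) = (1 : AddMonoid.End Y) := by simp [hP]
      rw [h1, kerCard_one, rangeIndex_one]
      simp
    | succ k ih =>
      intro hk
      have ih' := ih (by omega)
      have hstep : P (k + 1) = P k * (1 - (X : ℤ[X]) ^ (k + 1)) := by
        simp only [hP]
        rw [Finset.prod_Ico_succ_top (by omega)]
      have hf : aeval s (1 - (X : ℤ[X]) ^ (k + 1)) = 1 - s ^ (k + 1) := by simp
      obtain ⟨hK, hI'⟩ := kerCard_one_sub_pow hs (k + 1) (by omega) (by omega)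
      have hq := kerCard_mul (aeval s (P k)) (1 - s ^ (k + 1))
      rw [hK, hI'] at hq
      rw [hstep, map_mul, hf]
      have hnek := hne k (by omega)
      apply Nat.eq_of_mul_eq_mul_right (Nat.pos_of_ne_zero hnek)
      calc kerCard (aeval s (P k) * (1 - s ^ (k + 1))) * rangeIndex (1 - s) ^ (k + 1) *
            rangeIndex (aeval s (P k))
          = (kerCard (aeval s (P k) * (1 - s ^ (k + 1))) * rangeIndex (1 - s) *
              rangeIndex (aeval s (P k))) * rangeIndex (1 - s) ^ k := by ring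
        _ = kerCard (1 - s) * kerCard (aeval s (P k)) *
              rangeIndex (aeval s (P k) * (1 - s ^ (k + 1))) * rangeIndex (1 - s) ^ k := by
            rw [hq]
        _ = kerCard (1 - s) * (kerCard (aeval s (P k)) * rangeIndex (1 - s) ^ k) *
              rangeIndex (aeval s (P k) * (1 - s ^ (k + 1))) := by ring
        _ = kerCard (1 - s) * (kerCard (1 - s) ^ k * rangeIndex (aeval s (P k))) *
              rangeIndex (aeval s (P k) * (1 - s ^ (k + 1))) := by rw [ih']
        _ = _ := by ring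
  have := key (p - 1) (by omega)
  rw [hPtop] at this
  exact this

end EndoY


section Main

variable {M : Type*} [AddCommGroup M]

theorem moduleFinite_addSubgroup [Module.Finite ℤ M] (H : AddSubgroup M) : Module.Finite ℤ ↥H := by
  have : Module.Finite ℤ ↥(AddSubgroup.toIntSubmodule H) := inferInstance
  exact this

/-- restriction of an endomorphism to an invariant subgroup -/
def restrictEnd (f : AddMonoid.End M) (H : AddSubgroup M) (hf : ∀ x ∈ H, f x ∈ H) :
    AddMonoid.End ↥H :=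
  AddMonoidHom.codRestrict ((f : M →+ M).comp H.subtype) H (fun x => hf x.1 x.2)

@[simp] theorem restrictEnd_apply (f : AddMonoid.End M) (H : AddSubgroup M)
    (hf : ∀ x ∈ H, f x ∈ H) (x : ↥H) : ((restrictEnd f H hf x : ↥H) : M) = f x := rfl

theorem kerCard_restrictEnd (f : AddMonoid.End M) (H : AddSubgroup M)
    (hf : ∀ x ∈ H, f x ∈ H) :
    kerCard (restrictEnd f H hf) = Nat.card ↥(AddMonoidHom.ker f ⊓ H) := by
  unfold kerCard
  refine Nat.card_congr ⟨fun x => ⟨x.1.1, ?_, x.1.2⟩, fun y => ⟨⟨y.1, y.2.2⟩, ?_⟩, ?_, ?_⟩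
  · have h : restrictEnd f H hf x.1 = 0 := x.2
    have h' : f x.1.1 = 0 := by
      have := congrArg Subtype.val h
      simpa using this
    exact h'
  · have h : f y.1 = 0 := y.2.1
    change restrictEnd f H hf ⟨y.1, y.2.2⟩ = 0
    apply Subtype.ext
    simpa using h
  · intro x; rfl
  · intro y; rfl

theorem rangeIndex_restrictEnd (f : AddMonoid.End M) (H : AddSubgroup M)
    (hf : ∀ x ∈ H, f x ∈ H) :
    rangeIndex (restrictEnd f H hf) = (H.map (f : M →+ M)).relIndex H := by
  unfold rangeIndex AddSubgroup.relIndex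
  congr 1
  ext y
  constructor
  · rintro ⟨x, rfl⟩
    exact ⟨x.1, x.2, rfl⟩
  · rintro ⟨x, hx, hxy⟩
    exact ⟨⟨x, hx⟩, Subtype.ext hxy⟩

theorem relIndex_map_eq (f : M →+ M) (H : AddSubgroup M) (hf : f.range ≤ H) :
    (H.map f).relIndex H = (H ⊔ f.ker).index * f.range.relIndex H := by
  have h1 : H.map f ≤ f.range := AddSubgroup.map_le_range f H
  rw [← AddSubgroup.relIndex_mul_relIndex (H.map f) f.range H h1 hf]
  congr 1
  have h2 : f.range = (⊤ : AddSubgroup M).map f := by
    rw [AddMonoidHom.range_eq_map]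
  rw [h2, AddSubgroup.relIndex_map_map]
  simp

theorem natCast_end_apply {A : Type*} [AddCommGroup A] (n : ℕ) (x : A) :
    ((n : ℕ) : AddMonoid.End A) x = n • x := AddMonoid.End.natCast_apply n x

theorem finite_ker_natCast (A : Type*) [AddCommGroup A] [Module.Finite ℤ A] (n : ℕ)
    (hn : n ≠ 0) : Finite ↥(AddMonoidHom.ker ((n : ℕ) : AddMonoid.End A)) := by
  have := finite_torsion_int A
  refine Finite.of_injective
    (fun x : ↥(AddMonoidHom.ker ((n : ℕ) : AddMonoid.End A)) =>
      (⟨x.1, ?_⟩ : ↥(Submodule.torsion ℤ A))) ?_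
  · rw [Submodule.mem_torsion_iff]
    refine ⟨⟨(n : ℤ), ?_⟩, ?_⟩
    · rw [mem_nonZeroDivisors_iff_ne_zero]
      exact_mod_cast hn
    · have h : ((n : ℕ) : AddMonoid.End A) x.1 = 0 := x.2
      rw [natCast_end_apply] at h
      change (n : ℤ) • x.1 = 0
      rw [natCast_zsmul]
      exact h
  · intro x y hxy
    apply Subtype.ext
    have := congrArg (fun z : ↥(Submodule.torsion ℤ A) => (z : A)) hxy
    exact this

theorem kerCard_natCast_ne_zero (A : Type*) [AddCommGroup A] [Module.Finite ℤ A] (n : ℕ)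
    (hn : n ≠ 0) : kerCard ((n : ℕ) : AddMonoid.End A) ≠ 0 := by
  have := finite_ker_natCast A n hn
  unfold kerCard
  exact Nat.card_pos.ne'

theorem rangeIndex_natCast (A : Type*) [AddCommGroup A] [Module.Finite ℤ A] (n : ℕ)
    (hn : n ≠ 0) :
    rangeIndex ((n : ℕ) : AddMonoid.End A) =
      n ^ Module.finrank ℤ A * kerCard ((n : ℕ) : AddMonoid.End A) := by
  have h := index_range_nsmul_eq A n hn
  have h1 : ((n : ℕ) : AddMonoid.End A) = nsmulAddMonoidHom (α := A) n := by
    ext x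
    rw [natCast_end_apply]
    rfl
  unfold rangeIndex kerCard
  rw [h1]
  exact h

theorem rangeIndex_natCast_ne_zero (A : Type*) [AddCommGroup A] [Module.Finite ℤ A] (n : ℕ)
    (hn : n ≠ 0) : rangeIndex ((n : ℕ) : AddMonoid.End A) ≠ 0 := by
  rw [rangeIndex_natCast A n hn]
  exact Nat.mul_ne_zero (pow_ne_zero _ hn) (kerCard_natCast_ne_zero A n hn)

section Herbrand

variable (σ : AddMonoid.End M) (p : ℕ)

/-- the norm element `1 + σ + ... + σ^(p-1)` -/
def nrmEnd : AddMonoid.End M := ∑ i ∈ Finset.range p, σ ^ i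

variable {σ p}

theorem one_sub_mul_nrmEnd (hσ : σ ^ p = 1) : (1 - σ) * nrmEnd σ p = 0 := by
  unfold nrmEnd
  rw [← neg_sub σ 1, neg_mul, mul_geom_sum, hσ, sub_self, neg_zero]

theorem nrmEnd_mul_one_sub (hσ : σ ^ p = 1) : nrmEnd σ p * (1 - σ) = 0 := by
  unfold nrmEnd
  rw [← neg_sub σ 1, mul_neg, geom_sum_mul, hσ, sub_self, neg_zero]

theorem nrmEnd_mul_self (hσ : σ ^ p = 1) : nrmEnd σ p * σ = nrmEnd σ p := by
  have h := nrmEnd_mul_one_sub (σ := σ) (p := p) hσ
  rw [mul_sub, mul_one, sub_eq_zero] at h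
  exact h.symm

theorem nrmEnd_mul_pow (hσ : σ ^ p = 1) (i : ℕ) : nrmEnd σ p * σ ^ i = nrmEnd σ p := by
  induction i with
  | zero => simp
  | succ i ih => rw [pow_succ, ← mul_assoc, ih, nrmEnd_mul_self hσ]

theorem nrmEnd_mul_nrmEnd (hσ : σ ^ p = 1) :
    nrmEnd σ p * nrmEnd σ p = (p : AddMonoid.End M) * nrmEnd σ p := by
  have h : nrmEnd σ p * nrmEnd σ p = nrmEnd σ p * ∑ i ∈ Finset.range p, σ ^ i := rfl
  rw [h, Finset.mul_sum, Finset.sum_congr rfl (fun i _ => nrmEnd_mul_pow hσ i)]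
  simp

theorem end_sum_apply {ι : Type*} (s : Finset ι) (f : ι → AddMonoid.End M) (x : M) :
    (∑ i ∈ s, f i) x = ∑ i ∈ s, f i x := by
  classical
  induction s using Finset.induction_on with
  | empty => rfl
  | insert a s ha ih =>
    rw [Finset.sum_insert ha, Finset.sum_insert ha]
    change f a x + (∑ i ∈ s, f i) x = _
    rw [ih]

theorem pow_apply_of_fixed {x : M} (hx : σ x = x) (i : ℕ) : (σ ^ i) x = x := by
  induction i with
  | zero => rfl
  | succ i ih =>
    rw [pow_succ]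
    change (σ ^ i) (σ x) = x
    rw [hx, ih]

theorem nrmEnd_apply_of_fixed {x : M} (hx : σ x = x) : nrmEnd σ p x = p • x := by
  unfold nrmEnd
  rw [end_sum_apply]
  rw [Finset.sum_congr rfl (fun i _ => pow_apply_of_fixed hx i)]
  simp

theorem mem_ker_one_sub_iff {x : M} : x ∈ AddMonoidHom.ker (1 - σ) ↔ σ x = x := by
  change (1 - σ) x = 0 ↔ σ x = x
  change x - σ x = 0 ↔ σ x = x
  rw [sub_eq_zero, eq_comm]

variable [Module.Finite ℤ M] [hp : Fact p.Prime]

/-- **Herbrand quotient of an endomorphism of prime order** on a finitely generated abelian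
group `M`: with `T = ker (1 - σ)`, `Y = ker (1 + σ + ... + σ^(p-1))`,
`α = [T : N M]`, `β = [Y : (1 - σ) M]`, `a = rank T`, `b = rank Y`:
`β^(p-1) * p^(a (p-1)) = α^(p-1) * p^b`, and `α, β ≠ 0` (both indices are finite). -/
theorem herbrand_main (hσ : σ ^ p = 1) :
    ((AddMonoidHom.range (1 - σ)).relIndex (AddMonoidHom.ker (nrmEnd σ p))) ^ (p - 1) *
        p ^ (Module.finrank ℤ ↥(AddMonoidHom.ker (1 - σ)) * (p - 1)) =
      ((AddMonoidHom.range (nrmEnd σ p)).relIndex (AddMonoidHom.ker (1 - σ))) ^ (p - 1) *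
        p ^ (Module.finrank ℤ ↥(AddMonoidHom.ker (nrmEnd σ p))) ∧
    (AddMonoidHom.range (nrmEnd σ p)).relIndex (AddMonoidHom.ker (1 - σ)) ≠ 0 ∧
    (AddMonoidHom.range (1 - σ)).relIndex (AddMonoidHom.ker (nrmEnd σ p)) ≠ 0 := by
  have hp0 : p ≠ 0 := hp.out.ne_zero
  set D : AddMonoid.End M := 1 - σ with hD
  set Nm : AddMonoid.End M := nrmEnd σ p with hNm
  set T : AddSubgroup M := AddMonoidHom.ker D with hT
  set Y : AddSubgroup M := AddMonoidHom.ker Nm with hY
  have hDN : D * Nm = 0 := one_sub_mul_nrmEnd hσ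
  have hND : Nm * D = 0 := nrmEnd_mul_one_sub hσ
  have hrangeNm : AddMonoidHom.range Nm ≤ T := by
    rintro y ⟨x, rfl⟩
    change (D * Nm) x = 0
    rw [hDN]; rfl
  have hrangeD : AddMonoidHom.range D ≤ Y := by
    rintro y ⟨x, rfl⟩
    change (Nm * D) x = 0
    rw [hND]; rfl
  have hT_fixed : ∀ x ∈ T, σ x = x := fun x hx => mem_ker_one_sub_iff.mp hx
  have hσY : ∀ y ∈ Y, σ y ∈ Y := by
    intro y hy
    change (Nm * σ) y = 0
    rw [hNm, nrmEnd_mul_self hσ]
    exact hy
  have hDY : ∀ y ∈ Y, D y ∈ Y := fun y _ => hrangeD ⟨y, rfl⟩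
  have hNmT : ∀ x ∈ T, Nm x ∈ T := fun x _ => hrangeNm ⟨x, rfl⟩
  have : Module.Finite ℤ ↥T := moduleFinite_addSubgroup T
  have : Module.Finite ℤ ↥Y := moduleFinite_addSubgroup Y
  -- the restriction of σ to Y
  set s : AddMonoid.End ↥Y := restrictEnd σ Y hσY with hs_def
  have hpow : ∀ (i : ℕ) (y : ↥Y), (((s ^ i) y : ↥Y) : M) = (σ ^ i) (y : M) := by
    intro i
    induction i with
    | zero => intro y; rfl
    | succ i ih =>
      intro y
      rw [pow_succ, pow_succ]
      change (((s ^ i) (s y) : ↥Y) : M) = (σ ^ i) (σ (y : M))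
      rw [ih (s y)]
      rfl
  have hs : ∑ i ∈ Finset.range p, s ^ i = 0 := by
    refine DFunLike.ext _ _ (fun y => ?_)
    apply Subtype.ext
    rw [end_sum_apply, AddSubgroup.val_finsetSum]
    rw [Finset.sum_congr rfl (fun i _ => hpow i y)]
    rw [← end_sum_apply]
    exact y.2
  have h1s : 1 - s = restrictEnd D Y hDY := by
    refine DFunLike.ext _ _ (fun y => ?_)
    apply Subtype.ext
    rfl
  have hpT : ((p : ℕ) : AddMonoid.End ↥T) = restrictEnd Nm T hNmT := by
    refine DFunLike.ext _ _ (fun x => ?_)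
    apply Subtype.ext
    rw [natCast_end_apply, restrictEnd_apply, hNm, nrmEnd_apply_of_fixed (hT_fixed x.1 x.2)]
    rfl
  -- cardinalities and indices
  set J : ℕ := (T ⊔ Y).index with hJ
  set κ : ℕ := Nat.card ↥(T ⊓ Y) with hκ
  set α : ℕ := (AddMonoidHom.range Nm).relIndex T with hα
  set β : ℕ := (AddMonoidHom.range D).relIndex Y with hβ
  have hKD : kerCard (1 - s) = κ := by
    rw [h1s, kerCard_restrictEnd]
  have hID : rangeIndex (1 - s) = J * β := by
    rw [h1s, rangeIndex_restrictEnd, relIndex_map_eq D Y hrangeD, hJ, sup_comm]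
  have hKpT : kerCard ((p : ℕ) : AddMonoid.End ↥T) = κ := by
    rw [hpT, kerCard_restrictEnd, hκ, inf_comm]
  have hIpT : rangeIndex ((p : ℕ) : AddMonoid.End ↥T) = J * α := by
    rw [hpT, rangeIndex_restrictEnd, relIndex_map_eq Nm T hrangeNm]
  have hIpT' := rangeIndex_natCast (↥T) p hp0
  have hκ0 : κ ≠ 0 := by
    rw [← hKpT]
    exact kerCard_natCast_ne_zero (↥T) p hp0
  have hIpY := rangeIndex_natCast (↥Y) p hp0
  have hKpY0 := kerCard_natCast_ne_zero (↥Y) p hp0
  have hIpY0 := rangeIndex_natCast_ne_zero (↥Y) p hp0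
  have hprod := kerCard_natCast_mul_rangeIndex_pow hs hIpY0
  rw [hKD, hID, hIpY] at hprod
  -- hprod : K(p_Y) * (J β)^(p-1) = κ^(p-1) * (p^b * K(p_Y))
  have hY1 : (J * β) ^ (p - 1) = κ ^ (p - 1) * p ^ Module.finrank ℤ ↥Y := by
    apply Nat.eq_of_mul_eq_mul_left (Nat.pos_of_ne_zero hKpY0)
    rw [hprod]
    ring
  have hT1 : J * α = p ^ Module.finrank ℤ ↥T * κ := by
    rw [← hIpT, hIpT', hKpT]
  have hJα : J * α ≠ 0 := by
    rw [hT1]
    exact Nat.mul_ne_zero (pow_ne_zero _ hp0) hκ0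
  have hJ0 : J ≠ 0 := fun h => hJα (by rw [h, zero_mul])
  have hα0 : α ≠ 0 := fun h => hJα (by rw [h, mul_zero])
  have hJβ : (J * β) ^ (p - 1) ≠ 0 := by
    rw [hY1]
    exact Nat.mul_ne_zero (pow_ne_zero _ hκ0) (pow_ne_zero _ hp0)
  have hβ0 : β ≠ 0 := by
    intro h
    apply hJβ
    rw [h, mul_zero]
    have hp1 : p - 1 ≠ 0 := by
      have := hp.out.two_le
      omega
    exact zero_pow hp1
  refine ⟨?_, hα0, hβ0⟩
  apply Nat.eq_of_mul_eq_mul_left (Nat.pos_of_ne_zero (pow_ne_zero (p - 1) hJ0))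
  calc J ^ (p - 1) * (β ^ (p - 1) * p ^ (Module.finrank ℤ ↥T * (p - 1)))
      = (J * β) ^ (p - 1) * p ^ (Module.finrank ℤ ↥T * (p - 1)) := by ring
    _ = κ ^ (p - 1) * p ^ Module.finrank ℤ ↥Y * p ^ (Module.finrank ℤ ↥T * (p - 1)) := by
        rw [hY1]
    _ = (p ^ Module.finrank ℤ ↥T * κ) ^ (p - 1) * p ^ Module.finrank ℤ ↥Y := by
        rw [mul_pow, ← pow_mul]; ring
    _ = (J * α) ^ (p - 1) * p ^ Module.finrank ℤ ↥Y := by rw [hT1]
    _ = J ^ (p - 1) * (α ^ (p - 1) * p ^ Module.finrank ℤ ↥Y) := by ring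

end Herbrand

section Rank

/-- A subgroup of finite index of a finitely generated abelian group has the same rank. -/
theorem finrank_eq_of_index_ne_zero (A : Type*) [AddCommGroup A] [Module.Finite ℤ A]
    (H : AddSubgroup A) (h : H.index ≠ 0) : Module.finrank ℤ ↥H = Module.finrank ℤ A := by
  set N : Submodule ℤ A := AddSubgroup.toIntSubmodule H with hN
  have h1 := Submodule.finrank_quotient_add_finrank N
  have h2 : Module.finrank ℤ (A ⧸ N) = 0 := by
    apply Module.IsTorsion.finrank_eq_zero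
    intro x
    obtain ⟨y, rfl⟩ := Submodule.Quotient.mk_surjective N x
    refine ⟨⟨(H.index : ℤ), ?_⟩, ?_⟩
    · rw [mem_nonZeroDivisors_iff_ne_zero]
      exact_mod_cast h
    · change (H.index : ℤ) • (Submodule.Quotient.mk y : A ⧸ N) = 0
      rw [← Submodule.Quotient.mk_smul, Submodule.Quotient.mk_eq_zero, natCast_zsmul]
      exact H.nsmul_index_mem y
  rw [h2, zero_add] at h1
  exact h1

theorem finrank_eq_of_relIndex_ne_zero [Module.Finite ℤ M] {H T : AddSubgroup M} (hle : H ≤ T)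
    (h : H.relIndex T ≠ 0) : Module.finrank ℤ ↥H = Module.finrank ℤ ↥T := by
  have : Module.Finite ℤ ↥T := moduleFinite_addSubgroup T
  rw [← finrank_eq_of_index_ne_zero (↥T) (H.addSubgroupOf T) h]
  exact (AddSubgroup.addSubgroupOfEquivOfLe hle).symm.toIntLinearEquiv.finrank_eq

variable {σ : AddMonoid.End M} {p : ℕ} [Module.Finite ℤ M] [hp : Fact p.Prime]

/-- rank additivity: `rank (ker (1 - σ)) + rank (ker N) = rank M`. -/
theorem finrank_ker_add_finrank_ker (hσ : σ ^ p = 1) :
    Module.finrank ℤ ↥(AddMonoidHom.ker (1 - σ)) +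
      Module.finrank ℤ ↥(AddMonoidHom.ker (nrmEnd σ p)) = Module.finrank ℤ M := by
  obtain ⟨-, hα, -⟩ := herbrand_main (σ := σ) (p := p) hσ
  have hle : AddMonoidHom.range (nrmEnd σ p) ≤ AddMonoidHom.ker (1 - σ) := by
    rintro y ⟨x, rfl⟩
    change ((1 - σ) * nrmEnd σ p) x = 0
    rw [one_sub_mul_nrmEnd hσ]; rfl
  rw [← finrank_eq_of_relIndex_ne_zero hle hα]
  set f : M →ₗ[ℤ] M := AddMonoidHom.toIntLinearMap (nrmEnd σ p : M →+ M) with hf
  have h := Submodule.finrank_quotient_add_finrank (LinearMap.ker f)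
  have h' := (LinearMap.quotKerEquivRange f).finrank_eq
  rw [h'] at h
  rw [← h]
  rfl

/-- If `rank M + 1 = p * m` and `rank (ker (1 - σ)) + 1 = m` (the situation of the units of a
cyclic extension of prime degree `p` in which the infinite places split completely), then
`[ker N : (1 - σ) M] = p * [ker (1 - σ) : N M]`. -/
theorem herbrand_relIndex_eq (hσ : σ ^ p = 1) (m : ℕ)
    (hT : Module.finrank ℤ ↥(AddMonoidHom.ker (1 - σ)) + 1 = m)
    (hM : Module.finrank ℤ M + 1 = p * m) :
    (AddMonoidHom.range (1 - σ)).relIndex (AddMonoidHom.ker (nrmEnd σ p)) =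
      p * (AddMonoidHom.range (nrmEnd σ p)).relIndex (AddMonoidHom.ker (1 - σ)) := by
  obtain ⟨hmain, -, -⟩ := herbrand_main (σ := σ) (p := p) hσ
  have hadd := finrank_ker_add_finrank_ker (σ := σ) (p := p) hσ
  set a := Module.finrank ℤ ↥(AddMonoidHom.ker (1 - σ)) with ha
  set b := Module.finrank ℤ ↥(AddMonoidHom.ker (nrmEnd σ p)) with hb
  set α := (AddMonoidHom.range (nrmEnd σ p)).relIndex (AddMonoidHom.ker (1 - σ)) with hα
  set β := (AddMonoidHom.range (1 - σ)).relIndex (AddMonoidHom.ker (nrmEnd σ p)) with hβ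
  have hp2 := hp.out.two_le
  have hp0 : p ≠ 0 := hp.out.ne_zero
  have hb' : b = (p - 1) + a * (p - 1) := by
    have h1 : a + b + 1 = p * m := by rw [hadd]; exact hM
    have h2 : p * m = (p - 1 + 1) * (a + 1) := by
      rw [Nat.sub_add_cancel (by omega : 1 ≤ p), hT]
    have h3 : (p - 1 + 1) * (a + 1) = (p - 1) + a * (p - 1) + a + 1 := by ring
    omega
  rw [hb', pow_add] at hmain
  have h4 : β ^ (p - 1) * p ^ (a * (p - 1)) = (p * α) ^ (p - 1) * p ^ (a * (p - 1)) := by
    rw [hmain]; ring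
  have h5 : β ^ (p - 1) = (p * α) ^ (p - 1) :=
    Nat.eq_of_mul_eq_mul_right (Nat.pos_of_ne_zero (pow_ne_zero _ hp0)) h4
  exact Nat.pow_left_injective (by omega : p - 1 ≠ 0) h5

end Rank

end Main


end Fermat.Agent.S14.helper44
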