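/-
S14 (2a-iv), helper44: the Herbrand quotient of the unit group.

For a Galois extension `L/K` of number fields of odd prime degree `p` with
generator `σ` of the Galois group:

  `[ker (N : E_L → E_K) : {v / σ v | v ∈ E_L}] = p * [E_K : N E_L]`

i.e. `|H^1(G, E_L)| = p * |Ĥ^0(G, E_L)|` (`unit_herbrand`), both sides finite and nonzero
(`unit_herbrand_ne_zero`). No ramification hypothesis on finite primes is needed.
-/
import Mathlib
import Fermat.Agent.S14.helper44_Herbrand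

set_option linter.unusedSectionVars false

namespace Fermat.Agent.S14.helper44

open NumberField

section Units

variable (K L : Type*) [Field K] [NumberField K] [Field L] [NumberField L] [Algebra K L]

/-- The action of a `K`-automorphism of `L` on the units of `𝓞 L`. -/
noncomputable def unitAut (σ : L ≃ₐ[K] L) : (𝓞 L)ˣ →* (𝓞 L)ˣ :=
  Units.map (MulSemiringAction.toRingHom (L ≃ₐ[K] L) (𝓞 L) σ : 𝓞 L →* 𝓞 L)

/-- The inclusion of the units of `𝓞 K` into the units of `𝓞 L`. -/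
noncomputable def unitIncl : (𝓞 K)ˣ →* (𝓞 L)ˣ :=
  Units.map (algebraMap (𝓞 K) (𝓞 L) : 𝓞 K →* 𝓞 L)

/-- The norm on units. -/
noncomputable def unitNorm : (𝓞 L)ˣ →* (𝓞 K)ˣ :=
  Units.map (RingOfIntegers.norm K)

/-- The coercion `(𝓞 L)ˣ → L` as a monoid homomorphism. -/
noncomputable def unitCoe : (𝓞 L)ˣ →* L where
  toFun u := ((u : 𝓞 L) : L)
  map_one' := by simp
  map_mul' u v := by simp

variable {K L}

theorem unitCoe_apply (u : (𝓞 L)ˣ) : unitCoe L u = ((u : 𝓞 L) : L) := rfl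

theorem unitAut_coe (σ : L ≃ₐ[K] L) (u : (𝓞 L)ˣ) :
    (((unitAut K L σ u : (𝓞 L)ˣ) : 𝓞 L) : L) = σ ((u : 𝓞 L) : L) := rfl

theorem unitIncl_coe (v : (𝓞 K)ˣ) :
    (((unitIncl K L v : (𝓞 L)ˣ) : 𝓞 L) : L) = algebraMap K L ((v : 𝓞 K) : K) := rfl

theorem unitNorm_coe (u : (𝓞 L)ˣ) :
    (((unitNorm K L u : (𝓞 K)ˣ) : 𝓞 K) : K) = Algebra.norm K ((u : 𝓞 L) : L) := rfl

theorem units_ext_coe {u v : (𝓞 L)ˣ} (h : ((u : 𝓞 L) : L) = ((v : 𝓞 L) : L)) : u = v :=
  Units.ext (RingOfIntegers.ext h)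

theorem unitIncl_injective : Function.Injective (unitIncl K L) := by
  intro v w h
  have h1 := congrArg (fun u : (𝓞 L)ˣ => ((u : 𝓞 L) : L)) h
  simp only [unitIncl_coe] at h1
  exact units_ext_coe ((algebraMap K L).injective h1)

theorem unitAut_one (u : (𝓞 L)ˣ) : unitAut K L 1 u = u :=
  units_ext_coe (by rw [unitAut_coe]; rfl)

theorem unitAut_mul (σ τ : L ≃ₐ[K] L) (u : (𝓞 L)ˣ) :
    unitAut K L (σ * τ) u = unitAut K L σ (unitAut K L τ u) :=
  units_ext_coe (by rw [unitAut_coe, unitAut_coe, unitAut_coe]; rfl)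

theorem unitAut_unitIncl (σ : L ≃ₐ[K] L) (v : (𝓞 K)ˣ) :
    unitAut K L σ (unitIncl K L v) = unitIncl K L v :=
  units_ext_coe (by rw [unitAut_coe, unitIncl_coe, AlgEquiv.commutes])

/-- `σ` as an additive endomorphism of `Additive (𝓞 L)ˣ`. -/
noncomputable def unitEnd (σ : L ≃ₐ[K] L) : AddMonoid.End (Additive (𝓞 L)ˣ) :=
  MonoidHom.toAdditive (unitAut K L σ)

theorem unitEnd_apply (σ : L ≃ₐ[K] L) (u : (𝓞 L)ˣ) :
    unitEnd σ (Additive.ofMul u) = Additive.ofMul (unitAut K L σ u) := rfl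

theorem unitEnd_pow (σ : L ≃ₐ[K] L) (i : ℕ) : unitEnd σ ^ i = unitEnd (σ ^ i) := by
  induction i with
  | zero =>
    refine DFunLike.ext _ _ (fun u => ?_)
    rw [pow_zero, pow_zero]
    change u = Additive.ofMul (unitAut K L 1 (Additive.toMul u))
    rw [unitAut_one]
    rfl
  | succ i ih =>
    refine DFunLike.ext _ _ (fun u => ?_)
    rw [pow_succ, pow_succ, ih]
    change unitEnd (σ ^ i) (unitEnd σ u) = _
    change Additive.ofMul (unitAut K L (σ ^ i) (unitAut K L σ (Additive.toMul u))) =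
      Additive.ofMul (unitAut K L (σ ^ i * σ) (Additive.toMul u))
    rw [unitAut_mul]

variable [IsGalois K L] {p : ℕ} [hp : Fact p.Prime]

theorem zpowers_eq_top_of_ne_one (hdeg : Module.finrank K L = p) {σ : L ≃ₐ[K] L}
    (hσ : σ ≠ 1) : Subgroup.zpowers σ = ⊤ := by
  have hcard : Nat.card (L ≃ₐ[K] L) = p := by
    rw [IsGalois.card_aut_eq_finrank, hdeg]
  exact zpowers_eq_top_of_prime_card hcard hσ

theorem pow_prime_eq_one (hdeg : Module.finrank K L = p) (σ : L ≃ₐ[K] L) : σ ^ p = 1 := by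
  have hcard : Nat.card (L ≃ₐ[K] L) = p := by
    rw [IsGalois.card_aut_eq_finrank, hdeg]
  rw [← hcard]
  exact pow_card_eq_one'

theorem unitEnd_pow_prime (hdeg : Module.finrank K L = p) (σ : L ≃ₐ[K] L) :
    unitEnd σ ^ p = 1 := by
  rw [unitEnd_pow, pow_prime_eq_one hdeg σ]
  refine DFunLike.ext _ _ (fun u => ?_)
  change Additive.ofMul (unitAut K L 1 (Additive.toMul u)) = u
  rw [unitAut_one]
  rfl

/-- A unit of `𝓞 L` fixed by a generator of the Galois group comes from `𝓞 K`. -/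
theorem exists_unitIncl_eq_of_fixed (hdeg : Module.finrank K L = p) {σ : L ≃ₐ[K] L}
    (hσ : σ ≠ 1) (u : (𝓞 L)ˣ) (hu : unitAut K L σ u = u) : ∃ v : (𝓞 K)ˣ, unitIncl K L v = u := by
  have htop := zpowers_eq_top_of_ne_one hdeg hσ
  have hfix : ∀ (w : (𝓞 L)ˣ), unitAut K L σ w = w → ∀ τ : L ≃ₐ[K] L,
      τ ((w : 𝓞 L) : L) = ((w : 𝓞 L) : L) := by
    intro w hw τ
    have hmem : τ ∈ MulAction.stabilizer (L ≃ₐ[K] L) (((w : 𝓞 L) : L)) := by
      have hσmem : σ ∈ MulAction.stabilizer (L ≃ₐ[K] L) (((w : 𝓞 L) : L)) := by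
        rw [MulAction.mem_stabilizer_iff]
        have := congrArg (fun u : (𝓞 L)ˣ => ((u : 𝓞 L) : L)) hw
        simpa [unitAut_coe] using this
      have hle : Subgroup.zpowers σ ≤ MulAction.stabilizer (L ≃ₐ[K] L) (((w : 𝓞 L) : L)) :=
        (Subgroup.zpowers_le).mpr hσmem
      rw [htop] at hle
      exact hle (Subgroup.mem_top τ)
    exact MulAction.mem_stabilizer_iff.mp hmem
  have hu' : unitAut K L σ u⁻¹ = u⁻¹ := by rw [map_inv, hu]
  obtain ⟨x, hx⟩ := (IsGalois.mem_range_algebraMap_iff_fixed ((u : 𝓞 L) : L)).mpr (hfix u hu)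
  obtain ⟨y, hy⟩ := (IsGalois.mem_range_algebraMap_iff_fixed (((u⁻¹ : (𝓞 L)ˣ) : 𝓞 L) : L)).mpr
    (hfix u⁻¹ hu')
  have hxint : IsIntegral ℤ x := by
    have : IsIntegral ℤ (algebraMap K L x) := by
      rw [hx]; exact RingOfIntegers.isIntegral_coe _
    exact (isIntegral_algebraMap_iff (algebraMap K L).injective).mp this
  have hyint : IsIntegral ℤ y := by
    have : IsIntegral ℤ (algebraMap K L y) := by
      rw [hy]; exact RingOfIntegers.isIntegral_coe _
    exact (isIntegral_algebraMap_iff (algebraMap K L).injective).mp this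
  have hxy : x * y = 1 := by
    apply (algebraMap K L).injective
    rw [map_mul, hx, hy, map_one]
    simp
  let x' : 𝓞 K := ⟨x, hxint⟩
  let y' : 𝓞 K := ⟨y, hyint⟩
  have hxy' : x' * y' = 1 := RingOfIntegers.ext hxy
  refine ⟨⟨x', y', hxy', by rw [mul_comm]; exact hxy'⟩, ?_⟩
  apply units_ext_coe
  rw [unitIncl_coe]
  exact hx

/-- The fixed points of `σ` on units are the units of `𝓞 K`. -/
theorem ker_one_sub_unitEnd (hdeg : Module.finrank K L = p) {σ : L ≃ₐ[K] L} (hσ : σ ≠ 1) :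
    AddMonoidHom.ker (1 - unitEnd σ) =
      AddMonoidHom.range (MonoidHom.toAdditive (unitIncl K L)) := by
  ext x
  rw [mem_ker_one_sub_iff]
  constructor
  · intro hx
    have hx' : unitAut K L σ (Additive.toMul x) = Additive.toMul x := by
      have := congrArg Additive.toMul hx
      exact this
    obtain ⟨v, hv⟩ := exists_unitIncl_eq_of_fixed hdeg hσ _ hx'
    refine ⟨Additive.ofMul v, ?_⟩
    change Additive.ofMul (unitIncl K L v) = x
    rw [hv]
    rfl
  · rintro ⟨v, rfl⟩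
    change Additive.ofMul (unitAut K L σ (unitIncl K L (Additive.toMul v))) =
      Additive.ofMul (unitIncl K L (Additive.toMul v))
    rw [unitAut_unitIncl]

theorem orderOf_eq_of_ne_one (hdeg : Module.finrank K L = p) {σ : L ≃ₐ[K] L} (hσ : σ ≠ 1) :
    orderOf σ = p :=
  orderOf_eq_prime (pow_prime_eq_one hdeg σ) hσ

theorem pow_injOn_range (hdeg : Module.finrank K L = p) {σ : L ≃ₐ[K] L} (hσ : σ ≠ 1) :
    Set.InjOn (fun i : ℕ => σ ^ i) (Finset.range p : Set ℕ) := by
  have := pow_injOn_Iio_orderOf (x := σ)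
  rw [orderOf_eq_of_ne_one hdeg hσ] at this
  intro a ha b hb hab
  exact this (by simpa using ha) (by simpa using hb) hab

theorem prod_pow_eq_norm (hdeg : Module.finrank K L = p) {σ : L ≃ₐ[K] L} (hσ : σ ≠ 1) (x : L) :
    ∏ i ∈ Finset.range p, (σ ^ i) x = algebraMap K L (Algebra.norm K x) := by
  classical
  have himage : (Finset.range p).image (fun i => σ ^ i) = (Finset.univ : Finset (L ≃ₐ[K] L)) := by
    apply Finset.eq_univ_of_card
    rw [Finset.card_image_of_injOn (pow_injOn_range hdeg hσ), Finset.card_range,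
      ← Nat.card_eq_fintype_card, IsGalois.card_aut_eq_finrank, hdeg]
  rw [Algebra.norm_eq_prod_automorphisms, ← himage]
  rw [Finset.prod_image (pow_injOn_range hdeg hσ)]

theorem prod_unitAut_pow (hdeg : Module.finrank K L = p) {σ : L ≃ₐ[K] L} (hσ : σ ≠ 1)
    (u : (𝓞 L)ˣ) :
    ∏ i ∈ Finset.range p, unitAut K L (σ ^ i) u = unitIncl K L (unitNorm K L u) := by
  apply units_ext_coe
  rw [← unitCoe_apply, map_prod, unitIncl_coe, unitNorm_coe, ← prod_pow_eq_norm hdeg hσ]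
  rfl

/-- The norm endomorphism `1 + σ + ... + σ^(p-1)` of the units of `𝓞 L` is the composite
of the norm to `𝓞 K` and the inclusion. -/
theorem nrmEnd_unitEnd_apply (hdeg : Module.finrank K L = p) {σ : L ≃ₐ[K] L} (hσ : σ ≠ 1)
    (x : Additive (𝓞 L)ˣ) :
    nrmEnd (unitEnd σ) p x =
      MonoidHom.toAdditive (unitIncl K L) (MonoidHom.toAdditive (unitNorm K L) x) := by
  unfold nrmEnd
  rw [end_sum_apply]
  change _ = Additive.ofMul (unitIncl K L (unitNorm K L (Additive.toMul x)))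
  rw [← prod_unitAut_pow hdeg hσ, ofMul_prod]
  refine Finset.sum_congr rfl (fun i _ => ?_)
  rw [unitEnd_pow]
  rfl

/-- `v ↦ v / σ v` on the units of `𝓞 L`. -/
noncomputable def unitDel (σ : L ≃ₐ[K] L) : (𝓞 L)ˣ →* (𝓞 L)ˣ :=
  MonoidHom.id _ / unitAut K L σ

theorem unitDel_apply (σ : L ≃ₐ[K] L) (v : (𝓞 L)ˣ) : unitDel σ v = v / unitAut K L σ v := rfl

theorem one_sub_unitEnd (σ : L ≃ₐ[K] L) :
    ((1 - unitEnd σ : AddMonoid.End (Additive (𝓞 L)ˣ)) :
        Additive (𝓞 L)ˣ →+ Additive (𝓞 L)ˣ) = MonoidHom.toAdditive (unitDel σ) := by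
  refine DFunLike.ext _ _ (fun x => ?_)
  rfl

theorem nrmEnd_unitEnd (hdeg : Module.finrank K L = p) {σ : L ≃ₐ[K] L} (hσ : σ ≠ 1) :
    (nrmEnd (unitEnd σ) p : Additive (𝓞 L)ˣ →+ Additive (𝓞 L)ˣ) =
      MonoidHom.toAdditive ((unitIncl K L).comp (unitNorm K L)) := by
  refine DFunLike.ext _ _ (fun x => ?_)
  rw [nrmEnd_unitEnd_apply hdeg hσ]
  rfl

theorem ker_unitIncl_comp_unitNorm :
    ((unitIncl K L).comp (unitNorm K L)).ker = (unitNorm K L).ker := by
  ext u
  rw [MonoidHom.mem_ker, MonoidHom.mem_ker, MonoidHom.comp_apply]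
  constructor
  · intro h
    apply unitIncl_injective (K := K) (L := L)
    rw [h, map_one]
  · intro h
    rw [h, map_one]

theorem range_unitIncl_comp_unitNorm :
    ((unitIncl K L).comp (unitNorm K L)).range = (unitNorm K L).range.map (unitIncl K L) :=
  MonoidHom.range_comp _ _

/-- finrank of the unit group, `+ 1`, is the number of infinite places. -/
theorem finrank_units_add_one (F : Type*) [Field F] [NumberField F] :
    Module.finrank ℤ (Additive (𝓞 F)ˣ) + 1 = Fintype.card (InfinitePlace F) := by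
  rw [NumberField.Units.finrank_eq, NumberField.Units.rank]
  have : 0 < Fintype.card (InfinitePlace F) := Fintype.card_pos
  omega

theorem finrank_ker_one_sub_unitEnd (hdeg : Module.finrank K L = p) {σ : L ≃ₐ[K] L}
    (hσ : σ ≠ 1) :
    Module.finrank ℤ ↥(AddMonoidHom.ker (1 - unitEnd σ)) =
      Module.finrank ℤ (Additive (𝓞 K)ˣ) := by
  have hinj : Function.Injective (MonoidHom.toAdditive (unitIncl K L)).toIntLinearMap := by
    intro a b hab
    exact unitIncl_injective (K := K) (L := L) hab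
  have e := LinearEquiv.ofInjective _ hinj
  rw [e.finrank_eq]
  have hrange : (LinearMap.range (MonoidHom.toAdditive (unitIncl K L)).toIntLinearMap).toAddSubgroup
      = AddMonoidHom.ker (1 - unitEnd σ) := by
    rw [ker_one_sub_unitEnd hdeg hσ]
    rfl
  have : ∀ (S : Submodule ℤ (Additive (𝓞 L)ˣ)) (T : AddSubgroup (Additive (𝓞 L)ˣ)),
      S.toAddSubgroup = T → Module.finrank ℤ ↥T = Module.finrank ℤ ↥S := by
    rintro S T rfl
    rfl
  exact this _ _ hrange

theorem range_one_sub_unitEnd (σ : L ≃ₐ[K] L) :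
    AddMonoidHom.range (1 - unitEnd σ) = Subgroup.toAddSubgroup (unitDel σ).range := by
  have h := one_sub_unitEnd σ
  have h2 : AddMonoidHom.range (1 - unitEnd σ) =
      AddMonoidHom.range (MonoidHom.toAdditive (unitDel σ)) := congrArg AddMonoidHom.range h
  rw [h2, MonoidHom.coe_toAdditive_range]

theorem ker_nrmEnd_unitEnd (hdeg : Module.finrank K L = p) {σ : L ≃ₐ[K] L} (hσ : σ ≠ 1) :
    AddMonoidHom.ker (nrmEnd (unitEnd σ) p) = Subgroup.toAddSubgroup (unitNorm K L).ker := by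
  have h := nrmEnd_unitEnd hdeg hσ
  have h2 : AddMonoidHom.ker (nrmEnd (unitEnd σ) p) =
      AddMonoidHom.ker (MonoidHom.toAdditive ((unitIncl K L).comp (unitNorm K L))) :=
    congrArg AddMonoidHom.ker h
  rw [h2, MonoidHom.coe_toAdditive_ker, ker_unitIncl_comp_unitNorm]

theorem range_nrmEnd_unitEnd (hdeg : Module.finrank K L = p) {σ : L ≃ₐ[K] L} (hσ : σ ≠ 1) :
    AddMonoidHom.range (nrmEnd (unitEnd σ) p) =
      Subgroup.toAddSubgroup ((unitNorm K L).range.map (unitIncl K L)) := by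
  have h := nrmEnd_unitEnd hdeg hσ
  have h2 : AddMonoidHom.range (nrmEnd (unitEnd σ) p) =
      AddMonoidHom.range (MonoidHom.toAdditive ((unitIncl K L).comp (unitNorm K L))) :=
    congrArg AddMonoidHom.range h
  rw [h2, MonoidHom.coe_toAdditive_range, range_unitIncl_comp_unitNorm]

theorem ker_one_sub_unitEnd' (hdeg : Module.finrank K L = p) {σ : L ≃ₐ[K] L} (hσ : σ ≠ 1) :
    AddMonoidHom.ker (1 - unitEnd σ) = Subgroup.toAddSubgroup (unitIncl K L).range := by
  rw [ker_one_sub_unitEnd hdeg hσ, MonoidHom.coe_toAdditive_range]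

theorem relIndex_map_unitIncl_range (A : Subgroup (𝓞 K)ˣ) :
    (A.map (unitIncl K L)).relIndex (unitIncl K L).range = A.index := by
  rw [← Subgroup.relIndex_top_right, ← Subgroup.relIndex_map_map_of_injective _ _
    (unitIncl_injective (K := K) (L := L)), ← MonoidHom.range_eq_map]

theorem card_infinitePlace_eq (hdeg : Module.finrank K L = p) (hp2 : p ≠ 2) :
    Fintype.card (InfinitePlace L) = p * Fintype.card (InfinitePlace K) := by
  have hodd : Odd (Module.finrank K L) := by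
    rw [hdeg]; exact hp.out.odd_of_ne_two hp2
  have : IsUnramifiedAtInfinitePlaces K L := IsUnramifiedAtInfinitePlaces_of_odd_finrank hodd
  rw [IsUnramifiedAtInfinitePlaces.card_infinitePlace K L, hdeg, mul_comm]

/-- **Herbrand quotient of the unit group** for a cyclic extension `L/K` of odd prime degree
`p` with generator `σ`:
`[ker N : {v / σ v}] = p * [E_K : N E_L]`, i.e. `|H^1(G, E_L)| = p * |Ĥ^0(G, E_L)|`. -/
theorem unit_herbrand (hdeg : Module.finrank K L = p) (hp2 : p ≠ 2) {σ : L ≃ₐ[K] L}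
    (hσ : σ ≠ 1) :
    (unitDel σ).range.relIndex (unitNorm K L).ker = p * (unitNorm K L).range.index := by
  have hT : Module.finrank ℤ ↥(AddMonoidHom.ker (1 - unitEnd σ)) + 1 =
      Fintype.card (InfinitePlace K) := by
    rw [finrank_ker_one_sub_unitEnd hdeg hσ, finrank_units_add_one]
  have hM : Module.finrank ℤ (Additive (𝓞 L)ˣ) + 1 = p * Fintype.card (InfinitePlace K) := by
    rw [finrank_units_add_one, card_infinitePlace_eq hdeg hp2]
  have key := herbrand_relIndex_eq (σ := unitEnd σ) (p := p) (unitEnd_pow_prime hdeg σ) _ hT hM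
  rw [ker_one_sub_unitEnd' hdeg hσ, range_one_sub_unitEnd, ker_nrmEnd_unitEnd hdeg hσ,
    range_nrmEnd_unitEnd hdeg hσ, Subgroup.relIndex_toAddSubgroup,
    Subgroup.relIndex_toAddSubgroup, relIndex_map_unitIncl_range] at key
  exact key

/-- Both indices in `unit_herbrand` are finite (nonzero). -/
theorem unit_herbrand_ne_zero (hdeg : Module.finrank K L = p) {σ : L ≃ₐ[K] L}
    (hσ : σ ≠ 1) :
    (unitNorm K L).range.index ≠ 0 ∧ (unitDel σ).range.relIndex (unitNorm K L).ker ≠ 0 := by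
  have key := (herbrand_main (σ := unitEnd σ) (p := p) (unitEnd_pow_prime hdeg σ)).2
  rw [ker_one_sub_unitEnd' hdeg hσ, range_one_sub_unitEnd, ker_nrmEnd_unitEnd hdeg hσ,
    range_nrmEnd_unitEnd hdeg hσ, Subgroup.relIndex_toAddSubgroup,
    Subgroup.relIndex_toAddSubgroup, relIndex_map_unitIncl_range] at key
  exact key

theorem mem_range_unitDel_iff (σ : L ≃ₐ[K] L) (u : (𝓞 L)ˣ) :
    u ∈ (unitDel σ).range ↔ ∃ v : (𝓞 L)ˣ, v / unitAut K L σ v = u := Iff.rfl

theorem mem_range_unitDel_iff' (σ : L ≃ₐ[K] L) (u : (𝓞 L)ˣ) :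
    u ∈ (unitDel σ).range ↔ ∃ v : (𝓞 L)ˣ, unitAut K L σ v / v = u := by
  rw [mem_range_unitDel_iff]
  constructor
  · rintro ⟨v, rfl⟩
    refine ⟨v⁻¹, ?_⟩
    rw [map_inv, div_eq_mul_inv, inv_inv, div_eq_mul_inv, mul_comm]
  · rintro ⟨v, rfl⟩
    refine ⟨v⁻¹, ?_⟩
    rw [map_inv, div_eq_mul_inv, inv_inv, div_eq_mul_inv, mul_comm]

theorem mem_ker_unitNorm_iff (u : (𝓞 L)ˣ) :
    u ∈ (unitNorm K L).ker ↔ Algebra.norm K ((u : 𝓞 L) : L) = 1 := by
  rw [MonoidHom.mem_ker]
  constructor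
  · intro h
    rw [← unitNorm_coe, h]
    rfl
  · intro h
    apply units_ext_coe
    rw [unitNorm_coe, h]
    rfl

theorem mem_range_unitNorm_iff (v : (𝓞 K)ˣ) :
    v ∈ (unitNorm K L).range ↔
      ∃ u : (𝓞 L)ˣ, Algebra.norm K ((u : 𝓞 L) : L) = ((v : 𝓞 K) : K) := by
  constructor
  · rintro ⟨u, rfl⟩
    exact ⟨u, (unitNorm_coe u).symm⟩
  · rintro ⟨u, hu⟩
    refine ⟨u, ?_⟩
    apply units_ext_coe
    rw [unitNorm_coe, hu]

theorem range_unitDel_le_ker_unitNorm (σ : L ≃ₐ[K] L) :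
    (unitDel σ).range ≤ (unitNorm K L).ker := by
  rintro _ ⟨v, rfl⟩
  rw [mem_ker_unitNorm_iff, unitDel_apply]
  have h1 : (((v / unitAut K L σ v : (𝓞 L)ˣ) : 𝓞 L) : L) * σ ((v : 𝓞 L) : L) =
      ((v : 𝓞 L) : L) := by
    rw [← unitAut_coe, ← unitCoe_apply, ← unitCoe_apply, ← unitCoe_apply, ← map_mul,
      div_mul_cancel]
  have h2 := congrArg (Algebra.norm K) h1
  rw [map_mul, Algebra.norm_eq_of_algEquiv] at h2
  have hne : Algebra.norm K ((v : 𝓞 L) : L) ≠ 0 := by
    rw [Algebra.norm_ne_zero_iff]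
    exact RingOfIntegers.coe_ne_zero_iff.mpr v.ne_zero
  exact mul_right_cancel₀ hne (by rw [h2, one_mul])

end Units

end Fermat.Agent.S14.helper44
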