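import Mathlib

/-!
# R2-U, linear algebra part (helper47)

Abstract statements about an endomorphism `s` of a free `ℤ`-module `Λ` of finite rank.

* `charpoly_eq_of_cyclic_vector`: if `ε, s ε, …, s^(r-1) ε` are `ℤ`-linearly independent
  (`r = rank Λ`) and a monic polynomial `P` of degree `r` kills `ε`, then `charpoly s = P`.
* `eigen_mod_prime_unique`: if `c` is a root of multiplicity `≤ 1` of `charpoly s` mod `p`,
  the `c`-eigenspace of `s` on `Λ / pΛ` is at most one-dimensional (in elementary form).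
-/

namespace Fermat.Agent.S14.helper47

open Polynomial Module

section LA

variable {Λ : Type*} [AddCommGroup Λ] [Module.Free ℤ Λ] [Module.Finite ℤ Λ]

theorem charpoly_eq_of_cyclic_vector (s : Module.End ℤ Λ) (P : ℤ[X]) (hP : P.Monic)
    (r : ℕ) (hrank : Module.finrank ℤ Λ = r)
    (hdeg : P.natDegree = r) (ε : Λ)
    (hε : LinearIndependent ℤ (fun i : Fin r => (s ^ (i : ℕ)) ε))
    (hPε : Polynomial.aeval s P ε = 0) : s.charpoly = P := by
  classical
  subst hrank
  set r := Module.finrank ℤ Λ with hr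
  have hQ : s.charpoly.Monic := LinearMap.charpoly_monic s
  have hQdeg : s.charpoly.natDegree = r := LinearMap.charpoly_natDegree s
  by_contra hne
  have hD : s.charpoly - P ≠ 0 := sub_ne_zero.mpr hne
  have hDdeg : (s.charpoly - P).natDegree < r := by
    rcases Nat.eq_zero_or_pos r with h0 | hpos
    · -- both are monic of degree zero hence equal to one
      exfalso
      apply hne
      have h1 : s.charpoly = 1 := by
        apply Polynomial.eq_one_of_monic_natDegree_zero hQ
        rw [hQdeg, h0]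
      have h2 : P = 1 := by
        apply Polynomial.eq_one_of_monic_natDegree_zero hP
        rw [hdeg, h0]
      rw [h1, h2]
    · have hlt : (s.charpoly - P).degree < s.charpoly.degree := by
        apply Polynomial.degree_sub_lt_left
        · rw [Polynomial.degree_eq_natDegree hQ.ne_zero, Polynomial.degree_eq_natDegree hP.ne_zero,
            hQdeg, hdeg]
        · exact hQ.ne_zero
        · rw [hQ.leadingCoeff, hP.leadingCoeff]
      rw [Polynomial.degree_eq_natDegree hD, Polynomial.degree_eq_natDegree hQ.ne_zero,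
        hQdeg] at hlt
      exact_mod_cast hlt
  have hDε : Polynomial.aeval s (s.charpoly - P) ε = 0 := by
    rw [map_sub, LinearMap.sub_apply, hPε, LinearMap.aeval_self_charpoly]
    simp
  rw [Polynomial.aeval_eq_sum_range' hDdeg] at hDε
  rw [LinearMap.sum_apply] at hDε
  have hsum : ∑ i : Fin r, (s.charpoly - P).coeff (i : ℕ) • ((s ^ (i : ℕ)) ε) = 0 := by
    rw [← hDε, ← Fin.sum_univ_eq_sum_range (fun i => ((s.charpoly - P).coeff i • s ^ i) ε) r]
    rfl
  have hcoef := (Fintype.linearIndependent_iff.mp hε) (fun i => (s.charpoly - P).coeff (i : ℕ)) hsum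
  apply hD
  ext n
  by_cases hn : n < r
  · simpa using hcoef ⟨n, hn⟩
  · rw [Polynomial.coeff_eq_zero_of_natDegree_lt (lt_of_lt_of_le hDdeg (not_lt.mp hn))]
    simp

/-- If `1 ⊗ w = 0` in `ZMod p ⊗ Λ` (with `Λ` free over `ℤ`) then `w ∈ pΛ`. -/
theorem exists_eq_smul_of_one_tmul_eq_zero (p : ℕ) (w : Λ)
    (h : (1 : ZMod p) ⊗ₜ[ℤ] w = 0) : ∃ z : Λ, w = (p : ℤ) • z := by
  classical
  let b := Module.Free.chooseBasis ℤ Λ
  have hcoord : ∀ i, (p : ℤ) ∣ b.repr w i := by
    intro i
    have h1 := congrArg (fun t => (Algebra.TensorProduct.basis (ZMod p) b).repr t i) h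
    simp only [Algebra.TensorProduct.basis_repr_tmul, one_smul, map_zero,
      Finsupp.coe_zero, Pi.zero_apply, Finsupp.mapRange_apply] at h1
    exact (ZMod.intCast_zmod_eq_zero_iff_dvd _ p).mp (by simpa using h1)
  choose q hq using hcoord
  refine ⟨∑ i, q i • b i, ?_⟩
  rw [Finset.smul_sum]
  conv_lhs => rw [← b.sum_repr w]
  apply Finset.sum_congr rfl
  intro i _
  rw [hq i, mul_smul]

theorem eigen_mod_prime_unique (s : Module.End ℤ Λ) (p : ℕ) [Fact p.Prime] (c : ℤ)
    (hroot : (s.charpoly.map (Int.castRingHom (ZMod p))).rootMultiplicity (c : ZMod p) ≤ 1)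
    (x y : Λ) (hx : ∃ z, s x = c • x + (p : ℤ) • z) (hy : ∃ z, s y = c • y + (p : ℤ) • z)
    (hy' : ¬ ∃ z, y = (p : ℤ) • z) : ∃ (j : ℕ) (z : Λ), x = j • y + (p : ℤ) • z := by
  classical
  let V := TensorProduct ℤ (ZMod p) Λ
  let sb : Module.End (ZMod p) V := s.baseChange (ZMod p)
  have hchar : sb.charpoly = s.charpoly.map (Int.castRingHom (ZMod p)) := by
    show (s.baseChange (ZMod p)).charpoly = _
    rw [LinearMap.charpoly_baseChange, algebraMap_int_eq]
  have hp0 : ∀ z : Λ, (1 : ZMod p) ⊗ₜ[ℤ] ((p : ℤ) • z) = 0 := by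
    intro z
    rw [← TensorProduct.smul_tmul]
    have : ((p : ℤ) • (1 : ZMod p)) = 0 := by simp
    rw [this, TensorProduct.zero_tmul]
  have heig : ∀ w : Λ, (∃ z, s w = c • w + (p : ℤ) • z) →
      ((1 : ZMod p) ⊗ₜ[ℤ] w : V) ∈ Module.End.eigenspace sb (c : ZMod p) := by
    rintro w ⟨z, hz⟩
    rw [Module.End.mem_eigenspace_iff]
    show (s.baseChange (ZMod p)) ((1 : ZMod p) ⊗ₜ[ℤ] w) = _
    rw [LinearMap.baseChange_tmul, hz, TensorProduct.tmul_add, hp0, add_zero,
      TensorProduct.tmul_smul, TensorProduct.smul_tmul', TensorProduct.smul_tmul']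
    congr 1
    simp
  have hdim : Module.finrank (ZMod p) (Module.End.eigenspace sb (c : ZMod p)) ≤ 1 := by
    refine le_trans (LinearMap.finrank_eigenspace_le sb (c : ZMod p)) ?_
    rw [hchar]
    exact hroot
  obtain ⟨v, hv⟩ := finrank_le_one_iff.mp hdim
  obtain ⟨cx, hcx⟩ := hv ⟨_, heig x hx⟩
  obtain ⟨cy, hcy⟩ := hv ⟨_, heig y hy⟩
  have hcx' : cx • (v : V) = (1 : ZMod p) ⊗ₜ[ℤ] x := congrArg Subtype.val hcx
  have hcy' : cy • (v : V) = (1 : ZMod p) ⊗ₜ[ℤ] y := congrArg Subtype.val hcy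
  have hcy0 : cy ≠ 0 := by
    intro h0
    apply hy'
    apply exists_eq_smul_of_one_tmul_eq_zero p y
    rw [← hcy', h0, zero_smul]
  refine ⟨(cx / cy).val, ?_⟩
  have hzero : (1 : ZMod p) ⊗ₜ[ℤ] (x - (cx / cy).val • y) = 0 := by
    rw [TensorProduct.tmul_sub, ← hcx']
    have : (1 : ZMod p) ⊗ₜ[ℤ] ((cx / cy).val • y) = (cx / cy) • ((1 : ZMod p) ⊗ₜ[ℤ] y : V) := by
      rw [TensorProduct.tmul_smul, TensorProduct.smul_tmul', TensorProduct.smul_tmul']
      congr 1
      simp
    rw [this, ← hcy', smul_smul, div_mul_cancel₀ _ hcy0, sub_self]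
  obtain ⟨z, hz⟩ := exists_eq_smul_of_one_tmul_eq_zero p _ hzero
  exact ⟨z, by rw [← hz]; abel⟩

end LA

section Gershgorin

/-- Shifted sums of a periodic function over a full period. -/
theorem periodic_sum_shift (m : ℕ) (ℓ : ℕ → ℝ) (hper : ∀ t, ℓ (t + m) = ℓ t) (j : ℕ) :
    ∑ t ∈ Finset.range m, ℓ (j + t) = ∑ t ∈ Finset.range m, ℓ t := by
  induction j with
  | zero => simp
  | succ j ih =>
    have h1 : ∑ t ∈ Finset.range (m + 1), ℓ (j + t)
        = ∑ t ∈ Finset.range m, ℓ (j + t) + ℓ (j + m) := Finset.sum_range_succ _ _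
    have h2 : ∑ t ∈ Finset.range (m + 1), ℓ (j + t)
        = ∑ t ∈ Finset.range m, ℓ (j + (t + 1)) + ℓ (j + 0) := Finset.sum_range_succ' _ _
    have h3 : ∑ t ∈ Finset.range m, ℓ (j + 1 + t) = ∑ t ∈ Finset.range m, ℓ (j + (t + 1)) := by
      apply Finset.sum_congr rfl
      intro t _
      congr 1
      ring
    rw [h3, ← ih]
    have h4 : ℓ (j + m) = ℓ (j + 0) := by rw [hper, add_zero]
    linarith

/-- The "circulant log matrix" of a Minkowski-type unit is nonsingular. -/
theorem cyclic_log_matrix_injective (m : ℕ) (ℓ : ℕ → ℝ) (hper : ∀ t, ℓ (t + m) = ℓ t)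
    (hneg : ∀ t, ¬ m ∣ t → ℓ t < 0) (hsum : ∑ t ∈ Finset.range m, ℓ t = 0)
    (n : Fin (m - 1) → ℝ) (h : ∀ k : ℕ, ∑ i : Fin (m - 1), n i * ℓ (k + i) = 0) : n = 0 := by
  classical
  rcases Nat.lt_or_ge m 2 with hm | hm
  · -- `Fin (m - 1)` is empty
    have : m - 1 = 0 := by omega
    ext i
    exact absurd i.2 (by omega)
  let A : Matrix (Fin (m - 1)) (Fin (m - 1)) ℝ := fun j i => ℓ (m - (j : ℕ) + (i : ℕ))
  have hA : A.det ≠ 0 := by
    apply det_ne_zero_of_sum_row_lt_diag
    intro j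
    have hj : (j : ℕ) < m - 1 := j.2
    set f : ℕ → ℝ := fun t => ℓ (m - (j : ℕ) + t) with hf
    have hfsum : ∑ t ∈ Finset.range m, f t = 0 := by
      rw [hf]
      simp only
      rw [periodic_sum_shift m ℓ hper, hsum]
    have hfneg : ∀ t, t < m → t ≠ (j : ℕ) → f t < 0 := by
      intro t ht htj
      apply hneg
      rintro ⟨q, hq⟩
      have hq1 : q = 1 := by
        have h1 : 0 < q := by
          rcases Nat.eq_zero_or_pos q with h0 | h0
          · subst h0; omega
          · exact h0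
        have h2 : q < 2 := by
          by_contra hcon
          have : 2 ≤ q := by omega
          have : m * 2 ≤ m * q := Nat.mul_le_mul_left m this
          omega
        omega
      subst hq1
      omega
    have hrow : ∑ i ∈ Finset.univ.erase j, ‖A j i‖ = f j + f (m - 1) := by
      have h1 : ∑ i ∈ Finset.univ.erase j, ‖A j i‖ = ∑ i ∈ Finset.univ.erase j, (- f (i : ℕ)) := by
        apply Finset.sum_congr rfl
        intro i hi
        have hij : (i : ℕ) ≠ (j : ℕ) := fun hc => (Finset.ne_of_mem_erase hi) (Fin.ext hc)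
        have := hfneg i (by have := i.2; omega) hij
        show ‖f (i : ℕ)‖ = _
        rw [Real.norm_eq_abs, abs_of_neg this]
      rw [h1, Finset.sum_neg_distrib, Finset.sum_erase_eq_sub (Finset.mem_univ j),
        Fin.sum_univ_eq_sum_range (fun t => f t) (m - 1)]
      have h2 : ∑ t ∈ Finset.range (m - 1 + 1), f t
          = ∑ t ∈ Finset.range (m - 1), f t + f (m - 1) := Finset.sum_range_succ _ _
      have h3 : m - 1 + 1 = m := by omega
      rw [h3, hfsum] at h2
      linarith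
    have hlast : f (m - 1) < 0 := hfneg (m - 1) (by omega) (by omega)
    have hnonneg : 0 ≤ ∑ i ∈ Finset.univ.erase j, ‖A j i‖ :=
      Finset.sum_nonneg (fun i _ => norm_nonneg _)
    have hdiag : ‖A j j‖ = f j := by
      show ‖f (j : ℕ)‖ = _
      rw [Real.norm_eq_abs, abs_of_pos]
      linarith
    rw [hrow, hdiag]
    linarith
  apply Matrix.eq_zero_of_mulVec_eq_zero hA
  ext j
  have := h (m - (j : ℕ))
  simp only [Matrix.mulVec, dotProduct, Pi.zero_apply]
  rw [← this]
  apply Finset.sum_congr rfl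
  intro i _
  show ℓ (m - (j : ℕ) + (i : ℕ)) * n i = _
  ring

end Gershgorin

section GeomSum

theorem geomSum_monic_natDegree (m : ℕ) (hm : 1 ≤ m) :
    (∑ i ∈ Finset.range m, (X : ℤ[X]) ^ i).Monic ∧
      (∑ i ∈ Finset.range m, (X : ℤ[X]) ^ i).natDegree = m - 1 := by
  have hmon : (∑ i ∈ Finset.range m, (X : ℤ[X]) ^ i).Monic :=
    Polynomial.monic_geom_sum_X (by omega)
  refine ⟨hmon, ?_⟩
  have h1 : (∑ i ∈ Finset.range m, (X : ℤ[X]) ^ i) * (X - C 1) = X ^ m - C 1 := by
    rw [map_one]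
    exact geom_sum_mul _ _
  have h2 := congrArg Polynomial.natDegree h1
  rw [hmon.natDegree_mul (Polynomial.monic_X_sub_C (1 : ℤ)), Polynomial.natDegree_X_sub_C,
    Polynomial.natDegree_X_pow_sub_C] at h2
  omega

theorem geomSum_rootMultiplicity_le_one (p : ℕ) [Fact p.Prime] (m : ℕ) (hm : ¬ p ∣ m)
    (c : ZMod p) :
    ((∑ i ∈ Finset.range m, (X : ℤ[X]) ^ i).map (Int.castRingHom (ZMod p))).rootMultiplicity c
      ≤ 1 := by
  have hmap : (∑ i ∈ Finset.range m, (X : ℤ[X]) ^ i).map (Int.castRingHom (ZMod p))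
      = ∑ i ∈ Finset.range m, (X : (ZMod p)[X]) ^ i := by
    simp [Polynomial.map_sum]
  rw [hmap]
  apply Polynomial.rootMultiplicity_le_one_of_separable
  have hsep : (X ^ m - 1 : (ZMod p)[X]).Separable := by
    rw [Polynomial.X_pow_sub_one_separable_iff]
    intro h0
    exact hm ((ZMod.natCast_eq_zero_iff m p).mp h0)
  have h1 : (∑ i ∈ Finset.range m, (X : (ZMod p)[X]) ^ i) * (X - 1) = X ^ m - 1 :=
    geom_sum_mul _ _
  exact hsep.of_dvd ⟨X - 1, h1.symm⟩

end GeomSum

end Fermat.Agent.S14.helper47
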