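import Mathlib
import Fermat.Agent.S14.helper47_UnitEigenLA

/-!
# R2-U, number field part (helper47)

Galois action on the units modulo torsion of a number field, and (for `K = ℚ(ζ_p)`)
the facts needed to compute the characteristic polynomial of a generator of the Galois group
acting on units modulo torsion.
-/

set_option maxSynthPendingDepth 3
set_option linter.unusedSectionVars false

namespace Fermat.Agent.S14.helper47

open NumberField NumberField.Units Polynomial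

section General

variable {K : Type*} [Field K] [NumberField K]

/-- The action of `Gal(K/ℚ)` on the units of `𝓞 K`. -/
noncomputable def unitAct (σ : K ≃ₐ[ℚ] K) : (𝓞 K)ˣ →* (𝓞 K)ˣ :=
  Units.map (MonoidHomClass.toMonoidHom (galRestrict ℤ ℚ K (𝓞 K) σ))

theorem unitAct_coe (σ : K ≃ₐ[ℚ] K) (u : (𝓞 K)ˣ) :
    ((unitAct σ u : (𝓞 K)ˣ) : 𝓞 K) = galRestrict ℤ ℚ K (𝓞 K) σ (u : 𝓞 K) := rfl

theorem unitAct_coe_field (σ : K ≃ₐ[ℚ] K) (u : (𝓞 K)ˣ) :
    (((unitAct σ u : (𝓞 K)ˣ) : 𝓞 K) : K) = σ ((u : 𝓞 K) : K) := by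
  rw [unitAct_coe]
  exact algebraMap_galRestrict_apply ℤ σ (u : 𝓞 K)

theorem unitAct_mul (σ τ : K ≃ₐ[ℚ] K) (u : (𝓞 K)ˣ) :
    unitAct (σ * τ) u = unitAct σ (unitAct τ u) := by
  apply Units.ext
  apply RingOfIntegers.ext
  rw [unitAct_coe_field, unitAct_coe_field, unitAct_coe_field]
  rfl

theorem unitAct_one (u : (𝓞 K)ˣ) : unitAct (1 : K ≃ₐ[ℚ] K) u = u := by
  apply Units.ext
  apply RingOfIntegers.ext
  rw [unitAct_coe_field]
  rfl

/-- Units modulo torsion, as an additive group. -/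
abbrev Lam (K : Type*) [Field K] : Type _ := Additive ((𝓞 K)ˣ ⧸ torsion K)

/-- The class of a unit in `Lam K`. -/
def toLam (u : (𝓞 K)ˣ) : Lam K := Additive.ofMul (QuotientGroup.mk u)

theorem toLam_mul (x y : (𝓞 K)ˣ) : toLam (x * y) = toLam x + toLam y := rfl

theorem toLam_one : toLam (1 : (𝓞 K)ˣ) = 0 := rfl

theorem toLam_inv (x : (𝓞 K)ˣ) : toLam x⁻¹ = - toLam x := rfl

theorem toLam_pow (x : (𝓞 K)ˣ) (n : ℕ) : toLam (x ^ n) = n • toLam x := rfl

theorem toLam_zpow (x : (𝓞 K)ˣ) (n : ℤ) : toLam (x ^ n) = n • toLam x := rfl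

theorem toLam_prod {ι : Type*} (s : Finset ι) (f : ι → (𝓞 K)ˣ) :
    toLam (∏ i ∈ s, f i) = ∑ i ∈ s, toLam (f i) := by
  classical
  induction s using Finset.induction_on with
  | empty => simp [toLam_one]
  | insert a s ha ih => rw [Finset.prod_insert ha, Finset.sum_insert ha, toLam_mul, ih]

theorem toLam_eq_zero_iff (x : (𝓞 K)ˣ) : toLam x = 0 ↔ x ∈ torsion K := by
  unfold toLam
  rw [ofMul_eq_zero, QuotientGroup.eq_one_iff]

theorem toLam_surjective : Function.Surjective (toLam : (𝓞 K)ˣ → Lam K) := by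
  intro z
  obtain ⟨u, hu⟩ := QuotientGroup.mk_surjective (Additive.toMul z)
  exact ⟨u, by unfold toLam; rw [hu]; rfl⟩

theorem torsion_le_comap (f : (𝓞 K)ˣ →* (𝓞 K)ˣ) : torsion K ≤ (torsion K).comap f := by
  intro x hx
  rw [Subgroup.mem_comap]
  unfold torsion at hx ⊢
  rw [CommGroup.mem_torsion] at hx ⊢
  exact f.isOfFinOrder hx

/-- The endomorphism of `Lam K` induced by an endomorphism of the unit group. -/
noncomputable def lamEnd (f : (𝓞 K)ˣ →* (𝓞 K)ˣ) : Module.End ℤ (Lam K) :=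
  (MonoidHom.toAdditive
    (QuotientGroup.map (torsion K) (torsion K) f (torsion_le_comap f))).toIntLinearMap

theorem lamEnd_toLam (f : (𝓞 K)ˣ →* (𝓞 K)ˣ) (x : (𝓞 K)ˣ) :
    lamEnd f (toLam x) = toLam (f x) := rfl

/-- The Galois action on `Lam K`. -/
noncomputable def galLam (σ : K ≃ₐ[ℚ] K) : Module.End ℤ (Lam K) := lamEnd (unitAct σ)

theorem galLam_toLam (σ : K ≃ₐ[ℚ] K) (x : (𝓞 K)ˣ) :
    galLam σ (toLam x) = toLam (unitAct σ x) := rfl

theorem galLam_mul (σ τ : K ≃ₐ[ℚ] K) : galLam (σ * τ) = galLam σ * galLam τ := by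
  apply LinearMap.ext
  intro z
  obtain ⟨x, rfl⟩ := toLam_surjective z
  rw [Module.End.mul_apply, galLam_toLam, galLam_toLam, galLam_toLam, unitAct_mul]

theorem galLam_one : galLam (1 : K ≃ₐ[ℚ] K) = 1 := by
  apply LinearMap.ext
  intro z
  obtain ⟨x, rfl⟩ := toLam_surjective z
  rw [galLam_toLam, unitAct_one]
  rfl

theorem galLam_pow (σ : K ≃ₐ[ℚ] K) (k : ℕ) : galLam (σ ^ k) = galLam σ ^ k := by
  induction k with
  | zero => rw [pow_zero, pow_zero, galLam_one]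
  | succ k ih => rw [pow_succ, pow_succ, galLam_mul, ih]

theorem galLam_pow_toLam (σ : K ≃ₐ[ℚ] K) (k : ℕ) (x : (𝓞 K)ˣ) :
    (galLam σ ^ k) (toLam x) = toLam (unitAct (σ ^ k) x) := by
  rw [← galLam_pow, galLam_toLam]

end General

end Fermat.Agent.S14.helper47
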