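import Mathlib
import Fermat.Agent.S14.helper47_UnitEigenNF

/-!
# R2-U (helper47): the `ω²`-eigenspace of the units of `ℚ(ζ_p)` modulo `p`-th powers
has dimension at most one.

Main result: `Fermat.Agent.S14.helper47.unit_eigenspace_dim_le_one`.

Proof: let `σ` generate `Gal(K/ℚ)` (`σ ζ = ζ ^ g`, `g` a primitive root mod `p`), `m = (p-1)/2`
and `Λ = units / torsion` (free of rank `m - 1`).  The norm relation and the fact that
`σ ^ m` is complex conjugation give `(1 + X + ... + X^(m-1))(σ) = 0` on `Λ`; a unit with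
`log |ε|_w < 0` at all places but one is a cyclic vector (strict diagonal dominance), so
`charpoly (σ | Λ) = 1 + X + ... + X^(m-1)`, which is separable mod `p`; hence each eigenspace
of `σ` on `Λ / pΛ` is at most one-dimensional.  The torsion `μ_{2p}` is handled separately
(`ζ` lies in the `ω`-eigenspace, and `ω ≠ ω²`).
-/

set_option maxSynthPendingDepth 3
set_option linter.unusedSectionVars false
set_option linter.style.haveILetI false

namespace Fermat.Agent.S14.helper47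

open NumberField NumberField.Units

section Cyclo

variable {p : ℕ} [Fact p.Prime] {K : Type*} [Field K] [NumberField K]
  [IsCyclotomicExtension {p} ℚ K]

theorem ringHom_ext_zeta {ζ : K} (hζ : IsPrimitiveRoot ζ p) {L : Type*} [Field L] [CharZero L]
    (φ ψ : K →+* L) (h : φ ζ = ψ ζ) : φ = ψ := by
  haveI : NeZero p := ⟨(Fact.out : p.Prime).ne_zero⟩
  have key := (hζ.powerBasis ℚ).algHom_ext (f := φ.toRatAlgHom) (g := ψ.toRatAlgHom)
    (by simpa using h)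
  ext x
  exact DFunLike.congr_fun key x

theorem algEquiv_ext_zeta {ζ : K} (hζ : IsPrimitiveRoot ζ p)
    (σ τ : K ≃ₐ[ℚ] K) (h : σ ζ = τ ζ) : σ = τ := by
  have := ringHom_ext_zeta hζ (σ : K →+* K) (τ : K →+* K) h
  ext x
  exact DFunLike.congr_fun this x

theorem exists_gal_generator {ζ : K} (hζ : IsPrimitiveRoot ζ p) :
    ∃ (σ : K ≃ₐ[ℚ] K) (g : ℕ), σ ζ = ζ ^ g ∧ orderOf σ = p - 1 ∧
      orderOf (g : ZMod p) = p - 1 ∧ (∀ τ : K ≃ₐ[ℚ] K, τ ∈ Subgroup.zpowers σ) := by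
  haveI : NeZero p := ⟨(Fact.out : p.Prime).ne_zero⟩
  have hirr : Irreducible (Polynomial.cyclotomic p ℚ) := Polynomial.cyclotomic.irreducible_rat (Fact.out : p.Prime).pos
  let e := IsCyclotomicExtension.autEquivPow K hirr
  obtain ⟨γ, hγ⟩ := IsCyclic.exists_generator (α := (ZMod p)ˣ)
  have hordγ : orderOf γ = p - 1 := by
    rw [orderOf_eq_card_of_forall_mem_zpowers hγ, Nat.card_eq_fintype_card, ZMod.card_units]
  refine ⟨e.symm γ, ((γ : ZMod p)).val, ?_, ?_, ?_, ?_⟩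
  · -- action on ζ
    have h1 := (IsCyclotomicExtension.zeta_spec p ℚ K).autToPow_spec ℚ (e.symm γ)
    have h2 : (IsCyclotomicExtension.zeta_spec p ℚ K).autToPow ℚ (e.symm γ) = γ :=
      e.apply_symm_apply γ
    rw [h2] at h1
    obtain ⟨a, -, ha⟩ := (IsCyclotomicExtension.zeta_spec p ℚ K).eq_pow_of_pow_eq_one hζ.pow_eq_one
    rw [← ha, map_pow, ← h1, ← pow_mul, ← pow_mul, mul_comm]
  · rw [MulEquiv.orderOf_eq e.symm γ, hordγ]
  · rw [ZMod.natCast_zmod_val, orderOf_units, hordγ]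
  · intro τ
    obtain ⟨k, hk⟩ := Subgroup.mem_zpowers_iff.mp (hγ (e τ))
    refine Subgroup.mem_zpowers_iff.mpr ⟨k, ?_⟩
    rw [← map_zpow, hk, e.symm_apply_apply]

end Cyclo

section LogAt

variable {K : Type*} [Field K] [NumberField K]

/-- `log |φ(x)|` for a unit `x` and a complex embedding `φ`. -/
noncomputable def logAt (φ : K →+* ℂ) (x : (𝓞 K)ˣ) : ℝ := Real.log ‖φ ((x : 𝓞 K) : K)‖

theorem norm_embedding_unit_ne_zero (φ : K →+* ℂ) (x : (𝓞 K)ˣ) : ‖φ ((x : 𝓞 K) : K)‖ ≠ 0 := by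
  rw [norm_ne_zero_iff, _root_.map_ne_zero]
  exact NumberField.Units.coe_ne_zero x

theorem logAt_one (φ : K →+* ℂ) : logAt φ (1 : (𝓞 K)ˣ) = 0 := by
  simp [logAt]

theorem logAt_mul (φ : K →+* ℂ) (x y : (𝓞 K)ˣ) : logAt φ (x * y) = logAt φ x + logAt φ y := by
  unfold logAt
  have h : (((x * y : (𝓞 K)ˣ) : 𝓞 K) : K) = ((x : 𝓞 K) : K) * ((y : 𝓞 K) : K) := by
    rw [Units.val_mul]
    exact map_mul (algebraMap (𝓞 K) K) _ _
  rw [h, map_mul, norm_mul,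
    Real.log_mul (norm_embedding_unit_ne_zero φ x) (norm_embedding_unit_ne_zero φ y)]

theorem logAt_prod (φ : K →+* ℂ) {ι : Type*} (s : Finset ι) (f : ι → (𝓞 K)ˣ) :
    logAt φ (∏ i ∈ s, f i) = ∑ i ∈ s, logAt φ (f i) := by
  classical
  induction s using Finset.induction_on with
  | empty => simp [logAt_one]
  | insert a s ha ih => rw [Finset.prod_insert ha, Finset.sum_insert ha, logAt_mul, ih]

theorem logAt_inv (φ : K →+* ℂ) (x : (𝓞 K)ˣ) : logAt φ x⁻¹ = - logAt φ x := by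
  have h := logAt_mul φ x x⁻¹
  rw [mul_inv_cancel, logAt_one] at h
  linarith

theorem logAt_pow (φ : K →+* ℂ) (x : (𝓞 K)ˣ) (n : ℕ) : logAt φ (x ^ n) = n * logAt φ x := by
  induction n with
  | zero => simp [logAt_one]
  | succ n ih => rw [pow_succ, logAt_mul, ih]; push_cast; ring

theorem logAt_zpow (φ : K →+* ℂ) (x : (𝓞 K)ˣ) (n : ℤ) : logAt φ (x ^ n) = n * logAt φ x := by
  cases n with
  | ofNat n => simpa using logAt_pow φ x n
  | negSucc n =>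
    rw [zpow_negSucc, logAt_inv, logAt_pow]
    push_cast [Int.negSucc_eq]
    ring

theorem logAt_unitAct (φ : K →+* ℂ) (τ : K ≃ₐ[ℚ] K) (x : (𝓞 K)ˣ) :
    logAt φ (unitAct τ x) = logAt (φ.comp (τ : K →+* K)) x := by
  unfold logAt
  rw [unitAct_coe_field]
  rfl

theorem logAt_eq_zero_of_mem_torsion (φ : K →+* ℂ) {x : (𝓞 K)ˣ} (hx : x ∈ torsion K) :
    logAt φ x = 0 := by
  have h := (mem_torsion K).mp hx (InfinitePlace.mk φ)
  unfold logAt
  rw [InfinitePlace.apply] at h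
  rw [h, Real.log_one]

/-- The product of all Galois conjugates of a unit has absolute value one. -/
theorem sum_logAt_gal [IsGalois ℚ K] (φ : K →+* ℂ) (x : (𝓞 K)ˣ) :
    ∑ τ : K ≃ₐ[ℚ] K, logAt φ (unitAct τ x) = 0 := by
  have h1 : ∀ τ : K ≃ₐ[ℚ] K, logAt φ (unitAct τ x) = Real.log ‖φ (τ ((x : 𝓞 K) : K))‖ := by
    intro τ
    unfold logAt
    rw [unitAct_coe_field]
  simp_rw [h1]
  rw [← Real.log_prod]
  · rw [← norm_prod, ← map_prod, ← Algebra.norm_eq_prod_automorphisms ℚ ((x : 𝓞 K) : K)]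
    have h2 : φ (algebraMap ℚ K (Algebra.norm ℚ ((x : 𝓞 K) : K)))
        = ((Algebra.norm ℚ ((x : 𝓞 K) : K) : ℚ) : ℂ) := by
      simp
    rw [h2]
    have h3 : ‖((Algebra.norm ℚ ((x : 𝓞 K) : K) : ℚ) : ℂ)‖ = 1 := by
      have h4 := NumberField.Units.norm K x
      rw [Complex.norm_ratCast]
      exact_mod_cast h4
    rw [h3, Real.log_one]
  · intro τ _
    rw [norm_ne_zero_iff, _root_.map_ne_zero, _root_.map_ne_zero]
    exact NumberField.Units.coe_ne_zero x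

end LogAt

section CycloEmb

variable {p : ℕ} [Fact p.Prime] {K : Type*} [Field K] [NumberField K]
  [IsCyclotomicExtension {p} ℚ K]

theorem pow_sigma_zeta {ζ : K} (σ : K ≃ₐ[ℚ] K) (g : ℕ) (hσ : σ ζ = ζ ^ g) (k : ℕ) :
    (σ ^ k) ζ = ζ ^ (g ^ k) := by
  induction k with
  | zero => simp
  | succ k ih =>
    rw [pow_succ, AlgEquiv.mul_apply, hσ, map_pow, ih, ← pow_mul, pow_succ]

theorem two_mul_half (hp : 5 ≤ p) : 2 * ((p - 1) / 2) = p - 1 := by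
  have hodd : Odd p := (Fact.out : p.Prime).odd_of_ne_two (by omega)
  obtain ⟨k, hk⟩ := hodd
  omega

theorem gen_pow_half {g : ℕ} (hp : 5 ≤ p) (hg : orderOf (g : ZMod p) = p - 1) :
    (g : ZMod p) ^ ((p - 1) / 2) = -1 := by
  have hm2 := two_mul_half (p := p) hp
  have h1 : ((g : ZMod p) ^ ((p - 1) / 2)) ^ 2 = 1 := by
    rw [← pow_mul, mul_comm, hm2, ← hg, pow_orderOf_eq_one]
  have h2 : (g : ZMod p) ^ ((p - 1) / 2) ≠ 1 := by
    intro h
    have h3 := orderOf_dvd_of_pow_eq_one h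
    rw [hg] at h3
    have h4 := Nat.le_of_dvd (by omega) h3
    omega
  rcases sq_eq_one_iff.mp h1 with h | h
  · exact absurd h h2
  · exact h

theorem sigma_half_zeta {ζ : K} (hζ : IsPrimitiveRoot ζ p) (hp : 5 ≤ p) (σ : K ≃ₐ[ℚ] K) (g : ℕ)
    (hσ : σ ζ = ζ ^ g) (hg : orderOf (g : ZMod p) = p - 1) :
    (σ ^ ((p - 1) / 2)) ζ * ζ = 1 := by
  rw [pow_sigma_zeta σ g hσ, ← pow_succ]
  apply (hζ.pow_eq_one_iff_dvd _).mpr
  apply (ZMod.natCast_eq_zero_iff _ p).mp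
  push_cast
  rw [gen_pow_half hp hg]
  ring

theorem sigma_half_conj {ζ : K} (hζ : IsPrimitiveRoot ζ p) (hp : 5 ≤ p) (σ : K ≃ₐ[ℚ] K) (g : ℕ)
    (hσ : σ ζ = ζ ^ g) (hg : orderOf (g : ZMod p) = p - 1) (φ : K →+* ℂ) (x : K) :
    φ ((σ ^ ((p - 1) / 2)) x) = (starRingEnd ℂ) (φ x) := by
  have hp0 : p ≠ 0 := (Fact.out : p.Prime).ne_zero
  have key : φ.comp ((σ ^ ((p - 1) / 2) : K ≃ₐ[ℚ] K) : K →+* K) = (starRingEnd ℂ).comp φ := by
    apply ringHom_ext_zeta hζ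
    show φ ((σ ^ ((p - 1) / 2)) ζ) = (starRingEnd ℂ) (φ ζ)
    have h1 : φ ((σ ^ ((p - 1) / 2)) ζ) * φ ζ = 1 := by
      rw [← map_mul, sigma_half_zeta hζ hp σ g hσ hg, map_one]
    have h2 : ‖φ ζ‖ = 1 := by
      apply Complex.norm_eq_one_of_pow_eq_one (n := p) _ hp0
      rw [← map_pow, hζ.pow_eq_one, map_one]
    have h3 : (starRingEnd ℂ) (φ ζ) * φ ζ = 1 := by
      rw [mul_comm, Complex.mul_conj, Complex.normSq_eq_norm_sq, h2]
      simp
    have hne : φ ζ ≠ 0 := by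
      intro h0
      rw [h0, mul_zero] at h1
      exact zero_ne_one h1
    exact mul_right_cancel₀ hne (h1.trans h3.symm)
  exact DFunLike.congr_fun key x

omit [Fact p.Prime] [IsCyclotomicExtension {p} ℚ K] in
theorem exists_pow_embedding [IsGalois ℚ K] (σ : K ≃ₐ[ℚ] K)
    (hgen : ∀ τ : K ≃ₐ[ℚ] K, τ ∈ Subgroup.zpowers σ) (φ₀ φ : K →+* ℂ) :
    ∃ k : ℕ, ∀ x, φ x = φ₀ ((σ ^ k) x) := by
  let f : (K ≃ₐ[ℚ] K) → (K →+* ℂ) := fun τ => φ₀.comp (τ : K →+* K)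
  have hinj : Function.Injective f := by
    intro τ τ' h
    ext x
    have := DFunLike.congr_fun h x
    exact φ₀.injective this
  have hbij : Function.Bijective f := by
    apply hinj.bijective_of_nat_card_le
    rw [IsGalois.card_aut_eq_finrank, Nat.card_eq_fintype_card, NumberField.Embeddings.card]
  obtain ⟨τ, hτ⟩ := hbij.2 φ
  have hmem := hgen τ
  rw [← mem_powers_iff_mem_zpowers, Submonoid.mem_powers_iff] at hmem
  obtain ⟨k, hk⟩ := hmem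
  refine ⟨k, fun x => ?_⟩
  rw [hk, ← hτ]
  rfl

omit [Fact p.Prime] [IsCyclotomicExtension {p} ℚ K] in
theorem mem_torsion_of_logAt [IsGalois ℚ K] (σ : K ≃ₐ[ℚ] K)
    (hgen : ∀ τ : K ≃ₐ[ℚ] K, τ ∈ Subgroup.zpowers σ) (φ₀ : K →+* ℂ) (x : (𝓞 K)ˣ)
    (h : ∀ k : ℕ, logAt φ₀ (unitAct (σ ^ k) x) = 0) : x ∈ torsion K := by
  rw [mem_torsion K]
  intro w
  obtain ⟨k, hk⟩ := exists_pow_embedding σ hgen φ₀ w.embedding
  rw [← InfinitePlace.mk_embedding w, InfinitePlace.apply, hk]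
  have h1 := h k
  unfold logAt at h1
  rw [unitAct_coe_field] at h1
  apply Real.eq_one_of_pos_of_log_eq_zero _ h1
  rw [norm_pos_iff, _root_.map_ne_zero, _root_.map_ne_zero]
  exact NumberField.Units.coe_ne_zero x

theorem logAt_period {ζ : K} (hζ : IsPrimitiveRoot ζ p) (hp : 5 ≤ p) (σ : K ≃ₐ[ℚ] K) (g : ℕ)
    (hσ : σ ζ = ζ ^ g) (hg : orderOf (g : ZMod p) = p - 1) (φ₀ : K →+* ℂ) (x : (𝓞 K)ˣ) (k : ℕ) :
    logAt φ₀ (unitAct (σ ^ (k + (p - 1) / 2)) x) = logAt φ₀ (unitAct (σ ^ k) x) := by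
  unfold logAt
  rw [unitAct_coe_field, unitAct_coe_field, add_comm, pow_add, AlgEquiv.mul_apply,
    sigma_half_conj hζ hp σ g hσ hg, RCLike.norm_conj]

theorem sum_logAt_half {ζ : K} (hζ : IsPrimitiveRoot ζ p) (hp : 5 ≤ p) (σ : K ≃ₐ[ℚ] K) (g : ℕ)
    (hσ : σ ζ = ζ ^ g) (hord : orderOf σ = p - 1) (hg : orderOf (g : ZMod p) = p - 1)
    (hgen : ∀ τ : K ≃ₐ[ℚ] K, τ ∈ Subgroup.zpowers σ) (φ₀ : K →+* ℂ) (x : (𝓞 K)ˣ) :
    ∑ t ∈ Finset.range ((p - 1) / 2), logAt φ₀ (unitAct (σ ^ t) x) = 0 := by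
  classical
  haveI : NeZero p := ⟨(Fact.out : p.Prime).ne_zero⟩
  haveI : IsGalois ℚ K := IsCyclotomicExtension.isGalois {p} ℚ K
  have h1 := sum_logAt_gal φ₀ x
  rw [← IsCyclic.image_range_orderOf hgen, Finset.sum_image, hord, ← two_mul_half hp, two_mul,
    Finset.sum_range_add] at h1
  · have h2 : ∑ t ∈ Finset.range ((p - 1) / 2), logAt φ₀ (unitAct (σ ^ ((p - 1) / 2 + t)) x)
        = ∑ t ∈ Finset.range ((p - 1) / 2), logAt φ₀ (unitAct (σ ^ t) x) := by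
      apply Finset.sum_congr rfl
      intro t _
      rw [add_comm, logAt_period hζ hp σ g hσ hg]
    rw [h2] at h1
    linarith
  · intro a ha b hb hab
    exact pow_injOn_Iio_orderOf (by simpa using ha) (by simpa using hb) hab

theorem exists_minkowski_unit {ζ : K} (hζ : IsPrimitiveRoot ζ p) (hp : 5 ≤ p) (σ : K ≃ₐ[ℚ] K)
    (g : ℕ) (hσ : σ ζ = ζ ^ g) (hord : orderOf σ = p - 1) (hg : orderOf (g : ZMod p) = p - 1)
    (φ₀ : K →+* ℂ) :
    ∃ ε : (𝓞 K)ˣ, ∀ t : ℕ, ¬ ((p - 1) / 2) ∣ t → logAt φ₀ (unitAct (σ ^ t) ε) < 0 := by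
  obtain ⟨ε, hε⟩ := NumberField.Units.dirichletUnitTheorem.exists_unit K (InfinitePlace.mk φ₀)
  refine ⟨ε, fun t ht => ?_⟩
  have hm2 := two_mul_half (p := p) hp
  have hw : InfinitePlace.mk (φ₀.comp ((σ ^ t : K ≃ₐ[ℚ] K) : K →+* K)) ≠ InfinitePlace.mk φ₀ := by
    intro heq
    rw [InfinitePlace.mk_eq_iff] at heq
    rcases heq with h | h
    · -- σ^t = 1
      have h1 : (σ ^ t) = 1 := by
        apply algEquiv_ext_zeta hζ
        have := DFunLike.congr_fun h ζ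
        exact φ₀.injective this
      have h2 := orderOf_dvd_of_pow_eq_one h1
      rw [hord, ← hm2] at h2
      exact ht (dvd_trans (dvd_mul_left _ _) h2)
    · -- σ^t = σ^m
      have h1 : (σ ^ t) = σ ^ ((p - 1) / 2) := by
        apply algEquiv_ext_zeta hζ
        apply φ₀.injective
        have h3 := DFunLike.congr_fun h ζ
        have h4 := sigma_half_conj hζ hp σ g hσ hg φ₀ ζ
        rw [h4, ← h3]
        show φ₀ ((σ ^ t) ζ) = (starRingEnd ℂ) ((starRingEnd ℂ) (φ₀ ((σ ^ t) ζ)))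
        rw [Complex.conj_conj]
      have h1' : t ≡ (p - 1) / 2 [MOD 2 * ((p - 1) / 2)] := by
        have h6 := pow_eq_pow_iff_modEq.mp h1
        rw [hm2]
        rw [hord] at h6
        exact h6
      have h5 : ((p - 1) / 2) ∣ 2 * ((p - 1) / 2) := dvd_mul_left _ _
      exact ht ((h1'.dvd_iff h5).mpr dvd_rfl)
  have := hε _ hw
  rw [InfinitePlace.apply] at this
  unfold logAt
  rw [unitAct_coe_field]
  exact this

theorem finrank_lam (hp : 5 ≤ p) : Module.finrank ℤ (Lam K) = (p - 1) / 2 - 1 := by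
  haveI : NeZero p := ⟨(Fact.out : p.Prime).ne_zero⟩
  rw [finrank_modTorsion, NumberField.Units.rank,
    InfinitePlace.card_eq_nrRealPlaces_add_nrComplexPlaces,
    IsCyclotomicExtension.Rat.nrRealPlaces_eq_zero K (by omega : 2 < p),
    IsCyclotomicExtension.Rat.nrComplexPlaces_eq_totient_div_two p K,
    Nat.totient_prime Fact.out, zero_add]

theorem logAt_unitAct_pow_pow (σ : K ≃ₐ[ℚ] K) (φ₀ : K →+* ℂ) (x : (𝓞 K)ˣ) (k i : ℕ) :
    logAt φ₀ (unitAct (σ ^ k) (unitAct (σ ^ i) x)) = logAt φ₀ (unitAct (σ ^ (k + i)) x) := by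
  rw [pow_add, unitAct_mul]

theorem geomSum_galLam_apply {ζ : K} (hζ : IsPrimitiveRoot ζ p) (hp : 5 ≤ p) (σ : K ≃ₐ[ℚ] K)
    (g : ℕ) (hσ : σ ζ = ζ ^ g) (hord : orderOf σ = p - 1) (hg : orderOf (g : ZMod p) = p - 1)
    (hgen : ∀ τ : K ≃ₐ[ℚ] K, τ ∈ Subgroup.zpowers σ) (x : (𝓞 K)ˣ) :
    Polynomial.aeval (galLam σ)
      (∑ i ∈ Finset.range ((p - 1) / 2), (Polynomial.X : Polynomial ℤ) ^ i) (toLam x) = 0 := by
  haveI : NeZero p := ⟨(Fact.out : p.Prime).ne_zero⟩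
  haveI : IsGalois ℚ K := IsCyclotomicExtension.isGalois {p} ℚ K
  obtain ⟨φ₀⟩ : Nonempty (K →+* ℂ) := inferInstance
  rw [map_sum, LinearMap.sum_apply]
  simp only [map_pow, Polynomial.aeval_X, galLam_pow_toLam]
  rw [← toLam_prod, toLam_eq_zero_iff]
  apply mem_torsion_of_logAt σ hgen φ₀
  intro k
  rw [map_prod, logAt_prod]
  simp only [logAt_unitAct_pow_pow]
  rw [periodic_sum_shift ((p - 1) / 2) (fun t => logAt φ₀ (unitAct (σ ^ t) x))
    (fun t => logAt_period hζ hp σ g hσ hg φ₀ x t) k]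
  exact sum_logAt_half hζ hp σ g hσ hord hg hgen φ₀ x

theorem minkowski_linearIndependent {ζ : K} (hζ : IsPrimitiveRoot ζ p) (hp : 5 ≤ p)
    (σ : K ≃ₐ[ℚ] K)
    (g : ℕ) (hσ : σ ζ = ζ ^ g) (hord : orderOf σ = p - 1) (hg : orderOf (g : ZMod p) = p - 1)
    (hgen : ∀ τ : K ≃ₐ[ℚ] K, τ ∈ Subgroup.zpowers σ) :
    ∃ ε : (𝓞 K)ˣ, LinearIndependent ℤ
      (fun i : Fin ((p - 1) / 2 - 1) => (galLam σ ^ (i : ℕ)) (toLam ε)) := by
  haveI : NeZero p := ⟨(Fact.out : p.Prime).ne_zero⟩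
  haveI : IsGalois ℚ K := IsCyclotomicExtension.isGalois {p} ℚ K
  obtain ⟨φ₀⟩ : Nonempty (K →+* ℂ) := inferInstance
  obtain ⟨ε, hε⟩ := exists_minkowski_unit hζ hp σ g hσ hord hg φ₀
  refine ⟨ε, ?_⟩
  rw [Fintype.linearIndependent_iff]
  intro n hn
  simp only [galLam_pow_toLam] at hn
  have h1 : toLam (∏ i : Fin ((p - 1) / 2 - 1), (unitAct (σ ^ (i : ℕ)) ε) ^ (n i)) = 0 := by
    rw [toLam_prod, ← hn]
    apply Finset.sum_congr rfl
    intro i _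
    rw [toLam_zpow]
  rw [toLam_eq_zero_iff] at h1
  have h2 : ∀ k : ℕ, ∑ i : Fin ((p - 1) / 2 - 1),
      (n i : ℝ) * logAt φ₀ (unitAct (σ ^ (k + (i : ℕ))) ε) = 0 := by
    intro k
    have h3 := logAt_eq_zero_of_mem_torsion φ₀ (torsion_le_comap (unitAct (σ ^ k)) h1)
    rw [map_prod, logAt_prod] at h3
    rw [← h3]
    apply Finset.sum_congr rfl
    intro i _
    rw [map_zpow, logAt_zpow, logAt_unitAct_pow_pow]
  have h4 := cyclic_log_matrix_injective ((p - 1) / 2)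
    (fun t => logAt φ₀ (unitAct (σ ^ t) ε))
    (fun t => logAt_period hζ hp σ g hσ hg φ₀ ε t) hε
    (sum_logAt_half hζ hp σ g hσ hord hg hgen φ₀ ε) (fun i => (n i : ℝ)) h2
  intro i
  have := congrFun h4 i
  simpa using this

theorem unit_coe_mul (x y : (𝓞 K)ˣ) :
    (((x * y : (𝓞 K)ˣ) : 𝓞 K) : K) = ((x : 𝓞 K) : K) * ((y : 𝓞 K) : K) := by
  rw [Units.val_mul]
  exact map_mul (algebraMap (𝓞 K) K) _ _

theorem unit_coe_pow (x : (𝓞 K)ˣ) (n : ℕ) :
    (((x ^ n : (𝓞 K)ˣ) : 𝓞 K) : K) = ((x : 𝓞 K) : K) ^ n := by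
  rw [Units.val_pow_eq_pow_val]
  exact map_pow (algebraMap (𝓞 K) K) _ _

theorem isOfFinOrder_coe_of_mem_torsion {x : (𝓞 K)ˣ} (hx : x ∈ torsion K) :
    IsOfFinOrder (((x : 𝓞 K)) : K) := by
  have h1 : IsOfFinOrder x := by
    unfold torsion at hx
    rw [CommGroup.mem_torsion] at hx
    exact hx
  exact (((algebraMap (𝓞 K) K : 𝓞 K →* K)).comp (Units.coeHom (𝓞 K))).isOfFinOrder h1

theorem torsion_eigen_is_pow {ζ : K} (hζ : IsPrimitiveRoot ζ p) (hp : 5 ≤ p) (σ : K ≃ₐ[ℚ] K)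
    (g : ℕ) (hσ : σ ζ = ζ ^ g) (hg : orderOf (g : ZMod p) = p - 1) (t w : (𝓞 K)ˣ)
    (ht : t ∈ torsion K) (h : unitAct σ t = t ^ (g ^ 2) * w ^ p) : t ^ p = t := by
  haveI : NeZero p := ⟨(Fact.out : p.Prime).ne_zero⟩
  have hp0 : p ≠ 0 := (Fact.out : p.Prime).ne_zero
  have hodd : Odd p := (Fact.out : p.Prime).odd_of_ne_two (by omega)
  -- `w` is torsion as well
  have hw : w ∈ torsion K := by
    have h1 : w ^ p = unitAct σ t * (t ^ (g ^ 2))⁻¹ := by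
      rw [h, mul_comm (t ^ (g ^ 2)), mul_inv_cancel_right]
    have h2 : w ^ p ∈ torsion K := by
      rw [h1]
      exact Subgroup.mul_mem _ (torsion_le_comap _ ht)
        (Subgroup.inv_mem _ (Subgroup.pow_mem _ ht _))
    unfold torsion at h2 ⊢
    rw [CommGroup.mem_torsion] at h2 ⊢
    exact h2.of_pow hp0
  obtain ⟨r, hr, hT⟩ := hζ.exists_pow_or_neg_mul_pow_of_isOfFinOrder hodd
    (isOfFinOrder_coe_of_mem_torsion ht)
  obtain ⟨b, -, hW⟩ := hζ.exists_pow_or_neg_mul_pow_of_isOfFinOrder hodd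
    (isOfFinOrder_coe_of_mem_torsion hw)
  have hW2p : (((w : 𝓞 K)) : K) ^ (2 * p) = 1 := by
    have h1 : (ζ ^ b) ^ (2 * p) = 1 := by
      rw [← pow_mul, show b * (2 * p) = p * (b * 2) by ring, pow_mul, hζ.pow_eq_one, one_pow]
    rcases hW with hW | hW
    · rw [hW, h1]
    · rw [hW, pow_mul, neg_sq, ← pow_mul, h1]
  have hT2 : (((t : 𝓞 K)) : K) ^ 2 = ζ ^ (2 * r) := by
    rcases hT with hT | hT
    · rw [hT, ← pow_mul, mul_comm]
    · rw [hT, neg_sq, ← pow_mul, mul_comm]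
  have hK : σ (((t : 𝓞 K)) : K) = (((t : 𝓞 K)) : K) ^ (g ^ 2) * (((w : 𝓞 K)) : K) ^ p := by
    rw [← unitAct_coe_field, h, unit_coe_mul, unit_coe_pow, unit_coe_pow]
  have h1 : σ ((((t : 𝓞 K)) : K) ^ 2) = ζ ^ (2 * r * g) := by
    rw [hT2, map_pow, hσ, ← pow_mul, mul_comm]
  have h2 : σ ((((t : 𝓞 K)) : K) ^ 2) = ζ ^ (2 * r * g ^ 2) := by
    rw [map_pow, hK, mul_pow, ← pow_mul, mul_comm (g ^ 2) 2, pow_mul, hT2, ← pow_mul,
      ← pow_mul, mul_comm p 2, hW2p, mul_one]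
  have h3 : ζ ^ (2 * r * g) = ζ ^ (2 * r * g ^ 2) := h1.symm.trans h2
  have h4 : ((2 * r * g : ℕ) : ZMod p) = ((2 * r * g ^ 2 : ℕ) : ZMod p) := by
    rw [ZMod.natCast_eq_natCast_iff]
    have hpos : 0 < p := Nat.pos_of_ne_zero hp0
    have h5 : ζ ^ ((2 * r * g) % p) = ζ ^ ((2 * r * g ^ 2) % p) := by
      have e1 := pow_mod_orderOf ζ (2 * r * g)
      have e2 := pow_mod_orderOf ζ (2 * r * g ^ 2)
      rw [← hζ.eq_orderOf] at e1 e2
      rw [e1, e2, h3]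
    exact hζ.pow_inj (Nat.mod_lt _ hpos) (Nat.mod_lt _ hpos) h5
  have hg0 : (g : ZMod p) ≠ 0 := by
    intro h0
    have h5 : (g : ZMod p) ^ (p - 1) = 1 := by rw [← hg, pow_orderOf_eq_one]
    rw [h0, zero_pow (by omega)] at h5
    exact zero_ne_one h5
  have hg1 : (g : ZMod p) ≠ 1 := by
    intro h0
    rw [h0, orderOf_one] at hg
    omega
  have h20 : (2 : ZMod p) ≠ 0 := by
    intro h0
    have h5 : ((2 : ℕ) : ZMod p) = 0 := by exact_mod_cast h0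
    rw [ZMod.natCast_eq_zero_iff] at h5
    have := Nat.le_of_dvd (by norm_num) h5
    omega
  have h5 : (r : ZMod p) = 0 := by
    push_cast at h4
    have h6 : (2 : ZMod p) * (g : ZMod p) * (1 - (g : ZMod p)) * (r : ZMod p) = 0 := by
      linear_combination h4
    have h7 : (2 : ZMod p) * (g : ZMod p) * (1 - (g : ZMod p)) ≠ 0 :=
      mul_ne_zero (mul_ne_zero h20 hg0) (sub_ne_zero.mpr (Ne.symm hg1))
    rcases mul_eq_zero.mp h6 with h8 | h8
    · exact absurd h8 h7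
    · exact h8
  have h6 : r = 0 := by
    rw [ZMod.natCast_eq_zero_iff] at h5
    exact Nat.eq_zero_of_dvd_of_lt h5 hr
  subst h6
  rw [pow_zero] at hT
  apply Units.ext
  apply RingOfIntegers.ext
  rw [unit_coe_pow]
  rcases hT with hT | hT
  · rw [hT, one_pow]
  · rw [hT, hodd.neg_one_pow]

end CycloEmb

section Closure

theorem additive_eigen_closure {A : Type*} [AddCommGroup A] (S : A →+ A) (U V T K0 KU KV : A)
    (c p j : ℕ) (hu : S U = c • U + p • KU) (hv : S V = c • V + p • KV)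
    (hT : U = T + j • V + p • K0) :
    S T = c • T + p • (c • K0 + KU - j • KV - S K0) := by
  rw [hT] at hu
  have h2 : S (T + j • V + p • K0) = S T + j • S V + p • S K0 := by
    simp only [map_add, map_nsmul]
  rw [h2, hv] at hu
  linear_combination (norm := module) hu

theorem eigen_closure {G : Type*} [CommGroup G] (f : G →* G) (u v t k0 ku kv : G) (c p j : ℕ)
    (hu : f u = u ^ c * ku ^ p) (hv : f v = v ^ c * kv ^ p) (hT : u = t * v ^ j * k0 ^ p) :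
    ∃ w : G, f t = t ^ c * w ^ p := by
  have key := additive_eigen_closure (MonoidHom.toAdditive f) (Additive.ofMul u)
    (Additive.ofMul v) (Additive.ofMul t) (Additive.ofMul k0) (Additive.ofMul ku)
    (Additive.ofMul kv) c p j (congrArg Additive.ofMul hu) (congrArg Additive.ofMul hv)
    (congrArg Additive.ofMul hT)
  exact ⟨_, congrArg Additive.toMul key⟩

end Closure

section Main

variable {p : ℕ} [Fact p.Prime] {K : Type*} [Field K] [NumberField K]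
  [IsCyclotomicExtension {p} ℚ K]

/-- **R2-U**: the `ω²`-eigenspace of the units of `ℚ(ζ_p)` modulo `p`-th powers has dimension
at most one. -/
theorem unit_eigenspace_dim_le_one (hp : 5 ≤ p) {ζ : K} (hζ : IsPrimitiveRoot ζ p)
    (u v : (𝓞 K)ˣ)
    (hu : ∀ (σ : K ≃ₐ[ℚ] K) (n : ℕ), σ ζ = ζ ^ n → ∃ k : (𝓞 K)ˣ,
      galRestrict ℤ ℚ K (𝓞 K) σ (u : 𝓞 K) = (u : 𝓞 K) ^ (n ^ 2) * (k : 𝓞 K) ^ p)
    (hv : ∀ (σ : K ≃ₐ[ℚ] K) (n : ℕ), σ ζ = ζ ^ n → ∃ k : (𝓞 K)ˣ,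
      galRestrict ℤ ℚ K (𝓞 K) σ (v : 𝓞 K) = (v : 𝓞 K) ^ (n ^ 2) * (k : 𝓞 K) ^ p)
    (hv' : ¬ ∃ k : (𝓞 K)ˣ, k ^ p = v) : ∃ (j : ℕ) (k : (𝓞 K)ˣ), u = v ^ j * k ^ p := by
  obtain ⟨σ, g, hσ, hord, hg, hgen⟩ := exists_gal_generator hζ
  obtain ⟨ku, hku⟩ := hu σ g hσ
  obtain ⟨kv, hkv⟩ := hv σ g hσ
  have hku' : unitAct σ u = u ^ (g ^ 2) * ku ^ p := by
    apply Units.ext
    rw [unitAct_coe, hku]
    simp
  have hkv' : unitAct σ v = v ^ (g ^ 2) * kv ^ p := by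
    apply Units.ext
    rw [unitAct_coe, hkv]
    simp
  -- the torsion part is a `p`-th power
  have step : ∀ (x kx : (𝓞 K)ˣ), unitAct σ x = x ^ (g ^ 2) * kx ^ p → ∀ (j : ℕ) (z : Lam K),
      toLam x = j • toLam v + (p : ℤ) • z → ∃ k : (𝓞 K)ˣ, x = v ^ j * k ^ p := by
    intro x kx hx j z hz
    obtain ⟨k0, rfl⟩ := toLam_surjective z
    have hT_tors : x * (v ^ j * k0 ^ p)⁻¹ ∈ torsion K := by
      rw [← toLam_eq_zero_iff, toLam_mul, toLam_inv, toLam_mul, toLam_pow, toLam_pow, hz,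
        natCast_zsmul]
      abel
    have hxT : x = x * (v ^ j * k0 ^ p)⁻¹ * v ^ j * k0 ^ p := by
      rw [mul_assoc, inv_mul_cancel_right]
    obtain ⟨w, hw⟩ := eigen_closure (unitAct σ) x v (x * (v ^ j * k0 ^ p)⁻¹) k0 kx kv
      (g ^ 2) p j hx hkv' hxT
    have hTp := torsion_eigen_is_pow hζ hp σ g hσ hg _ w hT_tors hw
    refine ⟨x * (v ^ j * k0 ^ p)⁻¹ * k0, ?_⟩
    rw [mul_pow, hTp]
    calc x = x * (v ^ j * k0 ^ p)⁻¹ * (v ^ j * k0 ^ p) := by rw [inv_mul_cancel_right]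
      _ = v ^ j * (x * (v ^ j * k0 ^ p)⁻¹ * k0 ^ p) := by
        rw [mul_comm (x * (v ^ j * k0 ^ p)⁻¹) (v ^ j * k0 ^ p), mul_assoc,
          mul_comm (k0 ^ p)]
  -- `toLam v` is not divisible by `p`
  have hyv' : ¬ ∃ z, toLam v = (p : ℤ) • z := by
    rintro ⟨z, hz⟩
    obtain ⟨k, hk⟩ := step v kv hkv' 0 z (by rw [zero_smul, zero_add]; exact hz)
    exact hv' ⟨k, by rw [hk, pow_zero, one_mul]⟩
  -- the characteristic polynomial of the generator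
  have hrank := finrank_lam (p := p) (K := K) hp
  obtain ⟨ε, hε⟩ := minkowski_linearIndependent hζ hp σ g hσ hord hg hgen
  have hm1 : 1 ≤ (p - 1) / 2 := by omega
  obtain ⟨hPmon, hPdeg⟩ := geomSum_monic_natDegree ((p - 1) / 2) hm1
  have hchar := charpoly_eq_of_cyclic_vector (galLam σ) _ hPmon _ hrank hPdeg (toLam ε) hε
    (geomSum_galLam_apply hζ hp σ g hσ hord hg hgen ε)
  have hpm : ¬ p ∣ (p - 1) / 2 := by
    intro h
    have := Nat.le_of_dvd (by omega) h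
    omega
  have hroot : ((galLam σ).charpoly.map (Int.castRingHom (ZMod p))).rootMultiplicity
      ((((g ^ 2 : ℕ) : ℤ)) : ZMod p) ≤ 1 := by
    rw [hchar]
    exact geomSum_rootMultiplicity_le_one p _ hpm _
  have hxu : ∃ z, galLam σ (toLam u) = ((g ^ 2 : ℕ) : ℤ) • toLam u + (p : ℤ) • z :=
    ⟨toLam ku, by
      rw [galLam_toLam, hku', toLam_mul, toLam_pow, toLam_pow, natCast_zsmul, natCast_zsmul]⟩
  have hxv : ∃ z, galLam σ (toLam v) = ((g ^ 2 : ℕ) : ℤ) • toLam v + (p : ℤ) • z :=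
    ⟨toLam kv, by
      rw [galLam_toLam, hkv', toLam_mul, toLam_pow, toLam_pow, natCast_zsmul, natCast_zsmul]⟩
  obtain ⟨j, z, hj⟩ := eigen_mod_prime_unique (galLam σ) p ((g ^ 2 : ℕ) : ℤ) hroot
    (toLam u) (toLam v) hxu hxv hyv'
  obtain ⟨k, hk⟩ := step u ku hku' j z hj
  exact ⟨j, k, hk⟩

end Main

end Fermat.Agent.S14.helper47
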