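import Mathlib

/-!
# S14-(2a-i) (helper56): invariant ideals of an unramified Galois extension are extended
-/

set_option autoImplicit false
set_option linter.unusedSectionVars false
set_option linter.style.haveILetI false

open NumberField

open scoped Pointwise

namespace Fermat.Agent.S14.helper56

variable {K L : Type*} [Field K] [NumberField K] [Field L] [NumberField L] [Algebra K L]
  [IsGalois K L]

/-- Elementwise invariance gives invariance of the ideal under the pointwise action. -/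
theorem smul_eq_of_forall_smul_mem (𝔄 : Ideal (𝓞 L))
    (hinv : ∀ σ : Gal(L/K), ∀ x ∈ 𝔄, σ • x ∈ 𝔄) (σ : Gal(L/K)) : σ • 𝔄 = 𝔄 := by
  apply le_antisymm
  · intro x hx
    rw [Ideal.mem_pointwise_smul_iff_inv_smul_mem] at hx
    have := hinv σ _ hx
    rwa [smul_inv_smul] at this
  · intro x hx
    rw [Ideal.mem_pointwise_smul_iff_inv_smul_mem]
    exact hinv σ⁻¹ x hx

/-- Extended ideals are invariant. -/
theorem smul_map_algebraMap (𝔞 : Ideal (𝓞 K)) (σ : Gal(L/K)) :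
    σ • (𝔞.map (algebraMap (𝓞 K) (𝓞 L))) = 𝔞.map (algebraMap (𝓞 K) (𝓞 L)) := by
  rw [Ideal.pointwise_smul_def, Ideal.map_map]
  congr 1
  ext a
  show σ (algebraMap K L (a : K)) = algebraMap K L (a : K)
  exact σ.commutes _

/-- A nonzero ideal of `𝓞 L` which is stable under `Gal(L/K)` is contained in every prime
above `P.under (𝓞 K)` as soon as it is contained in `P`. -/
theorem le_of_le_of_liesOver (𝔄 : Ideal (𝓞 L)) (hinv : ∀ σ : Gal(L/K), ∀ x ∈ 𝔄, σ • x ∈ 𝔄)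
    (𝔭 : Ideal (𝓞 K)) (P Q : Ideal (𝓞 L)) [P.IsPrime] [P.LiesOver 𝔭] [Q.IsPrime] [Q.LiesOver 𝔭]
    (hP : 𝔄 ≤ P) : 𝔄 ≤ Q := by
  obtain ⟨σ, hσ⟩ := Ideal.exists_smul_eq_of_isGaloisGroup 𝔭 P Q Gal(L/K)
  rw [← hσ, ← smul_eq_of_forall_smul_mem 𝔄 hinv σ]
  intro x hx
  rw [Ideal.mem_pointwise_smul_iff_inv_smul_mem] at hx ⊢
  exact hP hx

/-- **S14-(2a-i)**: in an unramified Galois extension of number fields, every nonzero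
`Gal(L/K)`-stable ideal of `𝓞 L` is extended from `𝓞 K`. -/
theorem exists_map_eq_of_invariant
    (hunr : ∀ (P : Ideal (𝓞 L)) [P.IsPrime], P ≠ ⊥ → P.ramificationIdx (𝓞 K) = 1)
    (𝔄 : Ideal (𝓞 L)) (h𝔄 : 𝔄 ≠ ⊥) (hinv : ∀ σ : Gal(L/K), ∀ x ∈ 𝔄, σ • x ∈ 𝔄) :
    ∃ 𝔞 : Ideal (𝓞 K), 𝔞.map (algebraMap (𝓞 K) (𝓞 L)) = 𝔄 := by
  classical
  -- strong induction on the absolute norm
  induction hn : Ideal.absNorm 𝔄 using Nat.strong_induction_on generalizing 𝔄 with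
  | _ n ih =>
  by_cases htop : 𝔄 = ⊤
  · exact ⟨⊤, by rw [Ideal.map_top, htop]⟩
  obtain ⟨P, hPmax, hAP⟩ := Ideal.exists_le_maximal 𝔄 htop
  have hP0 : P ≠ ⊥ := fun h => h𝔄 (le_bot_iff.mp (h ▸ hAP))
  haveI hPprime : P.IsPrime := hPmax.isPrime
  set 𝔭 : Ideal (𝓞 K) := P.under (𝓞 K) with h𝔭
  haveI : P.LiesOver 𝔭 := ⟨rfl⟩
  haveI h𝔭max : 𝔭.IsMaximal := Ideal.IsMaximal.under (𝓞 K) P
  have h𝔭0 : 𝔭 ≠ ⊥ := Ideal.under_ne_bot (𝓞 K) hP0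
  -- the extension of `𝔭` is the product of the primes above it
  have hprod : 𝔭.map (algebraMap (𝓞 K) (𝓞 L)) = ∏ Q ∈ 𝔭.primesOver (𝓞 L), Q := by
    rw [Ideal.map_algebraMap_eq_finsetProd_pow h𝔭0]
    refine Finset.prod_congr rfl fun Q hQ => ?_
    have hQ' : Q ∈ 𝔭.primesOver (𝓞 L) := by simpa using hQ
    haveI : Q.IsPrime := hQ'.1
    haveI : Q.LiesOver 𝔭 := hQ'.2
    have hQ0 : Q ≠ ⊥ := Ideal.ne_bot_of_liesOver_of_ne_bot h𝔭0 Q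
    rw [hunr Q hQ0, pow_one]
  -- it divides `𝔄`
  have hdvd : 𝔭.map (algebraMap (𝓞 K) (𝓞 L)) ∣ 𝔄 := by
    rw [hprod]
    refine Finset.prod_primes_dvd 𝔄 (fun Q hQ => ?_) (fun Q hQ => ?_)
    · have hQ' : Q ∈ 𝔭.primesOver (𝓞 L) := by simpa using hQ
      haveI : Q.IsPrime := hQ'.1
      haveI : Q.LiesOver 𝔭 := hQ'.2
      exact Ideal.prime_of_isPrime (Ideal.ne_bot_of_liesOver_of_ne_bot h𝔭0 Q) hQ'.1
    · have hQ' : Q ∈ 𝔭.primesOver (𝓞 L) := by simpa using hQ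
      haveI : Q.IsPrime := hQ'.1
      haveI : Q.LiesOver 𝔭 := hQ'.2
      exact Ideal.dvd_iff_le.mpr (le_of_le_of_liesOver 𝔄 hinv 𝔭 P Q hAP)
  obtain ⟨𝔅, h𝔅⟩ := hdvd
  have hext0 : 𝔭.map (algebraMap (𝓞 K) (𝓞 L)) ≠ ⊥ := Ideal.map_ne_bot_of_ne_bot h𝔭0
  have h𝔅0 : 𝔅 ≠ ⊥ := by
    rintro rfl
    exact h𝔄 (by rw [h𝔅, Ideal.mul_bot])
  -- `𝔅` is invariant
  have h𝔅inv : ∀ σ : Gal(L/K), ∀ x ∈ 𝔅, σ • x ∈ 𝔅 := by
    intro σ x hx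
    have h1 : σ • 𝔄 = 𝔄 := smul_eq_of_forall_smul_mem 𝔄 hinv σ
    have h2 : σ • 𝔅 = 𝔅 := by
      have h3 : 𝔭.map (algebraMap (𝓞 K) (𝓞 L)) * (σ • 𝔅) =
          𝔭.map (algebraMap (𝓞 K) (𝓞 L)) * 𝔅 := by
        calc 𝔭.map (algebraMap (𝓞 K) (𝓞 L)) * (σ • 𝔅)
            = (σ • 𝔭.map (algebraMap (𝓞 K) (𝓞 L))) * (σ • 𝔅) := by rw [smul_map_algebraMap]
          _ = σ • (𝔭.map (algebraMap (𝓞 K) (𝓞 L)) * 𝔅) := (smul_mul' σ _ _).symm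
          _ = 𝔭.map (algebraMap (𝓞 K) (𝓞 L)) * 𝔅 := by rw [← h𝔅, h1]
      exact mul_left_cancel₀ hext0 h3
    rw [← h2]
    exact Ideal.smul_mem_pointwise_smul σ x 𝔅 hx
  -- the norm drops
  have hnorm : Ideal.absNorm 𝔅 < n := by
    have h1 : Ideal.absNorm 𝔄 = Ideal.absNorm (𝔭.map (algebraMap (𝓞 K) (𝓞 L))) *
        Ideal.absNorm 𝔅 := by rw [h𝔅, map_mul]
    have h2 : Ideal.absNorm 𝔅 ≠ 0 := fun h => h𝔅0 (Ideal.absNorm_eq_zero_iff.mp h)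
    have h3 : Ideal.absNorm (𝔭.map (algebraMap (𝓞 K) (𝓞 L))) ≠ 0 :=
      fun h => hext0 (Ideal.absNorm_eq_zero_iff.mp h)
    have h4 : Ideal.absNorm (𝔭.map (algebraMap (𝓞 K) (𝓞 L))) ≠ 1 := by
      intro h
      have htop' : 𝔭.map (algebraMap (𝓞 K) (𝓞 L)) = ⊤ := Ideal.absNorm_eq_one_iff.mp h
      have hle : 𝔭.map (algebraMap (𝓞 K) (𝓞 L)) ≤ P := Ideal.map_comap_le
      exact hPprime.ne_top (top_le_iff.mp (htop' ▸ hle))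
    rw [← hn, h1]
    have h5 : 2 ≤ Ideal.absNorm (𝔭.map (algebraMap (𝓞 K) (𝓞 L))) := by omega
    have h6 : 1 ≤ Ideal.absNorm 𝔅 := by omega
    nlinarith
  obtain ⟨𝔟, h𝔟⟩ := ih _ hnorm 𝔅 h𝔅0 h𝔅inv rfl
  exact ⟨𝔭 * 𝔟, by rw [Ideal.map_mul, h𝔟, h𝔅]⟩

end Fermat.Agent.S14.helper56
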