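import Mathlib
import Fermat.Agent.S14.helper99_CKDefs
import Fermat.Agent.S14.helper15_CycE2

/-!
# S14-R2-A-D (helper56): the Thaine relations combined for the cyclotomic unit `E2`

If `E` is the `ω²`-cyclotomic unit and `ψ : 𝓞 K → ZMod ℓ` is a degree-one prime at which `E` is
not a `p`-th power residue, then `E_op [λ] = ∏_σ [λ^σ]^(χ(σ)²)` is a `p`-th power in the class
group.
-/

set_option autoImplicit false
set_option linter.unusedSectionVars false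
set_option linter.style.haveILetI false

namespace Fermat.Agent.S14.helper56

open NumberField Fermat.Agent.S14.helper99 Fermat.Agent.S14.helper15

section abstract

/-- Pure group theory: the combination of the relations. -/
theorem prod_pow_eq_one_of_relations {G ι : Type*} [CommGroup G] [Fintype ι] (p : ℕ)
    (hp : p.Prime) (hG : ∀ x : G, x ^ p = 1) (d : ι → G) (B : Finset ℕ) (b₁ : ℕ) (hb₁ : b₁ ∈ B)
    (e : ℕ → ℕ) (r : ℕ → ι → ℕ) (t c : ι → ℕ) (t₁ s : ℕ)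
    (h1 : ∀ b ∈ B, ∏ σ, d σ ^ r b σ = 1)
    (h2 : ∀ σ, t σ + s * r b₁ σ ≡ ∑ b ∈ B, e b * r b σ [MOD p])
    (h3 : ∀ σ, t σ ≡ t₁ * c σ [MOD p])
    (h4 : ¬ p ∣ t₁) : ∏ σ, d σ ^ c σ = 1 := by
  classical
  have hpow : ∀ (x : G) (a b : ℕ), a ≡ b [MOD p] → x ^ a = x ^ b := by
    intro x a b hab
    rw [pow_eq_pow_mod a (hG x), pow_eq_pow_mod b (hG x)]
    exact congrArg _ hab
  -- step 1: `∏ d ^ t = 1`
  have ht : ∏ σ, d σ ^ t σ = 1 := by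
    have hA : (∏ σ, d σ ^ t σ) * (∏ σ, d σ ^ r b₁ σ) ^ s = ∏ σ, d σ ^ (t σ + s * r b₁ σ) := by
      rw [← Finset.prod_pow, ← Finset.prod_mul_distrib]
      refine Finset.prod_congr rfl fun σ _ => ?_
      rw [pow_add, ← pow_mul, mul_comm s]
    have hB : ∏ σ, d σ ^ (t σ + s * r b₁ σ) = ∏ σ, d σ ^ (∑ b ∈ B, e b * r b σ) :=
      Finset.prod_congr rfl fun σ _ => hpow _ _ _ (h2 σ)
    have hC : ∏ σ, d σ ^ (∑ b ∈ B, e b * r b σ) = ∏ b ∈ B, (∏ σ, d σ ^ r b σ) ^ e b := by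
      calc ∏ σ, d σ ^ (∑ b ∈ B, e b * r b σ)
          = ∏ σ, ∏ b ∈ B, (d σ ^ r b σ) ^ e b := by
            refine Finset.prod_congr rfl fun σ _ => ?_
            rw [← Finset.prod_pow_eq_pow_sum]
            refine Finset.prod_congr rfl fun b _ => ?_
            rw [← pow_mul, mul_comm]
        _ = ∏ b ∈ B, ∏ σ, (d σ ^ r b σ) ^ e b := Finset.prod_comm
        _ = ∏ b ∈ B, (∏ σ, d σ ^ r b σ) ^ e b := by
            refine Finset.prod_congr rfl fun b _ => ?_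
            rw [Finset.prod_pow]
    have hD : ∏ b ∈ B, (∏ σ, d σ ^ r b σ) ^ e b = 1 :=
      Finset.prod_eq_one fun b hb => by rw [h1 b hb, one_pow]
    rw [h1 b₁ hb₁, one_pow, mul_one] at hA
    rw [hA, hB, hC, hD]
  -- step 2: `(∏ d ^ c) ^ t₁ = 1`
  have hc : (∏ σ, d σ ^ c σ) ^ t₁ = 1 := by
    rw [← Finset.prod_pow, ← ht]
    refine Finset.prod_congr rfl fun σ _ => ?_
    rw [← pow_mul, mul_comm]
    exact (hpow _ _ _ (h3 σ)).symm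
  -- step 3: conclude
  have hord : orderOf (∏ σ, d σ ^ c σ) ∣ Nat.gcd t₁ p :=
    Nat.dvd_gcd (orderOf_dvd_of_pow_eq_one hc) (orderOf_dvd_of_pow_eq_one (hG _))
  have hgcd : Nat.gcd t₁ p = 1 := by
    rw [Nat.gcd_comm]
    exact (Nat.Prime.coprime_iff_not_dvd hp).mpr h4
  rw [hgcd, Nat.dvd_one] at hord
  exact orderOf_eq_one_iff.mp hord

end abstract

section main

variable {p : ℕ} [Fact p.Prime] {K : Type} [Field K] [NumberField K]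
  [IsCyclotomicExtension {p} ℚ K]

/-- The image of a primitive `p`-th root of unity in `ZMod ℓ`, `ℓ ≠ p`, is primitive. -/
theorem isPrimitiveRoot_map_zmod' {ℓ : ℕ} [Fact ℓ.Prime] (hℓp : ℓ ≠ p) {ζ : 𝓞 K}
    (hζ : IsPrimitiveRoot ζ p) (φ : 𝓞 K →+* ZMod ℓ) : IsPrimitiveRoot (φ ζ) p := by
  have hp : p.Prime := Fact.out
  have hℓ : ℓ.Prime := Fact.out
  have hne : ((p : ℕ) : ZMod ℓ) ≠ 0 := by
    intro h
    rw [ZMod.natCast_eq_zero_iff] at h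
    exact hℓp ((Nat.prime_dvd_prime_iff_eq hℓ hp).mp h)
  haveI : NeZero ((p : ℕ) : ZMod ℓ) := ⟨hne⟩
  rw [← Polynomial.isRoot_cyclotomic_iff]
  have h := hζ.isRoot_cyclotomic hp.pos
  rw [Polynomial.IsRoot.def] at h ⊢
  have h2 := congrArg φ h
  rw [map_zero, ← Polynomial.eval₂_hom, Polynomial.eval₂_eq_eval_map,
    Polynomial.map_cyclotomic] at h2
  exact h2

/-- **S14-R2-A-D**: if the cyclotomic unit `E` is not a `p`-th power residue at the degree-one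
prime `ker ψ`, then `E_op [ker ψ]` is a `p`-th power in the class group. -/
theorem eOp_kerClass_mem (hT : ThaineRelationStatement p K) (hp : 5 ≤ p) {ζ : 𝓞 K}
    (hζ : IsPrimitiveRoot ζ p) (E : (𝓞 K)ˣ)
    (hE1 : (E : 𝓞 K) * ∏ b ∈ Finset.Ico 1 p, (1 - ζ) ^ expE2 p b =
      ∏ b ∈ Finset.Ico 1 p, (1 - ζ ^ b) ^ expE2 p b)
    (hE2 : ∀ (σ : K ≃ₐ[ℚ] K) (n : ℕ), σ (ζ : K) = (ζ : K) ^ n →
      ∃ k : (𝓞 K)ˣ, galRestrict ℤ ℚ K (𝓞 K) σ (E : 𝓞 K) = (E : 𝓞 K) ^ (n ^ 2) * (k : 𝓞 K) ^ p)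
    (χ : (K ≃ₐ[ℚ] K) → ℕ) (hχ : ∀ σ : K ≃ₐ[ℚ] K, σ (ζ : K) = (ζ : K) ^ χ σ)
    {ℓ : ℕ} [Fact ℓ.Prime] (ψ : 𝓞 K →+* ZMod ℓ) (hℓp : ℓ ≠ p)
    (hnr : ¬ ∃ c : ZMod ℓ, c ^ p = ψ E) :
    ∃ y : ClassGroup (𝓞 K),
      ∏ σ : K ≃ₐ[ℚ] K, kerClass (compGal ψ σ) ^ ((χ σ) ^ 2) = y ^ p := by
  classical
  have hpprime : p.Prime := Fact.out
  have hℓprime : ℓ.Prime := Fact.out
  have hp2 : p ≠ 2 := by omega
  have hprim : ∀ φ : 𝓞 K →+* ZMod ℓ, IsPrimitiveRoot (φ ζ) p :=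
    fun φ => isPrimitiveRoot_map_zmod' hℓp hζ φ
  -- `p ∣ ℓ - 1`
  have hdvd : p ∣ ℓ - 1 := by
    have h := hprim ψ
    have hne : ψ ζ ≠ 0 := h.ne_zero hpprime.ne_zero
    exact h.dvd_of_pow_eq_one _ (ZMod.pow_card_sub_one_eq_one hne)
  have hℓmod : ℓ % p = 1 := by
    obtain ⟨m, hm⟩ := hdvd
    have hℓ1 : 1 ≤ ℓ := hℓprime.one_le
    have : ℓ = 1 + p * m := by omega
    rw [this, Nat.add_mul_mod_self_left]
    exact Nat.mod_eq_of_lt (by omega)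
  -- a generator of the units of `ZMod ℓ`
  obtain ⟨g, hg⟩ := IsCyclic.exists_generator (α := (ZMod ℓ)ˣ)
  have hord : orderOf g = ℓ - 1 := by
    rw [orderOf_eq_card_of_forall_mem_zpowers hg, Nat.card_eq_fintype_card,
      ZMod.card_units_eq_totient, Nat.totient_prime hℓprime]
  have hdlogU : ∀ u : (ZMod ℓ)ˣ, ∃ n : ℕ, u = g ^ n := by
    intro u
    have h1 : u ∈ Submonoid.powers g := by
      rw [mem_powers_iff_mem_zpowers]
      exact hg u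
    obtain ⟨n, hn⟩ := h1
    exact ⟨n, hn.symm⟩
  have hdlog : ∀ x : ZMod ℓ, x ≠ 0 → ∃ n : ℕ, x = (g : ZMod ℓ) ^ n := by
    intro x hx
    obtain ⟨n, hn⟩ := hdlogU (Units.mk0 x hx)
    refine ⟨n, ?_⟩
    have := congrArg (fun u : (ZMod ℓ)ˣ => (u : ZMod ℓ)) hn
    simpa using this
  have hmodp : ∀ a b : ℕ, (g : ZMod ℓ) ^ a = (g : ZMod ℓ) ^ b → a ≡ b [MOD p] := by
    intro a b h
    have h' : g ^ a = g ^ b := by
      apply Units.ext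
      rw [Units.val_pow_eq_pow_val, Units.val_pow_eq_pow_val]
      exact h
    have h2 := pow_eq_pow_iff_modEq.mp h'
    rw [hord] at h2
    exact h2.of_dvd hdvd
  -- nonvanishing
  have hne : ∀ (σ : K ≃ₐ[ℚ] K) (b : ℕ), ¬ p ∣ b → compGal ψ σ (1 - ζ ^ b) ≠ 0 := by
    intro σ b hb h0
    rw [map_sub, map_one, map_pow, sub_eq_zero] at h0
    exact hb (((hprim (compGal ψ σ)).pow_eq_one_iff_dvd b).mp h0.symm)
  have hunit : ∀ (φ : 𝓞 K →+* ZMod ℓ) (u : (𝓞 K)ˣ), φ (u : 𝓞 K) ≠ 0 :=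
    fun φ u => (u.isUnit.map φ).ne_zero
  -- discrete logarithms
  have hr_ex : ∀ (b : ℕ) (σ : K ≃ₐ[ℚ] K), ∃ n : ℕ, ¬ p ∣ b →
      compGal ψ σ (1 - ζ ^ b) = (g : ZMod ℓ) ^ n := by
    intro b σ
    by_cases hb : p ∣ b
    · exact ⟨0, fun h => absurd hb h⟩
    · obtain ⟨n, hn⟩ := hdlog _ (hne σ b hb)
      exact ⟨n, fun _ => hn⟩
  choose r hr using hr_ex
  have ht_ex : ∀ σ : K ≃ₐ[ℚ] K, ∃ n : ℕ, compGal ψ σ (E : 𝓞 K) = (g : ZMod ℓ) ^ n :=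
    fun σ => hdlog _ (hunit _ E)
  choose t ht using ht_ex
  obtain ⟨t₁, ht₁⟩ := hdlog (ψ E) (hunit ψ E)
  have hIco : ∀ b ∈ Finset.Ico 1 p, ¬ p ∣ b := by
    intro b hb
    rw [Finset.mem_Ico] at hb
    exact Nat.not_dvd_of_pos_of_lt (by omega) hb.2
  -- the quotient of the class group by `p`-th powers
  let H : Subgroup (ClassGroup (𝓞 K)) := (powMonoidHom p : ClassGroup (𝓞 K) →* _).range
  have hHmem : ∀ y : ClassGroup (𝓞 K), y ^ p ∈ H := fun y => ⟨y, rfl⟩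
  have hG : ∀ x : ClassGroup (𝓞 K) ⧸ H, x ^ p = 1 := by
    intro x
    obtain ⟨y, rfl⟩ := QuotientGroup.mk_surjective x
    rw [← QuotientGroup.mk_pow, QuotientGroup.eq_one_iff]
    exact hHmem y
  -- relations from Thaine
  have h1 : ∀ b ∈ Finset.Ico 1 p, ∏ σ : K ≃ₐ[ℚ] K,
      (QuotientGroup.mk (kerClass (compGal ψ σ)) : ClassGroup (𝓞 K) ⧸ H) ^ r b σ = 1 := by
    intro b hb
    obtain ⟨J, hJ⟩ := hT hp2 hζ hℓmod ψ b (hIco b hb) g hg (r b) (fun σ => by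
      rw [hr b σ (hIco b hb), Units.val_pow_eq_pow_val])
    have h2 : (∏ σ : K ≃ₐ[ℚ] K,
        (QuotientGroup.mk (kerClass (compGal ψ σ)) : ClassGroup (𝓞 K) ⧸ H) ^ r b σ) =
        QuotientGroup.mk' H (∏ σ : K ≃ₐ[ℚ] K, kerClass (compGal ψ σ) ^ r b σ) := by
      rw [map_prod]
      rfl
    rw [h2, hJ]
    obtain ⟨m, hm⟩ := hdvd
    rw [hm, pow_mul', QuotientGroup.mk'_apply, QuotientGroup.eq_one_iff]
    exact hHmem _
  -- the congruence from `hE1`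
  have h2 : ∀ σ : K ≃ₐ[ℚ] K, t σ + (∑ b ∈ Finset.Ico 1 p, expE2 p b) * r 1 σ ≡
      ∑ b ∈ Finset.Ico 1 p, expE2 p b * r b σ [MOD p] := by
    intro σ
    apply hmodp
    have h := congrArg (compGal ψ σ) hE1
    rw [map_mul, map_prod, map_prod] at h
    have hone : compGal ψ σ (1 - ζ) = (g : ZMod ℓ) ^ r 1 σ := by
      have := hr 1 σ (hIco 1 (Finset.mem_Ico.mpr ⟨le_refl 1, by omega⟩))
      rwa [pow_one] at this
    have hL : compGal ψ σ (E : 𝓞 K) * ∏ b ∈ Finset.Ico 1 p, compGal ψ σ ((1 - ζ) ^ expE2 p b) =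
        (g : ZMod ℓ) ^ (t σ + (∑ b ∈ Finset.Ico 1 p, expE2 p b) * r 1 σ) := by
      rw [ht σ, pow_add]
      congr 1
      rw [mul_comm, pow_mul, ← Finset.prod_pow_eq_pow_sum]
      refine Finset.prod_congr rfl fun b _ => ?_
      rw [map_pow, hone]
    have hR : ∏ b ∈ Finset.Ico 1 p, compGal ψ σ ((1 - ζ ^ b) ^ expE2 p b) =
        (g : ZMod ℓ) ^ (∑ b ∈ Finset.Ico 1 p, expE2 p b * r b σ) := by
      rw [← Finset.prod_pow_eq_pow_sum]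
      refine Finset.prod_congr rfl fun b hb => ?_
      rw [map_pow, hr b σ (hIco b hb), ← pow_mul, mul_comm]
    rw [← hL, ← hR]
    exact h
  -- the congruence from `hE2`
  have h3 : ∀ σ : K ≃ₐ[ℚ] K, t σ ≡ t₁ * (χ σ) ^ 2 [MOD p] := by
    intro σ
    obtain ⟨k, hk⟩ := hE2 σ (χ σ) (hχ σ)
    obtain ⟨m, hm⟩ := hdlog (ψ k) (hunit ψ k)
    have h := congrArg ψ hk
    rw [map_mul, map_pow, map_pow, ht₁, hm] at h
    have h' : (g : ZMod ℓ) ^ t σ = (g : ZMod ℓ) ^ (t₁ * (χ σ) ^ 2 + m * p) := by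
      rw [← ht σ, pow_add, pow_mul, pow_mul]
      exact h
    have h4 := hmodp _ _ h'
    refine h4.trans ?_
    rw [Nat.ModEq, Nat.add_mul_mod_self_right]
  -- `p ∤ t₁`
  have h4 : ¬ p ∣ t₁ := by
    rintro ⟨q, hq⟩
    exact hnr ⟨(g : ZMod ℓ) ^ q, by rw [ht₁, hq, ← pow_mul, mul_comm]⟩
  -- conclusion
  have hfinal := prod_pow_eq_one_of_relations p hpprime hG
    (fun σ : K ≃ₐ[ℚ] K => (QuotientGroup.mk (kerClass (compGal ψ σ)) : ClassGroup (𝓞 K) ⧸ H))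
    (Finset.Ico 1 p) 1 (Finset.mem_Ico.mpr ⟨le_refl 1, by omega⟩) (expE2 p) r t
    (fun σ => (χ σ) ^ 2) t₁ (∑ b ∈ Finset.Ico 1 p, expE2 p b) h1 h2 h3 h4
  have hmem : (∏ σ : K ≃ₐ[ℚ] K, kerClass (compGal ψ σ) ^ ((χ σ) ^ 2)) ∈ H := by
    rw [← QuotientGroup.eq_one_iff, ← hfinal]
    show QuotientGroup.mk' H _ = _
    rw [map_prod]
    rfl
  obtain ⟨y, hy⟩ := hmem
  exact ⟨y, hy.symm⟩

end main

end Fermat.Agent.S14.helper56
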