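import Fermat.Agent.S14.helper58_AuxPrime

/-!
# S14-(2c) auxiliary prime, in the `q ^ a * r ^ b` shape consumed by the crossing endgame

`Fermat.Agent.S14.helper58.auxPrimeStatement_of_zetaPole` is the statement
`AuxPrimeStatement p` of the endgame interface (findings #413), unfolded, for a prime `p`,
derived from `exists_aux_prime_of_zetaPole`; the only hypothesis is `ZetaPoleHyp`.
-/

namespace Fermat.Agent.S14.helper58

/-- If `p ∤ b` there is `k` with `p ∣ a + k * b`. -/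
theorem exists_mul_add_dvd (p : ℕ) (hp : p.Prime) (a b : ℕ) (hb : ¬ p ∣ b) :
    ∃ k : ℕ, p ∣ a + k * b := by
  have : Fact p.Prime := ⟨hp⟩
  have hb0 : (b : ZMod p) ≠ 0 := by
    rwa [Ne, ZMod.natCast_eq_zero_iff]
  refine ⟨((-(a : ZMod p)) * (b : ZMod p)⁻¹).val, ?_⟩
  rw [← ZMod.natCast_eq_zero_iff]
  push_cast
  rw [ZMod.natCast_val, ZMod.cast_id', id_eq]
  field_simp
  ring

/-- **Auxiliary prime, `q ^ a * r ^ b` shape** (the unfolded `AuxPrimeStatement p` of the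
crossing endgame), from the zeta-pole lemma. -/
theorem auxPrimeStatement_of_zetaPole (hZ : ZetaPoleHyp) (p : ℕ) (hp : p.Prime) (hp2 : p ≠ 2) :
    ∀ (q r : ℕ), q.Prime → r.Prime → q ≠ r → q ≠ p → r ≠ p → ∀ (a b : ℕ), ¬ p ∣ b →
      ∀ S : Finset ℕ, ∃ l : ℕ, l.Prime ∧ l ∉ S ∧ l % p = 1 ∧
        (∃ x : ZMod l, x ^ p = (q : ZMod l) ^ a * (r : ZMod l) ^ b) ∧
        ¬ ∃ x : ZMod l, x ^ p = (q : ZMod l) := by
  intro q r hq hr hqr hqp hrp a b hb S
  obtain ⟨k, m, hk⟩ := exists_mul_add_dvd p hp a b hb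
  obtain ⟨l, hl, hlS, hl1, hnot, c, hc⟩ :=
    exists_aux_prime_of_zetaPole hZ p hp hp2 r q hr hq (Ne.symm hqr) hrp hqp k S
  refine ⟨l, hl, hlS, hl1, ⟨(q : ZMod l) ^ m * c ^ b, ?_⟩, hnot⟩
  have h1 : ((q : ZMod l) ^ m * c ^ b) ^ p = (q : ZMod l) ^ (p * m) * (c ^ p) ^ b := by
    rw [mul_pow, ← pow_mul, ← pow_mul, ← pow_mul, mul_comm m p, mul_comm b p]
  rw [h1, ← hk, hc, mul_pow, pow_add, mul_assoc, pow_mul (q : ZMod l) k b]

end Fermat.Agent.S14.helper58
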