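import Mathlib

/-!
# The Thaine relation: abstract ideal-theoretic half (helper62, S14 route R2, piece T-B)

Let `F/K` be a Galois extension of number fields with cyclic group generated by `s`, and let
`β ∈ 𝓞 F`, `β ≠ 0`, with `s β = β * γ`, `γ` a unit.  Then `N_{F/K} β = β ^ n * unit`, so the ideal
`(N β)` of `𝓞 K` is an `n`-th power away from the ramified primes; at a totally ramified prime
`λ` (with a uniformizer `π` such that `s π = w π`, `w ≡ g mod Λ`) the exponent `v` of `λ`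
satisfies `γ ≡ g ^ v mod Λ`.
-/

namespace Fermat.Agent.S14.helper62

open UniqueFactorizationMonoid

section Dedekind


variable {A B : Type*} [CommRing A] [IsDedekindDomain A] [CommRing B] [IsDedekindDomain B]
  [Algebra A B]

/-- multiplicity of a prime `𝔓` of `B` in the extension of an ideal `𝔟` of `A`. -/
theorem h62_count_map (hinj : Function.Injective (algebraMap A B)) {𝔟 : Ideal A} (h𝔟 : 𝔟 ≠ ⊥)
    (𝔓 : Ideal B) [h𝔓 : 𝔓.IsPrime] :
    (normalizedFactors (𝔟.map (algebraMap A B))).count 𝔓 =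
      (normalizedFactors ((𝔓.comap (algebraMap A B)).map (algebraMap A B))).count 𝔓 *
        (normalizedFactors 𝔟).count (𝔓.comap (algebraMap A B)) := by
  classical
  set 𝔭 := 𝔓.comap (algebraMap A B) with h𝔭
  have hmap0 : ∀ I : Ideal A, I ≠ ⊥ → I.map (algebraMap A B) ≠ ⊥ := fun I hI =>
    (Ideal.map_eq_bot_iff_of_injective hinj).not.mpr hI
  -- induction on the multiset of factors
  have key : ∀ s : Multiset (Ideal A), (∀ I ∈ s, Prime I) →
      (normalizedFactors ((s.prod).map (algebraMap A B))).count 𝔓 =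
        (normalizedFactors (𝔭.map (algebraMap A B))).count 𝔓 * s.count 𝔭 := by
    intro s
    induction s using Multiset.induction_on with
    | empty =>
      intro _
      rw [Multiset.prod_zero, Ideal.one_eq_top, Ideal.map_top, ← Ideal.one_eq_top,
        normalizedFactors_one]
      simp
    | cons I s ih =>
      intro hs
      have hI : Prime I := hs I (Multiset.mem_cons_self _ _)
      have hs' : ∀ J ∈ s, Prime J := fun J hJ => hs J (Multiset.mem_cons_of_mem hJ)
      have hsprod : s.prod ≠ ⊥ := by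
        intro h
        rw [← Ideal.zero_eq_bot, Multiset.prod_eq_zero_iff] at h
        exact (hs' 0 h).ne_zero rfl
      rw [Multiset.prod_cons, Ideal.map_mul, normalizedFactors_mul (hmap0 I hI.ne_zero)
        (hmap0 _ hsprod), Multiset.count_add, ih hs', Multiset.count_cons, mul_add]
      rw [add_comm]
      congr 1
      by_cases hI𝔭 : 𝔭 = I
      · subst hI𝔭
        simp
      · rw [if_neg hI𝔭, mul_zero, Multiset.count_eq_zero]
        intro hmem
        have h1 : I.map (algebraMap A B) ≤ 𝔓 :=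
          Ideal.le_of_dvd (dvd_of_mem_normalizedFactors hmem)
        have h2 : I ≤ 𝔭 := Ideal.map_le_iff_le_comap.mp h1
        have hImax : I.IsMaximal := (Ideal.isPrime_of_prime hI).isMaximal hI.ne_zero
        have h𝔭prime : 𝔭.IsPrime := Ideal.comap_isPrime _ _
        exact hI𝔭 (hImax.eq_of_le h𝔭prime.ne_top h2).symm
  have := key (normalizedFactors 𝔟) (fun I hI => prime_of_normalized_factor I hI)
  rwa [Ideal.prod_normalizedFactors_eq_self h𝔟] at this

/-- The basic valuation identity `e(𝔓|𝔭) * v_𝔭(N) = n * v_𝔓(β)` when `N = β ^ n * unit`. -/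
theorem h62_count_identity (hinj : Function.Injective (algebraMap A B)) {n : ℕ} {N : A}
    {β η : B} (hβ : β ≠ 0) (hη : IsUnit η) (hN : algebraMap A B N = β ^ n * η)
    (𝔓 : Ideal B) [h𝔓 : 𝔓.IsPrime] :
    (normalizedFactors ((𝔓.comap (algebraMap A B)).map (algebraMap A B))).count 𝔓 *
        (normalizedFactors (Ideal.span {N})).count (𝔓.comap (algebraMap A B)) =
      n * (normalizedFactors (Ideal.span {β})).count 𝔓 := by
  classical
  have hN0 : N ≠ 0 := by
    rintro rfl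
    rw [map_zero] at hN
    exact (mul_ne_zero (pow_ne_zero n hβ) hη.ne_zero) hN.symm
  have h1 : Ideal.span {N} ≠ ⊥ := by
    rwa [Ne, Ideal.span_singleton_eq_bot]
  rw [← h62_count_map hinj h1 𝔓, Ideal.map_span, Set.image_singleton, hN,
    Ideal.span_singleton_mul_right_unit hη, ← Ideal.span_singleton_pow, normalizedFactors_pow,
    Multiset.count_nsmul]

/-- **Ideal factorisation of the norm of an element with `s β = β * unit`** (abstract form):
if `N = β ^ n * unit` in `B`, all primes of `A` outside the finite set `S` are unramified in `B`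
and the primes in `S` are totally ramified of index `n`, then `(N) = 𝔅 ^ n * ∏_{λ ∈ S} λ ^ v_Λ(β)`. -/
theorem h62_span_eq_pow_mul_prod (hinj : Function.Injective (algebraMap A B)) {n : ℕ}
    (hn : 0 < n) {N : A} {β η : B} (hβ : β ≠ 0) (hη : IsUnit η)
    (hN : algebraMap A B N = β ^ n * η) (S : Finset (Ideal A))
    (hunr : ∀ 𝔭 : Ideal A, 𝔭.IsPrime → 𝔭 ≠ ⊥ → 𝔭 ∉ S → ∃ 𝔓 : Ideal B, 𝔓.IsPrime ∧
      𝔓.comap (algebraMap A B) = 𝔭 ∧
      (normalizedFactors (𝔭.map (algebraMap A B))).count 𝔓 = 1)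
    (Λ : Ideal A → Ideal B)
    (hram : ∀ l ∈ S, (Λ l).IsPrime ∧ (Λ l).comap (algebraMap A B) = l ∧
      (normalizedFactors (l.map (algebraMap A B))).count (Λ l) = n) :
    ∃ 𝔅 : Ideal A, 𝔅 ≠ ⊥ ∧ Ideal.span {N} =
      𝔅 ^ n * ∏ l ∈ S, l ^ (normalizedFactors (Ideal.span {β})).count (Λ l) := by
  classical
  have hN0 : N ≠ 0 := by
    rintro rfl
    rw [map_zero] at hN
    exact (mul_ne_zero (pow_ne_zero n hβ) hη.ne_zero) hN.symm
  have h1 : Ideal.span {N} ≠ ⊥ := by
    rwa [Ne, Ideal.span_singleton_eq_bot]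
  set M := normalizedFactors (Ideal.span {N}) with hM
  have hMprime : ∀ I ∈ M, Prime I := fun I hI => prime_of_normalized_factor I hI
  -- the part outside `S`
  have hout : ∀ I ∈ M.filter (· ∉ S), n ∣ (M.filter (· ∉ S)).count I := by
    intro I hI
    rw [Multiset.mem_filter] at hI
    rw [Multiset.count_filter_of_pos (p := (· ∉ S)) hI.2]
    have hIp := hMprime I hI.1
    obtain ⟨𝔓, h𝔓, hco, hcount⟩ := hunr I (Ideal.isPrime_of_prime hIp) hIp.ne_zero hI.2
    have := h62_count_identity hinj hβ hη hN 𝔓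
    rw [hco, hcount, one_mul] at this
    rw [this]
    exact dvd_mul_right _ _
  obtain ⟨U, hU⟩ := Multiset.exists_smul_of_dvd_count _ hout
  have hUprime : ∀ I ∈ U, Prime I := by
    intro I hI
    apply hMprime I
    have : I ∈ M.filter (· ∉ S) := by
      rw [hU]
      exact (Multiset.mem_nsmul_of_ne_zero hn.ne').mpr hI
    exact (Multiset.mem_filter.mp this).1
  have hin : ∀ l ∈ S, M.count l = (normalizedFactors (Ideal.span {β})).count (Λ l) := by
    intro l hl
    obtain ⟨h𝔓, hco, hcount⟩ := hram l hl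
    have := h62_count_identity hinj hβ hη hN (Λ l)
    rw [hco, hcount] at this
    exact Nat.eq_of_mul_eq_mul_left hn this
  refine ⟨U.prod, ?_, ?_⟩
  · intro h
    rw [← Ideal.zero_eq_bot, Multiset.prod_eq_zero_iff] at h
    exact (hUprime 0 h).ne_zero rfl
  · rw [← Ideal.prod_normalizedFactors_eq_self h1, ← hM, ← Multiset.filter_add_not (· ∈ S) M,
      Multiset.prod_add, mul_comm, hU, Multiset.prod_nsmul]
    congr 1
    rw [Finset.prod_multiset_count_of_subset (M.filter (· ∈ S)) S]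
    · refine Finset.prod_congr rfl fun l hl => ?_
      rw [Multiset.count_filter_of_pos (p := (· ∈ S)) hl, hin l hl]
    · intro I hI
      rw [Multiset.mem_toFinset, Multiset.mem_filter] at hI
      exact hI.2

end Dedekind

section Congruence


variable {B : Type*} [CommRing B] [IsDedekindDomain B]

/-- `P ^ v ∣ span {β}` where `v` is the multiplicity of `P`. -/
lemma h62_le_pow_count (P : Ideal B) [hP : P.IsPrime] (hP0 : P ≠ ⊥) {I : Ideal B} (hI : I ≠ ⊥) :
    I ≤ P ^ (normalizedFactors I).count P := by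
  classical
  rw [← Ideal.dvd_iff_le, dvd_iff_normalizedFactors_le_normalizedFactors
    (pow_ne_zero _ hP0) hI, normalizedFactors_pow,
    normalizedFactors_irreducible (Ideal.prime_of_isPrime hP0 hP).irreducible, normalize_eq,
    Multiset.nsmul_singleton, ← Multiset.le_count_iff_replicate_le]

lemma h62_not_le_pow_succ (P : Ideal B) [hP : P.IsPrime] (hP0 : P ≠ ⊥) {I : Ideal B}
    (hI : I ≠ ⊥) : ¬ I ≤ P ^ ((normalizedFactors I).count P + 1) := by
  classical
  intro h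
  have := Ideal.count_le_of_ideal_ge h hI P
  rw [normalizedFactors_pow,
    normalizedFactors_irreducible (Ideal.prime_of_isPrime hP0 hP).irreducible, normalize_eq,
    Multiset.count_nsmul, Multiset.count_singleton_self, mul_one] at this
  omega

/-- Comparison of `β` with a power of a uniformizer: `c * β = π ^ v * a` with `c, a ∉ P`. -/
theorem h62_exists_mul_eq_pow_mul (P : Ideal B) [hP : P.IsPrime] (hP0 : P ≠ ⊥) {π β : B}
    (hπ : π ∈ P) (hπ2 : π ∉ P ^ 2) (hβ : β ≠ 0) :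
    ∃ c a : B, c ∉ P ∧ a ∉ P ∧
      c * β = π ^ (normalizedFactors (Ideal.span {β})).count P * a := by
  classical
  set v := (normalizedFactors (Ideal.span {β})).count P with hv
  have hβI : Ideal.span {β} ≠ ⊥ := by rwa [Ne, Ideal.span_singleton_eq_bot]
  -- span {π} = P * Q with Q ⊄ P
  obtain ⟨Q, hQ⟩ : P ∣ Ideal.span {π} := Ideal.dvd_span_singleton.mpr hπ
  have hQP : ¬ Q ≤ P := by
    intro h
    apply hπ2
    have : Ideal.span {π} ≤ P ^ 2 := by
      rw [hQ, pow_two]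
      exact Ideal.mul_mono_right h
    exact this (Ideal.mem_span_singleton_self π)
  have hQvP : ¬ Q ^ v ≤ P := fun h => hQP (hP.le_of_pow_le h)
  obtain ⟨c, hcQ, hcP⟩ := Set.not_subset.mp hQvP
  have hβv : β ∈ P ^ v := h62_le_pow_count P hP0 hβI (Ideal.mem_span_singleton_self β)
  have hmem : c * β ∈ Ideal.span {π ^ v} := by
    rw [← Ideal.span_singleton_pow, hQ, mul_pow, mul_comm (P ^ v)]
    exact Ideal.mul_mem_mul hcQ hβv
  obtain ⟨a, ha⟩ := Ideal.mem_span_singleton'.mp hmem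
  refine ⟨c, a, hcP, ?_, by rw [← ha, mul_comm]⟩
  intro haP
  have h1 : c * β ∈ P ^ (v + 1) := by
    rw [← ha, pow_succ']
    exact Ideal.mul_mem_mul haP (Ideal.pow_mem_pow hπ v)
  rcases Ideal.IsPrime.mul_mem_pow P h1 with h | h
  · exact hcP h
  · exact h62_not_le_pow_succ P hP0 hβI ((Ideal.span_singleton_le_iff_mem _).mpr h)

/-- **The Thaine congruence** (abstract form). -/
theorem h62_thaine_congruence (P : Ideal B) [hP : P.IsPrime] (hP0 : P ≠ ⊥) (s : B →+* B)
    (hs : ∀ x : B, s x - x ∈ P) {π w g β γ : B} (hπ : π ∈ P) (hπ2 : π ∉ P ^ 2)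
    (hsπ : s π = w * π) (hw : w - g ∈ P) (hβ : β ≠ 0) (hsβ : s β = β * γ) :
    γ - g ^ (normalizedFactors (Ideal.span {β})).count P ∈ P := by
  classical
  obtain ⟨c, a, hc, ha, hca⟩ := h62_exists_mul_eq_pow_mul P hP0 hπ hπ2 hβ
  set v := (normalizedFactors (Ideal.span {β})).count P with hv
  have hπ0 : π ≠ 0 := by
    rintro rfl
    exact hπ2 (Ideal.zero_mem _)
  have h1 : s c * γ * a = c * w ^ v * s a := by
    have h2 := congrArg s hca
    rw [map_mul, map_mul, map_pow, hsβ, hsπ, mul_pow] at h2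
    have h3 : π ^ v * (s c * γ * a) = π ^ v * (c * w ^ v * s a) := by
      calc π ^ v * (s c * γ * a) = s c * γ * (π ^ v * a) := by ring
        _ = s c * γ * (c * β) := by rw [hca]
        _ = c * (s c * (β * γ)) := by ring
        _ = c * (w ^ v * π ^ v * s a) := by rw [h2]
        _ = π ^ v * (c * w ^ v * s a) := by ring
    exact mul_left_cancel₀ (pow_ne_zero v hπ0) h3
  -- reduce modulo P
  have hq : ∀ x y : B, x - y ∈ P ↔ Ideal.Quotient.mk P x = Ideal.Quotient.mk P y := fun x y =>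
    (Ideal.Quotient.mk_eq_mk_iff_sub_mem x y).symm
  have hqs : ∀ x : B, Ideal.Quotient.mk P (s x) = Ideal.Quotient.mk P x := fun x =>
    (hq _ _).mp (hs x)
  have h4 := congrArg (Ideal.Quotient.mk P) h1
  simp only [map_mul, map_pow, hqs, (hq _ _).mp hw] at h4
  have hc' : Ideal.Quotient.mk P c ≠ 0 := by
    rwa [Ne, Ideal.Quotient.eq_zero_iff_mem]
  have ha' : Ideal.Quotient.mk P a ≠ 0 := by
    rwa [Ne, Ideal.Quotient.eq_zero_iff_mem]
  rw [hq, map_pow]
  have h5 : Ideal.Quotient.mk P c * Ideal.Quotient.mk P a * Ideal.Quotient.mk P γ =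
      Ideal.Quotient.mk P c * Ideal.Quotient.mk P a * Ideal.Quotient.mk P g ^ v := by
    linear_combination h4
  exact mul_left_cancel₀ (mul_ne_zero hc' ha') h5

end Congruence

section ClassGroup


variable {A : Type*} [CommRing A] [IsDedekindDomain A]

open scoped nonZeroDivisors

/-- The class of an ideal (junk value `1` for the zero ideal). -/
noncomputable def h62_cl (I : Ideal A) : ClassGroup A :=
  open Classical in
  if h : I ≠ ⊥ then ClassGroup.mk0 ⟨I, mem_nonZeroDivisors_of_ne_zero h⟩ else 1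

lemma h62_cl_eq_mk0 (I : (Ideal A)⁰) : h62_cl (I : Ideal A) = ClassGroup.mk0 I := by
  have h : (I : Ideal A) ≠ ⊥ := nonZeroDivisors.coe_ne_zero I
  rw [h62_cl, dif_pos h]

lemma h62_cl_eq_mk0' {I : Ideal A} (h : I ∈ (Ideal A)⁰) : h62_cl I = ClassGroup.mk0 ⟨I, h⟩ :=
  h62_cl_eq_mk0 ⟨I, h⟩

lemma h62_cl_mul {I J : Ideal A} (hI : I ≠ ⊥) (hJ : J ≠ ⊥) :
    h62_cl (I * J) = h62_cl I * h62_cl J := by
  have hI' : I ∈ (Ideal A)⁰ := mem_nonZeroDivisors_of_ne_zero hI
  have hJ' : J ∈ (Ideal A)⁰ := mem_nonZeroDivisors_of_ne_zero hJ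
  have := h62_cl_eq_mk0 ((⟨I, hI'⟩ : (Ideal A)⁰) * ⟨J, hJ'⟩)
  rw [map_mul] at this
  rw [h62_cl_eq_mk0' hI', h62_cl_eq_mk0' hJ', ← this]
  rfl

lemma h62_cl_one : h62_cl (1 : Ideal A) = 1 := by
  have := h62_cl_eq_mk0 (1 : (Ideal A)⁰)
  rw [map_one] at this
  exact this

lemma h62_cl_pow {I : Ideal A} (hI : I ≠ ⊥) (n : ℕ) : h62_cl (I ^ n) = h62_cl I ^ n := by
  induction n with
  | zero => rw [pow_zero, pow_zero, h62_cl_one]
  | succ n ih => rw [pow_succ, pow_succ, h62_cl_mul (pow_ne_zero n hI) hI, ih]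

lemma h62_cl_prod {ι : Type*} (S : Finset ι) (f : ι → Ideal A) (hf : ∀ i ∈ S, f i ≠ ⊥) :
    h62_cl (∏ i ∈ S, f i) = ∏ i ∈ S, h62_cl (f i) := by
  classical
  induction S using Finset.induction_on with
  | empty => rw [Finset.prod_empty, Finset.prod_empty, h62_cl_one]
  | insert a S ha ih =>
    rw [Finset.prod_insert ha, Finset.prod_insert ha, h62_cl_mul, ih]
    · exact fun i hi => hf i (Finset.mem_insert_of_mem hi)
    · exact hf a (Finset.mem_insert_self a S)
    · rw [Ne, ← Ideal.zero_eq_bot, Finset.prod_eq_zero_iff]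
      rintro ⟨i, hi, h0⟩
      exact hf i (Finset.mem_insert_of_mem hi) h0

lemma h62_cl_span_singleton {x : A} (hx : x ≠ 0) : h62_cl (Ideal.span {x}) = 1 := by
  have h : Ideal.span {x} ∈ (Ideal A)⁰ :=
    mem_nonZeroDivisors_of_ne_zero (by rwa [Ne, Ideal.zero_eq_bot, Ideal.span_singleton_eq_bot])
  rw [h62_cl_eq_mk0' h, ClassGroup.mk0_eq_one_iff]
  exact ⟨⟨x, rfl⟩⟩

end ClassGroup

section Galois

open NumberField


variable {K F : Type*} [Field K] [NumberField K] [Field F] [NumberField F] [Algebra K F]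
  [IsGalois K F]

omit [NumberField K] [NumberField F] [IsGalois K F] in
lemma h62_isUnit_map (σ : F ≃ₐ[K] F) {u : 𝓞 F} (hu : IsUnit u) :
    ∃ v : 𝓞 F, IsUnit v ∧ (v : F) = σ (u : F) :=
  ⟨RingOfIntegers.mapRingEquiv σ.toRingEquiv u, hu.map _, rfl⟩

/-- If `s β = β * γ` with `γ` a unit and `s` generates `Gal(F/K)`, then `N_{F/K} β = β ^ n * unit`
in `𝓞 F`, `n = [F : K]`. -/
theorem h62_norm_eq_pow_mul_unit (s : F ≃ₐ[K] F) (hs : ∀ τ : F ≃ₐ[K] F, τ ∈ Subgroup.zpowers s)
    (β γ : 𝓞 F) (hγ : IsUnit γ) (hsβ : s (β : F) = (β : F) * (γ : F)) :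
    ∃ η : 𝓞 F, IsUnit η ∧ algebraMap (𝓞 K) (𝓞 F) (RingOfIntegers.norm K β) =
      β ^ Module.finrank K F * η := by
  classical
  -- every automorphism multiplies β by a unit
  let H : Subgroup (F ≃ₐ[K] F) :=
    { carrier := {σ | ∃ u : 𝓞 F, IsUnit u ∧ σ (β : F) = (β : F) * (u : F)}
      mul_mem' := by
        rintro σ τ ⟨u, hu1, hu⟩ ⟨v, hv1, hv⟩
        obtain ⟨v', hv'1, hv'⟩ := h62_isUnit_map σ hv1
        refine ⟨u * v', hu1.mul hv'1, ?_⟩
        rw [AlgEquiv.mul_apply, hv, map_mul, hu]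
        simp only [RingOfIntegers.coe_eq_algebraMap] at hv' ⊢
        rw [map_mul, hv', mul_assoc]
      one_mem' := ⟨1, isUnit_one, by simp⟩
      inv_mem' := by
        rintro σ ⟨u, hu1, hu⟩
        obtain ⟨w, hw⟩ := hu1.exists_right_inv
        have hw1 : IsUnit w := IsUnit.of_mul_eq_one u (by rw [mul_comm]; exact hw)
        obtain ⟨w', hw'1, hw'⟩ := h62_isUnit_map σ⁻¹ hw1
        refine ⟨w', hw'1, ?_⟩
        have h1 : σ⁻¹ (σ (β : F)) = (β : F) := by
          rw [← AlgEquiv.mul_apply, inv_mul_cancel, AlgEquiv.one_apply]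
        rw [hu, map_mul] at h1
        have h2 : (σ⁻¹ (u : F)) * (σ⁻¹ (w : F)) = 1 := by
          rw [← map_mul, ← map_mul, hw, map_one, map_one]
        rw [hw']
        calc σ⁻¹ (β : F) = σ⁻¹ (β : F) * (σ⁻¹ (u : F) * σ⁻¹ (w : F)) := by rw [h2, mul_one]
          _ = (σ⁻¹ (β : F) * σ⁻¹ (u : F)) * σ⁻¹ (w : F) := by ring
          _ = (β : F) * σ⁻¹ (w : F) := by rw [h1] }
  have hH : ∀ σ : F ≃ₐ[K] F, σ ∈ H := by
    intro σ
    have hsH : s ∈ H := ⟨γ, hγ, hsβ⟩
    exact (Subgroup.zpowers_le.mpr hsH) (hs σ)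
  choose u hu1 hu using hH
  refine ⟨∏ σ : F ≃ₐ[K] F, u σ, ?_, ?_⟩
  · rw [Finset.prod_eq_multiset_prod]
    apply Multiset.prod_induction IsUnit _ (fun a b ha hb => ha.mul hb) isUnit_one
    intro a ha
    rw [Multiset.mem_map] at ha
    obtain ⟨σ, -, rfl⟩ := ha
    exact hu1 σ
  apply RingOfIntegers.coe_injective
  have h1 := Algebra.norm_eq_prod_automorphisms K (β : F)
  have h2 := RingOfIntegers.coe_algebraMap_norm K β
  rw [h1] at h2
  refine h2.trans ?_
  simp only [map_mul, map_pow, map_prod]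
  rw [← IsGalois.card_aut_eq_finrank, Nat.card_eq_fintype_card, ← Finset.card_univ,
    ← Finset.prod_const, ← Finset.prod_mul_distrib]
  exact Finset.prod_congr rfl fun σ _ => hu σ

end Galois

section Main

open NumberField


variable {K F : Type*} [Field K] [NumberField K] [Field F] [NumberField F] [Algebra K F]
  [IsGalois K F]

/-- **Thaine relation, abstract form.** -/
theorem thaine_abstract (s : F ≃ₐ[K] F) (hs : ∀ τ : F ≃ₐ[K] F, τ ∈ Subgroup.zpowers s)
    (sO : 𝓞 F →+* 𝓞 F) (hsO : ∀ x : 𝓞 F, (sO x : F) = s (x : F))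
    (β γ : 𝓞 F) (hβ : β ≠ 0) (hγ : IsUnit γ) (hsβ : sO β = β * γ)
    (S : Finset (Ideal (𝓞 K)))
    (hunr : ∀ 𝔭 : Ideal (𝓞 K), 𝔭.IsPrime → 𝔭 ≠ ⊥ → 𝔭 ∉ S → ∃ 𝔓 : Ideal (𝓞 F), 𝔓.IsPrime ∧
      𝔓.comap (algebraMap (𝓞 K) (𝓞 F)) = 𝔭 ∧
      (normalizedFactors (𝔭.map (algebraMap (𝓞 K) (𝓞 F)))).count 𝔓 = 1)
    (Λ : Ideal (𝓞 K) → Ideal (𝓞 F))
    (hram : ∀ l ∈ S, (Λ l).IsPrime ∧ (Λ l).comap (algebraMap (𝓞 K) (𝓞 F)) = l ∧
      (normalizedFactors (l.map (algebraMap (𝓞 K) (𝓞 F)))).count (Λ l) = Module.finrank K F)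
    (hin : ∀ l ∈ S, ∀ x : 𝓞 F, sO x - x ∈ Λ l)
    (π w : 𝓞 F) (g : 𝓞 K) (hsπ : sO π = w * π)
    (hπ : ∀ l ∈ S, π ∈ Λ l ∧ π ∉ (Λ l) ^ 2 ∧ w - algebraMap (𝓞 K) (𝓞 F) g ∈ Λ l) :
    ∃ (v : Ideal (𝓞 K) → ℕ) (J : ClassGroup (𝓞 K)),
      (∀ l ∈ S, γ - algebraMap (𝓞 K) (𝓞 F) g ^ v l ∈ Λ l) ∧
      ∏ l ∈ S, h62_cl l ^ v l = J ^ Module.finrank K F := by
  classical
  have hinj : Function.Injective (algebraMap (𝓞 K) (𝓞 F)) :=
    FaithfulSMul.algebraMap_injective _ _
  have hn : 0 < Module.finrank K F := Module.finrank_pos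
  have hsβ' : s (β : F) = (β : F) * (γ : F) := by
    rw [← hsO, hsβ]
    simp only [RingOfIntegers.coe_eq_algebraMap, map_mul]
  obtain ⟨η, hη, hN⟩ := h62_norm_eq_pow_mul_unit s hs β γ hγ hsβ'
  obtain ⟨𝔅, h𝔅, hfact⟩ := h62_span_eq_pow_mul_prod hinj hn hβ hη hN S hunr Λ hram
  have hΛ0 : ∀ l ∈ S, Λ l ≠ ⊥ := by
    intro l hl h
    have := (hπ l hl).2.1
    rw [h] at this
    exact this (by
      have := (hπ l hl).1
      rw [h, Ideal.mem_bot] at this
      rw [this]
      exact Ideal.zero_mem _)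
  have hl0 : ∀ l ∈ S, l ≠ ⊥ := by
    intro l hl h
    have := (hram l hl).2.2
    rw [h, Ideal.map_bot, ← Ideal.zero_eq_bot (R := 𝓞 F), normalizedFactors_zero,
      Multiset.count_zero] at this
    omega
  refine ⟨fun l => (normalizedFactors (Ideal.span {β})).count (Λ l), (h62_cl 𝔅)⁻¹, ?_, ?_⟩
  · intro l hl
    have := (hram l hl).1
    exact h62_thaine_congruence (Λ l) (hΛ0 l hl) sO (hin l hl) (hπ l hl).1 (hπ l hl).2.1 hsπ
      (hπ l hl).2.2 hβ hsβ
  · have hN0 : RingOfIntegers.norm K β ≠ 0 := by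
      intro h
      rw [h, map_zero] at hN
      exact (mul_ne_zero (pow_ne_zero _ hβ) hη.ne_zero) hN.symm
    have h1 := congrArg h62_cl hfact
    have hprod0 : (∏ l ∈ S, l ^ (normalizedFactors (Ideal.span {β})).count (Λ l)) ≠ ⊥ := by
      rw [Ne, ← Ideal.zero_eq_bot, Finset.prod_eq_zero_iff]
      rintro ⟨l, hl, h0⟩
      exact hl0 l hl (eq_zero_of_pow_eq_zero h0)
    rw [h62_cl_span_singleton hN0, h62_cl_mul (pow_ne_zero _ h𝔅) hprod0, h62_cl_pow h𝔅,
      h62_cl_prod S _ (fun l hl => pow_ne_zero _ (hl0 l hl))] at h1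
    rw [inv_pow, eq_inv_iff_mul_eq_one, mul_comm]
    refine Eq.trans ?_ h1.symm
    congr 1
    exact Finset.prod_congr rfl fun l hl => (h62_cl_pow (hl0 l hl) _).symm

end Main

end Fermat.Agent.S14.helper62
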