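import Fermat.Agent.S14.helper62_ThaineAbstract

/-!
# The Thaine relation in `ℚ(ζ_{pℓ})/ℚ(ζ_p)` (helper62, S14 route R2, piece T-C)

Cyclotomic instantiation of `thaine_abstract`: ramification of `F = ℚ(ζ_{pℓ})` over
`K = ℚ(ζ_p)` (unramified outside `ℓ`, totally ramified above `ℓ`), inertia, the uniformizer
`ζ_ℓ - 1`.
-/

namespace Fermat.Agent.S14.helper62

open NumberField UniqueFactorizationMonoid Ideal

section Inertia

variable (K F : Type*) [Field K] [NumberField K] [Field F] [NumberField F] [Algebra K F]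
  [IsGalois K F]

/-- If the ramification index equals the degree, the whole Galois group is inertia. -/
theorem h62_mem_inertia_of_ramificationIdx_eq (𝔓 : Ideal (𝓞 F)) [h𝔓 : 𝔓.IsPrime]
    (he : 𝔓.ramificationIdx (𝓞 K) = Module.finrank K F) (σ : Gal(F/K)) (x : 𝓞 F) :
    σ • x - x ∈ 𝔓 := by
  have : (𝔓.under (𝓞 K)).IsPrime := inferInstance
  have h1 := Ideal.card_inertia_eq_ramificationIdxIn (G := Gal(F/K)) (𝔓.under (𝓞 K)) 𝔓
  rw [Ideal.ramificationIdxIn_eq_ramificationIdx (𝔓.under (𝓞 K)) 𝔓 Gal(F/K), he,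
    ← IsGalois.card_aut_eq_finrank] at h1
  have h2 : 𝔓.inertia Gal(F/K) = ⊤ := Subgroup.eq_top_of_card_eq _ h1
  have h3 : σ ∈ 𝔓.inertia Gal(F/K) := h2 ▸ Subgroup.mem_top σ
  exact h3 x


end Inertia

section Cyclo

variable {p ℓ : ℕ} [hpF : Fact p.Prime] [hlF : Fact ℓ.Prime] (K F : Type*) [Field K]
  [NumberField K] [hK : IsCyclotomicExtension {p} ℚ K] [Field F] [NumberField F] [Algebra K F]
  [hF : IsCyclotomicExtension {p * ℓ} ℚ F]

include hK hF in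
theorem h62_finrank_cyclo (hpl : p ≠ ℓ) : Module.finrank K F = ℓ - 1 := by
  have hp := hpF.out
  have hl := hlF.out
  have : NeZero (p * ℓ) := ⟨Nat.mul_ne_zero hp.ne_zero hl.ne_zero⟩
  have : NeZero p := ⟨hp.ne_zero⟩
  have h1 := Module.finrank_mul_finrank ℚ K F
  rw [IsCyclotomicExtension.Rat.finrank p K, IsCyclotomicExtension.Rat.finrank (p * ℓ) F,
    Nat.totient_mul ((Nat.coprime_primes hp hl).mpr hpl), Nat.totient_prime hp,
    Nat.totient_prime hl] at h1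
  have hp1 : 0 < p - 1 := by have := hp.two_le; omega
  exact Nat.eq_of_mul_eq_mul_left hp1 h1

omit hpF hlF hK in
include hF in
theorem h62_isGalois_cyclo : IsGalois K F := by
  have : IsGalois ℚ F := IsCyclotomicExtension.isGalois {p * ℓ} ℚ F
  exact IsGalois.tower_top_of_isGalois ℚ K F

/-- valuation of `ζ_ℓ - 1` at a prime above `ℓ` in `ℚ(ζ_{pℓ})`. -/
theorem h62_count_zeta_sub_one (hpl : p ≠ ℓ) {ζl : 𝓞 F} (hζl : IsPrimitiveRoot ζl ℓ)
    (𝔓 : Ideal (𝓞 F)) [h𝔓 : 𝔓.IsPrime] (h0 : 𝔓 ≠ ⊥) (hl : (ℓ : 𝓞 F) ∈ 𝔓) :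
    (normalizedFactors (Ideal.span {ζl - 1})).count 𝔓 = 1 := by
  classical
  have hp := hpF.out
  have hl' := hlF.out
  have : NeZero 𝔓 := ⟨h0⟩
  set q := absNorm (under ℤ 𝔓) with hq
  have hqprime : q.Prime := Nat.absNorm_under_prime 𝔓
  have hql : q = ℓ := by
    have h1 : ((ℓ : ℤ) : 𝓞 F) ∈ 𝔓 := by exact_mod_cast hl
    rw [Int.cast_mem_ideal_iff, Int.natCast_dvd_natCast] at h1
    exact (Nat.prime_dvd_prime_iff_eq hqprime hl').mp h1
  have h𝔓l : 𝔓.LiesOver (span {(ℓ : ℤ)}) := by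
    have := Int.liesOver_span_absNorm 𝔓
    rwa [← hq, hql] at this
  have hlp : ¬ ℓ ∣ p := fun h => hpl ((Nat.prime_dvd_prime_iff_eq hl' hp).mp h).symm
  have h1 : 𝔓.ramificationIdx ℤ = ℓ ^ 0 * (ℓ - 1) :=
    IsCyclotomicExtension.Rat.ramificationIdx_eq (p := ℓ) (k := 0) (m := p) (p * ℓ) F 𝔓
      (by rw [zero_add, pow_one, mul_comm]) hlp
  have hmap : (span {(ℓ : ℤ)}).map (algebraMap ℤ (𝓞 F)) = span {(ℓ : 𝓞 F)} := by
    rw [Ideal.map_span, Set.image_singleton, map_natCast]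
  have hl0 : (ℓ : 𝓞 F) ≠ 0 := by exact_mod_cast hl'.ne_zero
  have h2 := IsDedekindDomain.ramificationIdx_eq_normalizedFactors_count (span {(ℓ : ℤ)}) 𝔓
    (by rw [hmap, Ne, Ideal.span_singleton_eq_bot]; exact hl0)
  rw [h1, hmap, pow_zero, one_mul] at h2
  -- ℓ is associated to (ζl - 1)^(ℓ-1)
  have hζF : IsPrimitiveRoot (ζl : F) ℓ := hζl.map_of_injective RingOfIntegers.coe_injective
  have hint : hζF.toInteger = ζl := RingOfIntegers.ext rfl
  have hassoc := IsCyclotomicExtension.Rat.associated_zeta_sub_one_pow_prime ℓ hζF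
  rw [hint] at hassoc
  rw [← Ideal.span_singleton_eq_span_singleton.mpr hassoc, ← Ideal.span_singleton_pow,
    normalizedFactors_pow, Multiset.count_nsmul] at h2
  have hl1 : 0 < ℓ - 1 := by have := hl'.two_le; omega
  exact (Nat.eq_of_mul_eq_mul_left hl1 (by rw [mul_one]; exact h2.symm))

/-- relative ramification index in `ℚ(ζ_{pℓ})/ℚ(ζ_p)` at primes not above `ℓ`. -/
theorem h62_ramificationIdx_eq_one (hpl : p ≠ ℓ) (𝔓 : Ideal (𝓞 F)) [h𝔓 : 𝔓.IsPrime] (h0 : 𝔓 ≠ ⊥)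
    (hl : (ℓ : 𝓞 F) ∉ 𝔓) : 𝔓.ramificationIdx (𝓞 K) = 1 := by
  have hp := hpF.out
  have hl' := hlF.out
  set q := absNorm (under ℤ 𝔓) with hq
  have : NeZero 𝔓 := ⟨h0⟩
  have hqprime : q.Prime := Nat.absNorm_under_prime 𝔓
  have : Fact q.Prime := ⟨hqprime⟩
  have hql : q ≠ ℓ := by
    intro h
    apply hl
    have := Int.absNorm_under_mem 𝔓
    rwa [← hq, h] at this
  have htower := Ideal.ramificationIdx_tower (R := ℤ) (𝔓.under (𝓞 K)) 𝔓
  have : (𝔓.under (𝓞 K)).LiesOver (span {(q : ℤ)}) := LiesOver.tower_bot 𝔓 _ _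
  by_cases hqp : q = p
  · have h1 : 𝔓.ramificationIdx ℤ = p ^ 0 * (p - 1) := by
      have := IsCyclotomicExtension.Rat.ramificationIdx_eq (p := q) (k := 0) (m := ℓ) (p * ℓ) F 𝔓
        (by rw [hqp, zero_add, pow_one]) (by
          rw [hqp]
          intro h
          exact hpl ((Nat.prime_dvd_prime_iff_eq hp hl').mp h))
      rw [this, hqp]
    have h2 : (𝔓.under (𝓞 K)).ramificationIdx ℤ = p - 1 := by
      subst hqp
      exact IsCyclotomicExtension.Rat.ramificationIdx_eq_of_prime q K _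
    rw [h1, h2, pow_zero, one_mul] at htower
    have hp1 : 0 < p - 1 := by have := hp.two_le; omega
    exact (Nat.eq_of_mul_eq_mul_left hp1 (by rw [mul_one]; exact htower.symm))
  · have h1 : 𝔓.ramificationIdx ℤ = 1 := by
      have : NeZero (p * ℓ) := ⟨Nat.mul_ne_zero hp.ne_zero hl'.ne_zero⟩
      apply IsCyclotomicExtension.Rat.ramificationIdx_eq_of_not_dvd (p := q) (m := p * ℓ) F 𝔓
      intro h
      rcases (Nat.Prime.dvd_mul hqprime).mp h with h | h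
      · exact hqp ((Nat.prime_dvd_prime_iff_eq hqprime hp).mp h)
      · exact hql ((Nat.prime_dvd_prime_iff_eq hqprime hl').mp h)
    rw [h1] at htower
    exact Nat.eq_one_of_mul_eq_one_left htower.symm

/-- relative ramification index in `ℚ(ζ_{pℓ})/ℚ(ζ_p)` at primes above `ℓ`. -/
theorem h62_ramificationIdx_eq_sub_one (hpl : p ≠ ℓ) (𝔓 : Ideal (𝓞 F)) [h𝔓 : 𝔓.IsPrime]
    (h0 : 𝔓 ≠ ⊥) (hl : (ℓ : 𝓞 F) ∈ 𝔓) : 𝔓.ramificationIdx (𝓞 K) = ℓ - 1 := by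
  have hp := hpF.out
  have hl' := hlF.out
  set q := absNorm (under ℤ 𝔓) with hq
  have : NeZero 𝔓 := ⟨h0⟩
  have hqprime : q.Prime := Nat.absNorm_under_prime 𝔓
  have hql : q = ℓ := by
    have h1 : ((ℓ : ℤ) : 𝓞 F) ∈ 𝔓 := by exact_mod_cast hl
    rw [Int.cast_mem_ideal_iff, Int.natCast_dvd_natCast] at h1
    exact (Nat.prime_dvd_prime_iff_eq hqprime hl').mp h1
  have htower := Ideal.ramificationIdx_tower (R := ℤ) (𝔓.under (𝓞 K)) 𝔓
  have h𝔓l : 𝔓.LiesOver (span {(ℓ : ℤ)}) := by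
    have := Int.liesOver_span_absNorm 𝔓
    rwa [← hq, hql] at this
  have : (𝔓.under (𝓞 K)).LiesOver (span {(ℓ : ℤ)}) := LiesOver.tower_bot 𝔓 _ _
  have hlp : ¬ ℓ ∣ p := fun h => hpl ((Nat.prime_dvd_prime_iff_eq hl' hp).mp h).symm
  have h1 : 𝔓.ramificationIdx ℤ = ℓ ^ 0 * (ℓ - 1) :=
    IsCyclotomicExtension.Rat.ramificationIdx_eq (p := ℓ) (k := 0) (m := p) (p * ℓ) F 𝔓
      (by rw [zero_add, pow_one, mul_comm]) hlp
  have h2 : (𝔓.under (𝓞 K)).ramificationIdx ℤ = 1 := by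
    have : NeZero p := ⟨hp.ne_zero⟩
    exact IsCyclotomicExtension.Rat.ramificationIdx_eq_of_not_dvd (p := ℓ) (m := p) K _ hlp
  rw [h1, h2, pow_zero, one_mul, one_mul] at htower
  exact htower.symm

/-- **Thaine relation in `ℚ(ζ_{pℓ})/ℚ(ζ_p)`**, given the Hilbert 90 element `β`. -/
theorem thaine_cyclo [IsGalois K F] (hpl : p ≠ ℓ) {ζl : 𝓞 F} (hζl : IsPrimitiveRoot ζl ℓ)
    (s : Gal(F/K)) (hs : ∀ τ : Gal(F/K), τ ∈ Subgroup.zpowers s) (gt : ℕ)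
    (hsζ : s • ζl = ζl ^ gt) (β γ : 𝓞 F) (hβ : β ≠ 0) (hγ : IsUnit γ) (hsβ : s • β = β * γ)
    (S : Finset (Ideal (𝓞 K))) (hS : ∀ l : Ideal (𝓞 K), l ∈ S ↔ l.IsPrime ∧ (ℓ : 𝓞 K) ∈ l) :
    ∃ (v : Ideal (𝓞 K) → ℕ) (J : ClassGroup (𝓞 K)),
      (∀ l ∈ S, ∀ x : 𝓞 K, (∀ Λ : Ideal (𝓞 F), Λ.IsPrime → (ℓ : 𝓞 F) ∈ Λ →
        γ - algebraMap (𝓞 K) (𝓞 F) x ∈ Λ) → x - (gt : 𝓞 K) ^ v l ∈ l) ∧
      ∏ l ∈ S, h62_cl l ^ v l = J ^ (ℓ - 1) := by
  classical
  have hp := hpF.out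
  have hl' := hlF.out
  have hfin := h62_finrank_cyclo K F hpl
  have hl0K : (ℓ : 𝓞 K) ≠ 0 := by exact_mod_cast hl'.ne_zero
  have hinj : Function.Injective (algebraMap (𝓞 K) (𝓞 F)) :=
    FaithfulSMul.algebraMap_injective _ _
  -- choose primes above
  have hex : ∀ l : Ideal (𝓞 K), ∃ Λ : Ideal (𝓞 F), l ∈ S → Λ.IsPrime ∧ Λ.under (𝓞 K) = l := by
    intro l
    by_cases hlS : l ∈ S
    · have hlp := ((hS l).mp hlS).1
      obtain ⟨Λ, hΛ1, hΛ2⟩ := Ideal.exists_ideal_over_prime_of_isIntegral l (⊥ : Ideal (𝓞 F))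
        (by simp)
      exact ⟨Λ, fun _ => ⟨hΛ2.1, hΛ2.2⟩⟩ 
    · exact ⟨⊥, fun h => absurd h hlS⟩
  choose Λ hΛ using hex
  have hΛl : ∀ l ∈ S, (ℓ : 𝓞 F) ∈ Λ l := by
    intro l hl
    have h1 := ((hS l).mp hl).2
    have h2 : (ℓ : 𝓞 K) ∈ (Λ l).under (𝓞 K) := by rw [(hΛ l hl).2]; exact h1
    rw [Ideal.under_def, Ideal.mem_comap, map_natCast] at h2
    exact h2
  have hΛ0 : ∀ l ∈ S, Λ l ≠ ⊥ := by
    intro l hl h
    have := hΛl l hl
    rw [h, Ideal.mem_bot] at this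
    exact (by exact_mod_cast hl'.ne_zero : (ℓ : 𝓞 F) ≠ 0) this
  have hl0 : ∀ l ∈ S, l ≠ ⊥ := by
    intro l hl h
    have := ((hS l).mp hl).2
    rw [h, Ideal.mem_bot] at this
    exact hl0K this
  let sO : 𝓞 F →+* 𝓞 F := MulSemiringAction.toRingHom Gal(F/K) (𝓞 F) s
  have hsO : ∀ x : 𝓞 F, sO x = s • x := fun x => rfl
  set π : 𝓞 F := ζl - 1 with hπdef
  set w : 𝓞 F := ∑ i ∈ Finset.range gt, ζl ^ i with hwdef
  have hsπ : sO π = w * π := by
    rw [hsO, hπdef, smul_sub, smul_one, hsζ, hwdef, geom_sum_mul]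
  obtain ⟨v, J, hv, hJ⟩ := thaine_abstract s hs sO (fun x => rfl) β γ hβ hγ
    (by rw [hsO]; exact hsβ) S
    (by
      intro 𝔭 h𝔭 h𝔭0 h𝔭S
      obtain ⟨𝔓, h𝔓1, h𝔓2⟩ := Ideal.exists_ideal_over_prime_of_isIntegral 𝔭 (⊥ : Ideal (𝓞 F))
        (by simp)
      have h𝔓prime := h𝔓2.1
      have h𝔓0 : 𝔓 ≠ ⊥ := by
        intro h
        rw [h] at h𝔓2
        apply h𝔭0
        rw [← h𝔓2.2]
        exact Ideal.comap_bot_of_injective _ hinj
      have hnot : (ℓ : 𝓞 F) ∉ 𝔓 := by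
        intro h
        apply h𝔭S
        rw [hS]
        refine ⟨h𝔭, ?_⟩
        rw [← h𝔓2.2, Ideal.mem_comap, map_natCast]
        exact h
      refine ⟨𝔓, h𝔓prime, h𝔓2.2, ?_⟩
      have : 𝔓.LiesOver 𝔭 := ⟨h𝔓2.2.symm⟩
      rw [← IsDedekindDomain.ramificationIdx_eq_normalizedFactors_count 𝔭 𝔓
        ((Ideal.map_eq_bot_iff_of_injective hinj).not.mpr h𝔭0)]
      exact h62_ramificationIdx_eq_one K F hpl 𝔓 h𝔓0 hnot)
    Λ
    (by
      intro l hl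
      have := (hΛ l hl).1
      refine ⟨(hΛ l hl).1, (hΛ l hl).2, ?_⟩
      have : (Λ l).LiesOver l := ⟨(hΛ l hl).2.symm⟩
      rw [← IsDedekindDomain.ramificationIdx_eq_normalizedFactors_count l (Λ l)
        ((Ideal.map_eq_bot_iff_of_injective hinj).not.mpr (hl0 l hl)), hfin]
      exact h62_ramificationIdx_eq_sub_one K F hpl (Λ l) (hΛ0 l hl) (hΛl l hl))
    (by
      intro l hl x
      have := (hΛ l hl).1
      rw [hsO]
      apply h62_mem_inertia_of_ramificationIdx_eq K F (Λ l)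
      rw [hfin]
      exact h62_ramificationIdx_eq_sub_one K F hpl (Λ l) (hΛ0 l hl) (hΛl l hl))
    π w (gt : 𝓞 K) hsπ
    (by
      intro l hl
      have := (hΛ l hl).1
      have hcount := h62_count_zeta_sub_one F hpl hζl (Λ l) (hΛ0 l hl) (hΛl l hl)
      have hπ0 : Ideal.span {π} ≠ ⊥ := by
        rw [Ne, Ideal.span_singleton_eq_bot, hπdef, sub_eq_zero]
        exact hζl.ne_one hl'.one_lt
      have hπmem : π ∈ Λ l := by
        have := h62_le_pow_count (Λ l) (hΛ0 l hl) hπ0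
        rw [hcount, pow_one] at this
        exact this (Ideal.mem_span_singleton_self π)
      refine ⟨hπmem, ?_, ?_⟩
      · intro h
        have := h62_not_le_pow_succ (Λ l) (hΛ0 l hl) hπ0
        rw [hcount] at this
        exact this ((Ideal.span_singleton_le_iff_mem _).mpr h)
      · rw [map_natCast, ← Ideal.Quotient.eq, hwdef, map_sum]
        have hζ1 : Ideal.Quotient.mk (Λ l) ζl = 1 := by
          rw [← map_one (Ideal.Quotient.mk (Λ l)), Ideal.Quotient.eq]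
          exact hπmem
        simp only [map_pow, hζ1, one_pow, Finset.sum_const, Finset.card_range, nsmul_eq_mul,
          mul_one, map_natCast])
  refine ⟨v, J, ?_, ?_⟩
  · intro l hl x hx
    have h1 := hv l hl
    have h2 := hx (Λ l) (hΛ l hl).1 (hΛl l hl)
    have h3 : algebraMap (𝓞 K) (𝓞 F) (x - (gt : 𝓞 K) ^ v l) ∈ Λ l := by
      have : algebraMap (𝓞 K) (𝓞 F) (x - (gt : 𝓞 K) ^ v l) =
          (γ - algebraMap (𝓞 K) (𝓞 F) (gt : 𝓞 K) ^ v l) - (γ - algebraMap (𝓞 K) (𝓞 F) x) := by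
        rw [map_sub, map_pow]
        ring
      rw [this]
      exact (Λ l).sub_mem h1 h2
    have h4 : x - (gt : 𝓞 K) ^ v l ∈ (Λ l).under (𝓞 K) := h3
    rwa [(hΛ l hl).2] at h4
  · rw [← hfin]
    exact hJ

end Cyclo

end Fermat.Agent.S14.helper62
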