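import Fermat.Agent.S14.helper62_ThaineFinal
import Fermat.Agent.S14.helper15_CycE2

set_option linter.style.haveILetI false
set_option linter.unusedVariables false

/-!
# The Thaine relation for the cyclotomic unit `E₂` (helper62, S14 route R2, piece R2-A step 1a)

If `ψ : 𝓞 K →+* ZMod ℓ` (`ℓ ≠ p`) and `ψ E` is not a `p`-th power, where `E` is the cyclotomic
unit of `helper15.exists_cycE2`, then `∏ σ, [ker (ψ ∘ σ)] ^ (n σ)²` is a `p`-th power in the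
class group (`σ ζ = ζ ^ n σ`).
-/

namespace Fermat.Agent.S14.helper62

open NumberField Polynomial IsCyclotomicExtension

section E2

/-- in a commutative group, `B ^ T ∈ p-th powers`, `p ∤ T`, `p` prime implies `B` is a `p`-th
power. -/
lemma h62_exists_pow_eq_of_pow_mem {G : Type*} [CommGroup G] {p : ℕ} (hp : p.Prime) (B : G)
    {T : ℕ} (hT : ¬ p ∣ T) (h : ∃ Y : G, B ^ T = Y ^ p) : ∃ J : G, B = J ^ p := by
  obtain ⟨Y, hY⟩ := h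
  have hcop : Nat.Coprime T p := ((Nat.Prime.coprime_iff_not_dvd hp).mpr hT).symm
  have hb := Nat.gcd_eq_gcd_ab T p
  rw [hcop.gcd_eq_one] at hb
  refine ⟨Y ^ (Nat.gcdA T p) * B ^ (Nat.gcdB T p), ?_⟩
  calc B = B ^ (((1 : ℕ) : ℤ)) := by rw [Nat.cast_one, zpow_one]
    _ = (B ^ (T : ℤ)) ^ (Nat.gcdA T p) * (B ^ (Nat.gcdB T p)) ^ (p : ℤ) := by
        rw [hb, zpow_add, zpow_mul, zpow_mul']
    _ = ((Y ^ (Nat.gcdA T p)) ^ (p : ℤ)) * (B ^ (Nat.gcdB T p)) ^ (p : ℤ) := by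
        congr 1
        rw [zpow_natCast, hY, ← zpow_natCast Y p, ← zpow_mul, ← zpow_mul, mul_comm]
    _ = (Y ^ (Nat.gcdA T p) * B ^ (Nat.gcdB T p)) ^ p := by
        rw [← mul_zpow, zpow_natCast]


variable {p : ℕ} [hpF : Fact p.Prime] {K : Type} [Field K] [NumberField K]
  [hK : IsCyclotomicExtension {p} ℚ K]

/-- **Thaine relation for the cyclotomic unit `E₂`**. -/
theorem h62_thaine_E2 (hp5 : 5 ≤ p) {ζ : 𝓞 K} (hζ : IsPrimitiveRoot ζ p) (E : (𝓞 K)ˣ)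
    (hE1 : (E : 𝓞 K) * ∏ b ∈ Finset.Ico 1 p, (1 - ζ) ^ helper15.expE2 p b
        = ∏ b ∈ Finset.Ico 1 p, (1 - ζ ^ b) ^ helper15.expE2 p b)
    (hE2 : ∀ (σ : K ≃ₐ[ℚ] K) (n : ℕ), σ (ζ : K) = (ζ : K) ^ n →
        ∃ k : (𝓞 K)ˣ, galRestrict ℤ ℚ K (𝓞 K) σ (E : 𝓞 K) = (E : 𝓞 K) ^ (n ^ 2) * (k : 𝓞 K) ^ p)
    {ℓ : ℕ} [hlF : Fact ℓ.Prime] (hℓ : ℓ ≠ p) (ψ : 𝓞 K →+* ZMod ℓ)
    (hnr : ¬ ∃ c : ZMod ℓ, c ^ p = ψ (E : 𝓞 K))
    (n : (K ≃ₐ[ℚ] K) → ℕ) (hn : ∀ σ, σ (ζ : K) = (ζ : K) ^ n σ) :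
    ∃ J : ClassGroup (𝓞 K),
      ∏ σ : K ≃ₐ[ℚ] K, h62_kerClass (h62_compGal ψ σ) ^ (n σ ^ 2) = J ^ p := by
  classical
  have hp := hpF.out
  have hl := hlF.out
  have hp2 : p ≠ 2 := by omega
  have hψζ : ∀ φ : 𝓞 K →+* ZMod ℓ, IsPrimitiveRoot (φ ζ) p :=
    fun φ => h62_isPrimitiveRoot_map (Ne.symm hℓ) hζ φ
  have hdvd : p ∣ ℓ - 1 := by
    have h1 : (ψ ζ) ^ (ℓ - 1) = 1 := ZMod.pow_card_sub_one_eq_one ((hψζ ψ).ne_zero hp.ne_zero)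
    exact ((hψζ ψ).pow_eq_one_iff_dvd _).mp h1
  obtain ⟨m, hm⟩ := hdvd
  have hmod : ℓ % p = 1 := by
    have h1 : ℓ = p * m + 1 := by have := hl.one_le; omega
    rw [h1, Nat.mul_add_mod]
    exact Nat.mod_eq_of_lt hp.one_lt
  obtain ⟨g, hg⟩ := IsCyclic.exists_generator (α := (ZMod ℓ)ˣ)
  have hord : orderOf g = ℓ - 1 := by
    rw [orderOf_eq_card_of_forall_mem_zpowers hg, Nat.card_eq_fintype_card,
      ZMod.card_units_eq_totient, Nat.totient_prime hl]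
  have hdlog : ∀ x : ZMod ℓ, x ≠ 0 → ∃ r : ℕ, x = ((g ^ r : (ZMod ℓ)ˣ) : ZMod ℓ) := by
    intro x hx
    have h1 := hg (Units.mk0 x hx)
    rw [← mem_powers_iff_mem_zpowers] at h1
    obtain ⟨r, hr⟩ := h1
    refine ⟨r, ?_⟩
    have := congrArg (fun u : (ZMod ℓ)ˣ => (u : ZMod ℓ)) hr
    simpa using this.symm
  -- values
  have hval : ∀ (b : ℕ) (σ : K ≃ₐ[ℚ] K), ¬ p ∣ b → h62_compGal ψ σ (1 - ζ ^ b) ≠ 0 := by
    intro b σ hb h
    rw [map_sub, map_one, map_pow, sub_eq_zero] at h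
    exact hb (((hψζ _).pow_eq_one_iff_dvd b).mp h.symm)
  have hr : ∀ (b : ℕ) (σ : K ≃ₐ[ℚ] K), ∃ r : ℕ, ¬ p ∣ b →
      h62_compGal ψ σ (1 - ζ ^ b) = ((g ^ r : (ZMod ℓ)ˣ) : ZMod ℓ) := by
    intro b σ
    by_cases hb : p ∣ b
    · exact ⟨0, fun h => absurd hb h⟩
    · obtain ⟨r, hr⟩ := hdlog _ (hval b σ hb)
      exact ⟨r, fun _ => hr⟩
  choose r hr using hr
  have hbI : ∀ b ∈ Finset.Ico 1 p, ¬ p ∣ b := by
    intro b hb
    rw [Finset.mem_Ico] at hb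
    exact Nat.not_dvd_of_pos_of_lt hb.1 hb.2
  -- Thaine
  have hTh : ∀ b : ℕ, ∃ J : ClassGroup (𝓞 K), ¬ p ∣ b →
      ∏ σ : K ≃ₐ[ℚ] K, h62_kerClass (h62_compGal ψ σ) ^ r b σ = J ^ (ℓ - 1) := by
    intro b
    by_cases hb : p ∣ b
    · exact ⟨1, fun h => absurd hb h⟩
    · obtain ⟨J, hJ⟩ := h62_thaine_relation hp2 hζ hmod ψ b hb g hg (r b) (fun σ => hr b σ hb)
      exact ⟨J, fun _ => hJ⟩
  choose Jb hJb using hTh
  set e := helper15.expE2 p with he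
  set A : (K ≃ₐ[ℚ] K) → ClassGroup (𝓞 K) := fun σ => h62_kerClass (h62_compGal ψ σ) with hA
  set t : (K ≃ₐ[ℚ] K) → ℕ := fun σ => ∑ b ∈ Finset.Ico 1 p, e b * r b σ with ht
  -- key1
  have key1 : ∏ σ, A σ ^ t σ = (∏ b ∈ Finset.Ico 1 p, Jb b ^ (e b * m)) ^ p := by
    calc ∏ σ, A σ ^ t σ = ∏ σ, ∏ b ∈ Finset.Ico 1 p, (A σ ^ r b σ) ^ e b := by
          refine Finset.prod_congr rfl fun σ _ => ?_
          rw [ht, ← Finset.prod_pow_eq_pow_sum]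
          refine Finset.prod_congr rfl fun b _ => ?_
          rw [← pow_mul, mul_comm]
      _ = ∏ b ∈ Finset.Ico 1 p, (∏ σ, A σ ^ r b σ) ^ e b := by
          rw [Finset.prod_comm]
          refine Finset.prod_congr rfl fun b _ => ?_
          rw [Finset.prod_pow]
      _ = ∏ b ∈ Finset.Ico 1 p, (Jb b ^ (e b * m)) ^ p := by
          refine Finset.prod_congr rfl fun b hb => ?_
          rw [hJb b (hbI b hb), hm, ← pow_mul, ← pow_mul]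
          congr 1
          ring
      _ = _ := by rw [Finset.prod_pow]
  -- dlogs
  have hE0 : ψ (E : 𝓞 K) ≠ 0 := (E.isUnit.map ψ).ne_zero
  obtain ⟨T, hT⟩ := hdlog _ hE0
  have hTp : ¬ p ∣ T := by
    rintro ⟨T', rfl⟩
    exact hnr ⟨((g ^ T' : (ZMod ℓ)ˣ) : ZMod ℓ), by rw [hT]; push_cast; ring⟩
  obtain ⟨M, hM⟩ := helper15.dvd_sum_expE2 (p := p) hp5
  have key2 : ∀ σ, t σ ≡ T * n σ ^ 2 [MOD p] := by
    intro σ
    obtain ⟨k, hk⟩ := hE2 σ (n σ) (hn σ)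
    have hk0 : ψ (k : 𝓞 K) ≠ 0 := (k.isUnit.map ψ).ne_zero
    obtain ⟨a, ha⟩ := hdlog _ hk0
    have h1 : ((g ^ t σ : (ZMod ℓ)ˣ) : ZMod ℓ) =
        ((g ^ (T * n σ ^ 2 + p * (a + M * r 1 σ)) : (ZMod ℓ)ˣ) : ZMod ℓ) := by
      calc ((g ^ t σ : (ZMod ℓ)ˣ) : ZMod ℓ)
          = ∏ b ∈ Finset.Ico 1 p, (h62_compGal ψ σ (1 - ζ ^ b)) ^ e b := by
            rw [Units.val_pow_eq_pow_val, ← Finset.prod_pow_eq_pow_sum]
            refine Finset.prod_congr rfl fun b hb => ?_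
            rw [hr b σ (hbI b hb), Units.val_pow_eq_pow_val, ← pow_mul, mul_comm]
        _ = h62_compGal ψ σ (∏ b ∈ Finset.Ico 1 p, (1 - ζ ^ b) ^ e b) := by
            rw [map_prod]
            simp only [map_pow]
        _ = h62_compGal ψ σ ((E : 𝓞 K) * ∏ b ∈ Finset.Ico 1 p, (1 - ζ) ^ e b) := by rw [hE1]
        _ = ψ (E : 𝓞 K) ^ (n σ ^ 2) * ψ (k : 𝓞 K) ^ p *
              (h62_compGal ψ σ (1 - ζ ^ 1)) ^ (p * M) := by
            rw [map_mul, Finset.prod_pow_eq_pow_sum, hM, map_pow, h62_compGal_apply, hk, map_mul,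
              map_pow, map_pow, pow_one]
        _ = _ := by
            rw [hT, ha, hr 1 σ (hbI 1 (by rw [Finset.mem_Ico]; omega))]
            simp only [Units.val_pow_eq_pow_val]
            ring
    have h2 : g ^ t σ = g ^ (T * n σ ^ 2 + p * (a + M * r 1 σ)) := Units.ext h1
    have h3 := pow_eq_pow_iff_modEq.mp h2
    rw [hord, hm] at h3
    have h4 := h3.of_mul_right m
    refine h4.trans ?_
    unfold Nat.ModEq
    exact Nat.add_mul_mod_self_left _ _ _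
  choose c hc using fun σ => h62_exists_pow_eq_of_modEq (A σ) (key2 σ)
  apply h62_exists_pow_eq_of_pow_mem hp _ hTp
  refine ⟨(∏ b ∈ Finset.Ico 1 p, Jb b ^ (e b * m)) * (∏ σ, c σ)⁻¹, ?_⟩
  rw [mul_pow, ← key1, inv_pow, eq_mul_inv_iff_mul_eq, ← Finset.prod_pow, ← Finset.prod_pow,
    ← Finset.prod_mul_distrib]
  refine Finset.prod_congr rfl fun σ _ => ?_
  rw [hc σ, ← pow_mul, mul_comm (n σ ^ 2) T]

end E2

end Fermat.Agent.S14.helper62
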