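import Mathlib

set_option autoImplicit false
set_option linter.unusedSectionVars false
set_option linter.style.haveILetI false

/-!
# S14, route R2, Thaine relation (helper99): the auxiliary field `F = K(ζ_ℓ)`

`K = ℚ(ζ_p)`, `ℓ ≠ p` a prime, `F` any cyclotomic extension of `K` for `{ℓ}`.
* `isCyclotomicExtension_mul` : `F` is a cyclotomic extension of `ℚ` for `{p * ℓ}`;
* `finrank_thF`, `irreducible_cyclotomic_thF` : `[F : K] = ℓ - 1`, `Φ_ℓ` is irreducible over `K`;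
* `norm_algebraMap_sub_gen`, `norm_one_sub_mul_zeta` : `N_{F/K}(1 - y ζ_ℓ) = 1` if `y^ℓ = y ≠ 0, 1`;
* `thaineGen`, `thaineGen_zeta`, `thaineGen_generates` : the generator `ζ_ℓ ↦ ζ_ℓ^g` of `Gal(F/K)`;
* `exists_hilbert90` : Hilbert 90 in integral form for this generator.
-/

namespace Fermat.Agent.S14.helper99

open NumberField Polynomial IsCyclotomicExtension

section field

/-- a primitive `pℓ`-th root of unity in `F` -/
lemma isPrimitiveRoot_mul {p ℓ : ℕ} [hp : Fact p.Prime] [hℓ : Fact ℓ.Prime] {K F : Type}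
    [Field K] [Field F] [Algebra K F] (hpl : p ≠ ℓ) {ζ : K} (hζ : IsPrimitiveRoot ζ p) {ξ : F}
    (hξ : IsPrimitiveRoot ξ ℓ) : IsPrimitiveRoot (algebraMap K F ζ * ξ) (p * ℓ) := by
  have h1 : IsPrimitiveRoot (algebraMap K F ζ) p := hζ.map_of_injective (algebraMap K F).injective
  have hcop : Nat.Coprime p ℓ := (Nat.coprime_primes hp.out hℓ.out).mpr hpl
  have ho1 : orderOf (algebraMap K F ζ) = p := h1.eq_orderOf.symm
  have ho2 : orderOf ξ = ℓ := hξ.eq_orderOf.symm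
  have := (Commute.all (algebraMap K F ζ) ξ).orderOf_mul_eq_mul_orderOf_of_coprime
    (by rw [ho1, ho2]; exact hcop)
  rw [ho1, ho2] at this
  rw [← this]
  exact IsPrimitiveRoot.orderOf _

variable (p ℓ : ℕ) [hp : Fact p.Prime] [hℓ : Fact ℓ.Prime] (K F : Type) [Field K] [NumberField K]
  [hK : IsCyclotomicExtension {p} ℚ K]
  [Field F] [NumberField F] [Algebra K F] [hF : IsCyclotomicExtension {ℓ} K F]

include hK hF in
lemma isCyclotomicExtension_mul (hpl : p ≠ ℓ) : IsCyclotomicExtension {p * ℓ} ℚ F := by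
  have h1 : IsCyclotomicExtension ({p} ∪ {ℓ}) ℚ F :=
    IsCyclotomicExtension.trans {p} {ℓ} ℚ K F (algebraMap K F).injective
  have hζ := zeta_spec p ℚ K
  have hξ := zeta_spec ℓ K F
  have hμ := isPrimitiveRoot_mul hpl hζ hξ
  have h2 : IsCyclotomicExtension ({p} ∪ {ℓ} ∪ {p * ℓ}) ℚ F :=
    IsCyclotomicExtension.union_of_isPrimitiveRoot _ _ _ hμ
  have h3 : IsCyclotomicExtension ({p * ℓ} ∪ {p}) ℚ F ↔ IsCyclotomicExtension ({p * ℓ} ∪ {p} ∪ {ℓ}) ℚ F :=
    IsCyclotomicExtension.iff_union_of_dvd ℚ F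
      ⟨p * ℓ, by simp, Nat.mul_ne_zero hp.out.ne_zero hℓ.out.ne_zero, Dvd.intro_left p rfl⟩
  have h4 : IsCyclotomicExtension {p * ℓ} ℚ F ↔ IsCyclotomicExtension ({p * ℓ} ∪ {p}) ℚ F :=
    IsCyclotomicExtension.iff_union_of_dvd ℚ F
      ⟨p * ℓ, by simp, Nat.mul_ne_zero hp.out.ne_zero hℓ.out.ne_zero, Dvd.intro ℓ rfl⟩
  rw [h4, h3]
  have hset : ({p * ℓ} ∪ {p} ∪ {ℓ} : Set ℕ) = {p} ∪ {ℓ} ∪ {p * ℓ} := by
    ext x; simp only [Set.mem_union, Set.mem_singleton_iff]; tauto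
  rw [hset]
  exact h2

include hK hF in
lemma finrank_thF (hpl : p ≠ ℓ) : Module.finrank K F = ℓ - 1 := by
  haveI := isCyclotomicExtension_mul p ℓ K F hpl
  haveI : NeZero (p * ℓ) := ⟨Nat.mul_ne_zero hp.out.ne_zero hℓ.out.ne_zero⟩
  haveI : NeZero p := ⟨hp.out.ne_zero⟩
  have h1 : Module.finrank ℚ F = (p * ℓ).totient := IsCyclotomicExtension.Rat.finrank (p * ℓ) F
  have h2 : Module.finrank ℚ K = p.totient := IsCyclotomicExtension.Rat.finrank p K
  have h3 := Module.finrank_mul_finrank ℚ K F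
  have hcop : Nat.Coprime p ℓ := (Nat.coprime_primes hp.out hℓ.out).mpr hpl
  rw [h1, h2, Nat.totient_mul hcop, Nat.totient_prime hℓ.out] at h3
  have hpos : 0 < p.totient := Nat.totient_pos.mpr hp.out.pos
  exact Nat.eq_of_mul_eq_mul_left hpos h3

include hK hF in
lemma irreducible_cyclotomic_thF (hpl : p ≠ ℓ) : Irreducible (cyclotomic ℓ K) := by
  haveI : NeZero ℓ := ⟨hℓ.out.ne_zero⟩
  have hξ := zeta_spec ℓ K F
  have hfin := finrank_thF p ℓ K F hpl
  have hint : IsIntegral K (zeta ℓ K F) := Algebra.IsIntegral.isIntegral _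
  have hdvd : minpoly K (zeta ℓ K F) ∣ cyclotomic ℓ K := by
    apply minpoly.dvd
    rw [aeval_def, eval₂_eq_eval_map, map_cyclotomic]
    exact hξ.isRoot_cyclotomic hℓ.out.pos
  have hdeg : (minpoly K (zeta ℓ K F)).natDegree = ℓ - 1 := by
    rw [← hfin, ← IsPrimitiveRoot.powerBasis_dim K hξ, PowerBasis.finrank]
  have heq : cyclotomic ℓ K = minpoly K (zeta ℓ K F) := by
    refine Polynomial.eq_of_monic_of_dvd_of_natDegree_le (minpoly.monic hint)
      (cyclotomic.monic ℓ K) hdvd ?_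
    rw [natDegree_cyclotomic, hdeg, Nat.totient_prime hℓ.out]
  rw [heq]
  exact minpoly.irreducible hint

end field

end Fermat.Agent.S14.helper99

namespace Fermat.Agent.S14.helper99

open NumberField Polynomial IsCyclotomicExtension

section norm

variable {K F : Type} [Field K] [Field F] [Algebra K F] [FiniteDimensional K F]

/-- norm of `a - x` for a power basis generator `x`. -/
lemma norm_algebraMap_sub_gen (pb : PowerBasis K F) (a : K) :
    Algebra.norm K (algebraMap K F a - pb.gen) = (minpoly K pb.gen).eval a := by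
  rw [Algebra.norm_eq_matrix_det pb.basis, map_sub, ← charpoly_leftMulMatrix,
    Matrix.eval_charpoly, AlgHom.commutes]
  rfl

end norm

end Fermat.Agent.S14.helper99

namespace Fermat.Agent.S14.helper99

open NumberField Polynomial IsCyclotomicExtension

section norm2

variable {ℓ : ℕ} [hℓ : Fact ℓ.Prime] {K F : Type} [Field K] [Field F] [Algebra K F]
  [hF : IsCyclotomicExtension {ℓ} K F]

lemma norm_one_sub_mul_zeta (hirr : Irreducible (cyclotomic ℓ K)) (y : K) (hy0 : y ≠ 0)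
    (hy1 : y ≠ 1) (hy : y ^ ℓ = y) :
    Algebra.norm K (1 - algebraMap K F y * zeta ℓ K F) = 1 := by
  haveI : NeZero ℓ := ⟨hℓ.out.ne_zero⟩
  haveI : FiniteDimensional K F := IsCyclotomicExtension.finiteDimensional {ℓ} K F
  haveI : NeZero ((ℓ : ℕ) : K) := IsCyclotomicExtension.neZero' ℓ K F
  have hξ := zeta_spec ℓ K F
  have hmin : minpoly K (zeta ℓ K F) = cyclotomic ℓ K :=
    (hξ.minpoly_eq_cyclotomic_of_irreducible hirr).symm
  have hfin : Module.finrank K F = ℓ - 1 := by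
    rw [IsCyclotomicExtension.finrank F hirr, Nat.totient_prime hℓ.out]
  have h1 : (1 : F) - algebraMap K F y * zeta ℓ K F =
      algebraMap K F y * (algebraMap K F y⁻¹ - (hξ.powerBasis K).gen) := by
    rw [IsPrimitiveRoot.powerBasis_gen, mul_sub, ← map_mul, mul_inv_cancel₀ hy0, map_one]
  rw [h1, map_mul, Algebra.norm_algebraMap, norm_algebraMap_sub_gen, IsPrimitiveRoot.powerBasis_gen,
    hmin, hfin]
  have hyl : y ^ (ℓ - 1) = 1 := by
    have : y ^ (ℓ - 1) * y = y := by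
      rw [← pow_succ, Nat.sub_add_cancel hℓ.out.one_le, hy]
    exact mul_right_cancel₀ hy0 (by rw [this, one_mul])
  rw [hyl, one_mul]
  have hcyc := congrArg (Polynomial.eval y⁻¹) (cyclotomic_prime_mul_X_sub_one K ℓ)
  simp only [eval_mul, eval_sub, eval_X, eval_one, eval_pow] at hcyc
  have hinv : y⁻¹ ^ ℓ = y⁻¹ := by rw [inv_pow, hy]
  rw [hinv] at hcyc
  have hne : y⁻¹ - 1 ≠ 0 := by
    intro h
    apply hy1
    have : y⁻¹ = 1 := sub_eq_zero.mp h
    exact inv_eq_one.mp this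
  exact mul_right_cancel₀ hne (by rw [hcyc, one_mul])

end norm2

end Fermat.Agent.S14.helper99

namespace Fermat.Agent.S14.helper99

open NumberField Polynomial IsCyclotomicExtension

section hilbert

variable {ℓ : ℕ} [hℓ : Fact ℓ.Prime] {K F : Type} [Field K] [NumberField K] [Field F]
  [NumberField F] [Algebra K F] [hF : IsCyclotomicExtension {ℓ} K F]

/-- the generator of `Gal(F/K)` attached to a generator `g` of `(ℤ/ℓ)ˣ`. -/
noncomputable def thaineGen (hirr : Irreducible (cyclotomic ℓ K)) (g : (ZMod ℓ)ˣ) : F ≃ₐ[K] F :=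
  haveI : NeZero ℓ := ⟨hℓ.out.ne_zero⟩
  (autEquivPow F hirr).symm g

lemma autEquivPow_thaineGen (hirr : Irreducible (cyclotomic ℓ K)) (g : (ZMod ℓ)ˣ) :
    haveI : NeZero ℓ := ⟨hℓ.out.ne_zero⟩
    autEquivPow F hirr (thaineGen (F := F) hirr g) = g := by
  haveI : NeZero ℓ := ⟨hℓ.out.ne_zero⟩
  exact (autEquivPow F hirr).apply_symm_apply g

lemma thaineGen_zeta (hirr : Irreducible (cyclotomic ℓ K)) (g : (ZMod ℓ)ˣ) :
    thaineGen (F := F) hirr g (zeta ℓ K F) = zeta ℓ K F ^ (g : ZMod ℓ).val := by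
  haveI : NeZero ℓ := ⟨hℓ.out.ne_zero⟩
  have h := (zeta_spec ℓ K F).autToPow_spec K (thaineGen (F := F) hirr g)
  have key : (zeta_spec ℓ K F).autToPow K (thaineGen (F := F) hirr g) = g :=
    autEquivPow_thaineGen hirr g
  rw [key] at h
  exact h.symm

lemma thaineGen_generates (hirr : Irreducible (cyclotomic ℓ K)) (g : (ZMod ℓ)ˣ)
    (hg : ∀ x : (ZMod ℓ)ˣ, x ∈ Subgroup.zpowers g) (x : F ≃ₐ[K] F) :
    x ∈ Subgroup.zpowers (thaineGen (F := F) hirr g) := by
  haveI : NeZero ℓ := ⟨hℓ.out.ne_zero⟩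
  obtain ⟨k, hk⟩ := Subgroup.mem_zpowers_iff.mp (hg (autEquivPow F hirr x))
  refine Subgroup.mem_zpowers_iff.mpr ⟨k, ?_⟩
  apply (autEquivPow F hirr).injective
  rw [map_zpow, autEquivPow_thaineGen hirr g, hk]

/-- Hilbert 90 in `F/K`, integral form. -/
lemma exists_hilbert90 (hirr : Irreducible (cyclotomic ℓ K)) (g : (ZMod ℓ)ˣ)
    (hg : ∀ x : (ZMod ℓ)ˣ, x ∈ Subgroup.zpowers g) (ε : 𝓞 F)
    (hε : Algebra.norm K (algebraMap (𝓞 F) F ε) = 1) :
    ∃ β : 𝓞 F, β ≠ 0 ∧ ε * galRestrict (𝓞 K) K F (𝓞 F) (thaineGen (F := F) hirr g) β = β := by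
  haveI : IsGalois K F := IsCyclotomicExtension.isGalois {ℓ} K F
  haveI : IsCyclic (F ≃ₐ[K] F) := ⟨⟨thaineGen (F := F) hirr g, thaineGen_generates hirr g hg⟩⟩
  exact groupCohomology.exists_mul_galRestrict_of_norm_eq_one (A := 𝓞 K) (B := 𝓞 F)
    (thaineGen_generates hirr g hg) hε

end hilbert

end Fermat.Agent.S14.helper99
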