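import Fermat.Agent.S14.helper62_ThaineCyclo
import Fermat.Agent.S14.helper99_ThaineField

set_option linter.style.haveILetI false
set_option linter.unusedVariables false

/-!
# The Thaine relation (helper62, S14 route R2, piece R2-T, final assembly)

`K = ℚ(ζ_p)`, `ℓ ≡ 1 mod p` a prime, `ψ : 𝓞 K →+* ZMod ℓ`, `g` a generator of `(ℤ/ℓ)ˣ`,
`p ∤ b`, and `ψ (σ (1 - ζ^b)) = g ^ r σ` for all `σ ∈ Gal(K/ℚ)`. Then
`∏ σ, [ker (ψ ∘ σ)] ^ r σ` is an `(ℓ - 1)`-th power in the class group of `K`.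

Assembly of `helper99_ThaineField` (the field `F = K(ζ_ℓ)`, the generator of `Gal(F/K)`,
the norm of `1 - ζ^b ζ_ℓ`, Hilbert 90) and `thaine_cyclo` (helper62).

`K : Type` (universe 0) because Mathlib's Hilbert 90 is stated in universe 0.
-/

namespace Fermat.Agent.S14.helper62

open NumberField Polynomial IsCyclotomicExtension

section Final

lemma h62_ker_mem_nonZeroDivisors {K : Type*} [Field K] [NumberField K] {ℓ : ℕ} [hl : Fact ℓ.Prime]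
    (ψ : 𝓞 K →+* ZMod ℓ) : RingHom.ker ψ ∈ nonZeroDivisors (Ideal (𝓞 K)) := by
  rw [mem_nonZeroDivisors_iff_ne_zero]
  intro h
  have h1 : ((ℓ : ℕ) : 𝓞 K) ∈ RingHom.ker ψ := by
    rw [RingHom.mem_ker, map_natCast, ZMod.natCast_self]
  rw [h] at h1
  have h2 : ((ℓ : ℕ) : 𝓞 K) = 0 := h1
  exact hl.out.ne_zero (by exact_mod_cast h2)

/-- class of the kernel of a ring hom `𝓞 K → ZMod ℓ` -/
noncomputable def h62_kerClass {K : Type*} [Field K] [NumberField K] {ℓ : ℕ} [Fact ℓ.Prime]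
    (ψ : 𝓞 K →+* ZMod ℓ) : ClassGroup (𝓞 K) :=
  ClassGroup.mk0 ⟨RingHom.ker ψ, h62_ker_mem_nonZeroDivisors ψ⟩

/-- twist of a ring hom `𝓞 K → ZMod ℓ` by a Galois automorphism -/
noncomputable def h62_compGal {K : Type*} [Field K] [NumberField K] {ℓ : ℕ}
    (ψ : 𝓞 K →+* ZMod ℓ) (σ : K ≃ₐ[ℚ] K) : 𝓞 K →+* ZMod ℓ :=
  ψ.comp ((galRestrict ℤ ℚ K (𝓞 K) σ : 𝓞 K ≃ₐ[ℤ] 𝓞 K) : 𝓞 K →+* 𝓞 K)

lemma h62_compGal_apply {K : Type*} [Field K] [NumberField K] {ℓ : ℕ}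
    (ψ : 𝓞 K →+* ZMod ℓ) (σ : K ≃ₐ[ℚ] K) (x : 𝓞 K) :
    h62_compGal ψ σ x = ψ (galRestrict ℤ ℚ K (𝓞 K) σ x) := rfl

lemma h62_coe_galRestrict {K : Type*} [Field K] [NumberField K]
    (σ : K ≃ₐ[ℚ] K) (x : 𝓞 K) :
    ((galRestrict ℤ ℚ K (𝓞 K) σ x : 𝓞 K) : K) = σ (x : K) :=
  algebraMap_galRestrict_apply ℤ σ x

lemma h62_galRestrict_eq_smul {K : Type*} [Field K] [NumberField K]
    (σ : K ≃ₐ[ℚ] K) (x : 𝓞 K) :
    galRestrict ℤ ℚ K (𝓞 K) σ x = σ • x := by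
  apply RingOfIntegers.ext
  rw [h62_coe_galRestrict]
  rfl

/-- a ring hom to `ZMod ℓ` is determined by its kernel -/
lemma h62_ringHom_eq_of_ker_eq {R : Type*} [CommRing R] {ℓ : ℕ} [NeZero ℓ]
    (φ φ' : R →+* ZMod ℓ) (h : RingHom.ker φ = RingHom.ker φ') : φ = φ' := by
  ext x
  obtain ⟨n, hn⟩ : ∃ n : ℕ, (n : ZMod ℓ) = φ x := ⟨(φ x).val, ZMod.natCast_zmod_val _⟩
  have h1 : x - (n : R) ∈ RingHom.ker φ := by
    rw [RingHom.mem_ker, map_sub, map_natCast, hn, sub_self]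
  rw [h, RingHom.mem_ker, map_sub, map_natCast, sub_eq_zero] at h1
  rw [h1, hn]

variable {p ℓ : ℕ} [hpF : Fact p.Prime] [hlF : Fact ℓ.Prime] {K : Type*} [Field K]
  [NumberField K] [hK : IsCyclotomicExtension {p} ℚ K]

omit [NumberField K] hK in
lemma h62_isPrimitiveRoot_map (hpl : p ≠ ℓ) {R : Type*} [CommRing R] [IsDomain R] {ζ : R}
    (hζ : IsPrimitiveRoot ζ p)
    (ψ : R →+* ZMod ℓ) : IsPrimitiveRoot (ψ ζ) p := by
  have hp := hpF.out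
  have hl := hlF.out
  haveI : NeZero ((p : ℕ) : ZMod ℓ) := ⟨by
    rw [Ne, ZMod.natCast_eq_zero_iff]
    intro h
    exact hpl ((Nat.prime_dvd_prime_iff_eq hl hp).mp h).symm⟩
  rw [← Polynomial.isRoot_cyclotomic_iff]
  have h1 : (cyclotomic p R).IsRoot ζ := hζ.isRoot_cyclotomic hp.pos
  have := h1.map (f := ψ)
  rwa [map_cyclotomic] at this

include hK in
lemma h62_compGal_ker_injective (hpl : p ≠ ℓ) {ζ : 𝓞 K} (hζ : IsPrimitiveRoot ζ p)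
    (ψ : 𝓞 K →+* ZMod ℓ) :
    Function.Injective (fun σ : K ≃ₐ[ℚ] K => RingHom.ker (h62_compGal ψ σ)) := by
  have hp := hpF.out
  haveI : NeZero ℓ := ⟨hlF.out.ne_zero⟩
  haveI : NeZero p := ⟨hp.ne_zero⟩
  intro σ τ h
  have h1 := h62_ringHom_eq_of_ker_eq _ _ h
  have h2 : ψ (galRestrict ℤ ℚ K (𝓞 K) σ ζ) = ψ (galRestrict ℤ ℚ K (𝓞 K) τ ζ) :=
    congrArg (fun φ : 𝓞 K →+* ZMod ℓ => φ ζ) h1
  have hσ : (galRestrict ℤ ℚ K (𝓞 K) σ ζ) ^ p = 1 := by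
    rw [← map_pow, hζ.pow_eq_one, map_one]
  have hτ : (galRestrict ℤ ℚ K (𝓞 K) τ ζ) ^ p = 1 := by
    rw [← map_pow, hζ.pow_eq_one, map_one]
  obtain ⟨a, ha, ha'⟩ := hζ.eq_pow_of_pow_eq_one hσ
  obtain ⟨c, hc, hc'⟩ := hζ.eq_pow_of_pow_eq_one hτ
  rw [← ha', ← hc', map_pow, map_pow] at h2
  have hac : a = c := (h62_isPrimitiveRoot_map hpl hζ ψ).pow_inj ha hc h2
  have h3 : σ (ζ : K) = τ (ζ : K) := by
    rw [← h62_coe_galRestrict σ ζ, ← h62_coe_galRestrict τ ζ, ← ha', ← hc', hac]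
  have hζK : IsPrimitiveRoot (ζ : K) p := hζ.map_of_injective RingOfIntegers.coe_injective
  exact IsCyclotomicExtension.algEquiv_eq_of_apply_eq {p} ℚ K
    (fun n hn _ => by
      rw [Set.mem_singleton_iff] at hn
      subst hn
      exact ⟨(ζ : K), hζK, h3⟩)


omit hpF hK in
/-- a prime of `𝓞 K` containing `ℓ` lies over `(ℓ)`. -/
lemma h62_liesOver_of_natCast_mem (l : Ideal (𝓞 K)) [hlp : l.IsPrime] (hl : ((ℓ : ℕ) : 𝓞 K) ∈ l) :
    l.LiesOver (Ideal.span {(ℓ : ℤ)}) := by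
  have hl' := hlF.out
  have h0 : l ≠ ⊥ := by
    rintro rfl
    have h2 : ((ℓ : ℕ) : 𝓞 K) = 0 := hl
    exact hl'.ne_zero (by exact_mod_cast h2)
  have : NeZero l := ⟨h0⟩
  have hqprime : (Ideal.absNorm (Ideal.under ℤ l)).Prime := Nat.absNorm_under_prime l
  have hql : Ideal.absNorm (Ideal.under ℤ l) = ℓ := by
    have h1 : ((ℓ : ℤ) : 𝓞 K) ∈ l := by exact_mod_cast hl
    rw [Int.cast_mem_ideal_iff, Int.natCast_dvd_natCast] at h1
    exact (Nat.prime_dvd_prime_iff_eq hqprime hl').mp h1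
  have := Int.liesOver_span_absNorm l
  rwa [hql] at this

include hK in
lemma h62_exists_compGal_ker_eq (ψ : 𝓞 K →+* ZMod ℓ) (l : Ideal (𝓞 K)) [hlp : l.IsPrime]
    (hl : ((ℓ : ℕ) : 𝓞 K) ∈ l) : ∃ σ : K ≃ₐ[ℚ] K, RingHom.ker (h62_compGal ψ σ) = l := by
  have hp := hpF.out
  haveI : NeZero p := ⟨hp.ne_zero⟩
  haveI : IsGalois ℚ K := IsCyclotomicExtension.isGalois {p} ℚ K
  haveI : (RingHom.ker ψ).IsPrime := RingHom.ker_isPrime ψ
  have hℓker : ((ℓ : ℕ) : 𝓞 K) ∈ RingHom.ker ψ := by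
    rw [RingHom.mem_ker, map_natCast, ZMod.natCast_self]
  haveI := h62_liesOver_of_natCast_mem (RingHom.ker ψ) hℓker
  haveI := h62_liesOver_of_natCast_mem l hl
  obtain ⟨σ, hσ⟩ := Ideal.exists_smul_eq_of_isGaloisGroup (Ideal.span {(ℓ : ℤ)})
    (RingHom.ker ψ) l (K ≃ₐ[ℚ] K)
  refine ⟨σ⁻¹, ?_⟩
  rw [← hσ]
  ext x
  rw [Ideal.mem_pointwise_smul_iff_inv_smul_mem, RingHom.mem_ker, RingHom.mem_ker,
    h62_compGal_apply, h62_galRestrict_eq_smul]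


end Final

section Main

/-- exponent bookkeeping in a commutative group -/
lemma h62_exists_pow_eq_of_modEq {G : Type*} [CommGroup G] (a : G) {n m d : ℕ}
    (h : n ≡ m [MOD d]) : ∃ c : G, a ^ n = a ^ m * c ^ d := by
  have h' : (n : ℤ) ≡ m [ZMOD d] := Int.natCast_modEq_iff.mpr h
  obtain ⟨k, hk⟩ := h'.symm.dvd
  refine ⟨a ^ k, ?_⟩
  have h1 : (n : ℤ) = m + k * d := by linarith
  rw [← zpow_natCast a n, h1, zpow_add, zpow_mul, zpow_natCast, zpow_natCast]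

variable {p : ℕ} [hpF : Fact p.Prime] {K : Type} [Field K] [NumberField K]
  [hK : IsCyclotomicExtension {p} ℚ K]

theorem h62_thaine_relation_aux {ℓ : ℕ} [hlF : Fact ℓ.Prime] (F : Type) [Field F] [NumberField F]
    [Algebra K F] [hF : IsCyclotomicExtension {ℓ} K F]
    {ζ : 𝓞 K} (hζ : IsPrimitiveRoot ζ p) (hℓ : ℓ % p = 1)
    (ψ : 𝓞 K →+* ZMod ℓ) (b : ℕ) (hb : ¬ p ∣ b) (g : (ZMod ℓ)ˣ)
    (hg : ∀ x : (ZMod ℓ)ˣ, x ∈ Subgroup.zpowers g) (r : (K ≃ₐ[ℚ] K) → ℕ)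
    (hr : ∀ σ : K ≃ₐ[ℚ] K, h62_compGal ψ σ (1 - ζ ^ b) = ((g ^ r σ : (ZMod ℓ)ˣ) : ZMod ℓ)) :
    ∃ J : ClassGroup (𝓞 K),
      ∏ σ : K ≃ₐ[ℚ] K, h62_kerClass (h62_compGal ψ σ) ^ r σ = J ^ (ℓ - 1) := by
  classical
  have hp := hpF.out
  have hl := hlF.out
  have hpl : p ≠ ℓ := by
    rintro rfl
    rw [Nat.mod_self] at hℓ
    exact zero_ne_one hℓ
  haveI : NeZero ℓ := ⟨hl.ne_zero⟩
  haveI : IsCyclotomicExtension {p * ℓ} ℚ F := helper99.isCyclotomicExtension_mul p ℓ K F hpl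
  haveI : IsGalois K F := IsCyclotomicExtension.isGalois {ℓ} K F
  have hirr : Irreducible (cyclotomic ℓ K) := helper99.irreducible_cyclotomic_thF p ℓ K F hpl
  -- the root of unity ζl
  have hξ := zeta_spec ℓ K F
  have hζl : IsPrimitiveRoot hξ.toInteger ℓ := hξ.toInteger_isPrimitiveRoot
  -- the generator
  have hs := helper99.thaineGen_generates (F := F) hirr g hg
  have hsζ : helper99.thaineGen (F := F) hirr g • hξ.toInteger =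
      hξ.toInteger ^ (g : ZMod ℓ).val := by
    apply RingOfIntegers.ext
    change helper99.thaineGen (F := F) hirr g (zeta ℓ K F) = _
    rw [helper99.thaineGen_zeta hirr g, RingOfIntegers.coe_eq_algebraMap, map_pow]
    rfl
  -- the unit ε
  set ε : 𝓞 F := 1 - algebraMap (𝓞 K) (𝓞 F) (ζ ^ b) * hξ.toInteger with hε
  have hζK : IsPrimitiveRoot (ζ : K) p := hζ.map_of_injective RingOfIntegers.coe_injective
  have hεnorm : Algebra.norm K (ε : F) = 1 := by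
    have hy0 : (ζ : K) ^ b ≠ 0 := pow_ne_zero _ (hζK.ne_zero hp.ne_zero)
    have hy1 : (ζ : K) ^ b ≠ 1 := by
      intro h
      exact hb ((hζK.pow_eq_one_iff_dvd b).mp h)
    have hy : ((ζ : K) ^ b) ^ ℓ = (ζ : K) ^ b := by
      have h1 : ℓ = p * (ℓ / p) + 1 := by
        have := Nat.div_add_mod ℓ p
        omega
      rw [← pow_mul]
      conv_lhs => rw [h1]
      rw [mul_add, mul_one, pow_add, mul_left_comm, pow_mul, hζK.pow_eq_one, one_pow, one_mul]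
    have := helper99.norm_one_sub_mul_zeta (F := F) hirr ((ζ : K) ^ b) hy0 hy1 hy
    rw [← this]
    rfl
  have hεunit : IsUnit ε := by
    rw [← RingOfIntegers.isUnit_norm_of_isGalois K]
    have : RingOfIntegers.norm K ε = 1 :=
      RingOfIntegers.ext (by rw [RingOfIntegers.coe_norm, hεnorm]; rfl)
    rw [this]
    exact isUnit_one
  obtain ⟨u, hu⟩ := hεunit
  -- Hilbert 90 for ε⁻¹
  have hinvnorm : Algebra.norm K (algebraMap (𝓞 F) F ((u⁻¹ : (𝓞 F)ˣ) : 𝓞 F)) = 1 := by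
    have h1 : (algebraMap (𝓞 F) F ε) * (algebraMap (𝓞 F) F ((u⁻¹ : (𝓞 F)ˣ) : 𝓞 F)) = 1 := by
      rw [← map_mul, ← hu, Units.mul_inv, map_one]
    have h2 := congrArg (Algebra.norm K) h1
    rw [map_mul, map_one] at h2
    have h3 : Algebra.norm K (algebraMap (𝓞 F) F ε) = 1 := hεnorm
    rw [h3, one_mul] at h2
    exact h2
  obtain ⟨β, hβ0, hβ⟩ := helper99.exists_hilbert90 hirr g hg _ hinvnorm
  have hsβ : helper99.thaineGen (F := F) hirr g • β = β * ε := by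
    have h1 : galRestrict (𝓞 K) K F (𝓞 F) (helper99.thaineGen (F := F) hirr g) β =
        helper99.thaineGen (F := F) hirr g • β := by
      apply RingOfIntegers.ext
      rw [RingOfIntegers.coe_eq_algebraMap, algebraMap_galRestrict_apply]
      rfl
    rw [h1] at hβ
    calc helper99.thaineGen (F := F) hirr g • β
        = (u : 𝓞 F) * (((u⁻¹ : (𝓞 F)ˣ) : 𝓞 F) * helper99.thaineGen (F := F) hirr g • β) := by
          rw [← mul_assoc, Units.mul_inv, one_mul]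
      _ = ε * β := by rw [hβ, hu]
      _ = β * ε := mul_comm _ _
  -- the set S
  set S : Finset (Ideal (𝓞 K)) :=
    Finset.univ.image (fun σ : K ≃ₐ[ℚ] K => RingHom.ker (h62_compGal ψ σ)) with hSdef
  have hS : ∀ l : Ideal (𝓞 K), l ∈ S ↔ l.IsPrime ∧ ((ℓ : ℕ) : 𝓞 K) ∈ l := by
    intro l
    constructor
    · intro h
      obtain ⟨σ, -, rfl⟩ := Finset.mem_image.mp h
      exact ⟨RingHom.ker_isPrime _, by rw [RingHom.mem_ker, map_natCast, ZMod.natCast_self]⟩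
    · rintro ⟨h1, h2⟩
      obtain ⟨σ, hσ⟩ := h62_exists_compGal_ker_eq (p := p) ψ l h2
      exact Finset.mem_image.mpr ⟨σ, Finset.mem_univ _, hσ⟩
  obtain ⟨v, J, hv, hJ⟩ := thaine_cyclo K F hpl hζl _ hs _ hsζ β ε hβ0 ⟨u, hu⟩ hsβ S hS
  -- the congruence
  have hcong : ∀ Λ : Ideal (𝓞 F), Λ.IsPrime → ((ℓ : ℕ) : 𝓞 F) ∈ Λ →
      ε - algebraMap (𝓞 K) (𝓞 F) (1 - ζ ^ b) ∈ Λ := by
    intro Λ hΛ hlΛ
    have h0 : Λ ≠ ⊥ := by
      rintro rfl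
      have h2 : ((ℓ : ℕ) : 𝓞 F) = 0 := hlΛ
      exact hl.ne_zero (by exact_mod_cast h2)
    have hcount := h62_count_zeta_sub_one (p := p) F hpl hζl Λ h0 hlΛ
    have hmem : hξ.toInteger - 1 ∈ Λ := by
      have h1 : Λ ∈ UniqueFactorizationMonoid.normalizedFactors
          (Ideal.span {hξ.toInteger - 1}) := by
        rw [← Multiset.count_pos, hcount]
        exact one_pos
      have h2 := UniqueFactorizationMonoid.dvd_of_mem_normalizedFactors h1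
      rw [Ideal.dvd_span_singleton] at h2
      exact h2
    have : ε - algebraMap (𝓞 K) (𝓞 F) (1 - ζ ^ b) =
        - algebraMap (𝓞 K) (𝓞 F) (ζ ^ b) * (hξ.toInteger - 1) := by
      rw [hε, map_sub, map_one]
      ring
    rw [this]
    exact Λ.mul_mem_left _ hmem
  -- exponent comparison
  have hord : orderOf g = ℓ - 1 := by
    rw [orderOf_eq_card_of_forall_mem_zpowers hg, Nat.card_eq_fintype_card,
      ZMod.card_units_eq_totient, Nat.totient_prime hl]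
  have hmod : ∀ σ : K ≃ₐ[ℚ] K, r σ ≡ v (RingHom.ker (h62_compGal ψ σ)) [MOD (ℓ - 1)] := by
    intro σ
    have hmemS : RingHom.ker (h62_compGal ψ σ) ∈ S :=
      Finset.mem_image.mpr ⟨σ, Finset.mem_univ _, rfl⟩
    have h1 := hv _ hmemS (1 - ζ ^ b) hcong
    rw [RingHom.mem_ker, map_sub, map_pow, map_natCast, sub_eq_zero, hr σ,
      ZMod.natCast_zmod_val] at h1
    have h2 : g ^ r σ = g ^ v (RingHom.ker (h62_compGal ψ σ)) := by
      apply Units.ext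
      rw [h1, Units.val_pow_eq_pow_val]
    rw [← hord]
    exact pow_eq_pow_iff_modEq.mp h2
  choose c hc using fun σ => h62_exists_pow_eq_of_modEq (h62_kerClass (h62_compGal ψ σ)) (hmod σ)
  refine ⟨J * ∏ σ, c σ, ?_⟩
  rw [mul_pow, ← Finset.prod_pow, ← hJ, hSdef,
    Finset.prod_image (fun σ _ τ _ h => h62_compGal_ker_injective hpl hζ ψ h),
    ← Finset.prod_mul_distrib]
  refine Finset.prod_congr rfl fun σ _ => ?_
  rw [hc σ, h62_cl_eq_mk0' (h62_ker_mem_nonZeroDivisors _)]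
  rfl


/-- **Thaine relation** (route R2, piece R2-T; statement of task 161 with `K : Type`,
forced by the universe of Mathlib's Hilbert 90). -/
theorem h62_thaine_relation (hp : p ≠ 2) {ζ : 𝓞 K} (hζ : IsPrimitiveRoot ζ p) {ℓ : ℕ}
    [Fact ℓ.Prime] (hℓ : ℓ % p = 1) (ψ : 𝓞 K →+* ZMod ℓ) (b : ℕ) (hb : ¬ p ∣ b)
    (g : (ZMod ℓ)ˣ) (hg : ∀ x : (ZMod ℓ)ˣ, x ∈ Subgroup.zpowers g) (r : (K ≃ₐ[ℚ] K) → ℕ)
    (hr : ∀ σ : K ≃ₐ[ℚ] K, h62_compGal ψ σ (1 - ζ ^ b) = ((g ^ r σ : (ZMod ℓ)ˣ) : ZMod ℓ)) :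
    ∃ J : ClassGroup (𝓞 K),
      ∏ σ : K ≃ₐ[ℚ] K, h62_kerClass (h62_compGal ψ σ) ^ r σ = J ^ (ℓ - 1) := by
  haveI : NeZero ((ℓ : ℕ) : K) := ⟨by exact_mod_cast (Fact.out : ℓ.Prime).ne_zero⟩
  haveI : NeZero ℓ := ⟨(Fact.out : ℓ.Prime).ne_zero⟩
  haveI : NumberField (CyclotomicField ℓ K) := IsCyclotomicExtension.numberField {ℓ} K _
  exact h62_thaine_relation_aux (CyclotomicField ℓ K) hζ hℓ ψ b hb g hg r hr

/-- the same statement with the conventions of task 161 unfolded. -/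
theorem h62_thaine_relation' (hp : p ≠ 2) {ζ : 𝓞 K} (hζ : IsPrimitiveRoot ζ p) {ℓ : ℕ}
    [Fact ℓ.Prime] (hℓ : ℓ % p = 1) (ψ : 𝓞 K →+* ZMod ℓ) (b : ℕ) (hb : ¬ p ∣ b)
    (g : (ZMod ℓ)ˣ) (hg : ∀ x : (ZMod ℓ)ˣ, x ∈ Subgroup.zpowers g) (r : (K ≃ₐ[ℚ] K) → ℕ)
    (hr : ∀ σ : K ≃ₐ[ℚ] K,
      (ψ.comp ((galRestrict ℤ ℚ K (𝓞 K) σ : 𝓞 K ≃ₐ[ℤ] 𝓞 K) : 𝓞 K →+* 𝓞 K)) (1 - ζ ^ b) =
        ((g ^ r σ : (ZMod ℓ)ˣ) : ZMod ℓ))
    (hmem : ∀ σ : K ≃ₐ[ℚ] K,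
      RingHom.ker (ψ.comp ((galRestrict ℤ ℚ K (𝓞 K) σ : 𝓞 K ≃ₐ[ℤ] 𝓞 K) : 𝓞 K →+* 𝓞 K)) ∈
        nonZeroDivisors (Ideal (𝓞 K))) :
    ∃ J : ClassGroup (𝓞 K),
      ∏ σ : K ≃ₐ[ℚ] K, ClassGroup.mk0
        ⟨RingHom.ker (ψ.comp ((galRestrict ℤ ℚ K (𝓞 K) σ : 𝓞 K ≃ₐ[ℤ] 𝓞 K) : 𝓞 K →+* 𝓞 K)),
          hmem σ⟩ ^ r σ = J ^ (ℓ - 1) :=
  h62_thaine_relation hp hζ hℓ ψ b hb g hg r hr

end Main

end Fermat.Agent.S14.helper62
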