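import Fermat.Agent.S14.helper69_ZetaPole
import Fermat.Agent.S14.helper58_AuxPrime

/-!
# S14: wiring of the zeta-pole lemma (Z3) into its consumers (helper69)

* `zetaPoleHyp` : the hypothesis `helper58.ZetaPoleHyp` holds (it is `exists_degree_one_prime_not_split`);
* `exists_aux_prime` : the auxiliary prime of the Artin crossing, unconditionally.
-/

set_option autoImplicit false

open NumberField

namespace Fermat.Agent.S14.helper69

theorem zetaPoleHyp : Fermat.Agent.S14.helper58.ZetaPoleHyp :=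
  fun K L _ _ _ _ _ _ h T => exists_degree_one_prime_not_split K L h T

/-- The auxiliary prime of the crossing (helper58's `exists_aux_prime_of_zetaPole`), with the
zeta-pole hypothesis discharged. -/
theorem exists_aux_prime (p : ℕ) (hp : p.Prime) (hp2 : p ≠ 2)
    (r r' : ℕ) (hr : r.Prime) (hr' : r'.Prime) (hrr' : r ≠ r') (hrp : r ≠ p) (hr'p : r' ≠ p)
    (k : ℕ) (T : Finset ℕ) :
    ∃ ℓ : ℕ, ℓ.Prime ∧ ℓ ∉ T ∧ ℓ % p = 1 ∧ (¬ ∃ c : ZMod ℓ, c ^ p = (r' : ZMod ℓ)) ∧
      (∃ c : ZMod ℓ, (r : ZMod ℓ) = (r' : ZMod ℓ) ^ k * c ^ p) :=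
  Fermat.Agent.S14.helper58.exists_aux_prime_of_zetaPole zetaPoleHyp p hp hp2 r r' hr hr' hrr'
    hrp hr'p k T

end Fermat.Agent.S14.helper69
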