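import Mathlib

/-!
# Maps between class groups (helper86, S14 task 129, first inequality)

* `clLift` : a monoid hom on nonzero ideals that kills principal ideals factors through the
  class group.
* `clNorm K L : ClassGroup (𝓞 L) →* ClassGroup (𝓞 K)` : the norm on ideal classes.
* `clAct σ : ClassGroup (𝓞 L) →* ClassGroup (𝓞 L)` : the action of `σ ∈ Gal(L/K)` on classes.
* `clD σ` : `c ↦ σ(c) / c`.
* `card_range_clNorm_le` : `|N(Cl_L)| ≤ |Cl_L^σ|`.
-/

open NumberField Module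
open scoped nonZeroDivisors Pointwise

set_option linter.unusedSectionVars false

namespace Fermat.Agent.S14.helper86

section lift

variable {R : Type*} [CommRing R] [IsDedekindDomain R] {G : Type*} [CommGroup G]

theorem clLift_aux (f : (Ideal R)⁰ →* G)
    (hf : ∀ I : (Ideal R)⁰, (I : Ideal R).IsPrincipal → f I = 1) {I J : (Ideal R)⁰}
    (h : ClassGroup.mk0 I = ClassGroup.mk0 J) : f I = f J := by
  obtain ⟨x, y, hx, hy, hxy⟩ := ClassGroup.mk0_eq_mk0_iff.1 h
  have hx' : Ideal.span {x} ∈ (Ideal R)⁰ :=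
    mem_nonZeroDivisors_iff_ne_zero.2 (by simpa [Ideal.span_singleton_eq_bot] using hx)
  have hy' : Ideal.span {y} ∈ (Ideal R)⁰ :=
    mem_nonZeroDivisors_iff_ne_zero.2 (by simpa [Ideal.span_singleton_eq_bot] using hy)
  have e : (⟨Ideal.span {x}, hx'⟩ : (Ideal R)⁰) * I = ⟨Ideal.span {y}, hy'⟩ * J :=
    Subtype.ext hxy
  have := congrArg f e
  rw [map_mul, map_mul, hf ⟨Ideal.span {x}, hx'⟩ ⟨⟨x, rfl⟩⟩,
    hf ⟨Ideal.span {y}, hy'⟩ ⟨⟨y, rfl⟩⟩, one_mul, one_mul] at this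
  exact this

/-- A monoid hom on nonzero ideals that kills principal ideals factors through the class
group. -/
noncomputable def clLift (f : (Ideal R)⁰ →* G)
    (hf : ∀ I : (Ideal R)⁰, (I : Ideal R).IsPrincipal → f I = 1) : ClassGroup R →* G where
  toFun c := f (Classical.choose (ClassGroup.mk0_surjective c))
  map_one' := by
    have h := Classical.choose_spec (ClassGroup.mk0_surjective (1 : ClassGroup R))
    have := clLift_aux f hf (h.trans (map_one _).symm)
    rw [this, map_one]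
  map_mul' a b := by
    have ha := Classical.choose_spec (ClassGroup.mk0_surjective a)
    have hb := Classical.choose_spec (ClassGroup.mk0_surjective b)
    have hab := Classical.choose_spec (ClassGroup.mk0_surjective (a * b))
    rw [← map_mul]
    apply clLift_aux f hf
    rw [hab, map_mul, ha, hb]

theorem clLift_mk0 (f : (Ideal R)⁰ →* G)
    (hf : ∀ I : (Ideal R)⁰, (I : Ideal R).IsPrincipal → f I = 1) (I : (Ideal R)⁰) :
    clLift f hf (ClassGroup.mk0 I) = f I :=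
  clLift_aux f hf (Classical.choose_spec (ClassGroup.mk0_surjective (ClassGroup.mk0 I)))

end lift

section maps

variable (K L : Type*) [Field K] [NumberField K] [Field L] [NumberField L] [Algebra K L]

/-- the relative norm as a monoid hom on nonzero ideals -/
noncomputable def relNorm0 : (Ideal (𝓞 L))⁰ →* (Ideal (𝓞 K))⁰ where
  toFun J := ⟨Ideal.relNorm (𝓞 K) (J : Ideal (𝓞 L)),
    mem_nonZeroDivisors_iff_ne_zero.2
      (fun h => (mem_nonZeroDivisors_iff_ne_zero.1 J.2) (Ideal.relNorm_eq_bot_iff.1 h))⟩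
  map_one' := Subtype.ext (by
    change Ideal.relNorm (𝓞 K) ((1 : Ideal (𝓞 L))) = 1
    exact map_one _)
  map_mul' a b := Subtype.ext (by
    change Ideal.relNorm (𝓞 K) ((a : Ideal (𝓞 L)) * (b : Ideal (𝓞 L))) = _
    rw [map_mul]; rfl)

theorem relNorm0_coe (J : (Ideal (𝓞 L))⁰) :
    ((relNorm0 K L J : (Ideal (𝓞 K))⁰) : Ideal (𝓞 K)) = Ideal.relNorm (𝓞 K) (J : Ideal (𝓞 L)) :=
  rfl

theorem mk0_relNorm0_principal (I : (Ideal (𝓞 L))⁰) (hI : (I : Ideal (𝓞 L)).IsPrincipal) :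
    (ClassGroup.mk0.comp (relNorm0 K L)) I = 1 := by
  obtain ⟨x, hx⟩ := hI
  rw [MonoidHom.comp_apply, ClassGroup.mk0_eq_one_iff (relNorm0 K L I).2, relNorm0_coe]
  refine ⟨Algebra.intNorm (𝓞 K) (𝓞 L) x, ?_⟩
  rw [hx, Ideal.submodule_span_eq, Ideal.relNorm_singleton]

/-- The norm map on ideal classes. -/
noncomputable def clNorm : ClassGroup (𝓞 L) →* ClassGroup (𝓞 K) :=
  clLift (ClassGroup.mk0.comp (relNorm0 K L)) (mk0_relNorm0_principal K L)

theorem clNorm_mk0 (J : (Ideal (𝓞 L))⁰) :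
    clNorm K L (ClassGroup.mk0 J) = ClassGroup.mk0 (relNorm0 K L J) :=
  clLift_mk0 _ _ J

variable {K L}
variable [IsGalois K L]

/-- the action of `σ` as a monoid hom on nonzero ideals -/
noncomputable def actIdeal0 (σ : Gal(L/K)) : (Ideal (𝓞 L))⁰ →* (Ideal (𝓞 L))⁰ where
  toFun J := ⟨σ • (J : Ideal (𝓞 L)),
    mem_nonZeroDivisors_iff_ne_zero.2 (fun h => (mem_nonZeroDivisors_iff_ne_zero.1 J.2) (by
      have := congrArg (fun I => σ⁻¹ • I) h
      simpa using this))⟩
  map_one' := Subtype.ext (by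
    change σ • (1 : Ideal (𝓞 L)) = 1
    exact smul_one σ)
  map_mul' a b := Subtype.ext (by
    change σ • ((a : Ideal (𝓞 L)) * (b : Ideal (𝓞 L))) = _
    rw [smul_mul']; rfl)

theorem actIdeal0_coe (σ : Gal(L/K)) (J : (Ideal (𝓞 L))⁰) :
    ((actIdeal0 σ J : (Ideal (𝓞 L))⁰) : Ideal (𝓞 L)) = σ • (J : Ideal (𝓞 L)) := rfl

theorem smul_span_singleton (σ : Gal(L/K)) (x : 𝓞 L) :
    σ • (Ideal.span {x} : Ideal (𝓞 L)) = Ideal.span {σ • x} := by
  rw [Ideal.pointwise_smul_def, Ideal.map_span, Set.image_singleton]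
  rfl

theorem mk0_actIdeal0_principal (σ : Gal(L/K)) (I : (Ideal (𝓞 L))⁰)
    (hI : (I : Ideal (𝓞 L)).IsPrincipal) :
    (ClassGroup.mk0.comp (actIdeal0 σ)) I = 1 := by
  obtain ⟨x, hx⟩ := hI
  rw [MonoidHom.comp_apply, ClassGroup.mk0_eq_one_iff (actIdeal0 σ I).2, actIdeal0_coe]
  refine ⟨σ • x, ?_⟩
  rw [hx, Ideal.submodule_span_eq, smul_span_singleton]

/-- The action of `σ ∈ Gal(L/K)` on ideal classes of `L`. -/
noncomputable def clAct (σ : Gal(L/K)) : ClassGroup (𝓞 L) →* ClassGroup (𝓞 L) :=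
  clLift (ClassGroup.mk0.comp (actIdeal0 σ)) (mk0_actIdeal0_principal σ)

theorem clAct_mk0 (σ : Gal(L/K)) (J : (Ideal (𝓞 L))⁰) :
    clAct σ (ClassGroup.mk0 J) = ClassGroup.mk0 (actIdeal0 σ J) :=
  clLift_mk0 _ _ J

/-- `c ↦ σ(c) / c` on ideal classes. -/
noncomputable def clD (σ : Gal(L/K)) : ClassGroup (𝓞 L) →* ClassGroup (𝓞 L) :=
  clAct σ / MonoidHom.id _

theorem clD_apply (σ : Gal(L/K)) (c : ClassGroup (𝓞 L)) : clD σ c = clAct σ c / c := rfl

theorem mem_ker_clD (σ : Gal(L/K)) (c : ClassGroup (𝓞 L)) :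
    c ∈ (clD σ).ker ↔ clAct σ c = c := by
  rw [MonoidHom.mem_ker, clD_apply, div_eq_one]

theorem clNorm_clAct (σ : Gal(L/K)) (c : ClassGroup (𝓞 L)) :
    clNorm K L (clAct σ c) = clNorm K L c := by
  obtain ⟨J, rfl⟩ := ClassGroup.mk0_surjective c
  rw [clAct_mk0, clNorm_mk0, clNorm_mk0]
  congr 1
  apply Subtype.ext
  rw [relNorm0_coe, relNorm0_coe, actIdeal0_coe, Ideal.relNorm_smul]

theorem range_clD_le_ker_clNorm (σ : Gal(L/K)) : (clD σ).range ≤ (clNorm K L).ker := by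
  rintro _ ⟨c, rfl⟩
  rw [MonoidHom.mem_ker, clD_apply, map_div, clNorm_clAct, div_self']

/-- `|N(Cl_L)| ≤ |Cl_L^σ|`. -/
theorem card_range_clNorm_le (σ : Gal(L/K)) :
    Nat.card (clNorm K L).range ≤ Nat.card (clD σ).ker := by
  have h1 : Nat.card (clNorm K L).ker * Nat.card (clNorm K L).range =
      Nat.card (ClassGroup (𝓞 L)) := by
    rw [← Subgroup.index_ker]; exact Subgroup.card_mul_index _
  have h2 : Nat.card (clD σ).ker * Nat.card (clD σ).range = Nat.card (ClassGroup (𝓞 L)) := by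
    rw [← Subgroup.index_ker]; exact Subgroup.card_mul_index _
  have h3 : Nat.card (clD σ).range ≤ Nat.card (clNorm K L).ker :=
    Nat.card_mono (Set.toFinite _) (range_clD_le_ker_clNorm σ)
  have h4 : 0 < Nat.card (clNorm K L).ker := Nat.card_pos
  have h5 : Nat.card (clNorm K L).ker * Nat.card (clNorm K L).range ≤
      Nat.card (clNorm K L).ker * Nat.card (clD σ).ker := by
    rw [h1, ← h2, mul_comm]
    exact Nat.mul_le_mul_right _ h3
  exact Nat.le_of_mul_le_mul_left h5 h4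

end maps

end Fermat.Agent.S14.helper86
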