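import Mathlib

/-!
# Counting lemmas and norm products (helper86, S14 task 129, first inequality)
-/

namespace Fermat.Agent.S14.helper86

section counting

/-- If a relation `r` attaches to every `u ∈ N` some `c : X`, and two elements attached to the
same `c` differ by an element of `H`, then `[N : H ∩ N] ≤ |X|`. -/
theorem relIndex_le_card_of_rel {G X : Type*} [Group G] [Finite X] (H N : Subgroup G)
    (r : G → X → Prop) (h1 : ∀ u ∈ N, ∃ c, r u c)
    (h2 : ∀ u u' c, u ∈ N → u' ∈ N → r u c → r u' c → u⁻¹ * u' ∈ H) :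
    H.relIndex N ≤ Nat.card X := by
  classical
  have key : ∀ q : N ⧸ H.subgroupOf N, ∃ c, r ((q.out : N) : G) c := fun q => h1 _ q.out.2
  choose F hF using key
  have hinj : Function.Injective F := by
    intro q q' h
    have h3 := h2 _ _ _ q.out.2 q'.out.2 (hF q) (h ▸ hF q')
    rw [← QuotientGroup.out_eq' q, ← QuotientGroup.out_eq' q', QuotientGroup.eq]
    exact Subgroup.mem_subgroupOf.2 h3
  exact Nat.card_le_card_of_injective F hinj

/-- If a relation `r` attaches to every `c ∈ A` some `ε ∈ D`, and two elements `c, c'` whose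
attached `ε, ε'` agree modulo `N` differ by an element of the finite subgroup `H`, then
`|A| ≤ [D : N ∩ D] * |H|`. -/
theorem card_le_relIndex_mul_card {G E : Type*} [Group G] [Group E] (A H : Subgroup G)
    [Finite H] (N D : Subgroup E) (hfin : N.relIndex D ≠ 0) (r : G → E → Prop)
    (h1 : ∀ c ∈ A, ∃ ε ∈ D, r c ε)
    (h2 : ∀ c c' ε ε', c ∈ A → c' ∈ A → ε ∈ D → ε' ∈ D → r c ε → r c' ε' →
      ε⁻¹ * ε' ∈ N → c * c'⁻¹ ∈ H) :
    Nat.card A ≤ N.relIndex D * Nat.card H := by
  classical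
  have : Finite (D ⧸ N.subgroupOf D) := Nat.finite_of_card_ne_zero hfin
  have key : ∀ c : A, ∃ ε, ε ∈ D ∧ r (c : G) ε := fun c => h1 _ c.2
  choose eps hepsD heps using key
  let F : A → D ⧸ N.subgroupOf D := fun c => QuotientGroup.mk ⟨eps c, hepsD c⟩
  let base : D ⧸ N.subgroupOf D → A := fun q => if h : ∃ c, F c = q then h.choose else 1
  have hbase : ∀ c : A, F (base (F c)) = F c := by
    intro c
    have h : ∃ c', F c' = F c := ⟨c, rfl⟩
    simp only [base, dif_pos h]
    exact h.choose_spec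
  have hmem : ∀ c : A, (c : G) * ((base (F c) : A) : G)⁻¹ ∈ H := by
    intro c
    refine h2 _ _ _ _ c.2 (base (F c)).2 (hepsD c) (hepsD _) (heps c) (heps _) ?_
    have := (hbase c).symm
    simp only [F] at this
    rw [QuotientGroup.eq] at this
    exact Subgroup.mem_subgroupOf.1 this
  let g : A → (D ⧸ N.subgroupOf D) × H := fun c => (F c, ⟨_, hmem c⟩)
  have hg : Function.Injective g := by
    intro c c' h
    have h1' : F c = F c' := congrArg Prod.fst h
    have h2' : (c : G) * ((base (F c) : A) : G)⁻¹ = (c' : G) * ((base (F c') : A) : G)⁻¹ :=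
      congrArg (fun z => ((z.2 : H) : G)) h
    rw [h1'] at h2'
    exact Subtype.ext (mul_right_cancel h2')
  calc Nat.card A ≤ Nat.card ((D ⧸ N.subgroupOf D) × H) := Nat.card_le_card_of_injective g hg
    _ = N.relIndex D * Nat.card H := by rw [Nat.card_prod]; rfl

end counting

section nrm

variable {M G : Type*} [CommMonoid M] [Group G] [MulDistribMulAction G M]

/-- `∏_{i<p} σ^i • m` -/
def nrmG (σ : G) (p : ℕ) (m : M) : M := ∏ i ∈ Finset.range p, σ ^ i • m

/-- `∏_{0<i<p} σ^i • m` -/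
def cofG (σ : G) (p : ℕ) (m : M) : M := ∏ i ∈ Finset.range (p - 1), σ ^ (i + 1) • m

theorem nrmG_eq_mul_cofG (σ : G) {p : ℕ} (hp : 0 < p) (m : M) :
    nrmG σ p m = m * cofG σ p m := by
  obtain ⟨k, rfl⟩ : ∃ k, p = k + 1 := ⟨p - 1, by omega⟩
  unfold nrmG cofG
  rw [Finset.prod_range_succ', pow_zero, one_smul, mul_comm]
  rfl

theorem smul_nrmG {σ : G} {p : ℕ} (hp : 0 < p) (hσ : σ ^ p = 1) (m : M) :
    σ • nrmG σ p m = nrmG σ p m := by
  obtain ⟨k, rfl⟩ : ∃ k, p = k + 1 := ⟨p - 1, by omega⟩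
  unfold nrmG
  rw [Finset.smul_prod']
  have e : ∀ i, σ • σ ^ i • m = σ ^ (i + 1) • m := fun i => by
    rw [← mul_smul, pow_succ']
  simp only [e]
  rw [Finset.prod_range_succ, Finset.prod_range_succ', hσ, pow_zero]

theorem nrmG_mul (σ : G) (p : ℕ) (a b : M) : nrmG σ p (a * b) = nrmG σ p a * nrmG σ p b := by
  unfold nrmG
  rw [← Finset.prod_mul_distrib]
  exact Finset.prod_congr rfl (fun i _ => smul_mul' _ _ _)

theorem nrmG_one (σ : G) (p : ℕ) : nrmG σ p (1 : M) = 1 := by
  unfold nrmG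
  exact Finset.prod_eq_one (fun i _ => smul_one _)

end nrm

end Fermat.Agent.S14.helper86
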