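import Mathlib

/-!
# Herbrand quotients by index computations (helper86, S14 task 129)

For an additive commutative group `A` with two endomorphisms `f g` such that `f ∘ g = 0 = g ∘ f`
and a subgroup `B` stable under `f` and `g` we put
`hq f g B = [ker f ⊓ B : g(B)]` (so `h⁰ = hq f g`, `h¹ = hq g f`).
Main result: invariance of the Herbrand quotient under passing to a stable subgroup of finite index.
-/

namespace Fermat.Agent.S14.helper86

open AddSubgroup

variable {A : Type*} [AddCommGroup A]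

/-- `hq f g B` is the index of `g(B)` in `ker f ⊓ B` (`0` if infinite). -/
noncomputable def hq (f g : A →+ A) (B : AddSubgroup A) : ℕ :=
  (B.map g).relIndex (f.ker ⊓ B)

/-- Index formula: `[C : B] = [f C : f B] * [ker f ∩ C : ker f ∩ B]`. -/
theorem relIndex_map_mul_relIndex_ker (f : A →+ A) {B C : AddSubgroup A} (hBC : B ≤ C) :
    (B.map f).relIndex (C.map f) * (f.ker ⊓ B).relIndex (f.ker ⊓ C) = B.relIndex C := by
  have h1 : (B.map f).relIndex (C.map f) = ((B ⊔ f.ker) ⊓ C).relIndex C := by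
    rw [AddSubgroup.relIndex_map_map, AddSubgroup.inf_relIndex_right]
    have : C ⊔ f.ker = C ⊔ (B ⊔ f.ker) := by
      rw [← sup_assoc, sup_eq_left.mpr hBC]
    rw [this, AddSubgroup.relIndex_sup_right]
  have hmod : (B ⊔ f.ker) ⊓ C = B ⊔ (f.ker ⊓ C) := sup_inf_assoc_of_le _ hBC
  have h2 : (f.ker ⊓ B).relIndex (f.ker ⊓ C) = B.relIndex ((B ⊔ f.ker) ⊓ C) := by
    rw [hmod, AddSubgroup.relIndex_sup_left, ← AddSubgroup.inf_relIndex_right B]
    congr 1
    rw [inf_comm B, inf_assoc, inf_eq_right.mpr hBC]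
  rw [h1, h2, mul_comm]
  exact AddSubgroup.relIndex_mul_relIndex _ _ _ (by rw [hmod]; exact le_sup_left) inf_le_right

/-- Finite index invariance of Herbrand quotients, product form. -/
theorem hq_mul_hq_of_relIndex_ne_zero (f g : A →+ A) (hfg : ∀ x, f (g x) = 0)
    (hgf : ∀ x, g (f x) = 0) {B C : AddSubgroup A} (hBC : B ≤ C)
    (hfB : B.map f ≤ B) (hgB : B.map g ≤ B) (hfC : C.map f ≤ C) (hgC : C.map g ≤ C)
    (hfin : B.relIndex C ≠ 0) :
    hq f g C * hq g f B = hq g f C * hq f g B := by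
  unfold hq
  -- chains
  have hgBC : B.map g ≤ C.map g := AddSubgroup.map_mono hBC
  have hfBC : B.map f ≤ C.map f := AddSubgroup.map_mono hBC
  have hgC' : C.map g ≤ f.ker ⊓ C := by
    refine le_inf ?_ hgC
    rintro _ ⟨x, -, rfl⟩
    exact hfg x
  have hfC' : C.map f ≤ g.ker ⊓ C := by
    refine le_inf ?_ hfC
    rintro _ ⟨x, -, rfl⟩
    exact hgf x
  have hgB' : B.map g ≤ f.ker ⊓ B := by
    refine le_inf ?_ hgB
    rintro _ ⟨x, -, rfl⟩
    exact hfg x
  have hfB' : B.map f ≤ g.ker ⊓ B := by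
    refine le_inf ?_ hfB
    rintro _ ⟨x, -, rfl⟩
    exact hgf x
  have hkf : f.ker ⊓ B ≤ f.ker ⊓ C := inf_le_inf_left _ hBC
  have hkg : g.ker ⊓ B ≤ g.ker ⊓ C := inf_le_inf_left _ hBC
  -- (1) [C_f : gC] * [gC : gB] = [C_f : B_f] * [B_f : gB]
  have e1 : (B.map g).relIndex (C.map g) * (C.map g).relIndex (f.ker ⊓ C)
      = (B.map g).relIndex (f.ker ⊓ B) * (f.ker ⊓ B).relIndex (f.ker ⊓ C) := by
    rw [AddSubgroup.relIndex_mul_relIndex _ _ _ hgBC hgC',
      AddSubgroup.relIndex_mul_relIndex _ _ _ hgB' hkf]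
  have e2 : (B.map f).relIndex (C.map f) * (C.map f).relIndex (g.ker ⊓ C)
      = (B.map f).relIndex (g.ker ⊓ B) * (g.ker ⊓ B).relIndex (g.ker ⊓ C) := by
    rw [AddSubgroup.relIndex_mul_relIndex _ _ _ hfBC hfC',
      AddSubgroup.relIndex_mul_relIndex _ _ _ hfB' hkg]
  have e3 := relIndex_map_mul_relIndex_ker f hBC
  have e4 := relIndex_map_mul_relIndex_ker g hBC
  -- cancel [C : B]
  apply Nat.eq_of_mul_eq_mul_right (Nat.pos_of_ne_zero hfin)
  set a := (B.map g).relIndex (C.map g)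
  set b := (C.map g).relIndex (f.ker ⊓ C)
  set c := (B.map g).relIndex (f.ker ⊓ B)
  set d := (f.ker ⊓ B).relIndex (f.ker ⊓ C)
  set a' := (B.map f).relIndex (C.map f)
  set b' := (C.map f).relIndex (g.ker ⊓ C)
  set c' := (B.map f).relIndex (g.ker ⊓ B)
  set d' := (g.ker ⊓ B).relIndex (g.ker ⊓ C)
  set n := B.relIndex C
  -- e1 : a * b = c * d, e2 : a' * b' = c' * d', e3 : a' * d = n, e4 : a * d' = n
  -- goal : b * c' * n = b' * c * n
  calc b * c' * n = b * c' * (a * d') := by rw [e4]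
    _ = (a * b) * (c' * d') := by ring
    _ = (c * d) * (a' * b') := by rw [e1, e2]
    _ = b' * c * (a' * d) := by ring
    _ = b' * c * n := by rw [e3]

/-- Finiteness transfer (upwards). -/
theorem hq_ne_zero_of_relIndex_ne_zero (f g : A →+ A) (hfg : ∀ x, f (g x) = 0)
    {B C : AddSubgroup A} (hBC : B ≤ C) (hgB : B.map g ≤ B) (hgC : C.map g ≤ C)
    (hfin : B.relIndex C ≠ 0) (hB : hq f g B ≠ 0) : hq f g C ≠ 0 := by
  unfold hq at *
  have hgBC : B.map g ≤ C.map g := AddSubgroup.map_mono hBC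
  have hgB' : B.map g ≤ f.ker ⊓ B := by
    refine le_inf ?_ hgB
    rintro _ ⟨x, -, rfl⟩
    exact hfg x
  have hkf : f.ker ⊓ B ≤ f.ker ⊓ C := inf_le_inf_left _ hBC
  have hd : (f.ker ⊓ B).relIndex (f.ker ⊓ C) ≠ 0 := by
    have e3 := relIndex_map_mul_relIndex_ker f hBC
    intro h0
    rw [h0, mul_zero] at e3
    exact hfin e3.symm
  have h1 : (B.map g).relIndex (f.ker ⊓ C) ≠ 0 := by
    rw [← AddSubgroup.relIndex_mul_relIndex _ _ _ hgB' hkf]
    exact mul_ne_zero hB hd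
  exact fun h0 => h1 (AddSubgroup.relIndex_eq_zero_of_le_left hgBC h0)



open Polynomial

/-- In `ℤ[X]`: `(X - 1)^(p-1) = ∑_{i<p} X^i + p * W`. -/
theorem exists_sub_one_pow_eq (p : ℕ) (hp : p.Prime) :
    ∃ W : ℤ[X], (X - 1 : ℤ[X]) ^ (p - 1) = ∑ i ∈ Finset.range p, X ^ i + C (p : ℤ) * W := by
  have : Fact p.Prime := ⟨hp⟩
  have hmod : ((X - 1 : ℤ[X]) ^ (p - 1) - ∑ i ∈ Finset.range p, X ^ i).map
      (Int.castRingHom (ZMod p)) = 0 := by
    simp only [Polynomial.map_sub, Polynomial.map_pow, Polynomial.map_X, Polynomial.map_one,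
      Polynomial.map_sum]
    have h1 : (X - 1 : (ZMod p)[X]) ≠ 0 := by
      have := X_sub_C_ne_zero (1 : ZMod p)
      simpa using this
    apply mul_left_cancel₀ h1
    rw [mul_zero, mul_sub, mul_geom_sum, ← pow_succ', Nat.sub_add_cancel hp.one_le,
      sub_pow_char, one_pow, sub_self]
  have hdvd : C (p : ℤ) ∣ ((X - 1 : ℤ[X]) ^ (p - 1) - ∑ i ∈ Finset.range p, X ^ i) := by
    rw [Polynomial.C_dvd_iff_dvd_coeff]
    intro i
    have := congrArg (fun q => q.coeff i) hmod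
    simp only [Polynomial.coeff_map, Polynomial.coeff_zero] at this
    exact (ZMod.intCast_zmod_eq_zero_iff_dvd _ _).mp this
  obtain ⟨W, hW⟩ := hdvd
  exact ⟨W, by rw [← hW]; ring⟩

section ring
variable {R : Type*} [Ring R] (s : R) (p : ℕ)

theorem geom_sum_sub_natCast_eq :
    ∑ i ∈ Finset.range p, s ^ i - (p : R)
      = (s - 1) * ∑ i ∈ Finset.range p, ∑ j ∈ Finset.range i, s ^ j := by
  rw [Finset.mul_sum]
  simp_rw [mul_geom_sum]
  rw [Finset.sum_sub_distrib]
  simp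

theorem sub_one_pow_eq (hp : p.Prime) :
    ∃ W : ℤ[X], (s - 1) ^ (p - 1) = ∑ i ∈ Finset.range p, s ^ i + (p : R) * aeval s W := by
  obtain ⟨W, hW⟩ := exists_sub_one_pow_eq p hp
  refine ⟨W, ?_⟩
  have := congrArg (aeval s) hW
  simpa using this

end ring




open Polynomial AddSubgroup

section abstract

variable {A : Type*} [AddCommGroup A] (σ : AddMonoid.End A) (p : ℕ)

/-- the operator `σ - 1` -/
noncomputable def dOp : A →+ A := (σ - 1 : AddMonoid.End A)

/-- the norm operator `∑_{i<p} σ^i` -/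
noncomputable def nOp : A →+ A := (∑ i ∈ Finset.range p, σ ^ i : AddMonoid.End A)

theorem dOp_apply (x : A) : dOp σ x = σ x - x := rfl

theorem end_mul_apply (s t : AddMonoid.End A) (x : A) : (s * t) x = s (t x) := rfl

theorem nOp_apply (x : A) : nOp σ p x = ∑ i ∈ Finset.range p, (σ ^ i) x := by
  unfold nOp
  exact AddMonoidHom.finsetSum_apply _ _ _

variable {σ p}

theorem dOp_nOp (hσ : σ ^ p = 1) (x : A) : dOp σ (nOp σ p x) = 0 := by
  have h : (σ - 1) * (∑ i ∈ Finset.range p, σ ^ i) = (0 : AddMonoid.End A) := by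
    rw [mul_geom_sum, hσ, sub_self]
  exact congrArg (fun e : AddMonoid.End A => e x) h

theorem nOp_dOp (hσ : σ ^ p = 1) (x : A) : nOp σ p (dOp σ x) = 0 := by
  have h : (∑ i ∈ Finset.range p, σ ^ i) * (σ - 1) = (0 : AddMonoid.End A) := by
    rw [geom_sum_mul, hσ, sub_self]
  exact congrArg (fun e : AddMonoid.End A => e x) h

theorem pow_apply_of_fixed {x : A} (hx : σ x = x) (i : ℕ) : (σ ^ i) x = x := by
  induction i with
  | zero => rfl
  | succ k ih => rw [pow_succ, end_mul_apply, hx, ih]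

theorem nOp_of_fixed {x : A} (hx : σ x = x) : nOp σ p x = p • x := by
  rw [nOp_apply]
  simp [pow_apply_of_fixed hx]

theorem mem_ker_dOp {x : A} : x ∈ (dOp σ).ker ↔ σ x = x := by
  rw [AddMonoidHom.mem_ker, dOp_apply, sub_eq_zero]

/-- polynomials in `σ` preserve `σ`-stable subgroups -/
theorem aeval_mem_of_stable (X : AddSubgroup A) (hX : ∀ x ∈ X, σ x ∈ X) (W : ℤ[X]) :
    ∀ x ∈ X, (aeval σ W) x ∈ X := by
  induction W using Polynomial.induction_on' with
  | add P Q hP hQ =>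
    intro x hx
    rw [map_add]
    exact X.add_mem (hP x hx) (hQ x hx)
  | monomial n a =>
    intro x hx
    rw [aeval_monomial]
    have hpow : ∀ k : ℕ, ∀ y ∈ X, (σ ^ k) y ∈ X := by
      intro k
      induction k with
      | zero => intro y hy; exact hy
      | succ k ih => intro y hy; rw [pow_succ, end_mul_apply]; exact ih _ (hX y hy)
    have : (algebraMap ℤ (AddMonoid.End A) a * σ ^ n) x = a • ((σ ^ n) x) := by
      rw [end_mul_apply]
      simp
    rw [this]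
    exact X.zsmul_mem (hpow n x hx) a

end abstract


section rank
open Module


/-- finrank additivity for disjoint subgroups -/
theorem finrank_sup_of_inf_eq_bot {A : Type*} [AddCommGroup A] (X Y : AddSubgroup A)
    [Module.Finite ℤ X] [Module.Finite ℤ Y]
    (h : X ⊓ Y = ⊥) : finrank ℤ ↥(X ⊔ Y) = finrank ℤ X + finrank ℤ Y := by
  have key := Submodule.rank_sup_add_rank_inf_eq (AddSubgroup.toIntSubmodule X)
    (AddSubgroup.toIntSubmodule Y)
  have hinf : AddSubgroup.toIntSubmodule X ⊓ AddSubgroup.toIntSubmodule Y = ⊥ := by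
    rw [← OrderIso.map_inf, h, OrderIso.map_bot]
  rw [hinf, rank_bot, add_zero] at key
  have hsup : AddSubgroup.toIntSubmodule X ⊔ AddSubgroup.toIntSubmodule Y
      = AddSubgroup.toIntSubmodule (X ⊔ Y) := (OrderIso.map_sup _ _ _).symm
  rw [hsup] at key
  have hX : Module.Finite ℤ ↥(AddSubgroup.toIntSubmodule X) := ‹Module.Finite ℤ X›
  have hY : Module.Finite ℤ ↥(AddSubgroup.toIntSubmodule Y) := ‹Module.Finite ℤ Y›
  have e1 : finrank ℤ ↥(X ⊔ Y) = finrank ℤ ↥(AddSubgroup.toIntSubmodule (X ⊔ Y)) := rfl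
  have e2 : finrank ℤ ↥X = finrank ℤ ↥(AddSubgroup.toIntSubmodule X) := rfl
  have e3 : finrank ℤ ↥Y = finrank ℤ ↥(AddSubgroup.toIntSubmodule Y) := rfl
  rw [e1, e2, e3]
  unfold finrank
  rw [key, Cardinal.toNat_add]
  · exact Module.rank_lt_aleph0 ℤ _
  · exact Module.rank_lt_aleph0 ℤ _

end rank


open Polynomial AddSubgroup Module

section abstract

variable {A : Type*} [AddCommGroup A] {σ : AddMonoid.End A} {p : ℕ}

theorem finite_of_le' {X C : AddSubgroup A} (h : X ≤ C) [Module.Finite ℤ C] : Module.Finite ℤ X := by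
  have hN : IsNoetherian ℤ C := inferInstance
  exact Module.Finite.of_injective (AddSubgroup.inclusion h).toIntLinearMap
    (AddSubgroup.inclusion_injective h)

theorem torsionFree_of_le' {X C : AddSubgroup A} (h : X ≤ C) [Module.IsTorsionFree ℤ C] :
    Module.IsTorsionFree ℤ X :=
  Function.Injective.moduleIsTorsionFree (AddSubgroup.inclusion h)
    (AddSubgroup.inclusion_injective h) (fun r m => by
      apply Subtype.ext
      simp)

theorem relIndex_nsmul_eq (X : AddSubgroup A) [Module.Finite ℤ X] [Module.IsTorsionFree ℤ X]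
    (n : ℕ) : (X.map (nsmulAddMonoidHom (α := A) n)).relIndex X = n ^ finrank ℤ X := by
  have h1 : Module.Finite ℤ ↥(AddSubgroup.toIntSubmodule X) := ‹Module.Finite ℤ X›
  have h2 : Module.IsTorsionFree ℤ ↥(AddSubgroup.toIntSubmodule X) := ‹Module.IsTorsionFree ℤ X›
  have h3 : Module.Free ℤ ↥(AddSubgroup.toIntSubmodule X) := inferInstance
  exact AddSubgroup.relIndex_map_nsmul n X

theorem eq_zero_of_nsmul_eq_zero' {C : AddSubgroup A} [Module.IsTorsionFree ℤ C] {x : A}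
    (hx : x ∈ C) {k : ℕ} (hk : k ≠ 0) (h : k • x = 0) : x = 0 := by
  have : (k : ℤ) • (⟨x, hx⟩ : C) = 0 := by
    apply Subtype.ext
    simpa using h
  have h' := (smul_eq_zero_iff_right (Int.natCast_ne_zero.mpr hk)).mp this
  exact congrArg Subtype.val h'


/-- powers of `σ - 1` -/
noncomputable def dPow (σ : AddMonoid.End A) (k : ℕ) : A →+ A :=
  ((σ - 1 : AddMonoid.End A) ^ k : AddMonoid.End A)

theorem dPow_zero (x : A) : dPow σ 0 x = x := rfl

theorem dPow_succ (k : ℕ) (x : A) : dPow σ (k + 1) x = dPow σ k (dOp σ x) := by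
  unfold dPow dOp
  rw [pow_succ]
  rfl

theorem geom_sum_sub_natCast_eq_aeval {R : Type*} [Ring R] (s : R) (p : ℕ) :
    ∃ Q : ℤ[X], ∑ i ∈ Finset.range p, s ^ i - (p : R) = (s - 1) * aeval s Q := by
  refine ⟨∑ i ∈ Finset.range p, ∑ j ∈ Finset.range i, X ^ j, ?_⟩
  rw [geom_sum_sub_natCast_eq]
  simp

/-- Core inequality for a `σ`-stable finitely generated torsion-free subgroup `C`. -/
theorem core_inequality (hp : p.Prime) (hσ : σ ^ p = 1) (C : AddSubgroup A)
    (hC : ∀ x ∈ C, σ x ∈ C) [Module.Finite ℤ C] [Module.IsTorsionFree ℤ C] :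
    hq (dOp σ) (nOp σ p) C ≠ 0 ∧ hq (nOp σ p) (dOp σ) C ≠ 0 ∧
    hq (dOp σ) (nOp σ p) C ^ (p - 1) * p ^ (finrank ℤ C)
      ≤ hq (nOp σ p) (dOp σ) C ^ (p - 1) * p ^ (p * finrank ℤ ↥((dOp σ).ker ⊓ C)) := by
  set f := dOp σ with hf
  set g := nOp σ p with hg
  set B₀ := f.ker ⊓ C with hB₀
  set B₁ := g.ker ⊓ C with hB₁
  set B := B₀ ⊔ B₁ with hB
  have hfg : ∀ x, f (g x) = 0 := dOp_nOp hσ
  have hgf : ∀ x, g (f x) = 0 := nOp_dOp hσ
  have hB₀C : B₀ ≤ C := inf_le_right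
  have hB₁C : B₁ ≤ C := inf_le_right
  have hBC : B ≤ C := sup_le hB₀C hB₁C
  have : Module.Finite ℤ B₀ := finite_of_le' hB₀C
  have : Module.Finite ℤ B₁ := finite_of_le' hB₁C
  have : Module.Finite ℤ B := finite_of_le' hBC
  have : Module.IsTorsionFree ℤ B₀ := torsionFree_of_le' hB₀C
  have : Module.IsTorsionFree ℤ B₁ := torsionFree_of_le' hB₁C
  have : Module.IsTorsionFree ℤ B := torsionFree_of_le' hBC
  have hp0 : p ≠ 0 := hp.ne_zero
  have memB₀ : ∀ x, x ∈ B₀ ↔ f x = 0 ∧ x ∈ C := fun x => by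
    rw [hB₀, AddSubgroup.mem_inf, AddMonoidHom.mem_ker]
  have memB₁ : ∀ x, x ∈ B₁ ↔ g x = 0 ∧ x ∈ C := fun x => by
    rw [hB₁, AddSubgroup.mem_inf, AddMonoidHom.mem_ker]
  -- stability
  have hCpow : ∀ k : ℕ, ∀ x ∈ C, (σ ^ k) x ∈ C := by
    intro k
    induction k with
    | zero => intro y hy; exact hy
    | succ k ih => intro y hy; rw [pow_succ, end_mul_apply]; exact ih _ (hC y hy)
  have hCf : ∀ x ∈ C, f x ∈ C := fun x hx => by
    rw [hf, dOp_apply]; exact C.sub_mem (hC x hx) hx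
  have hCg : ∀ x ∈ C, g x ∈ C := fun x hx => by
    rw [hg, nOp_apply]; exact C.sum_mem (fun i _ => hCpow i x hx)
  have hgσ : ∀ x, g (σ x) = σ (g x) := by
    intro x
    have h : (∑ i ∈ Finset.range p, σ ^ i) * σ = σ * (∑ i ∈ Finset.range p, σ ^ i) := by
      rw [Finset.sum_mul, Finset.mul_sum]
      exact Finset.sum_congr rfl (fun i _ => by rw [← pow_succ, ← pow_succ'])
    exact congrArg (fun e : AddMonoid.End A => e x) h
  have hB₁σ : ∀ x ∈ B₁, σ x ∈ B₁ := by
    intro x hx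
    rw [memB₁] at hx ⊢
    exact ⟨by rw [hgσ, hx.1, map_zero], hC x hx.2⟩
  have hfB₀ : ∀ x ∈ B₀, f x = 0 := fun x hx => ((memB₀ x).mp hx).1
  have hgB₀ : ∀ x ∈ B₀, g x = p • x := fun x hx =>
    nOp_of_fixed (mem_ker_dOp.mp ((AddMonoidHom.mem_ker).mpr (hfB₀ x hx)))
  have hgB₁ : ∀ x ∈ B₁, g x = 0 := fun x hx => ((memB₁ x).mp hx).1
  -- disjointness
  have hdisj' : ∀ x, x ∈ B₀ → x ∈ B₁ → x = 0 := by
    intro x h0 h1
    have : p • x = 0 := by rw [← hgB₀ x h0, hgB₁ x h1]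
    exact eq_zero_of_nsmul_eq_zero' ((memB₀ x).mp h0).2 hp0 this
  have hdisj : B₀ ⊓ B₁ = ⊥ := by
    rw [eq_bot_iff]
    intro x hx
    rw [AddSubgroup.mem_inf] at hx
    exact (AddSubgroup.mem_bot).mpr (hdisj' x hx.1 hx.2)
  -- kernels inside B
  have hkf : f.ker ⊓ B = B₀ := by
    apply le_antisymm
    · intro x hx
      rw [AddSubgroup.mem_inf] at hx
      obtain ⟨hx1, hx2⟩ := hx
      obtain ⟨y, hy, z, hz, rfl⟩ := AddSubgroup.mem_sup.mp hx2
      have hz0 : z ∈ B₀ := by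
        rw [memB₀]
        refine ⟨?_, ((memB₁ z).mp hz).2⟩
        have := (AddMonoidHom.mem_ker).mp hx1
        rw [map_add, hfB₀ y hy, zero_add] at this
        exact this
      rw [hdisj' z hz0 hz, add_zero]
      exact hy
    · exact le_inf inf_le_left le_sup_left
  have hkg : g.ker ⊓ B = B₁ := by
    apply le_antisymm
    · intro x hx
      rw [AddSubgroup.mem_inf] at hx
      obtain ⟨hx1, hx2⟩ := hx
      obtain ⟨y, hy, z, hz, rfl⟩ := AddSubgroup.mem_sup.mp hx2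
      have hy0 : y = 0 := by
        have := (AddMonoidHom.mem_ker).mp hx1
        rw [map_add, hgB₁ z hz, add_zero, hgB₀ y hy] at this
        exact eq_zero_of_nsmul_eq_zero' ((memB₀ y).mp hy).2 hp0 this
      rw [hy0, zero_add]
      exact hz
    · exact le_inf inf_le_left le_sup_right
  -- images of B
  have hmg : B.map g = B₀.map (nsmulAddMonoidHom (α := A) p) := by
    ext x
    constructor
    · rintro ⟨w, hw, rfl⟩
      obtain ⟨y, hy, z, hz, rfl⟩ := AddSubgroup.mem_sup.mp hw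
      refine ⟨y, hy, ?_⟩
      rw [map_add, hgB₁ z hz, add_zero, hgB₀ y hy]
      rfl
    · rintro ⟨y, hy, rfl⟩
      refine ⟨y, AddSubgroup.mem_sup_left hy, ?_⟩
      rw [hgB₀ y hy]
      rfl
  have hmf : B.map f = B₁.map f := by
    ext x
    constructor
    · rintro ⟨w, hw, rfl⟩
      obtain ⟨y, hy, z, hz, rfl⟩ := AddSubgroup.mem_sup.mp hw
      refine ⟨z, hz, ?_⟩
      rw [map_add, hfB₀ y hy, zero_add]
    · rintro ⟨z, hz, rfl⟩
      exact ⟨z, AddSubgroup.mem_sup_right hz, rfl⟩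
  -- p C ≤ B
  have hpC : C.map (nsmulAddMonoidHom (α := A) p) ≤ B := by
    rintro _ ⟨x, hx, rfl⟩
    have h0 : g x ∈ B₀ := (memB₀ _).mpr ⟨hfg x, hCg x hx⟩
    have h1 : p • x - g x ∈ B₁ := by
      rw [memB₁]
      refine ⟨?_, C.sub_mem (C.nsmul_mem hx p) (hCg x hx)⟩
      rw [map_sub, map_nsmul, hgB₀ (g x) h0, sub_self]
    have : (nsmulAddMonoidHom (α := A) p) x = g x + (p • x - g x) := by
      simp
    rw [this]
    exact AddSubgroup.mem_sup.mpr ⟨_, h0, _, h1, rfl⟩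
  have hfinBC : B.relIndex C ≠ 0 := by
    intro h0
    have := AddSubgroup.relIndex_eq_zero_of_le_left hpC h0
    rw [relIndex_nsmul_eq C p] at this
    exact (pow_ne_zero _ hp0) this
  -- stability as map ≤
  have hfB : B.map f ≤ B := by
    rw [hmf]
    rintro _ ⟨z, hz, rfl⟩
    exact AddSubgroup.mem_sup_right ((memB₁ _).mpr ⟨hgf z, hCf z ((memB₁ z).mp hz).2⟩)
  have hgB : B.map g ≤ B := by
    rw [hmg]
    rintro _ ⟨y, hy, rfl⟩
    exact AddSubgroup.mem_sup_left (B₀.nsmul_mem hy p)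
  have hfC : C.map f ≤ C := by rintro _ ⟨x, hx, rfl⟩; exact hCf x hx
  have hgC : C.map g ≤ C := by rintro _ ⟨x, hx, rfl⟩; exact hCg x hx
  -- h0 of B
  have h0B : hq f g B = p ^ finrank ℤ B₀ := by
    unfold hq
    rw [hkf, hmg, relIndex_nsmul_eq]
  -- h1 of B
  have h1B : hq g f B = (B₁.map f).relIndex B₁ := by
    unfold hq
    rw [hkg, hmf]
  set I := (B₁.map f).relIndex B₁ with hI
  have hfB₁ : B₁.map f ≤ B₁ := by
    rintro _ ⟨z, hz, rfl⟩
    exact (memB₁ _).mpr ⟨hgf z, hCf z ((memB₁ z).mp hz).2⟩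
  -- p B₁ ≤ f B₁
  have hpf : B₁.map (nsmulAddMonoidHom (α := A) p) ≤ B₁.map f := by
    obtain ⟨Q, hQ⟩ := geom_sum_sub_natCast_eq_aeval σ p
    rintro _ ⟨x, hx, rfl⟩
    have hQx : (aeval σ Q) x ∈ B₁ := aeval_mem_of_stable B₁ hB₁σ Q x hx
    refine ⟨-(aeval σ Q) x, B₁.neg_mem hQx, ?_⟩
    have := congrArg (fun e : AddMonoid.End A => e x) hQ
    simp only [end_mul_apply] at this
    have hgx : g x = 0 := hgB₁ x hx
    have e1 : (∑ i ∈ Finset.range p, σ ^ i - (p : AddMonoid.End A)) x = g x - p • x := rfl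
    rw [e1, hgx, zero_sub] at this
    rw [map_neg]
    change -((σ - 1 : AddMonoid.End A) ((aeval σ Q) x)) = p • x
    rw [← this, neg_neg]
  have hIne : I ≠ 0 := by
    intro h0
    have := AddSubgroup.relIndex_eq_zero_of_le_left hpf h0
    rw [relIndex_nsmul_eq B₁ p] at this
    exact (pow_ne_zero _ hp0) this
  -- injectivity of powers of f on B₁
  have hkerf : f.ker ⊓ B₁ = ⊥ := by
    rw [eq_bot_iff]
    intro x hx
    rw [AddSubgroup.mem_inf] at hx
    exact (AddSubgroup.mem_bot).mpr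
      (hdisj' x ((memB₀ x).mpr ⟨(AddMonoidHom.mem_ker).mp hx.1, ((memB₁ x).mp hx.2).2⟩) hx.2)
  have hfpowmem : ∀ k : ℕ, ∀ x ∈ B₁, (dPow σ k) x ∈ B₁ := by
    intro k
    induction k with
    | zero => intro y hy; exact hy
    | succ k ih =>
      intro y hy
      rw [dPow_succ]
      exact ih _ (hfB₁ ⟨y, hy, rfl⟩)
  have hkerpow : ∀ k : ℕ, AddMonoidHom.ker (dPow σ k) ⊓ B₁ = ⊥ := by
    intro k
    induction k with
    | zero =>
      rw [eq_bot_iff]
      intro x hx
      rw [AddSubgroup.mem_inf] at hx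
      exact (AddSubgroup.mem_bot).mpr ((AddMonoidHom.mem_ker).mp hx.1)
    | succ k ih =>
      rw [eq_bot_iff]
      intro x hx
      rw [AddSubgroup.mem_inf] at hx
      obtain ⟨hx1, hx2⟩ := hx
      have h1 : (dPow σ k) (f x) = 0 := by
        have := (AddMonoidHom.mem_ker).mp hx1
        rwa [dPow_succ] at this
      have h2 : f x ∈ AddMonoidHom.ker (dPow σ k) ⊓ B₁ :=
        AddSubgroup.mem_inf.mpr ⟨(AddMonoidHom.mem_ker).mpr h1, hfB₁ ⟨x, hx2, rfl⟩⟩
      rw [ih] at h2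
      have h3 : x ∈ f.ker ⊓ B₁ :=
        AddSubgroup.mem_inf.mpr ⟨(AddMonoidHom.mem_ker).mpr ((AddSubgroup.mem_bot).mp h2), hx2⟩
      rw [hkerf] at h3
      exact h3
  -- [B₁ : f^k B₁] = I^k
  have hpowidx : ∀ k : ℕ,
      (B₁.map (dPow σ k)).relIndex B₁ = I ^ k := by
    intro k
    induction k with
    | zero =>
      have : B₁.map (dPow σ 0) = B₁ := by
        ext x
        constructor
        · rintro ⟨y, hy, rfl⟩; exact hy
        · intro hx; exact ⟨x, hx, rfl⟩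
      rw [this, AddSubgroup.relIndex_self, pow_zero]
    | succ k ih =>
      have hmap : B₁.map (dPow σ (k + 1))
          = (B₁.map f).map (dPow σ k) := by
        rw [AddSubgroup.map_map]
        congr 1
      have hle1 : (B₁.map f).map (dPow σ k)
          ≤ B₁.map (dPow σ k) := AddSubgroup.map_mono hfB₁
      have hle2 : B₁.map (dPow σ k) ≤ B₁ := by
        rintro _ ⟨y, hy, rfl⟩
        exact hfpowmem k y hy
      have key := relIndex_map_mul_relIndex_ker
        (dPow σ k) hfB₁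
      rw [hkerpow k, AddSubgroup.relIndex_bot_right, mul_one] at key
      rw [hmap, ← AddSubgroup.relIndex_mul_relIndex _ _ _ hle1 hle2, key, ih, pow_succ, mul_comm]
  -- f^(p-1) B₁ ≤ p B₁
  have hfp : B₁.map (dPow σ (p - 1))
      ≤ B₁.map (nsmulAddMonoidHom (α := A) p) := by
    obtain ⟨W, hW⟩ := sub_one_pow_eq σ p hp
    rintro _ ⟨x, hx, rfl⟩
    have hWx : (aeval σ W) x ∈ B₁ := aeval_mem_of_stable B₁ hB₁σ W x hx
    refine ⟨(aeval σ W) x, hWx, ?_⟩
    have := congrArg (fun e : AddMonoid.End A => e x) hW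
    have e1 : (∑ i ∈ Finset.range p, σ ^ i + (p : AddMonoid.End A) * aeval σ W) x
        = g x + p • (aeval σ W) x := rfl
    have e2 : ((σ - 1 : AddMonoid.End A) ^ (p - 1)) x = dPow σ (p - 1) x := rfl
    replace this : ((σ - 1 : AddMonoid.End A) ^ (p - 1)) x
        = (∑ i ∈ Finset.range p, σ ^ i + (p : AddMonoid.End A) * aeval σ W) x := this
    rw [e1, e2, hgB₁ x hx, zero_add] at this
    exact this.symm
  have hdvd : p ^ finrank ℤ B₁ ∣ I ^ (p - 1) := by
    rw [← hpowidx (p - 1), ← relIndex_nsmul_eq B₁ p]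
    exact AddSubgroup.relIndex_dvd_of_le_left _ hfp
  -- ranks
  have hrank : finrank ℤ B₀ + finrank ℤ B₁ = finrank ℤ C := by
    rw [← finrank_sup_of_inf_eq_bot B₀ B₁ hdisj]
    have : B.IsFiniteRelIndex C := ⟨hfinBC⟩
    exact AddSubgroup.finrank_eq_of_isFiniteRelIndex hBC
  -- FI
  have hFI := hq_mul_hq_of_relIndex_ne_zero f g hfg hgf hBC hfB hgB hfC hgC hfinBC
  have h0C : hq f g C ≠ 0 :=
    hq_ne_zero_of_relIndex_ne_zero f g hfg hBC hgB hgC hfinBC (by rw [h0B]; exact pow_ne_zero _ hp0)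
  have h1C : hq g f C ≠ 0 :=
    hq_ne_zero_of_relIndex_ne_zero g f hgf hBC hfB hfC hfinBC (by rw [h1B]; exact hIne)
  refine ⟨h0C, h1C, ?_⟩
  rw [h0B, h1B] at hFI
  -- hFI : h0(C) * I = h1(C) * p^a
  set a := finrank ℤ B₀
  set b := finrank ℤ B₁
  set x := hq f g C
  set y := hq g f C
  have hle : p ^ b ≤ I ^ (p - 1) := Nat.le_of_dvd (pow_pos (Nat.pos_of_ne_zero hIne) _) hdvd
  -- goal : x^(p-1) * p^(finrank C) ≤ y^(p-1) * p^(p*a)
  rw [← hrank]
  have h1 : (x * I) ^ (p - 1) = (y * p ^ a) ^ (p - 1) := by rw [hFI]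
  have hpa : p * a = a * (p - 1) + a := by
    have : p = (p - 1) + 1 := (Nat.sub_add_cancel hp.one_le).symm
    nth_rewrite 1 [this]
    ring
  calc x ^ (p - 1) * p ^ (a + b) = x ^ (p - 1) * p ^ b * p ^ a := by ring
    _ ≤ x ^ (p - 1) * I ^ (p - 1) * p ^ a := by gcongr
    _ = (x * I) ^ (p - 1) * p ^ a := by ring
    _ = (y * p ^ a) ^ (p - 1) * p ^ a := by rw [h1]
    _ = y ^ (p - 1) * p ^ (p * a) := by rw [hpa]; ring


theorem finite_of_fg {X : AddSubgroup A} [Module.Finite ℤ A] : Module.Finite ℤ X := by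
  have hN : IsNoetherian ℤ A := inferInstance
  exact Module.Finite.of_injective (AddSubgroup.subtype X).toIntLinearMap
    (AddSubgroup.subtype_injective X)

/-- If `n • Y ≤ X ≤ Y` with `n ≠ 0` then `X` and `Y` have the same rank. -/
theorem finrank_eq_of_nsmul_le {X Y : AddSubgroup A} [Module.Finite ℤ Y] (hXY : X ≤ Y) (n : ℕ)
    (hn : n ≠ 0) (h : ∀ y ∈ Y, n • y ∈ X) : finrank ℤ X = finrank ℤ Y := by
  let X' : Submodule ℤ Y := AddSubgroup.toIntSubmodule (X.addSubgroupOf Y)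
  have h1 := Submodule.finrank_quotient_add_finrank X'
  have htors : Module.IsTorsion ℤ (↥Y ⧸ X') := by
    intro q
    obtain ⟨y, rfl⟩ := Submodule.Quotient.mk_surjective X' q
    refine ⟨⟨(n : ℤ), mem_nonZeroDivisors_of_ne_zero (Int.natCast_ne_zero.mpr hn)⟩, ?_⟩
    change (n : ℤ) • (Submodule.Quotient.mk y : ↥Y ⧸ X') = 0
    rw [← Submodule.Quotient.mk_smul, Submodule.Quotient.mk_eq_zero]
    change (n : ℤ) • y ∈ X.addSubgroupOf Y
    rw [AddSubgroup.mem_addSubgroupOf]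
    simpa using h y y.2
  rw [htors.finrank_eq_zero, zero_add] at h1
  rw [← h1]
  exact (AddSubgroup.addSubgroupOfEquivOfLe hXY).symm.toIntLinearEquiv.finrank_eq

theorem exists_nsmul_kill (A : Type*) [AddCommGroup A] [Module.Finite ℤ A] :
    ∃ n : ℕ, n ≠ 0 ∧ ∀ x : A, ∀ k : ℤ, k ≠ 0 → k • x = 0 → n • x = 0 := by
  have hT : Module.Finite ℤ (Submodule.torsion ℤ A) := by
    have hN : IsNoetherian ℤ A := inferInstance
    infer_instance
  have hTfin : Finite (Submodule.torsion ℤ A) :=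
    Module.finite_of_fg_torsion _ (Submodule.torsion_isTorsion (R := ℤ) (M := A))
  refine ⟨Nat.card (Submodule.torsion ℤ A), Nat.card_ne_zero.mpr ⟨⟨0⟩, hTfin⟩, ?_⟩
  intro x k hk hx
  have hxT : x ∈ Submodule.torsion ℤ A := by
    rw [Submodule.mem_torsion_iff]
    exact ⟨⟨k, mem_nonZeroDivisors_of_ne_zero hk⟩, hx⟩
  have := card_nsmul_eq_zero' (G := Submodule.torsion ℤ A) (x := ⟨x, hxT⟩)
  have h2 := congrArg Subtype.val this
  rw [AddSubmonoidClass.coe_nsmul] at h2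
  exact h2

/-- **Herbrand quotient inequality** for an automorphism of prime order `p` of a finitely
generated abelian group `A` with `rank A + 1 = p * (rank A^σ + 1)`:
`p * |Ĥ⁰| ≤ |H¹|` (and both are finite). -/
theorem herbrand_inequality [Module.Finite ℤ A] (hp : p.Prime) (hσ : σ ^ p = 1)
    (hr : finrank ℤ A + 1 = p * (finrank ℤ (dOp σ).ker + 1)) :
    (nOp σ p).range.relIndex (dOp σ).ker ≠ 0 ∧ (dOp σ).range.relIndex (nOp σ p).ker ≠ 0 ∧
      p * (nOp σ p).range.relIndex (dOp σ).ker ≤ (dOp σ).range.relIndex (nOp σ p).ker := by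
  set f := dOp σ with hf
  set g := nOp σ p with hg
  have hfg : ∀ x, f (g x) = 0 := dOp_nOp hσ
  have hgf : ∀ x, g (f x) = 0 := nOp_dOp hσ
  obtain ⟨n, hn0, hkill⟩ := exists_nsmul_kill A
  set C := (nsmulAddMonoidHom (α := A) n).range with hC
  have memC : ∀ x, x ∈ C ↔ ∃ y, n • y = x := fun x => by
    rw [hC, AddMonoidHom.mem_range]; rfl
  have hCσ : ∀ x ∈ C, σ x ∈ C := by
    intro x hx
    obtain ⟨y, rfl⟩ := (memC x).mp hx
    exact (memC _).mpr ⟨σ y, by rw [map_nsmul]⟩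
  have hCfin : Module.Finite ℤ C := finite_of_fg
  have hCtf : Module.IsTorsionFree ℤ C := by
    apply Module.IsTorsionFree.of_smul_eq_zero
    intro r m hrm
    by_cases hr0 : r = 0
    · exact Or.inl hr0
    · right
      obtain ⟨y, hy⟩ := (memC m.1).mp m.2
      have h1 : (r * n) • y = 0 := by
        have := congrArg Subtype.val hrm
        simp only [AddSubgroup.coe_zsmul, ZeroMemClass.coe_zero] at this
        rw [mul_smul, natCast_zsmul, hy]
        exact this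
      have h2 := hkill y (r * n) (mul_ne_zero hr0 (Int.natCast_ne_zero.mpr hn0)) h1
      apply Subtype.ext
      rw [← hy, h2]
      rfl
  -- core inequality on C
  obtain ⟨c0, c1, cineq⟩ := core_inequality hp hσ C hCσ
  -- finite index of C
  have hfinC : C.relIndex ⊤ ≠ 0 := by
    rw [AddSubgroup.relIndex_top_right]
    have hq : Module.Finite ℤ (A ⧸ AddSubgroup.toIntSubmodule C) := inferInstance
    have htors : Module.IsTorsion ℤ (A ⧸ AddSubgroup.toIntSubmodule C) := by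
      intro q
      obtain ⟨y, rfl⟩ := Submodule.Quotient.mk_surjective _ q
      refine ⟨⟨(n : ℤ), mem_nonZeroDivisors_of_ne_zero (Int.natCast_ne_zero.mpr hn0)⟩, ?_⟩
      change (n : ℤ) • (Submodule.Quotient.mk y : A ⧸ AddSubgroup.toIntSubmodule C) = 0
      rw [← Submodule.Quotient.mk_smul, Submodule.Quotient.mk_eq_zero]
      change (n : ℤ) • y ∈ C
      rw [natCast_zsmul]
      exact (memC _).mpr ⟨y, rfl⟩
    have hfin : Finite (A ⧸ AddSubgroup.toIntSubmodule C) := Module.finite_of_fg_torsion _ htors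
    have hfin' : Finite (A ⧸ C) := hfin
    exact AddSubgroup.index_ne_zero_of_finite
  -- stability
  have hCpow : ∀ k : ℕ, ∀ x ∈ C, (σ ^ k) x ∈ C := by
    intro k
    induction k with
    | zero => intro y hy; exact hy
    | succ k ih => intro y hy; rw [pow_succ, end_mul_apply]; exact ih _ (hCσ y hy)
  have hfC : C.map f ≤ C := by
    rintro _ ⟨x, hx, rfl⟩
    rw [hf, dOp_apply]; exact C.sub_mem (hCσ x hx) hx
  have hgC : C.map g ≤ C := by
    rintro _ ⟨x, hx, rfl⟩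
    rw [hg, nOp_apply]; exact C.sum_mem (fun i _ => hCpow i x hx)
  have hFI := hq_mul_hq_of_relIndex_ne_zero f g hfg hgf (le_top : C ≤ ⊤) hfC hgC le_top le_top hfinC
  have h0A : hq f g ⊤ ≠ 0 :=
    hq_ne_zero_of_relIndex_ne_zero f g hfg (le_top : C ≤ ⊤) hgC le_top hfinC c0
  have h1A : hq g f ⊤ ≠ 0 :=
    hq_ne_zero_of_relIndex_ne_zero g f hgf (le_top : C ≤ ⊤) hfC le_top hfinC c1
  have e0 : hq f g ⊤ = g.range.relIndex f.ker := by
    unfold hq
    rw [inf_top_eq, ← AddMonoidHom.range_eq_map]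
  have e1 : hq g f ⊤ = f.range.relIndex g.ker := by
    unfold hq
    rw [inf_top_eq, ← AddMonoidHom.range_eq_map]
  rw [e0] at h0A hFI
  rw [e1] at h1A hFI
  refine ⟨h0A, h1A, ?_⟩
  -- ranks
  have hrC : finrank ℤ C = finrank ℤ A := by
    have hTop : Module.Finite ℤ (⊤ : AddSubgroup A) := finite_of_fg
    rw [finrank_eq_of_nsmul_le (le_top : C ≤ ⊤) n hn0 (fun y _ => (memC _).mpr ⟨y, rfl⟩)]
    exact (AddSubgroup.topEquiv (G := A)).toIntLinearEquiv.finrank_eq
  have hkfin : Module.Finite ℤ f.ker := finite_of_fg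
  have hrK : finrank ℤ ↥(f.ker ⊓ C) = finrank ℤ f.ker := by
    refine finrank_eq_of_nsmul_le inf_le_left n hn0 (fun y hy => ?_)
    exact AddSubgroup.mem_inf.mpr ⟨f.ker.nsmul_mem hy n, (memC _).mpr ⟨y, rfl⟩⟩
  rw [hrC, hrK] at cineq
  set a := finrank ℤ f.ker
  set x := g.range.relIndex f.ker
  set y := f.range.relIndex g.ker
  set x' := hq f g C
  set y' := hq g f C
  -- hFI : x * y' = y * x' ; cineq : x'^(p-1) * p^r ≤ y'^(p-1) * p^(p a)
  have hr' : finrank ℤ A = p * a + (p - 1) := by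
    have h1 : p * (a + 1) = p * a + p := by ring
    have h2 := hp.one_le
    omega
  rw [hr'] at cineq
  have hppos : 0 < p ^ (p * a) := pow_pos hp.pos _
  have key : (p * x) ^ (p - 1) * (y' ^ (p - 1) * p ^ (p * a))
      ≤ y ^ (p - 1) * (y' ^ (p - 1) * p ^ (p * a)) := by
    calc (p * x) ^ (p - 1) * (y' ^ (p - 1) * p ^ (p * a))
        = (x * y') ^ (p - 1) * p ^ (p * a + (p - 1)) := by ring
      _ = (y * x') ^ (p - 1) * p ^ (p * a + (p - 1)) := by rw [hFI]
      _ = y ^ (p - 1) * (x' ^ (p - 1) * p ^ (p * a + (p - 1))) := by ring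
      _ ≤ y ^ (p - 1) * (y' ^ (p - 1) * p ^ (p * a)) := by gcongr
  have hpos : 0 < y' ^ (p - 1) * p ^ (p * a) :=
    Nat.mul_pos (pow_pos (Nat.pos_of_ne_zero c1) _) hppos
  have key2 : (p * x) ^ (p - 1) ≤ y ^ (p - 1) := Nat.le_of_mul_le_mul_right key hpos
  have hp1 : p - 1 ≠ 0 := by have := hp.two_le; omega
  exact (Nat.pow_le_pow_iff_left hp1).mp key2

end abstract

end Fermat.Agent.S14.helper86
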