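import Mathlib
import Fermat.Agent.S14.helper86_Herbrand

/-!
# Unit Herbrand quotient inequality (helper86, S14 task 129)
-/

open NumberField Module

namespace Fermat.Agent.S14.helper86

section units

variable {K L : Type*} [Field K] [NumberField K] [Field L] [NumberField L] [Algebra K L]
  [IsGalois K L]

/-- The action of `σ ∈ Gal(L/K)` on the units of `𝓞 L`. -/
noncomputable def unitAct (σ : Gal(L/K)) : (𝓞 L)ˣ →* (𝓞 L)ˣ :=
  Units.map (MulSemiringAction.toRingHom Gal(L/K) (𝓞 L) σ).toMonoidHom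

theorem unitAct_coe (σ : Gal(L/K)) (u : (𝓞 L)ˣ) :
    (((unitAct σ u : (𝓞 L)ˣ) : 𝓞 L) : L) = σ ((u : 𝓞 L) : L) := rfl

theorem unitAct_one (u : (𝓞 L)ˣ) : unitAct (1 : Gal(L/K)) u = u := by
  apply Units.ext
  apply RingOfIntegers.ext
  rw [unitAct_coe]
  rfl

theorem unitAct_mul (σ τ : Gal(L/K)) (u : (𝓞 L)ˣ) :
    unitAct (σ * τ) u = unitAct σ (unitAct τ u) := by
  apply Units.ext
  apply RingOfIntegers.ext
  rw [unitAct_coe, unitAct_coe, unitAct_coe]
  rfl

theorem unitAct_pow (σ : Gal(L/K)) (i : ℕ) (u : (𝓞 L)ˣ) :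
    unitAct (σ ^ i) u = (unitAct σ)^[i] u := by
  induction i generalizing u with
  | zero => rw [pow_zero, unitAct_one]; rfl
  | succ k ih => rw [pow_succ, unitAct_mul, ih, Function.iterate_succ_apply]

/-- `u ↦ σ(u) / u`. -/
noncomputable def unitD (σ : Gal(L/K)) : (𝓞 L)ˣ →* (𝓞 L)ˣ :=
  unitAct σ / MonoidHom.id _

/-- `u ↦ ∏_{i<p} σ^i(u)`. -/
noncomputable def unitN (σ : Gal(L/K)) (p : ℕ) : (𝓞 L)ˣ →* (𝓞 L)ˣ :=
  ∏ i ∈ Finset.range p, unitAct (σ ^ i)

theorem unitD_apply (σ : Gal(L/K)) (u : (𝓞 L)ˣ) : unitD σ u = unitAct σ u / u := rfl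

theorem unitN_apply (σ : Gal(L/K)) (p : ℕ) (u : (𝓞 L)ˣ) :
    unitN σ p u = ∏ i ∈ Finset.range p, unitAct (σ ^ i) u := by
  unfold unitN
  exact MonoidHom.finsetProd_apply _ _ _

/-- the additive endomorphism attached to `σ` -/
noncomputable def unitEnd (σ : Gal(L/K)) : AddMonoid.End (Additive (𝓞 L)ˣ) :=
  MonoidHom.toAdditive (unitAct σ)

theorem unitEnd_pow (σ : Gal(L/K)) (i : ℕ) : unitEnd σ ^ i = unitEnd (σ ^ i) := by
  induction i with
  | zero =>
    rw [pow_zero, pow_zero]
    refine AddMonoidHom.ext (fun u => ?_)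
    change u = Additive.ofMul (unitAct (1 : Gal(L/K)) (Additive.toMul u))
    rw [unitAct_one]
    rfl
  | succ k ih =>
    rw [pow_succ, ih, pow_succ]
    refine AddMonoidHom.ext (fun u => ?_)
    change Additive.ofMul (unitAct (σ ^ k) (unitAct σ (Additive.toMul u))) = 
      Additive.ofMul (unitAct (σ ^ k * σ) (Additive.toMul u))
    rw [unitAct_mul]

theorem toAdditive_unitD (σ : Gal(L/K)) : MonoidHom.toAdditive (unitD σ) = dOp (unitEnd σ) := rfl

theorem toAdditive_unitN (σ : Gal(L/K)) (p : ℕ) :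
    MonoidHom.toAdditive (unitN σ p) = nOp (unitEnd σ) p := by
  refine AddMonoidHom.ext (fun u => ?_)
  rw [nOp_apply]
  simp_rw [unitEnd_pow]
  change Additive.ofMul (unitN σ p (Additive.toMul u)) = _
  rw [unitN_apply, ofMul_prod]
  rfl


/-- For an extension of odd degree all infinite places are unramified, hence
`#places(L) = #places(K) * [L:K]`. -/
theorem card_infinitePlace_eq (hodd : Odd (finrank K L)) :
    Fintype.card (InfinitePlace L) = Fintype.card (InfinitePlace K) * finrank K L := by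
  classical
  have h := InfinitePlace.card_eq_card_isUnramifiedIn K L
  have hall : ∀ w : InfinitePlace K, w.IsUnramifiedIn L := by
    intro w
    by_contra hw
    exact (Nat.not_even_iff_odd.mpr hodd) (InfinitePlace.even_finrank_of_not_isUnramifiedIn hw)
  have h1 : ({w : InfinitePlace K | w.IsUnramifiedIn L} : Finset _) = Finset.univ := by
    ext w
    simp [hall w]
  rw [h1, Finset.compl_univ, Finset.card_empty, zero_mul, add_zero, Finset.card_univ] at h
  exact h

/-- inclusion of the units of `K` into the units of `L` -/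
noncomputable def unitIncl (K L : Type*) [Field K] [NumberField K] [Field L] [NumberField L]
    [Algebra K L] : (𝓞 K)ˣ →* (𝓞 L)ˣ :=
  Units.map (algebraMap (𝓞 K) (𝓞 L)).toMonoidHom

omit [IsGalois K L] in
theorem unitIncl_coe (u : (𝓞 K)ˣ) :
    (((unitIncl K L u : (𝓞 L)ˣ) : 𝓞 L) : L) = algebraMap K L ((u : 𝓞 K) : K) := rfl

omit [IsGalois K L] in
theorem unitIncl_injective : Function.Injective (unitIncl K L) := by
  intro u v h
  apply Units.ext
  apply RingOfIntegers.ext
  have := congrArg (fun w : (𝓞 L)ˣ => ((w : 𝓞 L) : L)) h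
  simp only [unitIncl_coe] at this
  exact (algebraMap K L).injective this

theorem unitAct_eq_of_mem_zpowers {σ τ : Gal(L/K)} (hτ : τ ∈ Subgroup.zpowers σ) {u : (𝓞 L)ˣ}
    (hu : unitAct σ u = u) : unitAct τ u = u := by
  let S : Subgroup Gal(L/K) :=
    { carrier := {ρ | unitAct ρ u = u}
      one_mem' := unitAct_one u
      mul_mem' := fun {a b} ha hb => by
        change unitAct (a * b) u = u
        rw [unitAct_mul, hb, ha]
      inv_mem' := fun {a} ha => by
        change unitAct a⁻¹ u = u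
        have h1 : unitAct a⁻¹ (unitAct a u) = u := by
          rw [← unitAct_mul, inv_mul_cancel, unitAct_one]
        rwa [ha] at h1 }
  have hσS : σ ∈ S := hu
  exact (Subgroup.zpowers_le.mpr hσS) hτ

theorem exists_of_fixed {σ : Gal(L/K)} (hgen : ∀ τ : Gal(L/K), τ ∈ Subgroup.zpowers σ)
    {u : (𝓞 L)ˣ} (hu : unitAct σ u = u) : ∃ k : 𝓞 K, algebraMap (𝓞 K) (𝓞 L) k = (u : 𝓞 L) := by
  have hfix : ∀ τ : Gal(L/K), τ ((u : 𝓞 L) : L) = ((u : 𝓞 L) : L) := by
    intro τ
    have := unitAct_eq_of_mem_zpowers (hgen τ) hu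
    rw [← unitAct_coe, this]
  obtain ⟨k, hk⟩ := (IsGalois.mem_range_algebraMap_iff_fixed _).mpr hfix
  have hint : IsIntegral ℤ k := by
    rw [← isIntegral_algebraMap_iff (algebraMap K L).injective, hk]
    exact RingOfIntegers.isIntegral_coe _
  refine ⟨⟨k, hint⟩, ?_⟩
  apply RingOfIntegers.ext
  exact hk

theorem range_unitIncl {σ : Gal(L/K)} (hgen : ∀ τ : Gal(L/K), τ ∈ Subgroup.zpowers σ) :
    (unitIncl K L).range = (unitD σ).ker := by
  ext u
  rw [MonoidHom.mem_ker, unitD_apply, div_eq_one]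
  constructor
  · rintro ⟨k, rfl⟩
    apply Units.ext
    apply RingOfIntegers.ext
    rw [unitAct_coe, unitIncl_coe]
    exact σ.commutes _
  · intro hu
    obtain ⟨k, hk⟩ := exists_of_fixed hgen hu
    have hu' : unitAct σ u⁻¹ = u⁻¹ := by rw [map_inv, hu]
    obtain ⟨k', hk'⟩ := exists_of_fixed hgen hu'
    have hkk' : k * k' = 1 := by
      apply (FaithfulSMul.algebraMap_injective (𝓞 K) (𝓞 L))
      rw [map_mul, hk, hk', map_one]
      exact u.mul_inv
    have hk'k : k' * k = 1 := by rw [mul_comm]; exact hkk'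
    refine ⟨⟨k, k', hkk', hk'k⟩, ?_⟩
    apply Units.ext
    exact hk

/-- **Unit Herbrand quotient inequality.** For a Galois extension `L/K` of number fields of odd
prime degree `p` with Galois group generated by `σ`: `p * [E_K : N E_L] ≤ [ker N : (σ-1) E_L]`,
and both indices are finite. -/
theorem units_herbrand {p : ℕ} (hp : p.Prime) (hp2 : p ≠ 2) (hdeg : finrank K L = p)
    {σ : Gal(L/K)} (hσ : σ ≠ 1) :
    (unitN σ p).range.relIndex (unitD σ).ker ≠ 0 ∧
    (unitD σ).range.relIndex (unitN σ p).ker ≠ 0 ∧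
    p * (unitN σ p).range.relIndex (unitD σ).ker ≤ (unitD σ).range.relIndex (unitN σ p).ker := by
  have hcard : Nat.card Gal(L/K) = p := by rw [IsGalois.card_aut_eq_finrank, hdeg]
  have : Fact p.Prime := ⟨hp⟩
  have hgen : ∀ τ : Gal(L/K), τ ∈ Subgroup.zpowers σ := fun τ =>
    mem_zpowers_of_prime_card hcard hσ
  have hσp : σ ^ p = 1 := by rw [← hcard]; exact pow_card_eq_one'
  have hE : unitEnd σ ^ p = 1 := by
    rw [unitEnd_pow, hσp]
    refine AddMonoidHom.ext (fun u => ?_)
    change Additive.ofMul (unitAct (1 : Gal(L/K)) (Additive.toMul u)) = u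
    rw [unitAct_one]
    rfl
  -- ranks
  have hodd : Odd (finrank K L) := by rw [hdeg]; exact hp.odd_of_ne_two hp2
  have hplaces := card_infinitePlace_eq (K := K) (L := L) hodd
  rw [hdeg] at hplaces
  have hrL : finrank ℤ (Additive (𝓞 L)ˣ) = Fintype.card (InfinitePlace L) - 1 :=
    Units.finrank_eq L
  have hrK : finrank ℤ (Additive (𝓞 K)ˣ) = Fintype.card (InfinitePlace K) - 1 :=
    Units.finrank_eq K
  have hposK : 0 < Fintype.card (InfinitePlace K) := Fintype.card_pos
  have hposL : 0 < Fintype.card (InfinitePlace L) := Fintype.card_pos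
  -- the kernel of `σ - 1` is the group of units of `K`
  have hker : finrank ℤ ↥(dOp (unitEnd σ)).ker = finrank ℤ (Additive (𝓞 K)ˣ) := by
    have hrange := range_unitIncl (K := K) (L := L) hgen
    let φ : Additive (𝓞 K)ˣ →+ ↥(dOp (unitEnd σ)).ker :=
      { toFun := fun u => ⟨Additive.ofMul (unitIncl K L (Additive.toMul u)), by
          rw [← toAdditive_unitD, MonoidHom.coe_toAdditive_ker]
          change unitIncl K L (Additive.toMul u) ∈ (unitD σ).ker
          rw [← hrange]
          exact ⟨_, rfl⟩⟩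
        map_zero' := by
          apply Subtype.ext
          change Additive.ofMul (unitIncl K L 1) = 0
          rw [map_one]; rfl
        map_add' := fun a b => by
          apply Subtype.ext
          change Additive.ofMul (unitIncl K L (Additive.toMul a * Additive.toMul b)) = _
          rw [map_mul]; rfl }
    have hφinj : Function.Injective φ := by
      intro a b hab
      have := congrArg (fun z : ↥(dOp (unitEnd σ)).ker => Additive.toMul z.1) hab
      exact unitIncl_injective this
    have hφsurj : Function.Surjective φ := by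
      rintro ⟨z, hz⟩
      rw [← toAdditive_unitD, MonoidHom.coe_toAdditive_ker] at hz
      have hz' : Additive.toMul z ∈ (unitD σ).ker := hz
      rw [← hrange] at hz'
      obtain ⟨k, hk⟩ := hz'
      exact ⟨Additive.ofMul k, Subtype.ext (by change Additive.ofMul (unitIncl K L k) = z; rw [hk]; rfl)⟩
    exact ((AddEquiv.ofBijective φ ⟨hφinj, hφsurj⟩).toIntLinearEquiv.finrank_eq).symm
  have hr : finrank ℤ (Additive (𝓞 L)ˣ) + 1 = p * (finrank ℤ ↥(dOp (unitEnd σ)).ker + 1) := by
    rw [hker, hrL, hrK, Nat.sub_add_cancel hposL, Nat.sub_add_cancel hposK, hplaces, mul_comm]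
  have key := herbrand_inequality (A := Additive (𝓞 L)ˣ) (σ := unitEnd σ) hp hE hr
  rw [← toAdditive_unitD, ← toAdditive_unitN] at key
  simpa only [MonoidHom.coe_toAdditive_range, MonoidHom.coe_toAdditive_ker,
    Subgroup.relIndex_toAddSubgroup] using key

end units

end Fermat.Agent.S14.helper86
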