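import Mathlib
import Fermat.Agent.S14.helper86_UnitsHerbrand
import Fermat.Agent.S14.helper86_ClassMaps
import Fermat.Agent.S14.helper86_Counting
import Fermat.Agent.S14.helper56_InvariantIdeal
import Fermat.Agent.S14.helper15_Hilbert90

/-!
# `[ker N : (σ-1) E_L] ≤ |ker (Cl_K → Cl_L)|` (helper86, S14 task 129, first inequality)
-/

open NumberField Module
open scoped nonZeroDivisors Pointwise

set_option linter.unusedSectionVars false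

namespace Fermat.Agent.S14.helper86

variable {K L : Type*} [Field K] [NumberField K] [Field L] [NumberField L] [Algebra K L]
  [IsGalois K L]

theorem smul_mem_of_generator {σ : Gal(L/K)} (hgen : ∀ τ : Gal(L/K), τ ∈ Subgroup.zpowers σ)
    {𝔄 : Ideal (𝓞 L)} (h : σ • 𝔄 = 𝔄) (τ : Gal(L/K)) (x : 𝓞 L) (hx : x ∈ 𝔄) : τ • x ∈ 𝔄 := by
  have hle : Subgroup.zpowers σ ≤ MulAction.stabilizer Gal(L/K) 𝔄 := by
    rw [Subgroup.zpowers_le]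
    exact MulAction.mem_stabilizer_iff.2 h
  have h2 : τ • 𝔄 = 𝔄 := MulAction.mem_stabilizer_iff.1 (hle (hgen τ))
  rw [← h2]
  exact Ideal.smul_mem_pointwise_smul τ x 𝔄 hx

theorem exists_extended_of_smul_eq
    (hunr : ∀ (P : Ideal (𝓞 L)) [P.IsPrime], P ≠ ⊥ → P.ramificationIdx (𝓞 K) = 1)
    {σ : Gal(L/K)} (hgen : ∀ τ : Gal(L/K), τ ∈ Subgroup.zpowers σ)
    {𝔄 : Ideal (𝓞 L)} (h𝔄 : 𝔄 ≠ ⊥) (h : σ • 𝔄 = 𝔄) :
    ∃ 𝔞 : (Ideal (𝓞 K))⁰, (𝔞 : Ideal (𝓞 K)).map (algebraMap (𝓞 K) (𝓞 L)) = 𝔄 := by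
  obtain ⟨𝔞, h𝔞⟩ := Fermat.Agent.S14.helper56.exists_map_eq_of_invariant hunr 𝔄 h𝔄
    (smul_mem_of_generator hgen h)
  refine ⟨⟨𝔞, mem_nonZeroDivisors_iff_ne_zero.2 ?_⟩, h𝔞⟩
  rintro rfl
  exact h𝔄 (by rw [← h𝔞]; exact Ideal.map_bot)

theorem unitAct_val (σ : Gal(L/K)) (u : (𝓞 L)ˣ) :
    ((unitAct σ u : (𝓞 L)ˣ) : 𝓞 L) = σ • (u : 𝓞 L) := rfl

theorem unitN_val (σ : Gal(L/K)) (p : ℕ) (u : (𝓞 L)ˣ) :
    ((unitN σ p u : (𝓞 L)ˣ) : 𝓞 L) = nrmG σ p (u : 𝓞 L) := by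
  rw [unitN_apply, Units.coe_prod]
  rfl

theorem unitD_val_mul (σ : Gal(L/K)) (u : (𝓞 L)ˣ) :
    ((unitD σ u : (𝓞 L)ˣ) : 𝓞 L) * u = σ • (u : 𝓞 L) := by
  rw [unitD_apply, ← Units.val_mul, div_mul_cancel, unitAct_val]

theorem smul_algebraMap' (σ : Gal(L/K)) (a : 𝓞 K) :
    σ • (algebraMap (𝓞 K) (𝓞 L) a) = algebraMap (𝓞 K) (𝓞 L) a := by
  apply RingOfIntegers.ext
  change σ (algebraMap (𝓞 K) (𝓞 L) a : L) = _
  have : ((algebraMap (𝓞 K) (𝓞 L) a : 𝓞 L) : L) = algebraMap K L (a : K) := rfl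
  rw [this, AlgEquiv.commutes]

/-- the relation between a norm-one unit `u` and an ideal class of `K` -/
def H1Rel (σ : Gal(L/K)) (u : (𝓞 L)ˣ) (c : ClassGroup (𝓞 K)) : Prop :=
  ∃ (β : 𝓞 L) (𝔞 : (Ideal (𝓞 K))⁰), β ≠ 0 ∧ σ • β = (u : 𝓞 L) * β ∧
    (𝔞 : Ideal (𝓞 K)).map (algebraMap (𝓞 K) (𝓞 L)) = Ideal.span {β} ∧ ClassGroup.mk0 𝔞 = c

theorem H1Rel.mem_ker {σ : Gal(L/K)} {u : (𝓞 L)ˣ} {c : ClassGroup (𝓞 K)} (h : H1Rel σ u c) :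
    c ∈ (ClassGroup.extendedHom (𝓞 K) (𝓞 L)).ker := by
  obtain ⟨β, 𝔞, hβ, -, h𝔞, rfl⟩ := h
  rw [MonoidHom.mem_ker, ClassGroup.extendedHom_mk0,
    ClassGroup.mk0_eq_one_iff (ClassGroup.extendedIdeal (𝓞 K) (𝓞 L) 𝔞).2]
  exact ⟨⟨β, h𝔞⟩⟩

theorem exists_H1Rel
    (hunr : ∀ (P : Ideal (𝓞 L)) [P.IsPrime], P ≠ ⊥ → P.ramificationIdx (𝓞 K) = 1)
    {σ : Gal(L/K)} (hgen : ∀ τ : Gal(L/K), τ ∈ Subgroup.zpowers σ) {p : ℕ}
    (hdeg : finrank K L = p)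
    (u : (𝓞 L)ˣ) (hu : u ∈ (unitN σ p).ker) : ∃ c, H1Rel σ u c := by
  have h1 : nrmG σ p (u : 𝓞 L) = 1 := by
    rw [← unitN_val, MonoidHom.mem_ker.1 hu]; rfl
  have h2 : ∏ i ∈ Finset.range p, (σ ^ i) • (u : 𝓞 L) =
      ∏ i ∈ Finset.range p, (σ ^ i) • (1 : 𝓞 L) := by
    have := nrmG_one (M := 𝓞 L) σ p
    unfold nrmG at this h1
    rw [h1, this]
  obtain ⟨β, hβ, hβ'⟩ := Fermat.Agent.S14.helper15.hilbert90_int_of_finrank hdeg hgen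
    (u : 𝓞 L) 1 u.ne_zero one_ne_zero h2
  rw [one_mul] at hβ'
  have hinv : σ • (Ideal.span {β} : Ideal (𝓞 L)) = Ideal.span {β} := by
    rw [smul_span_singleton, hβ', Ideal.span_singleton_mul_left_unit u.isUnit]
  have hne : (Ideal.span {β} : Ideal (𝓞 L)) ≠ ⊥ := by
    rwa [Ne, Ideal.span_singleton_eq_bot]
  obtain ⟨𝔞, h𝔞⟩ := exists_extended_of_smul_eq hunr hgen hne hinv
  exact ⟨ClassGroup.mk0 𝔞, β, 𝔞, hβ, hβ', h𝔞, rfl⟩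

theorem H1Rel.inv_mul_mem {σ : Gal(L/K)} {u u' : (𝓞 L)ˣ} {c : ClassGroup (𝓞 K)}
    (h : H1Rel σ u c) (h' : H1Rel σ u' c) : u⁻¹ * u' ∈ (unitD σ).range := by
  obtain ⟨β, 𝔞, hβ, hσβ, h𝔞, hc⟩ := h
  obtain ⟨β', 𝔞', hβ', hσβ', h𝔞', hc'⟩ := h'
  obtain ⟨a, a', ha, ha', haa⟩ := ClassGroup.mk0_eq_mk0_iff.1 (hc.trans hc'.symm)
  have h1 := congrArg (Ideal.map (algebraMap (𝓞 K) (𝓞 L))) haa
  rw [Ideal.map_mul, Ideal.map_mul, Ideal.map_span, Ideal.map_span, Set.image_singleton,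
    Set.image_singleton, h𝔞, h𝔞', Ideal.span_singleton_mul_span_singleton,
    Ideal.span_singleton_mul_span_singleton, Ideal.span_singleton_eq_span_singleton] at h1
  obtain ⟨ε, hε⟩ := h1
  set A := algebraMap (𝓞 K) (𝓞 L) a with hA
  set A' := algebraMap (𝓞 K) (𝓞 L) a' with hA'
  have hA0 : A ≠ 0 := by
    rw [hA, Ne, map_eq_zero_iff _ (FaithfulSMul.algebraMap_injective (𝓞 K) (𝓞 L))]
    exact ha
  -- apply σ to `A * β * ε = A' * β'`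
  have h2 := congrArg (fun z => σ • z) hε
  simp only [smul_mul'] at h2
  rw [hA, hA', smul_algebraMap', smul_algebraMap', ← hA, ← hA', hσβ, hσβ', ← unitAct_val] at h2
  -- `A * (u * β) * σ ε = A' * (u' * β') = u' * (A * β * ε)`
  have h3 : (A * β) * ((u : 𝓞 L) * ((unitAct σ ε : (𝓞 L)ˣ) : 𝓞 L)) =
      (A * β) * ((u' : 𝓞 L) * (ε : 𝓞 L)) := by
    calc (A * β) * ((u : 𝓞 L) * ((unitAct σ ε : (𝓞 L)ˣ) : 𝓞 L))
        = A * (u * β) * ((unitAct σ ε : (𝓞 L)ˣ) : 𝓞 L) := by ring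
      _ = A' * (u' * β') := h2
      _ = u' * (A' * β') := by ring
      _ = u' * (A * β * ε) := by rw [hε]
      _ = (A * β) * ((u' : 𝓞 L) * (ε : 𝓞 L)) := by ring
  have h4 := mul_left_cancel₀ (mul_ne_zero hA0 hβ) h3
  have h5 : u * unitAct σ ε = u' * ε := Units.ext (by simpa using h4)
  refine ⟨ε, ?_⟩
  rw [unitD_apply, div_eq_iff_eq_mul, mul_assoc, ← h5, inv_mul_cancel_left]

/-- `[ker N : (σ-1) E_L] ≤ |ker (Cl_K → Cl_L)|`. -/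
theorem relIndex_le_card_ker_extendedHom
    (hunr : ∀ (P : Ideal (𝓞 L)) [P.IsPrime], P ≠ ⊥ → P.ramificationIdx (𝓞 K) = 1)
    {σ : Gal(L/K)} (hgen : ∀ τ : Gal(L/K), τ ∈ Subgroup.zpowers σ) {p : ℕ}
    (hdeg : finrank K L = p) :
    (unitD σ).range.relIndex (unitN σ p).ker ≤
      Nat.card (ClassGroup.extendedHom (𝓞 K) (𝓞 L)).ker := by
  refine relIndex_le_card_of_rel (X := (ClassGroup.extendedHom (𝓞 K) (𝓞 L)).ker)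
    (unitD σ).range (unitN σ p).ker (fun u c => H1Rel σ u (c : ClassGroup (𝓞 K))) ?_ ?_
  · intro u hu
    obtain ⟨c, hc⟩ := exists_H1Rel hunr hgen hdeg u hu
    exact ⟨⟨c, hc.mem_ker⟩, hc⟩
  · intro u u' c _ _ h h'
    exact h.inv_mul_mem h'

end Fermat.Agent.S14.helper86
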