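import Mathlib
import Fermat.Agent.S14.helper86_UnitsHerbrand
import Fermat.Agent.S14.helper86_ClassMaps
import Fermat.Agent.S14.helper86_Counting
import Fermat.Agent.S14.helper86_H1

/-!
# Ambiguous classes: `|Cl_L^σ| ≤ |range (Cl_K → Cl_L)| * [E_K : N E_L]`
(helper86, S14 task 129, first inequality)
-/

open NumberField Module
open scoped nonZeroDivisors Pointwise

set_option linter.unusedSectionVars false

namespace Fermat.Agent.S14.helper86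

section generic

variable {M G : Type*} [CommMonoid M] [Group G] [MulDistribMulAction G M]

theorem nrmG_smul_comm (σ : G) (p : ℕ) (m : M) : nrmG σ p (σ • m) = σ • nrmG σ p m := by
  unfold nrmG
  rw [Finset.smul_prod']
  refine Finset.prod_congr rfl (fun i _ => ?_)
  rw [← mul_smul, ← mul_smul, ← pow_succ, ← pow_succ']

end generic

variable {K L : Type*} [Field K] [NumberField K] [Field L] [NumberField L] [Algebra K L]
  [IsGalois K L]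

theorem smul_ne_zero_elt (τ : Gal(L/K)) {x : 𝓞 L} (hx : x ≠ 0) : τ • x ≠ 0 := by
  intro h
  apply hx
  have := congrArg (fun z => τ⁻¹ • z) h
  simpa using this

theorem nrmG_ne_zero_elt (σ : Gal(L/K)) (p : ℕ) {x : 𝓞 L} (hx : x ≠ 0) : nrmG σ p x ≠ 0 := by
  unfold nrmG
  rw [Finset.prod_ne_zero_iff]
  exact fun i _ => smul_ne_zero_elt _ hx

theorem cofG_ne_zero_elt (σ : Gal(L/K)) (p : ℕ) {x : 𝓞 L} (hx : x ≠ 0) : cofG σ p x ≠ 0 := by
  unfold cofG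
  rw [Finset.prod_ne_zero_iff]
  exact fun i _ => smul_ne_zero_elt _ hx

theorem smul_ne_bot_ideal (τ : Gal(L/K)) {J : Ideal (𝓞 L)} (hJ : J ≠ ⊥) : τ • J ≠ ⊥ := by
  intro h
  apply hJ
  have := congrArg (fun z => τ⁻¹ • z) h
  simpa using this

theorem nrmG_ne_bot_ideal (σ : Gal(L/K)) (p : ℕ) {J : Ideal (𝓞 L)} (hJ : J ≠ ⊥) :
    nrmG σ p J ≠ ⊥ := by
  unfold nrmG
  rw [← Ideal.zero_eq_bot, Finset.prod_ne_zero_iff]
  exact fun i _ => smul_ne_bot_ideal _ hJ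

theorem cofG_ne_bot_ideal (σ : Gal(L/K)) (p : ℕ) {J : Ideal (𝓞 L)} (hJ : J ≠ ⊥) :
    cofG σ p J ≠ ⊥ := by
  unfold cofG
  rw [← Ideal.zero_eq_bot, Finset.prod_ne_zero_iff]
  exact fun i _ => smul_ne_bot_ideal _ hJ

theorem nrmG_span_singleton (σ : Gal(L/K)) (p : ℕ) (x : 𝓞 L) :
    nrmG σ p (Ideal.span {x} : Ideal (𝓞 L)) = Ideal.span {nrmG σ p x} := by
  unfold nrmG
  simp only [smul_span_singleton]
  exact Ideal.prod_span_singleton _ _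

/-- the relation between an ambiguous class and a unit of `K` (viewed in `L`) -/
def AmbRel (σ : Gal(L/K)) (p : ℕ) (c : ClassGroup (𝓞 L)) (ε : (𝓞 L)ˣ) : Prop :=
  ∃ (J : (Ideal (𝓞 L))⁰) (x y : 𝓞 L), x ≠ 0 ∧ y ≠ 0 ∧ ClassGroup.mk0 J = c ∧
    Ideal.span {x} * σ • (J : Ideal (𝓞 L)) = Ideal.span {y} * (J : Ideal (𝓞 L)) ∧
    nrmG σ p y = (ε : 𝓞 L) * nrmG σ p x

theorem exists_AmbRel {σ : Gal(L/K)} {p : ℕ} (hp : 0 < p) (hσp : σ ^ p = 1)
    (c : ClassGroup (𝓞 L)) (hc : c ∈ (clD σ).ker) :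
    ∃ ε ∈ (unitD σ).ker, AmbRel σ p c ε := by
  obtain ⟨J, rfl⟩ := ClassGroup.mk0_surjective c
  have hJ : (J : Ideal (𝓞 L)) ≠ ⊥ := mem_nonZeroDivisors_iff_ne_zero.1 J.2
  rw [mem_ker_clD, clAct_mk0] at hc
  obtain ⟨x, y, hx, hy, hxy⟩ := ClassGroup.mk0_eq_mk0_iff.1 hc
  rw [actIdeal0_coe] at hxy
  -- take norms
  have h1 := congrArg (nrmG σ p) hxy
  rw [nrmG_mul, nrmG_mul, nrmG_smul_comm, smul_nrmG hp hσp, nrmG_span_singleton,
    nrmG_span_singleton] at h1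
  have h2 := mul_right_cancel₀ (nrmG_ne_bot_ideal σ p hJ) h1
  rw [Ideal.span_singleton_eq_span_singleton] at h2
  obtain ⟨ε, hε⟩ := h2
  refine ⟨ε, ?_, J, x, y, hx, hy, rfl, hxy, by rw [← hε, mul_comm]⟩
  -- `ε` is fixed by `σ`
  have h3 := congrArg (fun z => σ • z) hε
  simp only [smul_mul', smul_nrmG hp hσp] at h3
  rw [← hε] at h3
  have h4 := mul_left_cancel₀ (nrmG_ne_zero_elt σ p hx) h3
  rw [MonoidHom.mem_ker, unitD_apply, div_eq_one]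
  exact Units.ext h4

theorem mk0_mem_range_of_smul_eq
    (hunr : ∀ (P : Ideal (𝓞 L)) [P.IsPrime], P ≠ ⊥ → P.ramificationIdx (𝓞 K) = 1)
    {σ : Gal(L/K)} (hgen : ∀ τ : Gal(L/K), τ ∈ Subgroup.zpowers σ)
    (I : (Ideal (𝓞 L))⁰) (h : σ • (I : Ideal (𝓞 L)) = I) :
    ClassGroup.mk0 I ∈ (ClassGroup.extendedHom (𝓞 K) (𝓞 L)).range := by
  obtain ⟨𝔞, h𝔞⟩ := exists_extended_of_smul_eq hunr hgen
    (mem_nonZeroDivisors_iff_ne_zero.1 I.2) h
  refine ⟨ClassGroup.mk0 𝔞, ?_⟩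
  rw [ClassGroup.extendedHom_mk0]
  congr 1
  exact Subtype.ext h𝔞

theorem AmbRel.mul_inv_mem_range
    (hunr : ∀ (P : Ideal (𝓞 L)) [P.IsPrime], P ≠ ⊥ → P.ramificationIdx (𝓞 K) = 1)
    {σ : Gal(L/K)} (hgen : ∀ τ : Gal(L/K), τ ∈ Subgroup.zpowers σ) {p : ℕ} (hp : 0 < p)
    (hσp : σ ^ p = 1) (hdeg : finrank K L = p) {c c' : ClassGroup (𝓞 L)} {ε ε' : (𝓞 L)ˣ}
    (h : AmbRel σ p c ε) (h' : AmbRel σ p c' ε') (hε : ε⁻¹ * ε' ∈ (unitN σ p).range) :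
    c * c'⁻¹ ∈ (ClassGroup.extendedHom (𝓞 K) (𝓞 L)).range := by
  obtain ⟨J, x, y, hx, hy, rfl, hxy, hN⟩ := h
  obtain ⟨J', x', y', hx', hy', rfl, hxy', hN'⟩ := h'
  obtain ⟨η, hη⟩ := hε
  have hJ : (J : Ideal (𝓞 L)) ≠ ⊥ := mem_nonZeroDivisors_iff_ne_zero.1 J.2
  have hJ' : (J' : Ideal (𝓞 L)) ≠ ⊥ := mem_nonZeroDivisors_iff_ne_zero.1 J'.2
  -- Hilbert 90
  have hη' : (ε' : 𝓞 L) = ε * nrmG σ p (η : 𝓞 L) := by
    rw [← unitN_val, hη, ← Units.val_mul, mul_inv_cancel_left]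
  have hnorm : ∏ i ∈ Finset.range p, (σ ^ i) • (y' * x) =
      ∏ i ∈ Finset.range p, (σ ^ i) • (x' * y * η) := by
    change nrmG σ p (y' * x) = nrmG σ p (x' * y * η)
    rw [nrmG_mul, nrmG_mul, nrmG_mul, hN, hN', hη']
    ring
  obtain ⟨δ, hδ, hδ'⟩ := Fermat.Agent.S14.helper15.hilbert90_int_of_finrank hdeg hgen
    (y' * x) (x' * y * η)
    (mul_ne_zero hy' hx) (mul_ne_zero (mul_ne_zero hx' hy) η.ne_zero) hnorm
  -- the invariant ideal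
  set Jc : Ideal (𝓞 L) := cofG σ p (J : Ideal (𝓞 L)) with hJc
  set δc : 𝓞 L := cofG σ p δ with hδc
  have hJc0 : Jc ≠ ⊥ := cofG_ne_bot_ideal σ p hJ
  have hδc0 : δc ≠ 0 := cofG_ne_zero_elt σ p hδ
  have e1 : σ • (J : Ideal (𝓞 L)) * σ • Jc = J * Jc := by
    rw [← smul_mul', ← nrmG_eq_mul_cofG σ hp, smul_nrmG hp hσp]
  have e2 : σ • δ * σ • δc = δ * δc := by
    rw [← smul_mul', ← nrmG_eq_mul_cofG σ hp, smul_nrmG hp hσp]
  set 𝔇 : Ideal (𝓞 L) := J' * Jc * Ideal.span {δc} with h𝔇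
  have h𝔇0 : 𝔇 ≠ ⊥ := by
    rw [h𝔇, ← Ideal.zero_eq_bot]
    refine mul_ne_zero (mul_ne_zero hJ' hJc0) ?_
    rwa [Ideal.zero_eq_bot, Ne, Ideal.span_singleton_eq_bot]
  have hηspan : (Ideal.span {x' * y * (η : 𝓞 L) * σ • δ} : Ideal (𝓞 L)) =
      Ideal.span {x'} * Ideal.span {y} * Ideal.span {σ • δ} := by
    rw [Ideal.span_singleton_mul_span_singleton, Ideal.span_singleton_mul_span_singleton,
      show x' * y * (η : 𝓞 L) * σ • δ = (η : 𝓞 L) * (x' * y * σ • δ) by ring,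
      Ideal.span_singleton_mul_left_unit η.isUnit]
  have hinv : σ • 𝔇 = 𝔇 := by
    have hT : (Ideal.span {x'} * Ideal.span {y} * Ideal.span {σ • δ} * (J : Ideal (𝓞 L)) :
        Ideal (𝓞 L)) ≠ 0 := by
      refine mul_ne_zero (mul_ne_zero (mul_ne_zero ?_ ?_) ?_) hJ
      · rwa [Ideal.zero_eq_bot, Ne, Ideal.span_singleton_eq_bot]
      · rwa [Ideal.zero_eq_bot, Ne, Ideal.span_singleton_eq_bot]
      · rw [Ideal.zero_eq_bot, Ne, Ideal.span_singleton_eq_bot]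
        exact smul_ne_zero_elt σ hδ
    apply mul_left_cancel₀ hT
    calc Ideal.span {x'} * Ideal.span {y} * Ideal.span {σ • δ} * (J : Ideal (𝓞 L)) * σ • 𝔇
        = (Ideal.span {x'} * σ • (J' : Ideal (𝓞 L))) * (Ideal.span {y} * (J : Ideal (𝓞 L))) *
            σ • Jc * (Ideal.span {σ • δ * σ • δc}) := by
          rw [h𝔇, smul_mul', smul_mul', smul_span_singleton,
            ← Ideal.span_singleton_mul_span_singleton]
          ring
      _ = (Ideal.span {y'} * (J' : Ideal (𝓞 L))) * (Ideal.span {x} * σ • (J : Ideal (𝓞 L))) *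
            σ • Jc * (Ideal.span {δ * δc}) := by
          rw [hxy', hxy, e2]
      _ = Ideal.span {y'} * (J' : Ideal (𝓞 L)) * Ideal.span {x} *
            (σ • (J : Ideal (𝓞 L)) * σ • Jc) * (Ideal.span {δ} * Ideal.span {δc}) := by
          rw [← Ideal.span_singleton_mul_span_singleton]
          ring
      _ = Ideal.span {y' * x * δ} * (J : Ideal (𝓞 L)) * 𝔇 := by
          rw [e1, h𝔇, ← Ideal.span_singleton_mul_span_singleton,
            ← Ideal.span_singleton_mul_span_singleton]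
          ring
      _ = Ideal.span {x'} * Ideal.span {y} * Ideal.span {σ • δ} * (J : Ideal (𝓞 L)) * 𝔇 := by
          rw [← hδ', hηspan]
  -- classes
  let Jc0 : (Ideal (𝓞 L))⁰ := ⟨Jc, mem_nonZeroDivisors_iff_ne_zero.2 hJc0⟩
  let S0 : (Ideal (𝓞 L))⁰ := ⟨Ideal.span {δc}, mem_nonZeroDivisors_iff_ne_zero.2
    (by rw [Ideal.zero_eq_bot, Ne, Ideal.span_singleton_eq_bot]; exact hδc0)⟩
  have hS0 : ClassGroup.mk0 S0 = 1 := by
    rw [ClassGroup.mk0_eq_one_iff S0.2]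
    exact ⟨⟨δc, rfl⟩⟩
  have m1 : ClassGroup.mk0 (J' * Jc0 * S0) ∈ (ClassGroup.extendedHom (𝓞 K) (𝓞 L)).range :=
    mk0_mem_range_of_smul_eq hunr hgen _ hinv
  have m2 : ClassGroup.mk0 (J * Jc0) ∈ (ClassGroup.extendedHom (𝓞 K) (𝓞 L)).range := by
    refine mk0_mem_range_of_smul_eq hunr hgen _ ?_
    change σ • ((J : Ideal (𝓞 L)) * Jc) = (J : Ideal (𝓞 L)) * Jc
    rw [smul_mul', e1]
  rw [map_mul, map_mul, hS0, mul_one] at m1
  rw [map_mul] at m2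
  have := Subgroup.mul_mem _ m2 (Subgroup.inv_mem _ m1)
  rwa [mul_inv, mul_mul_mul_comm, mul_inv_cancel, mul_one] at this

/-- `|Cl_L^σ| ≤ [E_K : N E_L] * |range (Cl_K → Cl_L)|`. -/
theorem card_ker_clD_le
    (hunr : ∀ (P : Ideal (𝓞 L)) [P.IsPrime], P ≠ ⊥ → P.ramificationIdx (𝓞 K) = 1)
    {σ : Gal(L/K)} (hgen : ∀ τ : Gal(L/K), τ ∈ Subgroup.zpowers σ) {p : ℕ} (hp : 0 < p)
    (hσp : σ ^ p = 1) (hdeg : finrank K L = p)
    (hfin : (unitN σ p).range.relIndex (unitD σ).ker ≠ 0) :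
    Nat.card (clD σ).ker ≤ (unitN σ p).range.relIndex (unitD σ).ker *
      Nat.card (ClassGroup.extendedHom (𝓞 K) (𝓞 L)).range := by
  refine card_le_relIndex_mul_card (clD σ).ker (ClassGroup.extendedHom (𝓞 K) (𝓞 L)).range
    (unitN σ p).range (unitD σ).ker hfin (fun c ε => AmbRel σ p c ε) ?_ ?_
  · intro c hc
    exact exists_AmbRel hp hσp c hc
  · intro c c' ε ε' _ _ _ _ h h' hε
    exact h.mul_inv_mem_range hunr hgen hp hσp hdeg h' hε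

end Fermat.Agent.S14.helper86
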