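import Mathlib
import Fermat.Agent.S14.helper86_UnitsHerbrand
import Fermat.Agent.S14.helper86_ClassMaps
import Fermat.Agent.S14.helper86_H1
import Fermat.Agent.S14.helper86_Amb

/-!
# The first inequality for unramified cyclic extensions of odd prime degree
(helper86, S14 task 129)

For a Galois extension `L/K` of number fields of odd prime degree `p`, unramified at all finite
primes, the norm map `Cl_L → Cl_K` is not surjective; more precisely
`p * |N(Cl_L)| ≤ |Cl_K|`.
-/

open NumberField Module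
open scoped nonZeroDivisors Pointwise

set_option linter.unusedSectionVars false

namespace Fermat.Agent.S14.helper86

variable (K L : Type*) [Field K] [NumberField K] [Field L] [NumberField L] [Algebra K L]
  [IsGalois K L]

/-- **First inequality**, counting form: `p * |N(Cl_L)| ≤ h_K`. -/
theorem mul_card_range_clNorm_le {p : ℕ} (hp : p.Prime) (hp2 : p ≠ 2)
    (hdeg : finrank K L = p)
    (hunr : ∀ (P : Ideal (𝓞 L)) [P.IsPrime], P ≠ ⊥ → P.ramificationIdx (𝓞 K) = 1) :
    p * Nat.card (clNorm K L).range ≤ Nat.card (ClassGroup (𝓞 K)) := by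
  have hcard : Nat.card Gal(L/K) = p := by rw [IsGalois.card_aut_eq_finrank, hdeg]
  have : Fact p.Prime := ⟨hp⟩
  -- a generator
  obtain ⟨σ, hσ⟩ : ∃ σ : Gal(L/K), σ ≠ 1 := by
    by_contra hcon
    have hcon' : ∀ τ : Gal(L/K), τ = 1 := fun τ => by_contra (fun h => hcon ⟨τ, h⟩)
    have : Subsingleton Gal(L/K) := ⟨fun a b => (hcon' a).trans (hcon' b).symm⟩
    have h1 : Nat.card Gal(L/K) = 1 := Nat.card_unique
    rw [hcard] at h1
    exact hp.one_lt.ne' h1
  have hgen : ∀ τ : Gal(L/K), τ ∈ Subgroup.zpowers σ := fun τ =>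
    mem_zpowers_of_prime_card hcard hσ
  have hσp : σ ^ p = 1 := by rw [← hcard]; exact pow_card_eq_one'
  obtain ⟨hfin, -, hherb⟩ := units_herbrand hp hp2 hdeg hσ
  have h1 := card_range_clNorm_le (K := K) (L := L) σ
  have h2 := card_ker_clD_le hunr hgen hp.pos hσp hdeg hfin
  have h3 := relIndex_le_card_ker_extendedHom hunr hgen hdeg
  have h4 : Nat.card (ClassGroup.extendedHom (𝓞 K) (𝓞 L)).ker *
      Nat.card (ClassGroup.extendedHom (𝓞 K) (𝓞 L)).range = Nat.card (ClassGroup (𝓞 K)) := by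
    rw [← Subgroup.index_ker]; exact Subgroup.card_mul_index _
  calc p * Nat.card (clNorm K L).range
      ≤ p * Nat.card (clD σ).ker := Nat.mul_le_mul_left _ h1
    _ ≤ p * ((unitN σ p).range.relIndex (unitD σ).ker *
          Nat.card (ClassGroup.extendedHom (𝓞 K) (𝓞 L)).range) := Nat.mul_le_mul_left _ h2
    _ = (p * (unitN σ p).range.relIndex (unitD σ).ker) *
          Nat.card (ClassGroup.extendedHom (𝓞 K) (𝓞 L)).range := by ring
    _ ≤ (unitD σ).range.relIndex (unitN σ p).ker *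
          Nat.card (ClassGroup.extendedHom (𝓞 K) (𝓞 L)).range := Nat.mul_le_mul_right _ hherb
    _ ≤ Nat.card (ClassGroup.extendedHom (𝓞 K) (𝓞 L)).ker *
          Nat.card (ClassGroup.extendedHom (𝓞 K) (𝓞 L)).range := Nat.mul_le_mul_right _ h3
    _ = Nat.card (ClassGroup (𝓞 K)) := h4

/-- **First inequality**, index form: `p ≤ [Cl_K : N(Cl_L)]`. -/
theorem le_index_range_clNorm {p : ℕ} (hp : p.Prime) (hp2 : p ≠ 2)
    (hdeg : finrank K L = p)
    (hunr : ∀ (P : Ideal (𝓞 L)) [P.IsPrime], P ≠ ⊥ → P.ramificationIdx (𝓞 K) = 1) :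
    p ≤ (clNorm K L).range.index := by
  have h := mul_card_range_clNorm_le K L hp hp2 hdeg hunr
  rw [← Subgroup.card_mul_index (clNorm K L).range, mul_comm] at h
  exact Nat.le_of_mul_le_mul_left h Nat.card_pos

/-- The norm map on class groups is not surjective. -/
theorem range_clNorm_ne_top {p : ℕ} (hp : p.Prime) (hp2 : p ≠ 2)
    (hdeg : finrank K L = p)
    (hunr : ∀ (P : Ideal (𝓞 L)) [P.IsPrime], P ≠ ⊥ → P.ramificationIdx (𝓞 K) = 1) :
    (clNorm K L).range ≠ ⊤ := by
  intro h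
  have h1 := le_index_range_clNorm K L hp hp2 hdeg hunr
  rw [h, Subgroup.index_top] at h1
  exact absurd h1 (not_le.2 hp.one_lt)

/-- **First inequality** (findings #201 shape): some ideal class of `K` is not the class of a
relative norm of an ideal of `L`. -/
theorem exists_class_not_norm (p : ℕ) (hp : p.Prime) (hp2 : p ≠ 2)
    (hdeg : Module.finrank K L = p)
    (hunr : ∀ (P : Ideal (𝓞 L)) [P.IsPrime], P ≠ ⊥ → Ideal.ramificationIdx P (𝓞 K) = 1) :
    ∃ I : (Ideal (𝓞 K))⁰, ∀ J : (Ideal (𝓞 L))⁰,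
      ∀ hJ : Ideal.relNorm (𝓞 K) (J : Ideal (𝓞 L)) ∈ (Ideal (𝓞 K))⁰,
      ClassGroup.mk0 I ≠ ClassGroup.mk0 ⟨Ideal.relNorm (𝓞 K) (J : Ideal (𝓞 L)), hJ⟩ := by
  have h := range_clNorm_ne_top K L hp hp2 hdeg hunr
  obtain ⟨c, hc⟩ : ∃ c, c ∉ (clNorm K L).range := by
    by_contra hcon
    have hcon' : ∀ c, c ∈ (clNorm K L).range := fun c => by_contra (fun h => hcon ⟨c, h⟩)
    exact h (Subgroup.eq_top_iff' _ |>.2 hcon')
  obtain ⟨I, rfl⟩ := ClassGroup.mk0_surjective c
  refine ⟨I, fun J hJ hIJ => hc ⟨ClassGroup.mk0 J, ?_⟩⟩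
  rw [clNorm_mk0, hIJ]
  rfl

end Fermat.Agent.S14.helper86
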