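import Mathlib
import Fermat.Agent.S14.Defs
import Fermat.Agent.S14.helper90_Unramified
import Fermat.Agent.S14.helper86_FirstInequality

/-!
# The first inequality in the shapes of `Fermat.Agent.S14.Defs` (helper86, S14 task 129)
-/

open NumberField Module
open scoped nonZeroDivisors

set_option linter.unusedSectionVars false

namespace Fermat.Agent.S14.helper86

variable (K L : Type*) [Field K] [NumberField K] [Field L] [NumberField L] [Algebra K L]
  [IsGalois K L]

/-- `normClasses K L` (Defs) is the image of the norm map on class groups. -/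
theorem normClasses_eq_range_clNorm :
    Fermat.Agent.S14.normClasses K L = (clNorm K L).range := by
  apply le_antisymm
  · rw [Fermat.Agent.S14.normClasses, Subgroup.closure_le]
    rintro c ⟨𝔄, 𝔞, h𝔞, rfl⟩
    refine ⟨ClassGroup.mk0 𝔄, ?_⟩
    rw [clNorm_mk0]
    congr 1
    exact Subtype.ext h𝔞.symm
  · rintro _ ⟨c, rfl⟩
    obtain ⟨J, rfl⟩ := ClassGroup.mk0_surjective c
    rw [clNorm_mk0]
    exact Subgroup.subset_closure ⟨J, relNorm0 K L J, rfl, rfl⟩

/-- **First inequality** with `IsUnramifiedEverywhere`: `p * |N(Cl_L)| ≤ h_K`. -/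
theorem mul_card_normClasses_le {p : ℕ} (hp : p.Prime) (hp2 : p ≠ 2)
    (hdeg : finrank K L = p) (hunr : Fermat.Agent.S14.IsUnramifiedEverywhere K L) :
    p * Nat.card (Fermat.Agent.S14.normClasses K L) ≤ Nat.card (ClassGroup (𝓞 K)) := by
  rw [normClasses_eq_range_clNorm]
  exact mul_card_range_clNorm_le K L hp hp2 hdeg
    (fun P _ hP => Fermat.Agent.S14.helper90.ramificationIdx_eq_one_of_isUnramifiedEverywhere
      hunr P hP)

/-- **First inequality** with `IsUnramifiedEverywhere`: `p ≤ [Cl_K : normClasses]`. -/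
theorem le_index_normClasses {p : ℕ} (hp : p.Prime) (hp2 : p ≠ 2)
    (hdeg : finrank K L = p) (hunr : Fermat.Agent.S14.IsUnramifiedEverywhere K L) :
    p ≤ (Fermat.Agent.S14.normClasses K L).index := by
  rw [normClasses_eq_range_clNorm]
  exact le_index_range_clNorm K L hp hp2 hdeg
    (fun P _ hP => Fermat.Agent.S14.helper90.ramificationIdx_eq_one_of_isUnramifiedEverywhere
      hunr P hP)

/-- **First inequality** with `IsUnramifiedEverywhere`: `normClasses K L ≠ ⊤`. -/
theorem normClasses_ne_top {p : ℕ} (hp : p.Prime) (hp2 : p ≠ 2)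
    (hdeg : finrank K L = p) (hunr : Fermat.Agent.S14.IsUnramifiedEverywhere K L) :
    Fermat.Agent.S14.normClasses K L ≠ ⊤ := by
  rw [normClasses_eq_range_clNorm]
  exact range_clNorm_ne_top K L hp hp2 hdeg
    (fun P _ hP => Fermat.Agent.S14.helper90.ramificationIdx_eq_one_of_isUnramifiedEverywhere
      hunr P hP)

/-- **First inequality** with `IsUnramifiedEverywhere`: some ideal class of `K` is not the
class of a relative norm. -/
theorem exists_class_not_norm' (p : ℕ) (hp : p.Prime) (hp2 : p ≠ 2)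
    (hdeg : Module.finrank K L = p) (hunr : Fermat.Agent.S14.IsUnramifiedEverywhere K L) :
    ∃ I : (Ideal (𝓞 K))⁰, ∀ J : (Ideal (𝓞 L))⁰,
      ∀ hJ : Ideal.relNorm (𝓞 K) (J : Ideal (𝓞 L)) ∈ (Ideal (𝓞 K))⁰,
      ClassGroup.mk0 I ≠ ClassGroup.mk0 ⟨Ideal.relNorm (𝓞 K) (J : Ideal (𝓞 L)), hJ⟩ :=
  exists_class_not_norm K L p hp hp2 hdeg
    (fun P _ hP => Fermat.Agent.S14.helper90.ramificationIdx_eq_one_of_isUnramifiedEverywhere
      hunr P hP)

/-- A subgroup of `Cl_K` containing all norm classes and of index prime to... : if a subgroup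
`H` contains `normClasses K L` and has index `≤ p`, then `H = normClasses K L`. -/
theorem eq_normClasses_of_index_le {p : ℕ} (hp : p.Prime) (hp2 : p ≠ 2)
    (hdeg : finrank K L = p) (hunr : Fermat.Agent.S14.IsUnramifiedEverywhere K L)
    (H : Subgroup (ClassGroup (𝓞 K))) (hH : H ≤ Fermat.Agent.S14.normClasses K L)
    (hidx : H.index ≤ p) : H = Fermat.Agent.S14.normClasses K L := by
  have h1 := le_index_normClasses K L hp hp2 hdeg hunr
  have h2 : (Fermat.Agent.S14.normClasses K L).index ∣ H.index := Subgroup.index_dvd_of_le hH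
  have h3 : H.index ≠ 0 := Subgroup.index_ne_zero_of_finite
  have h4 : (Fermat.Agent.S14.normClasses K L).index = H.index :=
    le_antisymm (Nat.le_of_dvd (Nat.pos_of_ne_zero h3) h2) (hidx.trans h1)
  have h5 := Subgroup.relIndex_mul_index hH
  rw [h4] at h5
  have h6 : H.relIndex (Fermat.Agent.S14.normClasses K L) = 1 := by
    have := Nat.eq_of_mul_eq_mul_right (Nat.pos_of_ne_zero h3) (h5.trans (one_mul _).symm)
    exact this
  exact le_antisymm hH (Subgroup.relIndex_eq_one.1 h6)

end Fermat.Agent.S14.helper86
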