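import Mathlib
import Fermat.Agent.S14.helper99_ThaineField

set_option autoImplicit false
set_option linter.unusedSectionVars false
set_option linter.style.haveILetI false

/-!
# S14, route R2, Thaine relation (helper99): local analysis at the primes above `ℓ`

* `exists_ringHom_of_root`, `ringHom_ext_of_gen` : ring homs out of `𝓞 F`, `F` cyclotomic over `ℚ`;
* `tame_symbol` : abstract tame symbol computation in a Dedekind domain;
* `exists_local_hom` : for `ψ : 𝓞 K →+* ZMod ℓ` a ring hom `Ψ : 𝓞 F →+* ZMod ℓ` extending `ψ`, with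
  `Ψ ζ_ℓ = 1`, Galois invariant, and `1 - ζ_ℓ ∉ (ker Ψ)²` (via dual numbers);
* `thaine_local` : if `(1 - ζ^b ζ_ℓ) * s β = β` then `ψ (1 - ζ^b) * g ^ ord_Λ(β) = 1`.
-/

namespace Fermat.Agent.S14.helper99

open NumberField Polynomial IsCyclotomicExtension

section lift

variable {n : ℕ} [NeZero n] {F : Type*} [Field F] [NumberField F]
  [IsCyclotomicExtension {n} ℚ F] {μ : F} (hμ : IsPrimitiveRoot μ n)

lemma minpoly_integralPowerBasis_gen :
    minpoly ℤ hμ.integralPowerBasis.gen = cyclotomic n ℤ := by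
  rw [IsPrimitiveRoot.integralPowerBasis_gen, cyclotomic_eq_minpoly hμ (NeZero.pos n)]
  have := minpoly.algebraMap_eq (A := ℤ) (B := 𝓞 F) (B' := F)
    (RingOfIntegers.coe_injective) hμ.toInteger
  rw [← this]
  rfl

/-- ring homomorphisms out of the ring of integers of a cyclotomic field -/
lemma exists_ringHom_of_root {R : Type*} [CommRing R] (y : R)
    (hy : (cyclotomic n R).eval y = 0) : ∃ Φ : 𝓞 F →+* R, Φ hμ.toInteger = y := by
  have h : aeval y (minpoly ℤ hμ.integralPowerBasis.gen) = 0 := by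
    rw [minpoly_integralPowerBasis_gen, aeval_def, eval₂_eq_eval_map, map_cyclotomic, hy]
  refine ⟨(hμ.integralPowerBasis.lift y h).toRingHom, ?_⟩
  have := hμ.integralPowerBasis.lift_gen y h
  rw [IsPrimitiveRoot.integralPowerBasis_gen] at this
  exact this

lemma ringHom_ext_of_gen {R : Type*} [CommRing R] (Φ₁ Φ₂ : 𝓞 F →+* R)
    (h : Φ₁ hμ.toInteger = Φ₂ hμ.toInteger) : Φ₁ = Φ₂ := by
  have : Φ₁.toIntAlgHom = Φ₂.toIntAlgHom := by
    apply hμ.integralPowerBasis.algHom_ext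
    rw [IsPrimitiveRoot.integralPowerBasis_gen]
    exact h
  ext x
  exact congrArg (fun f : 𝓞 F →ₐ[ℤ] R => f x) this

end lift

section tame

open IsDedekindDomain WithZero


variable {A : Type*} [CommRing A] [IsDedekindDomain A] {k : Type*} [Field k]

/-- an element of `P \ P²` has valuation `exp (-1)` -/
lemma intValuation_eq_exp_neg_one (v : HeightOneSpectrum A) {π : A} (h1 : π ∈ v.asIdeal)
    (h2 : π ∉ v.asIdeal ^ 2) : v.intValuation π = exp (-1 : ℤ) := by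
  have hπ0 : π ≠ 0 := fun h => h2 (h ▸ Ideal.zero_mem _)
  have hle : v.intValuation π ≤ exp (-((1 : ℕ) : ℤ)) := by
    rw [HeightOneSpectrum.intValuation_le_pow_iff_mem, pow_one]; exact h1
  have hnle : ¬ v.intValuation π ≤ exp (-((2 : ℕ) : ℤ)) := by
    rw [HeightOneSpectrum.intValuation_le_pow_iff_mem]; exact h2
  rw [v.intValuation_if_neg hπ0] at hle hnle ⊢
  rw [exp_le_exp] at hle hnle
  rw [exp_inj]
  push_cast at hle hnle ⊢
  omega

/-- the **tame symbol** computation: if `ε * s β = β`, `s` acts trivially on the residue field of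
`v` and `s π = π * w` for a uniformizer `π`, then `ε ≡ w ^ (-ord_v β)` modulo `v`. -/
theorem tame_symbol (v : HeightOneSpectrum A) (Ψ : A →+* k) (hΨ : RingHom.ker Ψ = v.asIdeal)
    (s : A →+* A) (hs : ∀ x, Ψ (s x) = Ψ x) (π w : A) (hπ : v.intValuation π = exp (-1 : ℤ))
    (hsπ : s π = π * w) (β ε : A) (hε : ε * s β = β) (n : ℕ)
    (hn : v.intValuation β = exp (-(n : ℤ))) :
    Ψ ε * Ψ w ^ n = 1 := by
  have hP : v.asIdeal ≠ ⊥ := v.ne_bot
  haveI := v.isPrime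
  have hβn : β ∈ v.asIdeal ^ n := by rw [← HeightOneSpectrum.intValuation_le_pow_iff_mem, hn]
  have hβn1 : β ∉ v.asIdeal ^ (n + 1) := by
    rw [← HeightOneSpectrum.intValuation_le_pow_iff_mem, hn, exp_le_exp]; push_cast; omega
  have hπn : v.intValuation (π ^ n) = exp (-(n : ℤ)) := by
    rw [map_pow, hπ, ← exp_nsmul]; simp
  have hπn_mem : π ^ n ∈ v.asIdeal ^ n := by rw [← HeightOneSpectrum.intValuation_le_pow_iff_mem, hπn]
  have hπn1 : π ^ n ∉ v.asIdeal ^ (n + 1) := by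
    rw [← HeightOneSpectrum.intValuation_le_pow_iff_mem, hπn, exp_le_exp]; push_cast; omega
  obtain ⟨d, e, he, hde⟩ := Ideal.exists_mul_add_mem_pow_succ hP (π ^ n) β hπn_mem hπn1 hβn
  -- `s` preserves `P ^ (n + 1)`
  have hsP : ∀ x ∈ v.asIdeal, s x ∈ v.asIdeal := by
    intro x hx
    rw [← hΨ, RingHom.mem_ker] at hx ⊢
    rw [hs, hx]
  have hse : s e ∈ v.asIdeal ^ (n + 1) := by
    have h1 : Ideal.map s (v.asIdeal ^ (n + 1)) ≤ v.asIdeal ^ (n + 1) := by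
      rw [Ideal.map_pow]
      apply Ideal.pow_right_mono
      rw [Ideal.map_le_iff_le_comap]
      exact fun x hx => hsP x hx
    exact h1 (Ideal.mem_map_of_mem s he)
  have hsβ : s β = π ^ n * (w ^ n * s d) + s e := by
    rw [← hde, map_add, map_mul, map_pow, hsπ]; ring
  have hkey : π ^ n * (d - ε * (w ^ n * s d)) ∈ v.asIdeal ^ (n + 1) := by
    have : π ^ n * (d - ε * (w ^ n * s d)) = ε * s e - e := by
      have h1 : π ^ n * d + e = ε * (π ^ n * (w ^ n * s d) + s e) := by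
        rw [← hsβ, hε, hde]
      linear_combination h1
    rw [this]
    exact Ideal.sub_mem _ (Ideal.mul_mem_left _ _ hse) he
  have hmem : d - ε * (w ^ n * s d) ∈ v.asIdeal := Ideal.mem_prime_of_mul_mem_pow hP hπn1 hkey
  rw [← hΨ, RingHom.mem_ker, map_sub, map_mul, map_mul, map_pow, hs] at hmem
  have hd : Ψ d ≠ 0 := by
    intro hd0
    apply hβn1
    rw [← hde]
    refine Ideal.add_mem _ ?_ he
    rw [pow_succ]
    exact Ideal.mul_mem_mul hπn_mem (by rw [← hΨ, RingHom.mem_ker]; exact hd0)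
  have : Ψ d * (1 - Ψ ε * Ψ w ^ n) = 0 := by linear_combination hmem
  rcases mul_eq_zero.mp this with h | h
  · exact absurd h hd
  · exact (sub_eq_zero.mp h).symm

end tame

section local_data

variable {p ℓ : ℕ} [hp : Fact p.Prime] [hℓ : Fact ℓ.Prime] {K : Type} [Field K] [NumberField K]
  [hK : IsCyclotomicExtension {p} ℚ K]

lemma prime_ne_of_mod (hℓ1 : ℓ % p = 1) : p ≠ ℓ := by
  rintro rfl
  simp at hℓ1

lemma three_le_of_mod (hℓ1 : ℓ % p = 1) : 3 ≤ ℓ := by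
  have h2 := hp.out.two_le
  have h3 := hℓ.out.two_le
  rcases Nat.lt_or_ge ℓ 3 with h | h
  · have : ℓ = 2 := by omega
    subst this
    have hp2 : p ≤ 2 ∨ 2 < p := le_or_gt p 2
    rcases hp2 with hp2 | hp2
    · have : p = 2 := by omega
      subst this
      simp at hℓ1
    · rw [Nat.mod_eq_of_lt hp2] at hℓ1
      omega
  · exact h

lemma natCast_ne_zero_zmod (hpl : p ≠ ℓ) : ((p : ℕ) : ZMod ℓ) ≠ 0 := by
  intro h
  rw [ZMod.natCast_eq_zero_iff] at h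
  exact hpl ((Nat.prime_dvd_prime_iff_eq hℓ.out hp.out).mp h).symm

/-- `ψ ζ` is a primitive `p`-th root of unity in `ZMod ℓ`. -/
lemma isPrimitiveRoot_map_zmod (hpl : p ≠ ℓ) {ζ : 𝓞 K} (hζ : IsPrimitiveRoot ζ p)
    (ψ : 𝓞 K →+* ZMod ℓ) : IsPrimitiveRoot (ψ ζ) p := by
  haveI : NeZero ((p : ℕ) : ZMod ℓ) := ⟨natCast_ne_zero_zmod hpl⟩
  rw [← Polynomial.isRoot_cyclotomic_iff]
  have h := hζ.isRoot_cyclotomic hp.out.pos
  rw [IsRoot.def] at h ⊢
  have h2 := congrArg ψ h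
  rw [map_zero, ← Polynomial.eval₂_hom, Polynomial.eval₂_eq_eval_map, map_cyclotomic] at h2
  exact h2

end local_data

end Fermat.Agent.S14.helper99

namespace Fermat.Agent.S14.helper99

open NumberField Polynomial IsCyclotomicExtension

section local_hom

variable {p ℓ : ℕ} [hp : Fact p.Prime] [hℓ : Fact ℓ.Prime] {K : Type} [Field K] [NumberField K]
  [hK : IsCyclotomicExtension {p} ℚ K]
  {F : Type} [Field F] [NumberField F] [Algebra K F] [hF : IsCyclotomicExtension {ℓ} K F]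

/-- the primitive `ℓ`-th root of unity of `F = K(ζ_ℓ)` as an algebraic integer -/
noncomputable def xiInt (ℓ : ℕ) [hℓ : Fact ℓ.Prime] (K F : Type) [Field K] [Field F]
    [NumberField F] [Algebra K F] [IsCyclotomicExtension {ℓ} K F] : 𝓞 F :=
  haveI : NeZero ℓ := ⟨hℓ.out.ne_zero⟩
  (zeta_spec ℓ K F).toInteger

lemma coe_xiInt : ((xiInt ℓ K F : 𝓞 F) : F) = zeta ℓ K F := rfl

lemma xiInt_isPrimitiveRoot : IsPrimitiveRoot (xiInt ℓ K F) ℓ := by
  haveI : NeZero ℓ := ⟨hℓ.out.ne_zero⟩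
  exact (zeta_spec ℓ K F).toInteger_isPrimitiveRoot

lemma pow_eq_self_of_mod {M : Type*} [Monoid M] {x : M} {a b : ℕ} (hx : x ^ a = 1)
    (hb : b % a = 1) : x ^ b = x := by
  conv_lhs => rw [← Nat.div_add_mod b a, hb, pow_add, pow_mul, hx, one_pow, one_mul, pow_one]

theorem exists_local_hom (hℓ1 : ℓ % p = 1) {ζ : 𝓞 K} (hζ : IsPrimitiveRoot ζ p)
    (ψ : 𝓞 K →+* ZMod ℓ) :
    ∃ Ψ : 𝓞 F →+* ZMod ℓ, Ψ.comp (algebraMap (𝓞 K) (𝓞 F)) = ψ ∧ Ψ (xiInt ℓ K F) = 1 ∧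
      (∀ (τ : F ≃ₐ[K] F) (x : 𝓞 F), Ψ (galRestrict (𝓞 K) K F (𝓞 F) τ x) = Ψ x) ∧
      (1 - xiInt ℓ K F) ∉ (RingHom.ker Ψ) ^ 2 := by
  have hpl : p ≠ ℓ := prime_ne_of_mod hℓ1
  haveI cyc : IsCyclotomicExtension {p * ℓ} ℚ F := isCyclotomicExtension_mul p ℓ K F hpl
  haveI : NeZero (p * ℓ) := ⟨Nat.mul_ne_zero hp.out.ne_zero hℓ.out.ne_zero⟩
  haveI : NeZero ℓ := ⟨hℓ.out.ne_zero⟩
  haveI : NeZero p := ⟨hp.out.ne_zero⟩
  have hζK : IsPrimitiveRoot ((ζ : 𝓞 K) : K) p :=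
    hζ.map_of_injective (f := algebraMap (𝓞 K) K) RingOfIntegers.coe_injective
  have hξ := zeta_spec ℓ K F
  have hμ : IsPrimitiveRoot (algebraMap K F (ζ : K) * zeta ℓ K F) (p * ℓ) :=
    isPrimitiveRoot_mul hpl hζK hξ
  have hz : IsPrimitiveRoot (ψ ζ) p := isPrimitiveRoot_map_zmod hpl hζ ψ
  have hzroot : (cyclotomic p (ZMod ℓ)).eval (ψ ζ) = 0 :=
    hz.isRoot_cyclotomic hp.out.pos
  have hnd : ¬ ℓ ∣ p := fun h => hpl ((Nat.prime_dvd_prime_iff_eq hℓ.out hp.out).mp h).symm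
  have h3 : 3 ≤ ℓ := three_le_of_mod (p := p) hℓ1
  have hcyc : cyclotomic (p * ℓ) (ZMod ℓ) = cyclotomic p (ZMod ℓ) ^ (ℓ - 1) :=
    cyclotomic_mul_prime_eq_pow_of_not_dvd (ZMod ℓ) hnd
  have hroot : (cyclotomic (p * ℓ) (ZMod ℓ)).eval (ψ ζ) = 0 := by
    rw [hcyc, eval_pow, hzroot, zero_pow (by omega)]
  obtain ⟨Ψ, hΨ⟩ := exists_ringHom_of_root hμ (ψ ζ) hroot
  -- the generator as a product
  have hμint : hμ.toInteger = algebraMap (𝓞 K) (𝓞 F) ζ * xiInt ℓ K F := by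
    apply RingOfIntegers.ext
    rfl
  have hξℓ : (xiInt ℓ K F) ^ ℓ = 1 := (xiInt_isPrimitiveRoot (K := K) (F := F)).pow_eq_one
  have hζp : ζ ^ p = 1 := hζ.pow_eq_one
  have hμℓ : hμ.toInteger ^ ℓ = algebraMap (𝓞 K) (𝓞 F) ζ := by
    rw [hμint, mul_pow, hξℓ, mul_one, ← map_pow, pow_eq_self_of_mod hζp hℓ1]
  obtain ⟨p', -, hp'⟩ := Nat.exists_mul_mod_eq_one_of_coprime
    ((Nat.coprime_primes hp.out hℓ.out).mpr hpl) hℓ.out.one_lt
  have hμa : hμ.toInteger ^ (p * p') = xiInt ℓ K F := by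
    rw [hμint, mul_pow, ← map_pow, pow_mul, hζp, one_pow, map_one, one_mul,
      pow_eq_self_of_mod hξℓ hp']
  have hzp : (ψ ζ) ^ p = 1 := hz.pow_eq_one
  have hΨζ : Ψ (algebraMap (𝓞 K) (𝓞 F) ζ) = ψ ζ := by
    rw [← hμℓ, map_pow, hΨ, pow_eq_self_of_mod hzp hℓ1]
  have hΨξ : Ψ (xiInt ℓ K F) = 1 := by
    rw [← hμa, map_pow, hΨ, pow_mul, hzp, one_pow]
  have hcomp : Ψ.comp (algebraMap (𝓞 K) (𝓞 F)) = ψ := by
    apply ringHom_ext_of_gen hζK
    rw [IsPrimitiveRoot.toInteger_coe]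
    exact hΨζ
  have hgal : ∀ (τ : F ≃ₐ[K] F) (x : 𝓞 F), Ψ (galRestrict (𝓞 K) K F (𝓞 F) τ x) = Ψ x := by
    intro τ
    have hcomp' : Ψ.comp ((galRestrict (𝓞 K) K F (𝓞 F) τ : 𝓞 F ≃ₐ[𝓞 K] 𝓞 F) : 𝓞 F →+* 𝓞 F)
        = Ψ := by
      apply ringHom_ext_of_gen hμ
      rw [RingHom.comp_apply, hμint]
      obtain ⟨j, -, hj⟩ := (xiInt_isPrimitiveRoot (K := K) (F := F)).eq_pow_of_pow_eq_one
        (ξ := galRestrict (𝓞 K) K F (𝓞 F) τ (xiInt ℓ K F)) (by rw [← map_pow, hξℓ, map_one])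
      simp only [RingHom.coe_coe, map_mul, AlgEquiv.commutes]
      rw [← hj, map_pow, hΨξ, one_pow, hΨζ]
    intro x
    exact RingHom.congr_fun hcomp' x
  refine ⟨Ψ, hcomp, hΨξ, hgal, ?_⟩
  -- dual numbers
  let y₂ : DualNumber (ZMod ℓ) := TrivSqZeroExt.inl (ψ ζ) + TrivSqZeroExt.inr (ψ ζ)
  have hfst : ∀ t : DualNumber (ZMod ℓ), TrivSqZeroExt.fst t = 0 → t * t = 0 := by
    intro t ht
    have : t = TrivSqZeroExt.inr (TrivSqZeroExt.snd t) := by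
      apply TrivSqZeroExt.ext
      · simpa using ht
      · simp
    rw [this, TrivSqZeroExt.inr_mul_inr]
  have hroot₂ : (cyclotomic (p * ℓ) (DualNumber (ZMod ℓ))).eval y₂ = 0 := by
    have h1 : cyclotomic (p * ℓ) (DualNumber (ZMod ℓ)) =
        cyclotomic p (DualNumber (ZMod ℓ)) ^ (ℓ - 1) := by
      rw [← map_cyclotomic (p * ℓ) (algebraMap (ZMod ℓ) (DualNumber (ZMod ℓ))), hcyc,
        Polynomial.map_pow, map_cyclotomic]
    have h2 : TrivSqZeroExt.fst ((cyclotomic p (DualNumber (ZMod ℓ))).eval y₂) = 0 := by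
      have h := Polynomial.eval₂_hom (p := cyclotomic p (DualNumber (ZMod ℓ)))
        ((TrivSqZeroExt.fstHom (ZMod ℓ) (ZMod ℓ) (ZMod ℓ)) : DualNumber (ZMod ℓ) →+* ZMod ℓ) y₂
      rw [eval₂_eq_eval_map, map_cyclotomic] at h
      have hy₂ : ((TrivSqZeroExt.fstHom (ZMod ℓ) (ZMod ℓ) (ZMod ℓ)) :
          DualNumber (ZMod ℓ) →+* ZMod ℓ) y₂ = ψ ζ := by
        simp [y₂]
      rw [hy₂, hzroot] at h
      exact h.symm
    rw [h1, eval_pow]
    obtain ⟨k, hk⟩ : ∃ k, ℓ - 1 = 2 + k := ⟨ℓ - 3, by omega⟩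
    rw [hk, pow_add, pow_two, hfst _ h2, zero_mul]
  obtain ⟨Ψ₂, hΨ₂⟩ := exists_ringHom_of_root hμ y₂ hroot₂
  have hfstΨ₂ : ∀ x, TrivSqZeroExt.fst (Ψ₂ x) = Ψ x := by
    have hc : ((TrivSqZeroExt.fstHom (ZMod ℓ) (ZMod ℓ) (ZMod ℓ)) :
        DualNumber (ZMod ℓ) →+* ZMod ℓ).comp Ψ₂ = Ψ := by
      apply ringHom_ext_of_gen hμ
      rw [RingHom.comp_apply, hΨ₂, hΨ]
      simp [y₂]
    intro x
    exact RingHom.congr_fun hc x
  have hle : (RingHom.ker Ψ) ^ 2 ≤ RingHom.ker Ψ₂ := by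
    rw [pow_two, Ideal.mul_le]
    intro a ha b hb
    rw [RingHom.mem_ker] at ha hb ⊢
    rw [map_mul]
    have ha' : TrivSqZeroExt.fst (Ψ₂ a) = 0 := by rw [hfstΨ₂, ha]
    have hb' : TrivSqZeroExt.fst (Ψ₂ b) = 0 := by rw [hfstΨ₂, hb]
    have e1 : Ψ₂ a = TrivSqZeroExt.inr (TrivSqZeroExt.snd (Ψ₂ a)) := by
      apply TrivSqZeroExt.ext
      · simpa using ha'
      · simp
    have e2 : Ψ₂ b = TrivSqZeroExt.inr (TrivSqZeroExt.snd (Ψ₂ b)) := by
      apply TrivSqZeroExt.ext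
      · simpa using hb'
      · simp
    rw [e1, e2, TrivSqZeroExt.inr_mul_inr]
  intro hmem
  have h0 : Ψ₂ (1 - xiInt ℓ K F) = 0 := RingHom.mem_ker.mp (hle hmem)
  have hsnd : TrivSqZeroExt.snd (Ψ₂ (1 - xiInt ℓ K F)) = -1 := by
    rw [map_sub, map_one, ← hμa, map_pow, hΨ₂, TrivSqZeroExt.snd_sub, TrivSqZeroExt.snd_one,
      TrivSqZeroExt.snd_pow, zero_sub]
    congr 1
    have hy1 : TrivSqZeroExt.fst y₂ = ψ ζ := by simp [y₂]
    have hy2 : TrivSqZeroExt.snd y₂ = ψ ζ := by simp [y₂]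
    rw [hy1, hy2, smul_eq_mul, ← pow_succ, nsmul_eq_mul]
    have hpos : 0 < p * p' := by
      rcases Nat.eq_zero_or_pos (p * p') with h | h
      · rw [h] at hp'; simp at hp'
      · exact h
    rw [Nat.pred_eq_sub_one, Nat.sub_add_cancel hpos, pow_mul, hzp, one_pow, mul_one]
    have : ((p * p' : ℕ) : ZMod ℓ) = ((p * p' % ℓ : ℕ) : ZMod ℓ) := by
      rw [ZMod.natCast_mod]
    rw [this, hp', Nat.cast_one]
  rw [h0] at hsnd
  simp at hsnd

end local_hom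

end Fermat.Agent.S14.helper99

namespace Fermat.Agent.S14.helper99

open NumberField Polynomial IsCyclotomicExtension IsDedekindDomain WithZero

section local_thm

variable {p ℓ : ℕ} [hp : Fact p.Prime] [hℓ : Fact ℓ.Prime] {K : Type} [Field K] [NumberField K]
  [hK : IsCyclotomicExtension {p} ℚ K]
  {F : Type} [Field F] [NumberField F] [Algebra K F] [hF : IsCyclotomicExtension {ℓ} K F]

lemma galRestrict_thaineGen_xiInt (hirr : Irreducible (cyclotomic ℓ K)) (g : (ZMod ℓ)ˣ) :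
    galRestrict (𝓞 K) K F (𝓞 F) (thaineGen (F := F) hirr g) (xiInt ℓ K F) =
      xiInt ℓ K F ^ (g : ZMod ℓ).val := by
  apply RingOfIntegers.ext
  show algebraMap (𝓞 F) F _ = algebraMap (𝓞 F) F _
  rw [algebraMap_galRestrict_apply, map_pow]
  exact thaineGen_zeta hirr g

/-- the local computation at the prime `Λ` of `F` above `λ = ker ψ` -/
theorem thaine_local (hℓ1 : ℓ % p = 1) {ζ : 𝓞 K} (hζ : IsPrimitiveRoot ζ p)
    (ψ : 𝓞 K →+* ZMod ℓ) (hirr : Irreducible (cyclotomic ℓ K)) (g : (ZMod ℓ)ˣ) (b : ℕ)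
    (β : 𝓞 F) (hβ : β ≠ 0)
    (hεβ : (1 - algebraMap (𝓞 K) (𝓞 F) (ζ ^ b) * xiInt ℓ K F) *
      galRestrict (𝓞 K) K F (𝓞 F) (thaineGen (F := F) hirr g) β = β) :
    ∃ (w : HeightOneSpectrum (𝓞 F)) (n : ℕ), w.asIdeal.LiesOver (RingHom.ker ψ) ∧
      w.intValuation β = exp (-(n : ℤ)) ∧ ψ (1 - ζ ^ b) * (g : ZMod ℓ) ^ n = 1 := by
  obtain ⟨Ψ, hcomp, hΨξ, hgal, hnot⟩ := exists_local_hom (F := F) hℓ1 hζ ψ
  have hmem : (1 - xiInt ℓ K F) ∈ RingHom.ker Ψ := by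
    rw [RingHom.mem_ker, map_sub, map_one, hΨξ, sub_self]
  have hne : RingHom.ker Ψ ≠ ⊥ := by
    intro h
    apply hnot
    rw [h] at hmem ⊢
    rw [Ideal.mem_bot] at hmem
    rw [hmem]
    exact Ideal.zero_mem _
  let w : HeightOneSpectrum (𝓞 F) := ⟨RingHom.ker Ψ, RingHom.ker_isPrime Ψ, hne⟩
  have hlies : w.asIdeal.LiesOver (RingHom.ker ψ) := by
    constructor
    show RingHom.ker ψ = Ideal.comap (algebraMap (𝓞 K) (𝓞 F)) (RingHom.ker Ψ)
    rw [RingHom.comap_ker, hcomp]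
  have hπ : w.intValuation (1 - xiInt ℓ K F) = exp (-1 : ℤ) :=
    intValuation_eq_exp_neg_one w hmem hnot
  obtain ⟨n, hn⟩ : ∃ n : ℕ, w.intValuation β = exp (-(n : ℤ)) :=
    ⟨_, w.intValuation_if_neg hβ⟩
  refine ⟨w, n, hlies, hn, ?_⟩
  set s : 𝓞 F →+* 𝓞 F :=
    ((galRestrict (𝓞 K) K F (𝓞 F) (thaineGen (F := F) hirr g) : 𝓞 F ≃ₐ[𝓞 K] 𝓞 F) : 𝓞 F →+* 𝓞 F)
    with hs_def
  have hs : ∀ x, Ψ (s x) = Ψ x := fun x => hgal _ x
  set wg : 𝓞 F := ∑ i ∈ Finset.range (g : ZMod ℓ).val, xiInt ℓ K F ^ i with hwg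
  have hsπ : s (1 - xiInt ℓ K F) = (1 - xiInt ℓ K F) * wg := by
    rw [hwg, mul_neg_geom_sum, map_sub, map_one]
    congr 1
    exact galRestrict_thaineGen_xiInt hirr g
  have hΨwg : Ψ wg = (g : ZMod ℓ) := by
    rw [hwg, map_sum]
    simp only [map_pow, hΨξ, one_pow, Finset.sum_const, Finset.card_range, nsmul_eq_mul, mul_one]
    exact ZMod.natCast_zmod_val _
  have htame := tame_symbol w Ψ rfl s hs (1 - xiInt ℓ K F) wg hπ hsπ β
    (1 - algebraMap (𝓞 K) (𝓞 F) (ζ ^ b) * xiInt ℓ K F) hεβ n hn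
  rw [hΨwg, map_sub, map_one, map_mul, hΨξ, mul_one] at htame
  have : Ψ (algebraMap (𝓞 K) (𝓞 F) (ζ ^ b)) = ψ (ζ ^ b) := by
    rw [← hcomp]; rfl
  rw [this] at htame
  rw [map_sub, map_one]
  exact htame

end local_thm

end Fermat.Agent.S14.helper99
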