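import Mathlib
import Fermat.Agent.S14.helper9_UnitEigen
import Fermat.Agent.S14.helper15_CycE2

/-!
# helper9: the unit endgame of R2-A (task S14-R2-A-units)

Let `K = ℚ(ζ_p)`, `p ≥ 5`.  If `α ∈ Kˣ` is an `ω²`-eigenvector modulo `p`-th powers, satisfies the
local condition at `ζ - 1`, and `α = u * β ^ p` with `u` a unit of `𝓞 K`, then `α` is a `p`-th
power.  This is steps 2 and 3 of route R2: it consumes R2-U (`unit_eigenspace_dim_le_one`) and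
R2-D (`helper15.dvd_of_local`, `helper15.cycE2`).
-/

set_option autoImplicit false

namespace Fermat.Agent.S14.helper9

open NumberField

section General

variable {K : Type*} [Field K]

/-- If `k ∈ K` and `k ^ n` is a unit of `𝓞 K` (`n ≠ 0`), then `k` is a unit of `𝓞 K`. -/
lemma exists_unit_of_pow_eq_unit {n : ℕ} (hn : n ≠ 0) (w : (𝓞 K)ˣ) (k : K)
    (hk : k ^ n = ((w : 𝓞 K) : K)) : ∃ k' : (𝓞 K)ˣ, ((k' : 𝓞 K) : K) = k := by
  have hint : IsIntegral ℤ k := by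
    have h1 : IsIntegral ℤ (k ^ n) := by
      rw [hk]
      exact RingOfIntegers.isIntegral_coe _
    exact IsIntegral.of_pow (Nat.pos_of_ne_zero hn) h1
  have hint' : IsIntegral ℤ k⁻¹ := by
    have h1 : IsIntegral ℤ (k⁻¹ ^ n) := by
      have h2 : k⁻¹ ^ n = (((w⁻¹ : (𝓞 K)ˣ) : 𝓞 K) : K) := by
        rw [inv_pow, hk]
        have h3 : ((w : 𝓞 K) : K) * (((w⁻¹ : (𝓞 K)ˣ) : 𝓞 K) : K) = 1 := by
          rw [← map_mul, ← Units.val_mul, mul_inv_cancel, Units.val_one, map_one]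
        exact inv_eq_of_mul_eq_one_right h3
      rw [h2]
      exact RingOfIntegers.isIntegral_coe _
    exact IsIntegral.of_pow (Nat.pos_of_ne_zero hn) h1
  have hk0 : k ≠ 0 := by
    intro h0
    rw [h0, zero_pow hn] at hk
    have : ((w : 𝓞 K) : K) ≠ 0 := by
      intro h
      have := RingOfIntegers.coe_eq_zero_iff.mp h.symm.symm
      exact w.ne_zero this
    exact this hk.symm
  refine ⟨⟨⟨k, hint⟩, ⟨k⁻¹, hint'⟩, ?_, ?_⟩, rfl⟩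
  · apply RingOfIntegers.ext
    show k * k⁻¹ = 1
    exact mul_inv_cancel₀ hk0
  · apply RingOfIntegers.ext
    show k⁻¹ * k = 1
    exact inv_mul_cancel₀ hk0

variable [NumberField K]

/-- The `ω²`-eigen property passes from `α = u * β ^ p` to the unit `u` (with a unit `k`). -/
lemma unit_eigen_of_eq {p : ℕ} (hp0 : p ≠ 0) (ζ : K) (α : K) (hα : α ≠ 0) (u : (𝓞 K)ˣ) (β : K)
    (h : α = ((u : 𝓞 K) : K) * β ^ p)
    (hb : ∀ (σ : K ≃ₐ[ℚ] K) (n : ℕ), σ ζ = ζ ^ n → ∃ k : K, σ α = α ^ (n ^ 2) * k ^ p) :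
    ∀ (σ : K ≃ₐ[ℚ] K) (n : ℕ), σ ζ = ζ ^ n → ∃ k : (𝓞 K)ˣ,
      galRestrict ℤ ℚ K (𝓞 K) σ (u : 𝓞 K) = (u : 𝓞 K) ^ (n ^ 2) * (k : 𝓞 K) ^ p := by
  intro σ n hσ
  obtain ⟨k, hk⟩ := hb σ n hσ
  have hβ : β ≠ 0 := by
    rintro rfl
    rw [zero_pow hp0, mul_zero] at h
    exact hα h
  have hσβ : σ β ≠ 0 := (map_ne_zero σ).mpr hβ
  have hu0 : ((u : 𝓞 K) : K) ≠ 0 := by
    intro h0
    rw [h0, zero_mul] at h
    exact hα h
  -- the candidate `k' = β ^ (n^2) * k / σ β`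
  set w : (𝓞 K)ˣ := unitsGal σ u * (u ^ (n ^ 2))⁻¹ with hw
  have hwK : ((w : 𝓞 K) : K) * ((u : 𝓞 K) : K) ^ (n ^ 2) = σ ((u : 𝓞 K) : K) := by
    rw [← unitsGal_coe_coe]
    simp only [RingOfIntegers.coe_eq_algebraMap]
    rw [← map_pow, ← map_mul, ← Units.val_pow_eq_pow_val, ← Units.val_mul, hw,
      inv_mul_cancel_right]
  have hkp : (β ^ (n ^ 2) * k / σ β) ^ p = ((w : 𝓞 K) : K) := by
    have h1 : σ α = σ ((u : 𝓞 K) : K) * (σ β) ^ p := by rw [h, map_mul, map_pow]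
    rw [h1, h, mul_pow, ← hwK] at hk
    have hun : ((u : 𝓞 K) : K) ^ (n ^ 2) ≠ 0 := pow_ne_zero _ hu0
    have h2 : ((w : 𝓞 K) : K) * (σ β) ^ p = (β ^ p) ^ (n ^ 2) * k ^ p := by
      apply mul_left_cancel₀ hun
      rw [← mul_assoc, ← mul_assoc, mul_comm _ ((w : 𝓞 K) : K)]
      exact hk
    rw [div_pow, div_eq_iff (pow_ne_zero _ hσβ), h2, mul_pow, ← pow_mul, ← pow_mul, mul_comm p]
  obtain ⟨k', hk'⟩ := exists_unit_of_pow_eq_unit hp0 w _ hkp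
  refine ⟨k', ?_⟩
  apply RingOfIntegers.coe_injective
  have h4 : algebraMap (𝓞 K) K (galRestrict ℤ ℚ K (𝓞 K) σ (u : 𝓞 K)) = σ ((u : 𝓞 K) : K) :=
    algebraMap_galRestrict_apply ℤ σ (u : 𝓞 K)
  rw [h4, map_mul, map_pow, map_pow, ← hwK, ← hkp, ← hk', mul_comm]

/-- Removing the maximal power of a prime element. -/
lemma exists_pow_mul_not_dvd {R : Type*} [CommRing R] [IsDomain R] [WfDvdMonoid R]
    {π : R} (hπ : Prime π) {c : R} (hc : c ≠ 0) :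
    ∃ (m : ℕ) (c' : R), c = π ^ m * c' ∧ ¬ π ∣ c' := by
  obtain ⟨m, c', hc', h⟩ := WfDvdMonoid.max_power_factor hc hπ.irreducible
  exact ⟨m, c', h, hc'⟩

/-- Comparing the exact powers of a prime element on both sides of an equation. -/
lemma pow_mul_eq_pow_mul_of_not_dvd {R : Type*} [CommRing R] [IsDomain R] {π : R} (hπ : Prime π)
    {m n : ℕ} {x y : R} (hx : ¬ π ∣ x) (hy : ¬ π ∣ y) (h : π ^ m * x = π ^ n * y) :
    m = n ∧ x = y := by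
  have hπ0 : π ≠ 0 := hπ.ne_zero
  rcases lt_trichotomy m n with hlt | heq | hgt
  · exfalso
    obtain ⟨d, rfl⟩ := Nat.exists_eq_add_of_lt hlt
    apply hx
    have : π ^ m * x = π ^ m * (π * (π ^ d * y)) := by rw [h]; ring
    have := mul_left_cancel₀ (pow_ne_zero m hπ0) this
    exact ⟨_, this⟩
  · subst heq
    exact ⟨rfl, mul_left_cancel₀ (pow_ne_zero m hπ0) h⟩
  · exfalso
    obtain ⟨d, rfl⟩ := Nat.exists_eq_add_of_lt hgt
    apply hy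
    have : π ^ n * y = π ^ n * (π * (π ^ d * x)) := by rw [← h]; ring
    have := mul_left_cancel₀ (pow_ne_zero n hπ0) this
    exact ⟨_, this⟩

end General

section Cyclo

variable {p : ℕ} [Fact p.Prime] {K : Type*} [Field K] [NumberField K]
  [IsCyclotomicExtension {p} ℚ K]

/-- **Unit endgame of R2-A** (steps 2 and 3 of route R2): if `α = u * β ^ p` with `u` a unit,
`α` is an `ω²`-eigenvector modulo `p`-th powers and satisfies the local condition at `ζ - 1`,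
then `α` is a `p`-th power. -/
theorem core_kummer_of_principal (hp : 5 ≤ p) {ζ : 𝓞 K} (hζ : IsPrimitiveRoot ζ p) (α : K)
    (hα : α ≠ 0)
    (hb : ∀ (σ : K ≃ₐ[ℚ] K) (n : ℕ), σ (ζ : K) = (ζ : K) ^ n →
      ∃ k : K, σ α = α ^ (n ^ 2) * k ^ p)
    (hd : ∃ (a b : 𝓞 K) (x : ℤ), ¬ (ζ - 1 ∣ a) ∧ ¬ (ζ - 1 ∣ b) ∧ α * (b : K) = (a : K) ∧
      (ζ - 1) ^ 3 ∣ a - x * b)
    (hprinc : ∃ (u : (𝓞 K)ˣ) (β : K), α = ((u : 𝓞 K) : K) * β ^ p) :
    ∃ β : K, β ^ p = α := by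
  classical
  obtain ⟨u, β, hαu⟩ := hprinc
  obtain ⟨a, b, x, ha, hb', hab, hx⟩ := hd
  have hpp : p.Prime := Fact.out
  have hp0 : p ≠ 0 := hpp.ne_zero
  have hζK : IsPrimitiveRoot (ζ : K) p := helper15.isPrimitiveRoot_coe hζ
  have hpi : Prime (ζ - 1) := helper15.zeta_sub_one_prime_int hζ
  have hunit : ∀ v : (𝓞 K)ˣ, ¬ (ζ - 1 ∣ (v : 𝓞 K)) := fun v h =>
    hpi.not_isUnit (isUnit_of_dvd_unit h v.isUnit)
  -- the unit `u` is an eigenvector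
  have hu := unit_eigen_of_eq hp0 (ζ : K) α hα u β hαu hb
  -- the cyclotomic unit
  obtain ⟨E, -, hEeig, hEloc⟩ := helper15.exists_cycE2 hp hζ
  have hEnot : ¬ ∃ k : (𝓞 K)ˣ, k ^ p = E := by
    rintro ⟨k, hk⟩
    have h1 : (E : 𝓞 K) ^ 1 * (1 : 𝓞 K) ^ p * 1 = 1 * (k : 𝓞 K) ^ p := by
      rw [pow_one, one_pow, mul_one, mul_one, one_mul, ← hk, Units.val_pow_eq_pow_val]
    have h2 : ¬ (ζ - 1 ∣ (1 : 𝓞 K)) := fun h => hpi.not_isUnit (isUnit_of_dvd_one h)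
    have h3 : (ζ - 1) ^ 3 ∣ (1 : 𝓞 K) - ((1 : ℤ) : 𝓞 K) * 1 := by
      rw [Int.cast_one, mul_one, sub_self]
      exact dvd_zero _
    have := hEloc 1 1 1 1 (k : 𝓞 K) 1 h2 h2 h2 (hunit k) h1 h3
    exact hpp.one_lt.ne' (Nat.dvd_one.mp this)
  -- R2-U
  obtain ⟨j, k, hujk⟩ := unit_eigenspace_dim_le_one hp hζK u E hu hEeig hEnot
  -- `α = E ^ j * γ ^ p`
  set γ : K := ((k : 𝓞 K) : K) * β with hγ
  have hαγ : α = ((E : 𝓞 K) : K) ^ j * γ ^ p := by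
    rw [hαu, hujk, hγ, mul_pow, Units.val_mul, Units.val_pow_eq_pow_val, Units.val_pow_eq_pow_val]
    simp only [RingOfIntegers.coe_eq_algebraMap, map_mul, map_pow]
    ring
  have hγ0 : γ ≠ 0 := by
    intro h0
    rw [h0, zero_pow hp0, mul_zero] at hαγ
    exact hα hαγ
  -- write `γ = c₀ / d₀`
  obtain ⟨c₀, d₀, hd₀, hcd⟩ := IsFractionRing.div_surjective (A := 𝓞 K) γ
  have hd₀0 : d₀ ≠ 0 := nonZeroDivisors.ne_zero hd₀
  have hd₀K : algebraMap (𝓞 K) K d₀ ≠ 0 := by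
    rwa [Ne, RingOfIntegers.coe_eq_zero_iff]
  have hc₀0 : c₀ ≠ 0 := by
    rintro rfl
    rw [map_zero, zero_div] at hcd
    exact hγ0 hcd.symm
  obtain ⟨m, c, hc, hcπ⟩ := exists_pow_mul_not_dvd hpi hc₀0
  obtain ⟨m', d, hd, hdπ⟩ := exists_pow_mul_not_dvd hpi hd₀0
  -- the equation in `𝓞 K`
  have heq : (ζ - 1) ^ (p * m) * ((E : 𝓞 K) ^ j * c ^ p * b)
      = (ζ - 1) ^ (p * m') * (a * d ^ p) := by
    apply RingOfIntegers.coe_injective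
    have h1 : algebraMap (𝓞 K) K a = α * algebraMap (𝓞 K) K b := hab.symm
    have h2 : γ * algebraMap (𝓞 K) K d₀ = algebraMap (𝓞 K) K c₀ := by
      rw [← hcd, div_mul_cancel₀ _ hd₀K]
    have h3 : algebraMap (𝓞 K) K ((ζ - 1) ^ (p * m) * ((E : 𝓞 K) ^ j * c ^ p * b))
        = algebraMap (𝓞 K) K (E : 𝓞 K) ^ j * algebraMap (𝓞 K) K c₀ ^ p
          * algebraMap (𝓞 K) K b := by
      rw [hc]
      simp only [map_mul, map_pow]
      ring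
    have h4 : algebraMap (𝓞 K) K ((ζ - 1) ^ (p * m') * (a * d ^ p))
        = algebraMap (𝓞 K) K a * algebraMap (𝓞 K) K d₀ ^ p := by
      rw [hd]
      simp only [map_mul, map_pow]
      ring
    rw [h3, h4, h1, ← h2, hαγ]
    simp only [RingOfIntegers.coe_eq_algebraMap]
    ring
  have hL : ¬ (ζ - 1 ∣ (E : 𝓞 K) ^ j * c ^ p * b) := by
    intro h
    rcases hpi.dvd_or_dvd h with h | h
    · rcases hpi.dvd_or_dvd h with h | h
      · exact hunit E (hpi.dvd_of_dvd_pow h)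
      · exact hcπ (hpi.dvd_of_dvd_pow h)
    · exact hb' h
  have hR : ¬ (ζ - 1 ∣ a * d ^ p) := by
    intro h
    rcases hpi.dvd_or_dvd h with h | h
    · exact ha h
    · exact hdπ (hpi.dvd_of_dvd_pow h)
  have heq' : (E : 𝓞 K) ^ j * c ^ p * b = a * d ^ p :=
    (pow_mul_eq_pow_mul_of_not_dvd hpi hL hR heq).2
  have hpj : p ∣ j := hEloc j a b c d x ha hb' hcπ hdπ heq' hx
  obtain ⟨j', rfl⟩ := hpj
  exact ⟨((E : 𝓞 K) : K) ^ j' * γ, by rw [hαγ, mul_pow, ← pow_mul, mul_comm j' p]⟩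

omit [Fact p.Prime] [IsCyclotomicExtension {p} ℚ K] in
/-- Glue: if `(α) = (γ) ^ p` as fractional ideals then `α = u * γ ^ p` with `u` a unit. -/
lemma exists_unit_mul_pow_of_spanSingleton {α γ : K}
    (h : FractionalIdeal.spanSingleton (nonZeroDivisors (𝓞 K)) α
      = FractionalIdeal.spanSingleton (nonZeroDivisors (𝓞 K)) γ ^ p) :
    ∃ (u : (𝓞 K)ˣ) (β : K), α = ((u : 𝓞 K) : K) * β ^ p := by
  rw [FractionalIdeal.spanSingleton_pow] at h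
  obtain ⟨z, hz⟩ := FractionalIdeal.spanSingleton_eq_spanSingleton.mp h.symm
  refine ⟨z, γ, ?_⟩
  rw [← hz, Units.smul_def, Algebra.smul_def]

/-- **R2-A from a principal `I`** (generator form). -/
theorem core_kummer_of_class_trivial (hp : 5 ≤ p) {ζ : 𝓞 K} (hζ : IsPrimitiveRoot ζ p) (α : K)
    (hα : α ≠ 0)
    (hb : ∀ (σ : K ≃ₐ[ℚ] K) (n : ℕ), σ (ζ : K) = (ζ : K) ^ n →
      ∃ k : K, σ α = α ^ (n ^ 2) * k ^ p)
    (hd : ∃ (a b : 𝓞 K) (x : ℤ), ¬ (ζ - 1 ∣ a) ∧ ¬ (ζ - 1 ∣ b) ∧ α * (b : K) = (a : K) ∧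
      (ζ - 1) ^ 3 ∣ a - x * b)
    (I : FractionalIdeal (nonZeroDivisors (𝓞 K)) K)
    (hI : FractionalIdeal.spanSingleton (nonZeroDivisors (𝓞 K)) α = I ^ p)
    (hprincI : ∃ γ : K, I = FractionalIdeal.spanSingleton (nonZeroDivisors (𝓞 K)) γ) :
    ∃ β : K, β ^ p = α := by
  obtain ⟨γ, rfl⟩ := hprincI
  exact core_kummer_of_principal hp hζ α hα hb hd (exists_unit_mul_pow_of_spanSingleton hI)

/-- **R2-A from a principal `I`** (`Submodule.IsPrincipal` form). -/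
theorem core_kummer_of_isPrincipal (hp : 5 ≤ p) {ζ : 𝓞 K} (hζ : IsPrimitiveRoot ζ p) (α : K)
    (hα : α ≠ 0)
    (hb : ∀ (σ : K ≃ₐ[ℚ] K) (n : ℕ), σ (ζ : K) = (ζ : K) ^ n →
      ∃ k : K, σ α = α ^ (n ^ 2) * k ^ p)
    (hd : ∃ (a b : 𝓞 K) (x : ℤ), ¬ (ζ - 1 ∣ a) ∧ ¬ (ζ - 1 ∣ b) ∧ α * (b : K) = (a : K) ∧
      (ζ - 1) ^ 3 ∣ a - x * b)
    (I : FractionalIdeal (nonZeroDivisors (𝓞 K)) K)
    (hI : FractionalIdeal.spanSingleton (nonZeroDivisors (𝓞 K)) α = I ^ p)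
    (hprincI : (I : Submodule (𝓞 K) K).IsPrincipal) :
    ∃ β : K, β ^ p = α :=
  core_kummer_of_class_trivial hp hζ α hα hb hd I hI ((FractionalIdeal.isPrincipal_iff I).mp hprincI)

/-- **R2-A from a trivial ideal class** (`ClassGroup.mk` form). -/
theorem core_kummer_of_mk_eq_one (hp : 5 ≤ p) {ζ : 𝓞 K} (hζ : IsPrimitiveRoot ζ p) (α : K)
    (hα : α ≠ 0)
    (hb : ∀ (σ : K ≃ₐ[ℚ] K) (n : ℕ), σ (ζ : K) = (ζ : K) ^ n →
      ∃ k : K, σ α = α ^ (n ^ 2) * k ^ p)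
    (hd : ∃ (a b : 𝓞 K) (x : ℤ), ¬ (ζ - 1 ∣ a) ∧ ¬ (ζ - 1 ∣ b) ∧ α * (b : K) = (a : K) ∧
      (ζ - 1) ^ 3 ∣ a - x * b)
    (I : (FractionalIdeal (nonZeroDivisors (𝓞 K)) K)ˣ)
    (hI : FractionalIdeal.spanSingleton (nonZeroDivisors (𝓞 K)) α
      = (I : FractionalIdeal (nonZeroDivisors (𝓞 K)) K) ^ p)
    (hcl : ClassGroup.mk K I = 1) :
    ∃ β : K, β ^ p = α :=
  core_kummer_of_isPrincipal hp hζ α hα hb hd I hI ((ClassGroup.mk_eq_one_iff).mp hcl)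

end Cyclo

end Fermat.Agent.S14.helper9
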